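import Mathlib
import Fermat.Agent.SQ.Defs
import Fermat.Agent.SS.Germ.Main
import Fermat.Agent.SS.K.Krull

/-!
# Program Q (S36), package SQ/Germ : THE ABSTRACT COMMUTATIVE ALGEBRA OF GERM² (prefix `sqga`)

Setting of S18 package T : `A` a DVR of characteristic `0` with uniformiser `ϖ`, `L = Frac A`,
`P = s18tInt A t ⊂ F` the chart ring, `V₁, V₂, V₃` the three valuation rings of `F` above the Gauss
ring (ramification `(1, e₂, 1)`), `𝔭ᵢ = P ∩ 𝔪_{Vᵢ}`, `𝔫` a prime of `P` containing `ϖ`.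

THE PRINCIPLE : `P_𝔫` is regular (`SqGermReg`) as soon as ONE vertical component `𝔭_V` through `𝔫`
is locally principal at `𝔫` (`SqgaPrin`) and the branch `P_𝔫 / 𝔭_V P_𝔫` has a principal maximal
ideal (`SsgaGen`).

* `SqgaThree ϖ t e₂ V₁ V₂ V₃` : what GERM² uses of VAL² (`P ⊆ V₁ ∩ V₂ ∩ V₃`, `ϖ ∈ 𝔪ᵢ`,
  `𝔪₂^{e₂} ⊆ ϖ V₂`, saturation `P ∩ 𝔪₁ ∩ ϖ V₂ ∩ 𝔪₃ = ϖ P`); `sqga_three_of_sqvThree`;
* `SqgaOn t 𝔫 V` : `𝔭_V ⊆ 𝔫`;  `SqgaPrin t 𝔫 V u` : `𝔭_V P_𝔫 = u P_𝔫`;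
* `sqga_reg_of_prin`, `sqga_branch_of_gen` : the assembly of `SqGermReg`, `SqBranch`;
* `sqga_prin_one₁`, `sqga_prin_one₃` (P1) : on one component of multiplicity one only, `𝔭 P_𝔫 = ϖ P_𝔫`;
* `sqga_prin_two` (P2) : on the component of multiplicity `e₂` only, `𝔭₂ P_𝔫 = π P_𝔫` for ANY
  `π ∈ P_𝔫 ∩ 𝔪₂` with `ϖ ∈ π^{e₂} P_𝔫`;
* `sqga_prin₃_of_node`, `sqga_prin₁_of_node` (P3) : over a node of thickness one of the lower level.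
-/

set_option autoImplicit false
set_option linter.unusedSectionVars false
set_option linter.unusedVariables false

noncomputable section

namespace Fermat.Agent.SQ

open Polynomial IntermediateField AlgebraicCurve Fermat.Agent.S18 Fermat.Agent.SS Fermat.Agent.G
  IsLocalRing

universe u

variable {A : Type*} [CommRing A] [IsDomain A] [IsDiscreteValuationRing A] [CharZero A]
variable {L : Type*} [Field L] [Algebra A L] [IsFractionRing A L]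
variable {F : Type u} [Field F] [Algebra A F] [Algebra L F] [IsScalarTower A L F]
variable {ϖ : A}

/-! ### what GERM² uses of VAL² -/

/-- what GERM² uses of VAL² : `P ⊆ V₁ ∩ V₂ ∩ V₃`, `ϖ ∈ 𝔪₁ ∩ 𝔪₂ ∩ 𝔪₃`, `𝔪₂^{e₂} ⊆ ϖ V₂` and the
saturation `P ∩ 𝔪₁ ∩ ϖ V₂ ∩ 𝔪₃ = ϖ P`. -/
structure SqgaThree (ϖ : A) (t : F) (e₂ : ℕ) (V₁ V₂ V₃ : ValuationSubring F) : Prop where
  le₁ : ∀ x ∈ s18tInt A t, x ∈ V₁
  le₂ : ∀ x ∈ s18tInt A t, x ∈ V₂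
  le₃ : ∀ x ∈ s18tInt A t, x ∈ V₃
  unif₁ : algebraMap A F ϖ ∈ V₁.nonunits
  unif₂ : algebraMap A F ϖ ∈ V₂.nonunits
  unif₃ : algebraMap A F ϖ ∈ V₃.nonunits
  e₂_pos : 0 < e₂
  pow₂ : ∀ y ∈ V₂.nonunits, V₂.valuation y ^ e₂ ≤ V₂.valuation (algebraMap A F ϖ)
  sat : ∀ x ∈ s18tInt A t, x ∈ V₁.nonunits →
    V₂.valuation x ≤ V₂.valuation (algebraMap A F ϖ) → x ∈ V₃.nonunits →
    ∃ y ∈ s18tInt A t, x = algebraMap A F ϖ * y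

theorem SqgaThree.symm {t : F} {e₂ : ℕ} {V₁ V₂ V₃ : ValuationSubring F}
    (h : SqgaThree ϖ t e₂ V₁ V₂ V₃) : SqgaThree ϖ t e₂ V₃ V₂ V₁ :=
  ⟨h.le₃, h.le₂, h.le₁, h.unif₃, h.unif₂, h.unif₁, h.e₂_pos, h.pow₂,
    fun x hx h3 h2 h1 => h.sat x hx h1 h2 h3⟩

/-- `algebraMap A F` is injective -/
theorem sqga_algebraMap_injective (K : Type*) [Field K] [Algebra A K] [IsFractionRing A K]
    [Algebra K F] [IsScalarTower A K F] : Function.Injective (algebraMap A F) := by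
  rw [IsScalarTower.algebraMap_eq A K F]
  exact (algebraMap K F).injective.comp (IsFractionRing.injective A K)

theorem sqga_pi_ne_zero (K : Type*) [Field K] [Algebra A K] [IsFractionRing A K]
    [Algebra K F] [IsScalarTower A K F] (hϖ : Irreducible ϖ) : algebraMap A F ϖ ≠ 0 := fun h =>
  hϖ.ne_zero (sqga_algebraMap_injective (F := F) K (by rw [h, map_zero]))

/-! ### components through `𝔫`, principal components -/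

/-- `𝔭_V = P ∩ 𝔪_V ⊆ 𝔫` : the point `𝔫` lies on the component `V`. -/
def SqgaOn (t : F) (𝔫 : Ideal ↥(s18tInt A t)) (V : ValuationSubring F) : Prop :=
  ∀ p : ↥(s18tInt A t), (p : F) ∈ V.nonunits → p ∈ 𝔫

/-- `𝔭_V P_𝔫 = u P_𝔫` : the component `V` is locally principal at `𝔫`, generated by `u`. -/
def SqgaPrin (t : F) (𝔫 : Ideal ↥(s18tInt A t)) (V : ValuationSubring F) (u : F) : Prop :=
  SsnfInMax t 𝔫 u ∧ u ∈ V.nonunits ∧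
    ∀ y : ↥(s18tInt A t), (y : F) ∈ V.nonunits →
      ∃ s : ↥(s18tInt A t), s ∉ 𝔫 ∧ ∃ c : ↥(s18tInt A t), (s : F) * (y : F) = (c : F) * u

variable {t : F} {𝔫 : Ideal ↥(s18tInt A t)}

/-- `𝔭_V` is a prime ideal of `P`. -/
theorem sqga_ideal_isPrime (V : ValuationSubring F) (hle : ∀ x ∈ s18tInt A t, x ∈ V) :
    (ssgrIdeal (s18tInt A t) V hle).IsPrime := by
  refine ⟨fun h => ?_, fun {a b} hab => ?_⟩
  · have h1 : (1 : ↥(s18tInt A t)) ∈ ssgrIdeal (s18tInt A t) V hle := by rw [h]; trivial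
    rw [mem_ssgrIdeal, V.mem_nonunits_iff, OneMemClass.coe_one, map_one] at h1
    exact lt_irrefl _ h1
  · rw [mem_ssgrIdeal, V.mem_nonunits_iff, Subring.coe_mul, map_mul] at hab
    rw [mem_ssgrIdeal, mem_ssgrIdeal, V.mem_nonunits_iff, V.mem_nonunits_iff]
    by_contra hcon
    push Not at hcon
    have ha : V.valuation (a : F) = 1 :=
      le_antisymm ((V.valuation_le_one_iff _).mpr (hle _ a.2)) hcon.1
    have hb : V.valuation (b : F) = 1 :=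
      le_antisymm ((V.valuation_le_one_iff _).mpr (hle _ b.2)) hcon.2
    rw [ha, hb, one_mul] at hab
    exact lt_irrefl _ hab

/-- THE ASSEMBLY OF `SqGermReg` : a locally principal component `𝔭_V P_𝔫 = u P_𝔫` and a generator
`g` of `𝔫` modulo `𝔭_V` : `𝔫 P_𝔫 = (u, g)`. -/
theorem sqga_reg_of_prin [h𝔫 : 𝔫.IsPrime] {V : ValuationSubring F} {u : F}
    (hu : SqgaPrin t 𝔫 V u) (g : ↥(s18tInt A t)) (hg : g ∈ 𝔫) (hG : SsgaGen t 𝔫 V (g : F)) :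
    SqGermReg t 𝔫 := by
  refine ⟨u, (g : F), hu.1, ssgm_inMax_of_mem hg, fun x hx => ?_⟩
  obtain ⟨s, hs, c, hsc⟩ := hG x hx
  obtain ⟨s', hs', c', hsc'⟩ := hu.2.2 (s * x - c * g) (by
    rw [AddSubgroupClass.coe_sub, Subring.coe_mul, Subring.coe_mul]; exact hsc)
  refine ⟨s' * s, fun h => (h𝔫.mem_or_mem h).elim hs' hs, c', s' * c, ?_⟩
  rw [AddSubgroupClass.coe_sub, Subring.coe_mul, Subring.coe_mul] at hsc'
  rw [Subring.coe_mul, Subring.coe_mul]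
  linear_combination hsc'

/-- THE ASSEMBLY OF `SqBranch` : a generator `g` of `𝔫` modulo `𝔭_V`. -/
theorem sqga_branch_of_gen [h𝔫 : 𝔫.IsPrime] {V : ValuationSubring F}
    (hle : ∀ x ∈ s18tInt A t, x ∈ V) (hon : SqgaOn t 𝔫 V)
    (g : ↥(s18tInt A t)) (hg : g ∈ 𝔫) (hG : SsgaGen t 𝔫 V (g : F)) :
    SqBranch t 𝔫 (ssgrIdeal (s18tInt A t) V hle) := by
  refine ⟨sqga_ideal_isPrime V hle, fun p hp => hon p hp, (g : F), ssgm_inMax_of_mem hg,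
    fun x hx => ?_⟩
  obtain ⟨s, hs, c, hsc⟩ := hG x hx
  refine ⟨s, hs, c, s * x - c * g, ?_, ?_⟩
  · rw [mem_ssgrIdeal, AddSubgroupClass.coe_sub, Subring.coe_mul, Subring.coe_mul]; exact hsc
  · rw [AddSubgroupClass.coe_sub, Subring.coe_mul, Subring.coe_mul]; ring

/-! ### (P1) a point on one component of multiplicity one only -/

section Prin

variable {e₂ : ℕ} {V₁ V₂ V₃ : ValuationSubring F}

theorem sqga_val_le_one (V : ValuationSubring F) (hle : ∀ x ∈ s18tInt A t, x ∈ V)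
    (p : ↥(s18tInt A t)) : V.valuation (p : F) ≤ 1 :=
  (V.valuation_le_one_iff _).mpr (hle _ p.2)

/-- (P1) if `𝔫` lies neither on `V₂` nor on `V₃` then `𝔭₁ P_𝔫 = ϖ P_𝔫`. -/
theorem sqga_prin_one₁ [h𝔫 : 𝔫.IsPrime] (h3 : SqgaThree ϖ t e₂ V₁ V₂ V₃) (hϖ𝔫 : sskPi ϖ t ∈ 𝔫)
    (b₂ : ↥(s18tInt A t)) (hb₂ : (b₂ : F) ∈ V₂.nonunits) (hb₂𝔫 : b₂ ∉ 𝔫)
    (b₃ : ↥(s18tInt A t)) (hb₃ : (b₃ : F) ∈ V₃.nonunits) (hb₃𝔫 : b₃ ∉ 𝔫) :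
    SqgaPrin t 𝔫 V₁ (algebraMap A F ϖ) := by
  refine ⟨ssgm_inMax_of_mem hϖ𝔫, h3.unif₁, fun y hy => ?_⟩
  have hx1 : ((y * b₂ ^ e₂ * b₃ : ↥(s18tInt A t)) : F) ∈ V₁.nonunits := by
    rw [Subring.coe_mul, Subring.coe_mul, mul_assoc]
    exact ssgr_nu_mul_left V₁ hy (V₁.mul_mem _ _ (h3.le₁ _ (b₂ ^ e₂).2) (h3.le₁ _ b₃.2))
  have hx2 : V₂.valuation ((y * b₂ ^ e₂ * b₃ : ↥(s18tInt A t)) : F) ≤
      V₂.valuation (algebraMap A F ϖ) := by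
    rw [Subring.coe_mul, Subring.coe_mul, Subring.coe_pow, map_mul, map_mul, map_pow]
    calc V₂.valuation (y : F) * V₂.valuation (b₂ : F) ^ e₂ * V₂.valuation (b₃ : F)
        ≤ 1 * V₂.valuation (algebraMap A F ϖ) * 1 :=
          mul_le_mul' (mul_le_mul' (sqga_val_le_one V₂ h3.le₂ y) (h3.pow₂ _ hb₂))
            (sqga_val_le_one V₂ h3.le₂ b₃)
      _ = V₂.valuation (algebraMap A F ϖ) := by rw [one_mul, mul_one]
  have hx3 : ((y * b₂ ^ e₂ * b₃ : ↥(s18tInt A t)) : F) ∈ V₃.nonunits := by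
    rw [Subring.coe_mul]
    exact ssgr_nu_mul_right V₃ (h3.le₃ _ (y * b₂ ^ e₂).2) hb₃
  obtain ⟨p, hp, hxp⟩ := h3.sat _ (y * b₂ ^ e₂ * b₃).2 hx1 hx2 hx3
  refine ⟨b₂ ^ e₂ * b₃, fun h => (h𝔫.mem_or_mem h).elim
    (fun h' => hb₂𝔫 (h𝔫.mem_of_pow_mem _ h')) hb₃𝔫, ⟨p, hp⟩, ?_⟩
  rw [Subring.coe_mul, Subring.coe_mul] at hxp
  rw [Subring.coe_mul]
  linear_combination hxp

/-- (P1') if `𝔫` lies neither on `V₁` nor on `V₂` then `𝔭₃ P_𝔫 = ϖ P_𝔫`. -/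
theorem sqga_prin_one₃ [h𝔫 : 𝔫.IsPrime] (h3 : SqgaThree ϖ t e₂ V₁ V₂ V₃) (hϖ𝔫 : sskPi ϖ t ∈ 𝔫)
    (b₁ : ↥(s18tInt A t)) (hb₁ : (b₁ : F) ∈ V₁.nonunits) (hb₁𝔫 : b₁ ∉ 𝔫)
    (b₂ : ↥(s18tInt A t)) (hb₂ : (b₂ : F) ∈ V₂.nonunits) (hb₂𝔫 : b₂ ∉ 𝔫) :
    SqgaPrin t 𝔫 V₃ (algebraMap A F ϖ) :=
  sqga_prin_one₁ h3.symm hϖ𝔫 b₂ hb₂ hb₂𝔫 b₁ hb₁ hb₁𝔫

/-! ### (P2) a point on the component of multiplicity `e₂` only -/

/-- (P2) if `𝔫` lies on `V₂` only and `π ∈ P_𝔫 ∩ 𝔪₂` satisfies `ϖ ∈ π^{e₂} P_𝔫`, then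
`𝔭₂ P_𝔫 = π P_𝔫` (`P` is integrally closed : `(y/π)^{e₂} ∈ P_𝔫 ⟹ y/π ∈ P_𝔫`). -/
theorem sqga_prin_two [h𝔫 : 𝔫.IsPrime] (K : Type*) [Field K] [Algebra A K] [IsFractionRing A K]
    [Algebra K F] [IsScalarTower A K F] (hϖ : Irreducible ϖ)
    (h3 : SqgaThree ϖ t e₂ V₁ V₂ V₃) (hon : SqgaOn t 𝔫 V₂)
    (b₁ : ↥(s18tInt A t)) (hb₁ : (b₁ : F) ∈ V₁.nonunits) (hb₁𝔫 : b₁ ∉ 𝔫)
    (b₃ : ↥(s18tInt A t)) (hb₃ : (b₃ : F) ∈ V₃.nonunits) (hb₃𝔫 : b₃ ∉ 𝔫)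
    (π w : F) (hπ : SsnfInLoc t 𝔫 π) (hπ₂ : π ∈ V₂.nonunits) (hw : SsnfInLoc t 𝔫 w)
    (hϖπ : algebraMap A F ϖ = π ^ e₂ * w) : SqgaPrin t 𝔫 V₂ π := by
  have hϖ0 : algebraMap A F ϖ ≠ 0 := sqga_pi_ne_zero K hϖ
  have he₂ : e₂ ≠ 0 := h3.e₂_pos.ne'
  have hπ0 : π ≠ 0 := by
    rintro rfl
    rw [zero_pow he₂, zero_mul] at hϖπ
    exact hϖ0 hϖπ
  obtain ⟨s₀, hs₀, hs₀π⟩ := hπ
  refine ⟨⟨s₀, hs₀, ⟨_, hs₀π⟩, hon _ (ssgr_nu_mul_right V₂ (h3.le₂ _ s₀.2) hπ₂), rfl⟩, hπ₂,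
    fun y hy => ?_⟩
  have hx1 : ((y ^ e₂ * b₁ * b₃ : ↥(s18tInt A t)) : F) ∈ V₁.nonunits := by
    rw [Subring.coe_mul, Subring.coe_mul]
    exact ssgr_nu_mul_left V₁ (ssgr_nu_mul_right V₁ (h3.le₁ _ (y ^ e₂).2) hb₁) (h3.le₁ _ b₃.2)
  have hx2 : V₂.valuation ((y ^ e₂ * b₁ * b₃ : ↥(s18tInt A t)) : F) ≤
      V₂.valuation (algebraMap A F ϖ) := by
    rw [Subring.coe_mul, Subring.coe_mul, Subring.coe_pow, map_mul, map_mul, map_pow]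
    calc V₂.valuation (y : F) ^ e₂ * V₂.valuation (b₁ : F) * V₂.valuation (b₃ : F)
        ≤ V₂.valuation (algebraMap A F ϖ) * 1 * 1 :=
          mul_le_mul' (mul_le_mul' (h3.pow₂ _ hy) (sqga_val_le_one V₂ h3.le₂ b₁))
            (sqga_val_le_one V₂ h3.le₂ b₃)
      _ = V₂.valuation (algebraMap A F ϖ) := by rw [mul_one, mul_one]
  have hx3 : ((y ^ e₂ * b₁ * b₃ : ↥(s18tInt A t)) : F) ∈ V₃.nonunits := by
    rw [Subring.coe_mul]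
    exact ssgr_nu_mul_right V₃ (h3.le₃ _ (y ^ e₂ * b₁).2) hb₃
  obtain ⟨p, hp, hxp⟩ := h3.sat _ (y ^ e₂ * b₁ * b₃).2 hx1 hx2 hx3
  rw [Subring.coe_mul, Subring.coe_mul, Subring.coe_pow] at hxp
  obtain ⟨sw, hsw, hsww⟩ := hw
  -- `d := s_w b₁ b₃`, `ρ := y / π`, `d ρ^{e₂} = (s_w w) p ∈ P`
  obtain ⟨d, hd𝔫, hdF⟩ : ∃ d : ↥(s18tInt A t), d ∉ 𝔫 ∧ (d : F) = (sw : F) * (b₁ : F) * (b₃ : F) :=
    ⟨sw * b₁ * b₃, fun h => (h𝔫.mem_or_mem h).elim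
      (fun h' => (h𝔫.mem_or_mem h').elim hsw hb₁𝔫) hb₃𝔫, by
      rw [Subring.coe_mul, Subring.coe_mul]⟩
  have hπe : π ^ e₂ ≠ 0 := pow_ne_zero _ hπ0
  have hdρ : (d : F) * ((y : F) / π) ^ e₂ ∈ s18tInt A t := by
    have e : (d : F) * ((y : F) / π) ^ e₂ = ((sw : F) * w) * p := by
      rw [hdF, div_pow, mul_div_assoc', div_eq_iff hπe]
      have h1 : (sw : F) * (b₁ : F) * (b₃ : F) * (y : F) ^ e₂ =
          (sw : F) * ((y : F) ^ e₂ * (b₁ : F) * (b₃ : F)) := by ring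
      rw [h1, hxp, hϖπ]
      ring
    rw [e]
    exact Subring.mul_mem _ hsww hp
  have hint : (d : F) * ((y : F) / π) ∈ s18tInt A t := by
    apply sskr_mem_of_isIntegral t
    apply IsIntegral.of_pow h3.e₂_pos
    have e : ((d : F) * ((y : F) / π)) ^ e₂ =
        algebraMap ↥(s18tInt A t) F (d ^ (e₂ - 1) * ⟨_, hdρ⟩) := by
      show _ = ((d ^ (e₂ - 1) * ⟨_, hdρ⟩ : ↥(s18tInt A t)) : F)
      rw [Subring.coe_mul, Subring.coe_pow]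
      show _ = (d : F) ^ (e₂ - 1) * ((d : F) * ((y : F) / π) ^ e₂)
      rw [mul_pow, ← mul_assoc, ← pow_succ, Nat.sub_add_cancel h3.e₂_pos]
    rw [e]
    exact isIntegral_algebraMap
  refine ⟨d, hd𝔫, ⟨_, hint⟩, ?_⟩
  show (d : F) * (y : F) = (d : F) * ((y : F) / π) * π
  rw [mul_assoc, div_mul_cancel₀ _ hπ0]

/-! ### (P3) a point over a node of thickness one -/

/-- (P3) `r ϖ = u w m` with `u ∈ 𝔪₁ ∩ ϖ V₂`, `w ∈ 𝔪₃`, `r ∉ 𝔫` (the image under `α` of a node of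
thickness one of the lower level) : `𝔭₃ P_𝔫 = w P_𝔫`. -/
theorem sqga_prin₃_of_node [h𝔫 : 𝔫.IsPrime] (K : Type*) [Field K] [Algebra A K]
    [IsFractionRing A K] [Algebra K F] [IsScalarTower A K F] (hϖ : Irreducible ϖ)
    (h3 : SqgaThree ϖ t e₂ V₁ V₂ V₃) (hon : SqgaOn t 𝔫 V₃)
    (u w r m : ↥(s18tInt A t)) (hu₁ : (u : F) ∈ V₁.nonunits)
    (hu₂ : V₂.valuation (u : F) ≤ V₂.valuation (algebraMap A F ϖ))
    (hw₃ : (w : F) ∈ V₃.nonunits) (hr : r ∉ 𝔫)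
    (hrel : (r : F) * algebraMap A F ϖ = (u : F) * (w : F) * (m : F)) :
    SqgaPrin t 𝔫 V₃ (w : F) := by
  have hϖ0 : algebraMap A F ϖ ≠ 0 := sqga_pi_ne_zero K hϖ
  have hr0 : (r : F) ≠ 0 := by
    intro h
    apply hr
    have : r = 0 := Subtype.ext h
    rw [this]
    exact 𝔫.zero_mem
  have hu0 : (u : F) ≠ 0 := by
    intro h
    rw [h, zero_mul, zero_mul] at hrel
    exact mul_ne_zero hr0 hϖ0 hrel
  refine ⟨ssgm_inMax_of_mem (hon w hw₃), hw₃, fun y hy => ?_⟩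
  have hx1 : ((y * u : ↥(s18tInt A t)) : F) ∈ V₁.nonunits := by
    rw [Subring.coe_mul]
    exact ssgr_nu_mul_right V₁ (h3.le₁ _ y.2) hu₁
  have hx2 : V₂.valuation ((y * u : ↥(s18tInt A t)) : F) ≤ V₂.valuation (algebraMap A F ϖ) := by
    rw [Subring.coe_mul, map_mul]
    calc V₂.valuation (y : F) * V₂.valuation (u : F)
        ≤ 1 * V₂.valuation (algebraMap A F ϖ) :=
          mul_le_mul' (sqga_val_le_one V₂ h3.le₂ y) hu₂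
      _ = V₂.valuation (algebraMap A F ϖ) := one_mul _
  have hx3 : ((y * u : ↥(s18tInt A t)) : F) ∈ V₃.nonunits := by
    rw [Subring.coe_mul]
    exact ssgr_nu_mul_left V₃ hy (h3.le₃ _ u.2)
  obtain ⟨p, hp, hxp⟩ := h3.sat _ (y * u).2 hx1 hx2 hx3
  rw [Subring.coe_mul] at hxp
  refine ⟨r, hr, m * ⟨p, hp⟩, ?_⟩
  rw [Subring.coe_mul]
  apply mul_right_cancel₀ hu0
  linear_combination (r : F) * hxp + p * hrel

/-- (P3') `r ϖ = u w m` with `u ∈ 𝔪₁`, `w ∈ 𝔪₃ ∩ ϖ V₂`, `r ∉ 𝔫` (the image under `φ` of a node of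
thickness one of the lower level) : `𝔭₁ P_𝔫 = u P_𝔫`. -/
theorem sqga_prin₁_of_node [h𝔫 : 𝔫.IsPrime] (K : Type*) [Field K] [Algebra A K]
    [IsFractionRing A K] [Algebra K F] [IsScalarTower A K F] (hϖ : Irreducible ϖ)
    (h3 : SqgaThree ϖ t e₂ V₁ V₂ V₃) (hon : SqgaOn t 𝔫 V₁)
    (u w r m : ↥(s18tInt A t)) (hu₁ : (u : F) ∈ V₁.nonunits)
    (hw₂ : V₂.valuation (w : F) ≤ V₂.valuation (algebraMap A F ϖ))
    (hw₃ : (w : F) ∈ V₃.nonunits) (hr : r ∉ 𝔫)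
    (hrel : (r : F) * algebraMap A F ϖ = (u : F) * (w : F) * (m : F)) :
    SqgaPrin t 𝔫 V₁ (u : F) :=
  sqga_prin₃_of_node K hϖ h3.symm hon w u r m hw₃ hw₂ hu₁ hr (by rw [hrel]; ring)

end Prin

end Fermat.Agent.SQ
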