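import Mathlib
import Fermat.Agent.SQ.Germ.Abs

/-!
# Program Q (S36), package SQ/Germ : BRANCH GENERATORS THROUGH AN EMBEDDING `f : F₀ → F`
(prefix `sqgg`)

Two S18/T settings `(A₀, L₀, F₀, ϖ₀, t₀)` (good reduction : `GrdfbHyp`) and `(A, L, F, ϖ, t)`,
`j : A₀ → A`, `f : F₀ → F` a field embedding compatible with the constants with `f P₀ ⊆ P_𝔫`,
`V ⊇ P` a valuation ring of `F` with `ϖ ∈ 𝔪_V`, `𝔫 ⊇ 𝔭_V` a MAXIMAL ideal of `P` (ANY residue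
field), and the residue surjectivity `P = f P₀ + 𝔭_V`.

* `sqgg_pull_isMaximal` : the pull-back `𝔰` of `𝔫 P_𝔫` to `P₀` is maximal (because `P₀ / 𝔰 → P / 𝔫`
  is onto);
* `sqgg_exists_gen` : there is `g ∈ 𝔫` generating `𝔫` modulo `𝔭_V` locally at `𝔫`
  (`g = d · f x`, `x` a local parameter at `𝔰`, `d ∉ 𝔫`);
* `sqgg_branch`, `sqgg_reg` : `SqBranch t 𝔫 𝔭_V`, and `SqGermReg t 𝔫` if `𝔭_V P_𝔫` is principal.
-/

set_option autoImplicit false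
set_option linter.unusedSectionVars false
set_option linter.unusedVariables false

noncomputable section

namespace Fermat.Agent.SQ

open Polynomial IntermediateField AlgebraicCurve Fermat.Agent.S18 Fermat.Agent.SS Fermat.Agent.G
  IsLocalRing

universe u u₀

variable {A : Type*} [CommRing A] [IsDomain A] [IsDiscreteValuationRing A] [CharZero A]
variable {L : Type*} [Field L] [Algebra A L] [IsFractionRing A L]
variable {F : Type u} [Field F] [Algebra A F] [Algebra L F] [IsScalarTower A L F]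
variable {A₀ : Type*} [CommRing A₀] [IsDomain A₀] [IsDiscreteValuationRing A₀] [CharZero A₀]
variable {L₀ : Type*} [Field L₀] [Algebra A₀ L₀] [IsFractionRing A₀ L₀]
variable {F₀ : Type u₀} [Field F₀] [Algebra A₀ F₀] [Algebra L₀ F₀] [IsScalarTower A₀ L₀ F₀]
variable {ϖ : A} {t : F} {ϖ₀ : A₀} {t₀ : F₀}
variable {j : A₀ →+* A}
variable {𝔫 : Ideal ↥(s18tInt A t)} [h𝔫 : 𝔫.IsPrime]

/-- `P_𝔫 ⊆ V` when `𝔫 ⊇ 𝔭_V`. -/
theorem sqgg_loc_mem {V : ValuationSubring F} (hle : ∀ x ∈ s18tInt A t, x ∈ V)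
    (hon : SqgaOn t 𝔫 V) {x : F} (hx : x ∈ ssLocRing t 𝔫) : x ∈ V := by
  obtain ⟨d, hd, hdx⟩ := hx
  have hdV : V.valuation (d : F) = 1 := by
    refine le_antisymm ((V.valuation_le_one_iff _).mpr (hle _ d.2)) (not_lt.mp fun hlt => ?_)
    exact hd (hon d (V.mem_nonunits_iff.mpr hlt))
  have h1 := (V.valuation_le_one_iff _).mpr (hle _ hdx)
  rw [map_mul, hdV, one_mul] at h1
  exact (V.valuation_le_one_iff _).mp h1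

/-- an element of `P_𝔫 ∩ 𝔪_V` lies in `𝔫 P_𝔫` when `𝔫 ⊇ 𝔭_V`. -/
theorem sqgg_inMax_of_nonunits {V : ValuationSubring F} (hle : ∀ x ∈ s18tInt A t, x ∈ V)
    (hon : SqgaOn t 𝔫 V) {x : F} (hx : x ∈ ssLocRing t 𝔫) (hxV : x ∈ V.nonunits) :
    SsInMax t 𝔫 x := by
  obtain ⟨d, hd, hdx⟩ := hx
  exact ⟨d, hd, ⟨_, hdx⟩, hon _ (ssgr_nu_mul_right V (hle _ d.2) hxV), rfl⟩

theorem sqgg_inMax_add {x y : F} (hx : SsInMax t 𝔫 x) (hy : SsInMax t 𝔫 y) :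
    SsInMax t 𝔫 (x + y) := by
  have hx' : (⟨x, hx.inLoc⟩ : ↥(ssLocRing t 𝔫)) ∈ maximalIdeal ↥(ssLocRing t 𝔫) :=
    (ssl_mem_maximalIdeal t 𝔫 _).mpr hx
  have hy' : (⟨y, hy.inLoc⟩ : ↥(ssLocRing t 𝔫)) ∈ maximalIdeal ↥(ssLocRing t 𝔫) :=
    (ssl_mem_maximalIdeal t 𝔫 _).mpr hy
  exact (ssl_mem_maximalIdeal t 𝔫 _).mp (Ideal.add_mem _ hx' hy')

theorem sqgg_inMax_mul {x y : F} (hx : x ∈ ssLocRing t 𝔫) (hy : SsInMax t 𝔫 y) :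
    SsInMax t 𝔫 (x * y) := by
  have hy' : (⟨y, hy.inLoc⟩ : ↥(ssLocRing t 𝔫)) ∈ maximalIdeal ↥(ssLocRing t 𝔫) :=
    (ssl_mem_maximalIdeal t 𝔫 _).mpr hy
  exact (ssl_mem_maximalIdeal t 𝔫 _).mp (Ideal.mul_mem_left _ ⟨x, hx⟩ hy')

/-- THE PULL-BACK OF A CLOSED POINT ALONG `f` IS A CLOSED POINT, when `P = f P₀ + 𝔭_V` and
`𝔫 ⊇ 𝔭_V` (no hypothesis on the residue field of `𝔫`). -/
theorem sqgg_pull_isMaximal (hmax : 𝔫.IsMaximal) {V : ValuationSubring F}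
    (hle : ∀ x ∈ s18tInt A t, x ∈ V) (hon : SqgaOn t 𝔫 V)
    (f : F₀ →+* F) (hloc : ∀ b ∈ s18tInt A₀ t₀, f b ∈ ssLocRing t 𝔫)
    (hsurj : ∀ p ∈ s18tInt A t, ∃ b ∈ s18tInt A₀ t₀, p - f b ∈ V.nonunits) :
    (ssgmPull f hloc).IsMaximal := by
  have hprime : (ssgmPull f hloc).IsPrime := ssgmPull_isPrime f hloc
  rw [Ideal.isMaximal_iff]
  refine ⟨fun h1 => hprime.ne_top ((Ideal.eq_top_iff_one _).mpr h1), fun J z hJ hz hzJ => ?_⟩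
  -- `f z = p / d` with `p ∉ 𝔫`
  obtain ⟨d, hd, hdz⟩ := hloc z z.2
  have hp : (⟨(d : F) * f z, hdz⟩ : ↥(s18tInt A t)) ∉ 𝔫 := fun hmem =>
    hz (mem_ssgmPull.mpr ⟨d, hd, _, hmem, rfl⟩)
  obtain ⟨q', i, hi, hq'⟩ := hmax.exists_inv hp
  -- `b ∈ P₀` with `f b ≡ d q'`
  obtain ⟨b, hb, hbV⟩ := hsurj ((d * q' : ↥(s18tInt A t)) : F) (d * q').2
  obtain ⟨db, hdb, hdbb⟩ := hloc b hb
  -- `z b - 1 ∈ 𝔰`
  have hzb : z * ⟨b, hb⟩ - 1 ∈ ssgmPull f hloc := by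
    rw [mem_ssgmPull]
    have e : f ((z * ⟨b, hb⟩ - 1 : ↥(s18tInt A₀ t₀)) : F₀) =
        f z * (f b - ((d * q' : ↥(s18tInt A t)) : F)) + (-(i : F)) := by
      have h1 : ((z * ⟨b, hb⟩ - 1 : ↥(s18tInt A₀ t₀)) : F₀) = (z : F₀) * b - 1 := by
        push_cast; rfl
      rw [h1, map_sub, map_mul, map_one]
      have h2 := congrArg (fun x : ↥(s18tInt A t) => (x : F)) hq'
      simp only [Subring.coe_add, Subring.coe_mul, Subring.coe_one] at h2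
      rw [Subring.coe_mul]
      linear_combination h2
    rw [e]
    refine sqgg_inMax_add ?_ ?_
    · refine sqgg_inMax_mul (hloc z z.2) ?_
      refine sqgg_inMax_of_nonunits hle hon ?_ ?_
      · exact Subring.sub_mem _ (hloc b hb) (ssl_int_le_locRing t 𝔫 (d * q').2)
      · have : f b - ((d * q' : ↥(s18tInt A t)) : F) =
            -(((d * q' : ↥(s18tInt A t)) : F) - f b) := by ring
        rw [this]
        exact ssgr_nu_neg V hbV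
    · have : (-(i : F)) = ((-i : ↥(s18tInt A t)) : F) := by push_cast; rfl
      rw [this]
      exact ssgm_inMax_of_mem (𝔫.neg_mem hi)
  have h1 : (1 : ↥(s18tInt A₀ t₀)) = z * ⟨b, hb⟩ - (z * ⟨b, hb⟩ - 1) := by ring
  rw [h1]
  exact J.sub_mem (J.mul_mem_right _ hzJ) (hJ hzb)

/-- A GENERATOR OF `𝔫` MODULO `𝔭_V`, locally at `𝔫`. -/
theorem sqgg_exists_gen (hϖ₀ : Irreducible ϖ₀) (ht₀ : Transcendental L₀ t₀)
    [FiniteDimensional L₀⟮t₀⟯ F₀] (good : GrdfbHyp hϖ₀ t₀) (hmax : 𝔫.IsMaximal)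
    (hϖ𝔫 : sskPi ϖ t ∈ 𝔫) (hunif : ∃ c : A, j ϖ₀ = ϖ * c)
    {V : ValuationSubring F} (hle : ∀ x ∈ s18tInt A t, x ∈ V)
    (hϖV : algebraMap A F ϖ ∈ V.nonunits) (hon : SqgaOn t 𝔫 V)
    (f : F₀ →+* F) (hf : ∀ a : A₀, f (algebraMap A₀ F₀ a) = algebraMap A F (j a))
    (hloc : ∀ b ∈ s18tInt A₀ t₀, f b ∈ ssLocRing t 𝔫)
    (hsurj : ∀ p ∈ s18tInt A t, ∃ b ∈ s18tInt A₀ t₀, p - f b ∈ V.nonunits) :
    ∃ g : ↥(s18tInt A t), g ∈ 𝔫 ∧ SsgaGen t 𝔫 V (g : F) := by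
  have hmax₀ := sqgg_pull_isMaximal hmax hle hon f hloc hsurj
  have hπ₀ := ssgm_pi_mem_pull hϖ𝔫 hunif hf hloc
  obtain ⟨π, hπ, hgen⟩ := ssgb_exists_local_gen hϖ₀ t₀ ht₀ good _ hmax₀ hπ₀
  obtain ⟨dπ, hdπ, g, hg𝔫, hg⟩ := mem_ssgmPull.mp hπ
  have hϖ₀V : f (algebraMap A₀ F₀ ϖ₀) ∈ V.nonunits := by
    obtain ⟨c, hc⟩ := hunif
    rw [hf, hc, map_mul]
    exact ssgr_nu_mul_left V hϖV (hle _ (s18tc_algebraMap_mem_int t c))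
  exact ⟨g, hg𝔫, ssgm_gen_loc V hle hon f hloc
    (fun b hb => sqgg_loc_mem hle hon (hloc b hb)) hsurj hϖ₀V π hgen dπ g hdπ hg⟩

/-- THE BRANCH `𝔭_V` THROUGH `𝔫` IS SMOOTH. -/
theorem sqgg_branch (hϖ₀ : Irreducible ϖ₀) (ht₀ : Transcendental L₀ t₀)
    [FiniteDimensional L₀⟮t₀⟯ F₀] (good : GrdfbHyp hϖ₀ t₀) (hmax : 𝔫.IsMaximal)
    (hϖ𝔫 : sskPi ϖ t ∈ 𝔫) (hunif : ∃ c : A, j ϖ₀ = ϖ * c)
    {V : ValuationSubring F} (hle : ∀ x ∈ s18tInt A t, x ∈ V)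
    (hϖV : algebraMap A F ϖ ∈ V.nonunits) (hon : SqgaOn t 𝔫 V)
    (f : F₀ →+* F) (hf : ∀ a : A₀, f (algebraMap A₀ F₀ a) = algebraMap A F (j a))
    (hloc : ∀ b ∈ s18tInt A₀ t₀, f b ∈ ssLocRing t 𝔫)
    (hsurj : ∀ p ∈ s18tInt A t, ∃ b ∈ s18tInt A₀ t₀, p - f b ∈ V.nonunits) :
    SqBranch t 𝔫 (ssgrIdeal (s18tInt A t) V hle) := by
  obtain ⟨g, hg, hG⟩ := sqgg_exists_gen hϖ₀ ht₀ good hmax hϖ𝔫 hunif hle hϖV hon f hf hloc hsurj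
  exact sqga_branch_of_gen hle hon g hg hG

/-- THE GERM AT `𝔫` IS REGULAR if the component `𝔭_V` through `𝔫` is locally principal. -/
theorem sqgg_reg (hϖ₀ : Irreducible ϖ₀) (ht₀ : Transcendental L₀ t₀)
    [FiniteDimensional L₀⟮t₀⟯ F₀] (good : GrdfbHyp hϖ₀ t₀) (hmax : 𝔫.IsMaximal)
    (hϖ𝔫 : sskPi ϖ t ∈ 𝔫) (hunif : ∃ c : A, j ϖ₀ = ϖ * c)
    {V : ValuationSubring F} (hle : ∀ x ∈ s18tInt A t, x ∈ V)
    (hϖV : algebraMap A F ϖ ∈ V.nonunits) (hon : SqgaOn t 𝔫 V)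
    (f : F₀ →+* F) (hf : ∀ a : A₀, f (algebraMap A₀ F₀ a) = algebraMap A F (j a))
    (hloc : ∀ b ∈ s18tInt A₀ t₀, f b ∈ ssLocRing t 𝔫)
    (hsurj : ∀ p ∈ s18tInt A t, ∃ b ∈ s18tInt A₀ t₀, p - f b ∈ V.nonunits)
    {u : F} (hu : SqgaPrin t 𝔫 V u) : SqGermReg t 𝔫 := by
  obtain ⟨g, hg, hG⟩ := sqgg_exists_gen hϖ₀ ht₀ good hmax hϖ𝔫 hunif hle hϖV hon f hf hloc hsurj
  exact sqga_reg_of_prin hu g hg hG

end Fermat.Agent.SQ
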