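import Mathlib
import Fermat.Agent.SQ.Germ.Gen

/-!
# Program Q (S36), package SQ/Germ : THE ABSTRACT GERM² (prefix `sqgm`)

Three levels : `(A₀, L₀, F₀, ϖ₀, t₀)` (level `M'`, good reduction), `(A, L, F₁, ϖ, t₁)` (level `qM'`, two
valuation rings `W₁, W₂` above the Gauss ring), `(A, L, F, ϖ, t)` (level `q²M'`, three valuation rings
`V₁, V₂, V₃`, ramification `(1, e₂, 1)`); `β₀, β₂ : F₀ → F`, `α, φ : F₁ → F`.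

* `SqgHyp` : what the concrete side provides in `F` (VAL² in consumer form, good reduction below, the
  three residue surjections `P = β₀P₀ + 𝔭₁ = β₀P₀ + 𝔭₂ = β₂P₀ + 𝔭₃`);
* `sqgm_branch₁/₂/₃`, `sqgm_reg₁/₂/₃` : smooth branches; regular germ from a principal component;
* `SqgaNode` : thickness one at a point of the lower level (`r ϖ = u w m`, `u ∈ 𝔭_{W}`, `w ∈ 𝔭_{W'}`,
  `r ∉ 𝔫₁`); `SqgaPos` : the positions of the `Vᵢ` over the `Wⱼ` along `α` (resp. `φ`);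
  `sqgm_prin_of_pos` : a node of thickness one below ⟹ a principal component above;
* `sqgm_prin` : at EVERY closed point `𝔫 ∋ ϖ` some component through `𝔫` is locally principal, given
  (T1) thickness one at the nodes of the lower level and (T2) a local uniformiser of the component of
  multiplicity `e₂` at the points lying on it only;
* `sqgm_germ` : **`SqGermReg t 𝔫` and `SqBranch` for every branch, at every closed point `𝔫 ∋ ϖ`.**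
-/

set_option autoImplicit false
set_option linter.unusedSectionVars false
set_option linter.unusedVariables false

noncomputable section

namespace Fermat.Agent.SQ

open Polynomial IntermediateField AlgebraicCurve Fermat.Agent.S18 Fermat.Agent.SS Fermat.Agent.G
  IsLocalRing

universe u u₀ u₁

variable {A : Type*} [CommRing A] [IsDomain A] [IsDiscreteValuationRing A] [CharZero A]
variable {L : Type*} [Field L] [Algebra A L] [IsFractionRing A L]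
variable {F : Type u} [Field F] [Algebra A F] [Algebra L F] [IsScalarTower A L F]
variable {A₀ : Type*} [CommRing A₀] [IsDomain A₀] [IsDiscreteValuationRing A₀] [CharZero A₀]
variable {L₀ : Type*} [Field L₀] [Algebra A₀ L₀] [IsFractionRing A₀ L₀]
variable {F₀ : Type u₀} [Field F₀] [Algebra A₀ F₀] [Algebra L₀ F₀] [IsScalarTower A₀ L₀ F₀]
variable {F₁ : Type u₁} [Field F₁] [Algebra A F₁] [Algebra L F₁] [IsScalarTower A L F₁]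
variable {ϖ : A} {t : F} {ϖ₀ : A₀} {t₀ : F₀} {t₁ : F₁}
variable {j : A₀ →+* A}

/-- THE HYPOTHESES OF THE ABSTRACT GERM² (all in `F` and `F₀`). -/
structure SqgHyp (hϖ₀ : Irreducible ϖ₀) (j : A₀ →+* A) (β₀ β₂ : F₀ →+* F) (ϖ : A) (t₀ : F₀) (t : F)
    (e₂ : ℕ) (V₁ V₂ V₃ : ValuationSubring F) : Prop where
  /-- `β₀` is compatible with the constants, `β₀ t₀ = t`, `ϖ ∣ j ϖ₀` -/
  level : SsgaLevel j β₀ ϖ₀ ϖ t₀ t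
  /-- `β₂` is compatible with the constants -/
  compat₂ : ∀ a : A₀, β₂ (algebraMap A₀ F₀ a) = algebraMap A F (j a)
  /-- (VAL²) in consumer form -/
  three : SqgaThree ϖ t e₂ V₁ V₂ V₃
  /-- good reduction at the lower level -/
  good : GrdfbHyp hϖ₀ t₀
  /-- `P = β₀ P₀ + 𝔭₁` -/
  surj₁ : ∀ p ∈ s18tInt A t, ∃ b ∈ s18tInt A₀ t₀, p - β₀ b ∈ V₁.nonunits
  /-- `P = β₀ P₀ + 𝔭₂` -/
  surj₂ : ∀ p ∈ s18tInt A t, ∃ b ∈ s18tInt A₀ t₀, p - β₀ b ∈ V₂.nonunits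
  /-- `P = β₂ P₀ + 𝔭₃` -/
  surj₃ : ∀ p ∈ s18tInt A t, ∃ b ∈ s18tInt A₀ t₀, p - β₂ b ∈ V₃.nonunits

section Branch

variable {β₀ β₂ : F₀ →+* F} {e₂ : ℕ} {V₁ V₂ V₃ : ValuationSubring F} {hϖ₀ : Irreducible ϖ₀}
variable {𝔫 : Ideal ↥(s18tInt A t)} [h𝔫 : 𝔫.IsPrime]

theorem SqgHyp.loc₀ (H : SqgHyp hϖ₀ j β₀ β₂ ϖ t₀ t e₂ V₁ V₂ V₃) :
    ∀ b ∈ s18tInt A₀ t₀, β₀ b ∈ ssLocRing t 𝔫 :=
  ssgm_loc_of_int fun b hb => ssga_map_int H.level hb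

/-- the branch `𝔭₁` through `𝔫` is smooth -/
theorem sqgm_branch₁ (H : SqgHyp hϖ₀ j β₀ β₂ ϖ t₀ t e₂ V₁ V₂ V₃) (ht₀ : Transcendental L₀ t₀)
    [FiniteDimensional L₀⟮t₀⟯ F₀] (hmax : 𝔫.IsMaximal) (hϖ𝔫 : sskPi ϖ t ∈ 𝔫)
    (hon : SqgaOn t 𝔫 V₁) : SqBranch t 𝔫 (ssgrIdeal (s18tInt A t) V₁ H.three.le₁) :=
  sqgg_branch hϖ₀ ht₀ H.good hmax hϖ𝔫 H.level.unif H.three.le₁ H.three.unif₁ hon β₀
    H.level.compat H.loc₀ H.surj₁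

/-- the branch `𝔭₂` through `𝔫` is smooth -/
theorem sqgm_branch₂ (H : SqgHyp hϖ₀ j β₀ β₂ ϖ t₀ t e₂ V₁ V₂ V₃) (ht₀ : Transcendental L₀ t₀)
    [FiniteDimensional L₀⟮t₀⟯ F₀] (hmax : 𝔫.IsMaximal) (hϖ𝔫 : sskPi ϖ t ∈ 𝔫)
    (hon : SqgaOn t 𝔫 V₂) : SqBranch t 𝔫 (ssgrIdeal (s18tInt A t) V₂ H.three.le₂) :=
  sqgg_branch hϖ₀ ht₀ H.good hmax hϖ𝔫 H.level.unif H.three.le₂ H.three.unif₂ hon β₀
    H.level.compat H.loc₀ H.surj₂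

/-- the branch `𝔭₃` through `𝔫` is smooth (`β₂ P₀ ⊆ P_𝔫` suffices) -/
theorem sqgm_branch₃ (H : SqgHyp hϖ₀ j β₀ β₂ ϖ t₀ t e₂ V₁ V₂ V₃) (ht₀ : Transcendental L₀ t₀)
    [FiniteDimensional L₀⟮t₀⟯ F₀] (hmax : 𝔫.IsMaximal) (hϖ𝔫 : sskPi ϖ t ∈ 𝔫)
    (hloc₂ : ∀ b ∈ s18tInt A₀ t₀, β₂ b ∈ ssLocRing t 𝔫)
    (hon : SqgaOn t 𝔫 V₃) : SqBranch t 𝔫 (ssgrIdeal (s18tInt A t) V₃ H.three.le₃) :=
  sqgg_branch hϖ₀ ht₀ H.good hmax hϖ𝔫 H.level.unif H.three.le₃ H.three.unif₃ hon β₂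
    H.compat₂ hloc₂ H.surj₃

/-- regular germ from `𝔭₁ P_𝔫` principal -/
theorem sqgm_reg₁ (H : SqgHyp hϖ₀ j β₀ β₂ ϖ t₀ t e₂ V₁ V₂ V₃) (ht₀ : Transcendental L₀ t₀)
    [FiniteDimensional L₀⟮t₀⟯ F₀] (hmax : 𝔫.IsMaximal) (hϖ𝔫 : sskPi ϖ t ∈ 𝔫)
    (hon : SqgaOn t 𝔫 V₁) {u : F} (hu : SqgaPrin t 𝔫 V₁ u) : SqGermReg t 𝔫 :=
  sqgg_reg hϖ₀ ht₀ H.good hmax hϖ𝔫 H.level.unif H.three.le₁ H.three.unif₁ hon β₀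
    H.level.compat H.loc₀ H.surj₁ hu

/-- regular germ from `𝔭₂ P_𝔫` principal -/
theorem sqgm_reg₂ (H : SqgHyp hϖ₀ j β₀ β₂ ϖ t₀ t e₂ V₁ V₂ V₃) (ht₀ : Transcendental L₀ t₀)
    [FiniteDimensional L₀⟮t₀⟯ F₀] (hmax : 𝔫.IsMaximal) (hϖ𝔫 : sskPi ϖ t ∈ 𝔫)
    (hon : SqgaOn t 𝔫 V₂) {u : F} (hu : SqgaPrin t 𝔫 V₂ u) : SqGermReg t 𝔫 :=
  sqgg_reg hϖ₀ ht₀ H.good hmax hϖ𝔫 H.level.unif H.three.le₂ H.three.unif₂ hon β₀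
    H.level.compat H.loc₀ H.surj₂ hu

/-- regular germ from `𝔭₃ P_𝔫` principal -/
theorem sqgm_reg₃ (H : SqgHyp hϖ₀ j β₀ β₂ ϖ t₀ t e₂ V₁ V₂ V₃) (ht₀ : Transcendental L₀ t₀)
    [FiniteDimensional L₀⟮t₀⟯ F₀] (hmax : 𝔫.IsMaximal) (hϖ𝔫 : sskPi ϖ t ∈ 𝔫)
    (hloc₂ : ∀ b ∈ s18tInt A₀ t₀, β₂ b ∈ ssLocRing t 𝔫)
    (hon : SqgaOn t 𝔫 V₃) {u : F} (hu : SqgaPrin t 𝔫 V₃ u) : SqGermReg t 𝔫 :=
  sqgg_reg hϖ₀ ht₀ H.good hmax hϖ𝔫 H.level.unif H.three.le₃ H.three.unif₃ hon β₂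
    H.compat₂ hloc₂ H.surj₃ hu

end Branch

/-! ### nodes of thickness one of the lower level, and their transport -/

/-- THICKNESS ONE at the point `𝔫₁` of the lower level : `r ϖ = u w m` with `u ∈ 𝔭_W`, `w ∈ 𝔭_{W'}`,
`r ∉ 𝔫₁` (i.e. `ϖ ∈ u w (P₁)_{𝔫₁}`). -/
def SqgaNode (ϖ : A) (t₁ : F₁) (W W' : ValuationSubring F₁) (𝔫₁ : Ideal ↥(s18tInt A t₁)) : Prop :=
  ∃ u w r m : ↥(s18tInt A t₁), (u : F₁) ∈ W.nonunits ∧ (w : F₁) ∈ W'.nonunits ∧ r ∉ 𝔫₁ ∧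
    (r : F₁) * algebraMap A F₁ ϖ = (u : F₁) * (w : F₁) * (m : F₁)

theorem SqgaNode.symm {W W' : ValuationSubring F₁} {𝔫₁ : Ideal ↥(s18tInt A t₁)}
    (h : SqgaNode ϖ t₁ W W' 𝔫₁) : SqgaNode ϖ t₁ W' W 𝔫₁ := by
  obtain ⟨u, w, r, m, hu, hw, hr, hrel⟩ := h
  exact ⟨w, u, r, m, hw, hu, hr, by rw [hrel]; ring⟩

/-- THE POSITIONS along `α : F₁ → F` : the valuation rings `Va, Vb` of `F` lie over `W` (which has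
uniformiser `ϖ`), `Vc` lies over `W'`. -/
structure SqgaPos (α : F₁ →+* F) (ϖ : A) (t₁ : F₁) (t : F) (W W' : ValuationSubring F₁)
    (Va Vb Vc : ValuationSubring F) : Prop where
  compat : ∀ a : A, α (algebraMap A F₁ a) = algebraMap A F a
  int : ∀ x ∈ s18tInt A t₁, α x ∈ s18tInt A t
  unif : S18IsUnif W (algebraMap A F₁ ϖ)
  mem_a : ∀ x ∈ W, α x ∈ Va
  mem_b : ∀ x ∈ W, α x ∈ Vb
  nu_c : ∀ x ∈ W'.nonunits, α x ∈ Vc.nonunits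

section Pos

variable {α : F₁ →+* F} {W W' : ValuationSubring F₁} {Va Vb Vc : ValuationSubring F} {e₂ : ℕ}

/-- the ring homomorphism `P₁ → P` -/
def sqgmMap (pos : SqgaPos α ϖ t₁ t W W' Va Vb Vc) : ↥(s18tInt A t₁) →+* ↥(s18tInt A t) :=
  (α.comp (s18tInt A t₁).subtype).codRestrict (s18tInt A t) (fun x => pos.int x x.2)

@[simp]
theorem sqgmMap_coe (pos : SqgaPos α ϖ t₁ t W W' Va Vb Vc) (x : ↥(s18tInt A t₁)) :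
    ((sqgmMap pos x : ↥(s18tInt A t)) : F) = α (x : F₁) := rfl

include L in
/-- an element of `𝔪_W` is `ϖ` times an element of `W` -/
theorem sqgm_exists_of_nonunits (hϖ : Irreducible ϖ) (pos : SqgaPos α ϖ t₁ t W W' Va Vb Vc)
    {x : F₁} (hx : x ∈ W.nonunits) : ∃ x' ∈ W, x = algebraMap A F₁ ϖ * x' := by
  have hϖ0 : algebraMap A F₁ ϖ ≠ 0 := sqga_pi_ne_zero L hϖ
  refine ⟨x / algebraMap A F₁ ϖ, ?_, by rw [mul_div_cancel₀ _ hϖ0]⟩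
  rw [← W.valuation_le_one_iff, map_div₀]
  have h0 : W.valuation (algebraMap A F₁ ϖ) ≠ 0 := (Valuation.ne_zero_iff _).mpr hϖ0
  rw [div_le_iff₀ (zero_lt_iff.mpr h0), one_mul]
  exact pos.unif.2 x (W.mem_nonunits_iff.mp hx)

include L in
/-- the image of `𝔪_W` lies in `ϖ Va` and in `ϖ Vb` -/
theorem sqgm_map_nonunits (hϖ : Irreducible ϖ) (pos : SqgaPos α ϖ t₁ t W W' Va Vb Vc)
    {x : F₁} (hx : x ∈ W.nonunits) :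
    (∃ y ∈ Va, α x = algebraMap A F ϖ * y) ∧ (∃ y ∈ Vb, α x = algebraMap A F ϖ * y) := by
  obtain ⟨x', hx', rfl⟩ := sqgm_exists_of_nonunits (L := L) hϖ pos hx
  exact ⟨⟨α x', pos.mem_a _ hx', by rw [map_mul, pos.compat]⟩,
    ⟨α x', pos.mem_b _ hx', by rw [map_mul, pos.compat]⟩⟩

variable {𝔫 : Ideal ↥(s18tInt A t)} [h𝔫 : 𝔫.IsPrime]

include L in
/-- if `𝔫` lies on `Va` (or on `Vb`) then its pull-back lies on `W` -/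
theorem sqgm_on_of_pos (hϖ : Irreducible ϖ) (pos : SqgaPos α ϖ t₁ t W W' Va Vb Vc)
    (h3 : SqgaThree ϖ t e₂ Va Vb Vc) (hon : SqgaOn t 𝔫 Va ∨ SqgaOn t 𝔫 Vb) :
    SqgaOn t₁ (𝔫.comap (sqgmMap pos)) W := by
  intro p hp
  rw [Ideal.mem_comap]
  obtain ⟨⟨y, hy, hya⟩, ⟨y', hy', hyb⟩⟩ := sqgm_map_nonunits (L := L) hϖ pos hp
  rcases hon with hon | hon
  · apply hon
    rw [sqgmMap_coe, hya]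
    exact ssgr_nu_mul_left Va h3.unif₁ hy
  · apply hon
    rw [sqgmMap_coe, hyb]
    exact ssgr_nu_mul_left Vb h3.unif₂ hy'

/-- if `𝔫` lies on `Vc` then its pull-back lies on `W'` -/
theorem sqgm_on_of_pos' (pos : SqgaPos α ϖ t₁ t W W' Va Vb Vc) (hon : SqgaOn t 𝔫 Vc) :
    SqgaOn t₁ (𝔫.comap (sqgmMap pos)) W' := by
  intro p hp
  rw [Ideal.mem_comap]
  exact hon _ (pos.nu_c _ hp)

include L in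
/-- A NODE OF THICKNESS ONE BELOW ⟹ A PRINCIPAL COMPONENT ABOVE : `𝔭_{Vc} P_𝔫 = α(w) P_𝔫`. -/
theorem sqgm_prin_of_pos (hϖ : Irreducible ϖ) (pos : SqgaPos α ϖ t₁ t W W' Va Vb Vc)
    (h3 : SqgaThree ϖ t e₂ Va Vb Vc) (hon : SqgaOn t 𝔫 Vc)
    (hnode : SqgaNode ϖ t₁ W W' (𝔫.comap (sqgmMap pos))) :
    ∃ w : ↥(s18tInt A t), SqgaPrin t 𝔫 Vc (w : F) := by
  obtain ⟨u, w, r, m, hu, hw, hr, hrel⟩ := hnode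
  obtain ⟨⟨y, hy, hya⟩, ⟨y', hy', hyb⟩⟩ := sqgm_map_nonunits (L := L) hϖ pos hu
  refine ⟨sqgmMap pos w, sqga_prin₃_of_node L hϖ h3 hon (sqgmMap pos u) (sqgmMap pos w)
    (sqgmMap pos r) (sqgmMap pos m) ?_ ?_ ?_ hr ?_⟩
  · rw [sqgmMap_coe, hya]
    exact ssgr_nu_mul_left Va h3.unif₁ hy
  · rw [sqgmMap_coe, hyb, map_mul]
    calc Vb.valuation (algebraMap A F ϖ) * Vb.valuation y'
        ≤ Vb.valuation (algebraMap A F ϖ) * 1 :=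
          mul_le_mul' le_rfl ((Vb.valuation_le_one_iff _).mpr hy')
      _ = Vb.valuation (algebraMap A F ϖ) := mul_one _
  · rw [sqgmMap_coe]
    exact pos.nu_c _ hw
  · simp only [sqgmMap_coe]
    rw [← pos.compat, ← map_mul, hrel, map_mul, map_mul]

end Pos

/-! ### the principal component at every closed point, and the germs -/

section Germ

variable {β₀ β₂ : F₀ →+* F} {α φ : F₁ →+* F} {e₂ : ℕ} {V₁ V₂ V₃ : ValuationSubring F}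
variable {W₁ W₂ : ValuationSubring F₁} {hϖ₀ : Irreducible ϖ₀}

/-- an element of `𝔭_V ∖ 𝔫` when `𝔫` does not lie on `V` -/
theorem sqgm_exists_not_on {𝔫 : Ideal ↥(s18tInt A t)} {V : ValuationSubring F}
    (h : ¬ SqgaOn t 𝔫 V) : ∃ b : ↥(s18tInt A t), (b : F) ∈ V.nonunits ∧ b ∉ 𝔫 := by
  unfold SqgaOn at h
  push Not at h
  exact h

/-- every prime `𝔫 ∋ ϖ` lies on some component -/
theorem sqgm_on_some (h3 : SqgaThree ϖ t e₂ V₁ V₂ V₃) (𝔫 : Ideal ↥(s18tInt A t))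
    [h𝔫 : 𝔫.IsPrime] (hϖ𝔫 : sskPi ϖ t ∈ 𝔫)
    (h1 : ¬ SqgaOn t 𝔫 V₁) (h2 : ¬ SqgaOn t 𝔫 V₂) (h3' : ¬ SqgaOn t 𝔫 V₃) : False := by
  obtain ⟨b₁, hb₁, hb₁𝔫⟩ := sqgm_exists_not_on h1
  obtain ⟨b₂, hb₂, hb₂𝔫⟩ := sqgm_exists_not_on h2
  obtain ⟨b₃, hb₃, hb₃𝔫⟩ := sqgm_exists_not_on h3'
  -- `𝔭₁ P_𝔫 = ϖ P_𝔫` and `b₁ ∈ 𝔭₁ ∖ 𝔫`
  obtain ⟨s, hs, c, hsc⟩ := (sqga_prin_one₁ h3 hϖ𝔫 b₂ hb₂ hb₂𝔫 b₃ hb₃ hb₃𝔫).2.2 b₁ hb₁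
  have e : s * b₁ = c * sskPi ϖ t := Subtype.ext (by
    rw [Subring.coe_mul, Subring.coe_mul, hsc]; rfl)
  have hmem : s * b₁ ∈ 𝔫 := by rw [e]; exact 𝔫.mul_mem_left _ hϖ𝔫
  exact (h𝔫.mem_or_mem hmem).elim hs hb₁𝔫

include L in
/-- A PRINCIPAL COMPONENT THROUGH `𝔫` : the case analysis over the components through `𝔫`, given
principal components at the points of at least two components (`hA`, `hB`) and (T2). -/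
theorem sqgm_prin_of_cases (hϖ : Irreducible ϖ) (h3 : SqgaThree ϖ t e₂ V₁ V₂ V₃)
    (𝔫 : Ideal ↥(s18tInt A t)) [h𝔫 : 𝔫.IsPrime] (hϖ𝔫 : sskPi ϖ t ∈ 𝔫)
    (hA : SqgaOn t 𝔫 V₃ → SqgaOn t 𝔫 V₁ ∨ SqgaOn t 𝔫 V₂ → ∃ u, SqgaPrin t 𝔫 V₃ u)
    (hB : SqgaOn t 𝔫 V₁ → SqgaOn t 𝔫 V₂ → ∃ u, SqgaPrin t 𝔫 V₁ u)
    (hT2 : SqgaOn t 𝔫 V₂ → ¬ SqgaOn t 𝔫 V₁ → ¬ SqgaOn t 𝔫 V₃ →
      ∃ π w : F, SsnfInLoc t 𝔫 π ∧ π ∈ V₂.nonunits ∧ SsnfInLoc t 𝔫 w ∧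
        algebraMap A F ϖ = π ^ e₂ * w) :
    (SqgaOn t 𝔫 V₁ ∧ ∃ u, SqgaPrin t 𝔫 V₁ u) ∨ (SqgaOn t 𝔫 V₂ ∧ ∃ u, SqgaPrin t 𝔫 V₂ u) ∨
      (SqgaOn t 𝔫 V₃ ∧ ∃ u, SqgaPrin t 𝔫 V₃ u) := by
  by_cases h1 : SqgaOn t 𝔫 V₁
  · by_cases h2 : SqgaOn t 𝔫 V₂
    · exact Or.inl ⟨h1, hB h1 h2⟩
    · by_cases h3' : SqgaOn t 𝔫 V₃
      · exact Or.inr (Or.inr ⟨h3', hA h3' (Or.inl h1)⟩)
      · -- on `V₁` only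
        obtain ⟨b₂, hb₂, hb₂𝔫⟩ := sqgm_exists_not_on h2
        obtain ⟨b₃, hb₃, hb₃𝔫⟩ := sqgm_exists_not_on h3'
        exact Or.inl ⟨h1, _, sqga_prin_one₁ h3 hϖ𝔫 b₂ hb₂ hb₂𝔫 b₃ hb₃ hb₃𝔫⟩
  · by_cases h3' : SqgaOn t 𝔫 V₃
    · by_cases h2 : SqgaOn t 𝔫 V₂
      · exact Or.inr (Or.inr ⟨h3', hA h3' (Or.inr h2)⟩)
      · -- on `V₃` only
        obtain ⟨b₁, hb₁, hb₁𝔫⟩ := sqgm_exists_not_on h1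
        obtain ⟨b₂, hb₂, hb₂𝔫⟩ := sqgm_exists_not_on h2
        exact Or.inr (Or.inr ⟨h3', _, sqga_prin_one₃ h3 hϖ𝔫 b₁ hb₁ hb₁𝔫 b₂ hb₂ hb₂𝔫⟩)
    · by_cases h2 : SqgaOn t 𝔫 V₂
      · -- on `V₂` only
        obtain ⟨b₁, hb₁, hb₁𝔫⟩ := sqgm_exists_not_on h1
        obtain ⟨b₃, hb₃, hb₃𝔫⟩ := sqgm_exists_not_on h3'
        obtain ⟨π, w, hπ, hπ₂, hw, hϖπ⟩ := hT2 h2 h1 h3'
        exact Or.inr (Or.inl ⟨h2, _, sqga_prin_two L hϖ h3 h2 b₁ hb₁ hb₁𝔫 b₃ hb₃ hb₃𝔫 π w hπ hπ₂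
          hw hϖπ⟩)
      · exact (sqgm_on_some h3 𝔫 hϖ𝔫 h1 h2 h3').elim

include L in
/-- **A PRINCIPAL COMPONENT THROUGH EVERY CLOSED POINT** : given (T1) thickness one at the nodes of the
lower level (transported along `α` : `W₁ ↦ V₁, V₂`, `W₂ ↦ V₃` and along `φ` : `W₂ ↦ V₃, V₂`,
`W₁ ↦ V₁`) and (T2) a local uniformiser of `𝔭₂` at the points lying on `V₂` only. -/
theorem sqgm_prin (hϖ : Irreducible ϖ) (h3 : SqgaThree ϖ t e₂ V₁ V₂ V₃)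
    (posα : SqgaPos α ϖ t₁ t W₁ W₂ V₁ V₂ V₃) (posφ : SqgaPos φ ϖ t₁ t W₂ W₁ V₃ V₂ V₁)
    (𝔫 : Ideal ↥(s18tInt A t)) [h𝔫 : 𝔫.IsPrime] (hϖ𝔫 : sskPi ϖ t ∈ 𝔫)
    (hT1α : SqgaOn t 𝔫 V₃ → SqgaOn t 𝔫 V₁ ∨ SqgaOn t 𝔫 V₂ →
      SqgaNode ϖ t₁ W₁ W₂ (𝔫.comap (sqgmMap posα)))
    (hT1φ : SqgaOn t 𝔫 V₁ → SqgaOn t 𝔫 V₂ →
      SqgaNode ϖ t₁ W₂ W₁ (𝔫.comap (sqgmMap posφ)))
    (hT2 : SqgaOn t 𝔫 V₂ → ¬ SqgaOn t 𝔫 V₁ → ¬ SqgaOn t 𝔫 V₃ →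
      ∃ π w : F, SsnfInLoc t 𝔫 π ∧ π ∈ V₂.nonunits ∧ SsnfInLoc t 𝔫 w ∧
        algebraMap A F ϖ = π ^ e₂ * w) :
    (SqgaOn t 𝔫 V₁ ∧ ∃ u, SqgaPrin t 𝔫 V₁ u) ∨ (SqgaOn t 𝔫 V₂ ∧ ∃ u, SqgaPrin t 𝔫 V₂ u) ∨
      (SqgaOn t 𝔫 V₃ ∧ ∃ u, SqgaPrin t 𝔫 V₃ u) :=
  sqgm_prin_of_cases (L := L) hϖ h3 𝔫 hϖ𝔫
    (fun h3' h12 => by
      obtain ⟨w, hw⟩ := sqgm_prin_of_pos (L := L) hϖ posα h3 h3' (hT1α h3' h12)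
      exact ⟨_, hw⟩)
    (fun h1 h2 => by
      obtain ⟨w, hw⟩ := sqgm_prin_of_pos (L := L) hϖ posφ h3.symm h1 (hT1φ h1 h2)
      exact ⟨_, hw⟩) hT2

include L in
/-- the germs at `𝔫` from the case data of `sqgm_prin_of_cases` -/
theorem sqgm_germ_of_cases (H : SqgHyp hϖ₀ j β₀ β₂ ϖ t₀ t e₂ V₁ V₂ V₃) (hϖ : Irreducible ϖ)
    (ht₀ : Transcendental L₀ t₀) [FiniteDimensional L₀⟮t₀⟯ F₀]
    (𝔫 : Ideal ↥(s18tInt A t)) (hmax : 𝔫.IsMaximal) (hϖ𝔫 : sskPi ϖ t ∈ 𝔫)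
    (hloc₂ : ∀ b ∈ s18tInt A₀ t₀, β₂ b ∈ ssLocRing (h𝔫 := hmax.isPrime) t 𝔫)
    (hA : SqgaOn t 𝔫 V₃ → SqgaOn t 𝔫 V₁ ∨ SqgaOn t 𝔫 V₂ → ∃ u, SqgaPrin t 𝔫 V₃ u)
    (hB : SqgaOn t 𝔫 V₁ → SqgaOn t 𝔫 V₂ → ∃ u, SqgaPrin t 𝔫 V₁ u)
    (hT2 : SqgaOn t 𝔫 V₂ → ¬ SqgaOn t 𝔫 V₁ → ¬ SqgaOn t 𝔫 V₃ →
      ∃ π w : F, SsnfInLoc t 𝔫 π ∧ π ∈ V₂.nonunits ∧ SsnfInLoc t 𝔫 w ∧
        algebraMap A F ϖ = π ^ e₂ * w) :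
    SqGermReg t 𝔫 ∧
      (SqgaOn t 𝔫 V₁ → SqBranch t 𝔫 (ssgrIdeal (s18tInt A t) V₁ H.three.le₁)) ∧
      (SqgaOn t 𝔫 V₂ → SqBranch t 𝔫 (ssgrIdeal (s18tInt A t) V₂ H.three.le₂)) ∧
      (SqgaOn t 𝔫 V₃ → SqBranch t 𝔫 (ssgrIdeal (s18tInt A t) V₃ H.three.le₃)) := by
  have h𝔫 : 𝔫.IsPrime := hmax.isPrime
  refine ⟨?_, fun hon => sqgm_branch₁ H ht₀ hmax hϖ𝔫 hon,
    fun hon => sqgm_branch₂ H ht₀ hmax hϖ𝔫 hon,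
    fun hon => sqgm_branch₃ H ht₀ hmax hϖ𝔫 hloc₂ hon⟩
  rcases sqgm_prin_of_cases (L := L) hϖ H.three 𝔫 hϖ𝔫 hA hB hT2 with
    ⟨hon, u, hu⟩ | ⟨hon, u, hu⟩ | ⟨hon, u, hu⟩
  · exact sqgm_reg₁ H ht₀ hmax hϖ𝔫 hon hu
  · exact sqgm_reg₂ H ht₀ hmax hϖ𝔫 hon hu
  · exact sqgm_reg₃ H ht₀ hmax hϖ𝔫 hloc₂ hon hu

include L in
/-- **THE ABSTRACT GERM²** : at every closed point `𝔫 ∋ ϖ` of the chart `t` the germ is regular and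
every branch through `𝔫` is smooth. -/
theorem sqgm_germ (H : SqgHyp hϖ₀ j β₀ β₂ ϖ t₀ t e₂ V₁ V₂ V₃) (hϖ : Irreducible ϖ)
    (ht₀ : Transcendental L₀ t₀) [FiniteDimensional L₀⟮t₀⟯ F₀]
    (posα : SqgaPos α ϖ t₁ t W₁ W₂ V₁ V₂ V₃) (posφ : SqgaPos φ ϖ t₁ t W₂ W₁ V₃ V₂ V₁)
    (𝔫 : Ideal ↥(s18tInt A t)) (hmax : 𝔫.IsMaximal) (hϖ𝔫 : sskPi ϖ t ∈ 𝔫)
    (hloc₂ : ∀ b ∈ s18tInt A₀ t₀, β₂ b ∈ ssLocRing (h𝔫 := hmax.isPrime) t 𝔫)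
    (hT1α : SqgaOn t 𝔫 V₃ → SqgaOn t 𝔫 V₁ ∨ SqgaOn t 𝔫 V₂ →
      SqgaNode ϖ t₁ W₁ W₂ (𝔫.comap (sqgmMap posα)))
    (hT1φ : SqgaOn t 𝔫 V₁ → SqgaOn t 𝔫 V₂ →
      SqgaNode ϖ t₁ W₂ W₁ (𝔫.comap (sqgmMap posφ)))
    (hT2 : SqgaOn t 𝔫 V₂ → ¬ SqgaOn t 𝔫 V₁ → ¬ SqgaOn t 𝔫 V₃ →
      ∃ π w : F, SsnfInLoc t 𝔫 π ∧ π ∈ V₂.nonunits ∧ SsnfInLoc t 𝔫 w ∧
        algebraMap A F ϖ = π ^ e₂ * w) :
    SqGermReg t 𝔫 ∧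
      (SqgaOn t 𝔫 V₁ → SqBranch t 𝔫 (ssgrIdeal (s18tInt A t) V₁ H.three.le₁)) ∧
      (SqgaOn t 𝔫 V₂ → SqBranch t 𝔫 (ssgrIdeal (s18tInt A t) V₂ H.three.le₂)) ∧
      (SqgaOn t 𝔫 V₃ → SqBranch t 𝔫 (ssgrIdeal (s18tInt A t) V₃ H.three.le₃)) := by
  have h𝔫 : 𝔫.IsPrime := hmax.isPrime
  exact sqgm_germ_of_cases (L := L) H hϖ ht₀ 𝔫 hmax hϖ𝔫 hloc₂
    (fun h3' h12 => by
      obtain ⟨w, hw⟩ := sqgm_prin_of_pos (L := L) hϖ posα H.three h3' (hT1α h3' h12)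
      exact ⟨_, hw⟩)
    (fun h1 h2 => by
      obtain ⟨w, hw⟩ := sqgm_prin_of_pos (L := L) hϖ posφ H.three.symm h1 (hT1φ h1 h2)
      exact ⟨_, hw⟩) hT2

include L in
/-- **THE CHART AT INFINITY** (or any chart without crossings) : at a closed point `𝔫 ∋ ϖ` lying on at
most one component the germ is regular and the branch is smooth; only (T2) is needed. -/
theorem sqgm_germ_simple (H : SqgHyp hϖ₀ j β₀ β₂ ϖ t₀ t e₂ V₁ V₂ V₃) (hϖ : Irreducible ϖ)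
    (ht₀ : Transcendental L₀ t₀) [FiniteDimensional L₀⟮t₀⟯ F₀]
    (𝔫 : Ideal ↥(s18tInt A t)) (hmax : 𝔫.IsMaximal) (hϖ𝔫 : sskPi ϖ t ∈ 𝔫)
    (hloc₂ : ∀ b ∈ s18tInt A₀ t₀, β₂ b ∈ ssLocRing (h𝔫 := hmax.isPrime) t 𝔫)
    (h12 : ¬ (SqgaOn t 𝔫 V₁ ∧ SqgaOn t 𝔫 V₂)) (h13 : ¬ (SqgaOn t 𝔫 V₁ ∧ SqgaOn t 𝔫 V₃))
    (h23 : ¬ (SqgaOn t 𝔫 V₂ ∧ SqgaOn t 𝔫 V₃))
    (hT2 : SqgaOn t 𝔫 V₂ → ¬ SqgaOn t 𝔫 V₁ → ¬ SqgaOn t 𝔫 V₃ →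
      ∃ π w : F, SsnfInLoc t 𝔫 π ∧ π ∈ V₂.nonunits ∧ SsnfInLoc t 𝔫 w ∧
        algebraMap A F ϖ = π ^ e₂ * w) :
    SqGermReg t 𝔫 ∧
      (SqgaOn t 𝔫 V₁ → SqBranch t 𝔫 (ssgrIdeal (s18tInt A t) V₁ H.three.le₁)) ∧
      (SqgaOn t 𝔫 V₂ → SqBranch t 𝔫 (ssgrIdeal (s18tInt A t) V₂ H.three.le₂)) ∧
      (SqgaOn t 𝔫 V₃ → SqBranch t 𝔫 (ssgrIdeal (s18tInt A t) V₃ H.three.le₃)) :=
  sqgm_germ_of_cases (L := L) H hϖ ht₀ 𝔫 hmax hϖ𝔫 hloc₂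
    (fun h3' h => h.elim (fun h1 => (h13 ⟨h1, h3'⟩).elim) (fun h2 => (h23 ⟨h2, h3'⟩).elim))
    (fun h1 h2 => (h12 ⟨h1, h2⟩).elim) hT2

end Germ

end Fermat.Agent.SQ
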