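import Mathlib
import Fermat.Agent.SQ.Germ.Main

/-!
# Program Q (S36), package SQ/Germ : THE POINTS ABOVE A POINT OF THE LOWER LEVEL (prefix `sqgo`)

Two levels `F₁ → F` (`α`, or `φ`), `P₁ = s18tInt A t₁`, `P = s18tInt A t`, `sqgmMap pos : P₁ → P`.

* `sqgo_le_of_ins` : two primes of `P` on the same component `V`, with the same pull-back along
  `f : R → P`, where `κ(V)` is purely inseparable over `f R` (`pⁿ ≡ f r mod 𝔪_V`), are comparable;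
* `sqgo_unique` : ABOVE A NODE THERE IS ONLY ONE POINT : if `𝔫` lies on the three components, every
  prime `𝔮` of `P` with `𝔮 ∩ P₁ = 𝔫 ∩ P₁` is contained in `𝔫`;
* `sqgo_exists_clear` (commutative algebra) : `R → S` integral, `𝔫 ∩ R` maximal, `𝔫` the only prime
  above `𝔫 ∩ R` ⟹ every `s ∉ 𝔫` divides the image of some `r ∉ 𝔫 ∩ R` (`S_𝔫 = S_{𝔫 ∩ R}`);
* `sqgo_isIntegral` : `P` is integral over the image of `P₁` as soon as `t` is;
* `sqgo_loc_clear` : `x ∈ P_𝔫 ⟹ α(r) x ∈ P` for some `r ∈ P₁ ∖ 𝔫₁`;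
* `sqgo_norm_inLoc` : (unit) `x ∈ P_𝔫 ⟹ N x ∈ (P₁)_{𝔫₁}` and `α (N x) ∈ P_𝔫` for every
  multiplicative `N : F → F₁` with `N ∘ α = (·)^q` and `N P ⊆ P₁`;
* `sqgo_lres` : (lres) LOCAL RESIDUE SURJECTIVITY : `x ∈ P_𝔫`, `𝔫` on `V`, `P = α P₁ + 𝔭_V` ⟹
  `x ≡ α y mod 𝔪_V` with `y ∈ (P₁)_{𝔫₁}` (and `α y ∈ P_𝔫`).
-/

set_option autoImplicit false
set_option linter.unusedSectionVars false
set_option linter.unusedVariables false

noncomputable section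

namespace Fermat.Agent.SQ

open Polynomial IntermediateField AlgebraicCurve Fermat.Agent.S18 Fermat.Agent.SS Fermat.Agent.G
  IsLocalRing

universe u u₁

variable {A : Type*} [CommRing A] [IsDomain A] [IsDiscreteValuationRing A] [CharZero A]
variable {L : Type*} [Field L] [Algebra A L] [IsFractionRing A L]
variable {F : Type u} [Field F] [Algebra A F] [Algebra L F] [IsScalarTower A L F]
variable {F₁ : Type u₁} [Field F₁] [Algebra A F₁] [Algebra L F₁] [IsScalarTower A L F₁]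
variable {ϖ : A} {t : F} {t₁ : F₁}

/-! ### commutative algebra -/

/-- `R → S` integral, `𝔫 ∩ R` maximal, every prime of `S` above `𝔫 ∩ R` contained in `𝔫` ⟹
every `s ∉ 𝔫` divides the image of some `r ∉ 𝔫 ∩ R`. -/
theorem sqgo_exists_clear {R S : Type*} [CommRing R] [CommRing S] (f : R →+* S)
    (hf : f.IsIntegral) (𝔫 : Ideal S) (hmax : (𝔫.comap f).IsMaximal)
    (huniq : ∀ 𝔮 : Ideal S, 𝔮.IsPrime → 𝔮.comap f = 𝔫.comap f → 𝔮 ≤ 𝔫)
    (s : S) (hs : s ∉ 𝔫) : ∃ s' : S, ∃ r : R, r ∉ 𝔫.comap f ∧ s * s' = f r := by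
  let _ := f.toAlgebra
  have : Algebra.IsIntegral R S := ⟨hf⟩
  by_contra hcon
  push Not at hcon
  have hle : (Ideal.span {s}).comap (algebraMap R S) ≤ 𝔫.comap f := by
    intro r hr
    rw [Ideal.mem_comap, Ideal.mem_span_singleton'] at hr
    obtain ⟨a, ha⟩ := hr
    by_contra hr'
    exact hcon a r hr' (by rw [mul_comm]; exact ha)
  have := hmax.isPrime
  obtain ⟨Q, hQ, hQp, hQc⟩ :=
    Ideal.exists_ideal_over_prime_of_isIntegral (𝔫.comap f) (Ideal.span {s}) hle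
  exact hs (huniq Q hQp hQc (hQ (Ideal.mem_span_singleton_self s)))

/-! ### purely inseparable residue extensions -/

/-- two primes on the same component `V` with comparable pull-backs along `f`, `κ(V)` purely
inseparable over `f R` : they are comparable. -/
theorem sqgo_le_of_ins {R : Type*} [CommRing R] (f : R →+* ↥(s18tInt A t))
    (V : ValuationSubring F) {𝔫 𝔮 : Ideal ↥(s18tInt A t)} [h𝔫 : 𝔫.IsPrime]
    (hon : SqgaOn t 𝔫 V) (hon' : SqgaOn t 𝔮 V)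
    (hins : ∀ p : ↥(s18tInt A t), ∃ r : R, ∃ n : ℕ, 0 < n ∧
      (p : F) ^ n - ((f r : ↥(s18tInt A t)) : F) ∈ V.nonunits)
    (hle : 𝔮.comap f ≤ 𝔫.comap f) : 𝔮 ≤ 𝔫 := by
  intro p hp
  obtain ⟨r, n, hn, hm⟩ := hins p
  have hm' : ((p ^ n - f r : ↥(s18tInt A t)) : F) ∈ V.nonunits := by
    rw [AddSubgroupClass.coe_sub, Subring.coe_pow]; exact hm
  have h1 : p ^ n - f r ∈ 𝔮 := hon' _ hm'
  have h2 : p ^ n - f r ∈ 𝔫 := hon _ hm'
  have h3 : f r ∈ 𝔮 := by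
    have e : f r = p ^ n - (p ^ n - f r) := by ring
    rw [e]
    exact 𝔮.sub_mem (Ideal.pow_mem_of_mem 𝔮 hp n hn) h1
  have h4 : f r ∈ 𝔫 := hle (Ideal.mem_comap.mpr h3)
  have h5 : p ^ n ∈ 𝔫 := by
    have e : p ^ n = (p ^ n - f r) + f r := by ring
    rw [e]
    exact 𝔫.add_mem h2 h4
  exact h𝔫.mem_of_pow_mem n h5

/-- every element of `P = s18tInt A t` is integral over `g R` as soon as the constants and `t`
are. -/
theorem sqgo_isIntegralElem {R : Type*} [CommRing R] (g : R →+* F)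
    (hA : ∀ a : A, g.IsIntegralElem (algebraMap A F a)) (ht : g.IsIntegralElem t) {p : F}
    (hp : p ∈ s18tInt A t) : g.IsIntegralElem p := by
  let _ := g.toAlgebra
  obtain ⟨q, hq, hqx⟩ := grdfb_isIntegralElem_of_mem_int t p hp
  have hdeg : (q.map ((aeval t : A[X] →ₐ[A] F) : A[X] →+* F)).natDegree ≠ 0 := by
    intro h0
    have hm : (q.map ((aeval t : A[X] →ₐ[A] F) : A[X] →+* F)).Monic := hq.map _
    have h1 : q.map ((aeval t : A[X] →ₐ[A] F) : A[X] →+* F) = 1 := by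
      rw [Polynomial.eq_C_of_natDegree_eq_zero h0]
      have := hm.leadingCoeff
      rw [Polynomial.leadingCoeff, h0] at this
      rw [this, map_one]
    have h2 : eval p (q.map ((aeval t : A[X] →ₐ[A] F) : A[X] →+* F)) = 0 := by
      rw [eval_map]; exact hqx
    rw [h1, eval_one] at h2
    exact one_ne_zero h2
  have hA' : ∀ a : A, IsIntegral R (algebraMap A F a) := hA
  have htI : IsIntegral R t := ht
  have : IsIntegral R p := by
    refine IsIntegral.of_aeval_monic_of_isIntegral_coeff (hq.map _) hdeg ?_ (fun i => ?_)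
    · rw [eval_map, hqx]
      exact isIntegral_zero
    · rw [coeff_map]
      show IsIntegral R (aeval t (q.coeff i))
      rw [aeval_eq_sum_range]
      refine IsIntegral.sum _ fun k _ => ?_
      rw [Algebra.smul_def]
      exact (hA' _).mul (htI.pow k)
  exact this

section Pos

variable {α : F₁ →+* F} {W W' : ValuationSubring F₁} {Va Vb Vc : ValuationSubring F} {e₂ : ℕ}

/-- `sqgmMap pos` maps `ϖ` to `ϖ` -/
theorem sqgmMap_pi (pos : SqgaPos α ϖ t₁ t W W' Va Vb Vc) :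
    sqgmMap pos (sskPi ϖ t₁) = sskPi ϖ t := Subtype.ext (pos.compat ϖ)

/-- ABOVE A NODE THERE IS ONLY ONE POINT. -/
theorem sqgo_unique (pos : SqgaPos α ϖ t₁ t W W' Va Vb Vc) (h3 : SqgaThree ϖ t e₂ Va Vb Vc)
    {𝔫 : Ideal ↥(s18tInt A t)} [h𝔫 : 𝔫.IsPrime]
    (hona : SqgaOn t 𝔫 Va) (honb : SqgaOn t 𝔫 Vb) (honc : SqgaOn t 𝔫 Vc)
    (hinsa : ∀ p : ↥(s18tInt A t), ∃ r : ↥(s18tInt A t₁), ∃ n : ℕ, 0 < n ∧
      (p : F) ^ n - α (r : F₁) ∈ Va.nonunits)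
    (hinsb : ∀ p : ↥(s18tInt A t), ∃ r : ↥(s18tInt A t₁), ∃ n : ℕ, 0 < n ∧
      (p : F) ^ n - α (r : F₁) ∈ Vb.nonunits)
    (hinsc : ∀ p : ↥(s18tInt A t), ∃ r : ↥(s18tInt A t₁), ∃ n : ℕ, 0 < n ∧
      (p : F) ^ n - α (r : F₁) ∈ Vc.nonunits)
    (𝔮 : Ideal ↥(s18tInt A t)) [h𝔮 : 𝔮.IsPrime]
    (hc : 𝔮.comap (sqgmMap pos) = 𝔫.comap (sqgmMap pos)) : 𝔮 ≤ 𝔫 := by
  have hϖ𝔫 : sskPi ϖ t ∈ 𝔫 := hona _ h3.unif₁
  have hϖ𝔮 : sskPi ϖ t ∈ 𝔮 := by
    have h1 : sskPi ϖ t₁ ∈ 𝔫.comap (sqgmMap pos) := by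
      rw [Ideal.mem_comap, sqgmMap_pi]; exact hϖ𝔫
    rw [← hc, Ideal.mem_comap, sqgmMap_pi] at h1
    exact h1
  by_contra hnot
  exact sqgm_on_some h3 𝔮 hϖ𝔮
    (fun h => hnot (sqgo_le_of_ins (sqgmMap pos) Va hona h hinsa hc.le))
    (fun h => hnot (sqgo_le_of_ins (sqgmMap pos) Vb honb h hinsb hc.le))
    (fun h => hnot (sqgo_le_of_ins (sqgmMap pos) Vc honc h hinsc hc.le))

/-- `P` is integral over the image of `P₁` as soon as `t` is (`A ⊆ α P₁` by `pos.compat`). -/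
theorem sqgo_isIntegral (pos : SqgaPos α ϖ t₁ t W W' Va Vb Vc)
    (ht : (α.comp (s18tInt A t₁).subtype).IsIntegralElem t) : (sqgmMap pos).IsIntegral := by
  intro p
  have hgp : (α.comp (s18tInt A t₁).subtype).IsIntegralElem (p : F) := by
    refine sqgo_isIntegralElem (α.comp (s18tInt A t₁).subtype) (fun a => ?_) ht p.2
    have : algebraMap A F a = (α.comp (s18tInt A t₁).subtype)
        ⟨algebraMap A F₁ a, s18tc_algebraMap_mem_int t₁ a⟩ := (pos.compat a).symm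
    rw [this]
    exact RingHom.isIntegralElem_map _
  obtain ⟨q', hq', hq'x⟩ := hgp
  refine ⟨q', hq', Subtype.ext ?_⟩
  have := Polynomial.hom_eval₂ q' (sqgmMap pos) (s18tInt A t).subtype p
  rw [Subring.coe_zero]
  exact this.trans hq'x

variable {𝔫 : Ideal ↥(s18tInt A t)}

/-- `x ∈ P_𝔫 ⟹ α(r) x ∈ P` for some `r ∈ P₁ ∖ 𝔫₁`, when `𝔫` is the only point above `𝔫₁`. -/
theorem sqgo_loc_clear (pos : SqgaPos α ϖ t₁ t W W' Va Vb Vc)
    (hint : (sqgmMap pos).IsIntegral) [h𝔫 : 𝔫.IsMaximal]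
    (huniq : ∀ 𝔮 : Ideal ↥(s18tInt A t), 𝔮.IsPrime →
      𝔮.comap (sqgmMap pos) = 𝔫.comap (sqgmMap pos) → 𝔮 ≤ 𝔫)
    {x : F} (hx : SsnfInLoc t 𝔫 x) :
    ∃ r : ↥(s18tInt A t₁), r ∉ 𝔫.comap (sqgmMap pos) ∧ α (r : F₁) * x ∈ s18tInt A t := by
  obtain ⟨s, hs, hsx⟩ := hx
  have hmax : (𝔫.comap (sqgmMap pos)).IsMaximal :=
    Ideal.isMaximal_comap_of_isIntegral_of_isMaximal' (sqgmMap pos) hint 𝔫
  obtain ⟨s', r, hr, hsr⟩ := sqgo_exists_clear (sqgmMap pos) hint 𝔫 hmax huniq s hs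
  refine ⟨r, hr, ?_⟩
  have e : α (r : F₁) * x = (s' : F) * ((s : F) * x) := by
    have := congrArg (fun z : ↥(s18tInt A t) => (z : F)) hsr
    simp only [Subring.coe_mul, sqgmMap_coe] at this
    rw [← this]; ring
  rw [e]
  exact Subring.mul_mem _ s'.2 hsx

/-- (unit) : `x ∈ P_𝔫 ⟹ N x ∈ (P₁)_{𝔫₁}` and `α (N x) ∈ P_𝔫`, for every multiplicative
`N : F → F₁` with `N (α y) = y ^ q` and `N P ⊆ P₁` (the norm along `α`). -/
theorem sqgo_norm_inLoc (pos : SqgaPos α ϖ t₁ t W W' Va Vb Vc)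
    (hint : (sqgmMap pos).IsIntegral) [h𝔫 : 𝔫.IsMaximal]
    (huniq : ∀ 𝔮 : Ideal ↥(s18tInt A t), 𝔮.IsPrime →
      𝔮.comap (sqgmMap pos) = 𝔫.comap (sqgmMap pos) → 𝔮 ≤ 𝔫)
    (N : F →* F₁) (q : ℕ) (hNα : ∀ y : F₁, N (α y) = y ^ q)
    (hNint : ∀ p ∈ s18tInt A t, N p ∈ s18tInt A t₁)
    {x : F} (hx : SsnfInLoc t 𝔫 x) :
    SsnfInLoc t₁ (𝔫.comap (sqgmMap pos)) (N x) ∧ SsnfInLoc t 𝔫 (α (N x)) := by
  obtain ⟨r, hr, hrx⟩ := sqgo_loc_clear pos hint huniq hx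
  have : (𝔫.comap (sqgmMap pos)).IsPrime := Ideal.comap_isPrime _ _
  have hrq : r ^ q ∉ 𝔫.comap (sqgmMap pos) := fun h =>
    hr (Ideal.IsPrime.mem_of_pow_mem inferInstance q h)
  have hN : ((r ^ q : ↥(s18tInt A t₁)) : F₁) * N x ∈ s18tInt A t₁ := by
    have := hNint _ hrx
    rw [map_mul, hNα] at this
    rw [Subring.coe_pow]; exact this
  refine ⟨⟨r ^ q, hrq, hN⟩, ⟨sqgmMap pos (r ^ q), hrq, ?_⟩⟩
  rw [sqgmMap_coe, ← map_mul]
  exact pos.int _ hN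

/-- (lres) LOCAL RESIDUE SURJECTIVITY along `α` at a point of the component `V`. -/
theorem sqgo_lres (pos : SqgaPos α ϖ t₁ t W W' Va Vb Vc) (V : ValuationSubring F)
    (hle : ∀ x ∈ s18tInt A t, x ∈ V) (hon : SqgaOn t 𝔫 V)
    (hres : ∀ p : ↥(s18tInt A t), ∃ r : ↥(s18tInt A t₁), (p : F) - α (r : F₁) ∈ V.nonunits)
    {x : F} (hx : SsnfInLoc t 𝔫 x) :
    ∃ y : F₁, SsnfInLoc t₁ (𝔫.comap (sqgmMap pos)) y ∧ SsnfInLoc t 𝔫 (α y) ∧
      x - α y ∈ V.nonunits := by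
  obtain ⟨s, hs, hsx⟩ := hx
  obtain ⟨c, hc⟩ := hres s
  obtain ⟨b, hb⟩ := hres ⟨(s : F) * x, hsx⟩
  have hαc𝔫 : sqgmMap pos c ∉ 𝔫 := by
    intro h
    apply hs
    have h1 : s - sqgmMap pos c ∈ 𝔫 := hon _ (by rw [AddSubgroupClass.coe_sub, sqgmMap_coe]; exact hc)
    have e : s = (s - sqgmMap pos c) + sqgmMap pos c := by ring
    rw [e]
    exact 𝔫.add_mem h1 h
  have hunit : ∀ z : ↥(s18tInt A t), z ∉ 𝔫 → V.valuation (z : F) = 1 := by
    intro z hz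
    refine le_antisymm ((V.valuation_le_one_iff _).mpr (hle _ z.2)) (not_lt.mp fun hlt => hz ?_)
    exact hon z ((V.mem_nonunits_iff).mpr hlt)
  have hvs := hunit s hs
  have hvc : V.valuation (α (c : F₁)) = 1 := hunit _ hαc𝔫
  have hs0 : (s : F) ≠ 0 := fun h => by rw [h, map_zero] at hvs; exact zero_ne_one hvs
  have hαc0 : α (c : F₁) ≠ 0 := fun h => by rw [h, map_zero] at hvc; exact zero_ne_one hvc
  have hc0 : (c : F₁) ≠ 0 := fun h => hαc0 (by rw [h, map_zero])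
  refine ⟨(b : F₁) / (c : F₁), ⟨c, hαc𝔫, by rw [mul_div_cancel₀ _ hc0]; exact b.2⟩,
    ⟨sqgmMap pos c, hαc𝔫, ?_⟩, ?_⟩
  · rw [sqgmMap_coe, map_div₀, mul_div_cancel₀ _ hαc0]
    exact pos.int _ b.2
  · have key : x - α ((b : F₁) / (c : F₁)) = ((s : F) * α (c : F₁))⁻¹ *
        (((s : F) * x - α (b : F₁)) * α (c : F₁) - α (b : F₁) * ((s : F) - α (c : F₁))) := by
      rw [map_div₀]
      field_simp
      ring
    rw [V.mem_nonunits_iff, key, map_mul, map_inv₀, map_mul, hvs, hvc, mul_one, inv_one, one_mul]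
    refine lt_of_le_of_lt (Valuation.map_sub _ _ _) (max_lt ?_ ?_)
    · rw [map_mul, hvc, mul_one]
      exact (V.mem_nonunits_iff).mp hb
    · rw [map_mul]
      have h1 : V.valuation (α (b : F₁)) ≤ 1 :=
        (V.valuation_le_one_iff _).mpr (hle _ (pos.int _ b.2))
      calc V.valuation (α (b : F₁)) * V.valuation ((s : F) - α (c : F₁))
          ≤ 1 * V.valuation ((s : F) - α (c : F₁)) := mul_le_mul' h1 le_rfl
        _ = V.valuation ((s : F) - α (c : F₁)) := one_mul _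
        _ < 1 := (V.mem_nonunits_iff).mp hc

end Pos

/-! ### the hypotheses `hres`, `hins` from `P = β P₀ + 𝔭_V` -/

section Surj

universe u₀

variable {A₀ : Type*} [CommRing A₀] {F₀ : Type u₀} [Field F₀] [Algebra A₀ F₀] {t₀ : F₀}
variable {α : F₁ →+* F} {β : F₀ →+* F}

/-- `P = α P₁ + 𝔭_V` from `P = β P₀ + 𝔭_V` and `β P₀ ⊆ α P₁`. -/
theorem sqgo_res_of_surj (V : ValuationSubring F)
    (hsurj : ∀ p ∈ s18tInt A t, ∃ b ∈ s18tInt A₀ t₀, p - β b ∈ V.nonunits)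
    (hβα : ∀ b ∈ s18tInt A₀ t₀, ∃ r ∈ s18tInt A t₁, α r = β b) (p : ↥(s18tInt A t)) :
    ∃ r : ↥(s18tInt A t₁), (p : F) - α (r : F₁) ∈ V.nonunits := by
  obtain ⟨b, hb, hpb⟩ := hsurj p p.2
  obtain ⟨r, hr, hrb⟩ := hβα b hb
  exact ⟨⟨r, hr⟩, by rw [hrb]; exact hpb⟩

/-- the separable case of `hins` -/
theorem sqgo_ins_of_res (V : ValuationSubring F)
    (hres : ∀ p : ↥(s18tInt A t), ∃ r : ↥(s18tInt A t₁), (p : F) - α (r : F₁) ∈ V.nonunits)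
    (p : ↥(s18tInt A t)) :
    ∃ r : ↥(s18tInt A t₁), ∃ n : ℕ, 0 < n ∧ (p : F) ^ n - α (r : F₁) ∈ V.nonunits := by
  obtain ⟨r, hr⟩ := hres p
  exact ⟨r, 1, one_pos, by rw [pow_one]; exact hr⟩

/-- the purely inseparable case of `hins` : `P = β P₀ + 𝔭_V` and `(β b) ^ q ≡ α r mod 𝔪_V`. -/
theorem sqgo_ins_of_surj (V : ValuationSubring F) (hle : ∀ x ∈ s18tInt A t, x ∈ V)
    (hsurj : ∀ p ∈ s18tInt A t, ∃ b ∈ s18tInt A₀ t₀, p - β b ∈ V.nonunits)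
    (q : ℕ) (hq : 0 < q)
    (hft : ∀ b ∈ s18tInt A₀ t₀, ∃ r ∈ s18tInt A t₁, β b ^ q - α r ∈ V.nonunits)
    (p : ↥(s18tInt A t)) :
    ∃ r : ↥(s18tInt A t₁), ∃ n : ℕ, 0 < n ∧ (p : F) ^ n - α (r : F₁) ∈ V.nonunits := by
  obtain ⟨b, hb, hpb⟩ := hsurj p p.2
  obtain ⟨r, hr, hrb⟩ := hft b hb
  refine ⟨⟨r, hr⟩, q, hq, ?_⟩
  have hpV : (p : F) ∈ V := hle _ p.2
  have hbV : β b ∈ V := by
    have : β b = (p : F) - ((p : F) - β b) := by ring
    rw [this]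
    exact V.sub_mem hpV (ValuationSubring.nonunits_le hpb)
  have hsum : (∑ i ∈ Finset.range q, (p : F) ^ i * β b ^ (q - 1 - i)) ∈ V :=
    sum_mem fun i _ => mul_mem (pow_mem hpV i) (pow_mem hbV _)
  have h1 : (p : F) ^ q - β b ^ q ∈ V.nonunits := by
    rw [← geom_sum₂_mul, mul_comm]
    exact ssgr_nu_mul_left V hpb hsum
  have e : (p : F) ^ q - α r = ((p : F) ^ q - β b ^ q) + (β b ^ q - α r) := by ring
  rw [e, V.mem_nonunits_iff]
  exact lt_of_le_of_lt (Valuation.map_add _ _ _)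
    (max_lt ((V.mem_nonunits_iff).mp h1) ((V.mem_nonunits_iff).mp hrb))

end Surj

end Fermat.Agent.SQ
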