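import Mathlib
import Fermat.Agent.SQ.Germ.Over

/-!
# Program Q (S36), package SQ/Germ : INCIDENCE (prefix `sqgi`)

EVERY POINT ABOVE A NODE OF THICKNESS ONE OF THE LOWER LEVEL IS A TRIPLE POINT, AND IT IS THE ONLY
POINT ABOVE THAT NODE.

Setting : `pos : SqgaPos α ϖ t₁ t W W' Va Vb Vc` (`Va, Vb` over `W`, `Vc` over `W'`),
`h3 : SqgaThree ϖ t e₂ Va Vb Vc`, `𝔮` a prime of `P`, `𝔫₁ := 𝔮 ∩ P₁` a node :
`SqgaOn t₁ 𝔫₁ W`, `SqgaOn t₁ 𝔫₁ W'`, `SqgaNode ϖ t₁ W W' 𝔫₁` (`r ϖ = u w m`).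

* `sqgi_on_c` : `𝔮` lies on `Vc` (`α(r) p = α(w) ·…` for `p ∈ 𝔭_{Vc}`, by saturation);
* `sqgi_on_of_surj` : `𝔮` lies on `V ∈ {Va, Vb}` : the point `Q ⊇ 𝔭_V` above `𝔫₁ ∩ R` (lying-over
  for `R → P₁ → P`, `P₁ = g R + 𝔭_W`) lies above `𝔫₁`, hence on `Vc`, hence `Q = 𝔮` because
  `κ(Vc)` is purely inseparable over `α κ(W')`;
* `sqgi_triple`, `sqgi_unique` : the two statements above;
* `sqgi_cases` : with `α` AND `φ` : a prime `𝔫 ∋ ϖ` of `P` on at least two of `V₁, V₂, V₃` lies on all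
  three (given thickness one at ALL the nodes of the lower level).
-/

set_option autoImplicit false
set_option linter.unusedSectionVars false
set_option linter.unusedVariables false

noncomputable section

namespace Fermat.Agent.SQ

open Polynomial IntermediateField AlgebraicCurve Fermat.Agent.S18 Fermat.Agent.SS Fermat.Agent.G
  IsLocalRing

universe u u₁

variable {A : Type*} [CommRing A] [IsDomain A] [IsDiscreteValuationRing A] [CharZero A]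
variable {L : Type*} [Field L] [Algebra A L] [IsFractionRing A L]
variable {F : Type u} [Field F] [Algebra A F] [Algebra L F] [IsScalarTower A L F]
variable {F₁ : Type u₁} [Field F₁] [Algebra A F₁] [Algebra L F₁] [IsScalarTower A L F₁]
variable {ϖ : A} {t : F} {t₁ : F₁}

section Pos

variable {α : F₁ →+* F} {W W' : ValuationSubring F₁} {Va Vb Vc : ValuationSubring F} {e₂ : ℕ}

include L in
/-- (I1) EVERY POINT ABOVE A NODE LIES ON `Vc`. -/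
theorem sqgi_on_c (hϖ : Irreducible ϖ) (pos : SqgaPos α ϖ t₁ t W W' Va Vb Vc)
    (h3 : SqgaThree ϖ t e₂ Va Vb Vc) {𝔮 : Ideal ↥(s18tInt A t)} [h𝔮 : 𝔮.IsPrime]
    (hW' : SqgaOn t₁ (𝔮.comap (sqgmMap pos)) W')
    (hnode : SqgaNode ϖ t₁ W W' (𝔮.comap (sqgmMap pos))) : SqgaOn t 𝔮 Vc := by
  obtain ⟨u, w, r, m, hu, hw, hr, hrel⟩ := hnode
  obtain ⟨⟨y, hy, hya⟩, ⟨y', hy', hyb⟩⟩ := sqgm_map_nonunits (L := L) hϖ pos hu
  have hϖ1 : algebraMap A F₁ ϖ ≠ 0 := sqga_pi_ne_zero L hϖ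
  have hu0 : (u : F₁) ≠ 0 := by
    intro h0
    rw [h0, zero_mul, zero_mul] at hrel
    rcases mul_eq_zero.mp hrel with h | h
    · exact hr (by
        have : r = 0 := Subtype.ext h
        rw [this]; exact Ideal.zero_mem _)
    · exact hϖ1 h
  have hαu0 : α (u : F₁) ≠ 0 := (map_ne_zero α).mpr hu0
  have hαuP : α (u : F₁) ∈ s18tInt A t := pos.int _ u.2
  intro p hp
  have hx : (p : F) * α (u : F₁) ∈ s18tInt A t := Subring.mul_mem _ p.2 hαuP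
  obtain ⟨z, hz, hxz⟩ := h3.sat _ hx
    (by rw [hya]; exact ssgr_nu_mul_right Va (h3.le₁ _ p.2) (ssgr_nu_mul_left Va h3.unif₁ hy))
    (by
      rw [hyb, map_mul, map_mul]
      have h1 : Vb.valuation (p : F) ≤ 1 := (Vb.valuation_le_one_iff _).mpr (h3.le₂ _ p.2)
      have h2 : Vb.valuation y' ≤ 1 := (Vb.valuation_le_one_iff _).mpr hy'
      calc Vb.valuation (p : F) * (Vb.valuation (algebraMap A F ϖ) * Vb.valuation y')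
          ≤ 1 * (Vb.valuation (algebraMap A F ϖ) * 1) :=
            mul_le_mul' h1 (mul_le_mul' le_rfl h2)
        _ = Vb.valuation (algebraMap A F ϖ) := by rw [one_mul, mul_one])
    (ssgr_nu_mul_left Vc hp (h3.le₃ _ hαuP))
  -- `α r * p = α w * (α m * z)`
  have hrelF : α (r : F₁) * algebraMap A F ϖ = α (u : F₁) * α (w : F₁) * α (m : F₁) := by
    rw [← pos.compat, ← map_mul, hrel, map_mul, map_mul]
  have key : α (r : F₁) * (p : F) = α (w : F₁) * (α (m : F₁) * z) := by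
    apply mul_right_cancel₀ hαu0
    calc α (r : F₁) * (p : F) * α (u : F₁) = α (r : F₁) * ((p : F) * α (u : F₁)) := by ring
      _ = α (r : F₁) * algebraMap A F ϖ * z := by rw [hxz]; ring
      _ = α (w : F₁) * (α (m : F₁) * z) * α (u : F₁) := by rw [hrelF]; ring
  have hmem : sqgmMap pos r * p ∈ 𝔮 := by
    have e : sqgmMap pos r * p = sqgmMap pos w * (sqgmMap pos m * ⟨z, hz⟩) :=
      Subtype.ext (by simp only [Subring.coe_mul, sqgmMap_coe]; exact key)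
    rw [e]
    exact 𝔮.mul_mem_right _ (hW' w hw)
  exact (h𝔮.mem_or_mem hmem).resolve_left hr

/-- reflection of the maximal ideal : `α x ∈ 𝔪_V ⟹ x ∈ 𝔪_W` for `x ∈ P₁ ⊆ W`, when `α W ⊆ V`. -/
theorem sqgi_reflect (V : ValuationSubring F) (hmem : ∀ x ∈ W, α x ∈ V)
    (hleW : ∀ x ∈ s18tInt A t₁, x ∈ W) (x : ↥(s18tInt A t₁)) (hx : α (x : F₁) ∈ V.nonunits) :
    (x : F₁) ∈ W.nonunits := by
  by_contra hnu
  rw [W.mem_nonunits_iff, not_lt] at hnu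
  have h1 : W.valuation (x : F₁) = 1 :=
    le_antisymm ((W.valuation_le_one_iff _).mpr (hleW _ x.2)) hnu
  have hx0 : (x : F₁) ≠ 0 := fun h => by rw [h, map_zero] at h1; exact zero_ne_one h1
  have h2 : (x : F₁)⁻¹ ∈ W := by
    rw [← W.valuation_le_one_iff, map_inv₀, h1, inv_one]
  have h3 := hmem _ h2
  rw [map_inv₀, ← V.valuation_le_one_iff, map_inv₀] at h3
  rw [V.mem_nonunits_iff] at hx
  have h0 : V.valuation (α (x : F₁)) ≠ 0 := (Valuation.ne_zero_iff _).mpr ((map_ne_zero α).mpr hx0)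
  exact absurd hx (not_lt.mpr ((inv_le_one₀ (zero_lt_iff.mpr h0)).mp h3))

/-- (I2) A POINT ABOVE `𝔫₁` (on `W`) LIES ON `V` (over `W`), as soon as all the points above `𝔫₁`
lie on `Vc` and `κ(Vc)` is purely inseparable over `α κ(W')`. -/
theorem sqgi_on_of_surj {R : Type*} [CommRing R] (g : R →+* ↥(s18tInt A t₁))
    (pos : SqgaPos α ϖ t₁ t W W' Va Vb Vc) (V : ValuationSubring F)
    (hleV : ∀ x ∈ s18tInt A t, x ∈ V)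
    (hint : ((sqgmMap pos).comp g).IsIntegral)
    (hrefl : ∀ x : ↥(s18tInt A t₁), α (x : F₁) ∈ V.nonunits → (x : F₁) ∈ W.nonunits)
    (hpull : ∀ Q : Ideal ↥(s18tInt A t), Q.IsPrime → SqgaOn t Q V →
      SqgaOn t₁ (Q.comap (sqgmMap pos)) W)
    (hsurjW : ∀ x : ↥(s18tInt A t₁), ∃ b : R,
      (x : F₁) - ((g b : ↥(s18tInt A t₁)) : F₁) ∈ W.nonunits)
    (hinsc : ∀ p : ↥(s18tInt A t), ∃ r : ↥(s18tInt A t₁), ∃ n : ℕ, 0 < n ∧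
      (p : F) ^ n - α (r : F₁) ∈ Vc.nonunits)
    {𝔮 : Ideal ↥(s18tInt A t)} [h𝔮 : 𝔮.IsPrime]
    (honc : ∀ Q : Ideal ↥(s18tInt A t), Q.IsPrime →
      Q.comap (sqgmMap pos) = 𝔮.comap (sqgmMap pos) → SqgaOn t Q Vc)
    (hW : SqgaOn t₁ (𝔮.comap (sqgmMap pos)) W) : SqgaOn t 𝔮 V := by
  let _ := ((sqgmMap pos).comp g).toAlgebra
  have : Algebra.IsIntegral R ↥(s18tInt A t) := ⟨hint⟩
  have hle : (ssgrIdeal (s18tInt A t) V hleV).comap (algebraMap R ↥(s18tInt A t)) ≤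
      (𝔮.comap (sqgmMap pos)).comap g := by
    intro b hb
    have hb' : α ((g b : ↥(s18tInt A t₁)) : F₁) ∈ V.nonunits := hb
    exact hW _ (hrefl _ hb')
  obtain ⟨Q, hQ, hQp, hQc⟩ := Ideal.exists_ideal_over_prime_of_isIntegral
    ((𝔮.comap (sqgmMap pos)).comap g) (ssgrIdeal (s18tInt A t) V hleV) hle
  have hQV : SqgaOn t Q V := fun p hp => hQ hp
  have hQW := hpull Q hQp hQV
  have hQc' : (Q.comap (sqgmMap pos)).comap g = (𝔮.comap (sqgmMap pos)).comap g := hQc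
  have hinsW : ∀ x : ↥(s18tInt A t₁), ∃ b : R, ∃ n : ℕ, 0 < n ∧
      (x : F₁) ^ n - ((g b : ↥(s18tInt A t₁)) : F₁) ∈ W.nonunits := fun x => by
    obtain ⟨b, hb⟩ := hsurjW x
    exact ⟨b, 1, one_pos, by rw [pow_one]; exact hb⟩
  have e1 : Q.comap (sqgmMap pos) ≤ 𝔮.comap (sqgmMap pos) :=
    sqgo_le_of_ins g W hW hQW hinsW hQc'.le
  have e2 : 𝔮.comap (sqgmMap pos) ≤ Q.comap (sqgmMap pos) :=
    sqgo_le_of_ins g W hQW hW hinsW hQc'.ge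
  have e : Q.comap (sqgmMap pos) = 𝔮.comap (sqgmMap pos) := le_antisymm e1 e2
  have e3 : Q ≤ 𝔮 :=
    sqgo_le_of_ins (sqgmMap pos) Vc (honc 𝔮 h𝔮 rfl) (honc Q hQp e) hinsc e.le
  exact fun p hp => e3 (hQ hp)

include L in
/-- EVERY POINT ABOVE A NODE OF THICKNESS ONE IS A TRIPLE POINT. -/
theorem sqgi_triple (hϖ : Irreducible ϖ) (pos : SqgaPos α ϖ t₁ t W W' Va Vb Vc)
    (h3 : SqgaThree ϖ t e₂ Va Vb Vc) (hleW : ∀ x ∈ s18tInt A t₁, x ∈ W)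
    {R : Type*} [CommRing R] (g : R →+* ↥(s18tInt A t₁))
    (hint : ((sqgmMap pos).comp g).IsIntegral)
    (hsurjW : ∀ x : ↥(s18tInt A t₁), ∃ b : R,
      (x : F₁) - ((g b : ↥(s18tInt A t₁)) : F₁) ∈ W.nonunits)
    (hinsc : ∀ p : ↥(s18tInt A t), ∃ r : ↥(s18tInt A t₁), ∃ n : ℕ, 0 < n ∧
      (p : F) ^ n - α (r : F₁) ∈ Vc.nonunits)
    {𝔮 : Ideal ↥(s18tInt A t)} [h𝔮 : 𝔮.IsPrime]
    (hW : SqgaOn t₁ (𝔮.comap (sqgmMap pos)) W) (hW' : SqgaOn t₁ (𝔮.comap (sqgmMap pos)) W')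
    (hnode : SqgaNode ϖ t₁ W W' (𝔮.comap (sqgmMap pos))) :
    SqgaOn t 𝔮 Va ∧ SqgaOn t 𝔮 Vb ∧ SqgaOn t 𝔮 Vc := by
  have honc : ∀ Q : Ideal ↥(s18tInt A t), Q.IsPrime →
      Q.comap (sqgmMap pos) = 𝔮.comap (sqgmMap pos) → SqgaOn t Q Vc := by
    intro Q hQ e
    have := hQ
    exact sqgi_on_c (L := L) hϖ pos h3 (by rw [e]; exact hW') (by rw [e]; exact hnode)
  refine ⟨?_, ?_, honc 𝔮 h𝔮 rfl⟩
  · exact sqgi_on_of_surj g pos Va h3.le₁ hint (sqgi_reflect Va pos.mem_a hleW)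
      (fun Q hQ hon => by
        have := hQ
        exact sqgm_on_of_pos (L := L) hϖ pos h3 (Or.inl hon)) hsurjW hinsc honc hW
  · exact sqgi_on_of_surj g pos Vb h3.le₂ hint (sqgi_reflect Vb pos.mem_b hleW)
      (fun Q hQ hon => by
        have := hQ
        exact sqgm_on_of_pos (L := L) hϖ pos h3 (Or.inr hon)) hsurjW hinsc honc hW

include L in
/-- ABOVE A NODE OF THICKNESS ONE THERE IS ONLY ONE POINT (only the purely inseparable `hinsc` is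
needed). -/
theorem sqgi_unique (hϖ : Irreducible ϖ) (pos : SqgaPos α ϖ t₁ t W W' Va Vb Vc)
    (h3 : SqgaThree ϖ t e₂ Va Vb Vc)
    (hinsc : ∀ p : ↥(s18tInt A t), ∃ r : ↥(s18tInt A t₁), ∃ n : ℕ, 0 < n ∧
      (p : F) ^ n - α (r : F₁) ∈ Vc.nonunits)
    {𝔫 : Ideal ↥(s18tInt A t)} [h𝔫 : 𝔫.IsPrime]
    (hW' : SqgaOn t₁ (𝔫.comap (sqgmMap pos)) W')
    (hnode : SqgaNode ϖ t₁ W W' (𝔫.comap (sqgmMap pos)))
    (𝔮 : Ideal ↥(s18tInt A t)) (h𝔮 : 𝔮.IsPrime)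
    (hc : 𝔮.comap (sqgmMap pos) = 𝔫.comap (sqgmMap pos)) : 𝔮 ≤ 𝔫 := by
  have := h𝔮
  have h1 : SqgaOn t 𝔫 Vc := sqgi_on_c (L := L) hϖ pos h3 hW' hnode
  have h2 : SqgaOn t 𝔮 Vc :=
    sqgi_on_c (L := L) hϖ pos h3 (by rw [hc]; exact hW') (by rw [hc]; exact hnode)
  exact sqgo_le_of_ins (sqgmMap pos) Vc h1 h2 hinsc hc.le

end Pos

/-! ### both directions `α`, `φ` -/

section Both

variable {α φ : F₁ →+* F} {W₁ W₂ : ValuationSubring F₁} {V₁ V₂ V₃ : ValuationSubring F} {e₂ : ℕ}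

include L in
/-- INCIDENCE, local form : a prime `𝔫` of `P` lying on at least two of the three components lies on
all three, provided the two points of the lower level below `𝔫` (along `α` and along `φ`) are nodes
of thickness one as soon as they are crossing points. -/
theorem sqgi_cases' (hϖ : Irreducible ϖ) (posα : SqgaPos α ϖ t₁ t W₁ W₂ V₁ V₂ V₃)
    (posφ : SqgaPos φ ϖ t₁ t W₂ W₁ V₃ V₂ V₁) (h3 : SqgaThree ϖ t e₂ V₁ V₂ V₃)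
    (hle₁ : ∀ x ∈ s18tInt A t₁, x ∈ W₁) (hle₂ : ∀ x ∈ s18tInt A t₁, x ∈ W₂)
    {R : Type*} [CommRing R] (gα gφ : R →+* ↥(s18tInt A t₁))
    (hintα : ((sqgmMap posα).comp gα).IsIntegral) (hintφ : ((sqgmMap posφ).comp gφ).IsIntegral)
    (hsurj₁ : ∀ x : ↥(s18tInt A t₁), ∃ b : R,
      (x : F₁) - ((gα b : ↥(s18tInt A t₁)) : F₁) ∈ W₁.nonunits)
    (hsurj₂ : ∀ x : ↥(s18tInt A t₁), ∃ b : R,
      (x : F₁) - ((gφ b : ↥(s18tInt A t₁)) : F₁) ∈ W₂.nonunits)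
    (hinsα : ∀ p : ↥(s18tInt A t), ∃ r : ↥(s18tInt A t₁), ∃ n : ℕ, 0 < n ∧
      (p : F) ^ n - α (r : F₁) ∈ V₃.nonunits)
    (hinsφ : ∀ p : ↥(s18tInt A t), ∃ r : ↥(s18tInt A t₁), ∃ n : ℕ, 0 < n ∧
      (p : F) ^ n - φ (r : F₁) ∈ V₁.nonunits)
    (𝔫 : Ideal ↥(s18tInt A t)) [h𝔫 : 𝔫.IsPrime]
    (hT1α : SqgaOn t₁ (𝔫.comap (sqgmMap posα)) W₁ → SqgaOn t₁ (𝔫.comap (sqgmMap posα)) W₂ →
      SqgaNode ϖ t₁ W₁ W₂ (𝔫.comap (sqgmMap posα)))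
    (hT1φ : SqgaOn t₁ (𝔫.comap (sqgmMap posφ)) W₁ → SqgaOn t₁ (𝔫.comap (sqgmMap posφ)) W₂ →
      SqgaNode ϖ t₁ W₁ W₂ (𝔫.comap (sqgmMap posφ)))
    (h2 : (SqgaOn t 𝔫 V₁ ∧ SqgaOn t 𝔫 V₂) ∨ (SqgaOn t 𝔫 V₁ ∧ SqgaOn t 𝔫 V₃) ∨
      (SqgaOn t 𝔫 V₂ ∧ SqgaOn t 𝔫 V₃)) :
    SqgaOn t 𝔫 V₁ ∧ SqgaOn t 𝔫 V₂ ∧ SqgaOn t 𝔫 V₃ := by
  have viaα : (SqgaOn t 𝔫 V₁ ∨ SqgaOn t 𝔫 V₂) → SqgaOn t 𝔫 V₃ →
      SqgaOn t 𝔫 V₁ ∧ SqgaOn t 𝔫 V₂ ∧ SqgaOn t 𝔫 V₃ := by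
    intro h12 h3'
    have hW₁ := sqgm_on_of_pos (L := L) hϖ posα h3 h12
    have hW₂ := sqgm_on_of_pos' posα h3'
    exact sqgi_triple (L := L) hϖ posα h3 hle₁ gα hintα hsurj₁ hinsα hW₁ hW₂ (hT1α hW₁ hW₂)
  rcases h2 with ⟨h1, h2'⟩ | ⟨h1, h3'⟩ | ⟨h2', h3'⟩
  · -- via `φ`
    have hW₂ := sqgm_on_of_pos (L := L) hϖ posφ h3.symm (Or.inr h2')
    have hW₁ := sqgm_on_of_pos' posφ h1
    obtain ⟨a, b, c⟩ := sqgi_triple (L := L) hϖ posφ h3.symm hle₂ gφ hintφ hsurj₂ hinsφ hW₂ hW₁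
      (hT1φ hW₁ hW₂).symm
    exact ⟨c, b, a⟩
  · exact viaα (Or.inl h1) h3'
  · exact viaα (Or.inr h2') h3'

include L in
/-- INCIDENCE : a prime `𝔫` of `P` lying on at least two of the three components lies on all three,
provided every crossing point of the lower level is a node of thickness one. -/
theorem sqgi_cases (hϖ : Irreducible ϖ) (posα : SqgaPos α ϖ t₁ t W₁ W₂ V₁ V₂ V₃)
    (posφ : SqgaPos φ ϖ t₁ t W₂ W₁ V₃ V₂ V₁) (h3 : SqgaThree ϖ t e₂ V₁ V₂ V₃)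
    (hle₁ : ∀ x ∈ s18tInt A t₁, x ∈ W₁) (hle₂ : ∀ x ∈ s18tInt A t₁, x ∈ W₂)
    {R : Type*} [CommRing R] (gα gφ : R →+* ↥(s18tInt A t₁))
    (hintα : ((sqgmMap posα).comp gα).IsIntegral) (hintφ : ((sqgmMap posφ).comp gφ).IsIntegral)
    (hsurj₁ : ∀ x : ↥(s18tInt A t₁), ∃ b : R,
      (x : F₁) - ((gα b : ↥(s18tInt A t₁)) : F₁) ∈ W₁.nonunits)
    (hsurj₂ : ∀ x : ↥(s18tInt A t₁), ∃ b : R,
      (x : F₁) - ((gφ b : ↥(s18tInt A t₁)) : F₁) ∈ W₂.nonunits)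
    (hinsα : ∀ p : ↥(s18tInt A t), ∃ r : ↥(s18tInt A t₁), ∃ n : ℕ, 0 < n ∧
      (p : F) ^ n - α (r : F₁) ∈ V₃.nonunits)
    (hinsφ : ∀ p : ↥(s18tInt A t), ∃ r : ↥(s18tInt A t₁), ∃ n : ℕ, 0 < n ∧
      (p : F) ^ n - φ (r : F₁) ∈ V₁.nonunits)
    (hT1 : ∀ 𝔫₁ : Ideal ↥(s18tInt A t₁), 𝔫₁.IsPrime → SqgaOn t₁ 𝔫₁ W₁ → SqgaOn t₁ 𝔫₁ W₂ →
      SqgaNode ϖ t₁ W₁ W₂ 𝔫₁)
    (𝔫 : Ideal ↥(s18tInt A t)) [h𝔫 : 𝔫.IsPrime]
    (h2 : (SqgaOn t 𝔫 V₁ ∧ SqgaOn t 𝔫 V₂) ∨ (SqgaOn t 𝔫 V₁ ∧ SqgaOn t 𝔫 V₃) ∨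
      (SqgaOn t 𝔫 V₂ ∧ SqgaOn t 𝔫 V₃)) :
    SqgaOn t 𝔫 V₁ ∧ SqgaOn t 𝔫 V₂ ∧ SqgaOn t 𝔫 V₃ :=
  sqgi_cases' (L := L) hϖ posα posφ h3 hle₁ hle₂ gα gφ hintα hintφ hsurj₁ hsurj₂ hinsα hinsφ 𝔫
    (hT1 _ (Ideal.comap_isPrime _ _)) (hT1 _ (Ideal.comap_isPrime _ _)) h2

end Both

end Fermat.Agent.SQ
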