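import Mathlib
import Fermat.Agent.SQ.Germ.Incid

/-!
# Program Q (S36), package SQ/Germ : THE CLOSED POINTS OF THE SPECIAL FIBRE (prefix `sqgp`)

`sqgp_point` : at every closed point `𝔫 ∋ ϖ` of the chart `t`, EITHER `𝔫` lies on exactly one of the
three components `V₁, V₂, V₃` and the germ is regular with a smooth branch (`SqSimpleAt`), OR `𝔫`
lies on all three, the germ is regular, the three branches are smooth, `𝔫` is the only point above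
its images at the lower level ((unit) for the norms along `α` and `φ`), and the local residue
surjections (lres) hold (`SqTripleAt`).

Inputs : `SqgHyp` (abstract GERM²), the positions along `α`, `φ`, the lower level
(`P₁ = gα R + 𝔭_{W₁} = gφ R + 𝔭_{W₂}`), the purely inseparable residue extensions `(α, V₃)`, `(φ, V₁)`,
the four residue surjections, the norms, thickness one (T1) at ALL the crossing points of the lower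
level and (T2) at the points lying on `V₂` only.
-/

set_option autoImplicit false
set_option linter.unusedSectionVars false
set_option linter.unusedVariables false

noncomputable section

namespace Fermat.Agent.SQ

open Polynomial IntermediateField AlgebraicCurve Fermat.Agent.S18 Fermat.Agent.SS Fermat.Agent.G
  IsLocalRing

universe u u₀ u₁

variable {A : Type*} [CommRing A] [IsDomain A] [IsDiscreteValuationRing A] [CharZero A]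
variable {L : Type*} [Field L] [Algebra A L] [IsFractionRing A L]
variable {F : Type u} [Field F] [Algebra A F] [Algebra L F] [IsScalarTower A L F]
variable {A₀ : Type*} [CommRing A₀] [IsDomain A₀] [IsDiscreteValuationRing A₀] [CharZero A₀]
variable {L₀ : Type*} [Field L₀] [Algebra A₀ L₀] [IsFractionRing A₀ L₀]
variable {F₀ : Type u₀} [Field F₀] [Algebra A₀ F₀] [Algebra L₀ F₀] [IsScalarTower A₀ L₀ F₀]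
variable {F₁ : Type u₁} [Field F₁] [Algebra A F₁] [Algebra L F₁] [IsScalarTower A L F₁]
variable {ϖ : A} {t : F} {ϖ₀ : A₀} {t₀ : F₀} {t₁ : F₁}
variable {j : A₀ →+* A}
variable {β₀ β₂ : F₀ →+* F} {α φ : F₁ →+* F} {e₂ : ℕ} {V₁ V₂ V₃ : ValuationSubring F}
variable {W₁ W₂ : ValuationSubring F₁} {hϖ₀ : Irreducible ϖ₀}

/-- the branch datum in the constructor-free shape of `SQ/KumAt`, `SQ/NewGlue` -/
def SqgpBranch (t : F) (𝔫 : Ideal ↥(s18tInt A t)) (V : ValuationSubring F) : Prop :=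
  ∃ 𝔭 : Ideal ↥(s18tInt A t), (∀ p : ↥(s18tInt A t), p ∈ 𝔭 ↔ (p : F) ∈ V.nonunits) ∧
    SqBranch t 𝔫 𝔭

theorem sqgp_branch_of {𝔫 : Ideal ↥(s18tInt A t)} {V : ValuationSubring F}
    (hle : ∀ x ∈ s18tInt A t, x ∈ V) (h : SqBranch t 𝔫 (ssgrIdeal (s18tInt A t) V hle)) :
    SqgpBranch t 𝔫 V := ⟨_, fun _ => Iff.rfl, h⟩

/-- the data at a TRIPLE point (the fields of `SqTripleAt`, `SQ/NewGlue`) -/
structure SqgpTriple (α φ : F₁ →+* F) (Nα Nφ : F →* F₁) (t : F) (V₁ V₂ V₃ : ValuationSubring F)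
    (𝔫 : Ideal ↥(s18tInt A t)) : Prop where
  on₁ : SqgaOn t 𝔫 V₁
  on₂ : SqgaOn t 𝔫 V₂
  on₃ : SqgaOn t 𝔫 V₃
  reg : SqGermReg t 𝔫
  br₁ : SqgpBranch t 𝔫 V₁
  br₂ : SqgpBranch t 𝔫 V₂
  br₃ : SqgpBranch t 𝔫 V₃
  unitα : ∀ x : F, SsnfInLoc t 𝔫 x → SsnfInLoc t 𝔫 (α (Nα x))
  unitφ : ∀ x : F, SsnfInLoc t 𝔫 x → SsnfInLoc t 𝔫 (φ (Nφ x))
  lres₁α : ∀ x : F, SsnfInLoc t 𝔫 x → ∃ y : F₁, SsnfInLoc t 𝔫 (α y) ∧ x - α y ∈ V₁.nonunits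
  lres₂α : ∀ x : F, SsnfInLoc t 𝔫 x → ∃ y : F₁, SsnfInLoc t 𝔫 (α y) ∧ x - α y ∈ V₂.nonunits
  lres₂φ : ∀ x : F, SsnfInLoc t 𝔫 x → ∃ y : F₁, SsnfInLoc t 𝔫 (φ y) ∧ x - φ y ∈ V₂.nonunits
  lres₃φ : ∀ x : F, SsnfInLoc t 𝔫 x → ∃ y : F₁, SsnfInLoc t 𝔫 (φ y) ∧ x - φ y ∈ V₃.nonunits

/-- the data at a SIMPLE point : regular germ, exactly one component `V` through `𝔫`, smooth. -/
def SqgpSimple (t : F) (V V' V'' : ValuationSubring F) (𝔫 : Ideal ↥(s18tInt A t)) : Prop :=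
  SqGermReg t 𝔫 ∧ SqgaOn t 𝔫 V ∧ SqgpBranch t 𝔫 V ∧ ¬ SqgaOn t 𝔫 V' ∧ ¬ SqgaOn t 𝔫 V''

include L in
/-- **THE CLOSED POINTS OF THE SPECIAL FIBRE** : simple on one component, or triple. -/
theorem sqgp_point' (H : SqgHyp hϖ₀ j β₀ β₂ ϖ t₀ t e₂ V₁ V₂ V₃) (hϖ : Irreducible ϖ)
    (ht₀ : Transcendental L₀ t₀) [FiniteDimensional L₀⟮t₀⟯ F₀]
    (posα : SqgaPos α ϖ t₁ t W₁ W₂ V₁ V₂ V₃) (posφ : SqgaPos φ ϖ t₁ t W₂ W₁ V₃ V₂ V₁)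
    (hle₁ : ∀ x ∈ s18tInt A t₁, x ∈ W₁) (hle₂ : ∀ x ∈ s18tInt A t₁, x ∈ W₂)
    {R : Type*} [CommRing R] (gα gφ : R →+* ↥(s18tInt A t₁))
    (hintα : ((sqgmMap posα).comp gα).IsIntegral) (hintφ : ((sqgmMap posφ).comp gφ).IsIntegral)
    (hsurjW₁ : ∀ x : ↥(s18tInt A t₁), ∃ b : R,
      (x : F₁) - ((gα b : ↥(s18tInt A t₁)) : F₁) ∈ W₁.nonunits)
    (hsurjW₂ : ∀ x : ↥(s18tInt A t₁), ∃ b : R,
      (x : F₁) - ((gφ b : ↥(s18tInt A t₁)) : F₁) ∈ W₂.nonunits)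
    (hinsα : ∀ p : ↥(s18tInt A t), ∃ r : ↥(s18tInt A t₁), ∃ n : ℕ, 0 < n ∧
      (p : F) ^ n - α (r : F₁) ∈ V₃.nonunits)
    (hinsφ : ∀ p : ↥(s18tInt A t), ∃ r : ↥(s18tInt A t₁), ∃ n : ℕ, 0 < n ∧
      (p : F) ^ n - φ (r : F₁) ∈ V₁.nonunits)
    (hres₁α : ∀ p : ↥(s18tInt A t), ∃ r : ↥(s18tInt A t₁), (p : F) - α (r : F₁) ∈ V₁.nonunits)
    (hres₂α : ∀ p : ↥(s18tInt A t), ∃ r : ↥(s18tInt A t₁), (p : F) - α (r : F₁) ∈ V₂.nonunits)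
    (hres₂φ : ∀ p : ↥(s18tInt A t), ∃ r : ↥(s18tInt A t₁), (p : F) - φ (r : F₁) ∈ V₂.nonunits)
    (hres₃φ : ∀ p : ↥(s18tInt A t), ∃ r : ↥(s18tInt A t₁), (p : F) - φ (r : F₁) ∈ V₃.nonunits)
    (Nα Nφ : F →* F₁) (q : ℕ) (hNα : ∀ y : F₁, Nα (α y) = y ^ q) (hNφ : ∀ y : F₁, Nφ (φ y) = y ^ q)
    (hNαint : ∀ p ∈ s18tInt A t, Nα p ∈ s18tInt A t₁)
    (hNφint : ∀ p ∈ s18tInt A t, Nφ p ∈ s18tInt A t₁)
    (hT1 : ∀ 𝔫₁ : Ideal ↥(s18tInt A t₁), 𝔫₁.IsMaximal → sskPi ϖ t₁ ∈ 𝔫₁ →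
      SqgaOn t₁ 𝔫₁ W₁ → SqgaOn t₁ 𝔫₁ W₂ → SqgaNode ϖ t₁ W₁ W₂ 𝔫₁)
    (𝔫 : Ideal ↥(s18tInt A t)) (hmax : 𝔫.IsMaximal) (hϖ𝔫 : sskPi ϖ t ∈ 𝔫)
    (hloc₂ : ∀ b ∈ s18tInt A₀ t₀, β₂ b ∈ ssLocRing (h𝔫 := hmax.isPrime) t 𝔫)
    (hT2 : SqgaOn t 𝔫 V₂ → ¬ SqgaOn t 𝔫 V₁ → ¬ SqgaOn t 𝔫 V₃ →
      ∃ π w : F, SsnfInLoc t 𝔫 π ∧ π ∈ V₂.nonunits ∧ SsnfInLoc t 𝔫 w ∧
        algebraMap A F ϖ = π ^ e₂ * w) :
    SqgpSimple t V₁ V₂ V₃ 𝔫 ∨ SqgpSimple t V₂ V₁ V₃ 𝔫 ∨ SqgpSimple t V₃ V₁ V₂ 𝔫 ∨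
      SqgpTriple α φ Nα Nφ t V₁ V₂ V₃ 𝔫 := by
  have h𝔫 : 𝔫.IsPrime := hmax.isPrime
  have h3 := H.three
  have hiα : (sqgmMap posα).IsIntegral := RingHom.IsIntegral.tower_top gα _ hintα
  have hiφ : (sqgmMap posφ).IsIntegral := RingHom.IsIntegral.tower_top gφ _ hintφ
  -- the points below are closed points of the special fibre
  have hmα : (𝔫.comap (sqgmMap posα)).IsMaximal :=
    Ideal.isMaximal_comap_of_isIntegral_of_isMaximal' (sqgmMap posα) hiα 𝔫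
  have hmφ : (𝔫.comap (sqgmMap posφ)).IsMaximal :=
    Ideal.isMaximal_comap_of_isIntegral_of_isMaximal' (sqgmMap posφ) hiφ 𝔫
  have hϖα : sskPi ϖ t₁ ∈ 𝔫.comap (sqgmMap posα) := by
    rw [Ideal.mem_comap]
    have e : sqgmMap posα (sskPi ϖ t₁) = sskPi ϖ t := Subtype.ext (posα.compat ϖ)
    rw [e]
    exact hϖ𝔫
  have hϖφ : sskPi ϖ t₁ ∈ 𝔫.comap (sqgmMap posφ) := by
    rw [Ideal.mem_comap]
    have e : sqgmMap posφ (sskPi ϖ t₁) = sskPi ϖ t := Subtype.ext (posφ.compat ϖ)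
    rw [e]
    exact hϖ𝔫
  -- the nodes below
  have nodeα : SqgaOn t 𝔫 V₃ → SqgaOn t 𝔫 V₁ ∨ SqgaOn t 𝔫 V₂ →
      SqgaNode ϖ t₁ W₁ W₂ (𝔫.comap (sqgmMap posα)) := fun h3' h12 =>
    hT1 _ hmα hϖα (sqgm_on_of_pos (L := L) hϖ posα h3 h12) (sqgm_on_of_pos' posα h3')
  have nodeφ : SqgaOn t 𝔫 V₁ → SqgaOn t 𝔫 V₃ ∨ SqgaOn t 𝔫 V₂ →
      SqgaNode ϖ t₁ W₂ W₁ (𝔫.comap (sqgmMap posφ)) := fun h1 h32 =>
    (hT1 _ hmφ hϖφ (sqgm_on_of_pos' posφ h1)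
      (sqgm_on_of_pos (L := L) hϖ posφ h3.symm h32)).symm
  obtain ⟨hreg, hb₁, hb₂, hb₃⟩ := sqgm_germ (L := L) H hϖ ht₀ posα posφ 𝔫 hmax hϖ𝔫 hloc₂ nodeα
    (fun h1 h2 => nodeφ h1 (Or.inr h2)) hT2
  -- incidence
  have hinc := sqgi_cases' (L := L) hϖ posα posφ h3 hle₁ hle₂ gα gφ hintα hintφ hsurjW₁ hsurjW₂
    hinsα hinsφ 𝔫 (hT1 _ hmα hϖα) (hT1 _ hmφ hϖφ)
  have htriple : SqgaOn t 𝔫 V₁ → SqgaOn t 𝔫 V₂ → SqgaOn t 𝔫 V₃ →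
      SqgpTriple α φ Nα Nφ t V₁ V₂ V₃ 𝔫 := by
    intro h1 h2 h3'
    have huα := sqgi_unique (L := L) hϖ posα h3 hinsα (sqgm_on_of_pos' posα h3')
      (nodeα h3' (Or.inl h1))
    have huφ := sqgi_unique (L := L) hϖ posφ h3.symm hinsφ (sqgm_on_of_pos' posφ h1)
      (nodeφ h1 (Or.inl h3'))
    refine
      { on₁ := h1, on₂ := h2, on₃ := h3', reg := hreg
        br₁ := sqgp_branch_of _ (hb₁ h1)
        br₂ := sqgp_branch_of _ (hb₂ h2)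
        br₃ := sqgp_branch_of _ (hb₃ h3')
        unitα := fun x hx => (sqgo_norm_inLoc posα hiα huα Nα q hNα hNαint hx).2
        unitφ := fun x hx => (sqgo_norm_inLoc posφ hiφ huφ Nφ q hNφ hNφint hx).2
        lres₁α := fun x hx => ?_
        lres₂α := fun x hx => ?_
        lres₂φ := fun x hx => ?_
        lres₃φ := fun x hx => ?_ }
    · obtain ⟨y, -, hy, hxy⟩ := sqgo_lres posα V₁ h3.le₁ h1 hres₁α hx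
      exact ⟨y, hy, hxy⟩
    · obtain ⟨y, -, hy, hxy⟩ := sqgo_lres posα V₂ h3.le₂ h2 hres₂α hx
      exact ⟨y, hy, hxy⟩
    · obtain ⟨y, -, hy, hxy⟩ := sqgo_lres posφ V₂ h3.le₂ h2 hres₂φ hx
      exact ⟨y, hy, hxy⟩
    · obtain ⟨y, -, hy, hxy⟩ := sqgo_lres posφ V₃ h3.le₃ h3' hres₃φ hx
      exact ⟨y, hy, hxy⟩
  by_cases h1 : SqgaOn t 𝔫 V₁
  · by_cases h2 : SqgaOn t 𝔫 V₂
    · exact Or.inr (Or.inr (Or.inr (htriple h1 h2 (hinc (Or.inl ⟨h1, h2⟩)).2.2)))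
    · by_cases h3' : SqgaOn t 𝔫 V₃
      · exact absurd (hinc (Or.inr (Or.inl ⟨h1, h3'⟩))).2.1 h2
      · exact Or.inl ⟨hreg, h1, sqgp_branch_of _ (hb₁ h1), h2, h3'⟩
  · by_cases h2 : SqgaOn t 𝔫 V₂
    · by_cases h3' : SqgaOn t 𝔫 V₃
      · exact absurd (hinc (Or.inr (Or.inr ⟨h2, h3'⟩))).1 h1
      · exact Or.inr (Or.inl ⟨hreg, h2, sqgp_branch_of _ (hb₂ h2), h1, h3'⟩)
    · by_cases h3' : SqgaOn t 𝔫 V₃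
      · exact Or.inr (Or.inr (Or.inl ⟨hreg, h3', sqgp_branch_of _ (hb₃ h3'), h1, h2⟩))
      · exact (sqgm_on_some h3 𝔫 hϖ𝔫 h1 h2 h3').elim

include L in
/-- **THE CLOSED POINTS OF THE SPECIAL FIBRE**, with (T1) assumed at every PRIME through both
components of the lower level (a stronger hypothesis than in `sqgp_point'`). -/
theorem sqgp_point (H : SqgHyp hϖ₀ j β₀ β₂ ϖ t₀ t e₂ V₁ V₂ V₃) (hϖ : Irreducible ϖ)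
    (ht₀ : Transcendental L₀ t₀) [FiniteDimensional L₀⟮t₀⟯ F₀]
    (posα : SqgaPos α ϖ t₁ t W₁ W₂ V₁ V₂ V₃) (posφ : SqgaPos φ ϖ t₁ t W₂ W₁ V₃ V₂ V₁)
    (hle₁ : ∀ x ∈ s18tInt A t₁, x ∈ W₁) (hle₂ : ∀ x ∈ s18tInt A t₁, x ∈ W₂)
    {R : Type*} [CommRing R] (gα gφ : R →+* ↥(s18tInt A t₁))
    (hintα : ((sqgmMap posα).comp gα).IsIntegral) (hintφ : ((sqgmMap posφ).comp gφ).IsIntegral)
    (hsurjW₁ : ∀ x : ↥(s18tInt A t₁), ∃ b : R,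
      (x : F₁) - ((gα b : ↥(s18tInt A t₁)) : F₁) ∈ W₁.nonunits)
    (hsurjW₂ : ∀ x : ↥(s18tInt A t₁), ∃ b : R,
      (x : F₁) - ((gφ b : ↥(s18tInt A t₁)) : F₁) ∈ W₂.nonunits)
    (hinsα : ∀ p : ↥(s18tInt A t), ∃ r : ↥(s18tInt A t₁), ∃ n : ℕ, 0 < n ∧
      (p : F) ^ n - α (r : F₁) ∈ V₃.nonunits)
    (hinsφ : ∀ p : ↥(s18tInt A t), ∃ r : ↥(s18tInt A t₁), ∃ n : ℕ, 0 < n ∧
      (p : F) ^ n - φ (r : F₁) ∈ V₁.nonunits)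
    (hres₁α : ∀ p : ↥(s18tInt A t), ∃ r : ↥(s18tInt A t₁), (p : F) - α (r : F₁) ∈ V₁.nonunits)
    (hres₂α : ∀ p : ↥(s18tInt A t), ∃ r : ↥(s18tInt A t₁), (p : F) - α (r : F₁) ∈ V₂.nonunits)
    (hres₂φ : ∀ p : ↥(s18tInt A t), ∃ r : ↥(s18tInt A t₁), (p : F) - φ (r : F₁) ∈ V₂.nonunits)
    (hres₃φ : ∀ p : ↥(s18tInt A t), ∃ r : ↥(s18tInt A t₁), (p : F) - φ (r : F₁) ∈ V₃.nonunits)
    (Nα Nφ : F →* F₁) (q : ℕ) (hNα : ∀ y : F₁, Nα (α y) = y ^ q) (hNφ : ∀ y : F₁, Nφ (φ y) = y ^ q)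
    (hNαint : ∀ p ∈ s18tInt A t, Nα p ∈ s18tInt A t₁)
    (hNφint : ∀ p ∈ s18tInt A t, Nφ p ∈ s18tInt A t₁)
    (hT1 : ∀ 𝔫₁ : Ideal ↥(s18tInt A t₁), 𝔫₁.IsPrime → SqgaOn t₁ 𝔫₁ W₁ → SqgaOn t₁ 𝔫₁ W₂ →
      SqgaNode ϖ t₁ W₁ W₂ 𝔫₁)
    (𝔫 : Ideal ↥(s18tInt A t)) (hmax : 𝔫.IsMaximal) (hϖ𝔫 : sskPi ϖ t ∈ 𝔫)
    (hloc₂ : ∀ b ∈ s18tInt A₀ t₀, β₂ b ∈ ssLocRing (h𝔫 := hmax.isPrime) t 𝔫)
    (hT2 : SqgaOn t 𝔫 V₂ → ¬ SqgaOn t 𝔫 V₁ → ¬ SqgaOn t 𝔫 V₃ →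
      ∃ π w : F, SsnfInLoc t 𝔫 π ∧ π ∈ V₂.nonunits ∧ SsnfInLoc t 𝔫 w ∧
        algebraMap A F ϖ = π ^ e₂ * w) :
    SqgpSimple t V₁ V₂ V₃ 𝔫 ∨ SqgpSimple t V₂ V₁ V₃ 𝔫 ∨ SqgpSimple t V₃ V₁ V₂ 𝔫 ∨
      SqgpTriple α φ Nα Nφ t V₁ V₂ V₃ 𝔫 :=
  sqgp_point' (L := L) H hϖ ht₀ posα posφ hle₁ hle₂ gα gφ hintα hintφ hsurjW₁ hsurjW₂ hinsα hinsφ
    hres₁α hres₂α hres₂φ hres₃φ Nα Nφ q hNα hNφ hNαint hNφint
    (fun 𝔫₁ hm _ => hT1 𝔫₁ hm.isPrime) 𝔫 hmax hϖ𝔫 hloc₂ hT2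

end Fermat.Agent.SQ
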