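import Mathlib
import Fermat.Agent.SQ.Germ.Main

/-!
# Program Q (S36), package SQ/Germ : THE RESIDUE SURJECTION `P = f P₀ + 𝔭_V` FROM `κ(V) = f κ(O₀)`
(prefix `sqgs`)

`(A₀, L₀, F₀, ϖ₀, t₀)` the lower level with good reduction (`GrdfbHyp`), `f : F₀ → F` compatible with the
constants with `f t₀ = t`, `A = j A₀ + ϖ A`, `V ⊇ P = s18tInt A t` a valuation ring with `ϖ ∈ 𝔪_V`
containing `f O₀` (`O₀` the Gauss ring of `F₀`), with residue field `κ(V) = f κ(O₀)` :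

* `sqgs_surj` : `∀ p ∈ P, ∃ b ∈ P₀, p - f b ∈ 𝔪_V` (the argument of `ssgr_surj₁` for one valuation : an
  element of `O₀` which is integral over `A₀[t₀]` modulo `ϖ₀` is congruent to an element of `P₀`,
  because the special fibre of `P₀` is normal).
-/

set_option autoImplicit false
set_option linter.unusedSectionVars false
set_option linter.unusedVariables false

noncomputable section

namespace Fermat.Agent.SQ

open Polynomial IntermediateField AlgebraicCurve Fermat.Agent.S18 Fermat.Agent.SS Fermat.Agent.G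
  IsLocalRing

universe u u₀

variable {A : Type*} [CommRing A] [IsDomain A] [IsDiscreteValuationRing A] [CharZero A]
variable {L : Type*} [Field L] [Algebra A L] [IsFractionRing A L]
variable {F : Type u} [Field F] [Algebra A F] [Algebra L F] [IsScalarTower A L F]
variable {A₀ : Type*} [CommRing A₀] [IsDomain A₀] [IsDiscreteValuationRing A₀] [CharZero A₀]
variable {L₀ : Type*} [Field L₀] [Algebra A₀ L₀] [IsFractionRing A₀ L₀]
variable {F₀ : Type u₀} [Field F₀] [Algebra A₀ F₀] [Algebra L₀ F₀] [IsScalarTower A₀ L₀ F₀]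
variable {ϖ : A} {t : F} {ϖ₀ : A₀} {t₀ : F₀}
variable {j : A₀ →+* A}

/-- `eval₂` at congruent points of `V`, coefficients in `V` -/
theorem sqgs_eval₂_sub {R : Type*} [CommRing R] (V : ValuationSubring F) (g : R →+* F)
    (hg : ∀ c, g c ∈ V) (m : R[X]) {x y : F} (hx : x ∈ V) (hy : y ∈ V)
    (h : x - y ∈ V.nonunits) : eval₂ g x m - eval₂ g y m ∈ V.nonunits := by
  rw [eval₂_eq_sum_range, eval₂_eq_sum_range, ← Finset.sum_sub_distrib]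
  refine ssgr_nu_sum V _ _ fun i _ => ?_
  rw [← mul_sub]
  exact ssgr_nu_mul_right V (hg _) (ssgr_pow_sub_pow V hx hy h i)

/-- `eval₂` of a polynomial with coefficients in a subring at a point of the subring -/
theorem sqgs_eval₂_mem {R : Type*} [CommRing R] (S : Subring F) (g : R →+* F)
    (hg : ∀ c, g c ∈ S) (m : R[X]) {x : F} (hx : x ∈ S) : eval₂ g x m ∈ S := by
  rw [eval₂_eq_sum_range]
  exact Subring.sum_mem _ fun i _ => Subring.mul_mem _ (hg _) (Subring.pow_mem _ hx i)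

/-- **THE RESIDUE SURJECTION AT ONE ELEMENT** : `x ∈ P` congruent modulo `𝔪_V` to the image of an
element of the Gauss ring `O₀` is congruent to the image of an element of `P₀`. -/
theorem sqgs_surj_at (hϖ₀ : Irreducible ϖ₀) {f : F₀ →+* F} (lev : SsgaLevel j f ϖ₀ ϖ t₀ t)
    (good : GrdfbHyp hϖ₀ t₀) (hres : ∀ a : A, ∃ a₀ : A₀, ∃ b : A, a = j a₀ + ϖ * b)
    (V : ValuationSubring F) (hle : ∀ x ∈ s18tInt A t, x ∈ V)
    (hϖV : algebraMap A F ϖ ∈ V.nonunits)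
    (gauss : ∀ x ∈ s18tIntLoc A₀ t₀ (C ϖ₀) (s18t_prime_C hϖ₀), f x ∈ V)
    {x : F} (hx : x ∈ s18tInt A t)
    (res : ∃ r ∈ s18tIntLoc A₀ t₀ (C ϖ₀) (s18t_prime_C hϖ₀), x - f r ∈ V.nonunits) :
    ∃ b ∈ s18tInt A₀ t₀, x - f b ∈ V.nonunits := by
  obtain ⟨r, hr, hxr⟩ := res
  obtain ⟨p, hp, hpx⟩ := grdfb_isIntegralElem_of_mem_int t x hx
  obtain ⟨m₀, hm₀, d, hd⟩ := ssgi_lift_monic hres p hp
  set g : A₀[X] →+* F := f.comp ((aeval t₀ : A₀[X] →ₐ[A₀] F₀) : A₀[X] →+* F₀) with hgdef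
  have hg : g = (((aeval t : A[X] →ₐ[A] F) : A[X] →+* F)).comp (Polynomial.mapRingHom j) :=
    ssgi_comp_aeval lev
  -- `f ϖ₀ ∈ 𝔪_V`
  have hfϖ₀ : f (algebraMap A₀ F₀ ϖ₀) ∈ V.nonunits := by
    obtain ⟨c, hc⟩ := lev.unif
    rw [lev.compat, hc, map_mul]
    exact ssgr_nu_mul_left V hϖV (hle _ (s18tc_algebraMap_mem_int t c))
  -- the monic equation of `x` over `A₀[t₀]` modulo `𝔪_V`
  have h1 : eval₂ g x m₀ =
      algebraMap A F ϖ * eval₂ ((aeval t : A[X] →ₐ[A] F) : A[X] →+* F) x d := by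
    rw [hg, ← eval₂_map, hd, eval₂_add, hpx, zero_add, eval₂_mul, eval₂_C]
    congr 1
    simp
  have h1V : eval₂ g x m₀ ∈ V.nonunits := by
    rw [h1]
    exact ssgr_nu_mul_left V hϖV (hle _ (ssgi_eval₂_mem t x hx d))
  have hgP : ∀ c, (aeval t₀ c : F₀) ∈ s18tIntLoc A₀ t₀ (C ϖ₀) (s18t_prime_C hϖ₀) := fun c =>
    ssga_int_le_intLoc hϖ₀ t₀ (s18tc_chart_le_int t₀ (s18tb_aeval_mem_chart t₀ c))
  have hgV : ∀ c, g c ∈ V := fun c => gauss _ (hgP c)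
  have h2 := sqgs_eval₂_sub V g hgV m₀ (hle x hx) (gauss r hr) hxr
  have h3 : eval₂ g (f r) m₀ =
      f (eval₂ ((aeval t₀ : A₀[X] →ₐ[A₀] F₀) : A₀[X] →+* F₀) r m₀) := by
    rw [hgdef, Polynomial.hom_eval₂]
  set r' : F₀ := eval₂ ((aeval t₀ : A₀[X] →ₐ[A₀] F₀) : A₀[X] →+* F₀) r m₀ with hr'def
  have hr' : r' ∈ s18tIntLoc A₀ t₀ (C ϖ₀) (s18t_prime_C hϖ₀) :=
    sqgs_eval₂_mem _ _ hgP m₀ hr
  have h4 : f r' ∈ V.nonunits := by
    have e : f r' = eval₂ g x m₀ - (eval₂ g x m₀ - eval₂ g (f r) m₀) := by rw [h3]; ring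
    rw [e]
    exact ssgr_nu_sub V h1V h2
  -- `r' ∈ ϖ₀ O₀`
  have h5 : S18DvdGauss hϖ₀ t₀ r' := by
    rcases good.val r' hr' with h | hinv
    · exact h
    · by_cases h0 : r' = 0
      · exact ⟨0, Subring.zero_mem _, by rw [h0, mul_zero]⟩
      · exfalso
        have hfr : f r' ≠ 0 := (map_ne_zero f).mpr h0
        have h6 : (f r')⁻¹ ∈ V := by
          rw [← map_inv₀]
          exact gauss _ hinv
        rw [V.mem_nonunits_iff] at h4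
        have h7 := (V.valuation_le_one_iff _).mpr h6
        rw [map_inv₀] at h7
        have h8 : V.valuation (f r') ≠ 0 := (Valuation.ne_zero_iff _).mpr hfr
        exact absurd h4 (not_lt.mpr ((inv_le_one₀ (zero_lt_iff.mpr h8)).mp h7))
  obtain ⟨y, hy, hxy⟩ := h5
  obtain ⟨b, hb, y', hy', hby⟩ := good.norm r hr ⟨m₀, hm₀, y, hy, hxy⟩
  refine ⟨b, hb, ?_⟩
  have e : x - f b = (x - f r) + f (algebraMap A₀ F₀ ϖ₀) * f y' := by
    rw [← map_mul, ← hby, map_sub]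
    ring
  rw [e]
  exact ssgr_nu_add V hxr (ssgr_nu_mul_left V hfϖ₀ (gauss _ hy'))

/-- **THE RESIDUE SURJECTION** `P = f P₀ + 𝔭_V`. -/
theorem sqgs_surj (hϖ₀ : Irreducible ϖ₀) {f : F₀ →+* F} (lev : SsgaLevel j f ϖ₀ ϖ t₀ t)
    (good : GrdfbHyp hϖ₀ t₀) (hres : ∀ a : A, ∃ a₀ : A₀, ∃ b : A, a = j a₀ + ϖ * b)
    (V : ValuationSubring F) (hle : ∀ x ∈ s18tInt A t, x ∈ V)
    (hϖV : algebraMap A F ϖ ∈ V.nonunits)
    (gauss : ∀ x ∈ s18tIntLoc A₀ t₀ (C ϖ₀) (s18t_prime_C hϖ₀), f x ∈ V)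
    (res : ∀ x ∈ V, ∃ r ∈ s18tIntLoc A₀ t₀ (C ϖ₀) (s18t_prime_C hϖ₀), x - f r ∈ V.nonunits) :
    ∀ p ∈ s18tInt A t, ∃ b ∈ s18tInt A₀ t₀, p - f b ∈ V.nonunits := fun x hx =>
  sqgs_surj_at hϖ₀ lev good hres V hle hϖV gauss hx (res x (hle x hx))

/-- **THE PURELY INSEPARABLE FORM** : `κ(V) ^ n ⊆ f κ(O₀)` ⟹ `pⁿ ≡ f b mod 𝔪_V`, `b ∈ P₀`, for every
`p ∈ P`. -/
theorem sqgs_ins (hϖ₀ : Irreducible ϖ₀) {f : F₀ →+* F} (lev : SsgaLevel j f ϖ₀ ϖ t₀ t)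
    (good : GrdfbHyp hϖ₀ t₀) (hres : ∀ a : A, ∃ a₀ : A₀, ∃ b : A, a = j a₀ + ϖ * b)
    (V : ValuationSubring F) (hle : ∀ x ∈ s18tInt A t, x ∈ V)
    (hϖV : algebraMap A F ϖ ∈ V.nonunits)
    (gauss : ∀ x ∈ s18tIntLoc A₀ t₀ (C ϖ₀) (s18t_prime_C hϖ₀), f x ∈ V) (n : ℕ)
    (ins : ∀ x ∈ V, ∃ r ∈ s18tIntLoc A₀ t₀ (C ϖ₀) (s18t_prime_C hϖ₀),
      x ^ n - f r ∈ V.nonunits) :
    ∀ p ∈ s18tInt A t, ∃ b ∈ s18tInt A₀ t₀, p ^ n - f b ∈ V.nonunits := fun x hx =>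
  sqgs_surj_at hϖ₀ lev good hres V hle hϖV gauss (Subring.pow_mem _ hx n) (ins x (hle x hx))

end Fermat.Agent.SQ
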