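import Mathlib
import Fermat.Agent.SQ.Germ.Point
import Fermat.Agent.SQ.Germ.Surj

/-!
# Program Q (S36), package SQ/Germ : WIRING THE VALUATION-LEVEL INPUT (prefix `sqgw`)

Three levels `F₀ → F₁ → F` (`α₁, φ₁ : F₀ → F₁`, `α, φ : F₁ → F`, `α ∘ φ₁ = φ ∘ α₁`), Gauss ring `O₀` of
`F₀` with good reduction, `W₁, W₂` over `O₀`, `V₁, V₂` over `W₁` along `α`, `V₃` over `W₂` along `α`,
`V₃, V₂` over `W₂` along `φ`, `V₁` over `W₁` along `φ`.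

`structure SqgwHyp` collects the VALUATION-LEVEL facts (residue fields of the five valuation rings,
in the literal shapes of (VAL²) / Program S) and the chart compatibilities.  From it :

* `SqgwHyp.sqgHyp` : the hypotheses `SqgHyp` of the abstract GERM² (`surj₁, surj₂, surj₃`);
* `SqgwHyp.surjW₁/₂` : `P₁ = α₁ P₀ + 𝔭_{W₁} = φ₁ P₀ + 𝔭_{W₂}`;
* `SqgwHyp.res₁α' … res₃φ'`, `SqgwHyp.insα'`, `SqgwHyp.insφ'` : the `P`-level residue surjections and the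
  FROBENIUS-TWIST congruences `p ^ q ≡ α r mod 𝔪_{V₃}`, `p ^ q ≡ φ r mod 𝔪_{V₁}` (`r ∈ P₁`);
* `SqgwHyp.point` : `sqgp_point` with all these inputs discharged : only (T1), (T2), the norms and
  `hloc₂` remain.
-/

set_option autoImplicit false
set_option linter.unusedSectionVars false
set_option linter.unusedVariables false

noncomputable section

namespace Fermat.Agent.SQ

open Polynomial IntermediateField AlgebraicCurve Fermat.Agent.S18 Fermat.Agent.SS Fermat.Agent.G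
  IsLocalRing

universe u u₀ u₁

variable {A : Type*} [CommRing A] [IsDomain A] [IsDiscreteValuationRing A] [CharZero A]
variable {L : Type*} [Field L] [Algebra A L] [IsFractionRing A L]
variable {F : Type u} [Field F] [Algebra A F] [Algebra L F] [IsScalarTower A L F]
variable {A₀ : Type*} [CommRing A₀] [IsDomain A₀] [IsDiscreteValuationRing A₀] [CharZero A₀]
variable {L₀ : Type*} [Field L₀] [Algebra A₀ L₀] [IsFractionRing A₀ L₀]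
variable {F₀ : Type u₀} [Field F₀] [Algebra A₀ F₀] [Algebra L₀ F₀] [IsScalarTower A₀ L₀ F₀]
variable {F₁ : Type u₁} [Field F₁] [Algebra A F₁] [Algebra L F₁] [IsScalarTower A L F₁]
variable {ϖ : A} {t : F} {ϖ₀ : A₀} {t₀ : F₀} {t₁ : F₁}
variable {j : A₀ →+* A}
variable {α₁ φ₁ : F₀ →+* F₁} {α φ : F₁ →+* F} {e₂ q : ℕ} {V₁ V₂ V₃ : ValuationSubring F}
variable {W₁ W₂ : ValuationSubring F₁} {hϖ₀ : Irreducible ϖ₀}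

/-- THE VALUATION-LEVEL INPUT. -/
structure SqgwHyp (hϖ₀ : Irreducible ϖ₀) (j : A₀ →+* A) (α₁ φ₁ : F₀ →+* F₁) (α φ : F₁ →+* F)
    (ϖ : A) (t₀ : F₀) (t₁ : F₁) (t : F) (e₂ : ℕ) (W₁ W₂ : ValuationSubring F₁)
    (V₁ V₂ V₃ : ValuationSubring F) (q : ℕ) : Prop where
  hq : 0 < q
  /-- `j` is onto (`A₀ = A` in the application) -/
  jsurj : Function.Surjective j
  unif : ∃ c : A, j ϖ₀ = ϖ * c
  /-- `α ∘ φ₁ = φ ∘ α₁` -/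
  comm : ∀ x : F₀, α (φ₁ x) = φ (α₁ x)
  compatα₁ : ∀ a : A₀, α₁ (algebraMap A₀ F₀ a) = algebraMap A F₁ (j a)
  compatφ₁ : ∀ a : A₀, φ₁ (algebraMap A₀ F₀ a) = algebraMap A F₁ (j a)
  coord₁ : α₁ t₀ = t₁
  coord : α t₁ = t
  posα : SqgaPos α ϖ t₁ t W₁ W₂ V₁ V₂ V₃
  posφ : SqgaPos φ ϖ t₁ t W₂ W₁ V₃ V₂ V₁
  three : SqgaThree ϖ t e₂ V₁ V₂ V₃
  good : GrdfbHyp hϖ₀ t₀
  le₁ : ∀ x ∈ s18tInt A t₁, x ∈ W₁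
  le₂ : ∀ x ∈ s18tInt A t₁, x ∈ W₂
  unifW₂ : algebraMap A F₁ ϖ ∈ W₂.nonunits
  /-- the charts `j_q`, `j_qq` define the same integral closures -/
  chartW : s18tInt A (φ₁ t₀) = s18tInt A t₁
  chart₁ : s18tInt A (α (φ₁ t₀)) = s18tInt A t
  chart₂ : s18tInt A (φ (φ₁ t₀)) = s18tInt A t
  /-- the Gauss ring `O₀` of `F₀` maps into `W₁`, `W₂` -/
  gaussα₁ : ∀ x ∈ s18tIntLoc A₀ t₀ (C ϖ₀) (s18t_prime_C hϖ₀), α₁ x ∈ W₁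
  gaussα₂ : ∀ x ∈ s18tIntLoc A₀ t₀ (C ϖ₀) (s18t_prime_C hϖ₀), α₁ x ∈ W₂
  gaussφ₁ : ∀ x ∈ s18tIntLoc A₀ t₀ (C ϖ₀) (s18t_prime_C hϖ₀), φ₁ x ∈ W₁
  gaussφ₂ : ∀ x ∈ s18tIntLoc A₀ t₀ (C ϖ₀) (s18t_prime_C hϖ₀), φ₁ x ∈ W₂
  memα₃ : ∀ x ∈ W₂, α x ∈ V₃
  memφ₁ : ∀ x ∈ W₁, φ x ∈ V₁
  /-- `κ(W₁) = α₁ κ(O₀)` -/
  res₁ : ∀ y ∈ W₁, ∃ r ∈ s18tIntLoc A₀ t₀ (C ϖ₀) (s18t_prime_C hϖ₀), y - α₁ r ∈ W₁.nonunits
  /-- `κ(W₂) = φ₁ κ(O₀)` -/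
  res₂ : ∀ y ∈ W₂, ∃ r ∈ s18tIntLoc A₀ t₀ (C ϖ₀) (s18t_prime_C hϖ₀), y - φ₁ r ∈ W₂.nonunits
  /-- `κ(W₁)^q ⊆ φ₁ κ(O₀)` -/
  ins₁ : ∀ y ∈ W₁, ∃ r ∈ s18tIntLoc A₀ t₀ (C ϖ₀) (s18t_prime_C hϖ₀),
    y ^ q - φ₁ r ∈ W₁.nonunits
  /-- `κ(W₂)^q ⊆ α₁ κ(O₀)` -/
  ins₂ : ∀ y ∈ W₂, ∃ r ∈ s18tIntLoc A₀ t₀ (C ϖ₀) (s18t_prime_C hϖ₀),
    y ^ q - α₁ r ∈ W₂.nonunits
  /-- `κ(V₁) = α κ(W₁)`, `κ(V₂) = α κ(W₁)`, `κ(V₂) = φ κ(W₂)`, `κ(V₃) = φ κ(W₂)` -/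
  res₁α : ∀ x ∈ V₁, ∃ y ∈ W₁, x - α y ∈ V₁.nonunits
  res₂α : ∀ x ∈ V₂, ∃ y ∈ W₁, x - α y ∈ V₂.nonunits
  res₂φ : ∀ x ∈ V₂, ∃ y ∈ W₂, x - φ y ∈ V₂.nonunits
  res₃φ : ∀ x ∈ V₃, ∃ y ∈ W₂, x - φ y ∈ V₃.nonunits

/-- a chart `t'` integral over `A[t]` : `s18tInt A t' ≤ s18tInt A t` -/
theorem sqgw_int_le {t t' : F} (h' : t' ∈ s18tInt A t) : s18tInt A t' ≤ s18tInt A t := by
  intro x hx
  refine sqgo_isIntegralElem (t := t') (algebraMap ↥(s18tChart A t) F) (fun a => ?_) h' hx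
  have : algebraMap A F a = algebraMap ↥(s18tChart A t) F
      ⟨algebraMap A F a, Subalgebra.algebraMap_mem _ a⟩ := rfl
  rw [this]
  exact RingHom.isIntegralElem_map _

/-- two charts integral over each other define the same ring `P` -/
theorem sqgw_chart_eq {t t' : F} (h : t ∈ s18tInt A t') (h' : t' ∈ s18tInt A t) :
    s18tInt A t' = s18tInt A t :=
  le_antisymm (sqgw_int_le h') (sqgw_int_le h)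

namespace SqgwHyp

variable (H : SqgwHyp hϖ₀ j α₁ φ₁ α φ ϖ t₀ t₁ t e₂ W₁ W₂ V₁ V₂ V₃ q)
include H

theorem hres (a : A) : ∃ a₀ : A₀, ∃ b : A, a = j a₀ + ϖ * b := by
  obtain ⟨a₀, rfl⟩ := H.jsurj a
  exact ⟨a₀, 0, by rw [mul_zero, add_zero]⟩

/-! #### the levels -/

theorem levelα₁ : SsgaLevel j α₁ ϖ₀ ϖ t₀ t₁ := ⟨H.compatα₁, H.coord₁, H.unif⟩

theorem levelφ₁ : SsgaLevel j φ₁ ϖ₀ ϖ t₀ (φ₁ t₀) := ⟨H.compatφ₁, rfl, H.unif⟩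

theorem level₀ : SsgaLevel j (α.comp α₁) ϖ₀ ϖ t₀ t :=
  ⟨fun a => by rw [RingHom.comp_apply, H.compatα₁, H.posα.compat],
    by rw [RingHom.comp_apply, H.coord₁, H.coord], H.unif⟩

theorem level₁ : SsgaLevel j (α.comp φ₁) ϖ₀ ϖ t₀ (α (φ₁ t₀)) :=
  ⟨fun a => by rw [RingHom.comp_apply, H.compatφ₁, H.posα.compat], rfl, H.unif⟩

theorem level₂ : SsgaLevel j (φ.comp φ₁) ϖ₀ ϖ t₀ (φ (φ₁ t₀)) :=
  ⟨fun a => by rw [RingHom.comp_apply, H.compatφ₁, H.posφ.compat], rfl, H.unif⟩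

theorem unifW₁ : algebraMap A F₁ ϖ ∈ W₁.nonunits :=
  (W₁.mem_nonunits_iff).mpr H.posα.unif.1

/-! #### images of the maximal ideals -/

include L in
theorem α_nu₁ (hϖ : Irreducible ϖ) {x : F₁} (hx : x ∈ W₁.nonunits) : α x ∈ V₁.nonunits := by
  obtain ⟨⟨y, hy, hya⟩, -⟩ := sqgm_map_nonunits (L := L) hϖ H.posα hx
  rw [hya]; exact ssgr_nu_mul_left V₁ H.three.unif₁ hy

include L in
theorem α_nu₂ (hϖ : Irreducible ϖ) {x : F₁} (hx : x ∈ W₁.nonunits) : α x ∈ V₂.nonunits := by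
  obtain ⟨-, ⟨y, hy, hya⟩⟩ := sqgm_map_nonunits (L := L) hϖ H.posα hx
  rw [hya]; exact ssgr_nu_mul_left V₂ H.three.unif₂ hy

include L in
theorem φ_nu₃ (hϖ : Irreducible ϖ) {x : F₁} (hx : x ∈ W₂.nonunits) : φ x ∈ V₃.nonunits := by
  obtain ⟨⟨y, hy, hya⟩, -⟩ := sqgm_map_nonunits (L := L) hϖ H.posφ hx
  rw [hya]; exact ssgr_nu_mul_left V₃ H.three.unif₃ hy

include L in
theorem φ_nu₂ (hϖ : Irreducible ϖ) {x : F₁} (hx : x ∈ W₂.nonunits) : φ x ∈ V₂.nonunits := by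
  obtain ⟨-, ⟨y, hy, hya⟩⟩ := sqgm_map_nonunits (L := L) hϖ H.posφ hx
  rw [hya]; exact ssgr_nu_mul_left V₂ H.three.unif₂ hy

/-! #### valuation-level residue surjections onto `O₀` -/

include L in
theorem vres₁ (hϖ : Irreducible ϖ) : ∀ x ∈ V₁,
    ∃ r ∈ s18tIntLoc A₀ t₀ (C ϖ₀) (s18t_prime_C hϖ₀), x - (α.comp α₁) r ∈ V₁.nonunits := by
  intro x hx
  obtain ⟨y, hy, hxy⟩ := H.res₁α x hx
  obtain ⟨r, hr, hyr⟩ := H.res₁ y hy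
  refine ⟨r, hr, ?_⟩
  have e : x - (α.comp α₁) r = (x - α y) + α (y - α₁ r) := by
    rw [RingHom.comp_apply, map_sub]; ring
  rw [e]
  exact ssgr_nu_add V₁ hxy (H.α_nu₁ (L := L) hϖ hyr)

include L in
theorem vres₂ (hϖ : Irreducible ϖ) : ∀ x ∈ V₂,
    ∃ r ∈ s18tIntLoc A₀ t₀ (C ϖ₀) (s18t_prime_C hϖ₀), x - (α.comp α₁) r ∈ V₂.nonunits := by
  intro x hx
  obtain ⟨y, hy, hxy⟩ := H.res₂α x hx
  obtain ⟨r, hr, hyr⟩ := H.res₁ y hy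
  refine ⟨r, hr, ?_⟩
  have e : x - (α.comp α₁) r = (x - α y) + α (y - α₁ r) := by
    rw [RingHom.comp_apply, map_sub]; ring
  rw [e]
  exact ssgr_nu_add V₂ hxy (H.α_nu₂ (L := L) hϖ hyr)

include L in
theorem vres₂' (hϖ : Irreducible ϖ) : ∀ x ∈ V₂,
    ∃ r ∈ s18tIntLoc A₀ t₀ (C ϖ₀) (s18t_prime_C hϖ₀), x - (φ.comp φ₁) r ∈ V₂.nonunits := by
  intro x hx
  obtain ⟨y, hy, hxy⟩ := H.res₂φ x hx
  obtain ⟨r, hr, hyr⟩ := H.res₂ y hy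
  refine ⟨r, hr, ?_⟩
  have e : x - (φ.comp φ₁) r = (x - φ y) + φ (y - φ₁ r) := by
    rw [RingHom.comp_apply, map_sub]; ring
  rw [e]
  exact ssgr_nu_add V₂ hxy (H.φ_nu₂ (L := L) hϖ hyr)

include L in
theorem vres₃ (hϖ : Irreducible ϖ) : ∀ x ∈ V₃,
    ∃ r ∈ s18tIntLoc A₀ t₀ (C ϖ₀) (s18t_prime_C hϖ₀), x - (φ.comp φ₁) r ∈ V₃.nonunits := by
  intro x hx
  obtain ⟨y, hy, hxy⟩ := H.res₃φ x hx
  obtain ⟨r, hr, hyr⟩ := H.res₂ y hy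
  refine ⟨r, hr, ?_⟩
  have e : x - (φ.comp φ₁) r = (x - φ y) + φ (y - φ₁ r) := by
    rw [RingHom.comp_apply, map_sub]; ring
  rw [e]
  exact ssgr_nu_add V₃ hxy (H.φ_nu₃ (L := L) hϖ hyr)

include L in
/-- `κ(V₃)^q ⊆ (α ∘ φ₁) κ(O₀)` -/
theorem vins₃ (hϖ : Irreducible ϖ) : ∀ x ∈ V₃,
    ∃ r ∈ s18tIntLoc A₀ t₀ (C ϖ₀) (s18t_prime_C hϖ₀), x ^ q - (α.comp φ₁) r ∈ V₃.nonunits := by
  intro x hx
  obtain ⟨y, hy, hxy⟩ := H.res₃φ x hx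
  obtain ⟨r, hr, hyr⟩ := H.ins₂ y hy
  refine ⟨r, hr, ?_⟩
  have e : x ^ q - (α.comp φ₁) r = (x ^ q - φ y ^ q) + φ (y ^ q - α₁ r) := by
    rw [RingHom.comp_apply, H.comm, map_sub, map_pow]; ring
  rw [e]
  exact ssgr_nu_add V₃ (ssgr_pow_sub_pow V₃ hx (H.posφ.mem_a y hy) hxy q)
    (H.φ_nu₃ (L := L) hϖ hyr)

include L in
/-- `κ(V₁)^q ⊆ (φ ∘ α₁) κ(O₀)` -/
theorem vins₁ (hϖ : Irreducible ϖ) : ∀ x ∈ V₁,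
    ∃ r ∈ s18tIntLoc A₀ t₀ (C ϖ₀) (s18t_prime_C hϖ₀), x ^ q - (α.comp φ₁) r ∈ V₁.nonunits := by
  intro x hx
  obtain ⟨y, hy, hxy⟩ := H.res₁α x hx
  obtain ⟨r, hr, hyr⟩ := H.ins₁ y hy
  refine ⟨r, hr, ?_⟩
  have e : x ^ q - (α.comp φ₁) r = (x ^ q - α y ^ q) + α (y ^ q - φ₁ r) := by
    rw [RingHom.comp_apply, map_sub, map_pow]; ring
  rw [e]
  exact ssgr_nu_add V₁ (ssgr_pow_sub_pow V₁ hx (H.posα.mem_a y hy) hxy q)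
    (H.α_nu₁ (L := L) hϖ hyr)

/-! #### the `P`-level statements -/

include L in
/-- `P = (α ∘ α₁) P₀ + 𝔭_{V₁}` -/
theorem surj₁ (hϖ : Irreducible ϖ) : ∀ p ∈ s18tInt A t, ∃ b ∈ s18tInt A₀ t₀,
    p - (α.comp α₁) b ∈ V₁.nonunits :=
  sqgs_surj hϖ₀ H.level₀ H.good H.hres V₁ H.three.le₁ H.three.unif₁
    (fun x hx => H.posα.mem_a _ (H.gaussα₁ x hx)) (H.vres₁ (L := L) hϖ)

include L in
/-- `P = (α ∘ α₁) P₀ + 𝔭_{V₂}` -/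
theorem surj₂ (hϖ : Irreducible ϖ) : ∀ p ∈ s18tInt A t, ∃ b ∈ s18tInt A₀ t₀,
    p - (α.comp α₁) b ∈ V₂.nonunits :=
  sqgs_surj hϖ₀ H.level₀ H.good H.hres V₂ H.three.le₂ H.three.unif₂
    (fun x hx => H.posα.mem_b _ (H.gaussα₁ x hx)) (H.vres₂ (L := L) hϖ)

include L in
/-- `P = (φ ∘ φ₁) P₀ + 𝔭_{V₂}` -/
theorem surj₂' (hϖ : Irreducible ϖ) : ∀ p ∈ s18tInt A t, ∃ b ∈ s18tInt A₀ t₀,
    p - (φ.comp φ₁) b ∈ V₂.nonunits := by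
  have h := sqgs_surj hϖ₀ H.level₂ H.good H.hres V₂ (by rw [H.chart₂]; exact H.three.le₂)
    H.three.unif₂ (fun x hx => H.posφ.mem_b _ (H.gaussφ₂ x hx)) (H.vres₂' (L := L) hϖ)
  rw [H.chart₂] at h
  exact h

include L in
/-- `P = (φ ∘ φ₁) P₀ + 𝔭_{V₃}` -/
theorem surj₃ (hϖ : Irreducible ϖ) : ∀ p ∈ s18tInt A t, ∃ b ∈ s18tInt A₀ t₀,
    p - (φ.comp φ₁) b ∈ V₃.nonunits := by
  have h := sqgs_surj hϖ₀ H.level₂ H.good H.hres V₃ (by rw [H.chart₂]; exact H.three.le₃)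
    H.three.unif₃ (fun x hx => H.posφ.mem_a _ (H.gaussφ₂ x hx)) (H.vres₃ (L := L) hϖ)
  rw [H.chart₂] at h
  exact h

include L in
/-- `pᵠ ≡ (α ∘ φ₁) b mod 𝔪_{V₃}` -/
theorem pins₃ (hϖ : Irreducible ϖ) : ∀ p ∈ s18tInt A t, ∃ b ∈ s18tInt A₀ t₀,
    p ^ q - (α.comp φ₁) b ∈ V₃.nonunits := by
  have h := sqgs_ins hϖ₀ H.level₁ H.good H.hres V₃ (by rw [H.chart₁]; exact H.three.le₃)
    H.three.unif₃ (fun x hx => H.memα₃ _ (H.gaussφ₂ x hx)) q (H.vins₃ (L := L) hϖ)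
  rw [H.chart₁] at h
  exact h

include L in
/-- `pᵠ ≡ (α ∘ φ₁) b mod 𝔪_{V₁}` -/
theorem pins₁ (hϖ : Irreducible ϖ) : ∀ p ∈ s18tInt A t, ∃ b ∈ s18tInt A₀ t₀,
    p ^ q - (α.comp φ₁) b ∈ V₁.nonunits := by
  have h := sqgs_ins hϖ₀ H.level₁ H.good H.hres V₁ (by rw [H.chart₁]; exact H.three.le₁)
    H.three.unif₁ (fun x hx => by
      rw [RingHom.comp_apply, H.comm]; exact H.memφ₁ _ (H.gaussα₁ x hx)) q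
    (H.vins₁ (L := L) hϖ)
  rw [H.chart₁] at h
  exact h

/-- `P₁ = α₁ P₀ + 𝔭_{W₁}` -/
theorem surjW₁ : ∀ p ∈ s18tInt A t₁, ∃ b ∈ s18tInt A₀ t₀, p - α₁ b ∈ W₁.nonunits :=
  sqgs_surj hϖ₀ H.levelα₁ H.good H.hres W₁ H.le₁ H.unifW₁ H.gaussα₁ H.res₁

/-- `P₁ = φ₁ P₀ + 𝔭_{W₂}` -/
theorem surjW₂ : ∀ p ∈ s18tInt A t₁, ∃ b ∈ s18tInt A₀ t₀, p - φ₁ b ∈ W₂.nonunits := by
  have h := sqgs_surj hϖ₀ H.levelφ₁ H.good H.hres W₂ (by rw [H.chartW]; exact H.le₂) H.unifW₂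
    H.gaussφ₂ H.res₂
  rw [H.chartW] at h
  exact h

/-- `α₁ P₀ ⊆ P₁` -/
theorem int_α₁ {b : F₀} (hb : b ∈ s18tInt A₀ t₀) : α₁ b ∈ s18tInt A t₁ :=
  ssga_map_int H.levelα₁ hb

/-- `φ₁ P₀ ⊆ P₁` -/
theorem int_φ₁ {b : F₀} (hb : b ∈ s18tInt A₀ t₀) : φ₁ b ∈ s18tInt A t₁ := by
  rw [← H.chartW]
  exact ssga_map_int H.levelφ₁ hb

include L in
/-- THE HYPOTHESES OF THE ABSTRACT GERM². -/
theorem sqgHyp (hϖ : Irreducible ϖ) :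
    SqgHyp hϖ₀ j (α.comp α₁) (φ.comp φ₁) ϖ t₀ t e₂ V₁ V₂ V₃ where
  level := H.level₀
  compat₂ := H.level₂.compat
  three := H.three
  good := H.good
  surj₁ := H.surj₁ (L := L) hϖ
  surj₂ := H.surj₂ (L := L) hϖ
  surj₃ := H.surj₃ (L := L) hϖ

/-- the ring homomorphisms `P₀ → P₁` -/
def gα : ↥(s18tInt A₀ t₀) →+* ↥(s18tInt A t₁) :=
  (α₁.comp (s18tInt A₀ t₀).subtype).codRestrict (s18tInt A t₁) (fun x => H.int_α₁ x.2)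

def gφ : ↥(s18tInt A₀ t₀) →+* ↥(s18tInt A t₁) :=
  (φ₁.comp (s18tInt A₀ t₀).subtype).codRestrict (s18tInt A t₁) (fun x => H.int_φ₁ x.2)

@[simp] theorem gα_coe (x : ↥(s18tInt A₀ t₀)) : ((H.gα x : ↥(s18tInt A t₁)) : F₁) = α₁ (x : F₀) :=
  rfl

@[simp] theorem gφ_coe (x : ↥(s18tInt A₀ t₀)) : ((H.gφ x : ↥(s18tInt A t₁)) : F₁) = φ₁ (x : F₀) :=
  rfl

/-- `P` is integral over the image of `P₀` under `α ∘ α₁` -/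
theorem intα : ((sqgmMap H.posα).comp H.gα).IsIntegral := by
  intro p
  have hgp : ((α.comp α₁).comp (s18tInt A₀ t₀).subtype).IsIntegralElem (p : F) := by
    refine sqgo_isIntegralElem _ (fun a => ?_) ?_ p.2
    · obtain ⟨a₀, rfl⟩ := H.jsurj a
      have : algebraMap A F (j a₀) = ((α.comp α₁).comp (s18tInt A₀ t₀).subtype)
          ⟨algebraMap A₀ F₀ a₀, s18tc_algebraMap_mem_int t₀ a₀⟩ := (H.level₀.compat a₀).symm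
      rw [this]
      exact RingHom.isIntegralElem_map _
    · have : t = ((α.comp α₁).comp (s18tInt A₀ t₀).subtype) ⟨t₀, s18tc_self_mem_int t₀⟩ :=
        H.level₀.coord.symm
      rw [this]
      exact RingHom.isIntegralElem_map _
  obtain ⟨q', hq', hq'x⟩ := hgp
  refine ⟨q', hq', Subtype.ext ?_⟩
  have := Polynomial.hom_eval₂ q' ((sqgmMap H.posα).comp H.gα) (s18tInt A t).subtype p
  rw [Subring.coe_zero]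
  exact this.trans hq'x

/-- `P` is integral over the image of `P₀` under `φ ∘ φ₁` -/
theorem intφ : ((sqgmMap H.posφ).comp H.gφ).IsIntegral := by
  intro p
  have hp : (p : F) ∈ s18tInt A (φ (φ₁ t₀)) := by rw [H.chart₂]; exact p.2
  have hgp : ((φ.comp φ₁).comp (s18tInt A₀ t₀).subtype).IsIntegralElem (p : F) := by
    refine sqgo_isIntegralElem (t := φ (φ₁ t₀)) _ (fun a => ?_) ?_ hp
    · obtain ⟨a₀, rfl⟩ := H.jsurj a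
      have : algebraMap A F (j a₀) = ((φ.comp φ₁).comp (s18tInt A₀ t₀).subtype)
          ⟨algebraMap A₀ F₀ a₀, s18tc_algebraMap_mem_int t₀ a₀⟩ := (H.level₂.compat a₀).symm
      rw [this]
      exact RingHom.isIntegralElem_map _
    · have : φ (φ₁ t₀) = ((φ.comp φ₁).comp (s18tInt A₀ t₀).subtype)
          ⟨t₀, s18tc_self_mem_int t₀⟩ := rfl
      rw [this]
      exact RingHom.isIntegralElem_map _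
  obtain ⟨q', hq', hq'x⟩ := hgp
  refine ⟨q', hq', Subtype.ext ?_⟩
  have := Polynomial.hom_eval₂ q' ((sqgmMap H.posφ).comp H.gφ) (s18tInt A t).subtype p
  rw [Subring.coe_zero]
  exact this.trans hq'x

include L in
/-- **THE CLOSED POINTS OF THE SPECIAL FIBRE**, from the valuation-level input : only (T1) at the
crossing points of the lower level (CLOSED points `𝔫₁ ∋ ϖ` through `W₁` and `W₂`), (T2) at the points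
on `V₂` only and the norms remain. -/
theorem point' (hϖ : Irreducible ϖ) (ht₀ : Transcendental L₀ t₀) [FiniteDimensional L₀⟮t₀⟯ F₀]
    (Nα Nφ : F →* F₁) (hNα : ∀ y : F₁, Nα (α y) = y ^ q) (hNφ : ∀ y : F₁, Nφ (φ y) = y ^ q)
    (hNαint : ∀ p ∈ s18tInt A t, Nα p ∈ s18tInt A t₁)
    (hNφint : ∀ p ∈ s18tInt A t, Nφ p ∈ s18tInt A t₁)
    (hT1 : ∀ 𝔫₁ : Ideal ↥(s18tInt A t₁), 𝔫₁.IsMaximal → sskPi ϖ t₁ ∈ 𝔫₁ →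
      SqgaOn t₁ 𝔫₁ W₁ → SqgaOn t₁ 𝔫₁ W₂ → SqgaNode ϖ t₁ W₁ W₂ 𝔫₁)
    (𝔫 : Ideal ↥(s18tInt A t)) (hmax : 𝔫.IsMaximal) (hϖ𝔫 : sskPi ϖ t ∈ 𝔫)
    (hT2 : SqgaOn t 𝔫 V₂ → ¬ SqgaOn t 𝔫 V₁ → ¬ SqgaOn t 𝔫 V₃ →
      ∃ π w : F, SsnfInLoc t 𝔫 π ∧ π ∈ V₂.nonunits ∧ SsnfInLoc t 𝔫 w ∧
        algebraMap A F ϖ = π ^ e₂ * w) :
    SqgpSimple t V₁ V₂ V₃ 𝔫 ∨ SqgpSimple t V₂ V₁ V₃ 𝔫 ∨ SqgpSimple t V₃ V₁ V₂ 𝔫 ∨
      SqgpTriple α φ Nα Nφ t V₁ V₂ V₃ 𝔫 := by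
  have hint₂ : ∀ b ∈ s18tInt A₀ t₀, (φ.comp φ₁) b ∈ s18tInt A t :=
    fun b hb => H.posφ.int _ (H.int_φ₁ hb)
  have hloc₂ : ∀ b ∈ s18tInt A₀ t₀, (φ.comp φ₁) b ∈ ssLocRing (h𝔫 := hmax.isPrime) t 𝔫 :=
    ssgm_loc_of_int (h𝔫 := hmax.isPrime) hint₂
  refine sqgp_point' (L := L) (H.sqgHyp (L := L) hϖ) hϖ ht₀ H.posα H.posφ H.le₁ H.le₂ H.gα H.gφ
    H.intα H.intφ ?_ ?_ ?_ ?_ ?_ ?_ ?_ ?_ Nα Nφ q hNα hNφ hNαint hNφint hT1 𝔫 hmax hϖ𝔫 hloc₂ hT2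
  · intro x
    obtain ⟨b, hb, hxb⟩ := H.surjW₁ x x.2
    exact ⟨⟨b, hb⟩, hxb⟩
  · intro x
    obtain ⟨b, hb, hxb⟩ := H.surjW₂ x x.2
    exact ⟨⟨b, hb⟩, hxb⟩
  · intro p
    obtain ⟨b, hb, hpb⟩ := H.pins₃ (L := L) hϖ p p.2
    exact ⟨⟨φ₁ b, H.int_φ₁ hb⟩, q, H.hq, hpb⟩
  · intro p
    obtain ⟨b, hb, hpb⟩ := H.pins₁ (L := L) hϖ p p.2
    refine ⟨⟨α₁ b, H.int_α₁ hb⟩, q, H.hq, ?_⟩
    rw [← H.comm]
    exact hpb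
  · intro p
    obtain ⟨b, hb, hpb⟩ := H.surj₁ (L := L) hϖ p p.2
    exact ⟨⟨α₁ b, H.int_α₁ hb⟩, hpb⟩
  · intro p
    obtain ⟨b, hb, hpb⟩ := H.surj₂ (L := L) hϖ p p.2
    exact ⟨⟨α₁ b, H.int_α₁ hb⟩, hpb⟩
  · intro p
    obtain ⟨b, hb, hpb⟩ := H.surj₂' (L := L) hϖ p p.2
    exact ⟨⟨φ₁ b, H.int_φ₁ hb⟩, hpb⟩
  · intro p
    obtain ⟨b, hb, hpb⟩ := H.surj₃ (L := L) hϖ p p.2
    exact ⟨⟨φ₁ b, H.int_φ₁ hb⟩, hpb⟩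

include L in
/-- `point'` with (T1) assumed at every PRIME through both components (stronger hypothesis). -/
theorem point (hϖ : Irreducible ϖ) (ht₀ : Transcendental L₀ t₀) [FiniteDimensional L₀⟮t₀⟯ F₀]
    (Nα Nφ : F →* F₁) (hNα : ∀ y : F₁, Nα (α y) = y ^ q) (hNφ : ∀ y : F₁, Nφ (φ y) = y ^ q)
    (hNαint : ∀ p ∈ s18tInt A t, Nα p ∈ s18tInt A t₁)
    (hNφint : ∀ p ∈ s18tInt A t, Nφ p ∈ s18tInt A t₁)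
    (hT1 : ∀ 𝔫₁ : Ideal ↥(s18tInt A t₁), 𝔫₁.IsPrime → SqgaOn t₁ 𝔫₁ W₁ → SqgaOn t₁ 𝔫₁ W₂ →
      SqgaNode ϖ t₁ W₁ W₂ 𝔫₁)
    (𝔫 : Ideal ↥(s18tInt A t)) (hmax : 𝔫.IsMaximal) (hϖ𝔫 : sskPi ϖ t ∈ 𝔫)
    (hT2 : SqgaOn t 𝔫 V₂ → ¬ SqgaOn t 𝔫 V₁ → ¬ SqgaOn t 𝔫 V₃ →
      ∃ π w : F, SsnfInLoc t 𝔫 π ∧ π ∈ V₂.nonunits ∧ SsnfInLoc t 𝔫 w ∧
        algebraMap A F ϖ = π ^ e₂ * w) :
    SqgpSimple t V₁ V₂ V₃ 𝔫 ∨ SqgpSimple t V₂ V₁ V₃ 𝔫 ∨ SqgpSimple t V₃ V₁ V₂ 𝔫 ∨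
      SqgpTriple α φ Nα Nφ t V₁ V₂ V₃ 𝔫 :=
  H.point' (L := L) hϖ ht₀ Nα Nφ hNα hNφ hNαint hNφint (fun 𝔫₁ hm _ => hT1 𝔫₁ hm.isPrime)
    𝔫 hmax hϖ𝔫 hT2

end SqgwHyp

end Fermat.Agent.SQ
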