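import Mathlib
import Fermat.Agent.SQ.Germ.Wire
import Fermat.Agent.SS.Germ.IntPhi

/-!
# Program Q (S36), package SQ/Germ : THE NORMS PRESERVE INTEGRALITY, THE CHARTS (prefix `sqgn`)

* `sqgn_norm_int` : for `α : F₁ →+* F` over `A`, the norm `N_α = Algebra.norm` (along `α`) maps
  `s18tInt A (α t₁)` into `s18tInt A t₁`  (no finiteness, no separability);
* `sqgn_norm_map` : `N_α (α y) = y ^ [F : α F₁]`;
* `sqgn_charts` : the three chart equalities `chartW`, `chart₁`, `chart₂` of `SqgwHyp` from the two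
  LEVEL-`q` memberships `φ₁ t₀ ∈ s18tInt A (α₁ t₀)`, `α₁ t₀ ∈ s18tInt A (φ₁ t₀)`;
* `SqgwHyp.point_norm` : `SqgwHyp.point` for the field norms, `hNα, hNφ, hNαint, hNφint` discharged.
-/

set_option autoImplicit false
set_option linter.unusedSectionVars false
set_option linter.unusedVariables false
set_option linter.style.haveILetI false

noncomputable section

namespace Fermat.Agent.SQ

open Polynomial IntermediateField AlgebraicCurve Fermat.Agent.S18 Fermat.Agent.SS Fermat.Agent.G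
  IsLocalRing

universe u u₀ u₁

section Norm

variable {A : Type*} [CommRing A] [IsDomain A] [IsDiscreteValuationRing A] [CharZero A]
variable {L : Type*} [Field L] [Algebra A L] [IsFractionRing A L]
variable {F : Type u} [Field F] [Algebra A F] [Algebra L F] [IsScalarTower A L F]
variable {F₁ : Type u₁} [Field F₁] [Algebra A F₁] [Algebra L F₁] [IsScalarTower A L F₁]

/-- THE NORM ALONG `α` MAPS `P = s18tInt A (α t₁)` INTO `P₁ = s18tInt A t₁`. -/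
theorem sqgn_norm_int (α : F₁ →+* F) (hα : ∀ a : A, α (algebraMap A F₁ a) = algebraMap A F a)
    (t₁ : F₁) {x : F} (hx : x ∈ s18tInt A (α t₁)) :
    @Algebra.norm F₁ F _ _ α.toAlgebra x ∈ s18tInt A t₁ := by
  letI : Algebra F₁ F := α.toAlgebra
  have hx' : IsIntegral ↥(s18tChart A t₁) x := by
    refine sqgo_isIntegralElem (t := α t₁) (α.comp (algebraMap ↥(s18tChart A t₁) F₁))
      (fun a => ?_) ?_ hx
    · have : algebraMap A F a = (α.comp (algebraMap ↥(s18tChart A t₁) F₁))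
          ⟨algebraMap A F₁ a, Subalgebra.algebraMap_mem _ a⟩ := (hα a).symm
      rw [this]
      exact RingHom.isIntegralElem_map _
    · have : α t₁ = (α.comp (algebraMap ↥(s18tChart A t₁) F₁))
          ⟨t₁, Algebra.subset_adjoin (Set.mem_singleton t₁)⟩ := rfl
      rw [this]
      exact RingHom.isIntegralElem_map _
  exact Algebra.isIntegral_norm F₁ hx'

/-- `N_α (α y) = y ^ [F : α F₁]` -/
theorem sqgn_norm_map (α : F₁ →+* F) (hfin : @Module.Finite F₁ F _ _ α.toAlgebra.toModule)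
    (y : F₁) :
    @Algebra.norm F₁ F _ _ α.toAlgebra (α y) =
      y ^ @Module.finrank F₁ F _ _ α.toAlgebra.toModule := by
  letI : Algebra F₁ F := α.toAlgebra
  haveI : Module.Finite F₁ F := hfin
  exact Algebra.norm_algebraMap (S := F) y

end Norm

section Charts

variable {A : Type*} [CommRing A] [IsDomain A] [IsDiscreteValuationRing A] [CharZero A]
variable {L : Type*} [Field L] [Algebra A L] [IsFractionRing A L]
variable {F : Type u} [Field F] [Algebra A F] [Algebra L F] [IsScalarTower A L F]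
variable {F₀ : Type u₀} [Field F₀]
variable {F₁ : Type u₁} [Field F₁] [Algebra A F₁] [Algebra L F₁] [IsScalarTower A L F₁]

/-- THE THREE CHART EQUALITIES of `SqgwHyp` from the two level-`q` memberships. -/
theorem sqgn_charts (α₁ φ₁ : F₀ →+* F₁) (α φ : F₁ →+* F) (t₀ : F₀)
    (hα : ∀ a : A, α (algebraMap A F₁ a) = algebraMap A F a)
    (hφ : ∀ a : A, φ (algebraMap A F₁ a) = algebraMap A F a)
    (comm : ∀ x : F₀, α (φ₁ x) = φ (α₁ x))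
    (h₁ : φ₁ t₀ ∈ s18tInt A (α₁ t₀)) (h₂ : α₁ t₀ ∈ s18tInt A (φ₁ t₀)) :
    s18tInt A (φ₁ t₀) = s18tInt A (α₁ t₀) ∧
    s18tInt A (α (φ₁ t₀)) = s18tInt A (α (α₁ t₀)) ∧
    s18tInt A (φ (φ₁ t₀)) = s18tInt A (α (α₁ t₀)) := by
  have a₁ : α (φ₁ t₀) ∈ s18tInt A (α (α₁ t₀)) :=
    ssgq_map_mem_int α hα (α₁ t₀) (α (α₁ t₀)) (s18tc_self_mem_int _) h₁
  have a₂ : α (α₁ t₀) ∈ s18tInt A (α (φ₁ t₀)) :=
    ssgq_map_mem_int α hα (φ₁ t₀) (α (φ₁ t₀)) (s18tc_self_mem_int _) h₂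
  have p₁ : φ (φ₁ t₀) ∈ s18tInt A (α (φ₁ t₀)) := by
    rw [comm]
    exact ssgq_map_mem_int φ hφ (α₁ t₀) (φ (α₁ t₀)) (s18tc_self_mem_int _) h₁
  have p₂ : α (φ₁ t₀) ∈ s18tInt A (φ (φ₁ t₀)) := by
    rw [comm]
    exact ssgq_map_mem_int φ hφ (φ₁ t₀) (φ (φ₁ t₀)) (s18tc_self_mem_int _) h₂
  have e₁ : s18tInt A (α (φ₁ t₀)) = s18tInt A (α (α₁ t₀)) := sqgw_chart_eq a₂ a₁
  have e₂ : s18tInt A (φ (φ₁ t₀)) = s18tInt A (α (φ₁ t₀)) := sqgw_chart_eq p₂ p₁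
  exact ⟨sqgw_chart_eq h₂ h₁, e₁, e₂.trans e₁⟩

end Charts

section Hyp

variable {A : Type*} [CommRing A] [IsDomain A] [IsDiscreteValuationRing A] [CharZero A]
variable {L : Type*} [Field L] [Algebra A L] [IsFractionRing A L]
variable {F : Type u} [Field F] [Algebra A F] [Algebra L F] [IsScalarTower A L F]
variable {A₀ : Type*} [CommRing A₀] [IsDomain A₀] [IsDiscreteValuationRing A₀] [CharZero A₀]
variable {L₀ : Type*} [Field L₀] [Algebra A₀ L₀] [IsFractionRing A₀ L₀]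
variable {F₀ : Type u₀} [Field F₀] [Algebra A₀ F₀] [Algebra L₀ F₀] [IsScalarTower A₀ L₀ F₀]
variable {F₁ : Type u₁} [Field F₁] [Algebra A F₁] [Algebra L F₁] [IsScalarTower A L F₁]
variable {ϖ : A} {t : F} {ϖ₀ : A₀} {t₀ : F₀} {t₁ : F₁}
variable {j : A₀ →+* A}
variable {α₁ φ₁ : F₀ →+* F₁} {α φ : F₁ →+* F} {e₂ q : ℕ} {V₁ V₂ V₃ : ValuationSubring F}
variable {W₁ W₂ : ValuationSubring F₁} {hϖ₀ : Irreducible ϖ₀}

namespace SqgwHyp

variable (H : SqgwHyp hϖ₀ j α₁ φ₁ α φ ϖ t₀ t₁ t e₂ W₁ W₂ V₁ V₂ V₃ q)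
include H

/-- `N_α P ⊆ P₁` -/
theorem normα_int (Nα : F →* F₁) (hNα : ∀ x : F, Nα x = @Algebra.norm F₁ F _ _ α.toAlgebra x) :
    ∀ p ∈ s18tInt A t, Nα p ∈ s18tInt A t₁ := by
  intro p hp
  rw [hNα]
  refine sqgn_norm_int α H.posα.compat t₁ ?_
  rw [H.coord]
  exact hp

/-- `N_φ P ⊆ P₁` -/
theorem normφ_int (Nφ : F →* F₁) (hNφ : ∀ x : F, Nφ x = @Algebra.norm F₁ F _ _ φ.toAlgebra x) :
    ∀ p ∈ s18tInt A t, Nφ p ∈ s18tInt A t₁ := by
  intro p hp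
  rw [hNφ, ← H.chartW]
  refine sqgn_norm_int φ H.posφ.compat (φ₁ t₀) ?_
  rw [H.chart₂]
  exact hp

include L in
/-- **THE CLOSED POINTS OF THE SPECIAL FIBRE** for the field norms along `α`, `φ` (both of degree
`q`) : only (T1) (at the CLOSED points `𝔫₁ ∋ ϖ` of the lower level through `W₁` and `W₂`) and (T2)
remain. -/
theorem point_norm (hϖ : Irreducible ϖ) (ht₀ : Transcendental L₀ t₀)
    [FiniteDimensional L₀⟮t₀⟯ F₀] (Nα Nφ : F →* F₁)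
    (hNα : ∀ x : F, Nα x = @Algebra.norm F₁ F _ _ α.toAlgebra x)
    (hNφ : ∀ x : F, Nφ x = @Algebra.norm F₁ F _ _ φ.toAlgebra x)
    (finα : @Module.Finite F₁ F _ _ α.toAlgebra.toModule)
    (degα : @Module.finrank F₁ F _ _ α.toAlgebra.toModule = q)
    (finφ : @Module.Finite F₁ F _ _ φ.toAlgebra.toModule)
    (degφ : @Module.finrank F₁ F _ _ φ.toAlgebra.toModule = q)
    (hT1 : ∀ 𝔫₁ : Ideal ↥(s18tInt A t₁), 𝔫₁.IsMaximal → sskPi ϖ t₁ ∈ 𝔫₁ →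
      SqgaOn t₁ 𝔫₁ W₁ → SqgaOn t₁ 𝔫₁ W₂ → SqgaNode ϖ t₁ W₁ W₂ 𝔫₁)
    (𝔫 : Ideal ↥(s18tInt A t)) (hmax : 𝔫.IsMaximal) (hϖ𝔫 : sskPi ϖ t ∈ 𝔫)
    (hT2 : SqgaOn t 𝔫 V₂ → ¬ SqgaOn t 𝔫 V₁ → ¬ SqgaOn t 𝔫 V₃ →
      ∃ π w : F, SsnfInLoc t 𝔫 π ∧ π ∈ V₂.nonunits ∧ SsnfInLoc t 𝔫 w ∧
        algebraMap A F ϖ = π ^ e₂ * w) :
    SqgpSimple t V₁ V₂ V₃ 𝔫 ∨ SqgpSimple t V₂ V₁ V₃ 𝔫 ∨ SqgpSimple t V₃ V₁ V₂ 𝔫 ∨
      SqgpTriple α φ Nα Nφ t V₁ V₂ V₃ 𝔫 :=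
  H.point' (L := L) hϖ ht₀ Nα Nφ
    (fun y => by rw [hNα, sqgn_norm_map α finα, degα])
    (fun y => by rw [hNφ, sqgn_norm_map φ finφ, degφ])
    (H.normα_int Nα hNα) (H.normφ_int Nφ hNφ) hT1 𝔫 hmax hϖ𝔫 hT2

end SqgwHyp

end Hyp

end Fermat.Agent.SQ
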