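import Mathlib
import Fermat.Agent.SQ.Germ.Wire
import Fermat.Agent.SQ.Germ.Norm
import Fermat.Agent.SQ.NewGlue

/-!
# Program Q (S36), package SQ/Germ : ADAPTERS TO `SQ/NewGlue` (prefix `sqgad`)

* `SqgpTriple.tripleAt` : `SqgpTriple ⟹ SqTripleAt`;
* `SqgpSimple.simpleAt₁/₂/₃` : `SqgpSimple ⟹ SqSimpleAt`;
* `sqgad_h0` : THE HYPOTHESIS `h0` OF `sq_core_divAt` (`SqSimpleAt ∨ SqTripleAt` at every closed point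
  `𝔫 ∋ ϖ` of the chart `t`) from the valuation-level input `SqgwHyp`, the norms, (T1) at the crossing
  points of the lower level and (T2) at the points lying on `V₂` only;
* `sqgad_h0_norm` : the same for the FIELD NORMS along `α`, `φ` (`sqcoNorm`, `sqniNorm`, both `rfl`) :
  all four norm hypotheses are discharged from `[F : α F₁] = [F : φ F₁] = q`.
-/

set_option autoImplicit false
set_option linter.unusedSectionVars false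
set_option linter.unusedVariables false

noncomputable section

namespace Fermat.Agent.SQ

open Polynomial IntermediateField AlgebraicCurve Fermat.Agent.S18 Fermat.Agent.SS Fermat.Agent.G
  IsLocalRing

universe u u₀ u₁

variable {A : Type*} [CommRing A] [IsDomain A] [IsDiscreteValuationRing A] [CharZero A]
variable {L : Type*} [Field L] [Algebra A L] [IsFractionRing A L]
variable {F : Type u} [Field F] [Algebra A F] [Algebra L F] [IsScalarTower A L F]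
variable {A₀ : Type*} [CommRing A₀] [IsDomain A₀] [IsDiscreteValuationRing A₀] [CharZero A₀]
variable {L₀ : Type*} [Field L₀] [Algebra A₀ L₀] [IsFractionRing A₀ L₀]
variable {F₀ : Type u₀} [Field F₀] [Algebra A₀ F₀] [Algebra L₀ F₀] [IsScalarTower A₀ L₀ F₀]
variable {F₁ : Type u₁} [Field F₁] [Algebra A F₁] [Algebra L F₁] [IsScalarTower A L F₁]
variable {ϖ : A} {t : F} {ϖ₀ : A₀} {t₀ : F₀} {t₁ : F₁}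
variable {j : A₀ →+* A}
variable {α₁ φ₁ : F₀ →+* F₁} {α φ : F₁ →+* F} {e₂ q : ℕ} {V₁ V₂ V₃ : ValuationSubring F}
variable {W₁ W₂ : ValuationSubring F₁} {hϖ₀ : Irreducible ϖ₀}
variable {Nα Nφ : F →* F₁} {𝔫 : Ideal ↥(s18tInt A t)}

theorem SqgpTriple.tripleAt (h : SqgpTriple α φ Nα Nφ t V₁ V₂ V₃ 𝔫) :
    SqTripleAt α φ Nα Nφ t V₁ V₂ V₃ 𝔫 :=
  { reg := h.reg
    br₁ := h.br₁
    br₂ := h.br₂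
    br₃ := h.br₃
    unitα := fun x _ hx _ => h.unitα x hx
    unitφ := fun x _ hx _ => h.unitφ x hx
    lres₁α := h.lres₁α
    lres₂α := h.lres₂α
    lres₂φ := h.lres₂φ
    lres₃φ := h.lres₃φ }

theorem SqgpSimple.simpleAt₁ (h : SqgpSimple t V₁ V₂ V₃ 𝔫) : SqSimpleAt t V₁ V₂ V₃ 𝔫 := by
  obtain ⟨hreg, -, hbr, h2, h3⟩ := h
  refine ⟨hreg, 0, hbr, fun j hj => ?_⟩
  fin_cases j
  · exact absurd rfl hj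
  · exact h2
  · exact h3

theorem SqgpSimple.simpleAt₂ (h : SqgpSimple t V₂ V₁ V₃ 𝔫) : SqSimpleAt t V₁ V₂ V₃ 𝔫 := by
  obtain ⟨hreg, -, hbr, h1, h3⟩ := h
  refine ⟨hreg, 1, hbr, fun j hj => ?_⟩
  fin_cases j
  · exact h1
  · exact absurd rfl hj
  · exact h3

theorem SqgpSimple.simpleAt₃ (h : SqgpSimple t V₃ V₁ V₂ 𝔫) : SqSimpleAt t V₁ V₂ V₃ 𝔫 := by
  obtain ⟨hreg, -, hbr, h1, h2⟩ := h
  refine ⟨hreg, 2, hbr, fun j hj => ?_⟩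
  fin_cases j
  · exact h1
  · exact h2
  · exact absurd rfl hj

include L in
/-- **THE HYPOTHESIS `h0` OF `sq_core_divAt`**. -/
theorem sqgad_h0 (H : SqgwHyp hϖ₀ j α₁ φ₁ α φ ϖ t₀ t₁ t e₂ W₁ W₂ V₁ V₂ V₃ q)
    (hϖ : Irreducible ϖ) (ht₀ : Transcendental L₀ t₀) [FiniteDimensional L₀⟮t₀⟯ F₀]
    (Nα Nφ : F →* F₁) (hNα : ∀ y : F₁, Nα (α y) = y ^ q) (hNφ : ∀ y : F₁, Nφ (φ y) = y ^ q)
    (hNαint : ∀ p ∈ s18tInt A t, Nα p ∈ s18tInt A t₁)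
    (hNφint : ∀ p ∈ s18tInt A t, Nφ p ∈ s18tInt A t₁)
    (hT1 : ∀ 𝔫₁ : Ideal ↥(s18tInt A t₁), 𝔫₁.IsPrime → SqgaOn t₁ 𝔫₁ W₁ → SqgaOn t₁ 𝔫₁ W₂ →
      SqgaNode ϖ t₁ W₁ W₂ 𝔫₁)
    (hT2 : ∀ 𝔫 : Ideal ↥(s18tInt A t), 𝔫.IsMaximal → sskPi ϖ t ∈ 𝔫 →
      SqgaOn t 𝔫 V₂ → ¬ SqgaOn t 𝔫 V₁ → ¬ SqgaOn t 𝔫 V₃ →
      ∃ π w : F, SsnfInLoc t 𝔫 π ∧ π ∈ V₂.nonunits ∧ SsnfInLoc t 𝔫 w ∧
        algebraMap A F ϖ = π ^ e₂ * w) :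
    ∀ 𝔫 : Ideal ↥(s18tInt A t), 𝔫.IsMaximal → sskPi ϖ t ∈ 𝔫 →
      SqSimpleAt t V₁ V₂ V₃ 𝔫 ∨ SqTripleAt α φ Nα Nφ t V₁ V₂ V₃ 𝔫 := by
  intro 𝔫 hmax hϖ𝔫
  rcases H.point (L := L) hϖ ht₀ Nα Nφ hNα hNφ hNαint hNφint hT1 𝔫 hmax hϖ𝔫
    (hT2 𝔫 hmax hϖ𝔫) with h | h | h | h
  · exact Or.inl h.simpleAt₁
  · exact Or.inl h.simpleAt₂
  · exact Or.inl h.simpleAt₃
  · exact Or.inr h.tripleAt

include L in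
/-- `sqgad_h0` with (T1) only at the CLOSED points `𝔫₁ ∋ ϖ` of the lower level. -/
theorem sqgad_h0' (H : SqgwHyp hϖ₀ j α₁ φ₁ α φ ϖ t₀ t₁ t e₂ W₁ W₂ V₁ V₂ V₃ q)
    (hϖ : Irreducible ϖ) (ht₀ : Transcendental L₀ t₀) [FiniteDimensional L₀⟮t₀⟯ F₀]
    (Nα Nφ : F →* F₁) (hNα : ∀ y : F₁, Nα (α y) = y ^ q) (hNφ : ∀ y : F₁, Nφ (φ y) = y ^ q)
    (hNαint : ∀ p ∈ s18tInt A t, Nα p ∈ s18tInt A t₁)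
    (hNφint : ∀ p ∈ s18tInt A t, Nφ p ∈ s18tInt A t₁)
    (hT1 : ∀ 𝔫₁ : Ideal ↥(s18tInt A t₁), 𝔫₁.IsMaximal → sskPi ϖ t₁ ∈ 𝔫₁ →
      SqgaOn t₁ 𝔫₁ W₁ → SqgaOn t₁ 𝔫₁ W₂ → SqgaNode ϖ t₁ W₁ W₂ 𝔫₁)
    (hT2 : ∀ 𝔫 : Ideal ↥(s18tInt A t), 𝔫.IsMaximal → sskPi ϖ t ∈ 𝔫 →
      SqgaOn t 𝔫 V₂ → ¬ SqgaOn t 𝔫 V₁ → ¬ SqgaOn t 𝔫 V₃ →
      ∃ π w : F, SsnfInLoc t 𝔫 π ∧ π ∈ V₂.nonunits ∧ SsnfInLoc t 𝔫 w ∧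
        algebraMap A F ϖ = π ^ e₂ * w) :
    ∀ 𝔫 : Ideal ↥(s18tInt A t), 𝔫.IsMaximal → sskPi ϖ t ∈ 𝔫 →
      SqSimpleAt t V₁ V₂ V₃ 𝔫 ∨ SqTripleAt α φ Nα Nφ t V₁ V₂ V₃ 𝔫 := by
  intro 𝔫 hmax hϖ𝔫
  rcases H.point' (L := L) hϖ ht₀ Nα Nφ hNα hNφ hNαint hNφint hT1 𝔫 hmax hϖ𝔫
    (hT2 𝔫 hmax hϖ𝔫) with h | h | h | h
  · exact Or.inl h.simpleAt₁
  · exact Or.inl h.simpleAt₂
  · exact Or.inl h.simpleAt₃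
  · exact Or.inr h.tripleAt

include L in
/-- **THE HYPOTHESIS `h0` OF `sq_core_divAt`** for the field norms along `α`, `φ`; (T1) only at the
CLOSED points `𝔫₁ ∋ ϖ` of the lower level through `W₁` and `W₂`. -/
theorem sqgad_h0_norm (H : SqgwHyp hϖ₀ j α₁ φ₁ α φ ϖ t₀ t₁ t e₂ W₁ W₂ V₁ V₂ V₃ q)
    (hϖ : Irreducible ϖ) (ht₀ : Transcendental L₀ t₀) [FiniteDimensional L₀⟮t₀⟯ F₀]
    (Nα Nφ : F →* F₁)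
    (hNα : ∀ x : F, Nα x = @Algebra.norm F₁ F _ _ α.toAlgebra x)
    (hNφ : ∀ x : F, Nφ x = @Algebra.norm F₁ F _ _ φ.toAlgebra x)
    (finα : @Module.Finite F₁ F _ _ α.toAlgebra.toModule)
    (degα : @Module.finrank F₁ F _ _ α.toAlgebra.toModule = q)
    (finφ : @Module.Finite F₁ F _ _ φ.toAlgebra.toModule)
    (degφ : @Module.finrank F₁ F _ _ φ.toAlgebra.toModule = q)
    (hT1 : ∀ 𝔫₁ : Ideal ↥(s18tInt A t₁), 𝔫₁.IsMaximal → sskPi ϖ t₁ ∈ 𝔫₁ →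
      SqgaOn t₁ 𝔫₁ W₁ → SqgaOn t₁ 𝔫₁ W₂ → SqgaNode ϖ t₁ W₁ W₂ 𝔫₁)
    (hT2 : ∀ 𝔫 : Ideal ↥(s18tInt A t), 𝔫.IsMaximal → sskPi ϖ t ∈ 𝔫 →
      SqgaOn t 𝔫 V₂ → ¬ SqgaOn t 𝔫 V₁ → ¬ SqgaOn t 𝔫 V₃ →
      ∃ π w : F, SsnfInLoc t 𝔫 π ∧ π ∈ V₂.nonunits ∧ SsnfInLoc t 𝔫 w ∧
        algebraMap A F ϖ = π ^ e₂ * w) :
    ∀ 𝔫 : Ideal ↥(s18tInt A t), 𝔫.IsMaximal → sskPi ϖ t ∈ 𝔫 →
      SqSimpleAt t V₁ V₂ V₃ 𝔫 ∨ SqTripleAt α φ Nα Nφ t V₁ V₂ V₃ 𝔫 := by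
  intro 𝔫 hmax hϖ𝔫
  rcases H.point_norm (L := L) hϖ ht₀ Nα Nφ hNα hNφ finα degα finφ degφ hT1 𝔫 hmax hϖ𝔫
    (hT2 𝔫 hmax hϖ𝔫) with h | h | h | h
  · exact Or.inl h.simpleAt₁
  · exact Or.inl h.simpleAt₂
  · exact Or.inl h.simpleAt₃
  · exact Or.inr h.tripleAt

end Fermat.Agent.SQ
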