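import Mathlib
import Fermat.Agent.SQ.Germ.Main
import Fermat.Agent.SQ.ThreeLoc

/-!
# Program Q (S36), package SQ/Germ : ADAPTERS FROM VAL² (prefix `sqgv`)

* `sqgv_three` : `SqgaThree` (the consumer form used by GERM²) from `SqvThree` (`SQ/Three.lean`);
* `sqgv_on_iff` : `SqgaOn t 𝔫 V ↔ SqtOn V t 𝔫` (`Iff.rfl`; `SQ/ThreeLoc.lean`).
-/

set_option autoImplicit false
set_option linter.unusedSectionVars false
set_option linter.unusedVariables false

noncomputable section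

namespace Fermat.Agent.SQ

open Polynomial IntermediateField AlgebraicCurve Fermat.Agent.S18 Fermat.Agent.SS Fermat.Agent.G
  IsLocalRing

universe u

variable {A : Type*} [CommRing A] [IsDomain A] [IsDiscreteValuationRing A] [CharZero A]
variable {L : Type*} [Field L] [Algebra A L] [IsFractionRing A L]
variable {F : Type u} [Field F] [Algebra A F] [Algebra L F] [IsScalarTower A L F]
variable {ϖ : A}

/-- `SqgaOn` is `SqtOn` (same body, other order of the arguments). -/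
theorem sqgv_on_iff (t : F) (𝔫 : Ideal ↥(s18tInt A t)) (V : ValuationSubring F) :
    SqgaOn t 𝔫 V ↔ SqtOn V t 𝔫 := Iff.rfl

/-- `SqgaThree` from `SqvThree`. -/
theorem sqgv_three (hϖ : Irreducible ϖ) (t : F) (ht : Transcendental L t)
    [FiniteDimensional L⟮t⟯ F] {e₂ : ℕ} {π₂ : F} {V₁ V₂ V₃ : ValuationSubring F}
    (h : SqvThree hϖ t e₂ π₂ V₁ V₂ V₃) : SqgaThree ϖ t e₂ V₁ V₂ V₃ := by
  have hϖ0 : algebraMap A F ϖ ≠ 0 := sqga_pi_ne_zero L hϖ
  have he : 0 < e₂ := Nat.pos_of_ne_zero h.e₂_ne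
  obtain ⟨u, hvu, hpow⟩ := h.pow₂
  have hvϖ : V₂.valuation (algebraMap A F ϖ) = V₂.valuation π₂ ^ e₂ := by
    rw [← map_pow, hpow, map_mul, hvu, mul_one]
  refine
    { le₁ := fun x hx => ((h.mem_iff x).mp (ssga_int_le_intLoc hϖ t hx)).1
      le₂ := fun x hx => ((h.mem_iff x).mp (ssga_int_le_intLoc hϖ t hx)).2.1
      le₃ := fun x hx => ((h.mem_iff x).mp (ssga_int_le_intLoc hϖ t hx)).2.2
      unif₁ := V₁.mem_nonunits_iff.mpr h.unif₁.1
      unif₂ := ?_
      unif₃ := V₃.mem_nonunits_iff.mpr h.unif₃.1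
      e₂_pos := he
      pow₂ := ?_
      sat := ?_ }
  · rw [V₂.mem_nonunits_iff, hvϖ]
    exact pow_lt_one₀ zero_le h.unif₂.1 he.ne'
  · intro y hy
    rw [hvϖ]
    exact pow_le_pow_left₀ zero_le (h.unif₂.2 y (V₂.mem_nonunits_iff.mp hy)) e₂
  · intro x hx h1 h2 h3
    have hπe : π₂ ^ e₂ ≠ 0 := by
      intro h0
      rw [h0] at hpow
      rcases mul_eq_zero.mp hpow.symm with h' | h'
      · exact hϖ0 h'
      · rw [h', map_zero] at hvu
        exact zero_ne_one hvu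
    have hdvd : S18DvdGauss hϖ t x := by
      rw [h.dvd_iff hϖ0]
      refine ⟨h1, ⟨x / π₂ ^ e₂, ?_, by rw [mul_div_cancel₀ _ hπe]⟩, h3⟩
      rw [← V₂.valuation_le_one_iff, map_div₀, map_pow, ← hvϖ]
      have h0 : V₂.valuation (algebraMap A F ϖ) ≠ 0 := (Valuation.ne_zero_iff _).mpr hϖ0
      rw [div_le_iff₀ (zero_lt_iff.mpr h0), one_mul]
      exact h2
    obtain ⟨y, hy, hxy⟩ := hdvd
    exact ⟨y, s18t_saturated (L := L) hϖ t ht y hy (by rw [← hxy]; exact hx), hxy⟩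

end Fermat.Agent.SQ
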