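import Mathlib
import Fermat.Agent.SQ.Germ.Norm
import Fermat.Agent.SQ.Germ.OfVal
import Fermat.Agent.SQ.NormInst
import Fermat.Agent.SS.Val.ModALRes
import Fermat.Agent.SS.Germ.ModSingle
import Fermat.Agent.SS.Germ.Close

/-!
# Program Q (S36), package SQ/Germ : THE CONCRETE VALUATION-LEVEL INPUT (prefix `sqgin`)

`E ⊂ ℚ̄` a number field, `A = s18dVal 𝔸 E` (`𝔸` over `q`), `q ∤ M`, the three levels
`F₀ = F_E(M) → F₁ = F_E(M q) → F = F_E(M q q)`,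
`α₁ = ssvmdIncl E M q`, `φ₁ = ssvmfPhi E M q`, `α = ssvmdIncl E (M q) q`, `φ = ssvmfPhi E (M q) q`,
`W₁ = h.V₁`, `W₂ = h.V₂` for a witness `h` of `ssvmm_amb`.

* LEVEL `q` (Program S, `SS/Germ/ModRes`, `SS/Val/ModALRes`) : `sqgin_gaussα₁ … sqgin_ins₂`,
  `sqgin_mirror_int` (the Atkin-Lehner involution maps `s18tInt A (α₁ s)` onto `s18tInt A (φ₁ s)`);
* `sqgin_comm` : `α ∘ φ₁ = φ ∘ α₁`;
* `sqgin_hyp` : THE STRUCTURE `SqgwHyp` from the level-`q` data of Program S, (VAL²) in helper8's shape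
  `SqniVal` and helper3's `SqvThree`.
-/

set_option autoImplicit false
set_option linter.unusedSectionVars false
set_option linter.unusedVariables false
set_option linter.style.haveILetI false
set_option synthInstance.maxHeartbeats 400000

noncomputable section

namespace Fermat.Agent.SQ

open Polynomial ModularCurve AlgebraicCurve IntermediateField IsLocalRing Fermat.Agent.S18
  Fermat.Agent.SS Fermat.Agent.G

local notation "Qb" => AlgebraicClosure ℚ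

/-! ### compatibilities of the degeneracy maps -/

section Maps

variable (K : Type*) [Field K] (M q : ℕ) [NeZero M] [NeZero q]

/-- `α ∘ φ₁ = φ ∘ α₁` -/
theorem sqgin_comm (x : modularFunctionFieldFullC K M) :
    ssvmdIncl K (M * q) q (ssvmfPhi K M q x) = ssvmfPhi K (M * q) q (ssvmdIncl K M q x) := by
  apply Subtype.ext
  rw [ssvmdIncl_coe, ssvmfPhi_coe, ssvmfPhi_coe, ssvmdIncl_coe]

end Maps

section Level

variable {q : ℕ} [Fact q.Prime] [NeZero q] (𝔸 : ValuationSubring Qb) (E : IntermediateField ℚ Qb)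
  [IsDiscreteValuationRing ↥(s18dVal 𝔸 E)] [CharZero ↥(s18dVal 𝔸 E)] (M : ℕ) [NeZero M]

/-- `α₁` on the constants of `A` -/
theorem sqgin_incl_algebraMap (N : ℕ) [NeZero N] (a : ↥(s18dVal 𝔸 E)) :
    ssvmdIncl E N q (algebraMap ↥(s18dVal 𝔸 E) ↥(modularFunctionFieldFullC E N) a) =
      algebraMap ↥(s18dVal 𝔸 E) ↥(modularFunctionFieldFullC E (N * q)) a := by
  rw [IsScalarTower.algebraMap_apply ↥(s18dVal 𝔸 E) E (modularFunctionFieldFullC E N),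
    IsScalarTower.algebraMap_apply ↥(s18dVal 𝔸 E) E (modularFunctionFieldFullC E (N * q))]
  exact (ssvmdIncl E N q).commutes _

/-- `φ₁` on the constants of `A` -/
theorem sqgin_phi_algebraMap (N : ℕ) [NeZero N] (a : ↥(s18dVal 𝔸 E)) :
    ssvmfPhi E N q (algebraMap ↥(s18dVal 𝔸 E) ↥(modularFunctionFieldFullC E N) a) =
      algebraMap ↥(s18dVal 𝔸 E) ↥(modularFunctionFieldFullC E (N * q)) a := by
  rw [IsScalarTower.algebraMap_apply ↥(s18dVal 𝔸 E) E (modularFunctionFieldFullC E N),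
    IsScalarTower.algebraMap_apply ↥(s18dVal 𝔸 E) E (modularFunctionFieldFullC E (N * q)),
    ssgq_phi_algebraMap]

variable {ϖ : ↥(s18dVal 𝔸 E)} {Ξ G : (↥(ssvmmR 𝔸 E M q))[X]}
  (h : SsvAmb (ssvmmR 𝔸 E M q) (ssvmgRUnif (ssvmm_le E M q) ϖ) (ssvmmY E M q) Ξ
    (X - C (ssvmmJ 𝔸 E M q ^ q)) (X ^ q - C (ssvmmJ 𝔸 E M q)) G)

/-- `gaussφ₁` : `φ₁ O₀ ⊆ W₁` -/
theorem sqgin_gaussφ₁ (hA : 𝔸.LiesOverPrime q) (hqM : ¬ q ∣ M) (hϖ : Irreducible ϖ)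
    (s : modularFunctionFieldFullC E M) (hc : S18Coord hϖ (modularFunctionFieldFullC E M) s) :
    ∀ x ∈ s18tIntLoc ↥(s18dVal 𝔸 E) s (C ϖ) (s18t_prime_C hϖ), ssvmfPhi E M q x ∈ h.V₁ := by
  intro x hx
  rw [hc.intLoc_eq] at hx
  exact (ssvmar_gauss₁ 𝔸 E M hA hqM hϖ Ξ G h x hx).2.1

/-- `gaussφ₂` : `φ₁ O₀ ⊆ W₂` -/
theorem sqgin_gaussφ₂ (hA : 𝔸.LiesOverPrime q) (hqM : ¬ q ∣ M) (hϖ : Irreducible ϖ)
    (s : modularFunctionFieldFullC E M) (hc : S18Coord hϖ (modularFunctionFieldFullC E M) s) :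
    ∀ x ∈ s18tIntLoc ↥(s18dVal 𝔸 E) s (C ϖ) (s18t_prime_C hϖ), ssvmfPhi E M q x ∈ h.V₂ := by
  intro x hx
  rw [hc.intLoc_eq] at hx
  exact ssvmf_phi_mem₂ 𝔸 E M hA hqM hϖ Ξ G h x hx

/-- `res₂` : `κ(W₂) = φ₁ κ(O₀)` -/
theorem sqgin_res₂ (hA : 𝔸.LiesOverPrime q) (hqM : ¬ q ∣ M) (hϖ : Irreducible ϖ)
    (s : modularFunctionFieldFullC E M) (hc : S18Coord hϖ (modularFunctionFieldFullC E M) s) :
    ∀ y ∈ h.V₂, ∃ r ∈ s18tIntLoc ↥(s18dVal 𝔸 E) s (C ϖ) (s18t_prime_C hϖ),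
      y - ssvmfPhi E M q r ∈ h.V₂.nonunits := by
  intro y hy
  obtain ⟨r, hr, hyr⟩ := ssvmar_res₂ 𝔸 E M hA hqM hϖ Ξ G h y hy
  exact ⟨r, by rw [hc.intLoc_eq]; exact hr, hyr⟩

/-- `ins₁` : `κ(W₁)^q ⊆ φ₁ κ(O₀)` (the mirror of `ssgmr_res₂` under the Atkin-Lehner involution) -/
theorem sqgin_ins₁ (hA : 𝔸.LiesOverPrime q) (hqM : ¬ q ∣ M) (hϖ : Irreducible ϖ)
    (s : modularFunctionFieldFullC E M) (hc : S18Coord hϖ (modularFunctionFieldFullC E M) s) :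
    ∀ y ∈ h.V₁, ∃ r ∈ s18tIntLoc ↥(s18dVal 𝔸 E) s (C ϖ) (s18t_prime_C hϖ),
      y ^ q - ssvmfPhi E M q r ∈ h.V₁.nonunits := by
  intro y hy
  obtain ⟨w, hwα, hwβ, hww, -⟩ := ssvma_exists_w E M hqM
  have e₂ := ssvma_comap_V₂ 𝔸 E M hA hqM hϖ Ξ G h w hwα hwβ
  have hwy : w y ∈ h.V₂ := (ssvmar_mem_of_comap e₂ rfl).mp hy
  obtain ⟨r, hr, hyr⟩ := ssgmr_res₂_coord 𝔸 E M h hA hϖ s hc (w y) hwy
  refine ⟨r, hr, ?_⟩
  have e : w (y ^ q - ssvmfPhi E M q r) = w y ^ q - ssvmdIncl E M q r := by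
    rw [map_sub, map_pow, hwβ]
  exact (ssvmar_nonunits_of_comap e₂ e).mpr hyr

/-- the Atkin-Lehner involution maps `s18tInt A (α₁ s)` into `s18tInt A (φ₁ s)` and back : the
mirror of an integrality statement. -/
theorem sqgin_mirror_int (hqM : ¬ q ∣ M) (s : modularFunctionFieldFullC E M)
    (hInt : ssvmfPhi E M q s ∈ s18tInt ↥(s18dVal 𝔸 E) (ssvmdIncl E M q s)) :
    ssvmdIncl E M q s ∈ s18tInt ↥(s18dVal 𝔸 E) (ssvmfPhi E M q s) := by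
  obtain ⟨w, hwα, hwβ, hww, hwc⟩ := ssvma_exists_w E M hqM
  have hw : ∀ a : ↥(s18dVal 𝔸 E),
      (w : modularFunctionFieldFullC E (M * q) →+* modularFunctionFieldFullC E (M * q))
        (algebraMap ↥(s18dVal 𝔸 E) ↥(modularFunctionFieldFullC E (M * q)) a) =
      algebraMap ↥(s18dVal 𝔸 E) ↥(modularFunctionFieldFullC E (M * q)) a := by
    intro a
    rw [IsScalarTower.algebraMap_apply ↥(s18dVal 𝔸 E) E (modularFunctionFieldFullC E (M * q))]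
    exact hwc _
  have key := ssgq_map_mem_int
    (w : modularFunctionFieldFullC E (M * q) →+* modularFunctionFieldFullC E (M * q)) hw
    (ssvmdIncl E M q s) (ssvmfPhi E M q s)
    (by rw [RingEquiv.coe_toRingHom, hwα]; exact s18tc_self_mem_int _) hInt
  rw [RingEquiv.coe_toRingHom, hwβ] at key
  exact key

end Level

/-! ### the structure `SqgwHyp` -/

section Hyp

variable {q : ℕ} [Fact q.Prime] [NeZero q] (𝔸 : ValuationSubring Qb) (E : IntermediateField ℚ Qb)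
  [IsDiscreteValuationRing ↥(s18dVal 𝔸 E)] [CharZero ↥(s18dVal 𝔸 E)] (M : ℕ) [NeZero M]
variable {ϖ : ↥(s18dVal 𝔸 E)} {Ξ G : (↥(ssvmmR 𝔸 E M q))[X]}
  (h : SsvAmb (ssvmmR 𝔸 E M q) (ssvmgRUnif (ssvmm_le E M q) ϖ) (ssvmmY E M q) Ξ
    (X - C (ssvmmJ 𝔸 E M q ^ q)) (X ^ q - C (ssvmmJ 𝔸 E M q)) G)

set_option maxHeartbeats 1000000 in
/-- **THE CONCRETE VALUATION-LEVEL INPUT** : `SqgwHyp` at the levels `M`, `M q`, `M q q` from the
level-`q` data of Program S (`hc`, `hgood`, `hTwo`, `hInt`), (VAL²) in the shape `SqniVal` and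
`SqvThree`. -/
theorem sqgin_hyp (hA : 𝔸.LiesOverPrime q) (hqM : ¬ q ∣ M) (hϖ : Irreducible ϖ)
    (s : modularFunctionFieldFullC E M) (hc : S18Coord hϖ (modularFunctionFieldFullC E M) s)
    (hgood : GrdfbHyp hϖ s)
    {u₁ u₂ : modularFunctionFieldFullC E (M * q)}
    (hTwo : SsvTwo hϖ (ssvmdIncl E M q s) u₁ u₂ h.V₁ h.V₂)
    (hInt : ssvmfPhi E M q s ∈ s18tInt ↥(s18dVal 𝔸 E) (ssvmdIncl E M q s))
    {V₁ V₂ V₃ : ValuationSubring (modularFunctionFieldFullC E (M * q * q))}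
    {ϖE : E} {π₂ : modularFunctionFieldFullC E (M * q * q)} {e₂ : ℕ}
    (val : SqniVal (algebraMap E (modularFunctionFieldFullC E (M * q)))
      (ssvmdIncl E (M * q) q).toRingHom (ssvmfPhi E (M * q) q) (s18dVal 𝔸 E) h.V₁ h.V₂
      V₁ V₂ V₃ ϖE π₂ q)
    (ht : Transcendental E (ssvmdIncl E (M * q) q (ssvmdIncl E M q s)))
    [FiniteDimensional E⟮ssvmdIncl E (M * q) q (ssvmdIncl E M q s)⟯
      (modularFunctionFieldFullC E (M * q * q))]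
    (three : SqvThree hϖ (ssvmdIncl E (M * q) q (ssvmdIncl E M q s)) e₂ π₂ V₁ V₂ V₃) :
    SqgwHyp hϖ (RingHom.id ↥(s18dVal 𝔸 E)) (ssvmdIncl E M q).toRingHom (ssvmfPhi E M q)
      (ssvmdIncl E (M * q) q).toRingHom (ssvmfPhi E (M * q) q) ϖ s (ssvmdIncl E M q s)
      (ssvmdIncl E (M * q) q (ssvmdIncl E M q s)) e₂ h.V₁ h.V₂ V₁ V₂ V₃ q := by
  have hα : ∀ a : ↥(s18dVal 𝔸 E), (ssvmdIncl E (M * q) q).toRingHom
      (algebraMap ↥(s18dVal 𝔸 E) ↥(modularFunctionFieldFullC E (M * q)) a) =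
      algebraMap ↥(s18dVal 𝔸 E) ↥(modularFunctionFieldFullC E (M * q * q)) a :=
    fun a => sqgin_incl_algebraMap 𝔸 E (M * q) a
  have hφ : ∀ a : ↥(s18dVal 𝔸 E), ssvmfPhi E (M * q) q
      (algebraMap ↥(s18dVal 𝔸 E) ↥(modularFunctionFieldFullC E (M * q)) a) =
      algebraMap ↥(s18dVal 𝔸 E) ↥(modularFunctionFieldFullC E (M * q * q)) a :=
    fun a => sqgin_phi_algebraMap 𝔸 E (M * q) a
  have hcomm : ∀ x : modularFunctionFieldFullC E M,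
      (ssvmdIncl E (M * q) q).toRingHom (ssvmfPhi E M q x) =
        ssvmfPhi E (M * q) q ((ssvmdIncl E M q).toRingHom x) := fun x => sqgin_comm E M q x
  obtain ⟨cW, c₁, c₂⟩ :
      s18tInt ↥(s18dVal 𝔸 E) (ssvmfPhi E M q s) =
        s18tInt ↥(s18dVal 𝔸 E) (ssvmdIncl E M q s) ∧
      s18tInt ↥(s18dVal 𝔸 E) (ssvmdIncl E (M * q) q (ssvmfPhi E M q s)) =
        s18tInt ↥(s18dVal 𝔸 E) (ssvmdIncl E (M * q) q (ssvmdIncl E M q s)) ∧
      s18tInt ↥(s18dVal 𝔸 E) (ssvmfPhi E (M * q) q (ssvmfPhi E M q s)) =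
        s18tInt ↥(s18dVal 𝔸 E) (ssvmdIncl E (M * q) q (ssvmdIncl E M q s)) :=
    sqgn_charts (A := ↥(s18dVal 𝔸 E))
      (ssvmdIncl E M q).toRingHom (ssvmfPhi E M q)
      (ssvmdIncl E (M * q) q).toRingHom (ssvmfPhi E (M * q) q) s hα hφ hcomm hInt
      (sqgin_mirror_int 𝔸 E M hqM s hInt)
  have hle : ∀ x ∈ s18tInt ↥(s18dVal 𝔸 E) (ssvmdIncl E M q s), x ∈ h.V₁ ∧ x ∈ h.V₂ :=
    fun x hx => (hTwo.mem_iff x).mp (ssga_int_le_intLoc hϖ _ hx)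
  exact
    { hq := (Fact.out : q.Prime).pos
      jsurj := fun a => ⟨a, rfl⟩
      unif := ⟨1, by rw [RingHom.id_apply, mul_one]⟩
      comm := hcomm
      compatα₁ := fun a => sqgin_incl_algebraMap 𝔸 E M a
      compatφ₁ := fun a => sqgin_phi_algebraMap 𝔸 E M a
      coord₁ := rfl
      coord := rfl
      posα :=
        { compat := hα
          int := fun x hx => ssgq_map_mem_int _ hα _ _ (s18tc_self_mem_int _) hx
          unif := hTwo.unif₁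
          mem_a := fun x hx => (sqni_mem_iff val.posα₁ x).mpr hx
          mem_b := fun x hx => (sqni_mem_iff val.posα₂ x).mpr hx
          nu_c := fun x hx => (sqni_nonunits_iff val.posα₃ x).mpr hx }
      posφ :=
        { compat := hφ
          int := fun x hx => by
            rw [← c₂]
            refine ssgq_map_mem_int _ hφ (ssvmfPhi E M q s) _ (s18tc_self_mem_int _) ?_
            rw [cW]
            exact hx
          unif := hTwo.unif₂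
          mem_a := fun x hx => (sqni_mem_iff val.posφ₃ x).mpr hx
          mem_b := fun x hx => (sqni_mem_iff val.posφ₂ x).mpr hx
          nu_c := fun x hx => (sqni_nonunits_iff val.posφ₁ x).mpr hx }
      three := sqgv_three (L := E) hϖ _ ht three
      good := hgood
      le₁ := fun x hx => (hle x hx).1
      le₂ := fun x hx => (hle x hx).2
      unifW₂ := (h.V₂.mem_nonunits_iff).mpr hTwo.unif₂.1
      chartW := cW
      chart₁ := c₁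
      chart₂ := c₂
      gaussα₁ := ssgmr_gauss₁_coord 𝔸 E M h hϖ s hc
      gaussα₂ := ssgmr_gauss₂_coord 𝔸 E M h hϖ s hc
      gaussφ₁ := sqgin_gaussφ₁ 𝔸 E M h hA hqM hϖ s hc
      gaussφ₂ := sqgin_gaussφ₂ 𝔸 E M h hA hqM hϖ s hc
      memα₃ := fun x hx => (sqni_mem_iff val.posα₃ x).mpr hx
      memφ₁ := fun x hx => (sqni_mem_iff val.posφ₁ x).mpr hx
      res₁ := ssgmr_res₁_coord 𝔸 E M h hϖ s hc
      res₂ := sqgin_res₂ 𝔸 E M h hA hqM hϖ s hc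
      ins₁ := sqgin_ins₁ 𝔸 E M h hA hqM hϖ s hc
      ins₂ := ssgmr_res₂_coord 𝔸 E M h hA hϖ s hc
      res₁α := val.res₁α
      res₂α := val.res₂α
      res₂φ := val.res₂φ
      res₃φ := val.res₃φ }

end Hyp

/-! ### independence of the witness -/

section Witness

variable {q : ℕ} [Fact q.Prime] [NeZero q] (𝔸 : ValuationSubring Qb) (E : IntermediateField ℚ Qb)
  [IsDiscreteValuationRing ↥(s18dVal 𝔸 E)] [CharZero ↥(s18dVal 𝔸 E)] (M : ℕ) [NeZero M]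
variable {ϖ : ↥(s18dVal 𝔸 E)} {Ξ G Ξ' G' : (↥(ssvmmR 𝔸 E M q))[X]}
  (h : SsvAmb (ssvmmR 𝔸 E M q) (ssvmgRUnif (ssvmm_le E M q) ϖ) (ssvmmY E M q) Ξ
    (X - C (ssvmmJ 𝔸 E M q ^ q)) (X ^ q - C (ssvmmJ 𝔸 E M q)) G)
  (h' : SsvAmb (ssvmmR 𝔸 E M q) (ssvmgRUnif (ssvmm_le E M q) ϖ) (ssvmmY E M q) Ξ'
    (X - C (ssvmmJ 𝔸 E M q ^ q)) (X ^ q - C (ssvmmJ 𝔸 E M q)) G')

/-- the valuation ring `V₁` does not depend on the witness of `ssvmm_amb` -/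
theorem sqgin_V₁_eq : h'.V₁ = h.V₁ :=
  h.eq_V₁ h'.V₁ (ssgmr_R_mem₁ 𝔸 E M h') h'.unif_mem₁ h'.aeval₁_mem

/-- the valuation ring `V₂` does not depend on the witness of `ssvmm_amb` -/
theorem sqgin_V₂_eq : h'.V₂ = h.V₂ :=
  h.eq_V₂ h'.V₂ (ssgmr_R_mem₂ 𝔸 E M h') h'.unif_mem₂ h'.aeval₂_mem

end Witness

/-! ### the chart `j` -/

section J

variable {q : ℕ} [Fact q.Prime] [NeZero q] (𝔸 : ValuationSubring Qb)
  (E : IntermediateField ℚ Qb) [FiniteDimensional ℚ E]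
  [IsDiscreteValuationRing ↥(s18dVal 𝔸 E)] [CharZero ↥(s18dVal 𝔸 E)] (M : ℕ) [NeZero M]
variable {ϖ : ↥(s18dVal 𝔸 E)} {Ξ G : (↥(ssvmmR 𝔸 E M q))[X]}
  (h : SsvAmb (ssvmmR 𝔸 E M q) (ssvmgRUnif (ssvmm_le E M q) ϖ) (ssvmmY E M q) Ξ
    (X - C (ssvmmJ 𝔸 E M q ^ q)) (X ^ q - C (ssvmmJ 𝔸 E M q)) G)

theorem sqgin_chart_j :
    ssvmdIncl E (M * q) q (ssvmdIncl E M q (ssdJ E M)) = ssdJ E (M * q * q) := by
  rw [ssgms_incl_j E M]
  exact Subtype.ext (ssvmdIncl_coe E (M * q) q (ssdJ E (M * q)))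

set_option maxHeartbeats 1000000 in
/-- **THE SLOT `SqccWire` FOR THE CHART `j`** (`5 ≤ q`, `ζ_{6M} ∈ E`), any witness `h`. -/
theorem sqgin_wire_j (hA : 𝔸.LiesOverPrime q) (hqM : ¬ q ∣ M) (h5 : 5 ≤ q)
    (ζ : E) (hζ : IsPrimitiveRoot ζ (6 * M)) (hϖ : Irreducible ϖ)
    {V₁ V₂ V₃ : ValuationSubring (modularFunctionFieldFullC E (M * q * q))}
    {ϖE : E} {π₂ : modularFunctionFieldFullC E (M * q * q)} {e₂ : ℕ}
    (three : SqvThree hϖ (ssvmdIncl E (M * q) q (ssvmdIncl E M q (ssdJ E M))) e₂ π₂ V₁ V₂ V₃)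
    (val : SqniVal (algebraMap E (modularFunctionFieldFullC E (M * q)))
      (ssvmdIncl E (M * q) q).toRingHom (ssvmfPhi E (M * q) q) (s18dVal 𝔸 E) h.V₁ h.V₂
      V₁ V₂ V₃ ϖE π₂ q) :
    SqgwHyp hϖ (RingHom.id ↥(s18dVal 𝔸 E)) (ssvmdIncl E M q).toRingHom (ssvmfPhi E M q)
      (ssvmdIncl E (M * q) q).toRingHom (ssvmfPhi E (M * q) q) ϖ (ssdJ E M)
      (ssvmdIncl E M q (ssdJ E M)) (ssvmdIncl E (M * q) q (ssvmdIncl E M q (ssdJ E M))) e₂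
      h.V₁ h.V₂ V₁ V₂ V₃ q := by
  obtain ⟨Ξ', G', h', h2⟩ := ssgms_two_j 𝔸 E M hA hqM ϖ hϖ
  rw [sqgin_V₁_eq 𝔸 E M h h', sqgin_V₂_eq 𝔸 E M h h', ← ssgms_incl_j E M] at h2
  have hInt : ssvmfPhi E M q (ssdJ E M) ∈
      s18tInt ↥(s18dVal 𝔸 E) (ssvmdIncl E M q (ssdJ E M)) := by
    rw [ssgms_incl_j E M]
    exact ssgq_jq_mem_int 𝔸 E M hA hqM
  have ht : Transcendental E (ssvmdIncl E (M * q) q (ssvmdIncl E M q (ssdJ E M))) := by
    rw [sqgin_chart_j]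
    exact ssd_transcendental_j E (M * q * q)
  haveI : FiniteDimensional E⟮ssvmdIncl E (M * q) q (ssvmdIncl E M q (ssdJ E M))⟯
      (modularFunctionFieldFullC E (M * q * q)) := by
    rw [sqgin_chart_j]
    exact ssd_finiteDimensional_j E (M * q * q)
  exact sqgin_hyp 𝔸 E M h hA hqM hϖ (ssdJ E M)
    (s18v_coord_j' hϖ (s18d_natCast_mem 𝔸 E hA) M hqM)
    (ssgb_hyp_j M 𝔸 E hqM hA h5 ϖ hϖ ζ hζ).1 h2 hInt val ht three

end J

/-! ### the chart `h_a` (`q ∈ {2, 3}`, `a = 5 - q`) -/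

section H

variable {q : ℕ} [Fact q.Prime] [NeZero q] (𝔸 : ValuationSubring Qb)
  (E : IntermediateField ℚ Qb) [FiniteDimensional ℚ E]
  [IsDiscreteValuationRing ↥(s18dVal 𝔸 E)] [CharZero ↥(s18dVal 𝔸 E)] (M : ℕ) [NeZero M]
  (a : ℕ) [NeZero a] (ha : a = 2 ∨ a = 3) (haM : a ∣ M)
variable {ϖ : ↥(s18dVal 𝔸 E)} {Ξ G : (↥(ssvmmR 𝔸 E M q))[X]}
  (h : SsvAmb (ssvmmR 𝔸 E M q) (ssvmgRUnif (ssvmm_le E M q) ϖ) (ssvmmY E M q) Ξ
    (X - C (ssvmmJ 𝔸 E M q ^ q)) (X ^ q - C (ssvmmJ 𝔸 E M q)) G)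

theorem sqgin_chart_h :
    ssvmdIncl E (M * q) q (ssvmdIncl E M q (ssgH E M a ha haM)) =
      ssgH E (M * q * q) a ha (Dvd.dvd.mul_right (Dvd.dvd.mul_right haM q) q) := by
  rw [ssgms_incl_h E M a ha haM]
  exact Subtype.ext (ssvmdIncl_coe E (M * q) q (ssgH E (M * q) a ha (Dvd.dvd.mul_right haM q)))

set_option maxHeartbeats 1000000 in
/-- **THE SLOT `SqccWire` FOR THE CHART `h_a`** (`q ∈ {2, 3}`, `a = 5 - q ∣ M`, `ζ_M ∈ E`), any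
witness `h`. -/
theorem sqgin_wire_h (hA : 𝔸.LiesOverPrime q) (hqM : ¬ q ∣ M)
    (hqa : (q = 2 ∧ a = 3) ∨ (q = 3 ∧ a = 2))
    (ζ : E) (hζ : IsPrimitiveRoot ζ M) (hϖ : Irreducible ϖ)
    {V₁ V₂ V₃ : ValuationSubring (modularFunctionFieldFullC E (M * q * q))}
    {ϖE : E} {π₂ : modularFunctionFieldFullC E (M * q * q)} {e₂ : ℕ}
    (three : SqvThree hϖ (ssvmdIncl E (M * q) q (ssvmdIncl E M q (ssgH E M a ha haM))) e₂ π₂
      V₁ V₂ V₃)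
    (val : SqniVal (algebraMap E (modularFunctionFieldFullC E (M * q)))
      (ssvmdIncl E (M * q) q).toRingHom (ssvmfPhi E (M * q) q) (s18dVal 𝔸 E) h.V₁ h.V₂
      V₁ V₂ V₃ ϖE π₂ q) :
    SqgwHyp hϖ (RingHom.id ↥(s18dVal 𝔸 E)) (ssvmdIncl E M q).toRingHom (ssvmfPhi E M q)
      (ssvmdIncl E (M * q) q).toRingHom (ssvmfPhi E (M * q) q) ϖ (ssgH E M a ha haM)
      (ssvmdIncl E M q (ssgH E M a ha haM))
      (ssvmdIncl E (M * q) q (ssvmdIncl E M q (ssgH E M a ha haM))) e₂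
      h.V₁ h.V₂ V₁ V₂ V₃ q := by
  obtain ⟨Ξ', G', h', h2⟩ := ssgms_two_h 𝔸 E M a ha haM hA hqM ϖ hϖ
  rw [sqgin_V₁_eq 𝔸 E M h h', sqgin_V₂_eq 𝔸 E M h h', ← ssgms_incl_h E M a ha haM] at h2
  have hInt : ssvmfPhi E M q (ssgH E M a ha haM) ∈
      s18tInt ↥(s18dVal 𝔸 E) (ssvmdIncl E M q (ssgH E M a ha haM)) := by
    rw [ssgms_incl_h E M a ha haM]
    exact (ssgnp_hInt 𝔸 hA E M a ha haM hqa (ssgcl_modPoly_over q 𝔸 hA E)).1 _
      (s18tc_self_mem_int _)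
  have ht : Transcendental E
      (ssvmdIncl E (M * q) q (ssvmdIncl E M q (ssgH E M a ha haM))) := by
    rw [sqgin_chart_h]
    exact ssg_transcendental_h E (M * q * q) a ha _
  haveI : FiniteDimensional
      E⟮ssvmdIncl E (M * q) q (ssvmdIncl E M q (ssgH E M a ha haM))⟯
      (modularFunctionFieldFullC E (M * q * q)) := by
    rw [sqgin_chart_h]
    exact ssg_finiteDimensional_h E (M * q * q) a ha _
  exact sqgin_hyp 𝔸 E M h hA hqM hϖ (ssgH E M a ha haM)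
    (ssgms_coord_h 𝔸 E M a ha haM hA hqM ϖ hϖ)
    (ssgb_hyp_h' M 𝔸 E a hqM hA hqa haM ϖ hϖ ζ hζ (ssgH E M a ha haM).2).1 h2 hInt val ht three

end H

end Fermat.Agent.SQ
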