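import Mathlib

/-!
# Program Q, R1 (thickness one) : regularity of a crossing point (prefix `sqgcr`)

ABSTRACT form.  `F` a field, `B` a subring (the local ring `P_𝔫` of the level `q M'` at a
crossing point `𝔫`), `W₁ W₂` valuation subrings containing `B` (the two components), `ϖ u w ∈ B`
with `u ∈ 𝔪_{W₁}`, `w ∈ 𝔪_{W₂}` and `𝔫 B = (ϖ, u, w)` (the predicate `SqgcrMax`).

Hypotheses : `B` is local with maximal ideal `(ϖ, u, w)`; `B ∩ 𝔪_{W₁} ∩ 𝔪_{W₂} = ϖ B` (reduced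
special fibre); neither component contains `𝔫 B`; a predicate `hor` ("no pole at the horizontal
places through `𝔫`") with the generalised Krull property (GK); an element `γ` with
`div γ = 2 W₂` near `𝔫` (vertical orders `(0, 2)`, no horizontal part); and the CARTIER input (C) :
`γ` is not (unit of `B`) · (an element of `𝔫 B` generating `𝔫 B` modulo `𝔪_{W₁}`).

**Theorem** `sqgcr_regular` : `𝔫 B = (u, w)`, `u w = ϖ · unit`, and `w` generates `𝔭_{W₂} B`,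
`u` generates `𝔭_{W₁} B`.
-/

set_option autoImplicit false
set_option linter.unusedSectionVars false
set_option linter.unusedVariables false

namespace Fermat.Agent.SQ

variable {F : Type*} [Field F]

/-- `x ∈ (ϖ, u, w) B` -/
def SqgcrMax (B : Subring F) (ϖ u w : F) (x : F) : Prop :=
  ∃ a ∈ B, ∃ b ∈ B, ∃ c ∈ B, x = a * ϖ + b * u + c * w

section Max

variable {B : Subring F} {ϖ u w : F}

theorem SqgcrMax.add {x y : F} (hx : SqgcrMax B ϖ u w x) (hy : SqgcrMax B ϖ u w y) :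
    SqgcrMax B ϖ u w (x + y) := by
  obtain ⟨a, ha, b, hb, c, hc, rfl⟩ := hx
  obtain ⟨a', ha', b', hb', c', hc', rfl⟩ := hy
  exact ⟨a + a', B.add_mem ha ha', b + b', B.add_mem hb hb', c + c', B.add_mem hc hc', by ring⟩

theorem SqgcrMax.mul_left {x y : F} (hx : SqgcrMax B ϖ u w x) (hy : y ∈ B) :
    SqgcrMax B ϖ u w (y * x) := by
  obtain ⟨a, ha, b, hb, c, hc, rfl⟩ := hx
  exact ⟨y * a, B.mul_mem hy ha, y * b, B.mul_mem hy hb, y * c, B.mul_mem hy hc, by ring⟩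

theorem SqgcrMax.neg {x : F} (hx : SqgcrMax B ϖ u w x) : SqgcrMax B ϖ u w (-x) := by
  have := hx.mul_left (B.neg_mem B.one_mem)
  rwa [neg_one_mul] at this

theorem SqgcrMax.of_eq {x y : F} (hx : SqgcrMax B ϖ u w x) (h : y = x) : SqgcrMax B ϖ u w y :=
  h ▸ hx

theorem sqgcr_max_pi : SqgcrMax B ϖ u w ϖ :=
  ⟨1, B.one_mem, 0, B.zero_mem, 0, B.zero_mem, by ring⟩

theorem sqgcr_max_u : SqgcrMax B ϖ u w u :=
  ⟨0, B.zero_mem, 1, B.one_mem, 0, B.zero_mem, by ring⟩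

theorem sqgcr_max_w : SqgcrMax B ϖ u w w :=
  ⟨0, B.zero_mem, 0, B.zero_mem, 1, B.one_mem, by ring⟩

end Max

section Val

variable (V : ValuationSubring F)

theorem sqgcr_nu_mul {a b : F} (ha : a ∈ V) (hb : b ∈ V.nonunits) : a * b ∈ V.nonunits := by
  rw [V.mem_nonunits_iff] at hb ⊢
  rw [map_mul]
  have h1 : V.valuation a ≤ 1 := (V.valuation_le_one_iff a).mpr ha
  calc V.valuation a * V.valuation b ≤ 1 * V.valuation b := mul_le_mul_left h1 _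
    _ = V.valuation b := one_mul _
    _ < 1 := hb

theorem sqgcr_nu_add {a b : F} (ha : a ∈ V.nonunits) (hb : b ∈ V.nonunits) :
    a + b ∈ V.nonunits := by
  rw [V.mem_nonunits_iff] at ha hb ⊢
  exact lt_of_le_of_lt (V.valuation.map_add a b) (max_lt ha hb)

theorem sqgcr_nu_neg {a : F} (ha : a ∈ V.nonunits) : -a ∈ V.nonunits := by
  rw [V.mem_nonunits_iff] at ha ⊢
  rwa [Valuation.map_neg]

theorem sqgcr_nu_sub {a b : F} (ha : a ∈ V.nonunits) (hb : b ∈ V.nonunits) :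
    a - b ∈ V.nonunits := by
  rw [sub_eq_add_neg]; exact sqgcr_nu_add V ha (sqgcr_nu_neg V hb)

theorem sqgcr_nu_mem {a : F} (ha : a ∈ V.nonunits) : a ∈ V := by
  rw [V.mem_nonunits_iff] at ha
  exact (V.valuation_le_one_iff a).mp ha.le

/-- an element of `V` outside `𝔪_V` is a unit of `V` -/
theorem sqgcr_inv_mem {a : F} (ha : a ∈ V) (hnu : a ∉ V.nonunits) : a⁻¹ ∈ V := by
  rw [V.mem_nonunits_iff, not_lt] at hnu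
  have h1 : V.valuation a ≤ 1 := (V.valuation_le_one_iff a).mpr ha
  have h2 : V.valuation a = 1 := le_antisymm h1 hnu
  rw [← V.valuation_le_one_iff, map_inv₀, h2, inv_one]

/-- a unit of `V` is not in `𝔪_V` -/
theorem sqgcr_not_nu {a : F} (ha0 : a ≠ 0) (hai : a⁻¹ ∈ V) : a ∉ V.nonunits := by
  intro h
  have h1 := sqgcr_nu_mul V hai h
  rw [inv_mul_cancel₀ ha0] at h1
  rw [V.mem_nonunits_iff, map_one] at h1
  exact lt_irrefl _ h1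

end Val

/-- THE HYPOTHESES at a crossing point. -/
structure SqgcrHyp (B : Subring F) (W₁ W₂ : ValuationSubring F) (ϖ u w : F)
    (hor : F → Prop) : Prop where
  pi_ne : ϖ ≠ 0
  le₁ : ∀ x ∈ B, x ∈ W₁
  le₂ : ∀ x ∈ B, x ∈ W₂
  piB : ϖ ∈ B
  uB : u ∈ B
  wB : w ∈ B
  pi₁ : ϖ ∈ W₁.nonunits
  pi₂ : ϖ ∈ W₂.nonunits
  u₁ : u ∈ W₁.nonunits
  w₂ : w ∈ W₂.nonunits
  loc : ∀ x ∈ B, ¬ SqgcrMax B ϖ u w x → x⁻¹ ∈ B
  one_not : ¬ SqgcrMax B ϖ u w 1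
  sat : ∀ x ∈ B, x ∈ W₁.nonunits → x ∈ W₂.nonunits → ∃ y ∈ B, x = ϖ * y
  nd₁ : ∃ x, SqgcrMax B ϖ u w x ∧ x ∉ W₁.nonunits
  nd₂ : ∃ x, SqgcrMax B ϖ u w x ∧ x ∉ W₂.nonunits
  hor_B : ∀ x ∈ B, hor x
  hor_mul : ∀ x y, hor x → hor y → hor (x * y)
  gk : ∀ x, x ∈ W₁ → x ∈ W₂ → hor x → x ∈ B

namespace SqgcrHyp

variable {B : Subring F} {W₁ W₂ : ValuationSubring F} {ϖ u w : F} {hor : F → Prop}

theorem max_mem (h : SqgcrHyp B W₁ W₂ ϖ u w hor) {x : F} (hx : SqgcrMax B ϖ u w x) : x ∈ B := by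
  obtain ⟨a, ha, b, hb, c, hc, rfl⟩ := hx
  exact B.add_mem (B.add_mem (B.mul_mem ha h.piB) (B.mul_mem hb h.uB)) (B.mul_mem hc h.wB)

/-- `B ∩ 𝔪_{W₂} ⊆ 𝔫 B` -/
theorem max_of_nu₂ (h : SqgcrHyp B W₁ W₂ ϖ u w hor) {x : F} (hx : x ∈ B)
    (hx₂ : x ∈ W₂.nonunits) : SqgcrMax B ϖ u w x := by
  by_contra hcon
  have h1 := h.loc x hx hcon
  have hx0 : x ≠ 0 := by
    rintro rfl
    exact hcon ⟨0, B.zero_mem, 0, B.zero_mem, 0, B.zero_mem, by ring⟩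
  exact sqgcr_not_nu W₂ hx0 (h.le₂ _ h1) hx₂

/-- THE THETA : `u w = ϖ Θ` -/
theorem exists_theta (h : SqgcrHyp B W₁ W₂ ϖ u w hor) : ∃ Θ ∈ B, u * w = ϖ * Θ := by
  refine h.sat (u * w) (B.mul_mem h.uB h.wB) ?_ ?_
  · rw [mul_comm]; exact sqgcr_nu_mul W₁ (h.le₁ _ h.wB) h.u₁
  · exact sqgcr_nu_mul W₂ (h.le₂ _ h.uB) h.w₂

/-- the regular case : `Θ` a unit -/
theorem regular_of_unit (h : SqgcrHyp B W₁ W₂ ϖ u w hor) {Θ : F} (hΘ : Θ ∈ B)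
    (hΘi : Θ⁻¹ ∈ B) (hΘ0 : Θ ≠ 0) (huw : u * w = ϖ * Θ) :
    (∀ x, SqgcrMax B ϖ u w x → ∃ a ∈ B, ∃ b ∈ B, x = a * u + b * w) ∧
      w⁻¹ ∈ W₁ ∧ ϖ * w⁻¹ ∈ B ∧ w * ϖ⁻¹ ∈ W₂ ∧ u⁻¹ ∈ W₂ ∧ ϖ * u⁻¹ ∈ B ∧ u * ϖ⁻¹ ∈ W₁ := by
  have hϖ : ϖ = u * w * Θ⁻¹ := by
    rw [huw, mul_assoc, mul_inv_cancel₀ hΘ0, mul_one]
  have hu0 : u ≠ 0 := by
    rintro rfl
    rw [zero_mul] at huw
    exact (mul_ne_zero h.pi_ne hΘ0) huw.symm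
  have hw0 : w ≠ 0 := by
    rintro rfl
    rw [mul_zero] at huw
    exact (mul_ne_zero h.pi_ne hΘ0) huw.symm
  -- `w ∉ 𝔪_{W₁}`
  have hw₁ : w ∉ W₁.nonunits := by
    intro hw₁
    obtain ⟨y, hy, hy'⟩ := h.sat w h.wB hw₁ h.w₂
    have h1 : u * y = Θ := by
      have : ϖ * (u * y) = ϖ * Θ := by rw [← huw, hy']; ring
      exact mul_left_cancel₀ h.pi_ne this
    have h2 : SqgcrMax B ϖ u w Θ := by
      rw [← h1, mul_comm]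
      exact sqgcr_max_u.mul_left hy
    have h3 := h2.mul_left hΘi
    rw [inv_mul_cancel₀ hΘ0] at h3
    exact h.one_not h3
  have hu₂ : u ∉ W₂.nonunits := by
    intro hu₂
    obtain ⟨y, hy, hy'⟩ := h.sat u h.uB h.u₁ hu₂
    have h1 : y * w = Θ := by
      have : ϖ * (y * w) = ϖ * Θ := by rw [← huw, hy']; ring
      exact mul_left_cancel₀ h.pi_ne this
    have h2 : SqgcrMax B ϖ u w Θ := by
      rw [← h1]
      exact sqgcr_max_w.mul_left hy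
    have h3 := h2.mul_left hΘi
    rw [inv_mul_cancel₀ hΘ0] at h3
    exact h.one_not h3
  have hwi : w⁻¹ ∈ W₁ := sqgcr_inv_mem W₁ (h.le₁ _ h.wB) hw₁
  have hui : u⁻¹ ∈ W₂ := sqgcr_inv_mem W₂ (h.le₂ _ h.uB) hu₂
  refine ⟨?_, hwi, ?_, ?_, hui, ?_, ?_⟩
  · rintro x ⟨a, ha, b, hb, c, hc, rfl⟩
    refine ⟨a * w * Θ⁻¹ + b, B.add_mem (B.mul_mem (B.mul_mem ha h.wB) hΘi) hb, c, hc, ?_⟩
    rw [hϖ]
    field_simp
  · have : ϖ * w⁻¹ = u * Θ⁻¹ := by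
      rw [hϖ]; field_simp
    rw [this]
    exact B.mul_mem h.uB hΘi
  · have : w * ϖ⁻¹ = Θ * u⁻¹ := by
      have h1 : ϖ⁻¹ = (u * w)⁻¹ * Θ := by
        rw [huw, mul_inv, mul_assoc, inv_mul_cancel₀ hΘ0, mul_one]
      rw [h1]; field_simp
    rw [this]
    exact W₂.mul_mem _ _ (h.le₂ _ hΘ) hui
  · have : ϖ * u⁻¹ = w * Θ⁻¹ := by
      rw [hϖ]; field_simp
    rw [this]
    exact B.mul_mem h.wB hΘi
  · have : u * ϖ⁻¹ = Θ * w⁻¹ := by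
      have h1 : ϖ⁻¹ = (u * w)⁻¹ * Θ := by
        rw [huw, mul_inv, mul_assoc, inv_mul_cancel₀ hΘ0, mul_one]
      rw [h1]; field_simp
    rw [this]
    exact W₁.mul_mem _ _ (h.le₁ _ hΘ) hwi

/-- THE NON-REGULAR CASE IS EXCLUDED by `γ` (divisor `2 W₂`) and the Cartier input (C). -/
theorem theta_unit (h : SqgcrHyp B W₁ W₂ ϖ u w hor) {γ ε : F} (hγ0 : γ ≠ 0)
    (hγ₁ : γ ∈ W₁) (hγ₁i : γ⁻¹ ∈ W₁) (hε : ε ∈ W₂) (hεi : ε⁻¹ ∈ W₂) (hγε : γ = ϖ ^ 2 * ε)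
    (hγh : hor γ) (hγhi : hor γ⁻¹)
    (hC : ∀ v ∈ B, SqgcrMax B ϖ u w v →
      (∀ x, SqgcrMax B ϖ u w x → ∃ c ∈ B, x - c * v ∈ W₁.nonunits) →
      ¬ (γ * v⁻¹ ∈ B ∧ γ⁻¹ * v ∈ B))
    {Θ : F} (hΘ : Θ ∈ B) (huw : u * w = ϖ * Θ) : ¬ SqgcrMax B ϖ u w Θ := by
  rintro ⟨a, ha, b, hb, c, hc, hΘabc⟩
  -- the new coordinates
  set u' : F := u - c * ϖ with hu'
  set w' : F := w - b * ϖ with hw'
  have hu'B : u' ∈ B := B.sub_mem h.uB (B.mul_mem hc h.piB)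
  have hw'B : w' ∈ B := B.sub_mem h.wB (B.mul_mem hb h.piB)
  have hprod : u' * w' = ϖ ^ 2 * (a + b * c) := by
    rw [hu', hw']
    linear_combination huw + ϖ * hΘabc
  have hu'₁ : u' ∈ W₁.nonunits :=
    sqgcr_nu_sub W₁ h.u₁ (sqgcr_nu_mul W₁ (h.le₁ _ hc) h.pi₁)
  have hw'₂ : w' ∈ W₂.nonunits :=
    sqgcr_nu_sub W₂ h.w₂ (sqgcr_nu_mul W₂ (h.le₂ _ hb) h.pi₂)
  -- every element of `𝔫 B` is a combination of `ϖ, u', w'`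
  have hspan : ∀ x, SqgcrMax B ϖ u w x → ∃ a' ∈ B, ∃ b' ∈ B, ∃ c' ∈ B,
      x = a' * ϖ + b' * u' + c' * w' := by
    rintro x ⟨a', ha', b', hb', c', hc', rfl⟩
    refine ⟨a' + b' * c + c' * b, B.add_mem (B.add_mem ha' (B.mul_mem hb' hc)) (B.mul_mem hc' hb),
      b', hb', c', hc', ?_⟩
    rw [hu', hw']; ring
  -- `u' ∉ 𝔪_{W₂}`
  have hu'₂ : u' ∉ W₂.nonunits := by
    intro hcon
    obtain ⟨x, hx, hx₂⟩ := h.nd₂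
    obtain ⟨a', ha', b', hb', c', hc', rfl⟩ := hspan x hx
    exact hx₂ (sqgcr_nu_add W₂ (sqgcr_nu_add W₂ (sqgcr_nu_mul W₂ (h.le₂ _ ha') h.pi₂)
      (sqgcr_nu_mul W₂ (h.le₂ _ hb') hcon)) (sqgcr_nu_mul W₂ (h.le₂ _ hc') hw'₂))
  have hu'i : u'⁻¹ ∈ W₂ := sqgcr_inv_mem W₂ (h.le₂ _ hu'B) hu'₂
  have hu'0 : u' ≠ 0 := by
    intro h0
    apply hu'₂
    rw [h0, W₂.mem_nonunits_iff, map_zero]
    exact zero_lt_one
  have hε0 : ε ≠ 0 := by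
    rintro rfl
    rw [mul_zero] at hγε
    exact hγ0 hγε
  -- `β := w' / γ ∈ B`
  have hβ₂ : w' * γ⁻¹ = (a + b * c) * u'⁻¹ * ε⁻¹ := by
    have h1 : w' = ϖ ^ 2 * (a + b * c) * u'⁻¹ := by
      rw [← hprod, mul_comm u' w', mul_assoc, mul_inv_cancel₀ hu'0, mul_one]
    have hϖ0 : ϖ ≠ 0 := h.pi_ne
    rw [h1, hγε]
    field_simp
  have hβB : w' * γ⁻¹ ∈ B := by
    refine h.gk _ (W₁.mul_mem _ _ (h.le₁ _ hw'B) hγ₁i) ?_ (h.hor_mul _ _ (h.hor_B _ hw'B) hγhi)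
    rw [hβ₂]
    exact W₂.mul_mem _ _ (W₂.mul_mem _ _
      (h.le₂ _ (B.add_mem ha (B.mul_mem hb hc))) hu'i) hεi
  -- `w'` generates `𝔫 B` modulo `𝔪_{W₁}`
  have hgen : ∀ x, SqgcrMax B ϖ u w x → ∃ c' ∈ B, x - c' * w' ∈ W₁.nonunits := by
    intro x hx
    obtain ⟨a', ha', b', hb', c', hc', rfl⟩ := hspan x hx
    refine ⟨c', hc', ?_⟩
    have e : a' * ϖ + b' * u' + c' * w' - c' * w' = a' * ϖ + b' * u' := by ring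
    rw [e]
    exact sqgcr_nu_add W₁ (sqgcr_nu_mul W₁ (h.le₁ _ ha') h.pi₁)
      (sqgcr_nu_mul W₁ (h.le₁ _ hb') hu'₁)
  have hw'γ : w' = γ * (w' * γ⁻¹) := by
    rw [mul_comm w', ← mul_assoc, mul_inv_cancel₀ hγ0, one_mul]
  by_cases hβ : SqgcrMax B ϖ u w (w' * γ⁻¹)
  · -- `β ∈ 𝔫 B` : then `w' ∈ 𝔪_{W₁}`, impossible
    have hγ₂ : γ ∈ W₂.nonunits := by
      rw [hγε, pow_two, mul_assoc]
      rw [mul_comm]
      exact sqgcr_nu_mul W₂ (W₂.mul_mem _ _ (sqgcr_nu_mem W₂ h.pi₂) hε) h.pi₂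
    have hγB : γ ∈ B := h.gk _ hγ₁ (sqgcr_nu_mem W₂ hγ₂) hγh
    have hγM := h.max_of_nu₂ hγB hγ₂
    obtain ⟨c₁, hc₁, hm₁⟩ := hgen γ hγM
    -- `w' (1 - c₁ β) = (γ - c₁ w') β`
    have h1 : w' * (1 - c₁ * (w' * γ⁻¹)) = (γ - c₁ * w') * (w' * γ⁻¹) := by
      have e : γ * (w' * γ⁻¹) = w' := hw'γ.symm
      linear_combination -e
    have h2 : ¬ SqgcrMax B ϖ u w (1 - c₁ * (w' * γ⁻¹)) := by
      intro hcon
      apply h.one_not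
      refine (hcon.add (hβ.mul_left hc₁)).of_eq ?_
      ring
    have h3 := h.loc _ (B.sub_mem B.one_mem (B.mul_mem hc₁ hβB)) h2
    have h10 : (1 - c₁ * (w' * γ⁻¹)) ≠ 0 := by
      intro h0
      apply h2
      rw [h0]
      exact ⟨0, B.zero_mem, 0, B.zero_mem, 0, B.zero_mem, by ring⟩
    have h4 : w' = (γ - c₁ * w') * (w' * γ⁻¹) * (1 - c₁ * (w' * γ⁻¹))⁻¹ := by
      rw [← h1, mul_assoc, mul_inv_cancel₀ h10, mul_one]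
    have hw'₁ : w' ∈ W₁.nonunits := by
      rw [h4, mul_assoc, mul_comm]
      exact sqgcr_nu_mul W₁ (W₁.mul_mem _ _ (h.le₁ _ hβB) (h.le₁ _ h3)) hm₁
    obtain ⟨x, hx, hx₁⟩ := h.nd₁
    obtain ⟨a', ha', b', hb', c', hc', rfl⟩ := hspan x hx
    exact hx₁ (sqgcr_nu_add W₁ (sqgcr_nu_add W₁ (sqgcr_nu_mul W₁ (h.le₁ _ ha') h.pi₁)
      (sqgcr_nu_mul W₁ (h.le₁ _ hb') hu'₁)) (sqgcr_nu_mul W₁ (h.le₁ _ hc') hw'₁))
  · -- `β` a unit : contradiction with (C)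
    have hβi := h.loc _ hβB hβ
    have hw'0 : w' ≠ 0 := by
      intro h0
      apply hβ
      rw [h0, zero_mul]
      exact ⟨0, B.zero_mem, 0, B.zero_mem, 0, B.zero_mem, by ring⟩
    have hw'M : SqgcrMax B ϖ u w w' :=
      ⟨-b, B.neg_mem hb, 0, B.zero_mem, 1, B.one_mem, by rw [hw']; ring⟩
    refine hC w' hw'B hw'M hgen ⟨?_, ?_⟩
    · have : γ * w'⁻¹ = (w' * γ⁻¹)⁻¹ := by
        rw [mul_inv, inv_inv, mul_comm]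
      rw [this]
      exact hβi
    · rw [mul_comm]
      exact hβB

/-- **REGULARITY OF THE CROSSING POINT** (thickness one). -/
theorem regular (h : SqgcrHyp B W₁ W₂ ϖ u w hor) {γ ε : F} (hγ0 : γ ≠ 0)
    (hγ₁ : γ ∈ W₁) (hγ₁i : γ⁻¹ ∈ W₁) (hε : ε ∈ W₂) (hεi : ε⁻¹ ∈ W₂) (hγε : γ = ϖ ^ 2 * ε)
    (hγh : hor γ) (hγhi : hor γ⁻¹)
    (hC : ∀ v ∈ B, SqgcrMax B ϖ u w v →
      (∀ x, SqgcrMax B ϖ u w x → ∃ c ∈ B, x - c * v ∈ W₁.nonunits) →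
      ¬ (γ * v⁻¹ ∈ B ∧ γ⁻¹ * v ∈ B)) :
    (∃ Θ ∈ B, Θ⁻¹ ∈ B ∧ Θ ≠ 0 ∧ u * w = ϖ * Θ) ∧
    (∀ x, SqgcrMax B ϖ u w x → ∃ a ∈ B, ∃ b ∈ B, x = a * u + b * w) ∧
      w⁻¹ ∈ W₁ ∧ ϖ * w⁻¹ ∈ B ∧ w * ϖ⁻¹ ∈ W₂ ∧ u⁻¹ ∈ W₂ ∧ ϖ * u⁻¹ ∈ B ∧ u * ϖ⁻¹ ∈ W₁ := by
  obtain ⟨Θ, hΘ, huw⟩ := h.exists_theta
  have hΘM := h.theta_unit hγ0 hγ₁ hγ₁i hε hεi hγε hγh hγhi hC hΘ huw
  have hΘi := h.loc Θ hΘ hΘM
  have hΘ0 : Θ ≠ 0 := by
    rintro rfl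
    exact hΘM ⟨0, B.zero_mem, 0, B.zero_mem, 0, B.zero_mem, by ring⟩
  exact ⟨⟨Θ, hΘ, hΘi, hΘ0, huw⟩, h.regular_of_unit hΘ hΘi hΘ0 huw⟩

end SqgcrHyp

end Fermat.Agent.SQ
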