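import Mathlib
import Fermat.Agent.SS.Geo.CuspLoc

/-!
# Program Q (S36), package SQ/Germ : THE CUSPS OF LEVEL `q²` (abstract half, prefix `sqgcu`)

Chart at infinity : `t` the coordinate (`t = j`), `s = t⁻¹`, `Q = s18tInt A t⁻¹`, `𝔫` a prime of `Q`
containing `s` (a cusp point).  Tower `t ↦ y ↦ z` (`y = j(𝐪^q)`, `z = j(𝐪^{q²})`), each step with a
modular-type equation `SqgcuRel` (the L7-DEG shape of Program S : `∑ ξᵢ(t) yⁱ = 0`, `ξ_{q+1} = 1`,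
`deg ξ₀ ≤ q+1` with unit top coefficient, `deg ξᵢ ≤ q` for `1 ≤ i ≤ q`).

* `SqgcuRel.sep_mem`   : `s^q y ∈ Q`;
* `SqgcuRel.inv_mem_loc`, `SqgcuRel.int_le_loc` : `y⁻¹ ∈ Q_𝔫`, `s18tInt A y⁻¹ ⊆ Q_𝔫`;
* `SqgcuRel.pole`      : `y⁻¹ ∈ 𝔫 Q_𝔫` (EVERY cusp point is a pole of `y`);
* `sqgcu_chart`        : CHANGE OF CHART : if `s' ∈ 𝔫 Q_𝔫` then the local ring of the chart `s'` at the
  prime `𝔫'' = s18tInt A s' ∩ 𝔫 Q_𝔫 ∋ s'` lies in `Q_𝔫` (and its maximal ideal in `𝔫 Q_𝔫`);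
* `sqgcu_pole₂`, `sqgcu_int_le_loc₂`, `sqgcu_sep₂` : two steps : `z⁻¹ ∈ 𝔫 Q_𝔫`,
  `s18tInt A z⁻¹ ⊆ Q_𝔫` (this is `hloc₂` of `sqgm_germ_simple` : `β₂ (s18tInt A₀ t₀⁻¹) ⊆ Q_𝔫`),
  `y^{-q} z ∈ Q_𝔫`;
* `sqgcu_no_cross₁₂`, `sqgcu_no_cross₃` : NO CUSP POINT LIES ON TWO COMPONENTS
  (`h12`, `h13`, `h23` of `sqgm_germ_simple`).
-/

set_option autoImplicit false
set_option linter.unusedSectionVars false
set_option linter.unusedVariables false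
set_option linter.style.haveILetI false

noncomputable section

namespace Fermat.Agent.SQ

open Polynomial Fermat.Agent.S18 Fermat.Agent.SS IsLocalRing

universe u

variable {A : Type*} [CommRing A] [IsDomain A] [IsDiscreteValuationRing A] [CharZero A]
variable {F : Type u} [Field F] [Algebra A F]

/-! ### the maximal ideal of `P_𝔫` as a predicate -/

section Max

variable {t : F} {𝔫 : Ideal ↥(s18tInt A t)} [h𝔫 : 𝔫.IsPrime]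

theorem sqgcu_inMax_of_mem {p : ↥(s18tInt A t)} (hp : p ∈ 𝔫) : SsInMax t 𝔫 (p : F) :=
  ⟨1, fun h => h𝔫.ne_top ((Ideal.eq_top_iff_one _).mpr h), p, hp, by
    rw [OneMemClass.coe_one, one_mul]⟩

theorem sqgcu_inMax_iff {x : F} (hx : x ∈ ssLocRing t 𝔫) :
    SsInMax t 𝔫 x ↔ (⟨x, hx⟩ : ↥(ssLocRing t 𝔫)) ∈ maximalIdeal ↥(ssLocRing t 𝔫) :=
  (ssl_mem_maximalIdeal t 𝔫 ⟨x, hx⟩).symm

theorem sqgcu_inMax_mul {x y : F} (hx : x ∈ ssLocRing t 𝔫) (hy : SsInMax t 𝔫 y) :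
    SsInMax t 𝔫 (x * y) := by
  have hyR : y ∈ ssLocRing t 𝔫 := hy.inLoc
  have h1 := (sqgcu_inMax_iff hyR).mp hy
  have h2 := Ideal.mul_mem_left _ (⟨x, hx⟩ : ↥(ssLocRing t 𝔫)) h1
  exact (sqgcu_inMax_iff (Subring.mul_mem _ hx hyR)).mpr h2

theorem sqgcu_inMax_add {x y : F} (hx : SsInMax t 𝔫 x) (hy : SsInMax t 𝔫 y) :
    SsInMax t 𝔫 (x + y) := by
  have hxR : x ∈ ssLocRing t 𝔫 := hx.inLoc
  have hyR : y ∈ ssLocRing t 𝔫 := hy.inLoc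
  have h := Ideal.add_mem _ ((sqgcu_inMax_iff hxR).mp hx) ((sqgcu_inMax_iff hyR).mp hy)
  exact (sqgcu_inMax_iff (Subring.add_mem _ hxR hyR)).mpr h

theorem sqgcu_inMax_neg {x : F} (hx : SsInMax t 𝔫 x) : SsInMax t 𝔫 (-x) := by
  have hxR : x ∈ ssLocRing t 𝔫 := hx.inLoc
  have h := Ideal.neg_mem_iff _ |>.mpr ((sqgcu_inMax_iff hxR).mp hx)
  exact (sqgcu_inMax_iff (Subring.neg_mem _ hxR)).mpr h

theorem sqgcu_inMax_sub {x y : F} (hx : SsInMax t 𝔫 x) (hy : SsInMax t 𝔫 y) :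
    SsInMax t 𝔫 (x - y) := by
  rw [sub_eq_add_neg]
  exact sqgcu_inMax_add hx (sqgcu_inMax_neg hy)

theorem sqgcu_inMax_of_pow {x : F} (hx : x ∈ ssLocRing t 𝔫) (n : ℕ) (h : SsInMax t 𝔫 (x ^ n)) :
    SsInMax t 𝔫 x := by
  have h1 : (⟨x, hx⟩ : ↥(ssLocRing t 𝔫)) ^ n ∈ maximalIdeal ↥(ssLocRing t 𝔫) :=
    (sqgcu_inMax_iff (Subring.pow_mem _ hx n)).mp h
  exact (sqgcu_inMax_iff hx).mpr ((maximalIdeal.isMaximal _).isPrime.mem_of_pow_mem n h1)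

theorem sqgcu_not_inMax_one : ¬ SsInMax t 𝔫 (1 : F) := by
  intro h
  have h1 : (1 : ↥(ssLocRing t 𝔫)) ∈ maximalIdeal ↥(ssLocRing t 𝔫) :=
    (sqgcu_inMax_iff (Subring.one_mem _)).mp h
  exact (maximalIdeal.isMaximal _).ne_top ((Ideal.eq_top_iff_one _).mpr h1)

/-- the inverse of an element of `P ∖ 𝔫` lies in `P_𝔫` -/
theorem sqgcu_inv_mem_loc {σ : ↥(s18tInt A t)} (hσ : σ ∉ 𝔫) : (σ : F)⁻¹ ∈ ssLocRing t 𝔫 := by
  have hσ0 : (σ : F) ≠ 0 := fun h => hσ (by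
    have : σ = 0 := Subtype.ext h
    rw [this]; exact 𝔫.zero_mem)
  exact ⟨σ, hσ, by rw [mul_inv_cancel₀ hσ0]; exact Subring.one_mem _⟩

/-- an element of `P_𝔫` outside `𝔫 P_𝔫` is a unit of `P_𝔫` -/
theorem sqgcu_inv_mem_of_not_inMax {x : F} (hx : x ∈ ssLocRing t 𝔫) (h : ¬ SsInMax t 𝔫 x) :
    x⁻¹ ∈ ssLocRing t 𝔫 := by
  have h1 : (⟨x, hx⟩ : ↥(ssLocRing t 𝔫)) ∉ maximalIdeal ↥(ssLocRing t 𝔫) := fun h' =>
    h ((sqgcu_inMax_iff hx).mpr h')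
  have hu : IsUnit (⟨x, hx⟩ : ↥(ssLocRing t 𝔫)) := by
    by_contra hnu
    exact h1 ((mem_maximalIdeal _).mpr hnu)
  obtain ⟨w, hw⟩ := hu.exists_right_inv
  have hxw : x * (w : F) = 1 := congrArg (fun z : ↥(ssLocRing t 𝔫) => (z : F)) hw
  have hx0 : x ≠ 0 := fun h0 => by rw [h0, zero_mul] at hxw; exact zero_ne_one hxw
  have : x⁻¹ = (w : F) := by
    rw [← mul_one x⁻¹, ← hxw, ← mul_assoc, inv_mul_cancel₀ hx0, one_mul]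
  rw [this]
  exact w.2

/-- `a b ∈ 𝔪_V` for `a ∈ V`, `b ∈ 𝔪_V` -/
theorem sqgcu_nu_mul (V : ValuationSubring F) {a b : F} (ha : a ∈ V) (hb : b ∈ V.nonunits) :
    a * b ∈ V.nonunits := by
  rw [V.mem_nonunits_iff] at hb ⊢
  rw [map_mul]
  have ha' := (V.valuation_le_one_iff a).mpr ha
  calc V.valuation a * V.valuation b ≤ 1 * V.valuation b := mul_le_mul_left ha' _
    _ = V.valuation b := one_mul _
    _ < 1 := hb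

/-- if `𝔫` lies on the component `V` then `P_𝔫 ∩ 𝔪_V ⊆ 𝔫 P_𝔫` -/
theorem sqgcu_inMax_of_on (V : ValuationSubring F) (hQ : ∀ x ∈ s18tInt A t, x ∈ V)
    (hon : ∀ p : ↥(s18tInt A t), (p : F) ∈ V.nonunits → p ∈ 𝔫) {x : F}
    (hx : x ∈ ssLocRing t 𝔫) (hxV : x ∈ V.nonunits) : SsInMax t 𝔫 x := by
  obtain ⟨σ, hσ, hσx⟩ := hx
  exact ⟨σ, hσ, ⟨(σ : F) * x, hσx⟩, hon _ (sqgcu_nu_mul V (hQ _ σ.2) hxV), rfl⟩

/-- if `𝔫` lies on the component `V` then `P_𝔫 ⊆ V` -/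
theorem sqgcu_loc_le_of_on (V : ValuationSubring F) (hQ : ∀ x ∈ s18tInt A t, x ∈ V)
    (hon : ∀ p : ↥(s18tInt A t), (p : F) ∈ V.nonunits → p ∈ 𝔫) {x : F}
    (hx : x ∈ ssLocRing t 𝔫) : x ∈ V := by
  obtain ⟨σ, hσ, hσx⟩ := hx
  have hσV : (σ : F) ∈ V := hQ _ σ.2
  have hσnu : (σ : F) ∉ V.nonunits := fun h => hσ (hon σ h)
  have hσ1 : V.valuation (σ : F) = 1 := by
    rw [V.mem_nonunits_iff, not_lt] at hσnu
    exact le_antisymm ((V.valuation_le_one_iff _).mpr hσV) hσnu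
  have h1 : V.valuation ((σ : F) * x) ≤ 1 := (V.valuation_le_one_iff _).mpr (hQ _ hσx)
  rw [map_mul, hσ1, one_mul] at h1
  exact (V.valuation_le_one_iff _).mp h1

end Max

/-! ### the pole lemma in raw form -/

/-- `y⁻¹ ∈ 𝔫' Q_𝔫'` at every prime `𝔫' ∋ s` : raw form (`deg p i ≤ q` for `1 ≤ i`, so that the
reflected coefficients `cᵢ(s)`, `i ≥ 1`, are divisible by `s`). -/
theorem sqgcu_pole_aux (s y : F) (hs0 : s ≠ 0) (q : ℕ) (p : ℕ → A[X])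
    (hrel : ∑ i ∈ Finset.range (q + 2), aeval s⁻¹ (p i) * y ^ i = 0)
    (hdeg : ∀ i, (p i).natDegree ≤ q + 1)
    (hpos : ∀ i, 1 ≤ i → (p i).natDegree ≤ q)
    (hlead : IsUnit ((p 0).coeff (q + 1)))
    (𝔫 : Ideal ↥(s18tInt A s)) [h𝔫 : 𝔫.IsPrime]
    (hcusp : (⟨s, s18tc_self_mem_int s⟩ : ↥(s18tInt A s)) ∈ 𝔫) :
    SsInMax s 𝔫 y⁻¹ := by
  rcases eq_or_ne y 0 with hy | hy
  · rw [hy, inv_zero]
    have := sqgcu_inMax_of_mem (t := s) (𝔫 := 𝔫) 𝔫.zero_mem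
    simpa using this
  set r : ℕ → A[X] := fun i => reflect (q + 1) (p i) with hr
  have hsum : ∑ i ∈ Finset.range (q + 2), aeval s (r i) * y ^ i = 0 :=
    ssgcl_rel_reflect s y hs0 q p hrel hdeg
  have huR : y⁻¹ ∈ ssLocRing s 𝔫 := ssgcl_inv_mem_locRing s y hs0 q p hrel hdeg hlead 𝔫 hcusp
  have hsMax : SsInMax s 𝔫 s := sqgcu_inMax_of_mem (t := s) (𝔫 := 𝔫) hcusp
  -- `r i` is divisible by `X` for `1 ≤ i`
  have hdiv : ∀ i, 1 ≤ i → aeval s (r i) = s * aeval s (r i).divX := by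
    intro i hi
    have h0 : (r i).coeff 0 = 0 := by
      rw [hr]
      simp only
      rw [coeff_reflect, revAt_le (Nat.zero_le _), Nat.sub_zero]
      exact coeff_eq_zero_of_natDegree_lt (Nat.lt_succ_of_le (hpos i hi))
    conv_lhs => rw [← X_mul_divX_add (r i), h0, C_0, add_zero]
    rw [map_mul, aeval_X]
  -- the unit `c₀ = aeval s (r 0)`
  have hc : IsUnit ((r 0).coeff 0) := by
    rw [hr]
    simp only
    rw [coeff_reflect, revAt_le (Nat.zero_le _), Nat.sub_zero]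
    exact hlead
  have hc₀ : (⟨aeval s (r 0), ssgcl_aeval_mem_int s (r 0)⟩ : ↥(s18tInt A s)) ∉ 𝔫 :=
    ssgcl_lead_not_mem s (r 0) hc 𝔫 hcusp
  have hc₀inv : (aeval s (r 0))⁻¹ ∈ ssLocRing s 𝔫 := sqgcu_inv_mem_loc hc₀
  have hc₀ne : aeval s (r 0) ≠ 0 := fun h0 => hc₀ (by
    have : (⟨aeval s (r 0), ssgcl_aeval_mem_int s (r 0)⟩ : ↥(s18tInt A s)) = 0 := Subtype.ext h0
    rw [this]; exact 𝔫.zero_mem)
  -- the equation multiplied by `u^(q+1)`, `u = y⁻¹`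
  set u : F := y⁻¹ with hu
  have huy : u * y = 1 := inv_mul_cancel₀ hy
  set T : F := ∑ i ∈ Finset.range (q + 1), aeval s (r (i + 1)).divX * u ^ (q - i) with hT
  have hTR : T ∈ ssLocRing s 𝔫 := by
    rw [hT]
    refine Subring.sum_mem _ fun i _ => Subring.mul_mem _ ?_ (Subring.pow_mem _ huR _)
    exact ssl_int_le_locRing s 𝔫 (ssgcl_aeval_mem_int s _)
  have key : aeval s (r 0) * u ^ (q + 1) + s * T = 0 := by
    have h0 : u ^ (q + 1) * (∑ i ∈ Finset.range (q + 2), aeval s (r i) * y ^ i) = 0 := by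
      rw [hsum, mul_zero]
    rw [Finset.sum_range_succ', mul_add, Finset.mul_sum] at h0
    rw [← h0, hT, Finset.mul_sum, add_comm]
    congr 1
    · refine Finset.sum_congr rfl fun i hi => ?_
      rw [Finset.mem_range] at hi
      rw [hdiv (i + 1) (by omega)]
      have e : u ^ (q + 1) = u ^ (q - i) * u ^ (i + 1) := by
        rw [← pow_add]; congr 1; omega
      have e' : u ^ (i + 1) * y ^ (i + 1) = 1 := by rw [← mul_pow, huy, one_pow]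
      calc s * (aeval s (r (i + 1)).divX * u ^ (q - i))
          = s * aeval s (r (i + 1)).divX * u ^ (q - i) * (u ^ (i + 1) * y ^ (i + 1)) := by
            rw [e', mul_one]; ring
        _ = u ^ (q + 1) * (s * aeval s (r (i + 1)).divX * y ^ (i + 1)) := by rw [e]; ring
    · rw [pow_zero, mul_one, mul_comm]
  -- `u^(q+1) = (- T / c₀) * s`
  have hpow : u ^ (q + 1) = (-(aeval s (r 0))⁻¹ * T) * s := by
    have h1 : aeval s (r 0) * u ^ (q + 1) = -(s * T) := eq_neg_of_add_eq_zero_left key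
    have h2 : u ^ (q + 1) = (aeval s (r 0))⁻¹ * (aeval s (r 0) * u ^ (q + 1)) := by
      rw [← mul_assoc, inv_mul_cancel₀ hc₀ne, one_mul]
    rw [h2, h1]; ring
  refine sqgcu_inMax_of_pow huR (q + 1) ?_
  rw [hpow]
  exact sqgcu_inMax_mul (Subring.mul_mem _ (Subring.neg_mem _ hc₀inv) hTR) hsMax

/-! ### one step of the tower -/

/-- THE MODULAR-TYPE EQUATION of `y` over `A[t]` (the L7-DEG shape of Program S). -/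
structure SqgcuRel (A : Type*) [CommRing A] {F : Type*} [Field F] [Algebra A F] (t y : F) (q : ℕ)
    (p : ℕ → A[X]) : Prop where
  rel : ∑ i ∈ Finset.range (q + 2), aeval t (p i) * y ^ i = 0
  monic : p (q + 1) = 1
  deg₀ : (p 0).natDegree ≤ q + 1
  mid : ∀ i, 1 ≤ i → i ≤ q → (p i).natDegree ≤ q
  lead : IsUnit ((p 0).coeff (q + 1))

/-- the family of coefficients, cut off above `q + 1` -/
def sqgcuCut (q : ℕ) (p : ℕ → A[X]) : ℕ → A[X] := fun i => if i ≤ q + 1 then p i else 0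

theorem sqgcuCut_of_le {q : ℕ} (p : ℕ → A[X]) {i : ℕ} (hi : i ≤ q + 1) : sqgcuCut q p i = p i := by
  unfold sqgcuCut
  simp [hi]

theorem sqgcuCut_of_lt {q : ℕ} (p : ℕ → A[X]) {i : ℕ} (hi : q + 1 < i) : sqgcuCut q p i = 0 := by
  unfold sqgcuCut
  simp [not_le.mpr hi]

section Step

variable {t y : F} {q : ℕ} {p : ℕ → A[X]}

theorem SqgcuRel.cut (h : SqgcuRel A t y q p) : SqgcuRel A t y q (sqgcuCut q p) := by
  refine ⟨?_, ?_, ?_, ?_, ?_⟩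
  · rw [← h.rel]
    refine Finset.sum_congr rfl fun i hi => ?_
    rw [Finset.mem_range] at hi
    rw [sqgcuCut_of_le p (by omega)]
  · rw [sqgcuCut_of_le p le_rfl]; exact h.monic
  · rw [sqgcuCut_of_le p (Nat.zero_le _)]; exact h.deg₀
  · intro i h1 h2
    rw [sqgcuCut_of_le p (by omega)]; exact h.mid i h1 h2
  · rw [sqgcuCut_of_le p (Nat.zero_le _)]; exact h.lead

theorem SqgcuRel.cut_deg (h : SqgcuRel A t y q p) (i : ℕ) :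
    (sqgcuCut q p i).natDegree ≤ q + 1 := by
  by_cases hi : i ≤ q + 1
  · rw [sqgcuCut_of_le p hi]
    rcases Nat.eq_zero_or_pos i with h0 | h0
    · rw [h0]; exact h.deg₀
    · rcases Nat.lt_or_ge i (q + 1) with h1 | h1
      · exact (h.mid i h0 (by omega)).trans (Nat.le_succ q)
      · have : i = q + 1 := by omega
        rw [this, h.monic, natDegree_one]
        exact Nat.zero_le _
  · rw [sqgcuCut_of_lt p (by omega), natDegree_zero]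
    exact Nat.zero_le _

theorem SqgcuRel.cut_deg_pos (h : SqgcuRel A t y q p) (i : ℕ) (hi : 1 ≤ i) :
    (sqgcuCut q p i).natDegree ≤ q := by
  by_cases hi' : i ≤ q + 1
  · rw [sqgcuCut_of_le p hi']
    rcases Nat.lt_or_ge i (q + 1) with h1 | h1
    · exact h.mid i hi (by omega)
    · have : i = q + 1 := by omega
      rw [this, h.monic, natDegree_one]
      exact Nat.zero_le _
  · rw [sqgcuCut_of_lt p (by omega), natDegree_zero]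
    exact Nat.zero_le _

/-- the relation with `t = (t⁻¹)⁻¹` -/
theorem SqgcuRel.rel_inv (h : SqgcuRel A t y q p) :
    ∑ i ∈ Finset.range (q + 2), aeval (t⁻¹)⁻¹ (p i) * y ^ i = 0 := by
  rw [inv_inv]; exact h.rel

/-- the separating function `s^q y` lies in `Q = s18tInt A s`, `s = t⁻¹` -/
theorem SqgcuRel.sep_mem (h : SqgcuRel A t y q p) (ht : t ≠ 0) (hq : 1 ≤ q) :
    t⁻¹ ^ q * y ∈ s18tInt A t⁻¹ := by
  refine ssgc_sep_mem t⁻¹ y (inv_ne_zero ht) q p h.rel_inv h.monic ?_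
  intro i hi
  rcases Nat.eq_zero_or_pos i with h0 | h0
  · rw [h0, Nat.sub_zero]
    refine h.deg₀.trans ?_
    exact Nat.le_mul_of_pos_left _ hq
  · refine (h.mid i h0 hi).trans ?_
    exact Nat.le_mul_of_pos_right _ (by omega)

variable (𝔫 : Ideal ↥(s18tInt A t⁻¹)) [h𝔫 : 𝔫.IsPrime]

/-- `y⁻¹ ∈ Q_𝔫` at every cusp point `𝔫 ∋ s` -/
theorem SqgcuRel.inv_mem_loc (h : SqgcuRel A t y q p) (ht : t ≠ 0)
    (hcusp : (⟨t⁻¹, s18tc_self_mem_int t⁻¹⟩ : ↥(s18tInt A t⁻¹)) ∈ 𝔫) :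
    y⁻¹ ∈ ssLocRing t⁻¹ 𝔫 := by
  refine ssgcl_inv_mem_locRing t⁻¹ y (inv_ne_zero ht) q (sqgcuCut q p) h.cut.rel_inv h.cut_deg ?_
    𝔫 hcusp
  rw [sqgcuCut_of_le p (Nat.zero_le _)]; exact h.lead

/-- the chart ring of `y⁻¹` lies in `Q_𝔫` at every cusp point `𝔫 ∋ s` -/
theorem SqgcuRel.int_le_loc (h : SqgcuRel A t y q p) (ht : t ≠ 0)
    (hcusp : (⟨t⁻¹, s18tc_self_mem_int t⁻¹⟩ : ↥(s18tInt A t⁻¹)) ∈ 𝔫) :
    ∀ x ∈ s18tInt A y⁻¹, x ∈ ssLocRing t⁻¹ 𝔫 := by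
  intro x hx
  refine ssgcl_integral_mem_locRing t⁻¹ y (inv_ne_zero ht) q (sqgcuCut q p) h.cut.rel_inv
    h.cut.monic h.cut_deg ?_ 𝔫 hcusp x hx
  rw [sqgcuCut_of_le p (Nat.zero_le _)]; exact h.lead

/-- **EVERY CUSP POINT IS A POLE OF `y`** : `y⁻¹ ∈ 𝔫 Q_𝔫`. -/
theorem SqgcuRel.pole (h : SqgcuRel A t y q p) (ht : t ≠ 0)
    (hcusp : (⟨t⁻¹, s18tc_self_mem_int t⁻¹⟩ : ↥(s18tInt A t⁻¹)) ∈ 𝔫) :
    SsInMax t⁻¹ 𝔫 y⁻¹ := by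
  refine sqgcu_pole_aux t⁻¹ y (inv_ne_zero ht) q (sqgcuCut q p) h.cut.rel_inv h.cut_deg
    h.cut_deg_pos ?_ 𝔫 hcusp
  rw [sqgcuCut_of_le p (Nat.zero_le _)]; exact h.lead

end Step

/-! ### change of chart -/

section Chart

variable {s : F} (𝔫 : Ideal ↥(s18tInt A s)) [h𝔫 : 𝔫.IsPrime]

/-- if `s' ∈ Q_𝔫` then the chart ring of `s'` lies in `Q_𝔫` -/
theorem sqgcu_int_le_loc_of_mem {s' : F} (hs' : s' ∈ ssLocRing s 𝔫) :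
    ∀ x ∈ s18tInt A s', x ∈ ssLocRing s 𝔫 := by
  have hle : ∀ z ∈ Algebra.adjoin A {s'}, z ∈ ssLocRing s 𝔫 := by
    intro z hz
    induction hz using Algebra.adjoin_induction with
    | mem x hx =>
      rw [Set.mem_singleton_iff] at hx
      rw [hx]; exact hs'
    | algebraMap a => exact ssl_int_le_locRing s 𝔫 (ssgcl_algebraMap_mem_int s a)
    | add x y _ _ hx hy => exact Subring.add_mem _ hx hy
    | mul x y _ _ hx hy => exact Subring.mul_mem _ hx hy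
  intro x hx
  have hx' : IsIntegral (Algebra.adjoin A {s'}) x := hx
  let f : ↥(Algebra.adjoin A {s'}) →+* ↥(ssLocRing s 𝔫) :=
    (Algebra.adjoin A {s'}).val.toRingHom.codRestrict (ssLocRing s 𝔫) (fun z => hle z z.2)
  have hf : (algebraMap ↥(ssLocRing s 𝔫) F).comp f = algebraMap ↥(Algebra.adjoin A {s'}) F :=
    RingHom.ext fun _ => rfl
  apply ssgcl_locRing_intClosed s 𝔫
  obtain ⟨P, hP, hPx⟩ := hx'
  refine ⟨P.map f, hP.map f, ?_⟩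
  rw [eval₂_map, hf]
  exact hPx

/-- **CHANGE OF CHART** : if `s' ∈ 𝔫 Q_𝔫` there is a prime `𝔫'' ∋ s'` of the chart ring of `s'` whose
local ring lies in `Q_𝔫`, maximal ideal in maximal ideal. -/
theorem sqgcu_chart {s' : F} (hs' : SsInMax s 𝔫 s') :
    ∃ 𝔫'' : Ideal ↥(s18tInt A s'), ∃ _ : 𝔫''.IsPrime,
      (⟨s', s18tc_self_mem_int s'⟩ : ↥(s18tInt A s')) ∈ 𝔫'' ∧
      (∀ x, x ∈ ssLocRing s' 𝔫'' → x ∈ ssLocRing s 𝔫) ∧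
      (∀ x, SsInMax s' 𝔫'' x → SsInMax s 𝔫 x) := by
  have hle := sqgcu_int_le_loc_of_mem 𝔫 hs'.inLoc
  let ι : ↥(s18tInt A s') →+* ↥(ssLocRing s 𝔫) :=
    (s18tInt A s').subtype.codRestrict (ssLocRing s 𝔫) (fun z => hle z z.2)
  have hι : ∀ z : ↥(s18tInt A s'), ((ι z : ↥(ssLocRing s 𝔫)) : F) = (z : F) := fun _ => rfl
  set 𝔫'' : Ideal ↥(s18tInt A s') := (maximalIdeal ↥(ssLocRing s 𝔫)).comap ι with h𝔫''
  have hprime : 𝔫''.IsPrime := Ideal.comap_isPrime ι _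
  have hmem : ∀ z : ↥(s18tInt A s'), z ∈ 𝔫'' ↔ SsInMax s 𝔫 (z : F) := by
    intro z
    rw [h𝔫'', Ideal.mem_comap, ssl_mem_maximalIdeal, hι]
  have hloc : ∀ x, x ∈ ssLocRing s' 𝔫'' → x ∈ ssLocRing s 𝔫 := by
    rintro x ⟨σ, hσ, hσx⟩
    have hσR : (σ : F) ∈ ssLocRing s 𝔫 := hle _ σ.2
    have hσinv : (σ : F)⁻¹ ∈ ssLocRing s 𝔫 :=
      sqgcu_inv_mem_of_not_inMax hσR (fun h => hσ ((hmem σ).mpr h))
    have hσ0 : (σ : F) ≠ 0 := fun h0 => hσ (by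
      have : σ = 0 := Subtype.ext h0
      rw [this]; exact 𝔫''.zero_mem)
    have : x = (σ : F)⁻¹ * ((σ : F) * x) := by
      rw [← mul_assoc, inv_mul_cancel₀ hσ0, one_mul]
    rw [this]
    exact Subring.mul_mem _ hσinv (hle _ hσx)
  refine ⟨𝔫'', hprime, (hmem _).mpr hs', hloc, ?_⟩
  rintro x ⟨σ, hσ, p, hp, hσx⟩
  have hσR : (σ : F) ∈ ssLocRing s 𝔫 := hle _ σ.2
  have hσinv : (σ : F)⁻¹ ∈ ssLocRing s 𝔫 :=
    sqgcu_inv_mem_of_not_inMax hσR (fun h => hσ ((hmem σ).mpr h))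
  have hσ0 : (σ : F) ≠ 0 := fun h0 => hσ (by
    have : σ = 0 := Subtype.ext h0
    rw [this]; exact 𝔫''.zero_mem)
  have : x = (σ : F)⁻¹ * (p : F) := by
    rw [← hσx, ← mul_assoc, inv_mul_cancel₀ hσ0, one_mul]
  rw [this]
  exact sqgcu_inMax_mul hσinv ((hmem p).mp hp)

end Chart

/-! ### two steps of the tower -/

section Two

variable {t y z : F} {q : ℕ} {p p' : ℕ → A[X]}
variable (𝔫 : Ideal ↥(s18tInt A t⁻¹)) [h𝔫 : 𝔫.IsPrime]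

/-- `z⁻¹ ∈ 𝔫 Q_𝔫`, `s18tInt A z⁻¹ ⊆ Q_𝔫` and `y^{-q} z ∈ Q_𝔫` at every cusp point `𝔫 ∋ s`. -/
theorem sqgcu_two (h₁ : SqgcuRel A t y q p) (h₂ : SqgcuRel A y z q p') (ht : t ≠ 0) (hy : y ≠ 0)
    (hq : 1 ≤ q) (hcusp : (⟨t⁻¹, s18tc_self_mem_int t⁻¹⟩ : ↥(s18tInt A t⁻¹)) ∈ 𝔫) :
    SsInMax t⁻¹ 𝔫 z⁻¹ ∧ (∀ x ∈ s18tInt A z⁻¹, x ∈ ssLocRing t⁻¹ 𝔫) ∧
      y⁻¹ ^ q * z ∈ ssLocRing t⁻¹ 𝔫 := by
  obtain ⟨𝔫'', hprime, hmem, hloc, hmax⟩ := sqgcu_chart 𝔫 (h₁.pole 𝔫 ht hcusp)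
  haveI := hprime
  refine ⟨hmax _ (h₂.pole 𝔫'' hy hmem), fun x hx => hloc _ (h₂.int_le_loc 𝔫'' hy hmem x hx), ?_⟩
  exact hloc _ (ssl_int_le_locRing y⁻¹ 𝔫'' (h₂.sep_mem hy hq))

/-- `z⁻¹ ∈ 𝔫 Q_𝔫` -/
theorem sqgcu_pole₂ (h₁ : SqgcuRel A t y q p) (h₂ : SqgcuRel A y z q p') (ht : t ≠ 0) (hy : y ≠ 0)
    (hq : 1 ≤ q) (hcusp : (⟨t⁻¹, s18tc_self_mem_int t⁻¹⟩ : ↥(s18tInt A t⁻¹)) ∈ 𝔫) :
    SsInMax t⁻¹ 𝔫 z⁻¹ :=
  (sqgcu_two 𝔫 h₁ h₂ ht hy hq hcusp).1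

/-- `hloc₂` : the chart ring of `z⁻¹` lies in `Q_𝔫` -/
theorem sqgcu_int_le_loc₂ (h₁ : SqgcuRel A t y q p) (h₂ : SqgcuRel A y z q p') (ht : t ≠ 0)
    (hy : y ≠ 0) (hq : 1 ≤ q)
    (hcusp : (⟨t⁻¹, s18tc_self_mem_int t⁻¹⟩ : ↥(s18tInt A t⁻¹)) ∈ 𝔫) :
    ∀ x ∈ s18tInt A z⁻¹, x ∈ ssLocRing t⁻¹ 𝔫 :=
  (sqgcu_two 𝔫 h₁ h₂ ht hy hq hcusp).2.1

/-- the second separating function `y^{-q} z` lies in `Q_𝔫` -/
theorem sqgcu_sep₂ (h₁ : SqgcuRel A t y q p) (h₂ : SqgcuRel A y z q p') (ht : t ≠ 0) (hy : y ≠ 0)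
    (hq : 1 ≤ q) (hcusp : (⟨t⁻¹, s18tc_self_mem_int t⁻¹⟩ : ↥(s18tInt A t⁻¹)) ∈ 𝔫) :
    y⁻¹ ^ q * z ∈ ssLocRing t⁻¹ 𝔫 :=
  (sqgcu_two 𝔫 h₁ h₂ ht hy hq hcusp).2.2

/-- **NO CUSP POINT LIES ON `V₁` AND ON `V₂`** (`z ≡ y^q` on `V₁`, `z^q ≡ y` on `V₂`). -/
theorem sqgcu_no_cross₁₂ (h₁ : SqgcuRel A t y q p) (h₂ : SqgcuRel A y z q p') (ht : t ≠ 0)
    (hy : y ≠ 0) (hq : 2 ≤ q)
    (hcusp : (⟨t⁻¹, s18tc_self_mem_int t⁻¹⟩ : ↥(s18tInt A t⁻¹)) ∈ 𝔫)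
    (V₁ V₂ : ValuationSubring F)
    (hQ₁ : ∀ x ∈ s18tInt A t⁻¹, x ∈ V₁) (hQ₂ : ∀ x ∈ s18tInt A t⁻¹, x ∈ V₂)
    (hz₁ : z - y ^ q ∈ V₁.nonunits) (hz₂ : z ^ q - y ∈ V₂.nonunits)
    (hon₁ : ∀ x : ↥(s18tInt A t⁻¹), (x : F) ∈ V₁.nonunits → x ∈ 𝔫)
    (hon₂ : ∀ x : ↥(s18tInt A t⁻¹), (x : F) ∈ V₂.nonunits → x ∈ 𝔫) : False := by
  have hq1 : 1 ≤ q := by omega
  have hyMax : SsInMax t⁻¹ 𝔫 y⁻¹ := h₁.pole 𝔫 ht hcusp
  have hyR : y⁻¹ ∈ ssLocRing t⁻¹ 𝔫 := hyMax.inLoc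
  have hfR : y⁻¹ ^ q * z ∈ ssLocRing t⁻¹ 𝔫 := sqgcu_sep₂ 𝔫 h₁ h₂ ht hy hq1 hcusp
  set f : F := y⁻¹ ^ q * z with hf
  have hyV₁ : y⁻¹ ∈ V₁ := sqgcu_loc_le_of_on V₁ hQ₁ hon₁ hyR
  have hyV₂ : y⁻¹ ∈ V₂ := sqgcu_loc_le_of_on V₂ hQ₂ hon₂ hyR
  -- `f - 1 ∈ 𝔪_{V₁}`
  have e1 : f - 1 = y⁻¹ ^ q * (z - y ^ q) := by
    rw [hf, mul_sub, ← mul_pow, inv_mul_cancel₀ hy, one_pow]
  have h1 : SsInMax t⁻¹ 𝔫 (f - 1) := by
    refine sqgcu_inMax_of_on V₁ hQ₁ hon₁ (Subring.sub_mem _ hfR (Subring.one_mem _)) ?_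
    rw [e1]
    exact sqgcu_nu_mul V₁ (pow_mem hyV₁ q) hz₁
  -- `f^q - y^{-(q²-1)} ∈ 𝔪_{V₂}`
  have hqq : q * q = (q * q - 1) + 1 := by
    have : 1 ≤ q * q := Nat.one_le_iff_ne_zero.mpr (by positivity)
    omega
  have e2 : f ^ q - y⁻¹ ^ (q * q - 1) = y⁻¹ ^ (q * q) * (z ^ q - y) := by
    rw [hf, mul_sub, mul_pow, ← pow_mul]
    congr 1
    conv_rhs => rw [hqq, pow_succ, mul_assoc, inv_mul_cancel₀ hy, mul_one]
  have h2 : SsInMax t⁻¹ 𝔫 (f ^ q - y⁻¹ ^ (q * q - 1)) := by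
    refine sqgcu_inMax_of_on V₂ hQ₂ hon₂
      (Subring.sub_mem _ (Subring.pow_mem _ hfR _) (Subring.pow_mem _ hyR _)) ?_
    rw [e2]
    exact sqgcu_nu_mul V₂ (pow_mem hyV₂ _) hz₂
  have hypow : SsInMax t⁻¹ 𝔫 (y⁻¹ ^ (q * q - 1)) := by
    have hpos : q * q - 1 = (q * q - 2) + 1 := by
      have : 4 ≤ q * q := by nlinarith
      omega
    rw [hpos, pow_succ]
    exact sqgcu_inMax_mul (Subring.pow_mem _ hyR _) hyMax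
  have hfq : SsInMax t⁻¹ 𝔫 (f ^ q) := by
    have := sqgcu_inMax_add h2 hypow
    rwa [sub_add_cancel] at this
  have hfMax : SsInMax t⁻¹ 𝔫 f := sqgcu_inMax_of_pow hfR q hfq
  have h1' : SsInMax t⁻¹ 𝔫 (1 : F) := by
    have := sqgcu_inMax_sub hfMax h1
    rwa [sub_sub_cancel] at this
  exact sqgcu_not_inMax_one h1'

/-- **NO CUSP POINT LIES ON `V` AND ON `V₃`** (`y ≡ t^q` on `V` (`= V₁` or `V₂`), `y^q ≡ t` on
`V₃`). -/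
theorem sqgcu_no_cross₃ (h₁ : SqgcuRel A t y q p) (ht : t ≠ 0) (hq : 2 ≤ q)
    (hcusp : (⟨t⁻¹, s18tc_self_mem_int t⁻¹⟩ : ↥(s18tInt A t⁻¹)) ∈ 𝔫)
    (V V₃ : ValuationSubring F)
    (hQ : ∀ x ∈ s18tInt A t⁻¹, x ∈ V) (hQ₃ : ∀ x ∈ s18tInt A t⁻¹, x ∈ V₃)
    (hy : y - t ^ q ∈ V.nonunits) (hy₃ : y ^ q - t ∈ V₃.nonunits)
    (hon : ∀ x : ↥(s18tInt A t⁻¹), (x : F) ∈ V.nonunits → x ∈ 𝔫)
    (hon₃ : ∀ x : ↥(s18tInt A t⁻¹), (x : F) ∈ V₃.nonunits → x ∈ 𝔫) : False := by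
  refine ssgc_no_cross t⁻¹ y q hq (inv_ne_zero ht) V V₃ hQ hQ₃ (h₁.sep_mem ht (by omega)) ?_ ?_ 𝔫
    hcusp hon hon₃
  · rw [inv_inv]; exact hy
  · rw [inv_inv]; exact hy₃

end Two

end Fermat.Agent.SQ
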