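import Mathlib
import Fermat.Agent.SQ.Germ.CrossReg
import Fermat.Agent.SQ.Germ.Main
import Fermat.Agent.SQ.Germ.CuspAbs
import Fermat.Agent.SS.Germ.MainPlus

/-!
# Program Q, R1 (thickness one) : THE CONCRETE BRIDGE at a crossing point of the level `q M'`
(prefix `sqgci`)

Setting of S18 package T for the level `q M'` : `A` a DVR, `L = Frac A`, `F / L(t)` finite,
`P = s18tInt A t`, `W₁, W₂` the two valuation rings above the Gauss ring (`SsgaTwo`, and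
`P_(ϖ) = W₁ ∩ W₂`), `𝔫` a closed point lying on both components, `B = P_𝔫 = ssLocRing t 𝔫`,
coordinates `u ∈ 𝔪_{W₁}`, `w ∈ 𝔪_{W₂}` with `𝔫 B = (ϖ, u, w)` (the data of `SsGermCrossPlus`,
`SS/Germ/MainPlus.lean`).

* `SqgciHor L t 𝔫 x` : `x` has no pole at the horizontal places through `𝔫` (the `hpole`-shape of
  `ssk_krull`);
* `sqgci_exists_poly` : a closed point contains `g(t)` for some `g ∈ A[X]` not divisible by `ϖ`;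
* `sqgci_max_iff` : `SqgcrMax B ϖ u w x ↔ x ∈ 𝔫 B`;
* `sqgci_hyp` : **the instance `SqgcrHyp B W₁ W₂ ϖ u w (SqgciHor L t 𝔫)`** of the hypotheses of
  `SQ/Germ/CrossReg.lean`, `SQ/Germ/CrossLink.lean`;
* `sqgci_node` : `u w = ϖ Θ`, `Θ ∈ Bˣ` ⟹ `SqgaNode ϖ t W₁ W₂ 𝔫` (denominators cleared);
* `sqgci_node_of_regular` : the hypotheses (K), (C) of `SqgcrHyp.regular` ⟹ `SqgaNode ϖ t W₁ W₂ 𝔫`;
* `sqgci_node_of_crossPlus` : the same from `SsGermCrossPlus`.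
-/

set_option autoImplicit false
set_option linter.unusedSectionVars false
set_option linter.unusedVariables false
set_option linter.style.haveILetI false

noncomputable section

namespace Fermat.Agent.SQ

open Polynomial IntermediateField AlgebraicCurve Fermat.Agent.S18 Fermat.Agent.SS Fermat.Agent.G
  IsLocalRing

universe u

variable {A : Type*} [CommRing A] [IsDomain A] [IsDiscreteValuationRing A] [CharZero A]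
variable {L : Type*} [Field L] [Algebra A L] [IsFractionRing A L]
variable {F : Type u} [Field F] [Algebra A F] [Algebra L F] [IsScalarTower A L F]
variable {ϖ : A} {t : F}

/-- `x` has no pole at the horizontal places through `𝔫` -/
def SqgciHor (L : Type*) [Field L] [Algebra L F] (t : F) (𝔫 : Ideal ↥(s18tInt A t)) (x : F) :
    Prop :=
  ∀ V : ValuationSubring F, S18IsPlace L V → s18tInt A t ≤ V.toSubring →
    sskCentre t V ⊆ (𝔫 : Set ↥(s18tInt A t)) → x ∈ V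

/-! ### a closed point contains a polynomial in `t` not divisible by `ϖ` -/

/-- a closed point `𝔫` of `P` contains `g(t)` for some `g ∈ A[X]` with `g = X` or `g(0) = 1`. -/
theorem sqgci_exists_poly (t : F) (𝔫 : Ideal ↥(s18tInt A t)) (h𝔫 : 𝔫.IsMaximal) :
    ∃ g : A[X], (g = X ∨ g.coeff 0 = 1) ∧
      (⟨aeval t g, ssgcl_aeval_mem_int t g⟩ : ↥(s18tInt A t)) ∈ 𝔫 := by
  classical
  haveI := h𝔫
  let e : ↥(integralClosure ↥(s18tChart A t) F) ≃+* ↥(s18tInt A t) :=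
    { toFun := fun x => ⟨x.1, x.2⟩
      invFun := fun x => ⟨x.1, x.2⟩
      left_inv := fun x => rfl
      right_inv := fun x => rfl
      map_mul' := fun x y => rfl
      map_add' := fun x y => rfl }
  haveI h1 : (𝔫.comap (e : ↥(integralClosure ↥(s18tChart A t) F) →+* ↥(s18tInt A t))).IsMaximal :=
    Ideal.comap_isMaximal_of_surjective _ e.surjective
  have h2 : ((𝔫.comap (e : ↥(integralClosure ↥(s18tChart A t) F) →+* ↥(s18tInt A t))).comap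
      (algebraMap ↥(s18tChart A t) ↥(integralClosure ↥(s18tChart A t) F))).IsMaximal :=
    Ideal.isMaximal_comap_of_isIntegral_of_isMaximal _
  set 𝔪₀ := (𝔫.comap (e : ↥(integralClosure ↥(s18tChart A t) F) →+* ↥(s18tInt A t))).comap
      (algebraMap ↥(s18tChart A t) ↥(integralClosure ↥(s18tChart A t) F)) with h𝔪₀
  have hmem : ∀ b : A[X], (⟨aeval t b, s18tb_aeval_mem_chart t b⟩ : ↥(s18tChart A t)) ∈ 𝔪₀ →
      (⟨aeval t b, ssgcl_aeval_mem_int t b⟩ : ↥(s18tInt A t)) ∈ 𝔫 := by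
    intro b hb
    exact hb
  let tC : ↥(s18tChart A t) := ⟨aeval t (X : A[X]), s18tb_aeval_mem_chart t X⟩
  by_cases htm : tC ∈ 𝔪₀
  · exact ⟨X, Or.inl rfl, hmem X htm⟩
  · obtain ⟨y, m, hm, hym⟩ := h2.exists_inv htm
    obtain ⟨f, hf⟩ : ∃ f : A[X], aeval t f = (y : F) := by
      have hy : (y : F) ∈ Algebra.adjoin A {t} := y.2
      rw [Algebra.adjoin_singleton_eq_range_aeval] at hy
      exact hy
    refine ⟨1 - f * X, Or.inr ?_, hmem _ ?_⟩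
    · rw [coeff_sub, coeff_one_zero, mul_coeff_zero, coeff_X_zero, mul_zero, sub_zero]
    · have : (⟨aeval t (1 - f * X), s18tb_aeval_mem_chart t (1 - f * X)⟩ : ↥(s18tChart A t)) = m := by
        apply Subtype.ext
        have h3 : ((y * tC + m : ↥(s18tChart A t)) : F) = 1 := by rw [hym]; rfl
        have h4 : ((y * tC + m : ↥(s18tChart A t)) : F) = (y : F) * aeval t (X : A[X]) + (m : F) :=
          rfl
        show aeval t (1 - f * X) = (m : F)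
        rw [map_sub, map_one, map_mul, hf]
        rw [h4] at h3
        linear_combination (-1 : F) * h3
      rw [this]; exact hm

/-- `g = X` or `g(0) = 1` ⟹ `ϖ ∤ g` -/
theorem sqgci_not_dvd (hϖ : Irreducible ϖ) {g : A[X]} (hg : g = X ∨ g.coeff 0 = 1) :
    ¬ (C ϖ ∣ g) := by
  have hϖu : ¬ IsUnit ϖ := hϖ.not_isUnit
  intro hdvd
  rcases hg with rfl | hg
  · have := (C_dvd_iff_dvd_coeff ϖ X).mp hdvd 1
    rw [coeff_X_one] at this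
    exact hϖu (isUnit_of_dvd_one this)
  · have := (C_dvd_iff_dvd_coeff ϖ g).mp hdvd 0
    rw [hg] at this
    exact hϖu (isUnit_of_dvd_one this)

/-- `g(t)` is a unit of every valuation ring containing `P_(ϖ)` when `ϖ ∤ g`. -/
theorem sqgci_aeval_not_nonunits (hϖ : Irreducible ϖ) (ht : Transcendental L t)
    (V : ValuationSubring F)
    (hV : ∀ x, x ∈ s18tIntLoc A t (C ϖ) (s18t_prime_C hϖ) → x ∈ V) {g : A[X]}
    (hg : ¬ (C ϖ ∣ g)) : aeval t g ∉ V.nonunits := by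
  have hg0 : g ≠ 0 := fun h0 => hg (by rw [h0]; exact dvd_zero _)
  have hne : aeval t g ≠ 0 := fun h0 => hg0 (by
    have htA : Transcendental A t := s18tb_transcendental ht
    exact (transcendental_iff.mp htA) g h0)
  have hinv : (aeval t g)⁻¹ ∈ V := by
    apply hV
    rw [s18t_intLoc_iff hϖ]
    exact ⟨g, hg, by rw [mul_inv_cancel₀ hne]; exact Subring.one_mem _⟩
  exact sqgcr_not_nu V hne hinv

/-! ### the instance of `SqgcrHyp` -/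

section Inst

variable {W₁ W₂ : ValuationSubring F} {𝔫 : Ideal ↥(s18tInt A t)} {u w : F}

/-- `(ϖ, u, w) B ⊆ 𝔫 B` -/
theorem sqgci_inMax_of_max [h𝔫 : 𝔫.IsPrime] (hϖ𝔫 : sskPi ϖ t ∈ 𝔫) (hu : SsnfInMax t 𝔫 u)
    (hw : SsnfInMax t 𝔫 w) {x : F}
    (hx : SqgcrMax (ssLocRing t 𝔫) (algebraMap A F ϖ) u w x) : SsInMax t 𝔫 x := by
  obtain ⟨a, ha, b, hb, c, hc, rfl⟩ := hx
  have hϖM : SsInMax t 𝔫 (algebraMap A F ϖ) := sqgcu_inMax_of_mem (t := t) (𝔫 := 𝔫) hϖ𝔫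
  exact sqgcu_inMax_add (sqgcu_inMax_add (sqgcu_inMax_mul ha hϖM) (sqgcu_inMax_mul hb hu))
    (sqgcu_inMax_mul hc hw)

/-- `𝔫 B ⊆ (ϖ, u, w) B` -/
theorem sqgci_max_of_inMax [h𝔫 : 𝔫.IsPrime] (hspan : SsgaSpan3 ϖ t 𝔫 u w) {x : F}
    (hx : SsInMax t 𝔫 x) : SqgcrMax (ssLocRing t 𝔫) (algebraMap A F ϖ) u w x := by
  obtain ⟨s, hs, p, hp, hsx⟩ := hx
  obtain ⟨s', hs', a, b, c, habc⟩ := hspan p hp
  have hs0 : (s : F) ≠ 0 := fun h0 => hs (by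
    have : s = 0 := Subtype.ext h0
    rw [this]; exact 𝔫.zero_mem)
  have hs'0 : (s' : F) ≠ 0 := fun h0 => hs' (by
    have : s' = 0 := Subtype.ext h0
    rw [this]; exact 𝔫.zero_mem)
  have hsi : (s : F)⁻¹ ∈ ssLocRing t 𝔫 := sqgcu_inv_mem_loc hs
  have hs'i : (s' : F)⁻¹ ∈ ssLocRing t 𝔫 := sqgcu_inv_mem_loc hs'
  have hP : ∀ z : ↥(s18tInt A t), (z : F) ∈ ssLocRing t 𝔫 := fun z =>
    ssl_int_le_locRing t 𝔫 z.2
  refine ⟨(s : F)⁻¹ * (s' : F)⁻¹ * (a : F),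
    Subring.mul_mem _ (Subring.mul_mem _ hsi hs'i) (hP a),
    (s : F)⁻¹ * (s' : F)⁻¹ * (b : F), Subring.mul_mem _ (Subring.mul_mem _ hsi hs'i) (hP b),
    (s : F)⁻¹ * (s' : F)⁻¹ * (c : F), Subring.mul_mem _ (Subring.mul_mem _ hsi hs'i) (hP c), ?_⟩
  have h1 : x = (s : F)⁻¹ * (p : F) := by
    rw [← hsx, ← mul_assoc, inv_mul_cancel₀ hs0, one_mul]
  have h2 : (p : F) = (s' : F)⁻¹ * ((s' : F) * (p : F)) := by
    rw [← mul_assoc, inv_mul_cancel₀ hs'0, one_mul]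
  rw [h1, h2, habc]
  ring

/-- `SqgcrMax B ϖ u w x ↔ x ∈ 𝔫 B` -/
theorem sqgci_max_iff [h𝔫 : 𝔫.IsPrime] (hϖ𝔫 : sskPi ϖ t ∈ 𝔫) (hu : SsnfInMax t 𝔫 u)
    (hw : SsnfInMax t 𝔫 w) (hspan : SsgaSpan3 ϖ t 𝔫 u w) (x : F) :
    SqgcrMax (ssLocRing t 𝔫) (algebraMap A F ϖ) u w x ↔ SsInMax t 𝔫 x :=
  ⟨sqgci_inMax_of_max hϖ𝔫 hu hw, sqgci_max_of_inMax hspan⟩

/-- **THE INSTANCE OF `SqgcrHyp`** at a closed point `𝔫 ∋ ϖ` lying on both components. -/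
theorem sqgci_hyp (hϖ : Irreducible ϖ) (ht : Transcendental L t) [FiniteDimensional L⟮t⟯ F]
    (two : SsgaTwo ϖ t W₁ W₂)
    (hmem : ∀ x, x ∈ s18tIntLoc A t (C ϖ) (s18t_prime_C hϖ) ↔ x ∈ W₁ ∧ x ∈ W₂)
    (hmax : 𝔫.IsMaximal) (hϖ𝔫 : sskPi ϖ t ∈ 𝔫)
    (hon₁ : ∀ p : ↥(s18tInt A t), (p : F) ∈ W₁.nonunits → p ∈ 𝔫)
    (hon₂ : ∀ p : ↥(s18tInt A t), (p : F) ∈ W₂.nonunits → p ∈ 𝔫)
    (hu : SsnfInMax t 𝔫 u) (hw : SsnfInMax t 𝔫 w) (hspan : SsgaSpan3 ϖ t 𝔫 u w)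
    (hu₁ : u ∈ W₁.nonunits) (hw₂ : w ∈ W₂.nonunits) :
    SqgcrHyp (ssLocRing (h𝔫 := hmax.isPrime) t 𝔫) W₁ W₂ (algebraMap A F ϖ) u w
      (SqgciHor L t 𝔫) := by
  haveI h𝔫 : 𝔫.IsPrime := hmax.isPrime
  have hϖM : SsInMax t 𝔫 (algebraMap A F ϖ) := sqgcu_inMax_of_mem (t := t) (𝔫 := 𝔫) hϖ𝔫
  have hle₁ : ∀ x ∈ ssLocRing t 𝔫, x ∈ W₁ := fun x hx =>
    sqgcu_loc_le_of_on W₁ two.le₁ hon₁ hx
  have hle₂ : ∀ x ∈ ssLocRing t 𝔫, x ∈ W₂ := fun x hx =>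
    sqgcu_loc_le_of_on W₂ two.le₂ hon₂ hx
  -- an element of `𝔫` which is a unit of `W₁` and of `W₂`
  obtain ⟨g, hg, hg𝔫⟩ := sqgci_exists_poly t 𝔫 hmax
  have hgdvd := sqgci_not_dvd hϖ hg
  have hgM : SqgcrMax (ssLocRing t 𝔫) (algebraMap A F ϖ) u w (aeval t g) :=
    sqgci_max_of_inMax hspan (sqgcu_inMax_of_mem (t := t) (𝔫 := 𝔫) hg𝔫)
  refine
    { pi_ne := sqga_pi_ne_zero L hϖ
      le₁ := hle₁
      le₂ := hle₂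
      piB := hϖM.inLoc
      uB := SsInMax.inLoc hu
      wB := SsInMax.inLoc hw
      pi₁ := two.unif₁
      pi₂ := two.unif₂
      u₁ := hu₁
      w₂ := hw₂
      loc := fun x hx hnot =>
        sqgcu_inv_mem_of_not_inMax hx (fun h => hnot (sqgci_max_of_inMax hspan h))
      one_not := fun h => sqgcu_not_inMax_one (sqgci_inMax_of_max hϖ𝔫 hu hw h)
      sat := ?_
      nd₁ := ⟨aeval t g, hgM,
        sqgci_aeval_not_nonunits hϖ ht W₁ (fun x hx => ((hmem x).mp hx).1) hgdvd⟩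
      nd₂ := ⟨aeval t g, hgM,
        sqgci_aeval_not_nonunits hϖ ht W₂ (fun x hx => ((hmem x).mp hx).2) hgdvd⟩
      hor_B := ?_
      hor_mul := fun x y hx hy V hV hP hc => V.mul_mem _ _ (hx V hV hP hc) (hy V hV hP hc)
      gk := ?_ }
  · -- saturation
    rintro x ⟨s, hs, hsx⟩ hx₁ hx₂
    obtain ⟨y, hy, hxy⟩ := two.sat _ hsx (sqgcu_nu_mul W₁ (two.le₁ _ s.2) hx₁)
      (sqgcu_nu_mul W₂ (two.le₂ _ s.2) hx₂)
    have hs0 : (s : F) ≠ 0 := fun h0 => hs (by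
      have : s = 0 := Subtype.ext h0
      rw [this]; exact 𝔫.zero_mem)
    refine ⟨(s : F)⁻¹ * y, Subring.mul_mem _ (sqgcu_inv_mem_loc hs) (ssl_int_le_locRing t 𝔫 hy), ?_⟩
    have : x = (s : F)⁻¹ * ((s : F) * x) := by
      rw [← mul_assoc, inv_mul_cancel₀ hs0, one_mul]
    rw [this, hxy]
    ring
  · -- `B` has no pole at the horizontal places through `𝔫`
    intro x hx V hV hP hc
    exact sqgcu_loc_le_of_on V (fun z hz => hP hz) (fun p hp => hc hp) hx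
  · -- (GK)
    intro x hx₁ hx₂ hhor
    exact ssk_krull hϖ t ht 𝔫 hmax x ((hmem x).mpr ⟨hx₁, hx₂⟩) hhor

end Inst

/-! ### the node of thickness one -/

section Node

variable {W₁ W₂ : ValuationSubring F} {𝔫 : Ideal ↥(s18tInt A t)} {u w : F}

/-- clearing the denominator of an element of `P_𝔫 ∩ 𝔪_V` -/
theorem sqgci_clear [h𝔫 : 𝔫.IsPrime] (V : ValuationSubring F) (hle : ∀ x ∈ s18tInt A t, x ∈ V)
    {x : F} (hx : x ∈ ssLocRing t 𝔫) (hxV : x ∈ V.nonunits) :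
    ∃ s : ↥(s18tInt A t), s ∉ 𝔫 ∧ ∃ p : ↥(s18tInt A t), (p : F) ∈ V.nonunits ∧
      (s : F) * x = (p : F) := by
  obtain ⟨s, hs, hsx⟩ := hx
  exact ⟨s, hs, ⟨(s : F) * x, hsx⟩, sqgcu_nu_mul V (hle _ s.2) hxV, rfl⟩

/-- **`u w = ϖ Θ`, `Θ` a unit of `P_𝔫` ⟹ THE NODE `𝔫` HAS THICKNESS ONE** (helper9's `SqgaNode`). -/
theorem sqgci_node [h𝔫 : 𝔫.IsPrime] (two : SsgaTwo ϖ t W₁ W₂)
    (huB : u ∈ ssLocRing t 𝔫) (hwB : w ∈ ssLocRing t 𝔫)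
    (hu₁ : u ∈ W₁.nonunits) (hw₂ : w ∈ W₂.nonunits)
    (hΘ : ∃ Θ ∈ ssLocRing t 𝔫, Θ⁻¹ ∈ ssLocRing t 𝔫 ∧ Θ ≠ 0 ∧ u * w = algebraMap A F ϖ * Θ) :
    SqgaNode ϖ t W₁ W₂ 𝔫 := by
  obtain ⟨Θ, hΘB, hΘi, hΘ0, huw⟩ := hΘ
  obtain ⟨s₁, hs₁, p₁, hp₁, e₁⟩ := sqgci_clear W₁ two.le₁ huB hu₁
  obtain ⟨s₂, hs₂, p₂, hp₂, e₂⟩ := sqgci_clear W₂ two.le₂ hwB hw₂
  obtain ⟨s₃, hs₃, hm⟩ := hΘi
  refine ⟨p₁, p₂, s₁ * s₂ * s₃, ⟨(s₃ : F) * Θ⁻¹, hm⟩, hp₁, hp₂, ?_, ?_⟩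
  · intro h
    rcases h𝔫.mem_or_mem h with h' | h'
    · exact (h𝔫.mem_or_mem h').elim hs₁ hs₂
    · exact hs₃ h'
  · show ((s₁ * s₂ * s₃ : ↥(s18tInt A t)) : F) * algebraMap A F ϖ =
      (p₁ : F) * (p₂ : F) * ((s₃ : F) * Θ⁻¹)
    rw [← e₁, ← e₂]
    have : algebraMap A F ϖ = u * w * Θ⁻¹ := by
      rw [huw, mul_assoc, mul_inv_cancel₀ hΘ0, mul_one]
    rw [this]
    push_cast
    ring

/-- **THE BRIDGE** : the hypotheses (K) (`γ`, `ε`) and (C) of `SqgcrHyp.regular` at a closed point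
`𝔫 ∋ ϖ` lying on both components ⟹ `SqgaNode ϖ t W₁ W₂ 𝔫`, together with `𝔫 P_𝔫 = (u, w)`. -/
theorem sqgci_node_of_regular (hϖ : Irreducible ϖ) (ht : Transcendental L t)
    [FiniteDimensional L⟮t⟯ F] (two : SsgaTwo ϖ t W₁ W₂)
    (hmem : ∀ x, x ∈ s18tIntLoc A t (C ϖ) (s18t_prime_C hϖ) ↔ x ∈ W₁ ∧ x ∈ W₂)
    (hmax : 𝔫.IsMaximal) (hϖ𝔫 : sskPi ϖ t ∈ 𝔫)
    (hon₁ : ∀ p : ↥(s18tInt A t), (p : F) ∈ W₁.nonunits → p ∈ 𝔫)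
    (hon₂ : ∀ p : ↥(s18tInt A t), (p : F) ∈ W₂.nonunits → p ∈ 𝔫)
    (hu : SsnfInMax t 𝔫 u) (hw : SsnfInMax t 𝔫 w) (hspan : SsgaSpan3 ϖ t 𝔫 u w)
    (hu₁ : u ∈ W₁.nonunits) (hw₂ : w ∈ W₂.nonunits)
    {γ ε : F} (hγ0 : γ ≠ 0) (hγ₁ : γ ∈ W₁) (hγ₁i : γ⁻¹ ∈ W₁) (hε : ε ∈ W₂) (hεi : ε⁻¹ ∈ W₂)
    (hγε : γ = algebraMap A F ϖ ^ 2 * ε)
    (hγh : SqgciHor L t 𝔫 γ) (hγhi : SqgciHor L t 𝔫 γ⁻¹)
    (hC : ∀ v ∈ ssLocRing (h𝔫 := hmax.isPrime) t 𝔫,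
      SqgcrMax (ssLocRing (h𝔫 := hmax.isPrime) t 𝔫) (algebraMap A F ϖ) u w v →
      (∀ x, SqgcrMax (ssLocRing (h𝔫 := hmax.isPrime) t 𝔫) (algebraMap A F ϖ) u w x →
        ∃ c ∈ ssLocRing (h𝔫 := hmax.isPrime) t 𝔫, x - c * v ∈ W₁.nonunits) →
      ¬ (γ * v⁻¹ ∈ ssLocRing (h𝔫 := hmax.isPrime) t 𝔫 ∧
        γ⁻¹ * v ∈ ssLocRing (h𝔫 := hmax.isPrime) t 𝔫)) :
    SqgaNode ϖ t W₁ W₂ 𝔫 ∧
      ∀ x, SsInMax t 𝔫 x → ∃ a ∈ ssLocRing (h𝔫 := hmax.isPrime) t 𝔫,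
        ∃ b ∈ ssLocRing (h𝔫 := hmax.isPrime) t 𝔫, x = a * u + b * w := by
  haveI h𝔫 : 𝔫.IsPrime := hmax.isPrime
  have H := sqgci_hyp hϖ ht two hmem hmax hϖ𝔫 hon₁ hon₂ hu hw hspan hu₁ hw₂
  obtain ⟨hΘ, hgen, -⟩ := H.regular hγ0 hγ₁ hγ₁i hε hεi hγε hγh hγhi hC
  exact ⟨sqgci_node two (SsInMax.inLoc hu) (SsInMax.inLoc hw) hu₁ hw₂ hΘ,
    fun x hx => hgen x (sqgci_max_of_inMax hspan hx)⟩

/-- **THE BRIDGE from `SsGermCrossPlus`** (`SS/Germ/MainPlus.lean`), with the Cartier input (C) in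
coordinate-free form (`SsInMax t 𝔫` instead of `SqgcrMax B ϖ u w`, see `sqgci_max_iff`). -/
theorem sqgci_node_of_crossPlus (hϖ : Irreducible ϖ) (ht : Transcendental L t)
    [FiniteDimensional L⟮t⟯ F] (two : SsgaTwo ϖ t W₁ W₂)
    (hmem : ∀ x, x ∈ s18tIntLoc A t (C ϖ) (s18t_prime_C hϖ) ↔ x ∈ W₁ ∧ x ∈ W₂)
    (hmax : 𝔫.IsMaximal) (hϖ𝔫 : sskPi ϖ t ∈ 𝔫)
    (hon₁ : ∀ p : ↥(s18tInt A t), (p : F) ∈ W₁.nonunits → p ∈ 𝔫)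
    (hon₂ : ∀ p : ↥(s18tInt A t), (p : F) ∈ W₂.nonunits → p ∈ 𝔫)
    (G : Subgroup (SemilinearAut L F)) (hplus : SsGermCrossPlus ϖ t G 𝔫 W₁ W₂)
    {γ ε : F} (hγ0 : γ ≠ 0) (hγ₁ : γ ∈ W₁) (hγ₁i : γ⁻¹ ∈ W₁) (hε : ε ∈ W₂) (hεi : ε⁻¹ ∈ W₂)
    (hγε : γ = algebraMap A F ϖ ^ 2 * ε)
    (hγh : SqgciHor L t 𝔫 γ) (hγhi : SqgciHor L t 𝔫 γ⁻¹)
    (hC : ∀ v ∈ ssLocRing (h𝔫 := hmax.isPrime) t 𝔫, SsInMax t 𝔫 v →
      (∀ x, SsInMax t 𝔫 x →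
        ∃ c ∈ ssLocRing (h𝔫 := hmax.isPrime) t 𝔫, x - c * v ∈ W₁.nonunits) →
      ¬ (γ * v⁻¹ ∈ ssLocRing (h𝔫 := hmax.isPrime) t 𝔫 ∧
        γ⁻¹ * v ∈ ssLocRing (h𝔫 := hmax.isPrime) t 𝔫)) :
    SqgaNode ϖ t W₁ W₂ 𝔫 := by
  haveI h𝔫 : 𝔫.IsPrime := hmax.isPrime
  obtain ⟨u, w, hu, hw, -, -, hspan, -, hu₁, hw₂, -, -⟩ := hplus 0
  refine (sqgci_node_of_regular hϖ ht two hmem hmax hϖ𝔫 hon₁ hon₂ hu hw hspan hu₁ hw₂ hγ0 hγ₁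
    hγ₁i hε hεi hγε hγh hγhi ?_).1
  intro v hvB hvM hgen
  exact hC v hvB (sqgci_inMax_of_max hϖ𝔫 hu hw hvM)
    (fun x hx => hgen x (sqgci_max_of_inMax hspan hx))

end Node

end Fermat.Agent.SQ
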