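import Mathlib

/-!
# Program Q, R1 (thickness one) : the abstract CARTIER step (prefix `sqgca`)

`F` a field, `B ≤ O` subrings (`B` = local ring of the good level at a closed point `𝔰`, `O` = the
Gauss valuation ring), `ϖ p ∈ B` with `𝔰 B = (ϖ, p)`, `p` a unit of `O`,
`∂ : F → F` an additive Leibniz map with `∂ p = 1`, `∂ B ⊆ B`, `∂ (ϖ O) ⊆ ϖ O`, a prime `q ∈ ϖ O`,
and RESIDUE REPRESENTATIVES KILLED BY `∂` MODULO `ϖ` : every `x ∈ B` is `c + (ϖ, p) B` with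
`∂ c ∈ ϖ O` (rational point : `c` a constant; any perfect residue field : `c = e ^ q`).

**Theorem** `sqgca_cartier` : for every `D ∈ O`, `a ∈ Bˣ`, `b ∈ B` : `∂ D - a / p - b ∉ ϖ O`.

In words : the reduction modulo `ϖ` of an exact derivative never has a SIMPLE pole at `𝔰`.
Proof : induction on the pole order `n` (`p ^ n * D ∈ B + ϖ O`), removing the leading term
`c / p ^ (n+1)` (`∂ c ≡ 0`) whose derivative `-(n+1) c / p ^ (n+2)` has pole order `n + 2 ≠ 1`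
unless `q ∣ n + 1`, in which case it vanishes modulo `ϖ`.
-/

set_option autoImplicit false
set_option linter.unusedSectionVars false
set_option linter.unusedVariables false

namespace Fermat.Agent.SQ

variable {F : Type*} [Field F]

/-- `x ∈ ϖ O` -/
def SqgcaPi (O : Subring F) (ϖ : F) (x : F) : Prop := ∃ y ∈ O, x = ϖ * y

/-- `x ∈ (ϖ, p) B` -/
def SqgcaMax (B : Subring F) (ϖ p : F) (x : F) : Prop := ∃ y ∈ B, ∃ z ∈ B, x = ϖ * y + p * z

section Pi

variable {O : Subring F} {ϖ : F}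

theorem SqgcaPi.add {x y : F} (hx : SqgcaPi O ϖ x) (hy : SqgcaPi O ϖ y) : SqgcaPi O ϖ (x + y) := by
  obtain ⟨a, ha, rfl⟩ := hx
  obtain ⟨b, hb, rfl⟩ := hy
  exact ⟨a + b, O.add_mem ha hb, by ring⟩

theorem SqgcaPi.neg {x : F} (hx : SqgcaPi O ϖ x) : SqgcaPi O ϖ (-x) := by
  obtain ⟨a, ha, rfl⟩ := hx
  exact ⟨-a, O.neg_mem ha, by ring⟩

theorem SqgcaPi.sub {x y : F} (hx : SqgcaPi O ϖ x) (hy : SqgcaPi O ϖ y) : SqgcaPi O ϖ (x - y) := by
  rw [sub_eq_add_neg]; exact hx.add hy.neg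

theorem SqgcaPi.mul_left {x y : F} (hx : SqgcaPi O ϖ x) (hy : y ∈ O) : SqgcaPi O ϖ (y * x) := by
  obtain ⟨a, ha, rfl⟩ := hx
  exact ⟨y * a, O.mul_mem hy ha, by ring⟩

theorem SqgcaPi.mul_right {x y : F} (hx : SqgcaPi O ϖ x) (hy : y ∈ O) : SqgcaPi O ϖ (x * y) := by
  rw [mul_comm]; exact hx.mul_left hy

theorem SqgcaPi.of_eq {x y : F} (hx : SqgcaPi O ϖ x) (h : y = x) : SqgcaPi O ϖ y := h ▸ hx

end Pi

section Max

variable {B : Subring F} {ϖ p : F}

theorem SqgcaMax.add {x y : F} (hx : SqgcaMax B ϖ p x) (hy : SqgcaMax B ϖ p y) :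
    SqgcaMax B ϖ p (x + y) := by
  obtain ⟨a, ha, b, hb, rfl⟩ := hx
  obtain ⟨c, hc, d, hd, rfl⟩ := hy
  exact ⟨a + c, B.add_mem ha hc, b + d, B.add_mem hb hd, by ring⟩

theorem SqgcaMax.mul_left {x y : F} (hx : SqgcaMax B ϖ p x) (hy : y ∈ B) :
    SqgcaMax B ϖ p (y * x) := by
  obtain ⟨a, ha, b, hb, rfl⟩ := hx
  exact ⟨y * a, B.mul_mem hy ha, y * b, B.mul_mem hy hb, by ring⟩

theorem SqgcaMax.of_eq {x y : F} (hx : SqgcaMax B ϖ p x) (h : y = x) : SqgcaMax B ϖ p y := h ▸ hx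

theorem sqgca_max_of_pi {y : F} (hy : y ∈ B) : SqgcaMax B ϖ p (ϖ * y) :=
  ⟨y, hy, 0, B.zero_mem, by ring⟩

theorem sqgca_max_of_p {z : F} (hz : z ∈ B) : SqgcaMax B ϖ p (p * z) :=
  ⟨0, B.zero_mem, z, hz, by ring⟩

end Max

/-- THE HYPOTHESES of the abstract Cartier step. -/
structure SqgcaHyp (O B : Subring F) (ϖ p : F) (q : ℕ) (d : F → F) : Prop where
  BO : B ≤ O
  piB : ϖ ∈ B
  pB : p ∈ B
  pinv : p⁻¹ ∈ O
  p_ne : p ≠ 0
  d_add : ∀ x y, d (x + y) = d x + d y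
  d_mul : ∀ x y, d (x * y) = x * d y + y * d x
  d_p : d p = 1
  d_B : ∀ x ∈ B, d x ∈ B
  d_pi : ∀ x, SqgcaPi O ϖ x → SqgcaPi O ϖ (d x)
  q_pi : SqgcaPi O ϖ (q : F)
  sat : ∀ x ∈ B, SqgcaPi O ϖ x → ∃ y ∈ B, x = ϖ * y
  res : ∀ x ∈ B, ∃ c ∈ B, SqgcaPi O ϖ (d c) ∧ SqgcaMax B ϖ p (x - c)
  one_not : ¬ SqgcaMax B ϖ p 1
  frac : ∀ D ∈ O, ∃ n : ℕ, ∃ b ∈ B, SqgcaPi O ϖ (p ^ n * D - b)

namespace SqgcaHyp

variable {O B : Subring F} {ϖ p : F} {q : ℕ} {d : F → F}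

theorem d_zero (h : SqgcaHyp O B ϖ p q d) : d 0 = 0 := by
  have := h.d_add 0 0
  rw [add_zero] at this
  exact left_eq_add.mp this

theorem d_one (h : SqgcaHyp O B ϖ p q d) : d 1 = 0 := by
  have := h.d_mul 1 1
  rw [mul_one, one_mul] at this
  exact left_eq_add.mp this

theorem d_neg (h : SqgcaHyp O B ϖ p q d) (x : F) : d (-x) = - d x := by
  have := h.d_add x (-x)
  rw [add_neg_cancel, h.d_zero] at this
  exact eq_neg_of_add_eq_zero_right this.symm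

theorem d_sub (h : SqgcaHyp O B ϖ p q d) (x y : F) : d (x - y) = d x - d y := by
  rw [sub_eq_add_neg, h.d_add, h.d_neg, ← sub_eq_add_neg]

/-- `p * ∂ (p ^ n) = n * p ^ n` -/
theorem d_pow (h : SqgcaHyp O B ϖ p q d) (n : ℕ) : p * d (p ^ n) = n * p ^ n := by
  induction n with
  | zero => rw [pow_zero, h.d_one, mul_zero, Nat.cast_zero, zero_mul]
  | succ n ih =>
    rw [pow_succ, h.d_mul, h.d_p, mul_one, mul_add, ← mul_assoc p p, mul_comm p p, mul_assoc p p, ih]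
    push_cast
    ring

/-- `∂ (p⁻¹) = - p⁻¹ ^ 2` -/
theorem d_inv (h : SqgcaHyp O B ϖ p q d) : d p⁻¹ = - p⁻¹ ^ 2 := by
  have h1 := h.d_mul p p⁻¹
  rw [mul_inv_cancel₀ h.p_ne, h.d_one, h.d_p, mul_one] at h1
  have h2 : p * d p⁻¹ = - p⁻¹ := by linear_combination -h1
  have h3 : d p⁻¹ = p⁻¹ * (p * d p⁻¹) := by
    rw [← mul_assoc, inv_mul_cancel₀ h.p_ne, one_mul]
  rw [h3, h2]
  ring

/-- `∂ (p⁻¹ ^ k) = - k * p⁻¹ ^ (k+1)` -/
theorem d_inv_pow (h : SqgcaHyp O B ϖ p q d) (k : ℕ) : d (p⁻¹ ^ k) = - (k : F) * p⁻¹ ^ (k + 1) := by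
  induction k with
  | zero => rw [pow_zero, h.d_one, Nat.cast_zero, neg_zero, zero_mul]
  | succ k ih =>
    rw [pow_succ, h.d_mul, ih, h.d_inv]
    push_cast
    ring

theorem pow_mem_O (h : SqgcaHyp O B ϖ p q d) (n : ℕ) : p ^ n ∈ O := O.pow_mem (h.BO h.pB) n

theorem inv_pow_mem_O (h : SqgcaHyp O B ϖ p q d) (n : ℕ) : p⁻¹ ^ n ∈ O := O.pow_mem h.pinv n

/-- dividing a congruence by `p` -/
theorem div_p (h : SqgcaHyp O B ϖ p q d) {n : ℕ} {D z : F}
    (hm : SqgcaPi O ϖ (p ^ (n + 1) * D - p * z)) : SqgcaPi O ϖ (p ^ n * D - z) := by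
  refine (hm.mul_left h.pinv).of_eq ?_
  rw [pow_succ]
  field_simp [h.p_ne]

/-- (Q) the pole order of `∂ D` is at most one more than the pole order of `D`. -/
theorem pole_d (h : SqgcaHyp O B ϖ p q d) {n : ℕ} {D b : F} (hD : D ∈ O) (hb : b ∈ B)
    (hm : SqgcaPi O ϖ (p ^ n * D - b)) :
    ∃ b' ∈ B, SqgcaPi O ϖ (p ^ (n + 1) * d D - b') := by
  refine ⟨p * d b - n * b, B.sub_mem (B.mul_mem h.pB (h.d_B b hb))
    (B.mul_mem (natCast_mem B n) hb), ?_⟩
  have h1 := h.d_pi _ hm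
  rw [h.d_sub, h.d_mul] at h1
  -- `p * (p ^ n * ∂ D + D * ∂ (p ^ n) - ∂ b) - n * (p ^ n * D - b)`
  have h2 := (h1.mul_left (h.BO h.pB)).sub (hm.mul_left (natCast_mem O n))
  refine h2.of_eq ?_
  have h3 := h.d_pow n
  linear_combination (-D) * h3

/-- the base of the induction -/
theorem cartier_zero (h : SqgcaHyp O B ϖ p q d) {D b₀ : F} (hD : D ∈ O) (hb₀ : b₀ ∈ B)
    (hm : SqgcaPi O ϖ (D - b₀)) {a b : F} (ha : a ∈ B) (ha0 : a ≠ 0) (hai : a⁻¹ ∈ B)
    (hb : b ∈ B) : ¬ SqgcaPi O ϖ (d D - a / p - b) := by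
  intro hcon
  have h1 := h.d_pi _ hm
  rw [h.d_sub] at h1
  -- `p * (∂ b₀ - a / p - b) ∈ ϖ O ∩ B`
  have h2 : SqgcaPi O ϖ (p * d b₀ - a - p * b) := by
    refine ((hcon.sub h1).mul_left (h.BO h.pB)).of_eq ?_
    have e1 : p * (a / p) = a := mul_div_cancel₀ a h.p_ne
    linear_combination e1
  obtain ⟨y, hy, hy'⟩ := h.sat _ (B.sub_mem (B.sub_mem (B.mul_mem h.pB (h.d_B _ hb₀)) ha)
    (B.mul_mem h.pB hb)) h2
  have h3 : SqgcaMax B ϖ p a :=
    ⟨-y, B.neg_mem hy, d b₀ - b, B.sub_mem (h.d_B _ hb₀) hb, by linear_combination -hy'⟩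
  apply h.one_not
  refine (h3.mul_left hai).of_eq ?_
  rw [inv_mul_cancel₀ ha0]

/-- THE INDUCTION on the pole order. -/
theorem cartier_aux (h : SqgcaHyp O B ϖ p q d) (hq : q.Prime) (n : ℕ) :
    ∀ D ∈ O, (∃ b₀ ∈ B, SqgcaPi O ϖ (p ^ n * D - b₀)) → ∀ a ∈ B, a ≠ 0 → a⁻¹ ∈ B → ∀ b ∈ B,
      ¬ SqgcaPi O ϖ (d D - a / p - b) := by
  induction n with
  | zero =>
    rintro D hD ⟨b₀, hb₀, hm⟩ a ha ha0 hai b hb
    rw [pow_zero, one_mul] at hm
    exact h.cartier_zero hD hb₀ hm ha ha0 hai hb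
  | succ n ih =>
    rintro D hD ⟨b₀, hb₀, hm⟩ a ha ha0 hai b hb
    obtain ⟨c, hc, hdc, hcmax0⟩ := h.res b₀ hb₀
    have hcO : c ∈ O := h.BO hc
    by_cases hcmax : SqgcaMax B ϖ p c
    · -- `c ≡ 0` : the pole order is at most `n`
      obtain ⟨y, hy, z, hz, hyz⟩ := (hcmax0.add hcmax).of_eq (show b₀ = b₀ - c + c by ring)
      have hϖy : SqgcaPi O ϖ (ϖ * y) := ⟨y, h.BO hy, rfl⟩
      have h1 : SqgcaPi O ϖ (p ^ (n + 1) * D - p * z) :=
        (hm.add hϖy).of_eq (by rw [hyz]; ring)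
      exact ih D hD ⟨z, hz, h.div_p h1⟩ a ha ha0 hai b hb
    · -- `c` a unit : remove the leading term
      obtain ⟨y, hy, z, hz, hcyz⟩ := hcmax0
      have hb₀' : b₀ = c + ϖ * y + p * z := by linear_combination hcyz
      have hϖy : SqgcaPi O ϖ (ϖ * y) := ⟨y, h.BO hy, rfl⟩
      set D' : F := D - c * p⁻¹ ^ (n + 1) with hD'def
      have hD' : D' ∈ O := O.sub_mem hD (O.mul_mem hcO (h.inv_pow_mem_O _))
      have hpp : ∀ k : ℕ, p ^ k * p⁻¹ ^ k = 1 := by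
        intro k
        rw [← mul_pow, mul_inv_cancel₀ h.p_ne, one_pow]
      have h1 : SqgcaPi O ϖ (p ^ (n + 1) * D' - p * z) := by
        refine (hm.add hϖy).of_eq ?_
        rw [hD'def, hb₀']
        have := hpp (n + 1)
        linear_combination (-c) * this
      have h2 := h.div_p h1
      -- `∂ D = ∂ D' - (n+1) c p⁻¹ ^ (n+2) + p⁻¹ ^ (n+1) ∂ c`
      have hdD : d D = d D' - ((n + 1 : ℕ) : F) * c * p⁻¹ ^ (n + 2) + p⁻¹ ^ (n + 1) * d c := by
        have e : D = D' + c * p⁻¹ ^ (n + 1) := by rw [hD'def]; ring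
        rw [e, h.d_add, h.d_mul, h.d_inv_pow]
        push_cast
        ring
      have hrdc : SqgcaPi O ϖ (p⁻¹ ^ (n + 1) * d c) := hdc.mul_left (h.inv_pow_mem_O _)
      by_cases hqn : q ∣ n + 1
      · -- the derivative of the leading term vanishes modulo `ϖ`
        obtain ⟨k, hk⟩ := hqn
        have h3 : SqgcaPi O ϖ (((n + 1 : ℕ) : F) * c * p⁻¹ ^ (n + 2)) := by
          rw [hk]
          push_cast
          have := (h.q_pi.mul_right (natCast_mem O k)).mul_right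
            (O.mul_mem hcO (h.inv_pow_mem_O (n + 2)))
          exact this.of_eq (by ring)
        intro hcon
        apply ih D' hD' ⟨z, hz, h2⟩ a ha ha0 hai b hb
        refine ((hcon.add h3).sub hrdc).of_eq ?_
        rw [hdD]
        ring
      · -- the derivative of the leading term has pole order `n + 2 ≥ 2`
        intro hcon
        obtain ⟨b'', hb'', hm₂⟩ := h.pole_d hD' hz h2
        -- multiply `hcon` by `p ^ (n+2)`
        have h3 := hcon.mul_left (h.pow_mem_O (n + 2))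
        have h4 : SqgcaPi O ϖ (p * b'' - ((n + 1 : ℕ) : F) * c - p ^ (n + 1) * a - p ^ (n + 2) * b) := by
          refine ((h3.sub (hm₂.mul_left (h.BO h.pB))).sub (hdc.mul_left (h.BO h.pB))).of_eq ?_
          rw [hdD]
          have := hpp (n + 2)
          have e1 : p ^ (n + 2) * (a / p) = p ^ (n + 1) * a := by
            rw [pow_succ p (n + 1)]
            field_simp [h.p_ne]
          have e2 : p ^ (n + 2) * p⁻¹ ^ (n + 1) = p := by
            have := hpp (n + 1)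
            rw [pow_succ p (n + 1), mul_comm (p ^ (n + 1)) p, mul_assoc, this, mul_one]
          linear_combination ((n + 1 : ℕ) : F) * c * this + e1 - d c * e2
        have hmemB : p * b'' - ((n + 1 : ℕ) : F) * c - p ^ (n + 1) * a - p ^ (n + 2) * b ∈ B :=
          B.sub_mem (B.sub_mem (B.sub_mem (B.mul_mem h.pB hb'')
            (B.mul_mem (natCast_mem B _) hc)) (B.mul_mem (B.pow_mem h.pB _) ha))
            (B.mul_mem (B.pow_mem h.pB _) hb)
        obtain ⟨y', hy', hy''⟩ := h.sat _ hmemB h4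
        have h5 : SqgcaMax B ϖ p (((n + 1 : ℕ) : F) * c) :=
          ⟨-y', B.neg_mem hy', b'' - p ^ n * a - p ^ (n + 1) * b,
            B.sub_mem (B.sub_mem hb'' (B.mul_mem (B.pow_mem h.pB _) ha))
              (B.mul_mem (B.pow_mem h.pB _) hb), by
            linear_combination -hy''⟩
        -- `q c ∈ (ϖ, p) B`
        have h6 : SqgcaMax B ϖ p ((q : F) * c) := by
          obtain ⟨y₂, hy₂, hy₂'⟩ := h.sat _ (B.mul_mem (natCast_mem B q) hc)
            (h.q_pi.mul_right hcO)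
          rw [hy₂']
          exact sqgca_max_of_pi hy₂
        -- Bezout
        have hcop : Nat.Coprime (n + 1) q := by
          rw [Nat.coprime_comm]
          exact (Nat.Prime.coprime_iff_not_dvd hq).mpr hqn
        have hbez := Nat.gcd_eq_gcd_ab (n + 1) q
        rw [hcop] at hbez
        apply hcmax
        have h7 := (h5.mul_left (intCast_mem B ((n + 1).gcdA q))).add
          (h6.mul_left (intCast_mem B ((n + 1).gcdB q)))
        refine h7.of_eq ?_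
        have hbez' : (1 : F) = ((n + 1 : ℕ) : F) * (((n + 1).gcdA q : ℤ) : F) +
            (q : F) * (((n + 1).gcdB q : ℤ) : F) := by
          have := congrArg (fun i : ℤ => (i : F)) hbez
          push_cast at this
          push_cast
          linear_combination this
        linear_combination c * hbez'

/-- **THE ABSTRACT CARTIER STEP** : the reduction of an exact derivative has no simple pole. -/
theorem cartier (h : SqgcaHyp O B ϖ p q d) (hq : q.Prime) {D a b : F} (hD : D ∈ O)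
    (ha : a ∈ B) (ha0 : a ≠ 0) (hai : a⁻¹ ∈ B) (hb : b ∈ B) :
    ¬ SqgcaPi O ϖ (d D - a / p - b) := by
  obtain ⟨n, b₀, hb₀, hm⟩ := h.frac D hD
  exact h.cartier_aux hq n D hD ⟨b₀, hb₀, hm⟩ a ha ha0 hai b hb

end SqgcaHyp

end Fermat.Agent.SQ
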