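import Mathlib
import Fermat.Agent.SQ.Germ.CartierAbs
import Fermat.Agent.SQ.Germ.CrossReg

/-!
# Program Q, R1 (thickness one) : the Cartier input (C) of `SqgcrHyp.regular` (prefix `sqgcl`)

ABSTRACT link between the two levels.  `α : F₀ →+* F₁` (the inclusion of the good level `M'` into
the level `q M'`), `B₀ ≤ O₀ ⊆ F₀` with the Cartier hypotheses `SqgcaHyp O₀ B₀ ϖ₀ p q ∂`
(`B₀` = local ring at `𝔰`, `O₀` = Gauss ring, `p` a local parameter, `∂ = d/dp`), `B₁ ⊆ F₁` the local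
ring of the crossing point `𝔫₁` above `𝔰` with `𝔫₁ B₁ = (ϖ₁, u, w)`, `W₁` the component along which
`α` is an isomorphism on residue fields.

Inputs : `α B₀ ⊆ B₁`, `α O₀ ⊆ W₁`, `α x ∈ 𝔪_{W₁} → x ∈ ϖ₀ O₀`, `α p ∈ 𝔫₁ B₁` generates `𝔫₁ B₁` modulo
`𝔪_{W₁}`, local residue surjectivity `B₁ = α B₀ + 𝔪_{W₁}`, and THE `D`-IDENTITY
`g ≡ α (b₀ + ∂ D₀)  mod 𝔪_{W₁}` (`b₀ ∈ B₀`, `D₀ ∈ O₀`) for `g = γ⁻¹`.

**Theorem** `sqgcl_cartier_input` : the hypothesis `hC` of `SqgcrHyp.regular`.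
-/

set_option autoImplicit false
set_option linter.unusedSectionVars false
set_option linter.unusedVariables false

namespace Fermat.Agent.SQ

variable {F₀ F₁ : Type*} [Field F₀] [Field F₁]

/-- `B ∩ 𝔪_{W₁} ⊆ 𝔫 B` -/
theorem SqgcrHyp.max_of_nu₁ {B : Subring F₁} {W₁ W₂ : ValuationSubring F₁} {ϖ u w : F₁}
    {hor : F₁ → Prop} (h : SqgcrHyp B W₁ W₂ ϖ u w hor) {x : F₁} (hx : x ∈ B)
    (hx₁ : x ∈ W₁.nonunits) : SqgcrMax B ϖ u w x := by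
  by_contra hcon
  have h1 := h.loc x hx hcon
  have hx0 : x ≠ 0 := by
    rintro rfl
    exact hcon ⟨0, B.zero_mem, 0, B.zero_mem, 0, B.zero_mem, by ring⟩
  exact sqgcr_not_nu W₁ hx0 (h.le₁ _ h1) hx₁

/-- an element of `B` outside `𝔫 B` whose inverse ... : if `x ∈ 𝔫 B` and `x⁻¹ ∈ B` then `1 ∈ 𝔫 B` -/
theorem SqgcrHyp.not_max_of_unit {B : Subring F₁} {W₁ W₂ : ValuationSubring F₁} {ϖ u w : F₁}
    {hor : F₁ → Prop} (h : SqgcrHyp B W₁ W₂ ϖ u w hor) {x : F₁} (hx0 : x ≠ 0)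
    (hxi : x⁻¹ ∈ B) : ¬ SqgcrMax B ϖ u w x := by
  intro hcon
  apply h.one_not
  have := hcon.mul_left hxi
  rwa [inv_mul_cancel₀ hx0] at this

/-- **THE CARTIER INPUT (C)** of `SqgcrHyp.regular`. -/
theorem sqgcl_cartier_input {O₀ B₀ : Subring F₀} {ϖ₀ p : F₀} {q : ℕ} {d : F₀ → F₀}
    (h₀ : SqgcaHyp O₀ B₀ ϖ₀ p q d) (hq : q.Prime)
    (hloc₀ : ∀ x ∈ B₀, ¬ SqgcaMax B₀ ϖ₀ p x → x⁻¹ ∈ B₀)
    {B₁ : Subring F₁} {W₁ W₂ : ValuationSubring F₁} {ϖ₁ u w : F₁} {hor : F₁ → Prop}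
    (h₁ : SqgcrHyp B₁ W₁ W₂ ϖ₁ u w hor)
    (α : F₀ →+* F₁) (hαB : ∀ x ∈ B₀, α x ∈ B₁) (hαO : ∀ x ∈ O₀, α x ∈ W₁)
    (hαm : ∀ x ∈ O₀, α x ∈ W₁.nonunits → SqgcaPi O₀ ϖ₀ x) (hαϖ : α ϖ₀ = ϖ₁)
    (hpM : SqgcrMax B₁ ϖ₁ u w (α p))
    (lres : ∀ x ∈ B₁, ∃ b ∈ B₀, x - α b ∈ W₁.nonunits)
    (hgenp : ∀ x, SqgcrMax B₁ ϖ₁ u w x → ∃ c ∈ B₁, x - c * α p ∈ W₁.nonunits)
    {γ : F₁} (hγ0 : γ ≠ 0) (hg₁ : γ⁻¹ ∈ W₁) {b₀ D₀ : F₀} (hb₀ : b₀ ∈ B₀) (hD₀ : D₀ ∈ O₀)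
    (hdD : d D₀ ∈ O₀) (hgD : γ⁻¹ - α (b₀ + d D₀) ∈ W₁.nonunits) :
    ∀ v ∈ B₁, SqgcrMax B₁ ϖ₁ u w v →
      (∀ x, SqgcrMax B₁ ϖ₁ u w x → ∃ c ∈ B₁, x - c * v ∈ W₁.nonunits) →
      ¬ (γ * v⁻¹ ∈ B₁ ∧ γ⁻¹ * v ∈ B₁) := by
  rintro v hvB hvM hgenv ⟨hβi, hβ⟩
  set g : F₁ := γ⁻¹ with hgdef
  have hg0 : g ≠ 0 := inv_ne_zero hγ0
  -- `v ≠ 0`
  have hv0 : v ≠ 0 := by
    rintro rfl
    obtain ⟨x, hx, hx₁⟩ := h₁.nd₁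
    obtain ⟨c, hc, hc'⟩ := hgenv x hx
    rw [mul_zero, sub_zero] at hc'
    exact hx₁ hc'
  -- `β := g v` is a unit of `B₁`
  have hβ0 : g * v ≠ 0 := mul_ne_zero hg0 hv0
  have hβinv : (g * v)⁻¹ ∈ B₁ := by
    have : (g * v)⁻¹ = γ * v⁻¹ := by rw [mul_inv, hgdef, inv_inv]
    rw [this]; exact hβi
  have hβM : ¬ SqgcrMax B₁ ϖ₁ u w (g * v) := h₁.not_max_of_unit hβ0 hβinv
  -- `α p` is a unit of `W₁`
  have hp0 : p ≠ 0 := h₀.p_ne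
  have hαp0 : α p ≠ 0 := (map_ne_zero α).mpr hp0
  have hαpi : (α p)⁻¹ ∈ W₁ := by
    rw [← map_inv₀]; exact hαO _ h₀.pinv
  have hαp₁ : α p ∈ W₁ := hαO _ (h₀.BO h₀.pB)
  have hαpnu : α p ∉ W₁.nonunits := sqgcr_not_nu W₁ hαp0 hαpi
  -- the two generators differ by a unit
  obtain ⟨c, hc, hcv⟩ := hgenv (α p) hpM
  obtain ⟨c', hc', hc'p⟩ := hgenp v hvM
  have hcc' : ¬ SqgcrMax B₁ ϖ₁ u w c' := by
    intro hc'M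
    -- `α p (1 - c c') ∈ 𝔪_{W₁}`
    have h1 : α p * (1 - c * c') ∈ W₁.nonunits := by
      have e : α p * (1 - c * c') = (α p - c * v) + c * (v - c' * α p) := by ring
      rw [e]
      exact sqgcr_nu_add W₁ hcv (sqgcr_nu_mul W₁ (h₁.le₁ _ hc) hc'p)
    have h2 : (1 - c * c') ∈ W₁.nonunits := by
      have e : (1 - c * c') = (α p)⁻¹ * (α p * (1 - c * c')) := by
        rw [← mul_assoc, inv_mul_cancel₀ hαp0, one_mul]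
      rw [e]
      exact sqgcr_nu_mul W₁ hαpi h1
    have h3 : SqgcrMax B₁ ϖ₁ u w (1 - c * c') :=
      h₁.max_of_nu₁ (B₁.sub_mem B₁.one_mem (B₁.mul_mem hc hc')) h2
    apply h₁.one_not
    refine (h3.add (hc'M.mul_left hc)).of_eq ?_
    ring
  -- lift `c'` and `β` to the lower level
  obtain ⟨c₀', hc₀', hc₀'m⟩ := lres c' hc'
  obtain ⟨b', hb', hb'm⟩ := lres (g * v) hβ
  -- `c₀'` and `b'` are units of `B₀`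
  have hmax₀ : ∀ x, SqgcaMax B₀ ϖ₀ p x → SqgcrMax B₁ ϖ₁ u w (α x) := by
    rintro x ⟨y, hy, z, hz, rfl⟩
    rw [map_add, map_mul, map_mul, hαϖ]
    refine ((sqgcr_max_pi.mul_left (hαB _ hy)).add (hpM.mul_left (hαB _ hz))).of_eq ?_
    ring
  have hc₀'u : ¬ SqgcaMax B₀ ϖ₀ p c₀' := by
    intro hcon
    apply hcc'
    have h1 : SqgcrMax B₁ ϖ₁ u w (c' - α c₀') :=
      h₁.max_of_nu₁ (B₁.sub_mem hc' (hαB _ hc₀')) hc₀'m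
    refine (h1.add (hmax₀ _ hcon)).of_eq ?_
    ring
  have hb'u : ¬ SqgcaMax B₀ ϖ₀ p b' := by
    intro hcon
    apply hβM
    have h1 : SqgcrMax B₁ ϖ₁ u w (g * v - α b') :=
      h₁.max_of_nu₁ (B₁.sub_mem hβ (hαB _ hb')) hb'm
    refine (h1.add (hmax₀ _ hcon)).of_eq ?_
    ring
  have hc₀'i := hloc₀ c₀' hc₀' hc₀'u
  have hb'i := hloc₀ b' hb' hb'u
  have hc₀'0 : c₀' ≠ 0 := by
    rintro rfl
    exact hc₀'u ⟨0, B₀.zero_mem, 0, B₀.zero_mem, by ring⟩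
  have hb'0 : b' ≠ 0 := by
    rintro rfl
    exact hb'u ⟨0, B₀.zero_mem, 0, B₀.zero_mem, by ring⟩
  -- `α ((b₀ + ∂ D₀) c₀' p - b') ∈ 𝔪_{W₁}`
  set G₀ : F₀ := b₀ + d D₀ with hG₀
  have hG₀O : G₀ ∈ O₀ := O₀.add_mem (h₀.BO hb₀) hdD
  have hαG₀ : α G₀ ∈ W₁ := hαO _ hG₀O
  have hkey : α (G₀ * c₀' * p - b') ∈ W₁.nonunits := by
    have e : α (G₀ * c₀' * p - b') =
        - ((g - α G₀) * (c' * α p)) - g * (v - c' * α p) - α G₀ * α p * (c' - α c₀')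
          + (g * v - α b') := by
      rw [map_sub, map_mul, map_mul]
      ring
    rw [e]
    refine sqgcr_nu_add W₁ (sqgcr_nu_sub W₁ (sqgcr_nu_sub W₁ (sqgcr_nu_neg W₁ ?_) ?_) ?_) hb'm
    · rw [mul_comm]
      exact sqgcr_nu_mul W₁ (W₁.mul_mem _ _ (h₁.le₁ _ hc') hαp₁) hgD
    · exact sqgcr_nu_mul W₁ hg₁ hc'p
    · exact sqgcr_nu_mul W₁ (W₁.mul_mem _ _ hαG₀ hαp₁) hc₀'m
  have hkey' : SqgcaPi O₀ ϖ₀ (G₀ * c₀' * p - b') :=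
    hαm _ (O₀.sub_mem (O₀.mul_mem (O₀.mul_mem hG₀O (h₀.BO hc₀')) (h₀.BO h₀.pB)) (h₀.BO hb')) hkey
  -- divide by `c₀' p`
  have hfin : SqgcaPi O₀ ϖ₀ (d D₀ - (b' * c₀'⁻¹) / p - (-b₀)) := by
    refine (hkey'.mul_left (O₀.mul_mem (h₀.BO hc₀'i) h₀.pinv)).of_eq ?_
    rw [hG₀]
    field_simp
    ring
  refine h₀.cartier hq hD₀ (B₀.mul_mem hb' hc₀'i) (mul_ne_zero hb'0 (inv_ne_zero hc₀'0)) ?_
    (B₀.neg_mem hb₀) hfin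
  rw [mul_inv, inv_inv]
  exact B₀.mul_mem hb'i hc₀'

end Fermat.Agent.SQ
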