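import Mathlib
import Fermat.Agent.SQ.Germ.CrossInst
import Fermat.Agent.SQ.Germ.CrossLink

/-!
# Program Q, R1 (thickness one) : THE CONCRETE CARTIER INPUT (C) at a crossing point of the level
`q M'` (prefix `sqgcx`)

Two levels in the setting of S18 package T over the same `(A, L, ϖ)` : the good level
`F₀ ∋ t₀` (`P₀ = s18tInt A t₀`, Gauss ring `O₀ = s18tIntLoc A t₀ (C ϖ)`, a closed point `𝔰` with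
`𝔰 (P₀)_𝔰 = (ϖ, p)`, `B₀ = ssLocRing t₀ 𝔰`) and the level `F₁ ∋ t₁` with a crossing point `𝔫₁`
(`B₁ = ssLocRing t₁ 𝔫₁`, the data of `sqgci_hyp`), and the level map `α : F₀ →+* F₁` with
`α P₀ ⊆ P₁`, `α⁻¹ 𝔫₁ = 𝔰`, `α⁻¹ W₁ = O₀`, `P₁ = α P₀ + 𝔭_{W₁}`.

* `sqgcx_max₀_iff`, `sqgcx_loc₀` : `(ϖ, p) B₀ = 𝔰 B₀`, `B₀` is local;
* `sqgcx_map_loc`, `sqgcx_map_inMax`, `sqgcx_inMax_of_map` : `α B₀ ⊆ B₁`, `α⁻¹ (𝔫₁ B₁) ∩ B₀ = 𝔰 B₀`;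
* `sqgcx_pi_of_nu` : `x ∈ O₀`, `α x ∈ 𝔪_{W₁}` ⟹ `x ∈ ϖ O₀`;
* `sqgcx_lres` : local residue surjectivity `B₁ = α B₀ + 𝔪_{W₁}`;
* `sqgcx_hC` : **the hypothesis (C) of `SqgcrHyp.regular` / `sqgci_node_of_regular`** from the
  Cartier hypotheses `SqgcaHyp O₀ B₀ ϖ p q ∂` at `𝔰` and the `D`-identity
  `γ⁻¹ ≡ α (b₀ + ∂ D₀) mod 𝔪_{W₁}`;
* `sqgcx_node`, `sqgcx_node_of_crossPlus` : (K) + the above ⟹ `SqgaNode ϖ t₁ W₁ W₂ 𝔫₁`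
  (thickness one).
-/

set_option autoImplicit false
set_option linter.unusedSectionVars false
set_option linter.unusedVariables false
set_option linter.style.haveILetI false

noncomputable section

namespace Fermat.Agent.SQ

open Polynomial IntermediateField AlgebraicCurve Fermat.Agent.S18 Fermat.Agent.SS Fermat.Agent.G
  IsLocalRing

universe u₀ u₁

variable {A : Type*} [CommRing A] [IsDomain A] [IsDiscreteValuationRing A] [CharZero A]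
variable {L : Type*} [Field L] [Algebra A L] [IsFractionRing A L]
variable {F₀ : Type u₀} [Field F₀] [Algebra A F₀] [Algebra L F₀] [IsScalarTower A L F₀]
variable {F₁ : Type u₁} [Field F₁] [Algebra A F₁] [Algebra L F₁] [IsScalarTower A L F₁]
variable {ϖ : A} {t₀ : F₀} {t₁ : F₁}

/-! ### the good level : `B₀ = (P₀)_𝔰` is local with maximal ideal `(ϖ, p)` -/

section Level0

variable {𝔰 : Ideal ↥(s18tInt A t₀)} [h𝔰 : 𝔰.IsPrime] {p : ↥(s18tInt A t₀)}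

/-- `(ϖ, p) B₀ = 𝔰 B₀` -/
theorem sqgcx_max₀_iff (hϖ𝔰 : sskPi ϖ t₀ ∈ 𝔰) (hp𝔰 : p ∈ 𝔰)
    (hgen : ∀ x ∈ 𝔰, ∃ s : ↥(s18tInt A t₀), s ∉ 𝔰 ∧ ∃ a b : ↥(s18tInt A t₀),
      s * x = a * sskPi ϖ t₀ + b * p) (x : F₀) :
    SqgcaMax (ssLocRing t₀ 𝔰) (algebraMap A F₀ ϖ) (p : F₀) x ↔ SsInMax t₀ 𝔰 x := by
  constructor
  · rintro ⟨y, hy, z, hz, rfl⟩
    have hϖM : SsInMax t₀ 𝔰 (algebraMap A F₀ ϖ) := sqgcu_inMax_of_mem (t := t₀) (𝔫 := 𝔰) hϖ𝔰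
    have hpM : SsInMax t₀ 𝔰 (p : F₀) := sqgcu_inMax_of_mem (t := t₀) (𝔫 := 𝔰) hp𝔰
    rw [mul_comm (algebraMap A F₀ ϖ) y, mul_comm (p : F₀) z]
    exact sqgcu_inMax_add (sqgcu_inMax_mul hy hϖM) (sqgcu_inMax_mul hz hpM)
  · rintro ⟨s, hs, p', hp', hsx⟩
    obtain ⟨s', hs', a, b, hab⟩ := hgen p' hp'
    have hab' : (s' : F₀) * (p' : F₀) = (a : F₀) * algebraMap A F₀ ϖ + (b : F₀) * (p : F₀) :=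
      congrArg (fun z : ↥(s18tInt A t₀) => (z : F₀)) hab
    have hs0 : (s : F₀) ≠ 0 := fun h0 => hs (by
      have : s = 0 := Subtype.ext h0
      rw [this]; exact 𝔰.zero_mem)
    have hs'0 : (s' : F₀) ≠ 0 := fun h0 => hs' (by
      have : s' = 0 := Subtype.ext h0
      rw [this]; exact 𝔰.zero_mem)
    have hsi : (s : F₀)⁻¹ ∈ ssLocRing t₀ 𝔰 := sqgcu_inv_mem_loc hs
    have hs'i : (s' : F₀)⁻¹ ∈ ssLocRing t₀ 𝔰 := sqgcu_inv_mem_loc hs'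
    have hP : ∀ z : ↥(s18tInt A t₀), (z : F₀) ∈ ssLocRing t₀ 𝔰 := fun z =>
      ssl_int_le_locRing t₀ 𝔰 z.2
    refine ⟨(s : F₀)⁻¹ * (s' : F₀)⁻¹ * (a : F₀),
      Subring.mul_mem _ (Subring.mul_mem _ hsi hs'i) (hP a),
      (s : F₀)⁻¹ * (s' : F₀)⁻¹ * (b : F₀),
      Subring.mul_mem _ (Subring.mul_mem _ hsi hs'i) (hP b), ?_⟩
    have h1 : x = (s : F₀)⁻¹ * (p' : F₀) := by
      rw [← hsx, ← mul_assoc, inv_mul_cancel₀ hs0, one_mul]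
    have h2 : (p' : F₀) = (s' : F₀)⁻¹ * ((s' : F₀) * (p' : F₀)) := by
      rw [← mul_assoc, inv_mul_cancel₀ hs'0, one_mul]
    rw [h1, h2, hab']
    ring

/-- `B₀` is local with maximal ideal `(ϖ, p) B₀` -/
theorem sqgcx_loc₀ (hϖ𝔰 : sskPi ϖ t₀ ∈ 𝔰) (hp𝔰 : p ∈ 𝔰)
    (hgen : ∀ x ∈ 𝔰, ∃ s : ↥(s18tInt A t₀), s ∉ 𝔰 ∧ ∃ a b : ↥(s18tInt A t₀),
      s * x = a * sskPi ϖ t₀ + b * p) :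
    ∀ x ∈ ssLocRing t₀ 𝔰, ¬ SqgcaMax (ssLocRing t₀ 𝔰) (algebraMap A F₀ ϖ) (p : F₀) x →
      x⁻¹ ∈ ssLocRing t₀ 𝔰 := fun x hx hnot =>
  sqgcu_inv_mem_of_not_inMax hx (fun h => hnot ((sqgcx_max₀_iff hϖ𝔰 hp𝔰 hgen x).mpr h))

end Level0

/-! ### the level map -/

section Map

variable {𝔰 : Ideal ↥(s18tInt A t₀)} [h𝔰 : 𝔰.IsPrime] {𝔫₁ : Ideal ↥(s18tInt A t₁)}
  [h𝔫₁ : 𝔫₁.IsPrime] (α : F₀ →+* F₁) (hαP : ∀ x ∈ s18tInt A t₀, α x ∈ s18tInt A t₁)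
  (h𝔰𝔫 : ∀ x : ↥(s18tInt A t₀), x ∈ 𝔰 ↔ (⟨α x, hαP x x.2⟩ : ↥(s18tInt A t₁)) ∈ 𝔫₁)

include h𝔰𝔫 in
/-- `α B₀ ⊆ B₁` -/
theorem sqgcx_map_loc {x : F₀} (hx : x ∈ ssLocRing t₀ 𝔰) : α x ∈ ssLocRing t₁ 𝔫₁ := by
  obtain ⟨s, hs, hsx⟩ := hx
  refine ⟨⟨α s, hαP s s.2⟩, fun h => hs ((h𝔰𝔫 s).mpr h), ?_⟩
  show α (s : F₀) * α x ∈ s18tInt A t₁
  rw [← map_mul]
  exact hαP _ hsx

include h𝔰𝔫 in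
/-- `α (𝔰 B₀) ⊆ 𝔫₁ B₁` -/
theorem sqgcx_map_inMax {x : F₀} (hx : SsInMax t₀ 𝔰 x) : SsInMax t₁ 𝔫₁ (α x) := by
  obtain ⟨s, hs, p', hp', hsx⟩ := hx
  refine ⟨⟨α s, hαP s s.2⟩, fun h => hs ((h𝔰𝔫 s).mpr h), ⟨α p', hαP p' p'.2⟩,
    (h𝔰𝔫 p').mp hp', ?_⟩
  show α (s : F₀) * α x = α (p' : F₀)
  rw [← map_mul, hsx]

include h𝔰𝔫 in
/-- `B₀ ∩ α⁻¹ (𝔫₁ B₁) ⊆ 𝔰 B₀` -/
theorem sqgcx_inMax_of_map {x : F₀} (hx : x ∈ ssLocRing t₀ 𝔰)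
    (hαx : SsInMax t₁ 𝔫₁ (α x)) : SsInMax t₀ 𝔰 x := by
  by_contra hnot
  have hxi : x⁻¹ ∈ ssLocRing t₀ 𝔰 := sqgcu_inv_mem_of_not_inMax hx hnot
  have hx0 : x ≠ 0 := by
    rintro rfl
    apply hnot
    exact ⟨1, fun h => h𝔰.ne_top ((Ideal.eq_top_iff_one _).mpr h), 0, 𝔰.zero_mem, by simp⟩
  have h1 : SsInMax t₁ 𝔫₁ (α x⁻¹ * α x) :=
    sqgcu_inMax_mul (sqgcx_map_loc α hαP h𝔰𝔫 hxi) hαx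
  rw [← map_mul, inv_mul_cancel₀ hx0, map_one] at h1
  exact sqgcu_not_inMax_one h1

end Map

/-! ### `α⁻¹ 𝔪_{W₁} ∩ O₀ = ϖ O₀` -/

/-- `x ∈ O₀`, `α x ∈ 𝔪_{W₁}` ⟹ `x ∈ ϖ O₀`, when `α⁻¹ W₁ = O₀` and `ϖ` is a uniformiser of `W₁`. -/
theorem sqgcx_pi_of_nu (K : Type*) [Field K] [Algebra A K] [IsFractionRing A K]
    [Algebra K F₀] [IsScalarTower A K F₀] [Algebra K F₁] [IsScalarTower A K F₁]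
    (hϖ : Irreducible ϖ) {W₁ : ValuationSubring F₁} (α : F₀ →+* F₁)
    (hαA : ∀ a : A, α (algebraMap A F₀ a) = algebraMap A F₁ a)
    (hαO : ∀ x : F₀, x ∈ s18tIntLoc A t₀ (C ϖ) (s18t_prime_C hϖ) ↔ α x ∈ W₁)
    (hunif₁ : S18IsUnif W₁ (algebraMap A F₁ ϖ)) {x : F₀}
    (hx : α x ∈ W₁.nonunits) :
    SqgcaPi (s18tIntLoc A t₀ (C ϖ) (s18t_prime_C hϖ)) (algebraMap A F₀ ϖ) x := by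
  have hϖ0 : algebraMap A F₀ ϖ ≠ 0 := sqga_pi_ne_zero K hϖ
  have hϖ1 : algebraMap A F₁ ϖ ≠ 0 := sqga_pi_ne_zero K hϖ
  refine ⟨x / algebraMap A F₀ ϖ, ?_, by rw [mul_div_cancel₀ _ hϖ0]⟩
  rw [hαO, map_div₀, hαA, ← W₁.valuation_le_one_iff, map_div₀]
  have h1 := hunif₁.2 (α x) ((W₁.mem_nonunits_iff).mp hx)
  have hv0 : W₁.valuation (algebraMap A F₁ ϖ) ≠ 0 := (Valuation.ne_zero_iff _).mpr hϖ1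
  exact (div_le_one₀ (zero_lt_iff.mpr hv0)).mpr h1

/-! ### local residue surjectivity and the generator `α p` -/

section Res

variable {𝔰 : Ideal ↥(s18tInt A t₀)} [h𝔰 : 𝔰.IsPrime] {𝔫₁ : Ideal ↥(s18tInt A t₁)}
  [h𝔫₁ : 𝔫₁.IsPrime] {W₁ : ValuationSubring F₁} (α : F₀ →+* F₁)
  (hαP : ∀ x ∈ s18tInt A t₀, α x ∈ s18tInt A t₁)
  (h𝔰𝔫 : ∀ x : ↥(s18tInt A t₀), x ∈ 𝔰 ↔ (⟨α x, hαP x x.2⟩ : ↥(s18tInt A t₁)) ∈ 𝔫₁)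

include h𝔰𝔫 in
/-- (lres) LOCAL RESIDUE SURJECTIVITY : `B₁ = α B₀ + 𝔪_{W₁}` from `P₁ = α P₀ + 𝔭_{W₁}`. -/
theorem sqgcx_lres (hle₁ : ∀ x ∈ s18tInt A t₁, x ∈ W₁)
    (hon₁ : ∀ y : ↥(s18tInt A t₁), (y : F₁) ∈ W₁.nonunits → y ∈ 𝔫₁)
    (hres₁ : ∀ y ∈ s18tInt A t₁, ∃ r ∈ s18tInt A t₀, y - α r ∈ W₁.nonunits)
    {x : F₁} (hx : x ∈ ssLocRing t₁ 𝔫₁) :
    ∃ b ∈ ssLocRing t₀ 𝔰, x - α b ∈ W₁.nonunits := by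
  obtain ⟨s, hs, hsx⟩ := hx
  obtain ⟨c, hcP, hc⟩ := hres₁ s s.2
  obtain ⟨b, hbP, hb⟩ := hres₁ _ hsx
  have hαc𝔫 : (⟨α c, hαP c hcP⟩ : ↥(s18tInt A t₁)) ∉ 𝔫₁ := by
    intro h
    apply hs
    have h1 : s - ⟨α c, hαP c hcP⟩ ∈ 𝔫₁ := hon₁ _ hc
    have e : s = (s - ⟨α c, hαP c hcP⟩) + ⟨α c, hαP c hcP⟩ := by ring
    rw [e]
    exact 𝔫₁.add_mem h1 h
  have hc𝔰 : (⟨c, hcP⟩ : ↥(s18tInt A t₀)) ∉ 𝔰 := fun h => hαc𝔫 ((h𝔰𝔫 ⟨c, hcP⟩).mp h)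
  have hunit : ∀ z : ↥(s18tInt A t₁), z ∉ 𝔫₁ → W₁.valuation (z : F₁) = 1 := by
    intro z hz
    refine le_antisymm ((W₁.valuation_le_one_iff _).mpr (hle₁ _ z.2)) (not_lt.mp fun hlt => hz ?_)
    exact hon₁ z ((W₁.mem_nonunits_iff).mpr hlt)
  have hvs := hunit s hs
  have hvc : W₁.valuation (α c) = 1 := hunit _ hαc𝔫
  have hs0 : (s : F₁) ≠ 0 := fun h => by rw [h, map_zero] at hvs; exact zero_ne_one hvs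
  have hαc0 : α c ≠ 0 := fun h => by rw [h, map_zero] at hvc; exact zero_ne_one hvc
  have hc0 : c ≠ 0 := fun h => hαc0 (by rw [h, map_zero])
  refine ⟨b / c, ⟨⟨c, hcP⟩, hc𝔰, ?_⟩, ?_⟩
  · show c * (b / c) ∈ s18tInt A t₀
    rw [mul_div_cancel₀ _ hc0]
    exact hbP
  · have key : x - α (b / c) = ((s : F₁) * α c)⁻¹ *
        (((s : F₁) * x - α b) * α c - α b * ((s : F₁) - α c)) := by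
      rw [map_div₀]
      field_simp
      ring
    rw [W₁.mem_nonunits_iff, key, map_mul, map_inv₀, map_mul, hvs, hvc, mul_one, inv_one, one_mul]
    refine lt_of_le_of_lt (Valuation.map_sub _ _ _) (max_lt ?_ ?_)
    · rw [map_mul, hvc, mul_one]
      exact (W₁.mem_nonunits_iff).mp hb
    · rw [map_mul]
      have h1 : W₁.valuation (α b) ≤ 1 :=
        (W₁.valuation_le_one_iff _).mpr (hle₁ _ (hαP b hbP))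
      calc W₁.valuation (α b) * W₁.valuation ((s : F₁) - α c)
          ≤ 1 * W₁.valuation ((s : F₁) - α c) := mul_le_mul' h1 le_rfl
        _ = W₁.valuation ((s : F₁) - α c) := one_mul _
        _ < 1 := (W₁.mem_nonunits_iff).mp hc

end Res

/-! ### the Cartier input (C) -/

section Main

variable {𝔰 : Ideal ↥(s18tInt A t₀)} [h𝔰 : 𝔰.IsPrime] {p : ↥(s18tInt A t₀)}
  {𝔫₁ : Ideal ↥(s18tInt A t₁)} {W₁ W₂ : ValuationSubring F₁} {u w : F₁}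

/-- **THE CONCRETE CARTIER INPUT (C)** : the hypothesis `hC` of `sqgci_node_of_regular` at a
crossing point `𝔫₁` of the level `q M'` above the closed point `𝔰` of the good level. -/
theorem sqgcx_hC (hϖ : Irreducible ϖ)
    -- the good level
    (hϖ𝔰 : sskPi ϖ t₀ ∈ 𝔰) (hp𝔰 : p ∈ 𝔰)
    (hgen : ∀ x ∈ 𝔰, ∃ s : ↥(s18tInt A t₀), s ∉ 𝔰 ∧ ∃ a b : ↥(s18tInt A t₀),
      s * x = a * sskPi ϖ t₀ + b * p)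
    {q : ℕ} (hq : q.Prime) {d : F₀ → F₀}
    (h₀ : SqgcaHyp (s18tIntLoc A t₀ (C ϖ) (s18t_prime_C hϖ)) (ssLocRing t₀ 𝔰)
      (algebraMap A F₀ ϖ) (p : F₀) q d)
    -- the crossing point
    (ht₁ : Transcendental L t₁) [FiniteDimensional L⟮t₁⟯ F₁] (two : SsgaTwo ϖ t₁ W₁ W₂)
    (hmem : ∀ x, x ∈ s18tIntLoc A t₁ (C ϖ) (s18t_prime_C hϖ) ↔ x ∈ W₁ ∧ x ∈ W₂)
    (hmax : 𝔫₁.IsMaximal) (hϖ𝔫 : sskPi ϖ t₁ ∈ 𝔫₁)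
    (hon₁ : ∀ y : ↥(s18tInt A t₁), (y : F₁) ∈ W₁.nonunits → y ∈ 𝔫₁)
    (hon₂ : ∀ y : ↥(s18tInt A t₁), (y : F₁) ∈ W₂.nonunits → y ∈ 𝔫₁)
    (hu : SsnfInMax t₁ 𝔫₁ u) (hw : SsnfInMax t₁ 𝔫₁ w) (hspan : SsgaSpan3 ϖ t₁ 𝔫₁ u w)
    (hu₁ : u ∈ W₁.nonunits) (hw₂ : w ∈ W₂.nonunits)
    -- the level map
    (α : F₀ →+* F₁) (hαA : ∀ a : A, α (algebraMap A F₀ a) = algebraMap A F₁ a)
    (hαP : ∀ x ∈ s18tInt A t₀, α x ∈ s18tInt A t₁)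
    (h𝔰𝔫 : ∀ x : ↥(s18tInt A t₀), x ∈ 𝔰 ↔ (⟨α x, hαP x x.2⟩ : ↥(s18tInt A t₁)) ∈ 𝔫₁)
    (hαO : ∀ x : F₀, x ∈ s18tIntLoc A t₀ (C ϖ) (s18t_prime_C hϖ) ↔ α x ∈ W₁)
    (hunif₁ : S18IsUnif W₁ (algebraMap A F₁ ϖ))
    (hres₁ : ∀ y ∈ s18tInt A t₁, ∃ r ∈ s18tInt A t₀, y - α r ∈ W₁.nonunits)
    -- the `D`-identity
    {γ : F₁} (hγ0 : γ ≠ 0) (hg₁ : γ⁻¹ ∈ W₁) {b₀ D₀ : F₀} (hb₀ : b₀ ∈ ssLocRing t₀ 𝔰)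
    (hD₀ : D₀ ∈ s18tIntLoc A t₀ (C ϖ) (s18t_prime_C hϖ))
    (hdD : d D₀ ∈ s18tIntLoc A t₀ (C ϖ) (s18t_prime_C hϖ))
    (hgD : γ⁻¹ - α (b₀ + d D₀) ∈ W₁.nonunits) :
    ∀ v ∈ ssLocRing (h𝔫 := hmax.isPrime) t₁ 𝔫₁,
      SqgcrMax (ssLocRing (h𝔫 := hmax.isPrime) t₁ 𝔫₁) (algebraMap A F₁ ϖ) u w v →
      (∀ x, SqgcrMax (ssLocRing (h𝔫 := hmax.isPrime) t₁ 𝔫₁) (algebraMap A F₁ ϖ) u w x →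
        ∃ c ∈ ssLocRing (h𝔫 := hmax.isPrime) t₁ 𝔫₁, x - c * v ∈ W₁.nonunits) →
      ¬ (γ * v⁻¹ ∈ ssLocRing (h𝔫 := hmax.isPrime) t₁ 𝔫₁ ∧
        γ⁻¹ * v ∈ ssLocRing (h𝔫 := hmax.isPrime) t₁ 𝔫₁) := by
  haveI h𝔫₁ : 𝔫₁.IsPrime := hmax.isPrime
  have H₁ := sqgci_hyp hϖ ht₁ two hmem hmax hϖ𝔫 hon₁ hon₂ hu hw hspan hu₁ hw₂
  have hlres : ∀ x ∈ ssLocRing t₁ 𝔫₁, ∃ b ∈ ssLocRing t₀ 𝔰, x - α b ∈ W₁.nonunits :=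
    fun x hx => sqgcx_lres α hαP h𝔰𝔫 two.le₁ hon₁ hres₁ hx
  have hpM : SqgcrMax (ssLocRing t₁ 𝔫₁) (algebraMap A F₁ ϖ) u w (α (p : F₀)) :=
    sqgci_max_of_inMax hspan
      (sqgcx_map_inMax α hαP h𝔰𝔫 (sqgcu_inMax_of_mem (t := t₀) (𝔫 := 𝔰) hp𝔰))
  refine sqgcl_cartier_input h₀ hq (sqgcx_loc₀ hϖ𝔰 hp𝔰 hgen) H₁ α
    (fun x hx => sqgcx_map_loc α hαP h𝔰𝔫 hx) (fun x hx => (hαO x).mp hx)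
    (fun x _ hx => sqgcx_pi_of_nu L hϖ α hαA hαO hunif₁ hx) (hαA ϖ) hpM hlres ?_ hγ0 hg₁
    hb₀ hD₀ hdD hgD
  -- `α p` generates `𝔫₁ B₁` modulo `𝔪_{W₁}`
  intro x hxM
  have hxB : x ∈ ssLocRing t₁ 𝔫₁ := H₁.max_mem hxM
  obtain ⟨b, hb, hxb⟩ := hlres x hxB
  have hαb : SsInMax t₁ 𝔫₁ (α b) := by
    have h1 : SqgcrMax (ssLocRing t₁ 𝔫₁) (algebraMap A F₁ ϖ) u w (x - α b) :=
      H₁.max_of_nu₁ (Subring.sub_mem _ hxB (sqgcx_map_loc α hαP h𝔰𝔫 hb)) hxb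
    have h2 := sqgcu_inMax_sub (sqgci_inMax_of_max hϖ𝔫 hu hw hxM)
      (sqgci_inMax_of_max hϖ𝔫 hu hw h1)
    rwa [sub_sub_cancel] at h2
  have hb𝔰 : SsInMax t₀ 𝔰 b := sqgcx_inMax_of_map α hαP h𝔰𝔫 hb hαb
  obtain ⟨y, hy, z, hz, rfl⟩ := (sqgcx_max₀_iff hϖ𝔰 hp𝔰 hgen b).mpr hb𝔰
  refine ⟨α z, sqgcx_map_loc α hαP h𝔰𝔫 hz, ?_⟩
  have e : x - α z * α (p : F₀) =
      (x - α (algebraMap A F₀ ϖ * y + (p : F₀) * z)) + α y * algebraMap A F₁ ϖ := by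
    rw [map_add, map_mul, map_mul, hαA]
    ring
  rw [e]
  exact sqgcr_nu_add W₁ hxb
    (sqgcr_nu_mul W₁ (H₁.le₁ _ (sqgcx_map_loc α hαP h𝔰𝔫 hy)) two.unif₁)

/-- **THICKNESS ONE AT A CROSSING POINT** : (K) (`γ = ϖ² ε`, `γ ∈ W₁ˣ`, `ε ∈ W₂ˣ`, `γ^{±1}` without
horizontal poles through `𝔫₁`) + the Cartier hypotheses at the good level + the `D`-identity
⟹ `SqgaNode ϖ t₁ W₁ W₂ 𝔫₁`, together with `𝔫₁ B₁ = (u, w)`. -/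
theorem sqgcx_node (hϖ : Irreducible ϖ)
    -- the good level
    (hϖ𝔰 : sskPi ϖ t₀ ∈ 𝔰) (hp𝔰 : p ∈ 𝔰)
    (hgen : ∀ x ∈ 𝔰, ∃ s : ↥(s18tInt A t₀), s ∉ 𝔰 ∧ ∃ a b : ↥(s18tInt A t₀),
      s * x = a * sskPi ϖ t₀ + b * p)
    {q : ℕ} (hq : q.Prime) {d : F₀ → F₀}
    (h₀ : SqgcaHyp (s18tIntLoc A t₀ (C ϖ) (s18t_prime_C hϖ)) (ssLocRing t₀ 𝔰)
      (algebraMap A F₀ ϖ) (p : F₀) q d)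
    -- the crossing point
    (ht₁ : Transcendental L t₁) [FiniteDimensional L⟮t₁⟯ F₁] (two : SsgaTwo ϖ t₁ W₁ W₂)
    (hmem : ∀ x, x ∈ s18tIntLoc A t₁ (C ϖ) (s18t_prime_C hϖ) ↔ x ∈ W₁ ∧ x ∈ W₂)
    (hmax : 𝔫₁.IsMaximal) (hϖ𝔫 : sskPi ϖ t₁ ∈ 𝔫₁)
    (hon₁ : ∀ y : ↥(s18tInt A t₁), (y : F₁) ∈ W₁.nonunits → y ∈ 𝔫₁)
    (hon₂ : ∀ y : ↥(s18tInt A t₁), (y : F₁) ∈ W₂.nonunits → y ∈ 𝔫₁)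
    (hu : SsnfInMax t₁ 𝔫₁ u) (hw : SsnfInMax t₁ 𝔫₁ w) (hspan : SsgaSpan3 ϖ t₁ 𝔫₁ u w)
    (hu₁ : u ∈ W₁.nonunits) (hw₂ : w ∈ W₂.nonunits)
    -- the level map
    (α : F₀ →+* F₁) (hαA : ∀ a : A, α (algebraMap A F₀ a) = algebraMap A F₁ a)
    (hαP : ∀ x ∈ s18tInt A t₀, α x ∈ s18tInt A t₁)
    (h𝔰𝔫 : ∀ x : ↥(s18tInt A t₀), x ∈ 𝔰 ↔ (⟨α x, hαP x x.2⟩ : ↥(s18tInt A t₁)) ∈ 𝔫₁)
    (hαO : ∀ x : F₀, x ∈ s18tIntLoc A t₀ (C ϖ) (s18t_prime_C hϖ) ↔ α x ∈ W₁)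
    (hunif₁ : S18IsUnif W₁ (algebraMap A F₁ ϖ))
    (hres₁ : ∀ y ∈ s18tInt A t₁, ∃ r ∈ s18tInt A t₀, y - α r ∈ W₁.nonunits)
    -- (K)
    {γ ε : F₁} (hγ0 : γ ≠ 0) (hγ₁ : γ ∈ W₁) (hγ₁i : γ⁻¹ ∈ W₁) (hε : ε ∈ W₂) (hεi : ε⁻¹ ∈ W₂)
    (hγε : γ = algebraMap A F₁ ϖ ^ 2 * ε)
    (hγh : SqgciHor L t₁ 𝔫₁ γ) (hγhi : SqgciHor L t₁ 𝔫₁ γ⁻¹)
    -- the `D`-identity
    {b₀ D₀ : F₀} (hb₀ : b₀ ∈ ssLocRing t₀ 𝔰)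
    (hD₀ : D₀ ∈ s18tIntLoc A t₀ (C ϖ) (s18t_prime_C hϖ))
    (hdD : d D₀ ∈ s18tIntLoc A t₀ (C ϖ) (s18t_prime_C hϖ))
    (hgD : γ⁻¹ - α (b₀ + d D₀) ∈ W₁.nonunits) :
    SqgaNode ϖ t₁ W₁ W₂ 𝔫₁ ∧
      ∀ x, SsInMax t₁ 𝔫₁ x →
        ∃ a ∈ ssLocRing (h𝔫 := hmax.isPrime) t₁ 𝔫₁,
        ∃ b ∈ ssLocRing (h𝔫 := hmax.isPrime) t₁ 𝔫₁, x = a * u + b * w :=
  sqgci_node_of_regular hϖ ht₁ two hmem hmax hϖ𝔫 hon₁ hon₂ hu hw hspan hu₁ hw₂ hγ0 hγ₁ hγ₁i hε hεi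
    hγε hγh hγhi
    (sqgcx_hC hϖ hϖ𝔰 hp𝔰 hgen hq h₀ ht₁ two hmem hmax hϖ𝔫 hon₁ hon₂ hu hw hspan hu₁ hw₂ α hαA hαP
      h𝔰𝔫 hαO hunif₁ hres₁ hγ0 hγ₁i hb₀ hD₀ hdD hgD)

/-- **THICKNESS ONE AT A CROSSING POINT, from the enriched crossing germ** `SsGermCrossPlus`
(`SS/Germ/MainPlus.lean`, which provides `u`, `w`). -/
theorem sqgcx_node_of_crossPlus (hϖ : Irreducible ϖ)
    -- the good level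
    (hϖ𝔰 : sskPi ϖ t₀ ∈ 𝔰) (hp𝔰 : p ∈ 𝔰)
    (hgen : ∀ x ∈ 𝔰, ∃ s : ↥(s18tInt A t₀), s ∉ 𝔰 ∧ ∃ a b : ↥(s18tInt A t₀),
      s * x = a * sskPi ϖ t₀ + b * p)
    {q : ℕ} (hq : q.Prime) {d : F₀ → F₀}
    (h₀ : SqgcaHyp (s18tIntLoc A t₀ (C ϖ) (s18t_prime_C hϖ)) (ssLocRing t₀ 𝔰)
      (algebraMap A F₀ ϖ) (p : F₀) q d)
    -- the crossing point
    (ht₁ : Transcendental L t₁) [FiniteDimensional L⟮t₁⟯ F₁] (two : SsgaTwo ϖ t₁ W₁ W₂)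
    (hmem : ∀ x, x ∈ s18tIntLoc A t₁ (C ϖ) (s18t_prime_C hϖ) ↔ x ∈ W₁ ∧ x ∈ W₂)
    (hmax : 𝔫₁.IsMaximal) (hϖ𝔫 : sskPi ϖ t₁ ∈ 𝔫₁)
    (hon₁ : ∀ y : ↥(s18tInt A t₁), (y : F₁) ∈ W₁.nonunits → y ∈ 𝔫₁)
    (hon₂ : ∀ y : ↥(s18tInt A t₁), (y : F₁) ∈ W₂.nonunits → y ∈ 𝔫₁)
    (G : Subgroup (SemilinearAut L F₁)) (hplus : SsGermCrossPlus ϖ t₁ G 𝔫₁ W₁ W₂)
    -- the level map
    (α : F₀ →+* F₁) (hαA : ∀ a : A, α (algebraMap A F₀ a) = algebraMap A F₁ a)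
    (hαP : ∀ x ∈ s18tInt A t₀, α x ∈ s18tInt A t₁)
    (h𝔰𝔫 : ∀ x : ↥(s18tInt A t₀), x ∈ 𝔰 ↔ (⟨α x, hαP x x.2⟩ : ↥(s18tInt A t₁)) ∈ 𝔫₁)
    (hαO : ∀ x : F₀, x ∈ s18tIntLoc A t₀ (C ϖ) (s18t_prime_C hϖ) ↔ α x ∈ W₁)
    (hunif₁ : S18IsUnif W₁ (algebraMap A F₁ ϖ))
    (hres₁ : ∀ y ∈ s18tInt A t₁, ∃ r ∈ s18tInt A t₀, y - α r ∈ W₁.nonunits)
    -- (K)
    {γ ε : F₁} (hγ0 : γ ≠ 0) (hγ₁ : γ ∈ W₁) (hγ₁i : γ⁻¹ ∈ W₁) (hε : ε ∈ W₂) (hεi : ε⁻¹ ∈ W₂)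
    (hγε : γ = algebraMap A F₁ ϖ ^ 2 * ε)
    (hγh : SqgciHor L t₁ 𝔫₁ γ) (hγhi : SqgciHor L t₁ 𝔫₁ γ⁻¹)
    -- the `D`-identity
    {b₀ D₀ : F₀} (hb₀ : b₀ ∈ ssLocRing t₀ 𝔰)
    (hD₀ : D₀ ∈ s18tIntLoc A t₀ (C ϖ) (s18t_prime_C hϖ))
    (hdD : d D₀ ∈ s18tIntLoc A t₀ (C ϖ) (s18t_prime_C hϖ))
    (hgD : γ⁻¹ - α (b₀ + d D₀) ∈ W₁.nonunits) :
    SqgaNode ϖ t₁ W₁ W₂ 𝔫₁ := by
  haveI h𝔫₁ : 𝔫₁.IsPrime := hmax.isPrime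
  obtain ⟨u, w, hu, hw, -, -, hspan, -, hu₁, hw₂, -, -⟩ := hplus 0
  exact (sqgcx_node hϖ hϖ𝔰 hp𝔰 hgen hq h₀ ht₁ two hmem hmax hϖ𝔫 hon₁ hon₂ hu hw hspan hu₁ hw₂ α
    hαA hαP h𝔰𝔫 hαO hunif₁ hres₁ hγ0 hγ₁ hγ₁i hε hεi hγε hγh hγhi hb₀ hD₀ hdD hgD).1

end Main

end Fermat.Agent.SQ
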