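import Mathlib
import Fermat.Agent.SQ.Germ.Abs

/-!
# Program Q, R1 : a prime of `P` lying on two distinct components is a closed point (prefix `sqgmx`)

`P = s18tInt A t` (the integral closure of `A[t]` in `F`), `A` a discrete valuation ring with
uniformiser `ϖ`.  A prime `𝔫` of `P` containing `𝔭_V = P ∩ 𝔪_V` (`ϖ ∈ 𝔪_V`) and an element outside
`𝔭_V` is maximal.
-/

set_option autoImplicit false
set_option linter.unusedSectionVars false
set_option linter.unusedVariables false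
set_option linter.style.haveILetI false

noncomputable section

namespace Fermat.Agent.SQ

open Polynomial Fermat.Agent.S18 Fermat.Agent.SS IsLocalRing

variable {A : Type*} [CommRing A] [IsDomain A] [IsDiscreteValuationRing A]

/-- a prime of `A[X]` containing `C ϖ` and an element not divisible by `C ϖ` is maximal -/
theorem sqgmx_poly_isMaximal {ϖ : A} (hϖ : Irreducible ϖ) (𝔮 : Ideal A[X]) [h𝔮 : 𝔮.IsPrime]
    (hϖ𝔮 : C ϖ ∈ 𝔮) {f : A[X]} (hf : f ∈ 𝔮) (hfϖ : ¬ C ϖ ∣ f) : 𝔮.IsMaximal := by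
  classical
  set ρ : A[X] →+* (ResidueField A)[X] := Polynomial.mapRingHom (residue A) with hρ
  have hρsurj : Function.Surjective ρ := Polynomial.map_surjective _ residue_surjective
  have hker : ∀ g : A[X], ρ g = 0 → C ϖ ∣ g := by
    intro g hg
    rw [C_dvd_iff_dvd_coeff]
    intro i
    have h1 : residue A (g.coeff i) = 0 := by
      have := congrArg (fun p : (ResidueField A)[X] => p.coeff i) hg
      simpa [hρ, Polynomial.coeff_map] using this
    have h2 : g.coeff i ∈ maximalIdeal A := (residue_eq_zero_iff _).mp h1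
    rw [hϖ.maximalIdeal_eq, Ideal.mem_span_singleton] at h2
    exact h2
  have hker𝔮 : RingHom.ker ρ ≤ 𝔮 := by
    intro g hg
    obtain ⟨c, rfl⟩ := hker g ((RingHom.mem_ker).mp hg)
    exact 𝔮.mul_mem_right _ hϖ𝔮
  have hprime : (𝔮.map ρ).IsPrime := Ideal.map_isPrime_of_surjective hρsurj hker𝔮
  have hne : 𝔮.map ρ ≠ ⊥ := by
    intro h0
    apply hfϖ
    apply hker
    have : ρ f ∈ 𝔮.map ρ := Ideal.mem_map_of_mem ρ hf
    rw [h0] at this
    exact (Ideal.mem_bot).mp this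
  have hmax : (𝔮.map ρ).IsMaximal := hprime.isMaximal hne
  have e : (𝔮.map ρ).comap ρ = 𝔮 := by
    rw [Ideal.comap_map_of_surjective' ρ hρsurj, sup_eq_left.mpr hker𝔮]
  rw [← e]
  exact Ideal.comap_isMaximal_of_surjective ρ hρsurj

variable {F : Type*} [Field F] [Algebra A F]

/-- **A PRIME OF `P` STRICTLY CONTAINING THE VERTICAL PRIME `𝔭_V` IS A CLOSED POINT** -/
theorem sqgmx_isMaximal {ϖ : A} (hϖ : Irreducible ϖ) (t : F) (𝔫 : Ideal ↥(s18tInt A t))
    [h𝔫 : 𝔫.IsPrime] (V : ValuationSubring F) (hle : ∀ x ∈ s18tInt A t, x ∈ V)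
    (hϖV : algebraMap A F ϖ ∈ V.nonunits) (hon : SqgaOn t 𝔫 V)
    {u : ↥(s18tInt A t)} (hu : u ∈ 𝔫) (huV : (u : F) ∉ V.nonunits) : 𝔫.IsMaximal := by
  classical
  let e : ↥(integralClosure ↥(s18tChart A t) F) ≃+* ↥(s18tInt A t) :=
    { toFun := fun x => ⟨x.1, x.2⟩
      invFun := fun x => ⟨x.1, x.2⟩
      left_inv := fun x => rfl
      right_inv := fun x => rfl
      map_mul' := fun x y => rfl
      map_add' := fun x y => rfl }
  set 𝔫' : Ideal ↥(integralClosure ↥(s18tChart A t) F) :=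
    𝔫.comap (e : ↥(integralClosure ↥(s18tChart A t) F) →+* ↥(s18tInt A t)) with h𝔫'
  haveI h𝔫'p : 𝔫'.IsPrime := Ideal.comap_isPrime _ _
  -- the vertical prime
  let 𝔭 : Ideal ↥(integralClosure ↥(s18tChart A t) F) :=
    { carrier := {x | (x : F) ∈ V.nonunits}
      add_mem' := fun {a b} ha hb => by
        have ha' : (a : F) ∈ V.nonunits := ha
        have hb' : (b : F) ∈ V.nonunits := hb
        show ((a : F) + (b : F)) ∈ V.nonunits
        rw [V.mem_nonunits_iff] at ha' hb' ⊢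
        exact lt_of_le_of_lt (Valuation.map_add _ _ _) (max_lt ha' hb')
      zero_mem' := by
        show (0 : F) ∈ V.nonunits
        rw [V.mem_nonunits_iff, map_zero]; exact zero_lt_one
      smul_mem' := fun c {x} hx => by
        have hx' : (x : F) ∈ V.nonunits := hx
        show ((c : F) * (x : F)) ∈ V.nonunits
        rw [V.mem_nonunits_iff] at hx' ⊢
        rw [map_mul]
        have hc : V.valuation (c : F) ≤ 1 := (V.valuation_le_one_iff _).mpr (hle _ c.2)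
        calc V.valuation (c : F) * V.valuation (x : F) ≤ 1 * V.valuation (x : F) :=
              mul_le_mul' hc le_rfl
          _ = V.valuation (x : F) := one_mul _
          _ < 1 := hx' }
  have h𝔭mem : ∀ x : ↥(integralClosure ↥(s18tChart A t) F), x ∈ 𝔭 ↔ (x : F) ∈ V.nonunits :=
    fun x => Iff.rfl
  haveI h𝔭p : 𝔭.IsPrime := by
    refine ⟨fun h => ?_, fun {a b} hab => ?_⟩
    · have h1 : (1 : ↥(integralClosure ↥(s18tChart A t) F)) ∈ 𝔭 := by rw [h]; trivial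
      have h2 : (1 : F) ∈ V.nonunits := h1
      rw [V.mem_nonunits_iff, map_one] at h2
      exact lt_irrefl _ h2
    · have h1 : (a : F) * (b : F) ∈ V.nonunits := hab
      rw [V.mem_nonunits_iff, map_mul] at h1
      by_contra hcon
      rw [not_or] at hcon
      have ha : ¬ V.valuation (a : F) < 1 := fun h => hcon.1 ((h𝔭mem a).mpr
        ((V.mem_nonunits_iff).mpr h))
      have hb : ¬ V.valuation (b : F) < 1 := fun h => hcon.2 ((h𝔭mem b).mpr
        ((V.mem_nonunits_iff).mpr h))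
      have ha1 : V.valuation (a : F) = 1 :=
        le_antisymm ((V.valuation_le_one_iff _).mpr (hle _ a.2)) (not_lt.mp ha)
      have hb1 : V.valuation (b : F) = 1 :=
        le_antisymm ((V.valuation_le_one_iff _).mpr (hle _ b.2)) (not_lt.mp hb)
      rw [ha1, hb1, one_mul] at h1
      exact lt_irrefl _ h1
  have h𝔭𝔫 : 𝔭 ≤ 𝔫' := fun x hx => hon (e x) hx
  -- going down to the chart
  have hlt : 𝔭.comap (algebraMap ↥(s18tChart A t) ↥(integralClosure ↥(s18tChart A t) F)) <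
      𝔫'.comap (algebraMap ↥(s18tChart A t) ↥(integralClosure ↥(s18tChart A t) F)) :=
    Ideal.comap_lt_comap_of_integral_mem_sdiff h𝔭𝔫 (x := e.symm u)
      ⟨by show e (e.symm u) ∈ 𝔫; rw [RingEquiv.apply_symm_apply]; exact hu, fun h => huV h⟩
      (integralClosure.isIntegral (e.symm u))
  obtain ⟨r, hr𝔫, hr𝔭⟩ := SetLike.exists_of_lt hlt
  obtain ⟨f, hf⟩ : ∃ f : A[X], aeval t f = (r : F) := by
    have hr : (r : F) ∈ Algebra.adjoin A {t} := r.2
    rw [Algebra.adjoin_singleton_eq_range_aeval] at hr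
    exact hr
  -- the prime of `A[X]`
  let ψ : A[X] →+* ↥(s18tChart A t) :=
    ((aeval t : A[X] →ₐ[A] F).codRestrict (s18tChart A t) (fun b => by
      show aeval t b ∈ Algebra.adjoin A {t}
      rw [Algebra.adjoin_singleton_eq_range_aeval]; exact ⟨b, rfl⟩) : A[X] →+* ↥(s18tChart A t))
  have hψ : ∀ b : A[X], ((ψ b : ↥(s18tChart A t)) : F) = aeval t b := fun b => rfl
  have hψsurj : Function.Surjective ψ := by
    intro y
    have hy : (y : F) ∈ Algebra.adjoin A {t} := y.2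
    rw [Algebra.adjoin_singleton_eq_range_aeval] at hy
    obtain ⟨b, hb⟩ := hy
    exact ⟨b, Subtype.ext hb⟩
  set 𝔮₀ := 𝔫'.comap (algebraMap ↥(s18tChart A t) ↥(integralClosure ↥(s18tChart A t) F))
    with h𝔮₀
  haveI h𝔮₀p : 𝔮₀.IsPrime := Ideal.comap_isPrime _ _
  set 𝔮 : Ideal A[X] := 𝔮₀.comap ψ with h𝔮
  haveI h𝔮p : 𝔮.IsPrime := Ideal.comap_isPrime _ _
  have hψf : ψ f = r := Subtype.ext (by rw [hψ, hf])
  have hf𝔮 : f ∈ 𝔮 := by
    show ψ f ∈ 𝔮₀
    rw [hψf]; exact hr𝔫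
  have hϖ𝔮 : C ϖ ∈ 𝔮 := by
    show ψ (C ϖ) ∈ 𝔮₀
    show e (algebraMap ↥(s18tChart A t) ↥(integralClosure ↥(s18tChart A t) F) (ψ (C ϖ))) ∈ 𝔫
    apply hon
    show aeval t (C ϖ) ∈ V.nonunits
    rw [aeval_C]; exact hϖV
  have hfϖ : ¬ C ϖ ∣ f := by
    rintro ⟨g, rfl⟩
    apply hr𝔭
    show (algebraMap ↥(s18tChart A t) ↥(integralClosure ↥(s18tChart A t) F) r : F) ∈ V.nonunits
    show (r : F) ∈ V.nonunits
    rw [← hf, map_mul, aeval_C, V.mem_nonunits_iff, map_mul]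
    have hg : V.valuation (aeval t g) ≤ 1 := by
      refine (V.valuation_le_one_iff _).mpr (hle _ ?_)
      have : (algebraMap ↥(s18tChart A t) ↥(integralClosure ↥(s18tChart A t) F) (ψ g) : F) ∈
          s18tInt A t := (algebraMap ↥(s18tChart A t) ↥(integralClosure ↥(s18tChart A t) F)
            (ψ g)).2
      exact this
    calc V.valuation (algebraMap A F ϖ) * V.valuation (aeval t g)
        ≤ V.valuation (algebraMap A F ϖ) * 1 := mul_le_mul' le_rfl hg
      _ = V.valuation (algebraMap A F ϖ) := mul_one _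
      _ < 1 := (V.mem_nonunits_iff).mp hϖV
  have h𝔮max : 𝔮.IsMaximal := sqgmx_poly_isMaximal hϖ 𝔮 hϖ𝔮 hf𝔮 hfϖ
  have h𝔮₀max : 𝔮₀.IsMaximal := by
    have e1 : 𝔮.map ψ = 𝔮₀ := Ideal.map_comap_of_surjective ψ hψsurj 𝔮₀
    rw [← e1]
    exact (Ideal.map_eq_top_or_isMaximal_of_surjective ψ hψsurj h𝔮max).resolve_left (by
      rw [e1]; exact h𝔮₀p.ne_top)
  have h𝔫'max : 𝔫'.IsMaximal :=
    Ideal.isMaximal_of_isIntegral_of_isMaximal_comap 𝔫' h𝔮₀max
  have e2 : 𝔫 = 𝔫'.comap (e.symm : ↥(s18tInt A t) →+* ↥(integralClosure ↥(s18tChart A t) F)) := by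
    ext x
    simp only [Ideal.mem_comap, h𝔫']
    constructor
    · intro hx
      show e (e.symm x) ∈ 𝔫
      rw [RingEquiv.apply_symm_apply]; exact hx
    · intro hx
      have : e (e.symm x) ∈ 𝔫 := hx
      rwa [RingEquiv.apply_symm_apply] at this
  rw [e2]
  exact Ideal.comap_isMaximal_of_surjective _ e.symm.surjective

/-- **A PRIME OF `P` LYING ON TWO DISTINCT COMPONENTS IS A CLOSED POINT** (`u` a witness of
`W₁ ≠ W₂` : `u ∈ P ∩ 𝔪_{W₂}`, `u ∉ 𝔪_{W₁}`). -/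
theorem sqgmx_isMaximal_of_two {ϖ : A} (hϖ : Irreducible ϖ) {t : F} {W₁ W₂ : ValuationSubring F}
    (two : SsgaTwo ϖ t W₁ W₂) (𝔫 : Ideal ↥(s18tInt A t)) [h𝔫 : 𝔫.IsPrime]
    (hon₁ : SqgaOn t 𝔫 W₁) (hon₂ : SqgaOn t 𝔫 W₂)
    {u : F} (hu : u ∈ s18tInt A t) (hu₂ : u ∈ W₂.nonunits) (hu₁ : u ∉ W₁.nonunits) :
    𝔫.IsMaximal :=
  sqgmx_isMaximal hϖ t 𝔫 W₁ two.le₁ two.unif₁ hon₁ (u := ⟨u, hu⟩) (hon₂ ⟨u, hu⟩ hu₂) hu₁

end Fermat.Agent.SQ
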