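import Mathlib
import Fermat.Agent.SQ.Germ.CartierInst
import Fermat.Agent.SQ.Germ.MaxTwo

/-!
# Program Q, R1 (thickness one) : THE TOP OF THE (T1) CHAIN, abstract form (prefix `sqgtp`)

The setting of `SS/Germ/Inst.lean` with one ring of constants : `H : SsgiHyp hϖ (RingHom.id A) α φ ϖ
t₀ t₁ W₁ W₂ q` (good level `F₀ ∋ t₀`, crossing level `F₁ ∋ t₁`, the two degeneracy maps `α`, `φ`).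
At a closed point `𝔫₁ ∋ ϖ` of `P₁` lying on both components, with `𝔰 = α⁻¹ 𝔫₁`, `𝔰' = φ⁻¹ 𝔫₁` :

* `sqgtp_coords` : for local parameters `p` at `𝔰`, `π'` at `𝔰'` and Frobenius lifts `a`, `c`
  (`φ π' ≡ (α a)^q` modulo `𝔪_{W₁}`, `(φ c)^q ≡ α p` modulo `𝔪_{W₂}`) the crossing coordinates
  `u = (α a)^q - φ π'`, `w = (φ c)^q - α p` satisfy the hypotheses `[L1]` of
  `sqgcx_node` / `sqgci_node_of_regular` (NO hypothesis on the residue field of `𝔫₁`);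
* `sqgtp_node` : **THICKNESS ONE** `SqgaNode ϖ t₁ W₁ W₂ 𝔫₁` from `H`, the parameters `(p, π', a)`,
  the Cartier hypotheses `SqgcaHyp` at `𝔰`, the package (K) for `γ` and the `D`-identity;
* `sqgtp_exists_params` : the parameters exist (`ssgb_exists_local_gen`, `H.frob₁`);
* `sqgtp_node_of_forall` : the same with the concrete input quantified over all parameters;
* `sqgtp_hT1` : the hypothesis `hT1` of `sqgad_h0` / `sqgi_cases` (all PRIMES on both components).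
-/

set_option autoImplicit false
set_option linter.unusedSectionVars false
set_option linter.unusedVariables false
set_option linter.style.haveILetI false

noncomputable section

namespace Fermat.Agent.SQ

open Polynomial IntermediateField AlgebraicCurve Fermat.Agent.S18 Fermat.Agent.SS Fermat.Agent.G
  IsLocalRing

universe u₀ u₁

variable {A : Type*} [CommRing A] [IsDomain A] [IsDiscreteValuationRing A] [CharZero A]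
variable {L : Type*} [Field L] [Algebra A L] [IsFractionRing A L]
variable {F₀ : Type u₀} [Field F₀] [Algebra A F₀] [Algebra L F₀] [IsScalarTower A L F₀]
variable {F₁ : Type u₁} [Field F₁] [Algebra A F₁] [Algebra L F₁] [IsScalarTower A L F₁]
variable {ϖ : A} {t₀ : F₀} {t₁ : F₁} {α φ : F₀ →+* F₁} {W₁ W₂ : ValuationSubring F₁} {q : ℕ}
variable {𝔫₁ : Ideal ↥(s18tInt A t₁)}

/-- the map `P₀ → P₁` induced by a ring homomorphism `f : F₀ → F₁` with `f P₀ ⊆ P₁` -/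
def sqgtpMap (f : F₀ →+* F₁) (hf : ∀ b ∈ s18tInt A t₀, f b ∈ s18tInt A t₁) :
    ↥(s18tInt A t₀) →+* ↥(s18tInt A t₁) :=
  (f.comp (s18tInt A t₀).subtype).codRestrict (s18tInt A t₁) (fun x => hf x x.2)

theorem sqgtpMap_coe (f : F₀ →+* F₁) (hf : ∀ b ∈ s18tInt A t₀, f b ∈ s18tInt A t₁)
    (x : ↥(s18tInt A t₀)) : ((sqgtpMap f hf x : ↥(s18tInt A t₁)) : F₁) = f x := rfl

theorem sqgtp_mem_comap (f : F₀ →+* F₁) (hf : ∀ b ∈ s18tInt A t₀, f b ∈ s18tInt A t₁)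
    (x : ↥(s18tInt A t₀)) :
    x ∈ 𝔫₁.comap (sqgtpMap f hf) ↔ (⟨f x, hf x x.2⟩ : ↥(s18tInt A t₁)) ∈ 𝔫₁ := Iff.rfl

/-- the parameters at a crossing point : `p` generates `𝔰 = α⁻¹ 𝔫₁` and `π'` generates
`𝔰' = φ⁻¹ 𝔫₁` locally modulo `ϖ`, and `φ π' ≡ (α a)^q` modulo `𝔪_{W₁}`. -/
structure SqgtpParams (ϖ : A) (t₀ : F₀) (t₁ : F₁) (α φ : F₀ →+* F₁) (W₁ : ValuationSubring F₁)
    (q : ℕ) (𝔫₁ : Ideal ↥(s18tInt A t₁)) (hαP : ∀ b ∈ s18tInt A t₀, α b ∈ s18tInt A t₁)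
    (hφP : ∀ b ∈ s18tInt A t₀, φ b ∈ s18tInt A t₁) (p π' a : ↥(s18tInt A t₀)) : Prop where
  p_mem : (⟨α p, hαP p p.2⟩ : ↥(s18tInt A t₁)) ∈ 𝔫₁
  p_gen : ∀ z : ↥(s18tInt A t₀), (⟨α z, hαP z z.2⟩ : ↥(s18tInt A t₁)) ∈ 𝔫₁ →
    ∃ s' : ↥(s18tInt A t₀), (⟨α s', hαP s' s'.2⟩ : ↥(s18tInt A t₁)) ∉ 𝔫₁ ∧
      ∃ a b : ↥(s18tInt A t₀), s' * z = a * sskPi ϖ t₀ + b * p
  π_mem : (⟨φ π', hφP π' π'.2⟩ : ↥(s18tInt A t₁)) ∈ 𝔫₁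
  π_gen : ∀ z : ↥(s18tInt A t₀), (⟨φ z, hφP z z.2⟩ : ↥(s18tInt A t₁)) ∈ 𝔫₁ →
    ∃ s' : ↥(s18tInt A t₀), (⟨φ s', hφP s' s'.2⟩ : ↥(s18tInt A t₁)) ∉ 𝔫₁ ∧
      ∃ a b : ↥(s18tInt A t₀), s' * z = a * sskPi ϖ t₀ + b * π'
  frob : φ π' - α a ^ q ∈ W₁.nonunits

section Coords

variable {hϖ : Irreducible ϖ}

/-- **THE CROSSING COORDINATES** `u = (α a)^q - φ π'`, `w = (φ c)^q - α p` : the block `[L1]` of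
`sqgcx_node` (no hypothesis on the residue field of `𝔫₁`). -/
theorem sqgtp_coords (H : SsgiHyp hϖ (RingHom.id A) α φ ϖ t₀ t₁ W₁ W₂ q)
    (hαP : ∀ b ∈ s18tInt A t₀, α b ∈ s18tInt A t₁) (hφP : ∀ b ∈ s18tInt A t₀, φ b ∈ s18tInt A t₁)
    [h𝔫₁ : 𝔫₁.IsPrime] (hon₁ : SqgaOn t₁ 𝔫₁ W₁) (hon₂ : SqgaOn t₁ 𝔫₁ W₂)
    {p π' a : ↥(s18tInt A t₀)} (P : SqgtpParams ϖ t₀ t₁ α φ W₁ q 𝔫₁ hαP hφP p π' a)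
    {c : ↥(s18tInt A t₀)} (hc : φ c ^ q - α p ∈ W₂.nonunits) :
    SsnfInMax t₁ 𝔫₁ (α a ^ q - φ π') ∧ SsnfInMax t₁ 𝔫₁ (φ c ^ q - α p) ∧
      SsgaSpan3 ϖ t₁ 𝔫₁ (α a ^ q - φ π') (φ c ^ q - α p) ∧
      α a ^ q - φ π' ∈ W₁.nonunits ∧ φ c ^ q - α p ∈ W₂.nonunits := by
  have h1 : (1 : ↥(s18tInt A t₁)) ∉ 𝔫₁ := fun h => h𝔫₁.ne_top ((Ideal.eq_top_iff_one _).mpr h)
  have hu₁ : α a ^ q - φ π' ∈ W₁.nonunits := by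
    have e : α a ^ q - φ π' = -(φ π' - α a ^ q) := by ring
    rw [e]
    exact ssgr_nu_neg W₁ P.frob
  have huP : α a ^ q - φ π' ∈ s18tInt A t₁ :=
    Subring.sub_mem _ (Subring.pow_mem _ (hαP a a.2) q) (hφP π' π'.2)
  have hwP : φ c ^ q - α p ∈ s18tInt A t₁ :=
    Subring.sub_mem _ (Subring.pow_mem _ (hφP c c.2) q) (hαP p p.2)
  refine ⟨⟨1, h1, ⟨_, huP⟩, hon₁ ⟨_, huP⟩ hu₁, by rw [OneMemClass.coe_one, one_mul]⟩,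
    ⟨1, h1, ⟨_, hwP⟩, hon₂ ⟨_, hwP⟩ hc, by rw [OneMemClass.coe_one, one_mul]⟩, ?_, hu₁, hc⟩
  exact ssgm_span3 (𝔫 := 𝔫₁) H.two H.hq H.level.unif α φ H.level.compat H.φ_compat hαP hφP
    (ssgi_surj₁ H) (ssgi_surj₂ H) hon₁ hon₂ p π' a c P.p_mem P.p_gen P.π_mem P.π_gen P.frob hc

/-- **THICKNESS ONE AT A CROSSING POINT** (abstract top of the (T1) chain) : `H : SsgiHyp`, a closed
point `𝔫₁` on both components, parameters `(p, π', a)`, the Cartier hypotheses at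
`𝔰 = α⁻¹ 𝔫₁`, the package (K) for `γ` and the `D`-identity `γ⁻¹ ≡ α (b₀ + ∂ D₀)`. -/
theorem sqgtp_node (H : SsgiHyp hϖ (RingHom.id A) α φ ϖ t₀ t₁ W₁ W₂ q)
    (hαP : ∀ b ∈ s18tInt A t₀, α b ∈ s18tInt A t₁) (hφP : ∀ b ∈ s18tInt A t₀, φ b ∈ s18tInt A t₁)
    (ht₁ : Transcendental L t₁) [FiniteDimensional L⟮t₁⟯ F₁]
    (hmem : ∀ x, x ∈ s18tIntLoc A t₁ (C ϖ) (s18t_prime_C hϖ) ↔ x ∈ W₁ ∧ x ∈ W₂)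
    (hαO : ∀ x : F₀, α x ∈ W₁ → x ∈ s18tIntLoc A t₀ (C ϖ) (s18t_prime_C hϖ))
    (hunif₁ : S18IsUnif W₁ (algebraMap A F₁ ϖ))
    (hmax : 𝔫₁.IsMaximal) (hon₁ : SqgaOn t₁ 𝔫₁ W₁) (hon₂ : SqgaOn t₁ 𝔫₁ W₂)
    {p π' a : ↥(s18tInt A t₀)} (P : SqgtpParams ϖ t₀ t₁ α φ W₁ q 𝔫₁ hαP hφP p π' a)
    -- the Cartier hypotheses at `𝔰`
    {d : F₀ → F₀}
    (h₀ : haveI := hmax.isPrime
      SqgcaHyp (s18tIntLoc A t₀ (C ϖ) (s18t_prime_C hϖ))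
        (ssLocRing t₀ (𝔫₁.comap (sqgtpMap α hαP))) (algebraMap A F₀ ϖ) (p : F₀) q d)
    -- (K)
    {γ ε : F₁} (hγ0 : γ ≠ 0) (hγ₁ : γ ∈ W₁) (hγ₁i : γ⁻¹ ∈ W₁) (hε : ε ∈ W₂) (hεi : ε⁻¹ ∈ W₂)
    (hγε : γ = algebraMap A F₁ ϖ ^ 2 * ε)
    (hγh : SqgciHor L t₁ 𝔫₁ γ) (hγhi : SqgciHor L t₁ 𝔫₁ γ⁻¹)
    -- the `D`-identity
    {b₀ D₀ : F₀}
    (hb₀ : haveI := hmax.isPrime
      b₀ ∈ ssLocRing t₀ (𝔫₁.comap (sqgtpMap α hαP)))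
    (hD₀ : D₀ ∈ s18tIntLoc A t₀ (C ϖ) (s18t_prime_C hϖ))
    (hdD : d D₀ ∈ s18tIntLoc A t₀ (C ϖ) (s18t_prime_C hϖ))
    (hgD : γ⁻¹ - α (b₀ + d D₀) ∈ W₁.nonunits) :
    SqgaNode ϖ t₁ W₁ W₂ 𝔫₁ := by
  haveI h𝔫₁ : 𝔫₁.IsPrime := hmax.isPrime
  obtain ⟨c, hcP, hc⟩ := H.frob₂ p p.2
  obtain ⟨hu, hw, hspan, hu₁, hw₂⟩ := sqgtp_coords H hαP hφP hon₁ hon₂ P (c := ⟨c, hcP⟩) hc
  have hαA : ∀ a : A, α (algebraMap A F₀ a) = algebraMap A F₁ a := fun a => H.level.compat a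
  have hϖ𝔫 : sskPi ϖ t₁ ∈ 𝔫₁ := hon₁ _ H.two.unif₁
  have hϖ𝔰 : sskPi ϖ t₀ ∈ 𝔫₁.comap (sqgtpMap α hαP) := by
    rw [sqgtp_mem_comap]
    have e : (⟨α (sskPi ϖ t₀ : ↥(s18tInt A t₀)), hαP _ (sskPi ϖ t₀).2⟩ : ↥(s18tInt A t₁)) =
        sskPi ϖ t₁ := Subtype.ext (hαA ϖ)
    rw [e]
    exact hϖ𝔫
  have hgen : ∀ x ∈ 𝔫₁.comap (sqgtpMap α hαP), ∃ s : ↥(s18tInt A t₀),
      s ∉ 𝔫₁.comap (sqgtpMap α hαP) ∧ ∃ a b : ↥(s18tInt A t₀),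
        s * x = a * sskPi ϖ t₀ + b * p := fun x hx => P.p_gen x hx
  exact (sqgcx_node hϖ hϖ𝔰 P.p_mem hgen H.hq h₀ ht₁ H.two hmem hmax hϖ𝔫 hon₁ hon₂ hu hw hspan hu₁
    hw₂ α hαA hαP (fun x => Iff.rfl) (fun x => ⟨H.gauss₁ x, hαO x⟩) hunif₁ (ssgi_surj₁ H) hγ0 hγ₁
    hγ₁i hε hεi hγε hγh hγhi hb₀ hD₀ hdD hgD).1

/-- **THE CONCRETE INPUT AT A CROSSING POINT** for parameters `(p, π', a)` : the Cartier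
hypotheses at `𝔰` for a derivation `d` with `d p = 1`, the package (K) for `γ = ϖ² ε`, and the
`D`-identity `γ⁻¹ ≡ α (b₀ + d D₀)` modulo `𝔪_{W₁}`. -/
structure SqgtpKD (L : Type*) [Field L] [Algebra L F₁] (hϖ : Irreducible ϖ) (t₀ : F₀) (t₁ : F₁)
    (α : F₀ →+* F₁) (W₁ W₂ : ValuationSubring F₁) (q : ℕ) (𝔫₁ : Ideal ↥(s18tInt A t₁))
    (𝔰 : Ideal ↥(s18tInt A t₀)) [𝔰.IsPrime] (p : ↥(s18tInt A t₀)) (d : F₀ → F₀) (γ ε : F₁)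
    (b₀ D₀ : F₀) : Prop where
  cart : SqgcaHyp (s18tIntLoc A t₀ (C ϖ) (s18t_prime_C hϖ)) (ssLocRing t₀ 𝔰)
    (algebraMap A F₀ ϖ) (p : F₀) q d
  γ_ne : γ ≠ 0
  γ_mem : γ ∈ W₁
  γ_inv : γ⁻¹ ∈ W₁
  ε_mem : ε ∈ W₂
  ε_inv : ε⁻¹ ∈ W₂
  γ_eq : γ = algebraMap A F₁ ϖ ^ 2 * ε
  hor : SqgciHor L t₁ 𝔫₁ γ
  hor_inv : SqgciHor L t₁ 𝔫₁ γ⁻¹
  b₀_mem : b₀ ∈ ssLocRing t₀ 𝔰
  D₀_mem : D₀ ∈ s18tIntLoc A t₀ (C ϖ) (s18t_prime_C hϖ)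
  dD₀_mem : d D₀ ∈ s18tIntLoc A t₀ (C ϖ) (s18t_prime_C hϖ)
  ident : γ⁻¹ - α (b₀ + d D₀) ∈ W₁.nonunits

/-- `sqgtp_node` with the concrete input bundled -/
theorem sqgtp_node_of_KD (H : SsgiHyp hϖ (RingHom.id A) α φ ϖ t₀ t₁ W₁ W₂ q)
    (hαP : ∀ b ∈ s18tInt A t₀, α b ∈ s18tInt A t₁) (hφP : ∀ b ∈ s18tInt A t₀, φ b ∈ s18tInt A t₁)
    (ht₁ : Transcendental L t₁) [FiniteDimensional L⟮t₁⟯ F₁]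
    (hmem : ∀ x, x ∈ s18tIntLoc A t₁ (C ϖ) (s18t_prime_C hϖ) ↔ x ∈ W₁ ∧ x ∈ W₂)
    (hαO : ∀ x : F₀, α x ∈ W₁ → x ∈ s18tIntLoc A t₀ (C ϖ) (s18t_prime_C hϖ))
    (hunif₁ : S18IsUnif W₁ (algebraMap A F₁ ϖ))
    (hmax : 𝔫₁.IsMaximal) (hon₁ : SqgaOn t₁ 𝔫₁ W₁) (hon₂ : SqgaOn t₁ 𝔫₁ W₂)
    {p π' a : ↥(s18tInt A t₀)} (P : SqgtpParams ϖ t₀ t₁ α φ W₁ q 𝔫₁ hαP hφP p π' a)
    {d : F₀ → F₀} {γ ε : F₁} {b₀ D₀ : F₀}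
    (K : haveI := hmax.isPrime
      SqgtpKD L hϖ t₀ t₁ α W₁ W₂ q 𝔫₁ (𝔫₁.comap (sqgtpMap α hαP)) p d γ ε b₀ D₀) :
    SqgaNode ϖ t₁ W₁ W₂ 𝔫₁ := by
  haveI h𝔫₁ : 𝔫₁.IsPrime := hmax.isPrime
  exact sqgtp_node H hαP hφP ht₁ hmem hαO hunif₁ hmax hon₁ hon₂ P K.cart K.γ_ne K.γ_mem K.γ_inv
    K.ε_mem K.ε_inv K.γ_eq K.hor K.hor_inv K.b₀_mem K.D₀_mem K.dD₀_mem K.ident

/-- the pull-back of a closed point on `W₁` along `α` is a closed point -/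
theorem sqgtp_comap_isMaximal {V : ValuationSubring F₁} (hle : ∀ x ∈ s18tInt A t₁, x ∈ V)
    (f : F₀ →+* F₁) (hfP : ∀ b ∈ s18tInt A t₀, f b ∈ s18tInt A t₁)
    (hsurj : ∀ y ∈ s18tInt A t₁, ∃ b ∈ s18tInt A t₀, y - f b ∈ V.nonunits)
    (hmax : 𝔫₁.IsMaximal) (hon : SqgaOn t₁ 𝔫₁ V) : (𝔫₁.comap (sqgtpMap f hfP)).IsMaximal := by
  haveI h𝔫₁ : 𝔫₁.IsPrime := hmax.isPrime
  have e : ssgmPull (𝔫 := 𝔫₁) f (ssgm_loc_of_int hfP) = 𝔫₁.comap (sqgtpMap f hfP) :=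
    Ideal.ext fun z => mem_ssgmPull_of_int hfP
  rw [← e]
  exact sqgg_pull_isMaximal hmax hle hon f (ssgm_loc_of_int hfP) hsurj

/-- **THE PARAMETERS EXIST** at every closed point on both components. -/
theorem sqgtp_exists_params (H : SsgiHyp hϖ (RingHom.id A) α φ ϖ t₀ t₁ W₁ W₂ q)
    (hαP : ∀ b ∈ s18tInt A t₀, α b ∈ s18tInt A t₁) (hφP : ∀ b ∈ s18tInt A t₀, φ b ∈ s18tInt A t₁)
    (ht₀ : Transcendental L t₀) [FiniteDimensional L⟮t₀⟯ F₀]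
    (hmax : 𝔫₁.IsMaximal) (hon₁ : SqgaOn t₁ 𝔫₁ W₁) (hon₂ : SqgaOn t₁ 𝔫₁ W₂) :
    ∃ p π' a : ↥(s18tInt A t₀), SqgtpParams ϖ t₀ t₁ α φ W₁ q 𝔫₁ hαP hφP p π' a := by
  haveI h𝔫₁ : 𝔫₁.IsPrime := hmax.isPrime
  have hϖ𝔫 : sskPi ϖ t₁ ∈ 𝔫₁ := hon₁ _ H.two.unif₁
  have hmaxα := sqgtp_comap_isMaximal H.two.le₁ α hαP (ssgi_surj₁ H) hmax hon₁
  have hmaxφ := sqgtp_comap_isMaximal H.two.le₂ φ hφP (ssgi_surj₂ H) hmax hon₂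
  have hϖα : sskPi ϖ t₀ ∈ 𝔫₁.comap (sqgtpMap α hαP) := by
    rw [sqgtp_mem_comap]
    have e : (⟨α (sskPi ϖ t₀ : ↥(s18tInt A t₀)), hαP _ (sskPi ϖ t₀).2⟩ : ↥(s18tInt A t₁)) =
        sskPi ϖ t₁ := Subtype.ext (H.level.compat ϖ)
    rw [e]
    exact hϖ𝔫
  have hϖφ : sskPi ϖ t₀ ∈ 𝔫₁.comap (sqgtpMap φ hφP) := by
    rw [sqgtp_mem_comap]
    have e : (⟨φ (sskPi ϖ t₀ : ↥(s18tInt A t₀)), hφP _ (sskPi ϖ t₀).2⟩ : ↥(s18tInt A t₁)) =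
        sskPi ϖ t₁ := Subtype.ext (H.φ_compat ϖ)
    rw [e]
    exact hϖ𝔫
  obtain ⟨p, hp, hpgen⟩ := ssgb_exists_local_gen hϖ t₀ ht₀ H.good _ hmaxα hϖα
  obtain ⟨π', hπ', hπ'gen⟩ := ssgb_exists_local_gen hϖ t₀ ht₀ H.good _ hmaxφ hϖφ
  obtain ⟨a, haP, ha⟩ := H.frob₁ π' π'.2
  exact ⟨p, π', ⟨a, haP⟩, hp, fun z hz => hpgen z hz, hπ', fun z hz => hπ'gen z hz, ha⟩

/-- **THICKNESS ONE**, the concrete input quantified over all parameters. -/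
theorem sqgtp_node_of_forall (H : SsgiHyp hϖ (RingHom.id A) α φ ϖ t₀ t₁ W₁ W₂ q)
    (hαP : ∀ b ∈ s18tInt A t₀, α b ∈ s18tInt A t₁) (hφP : ∀ b ∈ s18tInt A t₀, φ b ∈ s18tInt A t₁)
    (ht₀ : Transcendental L t₀) [FiniteDimensional L⟮t₀⟯ F₀]
    (ht₁ : Transcendental L t₁) [FiniteDimensional L⟮t₁⟯ F₁]
    (hmem : ∀ x, x ∈ s18tIntLoc A t₁ (C ϖ) (s18t_prime_C hϖ) ↔ x ∈ W₁ ∧ x ∈ W₂)
    (hαO : ∀ x : F₀, α x ∈ W₁ → x ∈ s18tIntLoc A t₀ (C ϖ) (s18t_prime_C hϖ))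
    (hunif₁ : S18IsUnif W₁ (algebraMap A F₁ ϖ))
    (hmax : 𝔫₁.IsMaximal) (hon₁ : SqgaOn t₁ 𝔫₁ W₁) (hon₂ : SqgaOn t₁ 𝔫₁ W₂)
    (hKD : ∀ p π' a : ↥(s18tInt A t₀), SqgtpParams ϖ t₀ t₁ α φ W₁ q 𝔫₁ hαP hφP p π' a →
      ∃ (d : F₀ → F₀) (γ ε : F₁) (b₀ D₀ : F₀), haveI := hmax.isPrime
        SqgtpKD L hϖ t₀ t₁ α W₁ W₂ q 𝔫₁ (𝔫₁.comap (sqgtpMap α hαP)) p d γ ε b₀ D₀) :
    SqgaNode ϖ t₁ W₁ W₂ 𝔫₁ := by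
  obtain ⟨p, π', a, P⟩ := sqgtp_exists_params H hαP hφP ht₀ hmax hon₁ hon₂
  obtain ⟨d, γ, ε, b₀, D₀, K⟩ := hKD p π' a P
  exact sqgtp_node_of_KD H hαP hφP ht₁ hmem hαO hunif₁ hmax hon₁ hon₂ P K

/-- **THE HYPOTHESIS `hT1`** of `sqgad_h0` / `sqgi_cases` : every PRIME of `P₁` lying on both
components is a node of thickness one (`hsep` : a witness of `W₁ ≠ W₂`). -/
theorem sqgtp_hT1 (H : SsgiHyp hϖ (RingHom.id A) α φ ϖ t₀ t₁ W₁ W₂ q)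
    (hαP : ∀ b ∈ s18tInt A t₀, α b ∈ s18tInt A t₁) (hφP : ∀ b ∈ s18tInt A t₀, φ b ∈ s18tInt A t₁)
    (ht₀ : Transcendental L t₀) [FiniteDimensional L⟮t₀⟯ F₀]
    (ht₁ : Transcendental L t₁) [FiniteDimensional L⟮t₁⟯ F₁]
    (hmem : ∀ x, x ∈ s18tIntLoc A t₁ (C ϖ) (s18t_prime_C hϖ) ↔ x ∈ W₁ ∧ x ∈ W₂)
    (hαO : ∀ x : F₀, α x ∈ W₁ → x ∈ s18tIntLoc A t₀ (C ϖ) (s18t_prime_C hϖ))
    (hunif₁ : S18IsUnif W₁ (algebraMap A F₁ ϖ))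
    (hsep : ∃ u ∈ s18tInt A t₁, u ∈ W₂.nonunits ∧ u ∉ W₁.nonunits)
    (hKD : ∀ (𝔫₁ : Ideal ↥(s18tInt A t₁)) (hmax : 𝔫₁.IsMaximal), SqgaOn t₁ 𝔫₁ W₁ →
      SqgaOn t₁ 𝔫₁ W₂ → ∀ p π' a : ↥(s18tInt A t₀),
      SqgtpParams ϖ t₀ t₁ α φ W₁ q 𝔫₁ hαP hφP p π' a →
      ∃ (d : F₀ → F₀) (γ ε : F₁) (b₀ D₀ : F₀), haveI := hmax.isPrime
        SqgtpKD L hϖ t₀ t₁ α W₁ W₂ q 𝔫₁ (𝔫₁.comap (sqgtpMap α hαP)) p d γ ε b₀ D₀) :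
    ∀ 𝔫₁ : Ideal ↥(s18tInt A t₁), 𝔫₁.IsPrime → SqgaOn t₁ 𝔫₁ W₁ → SqgaOn t₁ 𝔫₁ W₂ →
      SqgaNode ϖ t₁ W₁ W₂ 𝔫₁ := by
  intro 𝔫₁ h𝔫₁ hon₁ hon₂
  obtain ⟨u, huP, hu₂, hu₁⟩ := hsep
  have hmax : 𝔫₁.IsMaximal := sqgmx_isMaximal_of_two hϖ H.two 𝔫₁ hon₁ hon₂ huP hu₂ hu₁
  exact sqgtp_node_of_forall H hαP hφP ht₀ ht₁ hmem hαO hunif₁ hmax hon₁ hon₂
    (hKD 𝔫₁ hmax hon₁ hon₂)

end Coords

end Fermat.Agent.SQ
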