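/-
Program Q (S36), risk R1, piece (DER)(iii) (helper13) : the hypotheses `SqgcaHyp` of helper1's abstract
Cartier step (`SQ/Germ/CartierAbs.lean`) at a closed point `𝔰` of the good level.

`O := s18tIntLoc A t (C ϖ) _` (the Gauss ring, a DVR with uniformiser `ϖ` by `GrdfbHyp`),
`B := ssLocRing t 𝔰`, `𝔰 B = (ϖ, π)`, `∂` an `A`-derivation of `F` with `∂π = 1`, `∂B ⊆ B`, `∂O ⊆ O`,
`ϖ ∣ q`, residue representatives killed by `∂` modulo `ϖ` (`hres`).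

* `sqgde_cartierHyp`          : the general form (`hdB`, `hres` as hypotheses);
* `sqgde_cartierHyp_rational` : `𝔰` residue-rational (`hk`) : `∂B ⊆ B` from `sqgde_loc_stable`,
  representatives = constants;
* `sqgde_cartierHyp_perfect`  : residue field of `𝔰` perfect (`hperf`) : representatives `e ^ q`.
-/
import Mathlib
import Fermat.Agent.G.Red.Fibre
import Fermat.Agent.SQ.Germ.CartierAbs
import Fermat.Agent.SQ.Germ.DerivCor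

set_option autoImplicit false
set_option linter.unusedSectionVars false
set_option linter.unusedVariables false

noncomputable section

namespace Fermat.Agent.SQ

open Polynomial IntermediateField Fermat.Agent.S18 Fermat.Agent.SS Fermat.Agent.G IsLocalRing

universe u

variable {A : Type*} [CommRing A] [IsDomain A] [IsDiscreteValuationRing A] [CharZero A]
variable {L : Type*} [Field L] [Algebra A L] [IsFractionRing A L]
variable {F : Type u} [Field F] [Algebra A F] [Algebra L F] [IsScalarTower A L F]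
variable {ϖ : A}

/-- an element of `P` outside `ϖ P` is a unit of the Gauss ring `O`. -/
theorem sqgde_inv_mem_gauss (hϖ : Irreducible ϖ) (t : F) (ht : Transcendental L t)
    [FiniteDimensional L⟮t⟯ F] (H : GrdfbHyp hϖ t)
    (𝔰 : Ideal ↥(s18tInt A t)) (hϖ𝔰 : sskPi ϖ t ∈ 𝔰) (s : ↥(s18tInt A t)) (hs : s ∉ 𝔰) :
    (s : F)⁻¹ ∈ s18tIntLoc A t (C ϖ) (s18t_prime_C hϖ) := by
  rcases H.val (s : F) (s18tInt_le_intLoc hϖ t s.2) with ⟨y, hy, hsy⟩ | h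
  · exfalso
    apply hs
    have hyP : y ∈ s18tInt A t := s18t_saturated (L := L) hϖ t ht y hy (by rw [← hsy]; exact s.2)
    have : s = sskPi ϖ t * ⟨y, hyP⟩ := Subtype.ext hsy
    rw [this]
    exact 𝔰.mul_mem_right _ hϖ𝔰
  · exact h

/-- `P_𝔰 ⊆ O` (the Gauss ring) for a prime `𝔰 ∋ ϖ`. -/
theorem sqgde_loc_le_gauss (hϖ : Irreducible ϖ) (t : F) (ht : Transcendental L t)
    [FiniteDimensional L⟮t⟯ F] (H : GrdfbHyp hϖ t)
    (𝔰 : Ideal ↥(s18tInt A t)) [h𝔰 : 𝔰.IsPrime] (hϖ𝔰 : sskPi ϖ t ∈ 𝔰) {x : F}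
    (hx : SsnfInLoc t 𝔰 x) : x ∈ s18tIntLoc A t (C ϖ) (s18t_prime_C hϖ) := by
  obtain ⟨s, hs, hsx⟩ := hx
  have hs0 : (s : F) ≠ 0 := fun h => hs (by
    have : s = 0 := Subtype.ext h
    rw [this]; exact 𝔰.zero_mem)
  have e : x = (s : F)⁻¹ * ((s : F) * x) := by
    rw [← mul_assoc, inv_mul_cancel₀ hs0, one_mul]
  rw [e]
  exact Subring.mul_mem _ (sqgde_inv_mem_gauss (L := L) hϖ t ht H 𝔰 hϖ𝔰 s hs)
    (s18tInt_le_intLoc hϖ t hsx)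

/-- **(DER)(iii), general form** : helper1's `SqgcaHyp` at `𝔰`. -/
theorem sqgde_cartierHyp (hϖ : Irreducible ϖ) (t : F) (ht : Transcendental L t)
    [FiniteDimensional L⟮t⟯ F] (H : GrdfbHyp hϖ t)
    (𝔰 : Ideal ↥(s18tInt A t)) [h𝔰 : 𝔰.IsPrime] (hϖ𝔰 : sskPi ϖ t ∈ 𝔰)
    (π : ↥(s18tInt A t)) (hπ𝔰 : π ∈ 𝔰)
    (hgen : ∀ x ∈ 𝔰, ∃ s : ↥(s18tInt A t), s ∉ 𝔰 ∧ ∃ a b : ↥(s18tInt A t),
      s * x = a * sskPi ϖ t + b * π)
    (q : ℕ) (hqϖ : ϖ ∣ (q : A))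
    (D : Derivation A F F) (hDπ : D (π : F) = 1)
    (hdB : ∀ y : F, SsnfInLoc t 𝔰 y → SsnfInLoc t 𝔰 (D y))
    (hDO : ∀ x ∈ s18tIntLoc A t (C ϖ) (s18t_prime_C hϖ),
      D x ∈ s18tIntLoc A t (C ϖ) (s18t_prime_C hϖ))
    (hres : ∀ p : ↥(s18tInt A t), ∃ c : ↥(s18tInt A t),
      S18DvdGauss hϖ t (D (c : F)) ∧ p - c ∈ 𝔰) :
    SqgcaHyp (s18tIntLoc A t (C ϖ) (s18t_prime_C hϖ)) (ssLocRing t 𝔰)
      (algebraMap A F ϖ) (π : F) q D := by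
  have hnoeP : IsNoetherianRing ↥(s18tInt A t) := sskr_isNoetherianRing (A := A) (L := L) t ht
  have hnoeB : IsNoetherianRing ↥(ssLocRing t 𝔰) :=
    IsLocalization.isNoetherianRing 𝔰.primeCompl ↥(ssLocRing t 𝔰) inferInstance
  have htA : Transcendental A t := s18tb_transcendental ht
  have h1𝔰 : (1 : ↥(s18tInt A t)) ∉ 𝔰 := fun h => h𝔰.ne_top ((Ideal.eq_top_iff_one _).mpr h)
  have hne : ∀ u : ↥(s18tInt A t), u ∉ 𝔰 → (u : F) ≠ 0 := fun u hu h => hu (by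
    have : u = 0 := Subtype.ext h
    rw [this]; exact 𝔰.zero_mem)
  have hϖF : algebraMap A F ϖ ≠ 0 := grdfb_algebraMap_ne_zero hϖ t H
  set O := s18tIntLoc A t (C ϖ) (s18t_prime_C hϖ) with hO
  set B := ssLocRing t 𝔰 with hB
  have hPO : ∀ z ∈ s18tInt A t, z ∈ O := fun z hz => s18tInt_le_intLoc hϖ t hz
  have hPB : ∀ z ∈ s18tInt A t, z ∈ B := fun z hz => ssl_int_le_locRing t 𝔰 hz
  have hsinv : ∀ s : ↥(s18tInt A t), s ∉ 𝔰 → (s : F)⁻¹ ∈ O := fun s hs =>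
    sqgde_inv_mem_gauss (L := L) hϖ t ht H 𝔰 hϖ𝔰 s hs
  have hsinvB : ∀ s : ↥(s18tInt A t), s ∉ 𝔰 → (s : F)⁻¹ ∈ B := fun s hs =>
    ⟨s, hs, by rw [mul_inv_cancel₀ (hne s hs)]; exact Subring.one_mem _⟩
  -- `B ≤ O`
  have hBO : B ≤ O := by
    rintro x ⟨s, hs, hsx⟩
    have e : x = (s : F)⁻¹ * ((s : F) * x) := by
      rw [← mul_assoc, inv_mul_cancel₀ (hne s hs), one_mul]
    rw [e]
    exact O.mul_mem (hsinv s hs) (hPO _ hsx)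
  have hDϖ : D (algebraMap A F ϖ) = 0 := D.map_algebraMap ϖ
  -- membership in the maximal ideal
  have hmaxB : ∀ x : F, SqgcaMax B (algebraMap A F ϖ) (π : F) x → SsInMax t 𝔰 x := by
    rintro x ⟨y, ⟨s, hs, hsy⟩, z, ⟨s', hs', hsz⟩, rfl⟩
    refine ⟨s * s', fun h => (h𝔰.mem_or_mem h).elim hs hs',
      sskPi ϖ t * (s' * ⟨_, hsy⟩) + π * (s * ⟨_, hsz⟩),
      𝔰.add_mem (𝔰.mul_mem_right _ hϖ𝔰) (𝔰.mul_mem_right _ hπ𝔰), ?_⟩
    push_cast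
    show (s : F) * (s' : F) * (algebraMap A F ϖ * y + (π : F) * z)
      = algebraMap A F ϖ * ((s' : F) * ((s : F) * y)) + (π : F) * ((s : F) * ((s' : F) * z))
    ring
  have hmaxB' : ∀ x : F, SsInMax t 𝔰 x → SqgcaMax B (algebraMap A F ϖ) (π : F) x := by
    intro x hx
    obtain ⟨f₁, f₂, hf₁, hf₂, hdec⟩ := sqgde_max_decomp t 𝔰 π hgen hx
    exact ⟨f₁, hf₁, f₂, hf₂, hdec⟩
  have hone : ¬ SsInMax t 𝔰 (1 : F) := by
    rintro ⟨s, hs, p, hp, hsp⟩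
    apply hs
    have : s = p := Subtype.ext (by rw [← hsp, mul_one])
    rw [this]; exact hp
  refine
    { BO := hBO
      piB := hPB _ (sskPi ϖ t).2
      pB := hPB _ π.2
      pinv := ?_
      p_ne := ?_
      d_add := fun x y => D.map_add x y
      d_mul := fun x y => by rw [D.leibniz, smul_eq_mul, smul_eq_mul]
      d_p := hDπ
      d_B := fun x hx => hdB x hx
      d_pi := ?_
      q_pi := ?_
      sat := ?_
      res := ?_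
      one_not := fun h => hone (hmaxB 1 h)
      frac := ?_ }
  · -- `π⁻¹ ∈ O`
    rcases H.val (π : F) (hPO _ π.2) with ⟨y, hy, hπy⟩ | h
    · exfalso
      have hyP : y ∈ s18tInt A t :=
        s18t_saturated (L := L) hϖ t ht y hy (by rw [← hπy]; exact π.2)
      have h1 : D (π : F) = algebraMap A F ϖ * D y := by
        rw [hπy, D.leibniz, hDϖ, smul_zero, add_zero, smul_eq_mul]
      rw [hDπ] at h1
      have hDy : D y ∈ O := hBO (hdB y (hPB y hyP))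
      apply H.nu
      have : (algebraMap A F ϖ)⁻¹ = D y := inv_eq_of_mul_eq_one_right h1.symm
      rw [this]; exact hDy
    · exact h
  · -- `π ≠ 0`
    intro h0
    rw [h0, map_zero] at hDπ
    exact zero_ne_one hDπ
  · -- `∂ (ϖ O) ⊆ ϖ O`
    rintro x ⟨y, hy, rfl⟩
    exact ⟨D y, hDO y hy, by rw [D.leibniz, hDϖ, smul_zero, add_zero, smul_eq_mul]⟩
  · -- `q ∈ ϖ O`
    obtain ⟨a, ha⟩ := hqϖ
    refine ⟨algebraMap A F a, hPO _ (s18tc_algebraMap_mem_int t a), ?_⟩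
    rw [← map_mul, ← ha, map_natCast]
  · -- saturation `B ∩ ϖ O = ϖ B`
    rintro x ⟨s, hs, hsx⟩ ⟨y, hy, rfl⟩
    refine ⟨y, ⟨s, hs, ?_⟩, rfl⟩
    apply s18t_saturated (L := L) hϖ t ht _ (O.mul_mem (hPO _ s.2) hy)
    have e : algebraMap A F ϖ * ((s : F) * y) = (s : F) * (algebraMap A F ϖ * y) := by ring
    rw [e]; exact hsx
  · -- residue representatives
    rintro x ⟨s, hs, hsx⟩
    obtain ⟨cp, hDcp, hcp⟩ := hres ⟨(s : F) * x, hsx⟩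
    obtain ⟨cs, hDcs, hcs⟩ := hres s
    have hcs' : cs ∉ 𝔰 := fun h => hs (by
      have := 𝔰.add_mem hcs h
      rwa [sub_add_cancel] at this)
    have hcs0 : (cs : F) ≠ 0 := hne cs hcs'
    have hs0 : (s : F) ≠ 0 := hne s hs
    have hcsinv : (cs : F)⁻¹ ∈ O := hsinv cs hcs'
    refine ⟨(cp : F) * (cs : F)⁻¹, B.mul_mem (hPB _ cp.2) (hsinvB cs hcs'), ?_, ?_⟩
    · -- `∂ (c_p / c_s) ∈ ϖ O`
      obtain ⟨y₁, hy₁, e₁⟩ := hDcp
      obtain ⟨y₂, hy₂, e₂⟩ := hDcs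
      refine ⟨(cs : F)⁻¹ * y₁ - (cp : F) * (cs : F)⁻¹ ^ 2 * y₂,
        O.sub_mem (O.mul_mem hcsinv hy₁)
          (O.mul_mem (O.mul_mem (hPO _ cp.2) (O.pow_mem hcsinv 2)) hy₂), ?_⟩
      rw [D.leibniz, D.leibniz_inv, smul_eq_mul, smul_eq_mul, smul_eq_mul, e₁, e₂]
      ring
    · -- `x - c_p / c_s ∈ 𝔰 B`
      apply hmaxB'
      refine ⟨s * cs, fun h => (h𝔰.mem_or_mem h).elim hs hcs',
        (⟨(s : F) * x, hsx⟩ - cp) * cs - cp * (s - cs),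
        𝔰.sub_mem (𝔰.mul_mem_right _ hcp) (𝔰.mul_mem_left _ hcs), ?_⟩
      push_cast
      show (s : F) * (cs : F) * (x - (cp : F) * (cs : F)⁻¹)
        = ((s : F) * x - (cp : F)) * (cs : F) - (cp : F) * ((s : F) - (cs : F))
      field_simp
      ring
  · -- (frac)
    intro D' hD'
    obtain ⟨b, hb, hbD⟩ := (s18t_intLoc_iff hϖ t D').mp hD'
    have hb0 : aeval t b ≠ 0 := s18tlg_aeval_ne_zero htA (fun h => hb (h ▸ dvd_zero _))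
    have hsP : aeval t b ∈ s18tInt A t := s18tlg_aeval_mem_int t b
    have hsinvO : (aeval t b)⁻¹ ∈ O :=
      s18tlg_loc_le_intLoc t (C ϖ) (s18t_prime_C hϖ)
        ⟨1, b, hb, by rw [inv_mul_cancel₀ hb0, map_one]⟩
    set sB : ↥B := ⟨aeval t b, hPB _ hsP⟩ with hsB
    set ϖB : ↥B := ⟨algebraMap A F ϖ, hPB _ (sskPi ϖ t).2⟩ with hϖB
    set πB : ↥B := ⟨(π : F), hPB _ π.2⟩ with hπB
    have hϖm : ϖB ∈ maximalIdeal ↥B :=
      (ssl_mem_maximalIdeal t 𝔰 ϖB).mpr ⟨1, h1𝔰, sskPi ϖ t, hϖ𝔰, by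
        rw [OneMemClass.coe_one, one_mul]; rfl⟩
    have hsnot : sB ∉ Ideal.span {ϖB} := by
      intro h
      obtain ⟨y, hy⟩ := Ideal.mem_span_singleton'.mp h
      have hyF : (y : F) * algebraMap A F ϖ = aeval t b := congrArg Subtype.val hy
      apply H.nu
      have hy0 : (y : F) ≠ 0 := by
        intro h0
        rw [h0, zero_mul] at hyF
        exact hb0 hyF.symm
      have e : (algebraMap A F ϖ)⁻¹ = (y : F) * (aeval t b)⁻¹ := by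
        rw [← hyF]; field_simp
      rw [e]
      exact O.mul_mem (hBO y.2) hsinvO
    obtain ⟨n, u, e, hu, hsue⟩ := sqgde_unit_pow ϖB πB hϖm
      (sqgde_maximalIdeal_eq t 𝔰 hϖ𝔰 π hπ𝔰 hgen) sB hsnot
    obtain ⟨v, hv⟩ := hu.exists_left_inv
    have hvF : (v : F) * (u : F) = 1 := congrArg Subtype.val hv
    have hsF : aeval t b = (u : F) * (π : F) ^ n + algebraMap A F ϖ * (e : F) :=
      congrArg Subtype.val hsue
    refine ⟨n, (v : F) * (aeval t b * D'), B.mul_mem v.2 (hPB _ hbD), ?_⟩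
    refine ⟨-((v : F) * (e : F) * D'),
      O.neg_mem (O.mul_mem (O.mul_mem (hBO v.2) (hBO e.2)) hD'), ?_⟩
    rw [hsF]
    linear_combination (-((π : F) ^ n * D')) * hvF

/-- **(DER)(iii) at a residue-rational `𝔰`** (helper1 2648 : `O` the Gauss ring, `B₀ = ssLocRing t 𝔰`). -/
theorem sqgde_cartierHyp_rational (hϖ : Irreducible ϖ) (t : F) (ht : Transcendental L t)
    [FiniteDimensional L⟮t⟯ F] (H : GrdfbHyp hϖ t)
    (𝔰 : Ideal ↥(s18tInt A t)) [h𝔰 : 𝔰.IsPrime] (hϖ𝔰 : sskPi ϖ t ∈ 𝔰)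
    (π : ↥(s18tInt A t)) (hπ𝔰 : π ∈ 𝔰)
    (hgen : ∀ x ∈ 𝔰, ∃ s : ↥(s18tInt A t), s ∉ 𝔰 ∧ ∃ a b : ↥(s18tInt A t),
      s * x = a * sskPi ϖ t + b * π)
    (hk : ∀ p : ↥(s18tInt A t), ∃ a : A,
      p - ⟨algebraMap A F a, s18tc_algebraMap_mem_int t a⟩ ∈ 𝔰)
    (q : ℕ) (hqϖ : ϖ ∣ (q : A))
    (D : Derivation A F F) (hDπ : D (π : F) = 1)
    (hDO : ∀ x ∈ s18tIntLoc A t (C ϖ) (s18t_prime_C hϖ),
      D x ∈ s18tIntLoc A t (C ϖ) (s18t_prime_C hϖ)) :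
    SqgcaHyp (s18tIntLoc A t (C ϖ) (s18t_prime_C hϖ)) (ssLocRing t 𝔰)
      (algebraMap A F ϖ) (π : F) q D :=
  sqgde_cartierHyp (L := L) hϖ t ht H 𝔰 hϖ𝔰 π hπ𝔰 hgen q hqϖ D hDπ
    (fun y hy => sqgde_loc_stable (L := L) t ht 𝔰 hϖ𝔰 π hπ𝔰 hgen hk D hDπ hy) hDO
    (fun p => by
      obtain ⟨a, ha⟩ := hk p
      refine ⟨⟨algebraMap A F a, s18tc_algebraMap_mem_int t a⟩, ?_, ha⟩
      show S18DvdGauss hϖ t (D (algebraMap A F a))
      rw [D.map_algebraMap]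
      exact ⟨0, Subring.zero_mem _, by rw [mul_zero]⟩)

/-- **(DER)(iii) at a closed point `𝔰` with perfect residue field** (`hperf` : the `q`-th power map is
onto `P / 𝔰`; `∂ (P_𝔰) ⊆ P_𝔰` as a hypothesis, e.g. from `sqgde_loc_stable_gen`). -/
theorem sqgde_cartierHyp_perfect (hϖ : Irreducible ϖ) (t : F) (ht : Transcendental L t)
    [FiniteDimensional L⟮t⟯ F] (H : GrdfbHyp hϖ t)
    (𝔰 : Ideal ↥(s18tInt A t)) [h𝔰 : 𝔰.IsPrime] (hϖ𝔰 : sskPi ϖ t ∈ 𝔰)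
    (π : ↥(s18tInt A t)) (hπ𝔰 : π ∈ 𝔰)
    (hgen : ∀ x ∈ 𝔰, ∃ s : ↥(s18tInt A t), s ∉ 𝔰 ∧ ∃ a b : ↥(s18tInt A t),
      s * x = a * sskPi ϖ t + b * π)
    (q : ℕ) (hq0 : q ≠ 0) (hqϖ : ϖ ∣ (q : A))
    (hperf : ∀ p : ↥(s18tInt A t), ∃ e : ↥(s18tInt A t), p - e ^ q ∈ 𝔰)
    (D : Derivation A F F) (hDπ : D (π : F) = 1)
    (hdB : ∀ y : F, SsnfInLoc t 𝔰 y → SsnfInLoc t 𝔰 (D y))
    (hDO : ∀ x ∈ s18tIntLoc A t (C ϖ) (s18t_prime_C hϖ),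
      D x ∈ s18tIntLoc A t (C ϖ) (s18t_prime_C hϖ)) :
    SqgcaHyp (s18tIntLoc A t (C ϖ) (s18t_prime_C hϖ)) (ssLocRing t 𝔰)
      (algebraMap A F ϖ) (π : F) q D :=
  sqgde_cartierHyp (L := L) hϖ t ht H 𝔰 hϖ𝔰 π hπ𝔰 hgen q hqϖ D hDπ hdB hDO
    (fun p => by
      obtain ⟨e, he⟩ := hperf p
      refine ⟨e ^ q, ?_, he⟩
      obtain ⟨a, ha⟩ := hqϖ
      have heO : (e : F) ∈ s18tIntLoc A t (C ϖ) (s18t_prime_C hϖ) := s18tInt_le_intLoc hϖ t e.2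
      refine ⟨algebraMap A F a * ((e : F) ^ (q - 1) * D (e : F)),
        Subring.mul_mem _ (s18tInt_le_intLoc hϖ t (s18tc_algebraMap_mem_int t a))
          (Subring.mul_mem _ (Subring.pow_mem _ heO _) (hDO _ heO)), ?_⟩
      push_cast
      rw [Derivation.leibniz_pow, smul_eq_mul, nsmul_eq_mul, ← mul_assoc (algebraMap A F ϖ),
        ← map_mul, ← ha, map_natCast])

/-- **(DER)(iii) at ANY closed point `𝔰` with perfect residue field, no further hypothesis** :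
`∂ (P_𝔰) ⊆ P_𝔰` from `sqgde_loc_stable_perf`. -/
theorem sqgde_cartierHyp_perf (hϖ : Irreducible ϖ) (t : F) (ht : Transcendental L t)
    [FiniteDimensional L⟮t⟯ F] (H : GrdfbHyp hϖ t)
    (𝔰 : Ideal ↥(s18tInt A t)) [h𝔰 : 𝔰.IsPrime] (hϖ𝔰 : sskPi ϖ t ∈ 𝔰)
    (π : ↥(s18tInt A t)) (hπ𝔰 : π ∈ 𝔰)
    (hgen : ∀ x ∈ 𝔰, ∃ s : ↥(s18tInt A t), s ∉ 𝔰 ∧ ∃ a b : ↥(s18tInt A t),
      s * x = a * sskPi ϖ t + b * π)
    (q : ℕ) (hq0 : q ≠ 0) (hqϖ : ϖ ∣ (q : A))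
    (hperf : ∀ p : ↥(s18tInt A t), ∃ e : ↥(s18tInt A t), p - e ^ q ∈ 𝔰)
    (D : Derivation A F F) (hDπ : D (π : F) = 1)
    (hDO : ∀ x ∈ s18tIntLoc A t (C ϖ) (s18t_prime_C hϖ),
      D x ∈ s18tIntLoc A t (C ϖ) (s18t_prime_C hϖ)) :
    SqgcaHyp (s18tIntLoc A t (C ϖ) (s18t_prime_C hϖ)) (ssLocRing t 𝔰)
      (algebraMap A F ϖ) (π : F) q D :=
  sqgde_cartierHyp_perfect (L := L) hϖ t ht H 𝔰 hϖ𝔰 π hπ𝔰 hgen q hq0 hqϖ hperf D hDπ
    (fun y hy => sqgde_loc_stable_perf (L := L) t ht 𝔰 hϖ𝔰 π hπ𝔰 hgen q hq0 hqϖ hperf D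
      (by rw [hDπ]; exact (ssLocRing t 𝔰).one_mem) hy) hDO

end Fermat.Agent.SQ
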