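/-
Program Q (S36), risk R1, piece (DER) (helper13) : FROM A GAUSS-INTEGRAL DERIVATION `D₀` OF `F`
(e.g. `d/dj = θ/θj`) TO `∂_p = d/dp` AT A CLOSED POINT `𝔰` WITH LOCAL PARAMETER `p`.

Input : `D₀ : Derivation A F F` with `D₀ O ⊆ O` (`O` the Gauss ring), some `j₀ ∈ P_𝔰` with `D₀ j₀` a
unit of `O`; `𝔰 P_𝔰 = (ϖ, p)`; residue field of `𝔰` perfect (`hperf`), `ϖ ∣ q`.  Output, for
`∂_p := (D₀ p)⁻¹ • D₀` (`sqgdeDp`) :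

* `sqgde_theta_ne_zero`   : `D₀ p ≠ 0`            (else `D₀ = 0` on `P_𝔰` by Nakayama);
* `sqgdeDp_self`          : `∂_p p = 1`;
* `sqgde_theta_stable`    : `∂_p (P_𝔰) ⊆ P_𝔰`      (DER);
* `sqgde_theta_unit`      : `(D₀ p)⁻¹ ∈ O`        (`D₀ j₀ = D₀ p · ∂_p j₀`, `∂_p j₀ ∈ P_𝔰 ⊆ O`);
* `sqgde_theta_gauss`     : `∂_p O ⊆ O`;
* `sqgde_theta_cartierHyp`: helper1's `SqgcaHyp O P_𝔰 ϖ p q ∂_p`;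
* `sqgde_theta_unram`     : `p` is an unramified coordinate at every horizontal valuation ring through `𝔰`.
-/
import Mathlib
import Fermat.Agent.SQ.Germ.DerivCart

set_option autoImplicit false
set_option linter.unusedSectionVars false
set_option linter.unusedVariables false

noncomputable section

namespace Fermat.Agent.SQ

open Polynomial IntermediateField Fermat.Agent.S18 Fermat.Agent.SS Fermat.Agent.G IsLocalRing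

universe u

variable {A : Type*} [CommRing A] [IsDomain A] [IsDiscreteValuationRing A] [CharZero A]
variable {L : Type*} [Field L] [Algebra A L] [IsFractionRing A L]
variable {F : Type u} [Field F] [Algebra A F] [Algebra L F] [IsScalarTower A L F]
variable {ϖ : A}

/-- `∂_p := (D₀ p)⁻¹ • D₀`. -/
def sqgdeDp (D₀ : Derivation A F F) (p : F) : Derivation A F F := (D₀ p)⁻¹ • D₀

theorem sqgdeDp_apply (D₀ : Derivation A F F) (p x : F) :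
    sqgdeDp D₀ p x = (D₀ p)⁻¹ * D₀ x := rfl

theorem sqgdeDp_self (D₀ : Derivation A F F) {p : F} (hp : D₀ p ≠ 0) : sqgdeDp D₀ p p = 1 := by
  rw [sqgdeDp_apply, inv_mul_cancel₀ hp]

/-- `D₀ p ≠ 0` for a local parameter `p` at a closed point with perfect residue field, as soon as
`D₀` does not vanish on `P_𝔰`. -/
theorem sqgde_theta_ne_zero (t : F) (ht : Transcendental L t) [FiniteDimensional L⟮t⟯ F]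
    (𝔰 : Ideal ↥(s18tInt A t)) [h𝔰 : 𝔰.IsPrime] (hϖ𝔰 : sskPi ϖ t ∈ 𝔰)
    (p : ↥(s18tInt A t)) (hp𝔰 : p ∈ 𝔰)
    (hgen : ∀ x ∈ 𝔰, ∃ s : ↥(s18tInt A t), s ∉ 𝔰 ∧ ∃ a b : ↥(s18tInt A t),
      s * x = a * sskPi ϖ t + b * p)
    (q : ℕ) (hq0 : q ≠ 0) (hqϖ : ϖ ∣ (q : A))
    (hperf : ∀ x : ↥(s18tInt A t), ∃ e : ↥(s18tInt A t), x - e ^ q ∈ 𝔰)
    (D₀ : Derivation A F F) (j₀ : F) (hj₀ : SsnfInLoc t 𝔰 j₀) (hj₀0 : D₀ j₀ ≠ 0) :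
    D₀ (p : F) ≠ 0 := fun h =>
  hj₀0 (sqgde_zero_perf (L := L) t ht 𝔰 hϖ𝔰 p hp𝔰 hgen q hq0 hqϖ hperf D₀ h hj₀)

section Pack

variable (hϖ : Irreducible ϖ) (t : F) (ht : Transcendental L t) [FiniteDimensional L⟮t⟯ F]
  (H : GrdfbHyp hϖ t)
  (𝔰 : Ideal ↥(s18tInt A t)) [h𝔰 : 𝔰.IsPrime] (hϖ𝔰 : sskPi ϖ t ∈ 𝔰)
  (p : ↥(s18tInt A t)) (hp𝔰 : p ∈ 𝔰)
  (hgen : ∀ x ∈ 𝔰, ∃ s : ↥(s18tInt A t), s ∉ 𝔰 ∧ ∃ a b : ↥(s18tInt A t),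
    s * x = a * sskPi ϖ t + b * p)
  (q : ℕ) (hq0 : q ≠ 0) (hqϖ : ϖ ∣ (q : A))
  (hperf : ∀ x : ↥(s18tInt A t), ∃ e : ↥(s18tInt A t), x - e ^ q ∈ 𝔰)
  (D₀ : Derivation A F F)
  (hD₀O : ∀ x ∈ s18tIntLoc A t (C ϖ) (s18t_prime_C hϖ),
    D₀ x ∈ s18tIntLoc A t (C ϖ) (s18t_prime_C hϖ))
  (j₀ : F) (hj₀ : SsnfInLoc t 𝔰 j₀)
  (hj₀u : (D₀ j₀)⁻¹ ∈ s18tIntLoc A t (C ϖ) (s18t_prime_C hϖ)) (hj₀0 : D₀ j₀ ≠ 0)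

include ht hϖ𝔰 hp𝔰 hgen hq0 hqϖ hperf hj₀ hj₀0 in
/-- `∂_p (P_𝔰) ⊆ P_𝔰`. -/
theorem sqgde_theta_stable {y : F} (hy : SsnfInLoc t 𝔰 y) :
    SsnfInLoc t 𝔰 (sqgdeDp D₀ (p : F) y) := by
  have hp0 := sqgde_theta_ne_zero (L := L) t ht 𝔰 hϖ𝔰 p hp𝔰 hgen q hq0 hqϖ hperf D₀ j₀ hj₀ hj₀0
  exact sqgde_loc_stable_perf (L := L) t ht 𝔰 hϖ𝔰 p hp𝔰 hgen q hq0 hqϖ hperf (sqgdeDp D₀ (p : F))
    (by rw [sqgdeDp_self D₀ hp0]; exact (ssLocRing t 𝔰).one_mem) hy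

include ht H hϖ𝔰 hp𝔰 hgen hq0 hqϖ hperf hj₀ hj₀u hj₀0 in
/-- `D₀ p` is a unit of the Gauss ring. -/
theorem sqgde_theta_unit : (D₀ (p : F))⁻¹ ∈ s18tIntLoc A t (C ϖ) (s18t_prime_C hϖ) := by
  have hp0 := sqgde_theta_ne_zero (L := L) t ht 𝔰 hϖ𝔰 p hp𝔰 hgen q hq0 hqϖ hperf D₀ j₀ hj₀ hj₀0
  have h1 : sqgdeDp D₀ (p : F) j₀ ∈ s18tIntLoc A t (C ϖ) (s18t_prime_C hϖ) :=
    sqgde_loc_le_gauss (L := L) hϖ t ht H 𝔰 hϖ𝔰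
      (sqgde_theta_stable (L := L) t ht 𝔰 hϖ𝔰 p hp𝔰 hgen q hq0 hqϖ hperf D₀ j₀ hj₀ hj₀0 hj₀)
  have e : (D₀ (p : F))⁻¹ = sqgdeDp D₀ (p : F) j₀ * (D₀ j₀)⁻¹ := by
    rw [sqgdeDp_apply, mul_assoc, mul_inv_cancel₀ hj₀0, mul_one]
  rw [e]
  exact Subring.mul_mem _ h1 hj₀u

include ht H hϖ𝔰 hp𝔰 hgen hq0 hqϖ hperf hD₀O hj₀ hj₀u hj₀0 in
/-- `∂_p O ⊆ O`. -/
theorem sqgde_theta_gauss (x : F) (hx : x ∈ s18tIntLoc A t (C ϖ) (s18t_prime_C hϖ)) :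
    sqgdeDp D₀ (p : F) x ∈ s18tIntLoc A t (C ϖ) (s18t_prime_C hϖ) := by
  rw [sqgdeDp_apply]
  exact Subring.mul_mem _
    (sqgde_theta_unit (L := L) hϖ t ht H 𝔰 hϖ𝔰 p hp𝔰 hgen q hq0 hqϖ hperf D₀ j₀ hj₀ hj₀u hj₀0)
    (hD₀O x hx)

include ht H hϖ𝔰 hp𝔰 hgen hq0 hqϖ hperf hD₀O hj₀ hj₀u hj₀0 in
/-- **helper1's `SqgcaHyp` for `∂_p = (D₀ p)⁻¹ • D₀`** at a closed point `𝔰` with `𝔰 P_𝔰 = (ϖ, p)`. -/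
theorem sqgde_theta_cartierHyp :
    SqgcaHyp (s18tIntLoc A t (C ϖ) (s18t_prime_C hϖ)) (ssLocRing t 𝔰)
      (algebraMap A F ϖ) (p : F) q (sqgdeDp D₀ (p : F)) := by
  have hp0 := sqgde_theta_ne_zero (L := L) t ht 𝔰 hϖ𝔰 p hp𝔰 hgen q hq0 hqϖ hperf D₀ j₀ hj₀ hj₀0
  exact sqgde_cartierHyp_perf (L := L) hϖ t ht H 𝔰 hϖ𝔰 p hp𝔰 hgen q hq0 hqϖ hperf
    (sqgdeDp D₀ (p : F)) (sqgdeDp_self D₀ hp0)
    (sqgde_theta_gauss (L := L) hϖ t ht H 𝔰 hϖ𝔰 p hp𝔰 hgen q hq0 hqϖ hperf D₀ hD₀O j₀ hj₀ hj₀u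
      hj₀0)

include ht hϖ𝔰 hp𝔰 hgen hq0 hqϖ hperf hj₀ hj₀0 in
/-- **`p` is an unramified coordinate** at every valuation ring `V ⊇ P` of `F / L` centred in `𝔰`,
and `∂_p V ⊆ V`. -/
theorem sqgde_theta_unram (hϖ0 : ϖ ≠ 0)
    (V : ValuationSubring F) (hV : S18IsPlace L V) (hPV : s18tInt A t ≤ V.toSubring)
    (hc : sskCentre t V ⊆ (𝔰 : Set ↥(s18tInt A t))) :
    (∀ x ∈ V, sqgdeDp D₀ (p : F) x ∈ V) ∧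
    ∃ m : L[X], m.Monic ∧ Irreducible m ∧ S18IsUnif V (aeval (p : F) m) ∧
      V.valuation (sqgdeDp D₀ (p : F) (aeval (p : F) m)) = 1 ∧
      ∀ g : L[X], V.valuation (aeval (p : F) g) < 1 ↔ m ∣ g := by
  have hp0 := sqgde_theta_ne_zero (L := L) t ht 𝔰 hϖ𝔰 p hp𝔰 hgen q hq0 hqϖ hperf D₀ j₀ hj₀ hj₀0
  exact sqgde_unram_perf (L := L) hϖ0 t ht 𝔰 hϖ𝔰 p hp𝔰 hgen q hq0 hqϖ hperf
    (sqgdeDp D₀ (p : F)) (sqgdeDp_self D₀ hp0) V hV hPV hc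

end Pack

end Fermat.Agent.SQ
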