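import Mathlib
import Fermat.Agent.SS.Val.ModAL
import Fermat.Agent.SS.Val.ModCoeff
import Fermat.Agent.SQ.Val.Theta

/-!
# Program Q (S36), risk R1, part (V) : the vertical side of `g = φ(θ j) / θ j` and of `g_x`

`E ⊂ ℚ̄` a number field, `𝔸` a valuation subring of `ℚ̄` above `q`, `A₀ = 𝔸 ∩ E`, `k` its residue
field, `q ∤ M`, `F₀ = F_E(M) ⊂ F₁ = F_E(M q) ⊂ E((𝐪))`, `α` the inclusion, `φ f = f(𝐪^q)`,
`θ = 𝐪 d/d𝐪`.

* `sqgv_deriv_closed`, `sqgv_deriv_mem` : every `F_E(N)` is stable under `d/dj = θ / θ j`;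
* `sqgvG E M q : F₁` with `sqgvG_coe : g · θ j = (θ j)(𝐪^q)`, and `sqgvG_formula` :
  `g · (q · Φ_Y(j, j_q)) = - Φ_X(j, j_q)` for every `Φ ∈ A₀[X][Y]` with `Φ(j, j_q) = 0`;
* `sqgvG_gauss` : `g, g⁻¹` lie in the Gauss ring of `F₁`, with reduction `(θ j̄)^(q-1)`;
* `sqgvG_w` : `w g = (q² g)⁻¹` for the Atkin-Lehner involution `w`;
* `sqgvG_val₁`, `sqgvG_val₂` : `V₁(g) = 1`, `V₂(q² g) = 1`;
* the same for `g_x = g · φ(dx/dj) / α(dx/dj)`, `x ∈ F₀`.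
-/

set_option autoImplicit false
set_option linter.unusedSectionVars false
set_option linter.unusedVariables false
set_option linter.style.haveILetI false
set_option synthInstance.maxHeartbeats 400000

noncomputable section

namespace Fermat.Agent.SQ

open Polynomial ModularCurve AlgebraicCurve IsLocalRing IntermediateField Fermat.Agent.S24
  Fermat.Agent.G Fermat.Agent.S18 Fermat.Agent.SS

local notation "Qb" => AlgebraicClosure ℚ

/-! ### Abstract Gauss ring : membership and reduction from an identity of series -/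

section GaussAbstract

variable {A₀ : Type*} [CommRing A₀] [IsDomain A₀] [IsDiscreteValuationRing A₀] [CharZero A₀]
variable {L₀ : Type*} [Field L₀] [Algebra A₀ L₀] [IsFractionRing A₀ L₀]
variable {ϖ : A₀}

/-- `x · u = v` with `u, v ∈ A₀((𝐪))` ARBITRARY (not necessarily in `F`), `ū ≠ 0` : then `x` lies in
the Gauss ring of `F`. -/
theorem sqgv_mem_of_mul_eq (hϖ : Irreducible ϖ) (F : IntermediateField L₀ (LaurentSeries L₀))
    (hF : S18VGen A₀ F) (x : ↥F) (u v : LaurentSeries A₀) (hu : s18vRes A₀ u ≠ 0)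
    (h : (x : LaurentSeries L₀) * s18vIncl A₀ L₀ u = s18vIncl A₀ L₀ v) : x ∈ s18vO A₀ F := by
  by_cases hx0 : x = 0
  · rw [hx0]
    exact Subring.zero_mem _
  rcases s18v_mem_or_inv_mem hϖ F hF x with hx | hx
  · exact hx
  rcases s18v_dvd_or_inv_mem hϖ F x⁻¹ hx with ⟨y, hy, hxy⟩ | hx'
  · exfalso
    obtain ⟨a, b, ha, hb, hb0, hyab⟩ := hy
    have hx0' : (x : LaurentSeries L₀) ≠ 0 := fun h0 => hx0 (Subtype.ext h0)
    have hxy' : ((x : LaurentSeries L₀))⁻¹ =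
        s18vIncl A₀ L₀ (HahnSeries.C ϖ) * (y : LaurentSeries L₀) := by
      rw [← s18vg_coe_unif F ϖ]
      exact_mod_cast congrArg (fun z : ↥F => (z : LaurentSeries L₀)) hxy
    have h2 : s18vIncl A₀ L₀ u = ((x : LaurentSeries L₀))⁻¹ * s18vIncl A₀ L₀ v := by
      rw [← h, ← mul_assoc, inv_mul_cancel₀ hx0', one_mul]
    rw [hxy'] at h2
    have h1 : s18vIncl A₀ L₀ (u * b) = s18vIncl A₀ L₀ (HahnSeries.C ϖ * a * v) := by
      rw [map_mul, map_mul, map_mul, ← hyab, h2]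
      ring
    have h3 := congrArg (s18vRes A₀) (s18vg_incl_injective h1)
    rw [map_mul, map_mul, map_mul, s18vg_res_C, (residue_eq_zero_iff ϖ).mpr
      (hϖ.maximalIdeal_eq ▸ Ideal.mem_span_singleton_self ϖ), map_zero, zero_mul, zero_mul] at h3
    exact (mul_ne_zero hu hb0) h3
  · rwa [inv_inv] at hx'

/-- `x · u = v` with `u, v ∈ A₀((𝐪))` arbitrary, `ū ≠ 0`, `x` in the Gauss ring : the reduction of
`x` is `v̄ / ū`. -/
theorem sqgv_red_of_mul_eq (F : IntermediateField L₀ (LaurentSeries L₀)) (x : ↥(s18vO A₀ F))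
    (u v : LaurentSeries A₀)
    (h : ((x : ↥F) : LaurentSeries L₀) * s18vIncl A₀ L₀ u = s18vIncl A₀ L₀ v) :
    s18vcRed F x * s18vRes A₀ u = s18vRes A₀ v := by
  obtain ⟨a, b, ha, hb, hb0, hxab⟩ := x.2
  rw [s18vcRed_eq F x a b hb0 hxab, div_mul_eq_mul_div, div_eq_iff hb0]
  have h1 : s18vIncl A₀ L₀ (a * u) = s18vIncl A₀ L₀ (v * b) := by
    rw [map_mul, map_mul, ← hxab, ← h]
    ring
  have h3 := congrArg (s18vRes A₀) (s18vg_incl_injective h1)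
  rwa [map_mul, map_mul] at h3

/-- both : `x · u = v`, `ū ≠ 0`, `v̄ ≠ 0` : `x` is a unit of the Gauss ring with reduction `v̄/ū`. -/
theorem sqgv_unit_of_mul_eq (hϖ : Irreducible ϖ) (F : IntermediateField L₀ (LaurentSeries L₀))
    (hF : S18VGen A₀ F) (x : ↥F) (u v : LaurentSeries A₀) (hu : s18vRes A₀ u ≠ 0)
    (hv : s18vRes A₀ v ≠ 0)
    (h : (x : LaurentSeries L₀) * s18vIncl A₀ L₀ u = s18vIncl A₀ L₀ v) :
    ∃ hx : x ∈ s18vO A₀ F, x⁻¹ ∈ s18vO A₀ F ∧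
      s18vcRed F ⟨x, hx⟩ = s18vRes A₀ v / s18vRes A₀ u := by
  have hx := sqgv_mem_of_mul_eq hϖ F hF x u v hu h
  have hv0 : s18vIncl A₀ L₀ v ≠ 0 := fun h0 => hv (by
    rw [s18vg_incl_injective (h0.trans (map_zero _).symm), map_zero])
  have hx0 : (x : LaurentSeries L₀) ≠ 0 := fun h0 => hv0 (by rw [← h, h0, zero_mul])
  refine ⟨hx, ?_, ?_⟩
  · refine sqgv_mem_of_mul_eq hϖ F hF x⁻¹ v u hv ?_
    push_cast
    rw [← h, ← mul_assoc, inv_mul_cancel₀ hx0, one_mul]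
  · rw [eq_div_iff hu]
    exact sqgv_red_of_mul_eq F ⟨x, hx⟩ u v h

end GaussAbstract

/-! ### A derivation of a big field preserves every subfield algebraic over a preserved one -/

section DerivClosed

variable {E L : Type*} [Field E] [Field L] [Algebra E L]

theorem sqgv_leibniz_one (D : L →+ L) (hD : ∀ a b, D (a * b) = D a * b + a * D b) : D 1 = 0 := by
  have h := hD 1 1
  rw [mul_one, one_mul, mul_one] at h
  exact left_eq_add.mp h

theorem sqgv_leibniz_inv (D : L →+ L) (hD : ∀ a b, D (a * b) = D a * b + a * D b) (a : L) :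
    D a⁻¹ = -(D a * a⁻¹ ^ 2) := by
  by_cases ha : a = 0
  · rw [ha, inv_zero, map_zero]
    simp
  have h := hD a a⁻¹
  rw [mul_inv_cancel₀ ha, sqgv_leibniz_one D hD] at h
  have h2 : a * D a⁻¹ = -(D a * a⁻¹) := by
    rw [eq_neg_iff_add_eq_zero, add_comm]
    exact h.symm
  calc D a⁻¹ = a⁻¹ * (a * D a⁻¹) := by rw [← mul_assoc, inv_mul_cancel₀ ha, one_mul]
    _ = -(D a * a⁻¹ ^ 2) := by rw [h2]; ring

/-- the derivative of a polynomial expression with coefficients in a subfield `K₁` whose derivatives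
lie in `F` -/
theorem sqgv_leibniz_aeval_mem (F : IntermediateField E L) (K₁ : IntermediateField E ↥F)
    (D : L →+ L) (hD : ∀ a b, D (a * b) = D a * b + a * D b)
    (hK : ∀ c : ↥F, c ∈ K₁ → D (c : L) ∈ F) (x : ↥F) (p : (↥K₁)[X]) :
    ∃ r : ↥F, D ((aeval x p : ↥F) : L) =
      (r : L) + ((aeval x (derivative p) : ↥F) : L) * D (x : L) := by
  induction p using Polynomial.induction_on' with
  | add p₁ p₂ h₁ h₂ =>
    obtain ⟨r₁, hr₁⟩ := h₁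
    obtain ⟨r₂, hr₂⟩ := h₂
    refine ⟨r₁ + r₂, ?_⟩
    rw [map_add, derivative_add, map_add]
    push_cast
    rw [map_add, hr₁, hr₂]
    ring
  | monomial n c =>
    refine ⟨⟨D (((c : ↥K₁) : ↥F) : L), hK _ c.2⟩ * x ^ n, ?_⟩
    rw [aeval_monomial, derivative_monomial, aeval_monomial]
    push_cast
    rw [hD, sqvt_leibniz_pow D hD]
    have e2 : ((algebraMap ↥K₁ ↥F c : ↥F) : L) = (((c : ↥K₁) : ↥F) : L) := rfl
    rw [e2]
    ring

/-- **stability under a derivation** : `F ⊂ L` a subfield of characteristic `0`, `D` an additive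
Leibniz map of `L` killing the constants `E`, `t ∈ F` with `D t ∈ F`, `F` algebraic over `E(t)` :
then `D F ⊆ F`. -/
theorem sqgv_deriv_closed [CharZero E] (F : IntermediateField E L) (D : L →+ L)
    (hD : ∀ a b, D (a * b) = D a * b + a * D b) (hc : ∀ c : E, D (algebraMap E L c) = 0)
    (t : ↥F) (ht : D (t : L) ∈ F) [Algebra.IsAlgebraic ↥E⟮t⟯ ↥F] (x : ↥F) : D (x : L) ∈ F := by
  -- the base field is preserved
  have hK : ∀ c : ↥F, c ∈ E⟮t⟯ → D (c : L) ∈ F := by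
    intro c hcm
    induction hcm using IntermediateField.adjoin_induction with
    | mem y hy =>
      rw [Set.mem_singleton_iff] at hy
      rw [hy]
      exact ht
    | algebraMap y =>
      have e : ((algebraMap E ↥F y : ↥F) : L) = algebraMap E L y := rfl
      rw [e, hc]
      exact zero_mem _
    | add y z _ _ hy hz =>
      push_cast
      rw [map_add]
      exact add_mem hy hz
    | inv y _ hy =>
      push_cast
      rw [sqgv_leibniz_inv D hD]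
      exact neg_mem (mul_mem hy (pow_mem (inv_mem y.2) 2))
    | mul y z _ _ hy hz =>
      push_cast
      rw [hD]
      exact add_mem (mul_mem hy z.2) (mul_mem y.2 hz)
  haveI : CharZero ↥E⟮t⟯ := charZero_of_injective_algebraMap (algebraMap E ↥E⟮t⟯).injective
  have hint : IsIntegral ↥E⟮t⟯ x := (Algebra.IsAlgebraic.isAlgebraic x).isIntegral
  have hsep : (minpoly ↥E⟮t⟯ x).Separable := (minpoly.irreducible hint).separable
  have hne : aeval x (derivative (minpoly ↥E⟮t⟯ x)) ≠ 0 :=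
    hsep.aeval_derivative_ne_zero (minpoly.aeval _ x)
  obtain ⟨r, hr⟩ := sqgv_leibniz_aeval_mem F E⟮t⟯ D hD hK x (minpoly ↥E⟮t⟯ x)
  rw [minpoly.aeval] at hr
  push_cast at hr
  rw [map_zero] at hr
  have hne' : ((aeval x (derivative (minpoly ↥E⟮t⟯ x)) : ↥F) : L) ≠ 0 := fun h0 =>
    hne (Subtype.ext h0)
  have e : D (x : L) = -(r : L) * ((aeval x (derivative (minpoly ↥E⟮t⟯ x)) : ↥F) : L)⁻¹ := by
    rw [eq_mul_inv_iff_mul_eq₀ hne', eq_neg_iff_add_eq_zero, add_comm, mul_comm]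
    exact hr.symm
  rw [e]
  exact mul_mem (neg_mem r.2) (inv_mem (SetLike.coe_mem _))

end DerivClosed

section DerivUnique

variable {E L : Type*} [Field E] [Field L]

/-- a `σ`-derivation, on powers -/
theorem sqgv_tw_pow {F : Type*} [Field F] (σ : F →+* L) (δ : F →+ L)
    (hδ : ∀ a b, δ (a * b) = δ a * σ b + σ a * δ b) (x : F) (n : ℕ) :
    δ (x ^ n) = (n : L) * σ x ^ (n - 1) * δ x := by
  have h1 : δ 1 = 0 := by
    have h := hδ 1 1
    rw [mul_one, map_one σ, mul_one, one_mul] at h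
    exact left_eq_add.mp h
  induction n with
  | zero => rw [pow_zero, h1, Nat.cast_zero, zero_mul, zero_mul]
  | succ n ih =>
    rw [pow_succ, hδ, ih, Nat.add_sub_cancel, map_pow]
    rcases Nat.eq_zero_or_pos n with rfl | hn
    · simp
    · have h2 : σ x ^ n = σ x ^ (n - 1) * σ x := by rw [← pow_succ, Nat.sub_add_cancel hn]
      rw [h2]
      push_cast
      ring

/-- **uniqueness of derivations along an algebraic extension in characteristic `0`** : a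
`σ`-derivation `δ : F → L` (`σ : F → L` a field embedding) killing the constants `E` and `t`, `F`
algebraic over `E(t)`, vanishes. -/
theorem sqgv_deriv_unique [CharZero E] {F : Type*} [Field F] [Algebra E F] (σ : F →+* L)
    (δ : F →+ L) (hδ : ∀ a b, δ (a * b) = δ a * σ b + σ a * δ b)
    (hc : ∀ c : E, δ (algebraMap E F c) = 0) (t : F) (ht : δ t = 0)
    [Algebra.IsAlgebraic ↥E⟮t⟯ F] (x : F) : δ x = 0 := by
  have h1 : δ 1 = 0 := by
    have h := hδ 1 1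
    rw [mul_one, map_one σ, mul_one, one_mul] at h
    exact left_eq_add.mp h
  have hinv : ∀ a : F, δ a = 0 → δ a⁻¹ = 0 := by
    intro a ha
    by_cases ha0 : a = 0
    · rw [ha0, inv_zero, map_zero]
    have h := hδ a a⁻¹
    rw [mul_inv_cancel₀ ha0, h1, ha, zero_mul, zero_add] at h
    have h2 : σ a ≠ 0 := (map_ne_zero σ).mpr ha0
    exact (mul_eq_zero.mp h.symm).resolve_left h2
  have hK : ∀ c : F, c ∈ E⟮t⟯ → δ c = 0 := by
    intro c hcm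
    induction hcm using IntermediateField.adjoin_induction with
    | mem y hy =>
      rw [Set.mem_singleton_iff] at hy
      rw [hy]
      exact ht
    | algebraMap y => exact hc y
    | add y z _ _ hy hz => rw [map_add, hy, hz, add_zero]
    | inv y _ hy => exact hinv y hy
    | mul y z _ _ hy hz => rw [hδ, hy, hz, zero_mul, mul_zero, add_zero]
  have hp : ∀ p : (↥E⟮t⟯)[X], δ (aeval x p) = σ (aeval x (derivative p)) * δ x := by
    intro p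
    induction p using Polynomial.induction_on' with
    | add p₁ p₂ h₁ h₂ => rw [map_add, map_add, derivative_add, map_add, map_add, h₁, h₂, add_mul]
    | monomial n c =>
      have hcK : δ (algebraMap ↥E⟮t⟯ F c) = 0 := hK _ c.2
      rw [aeval_monomial, derivative_monomial, aeval_monomial, hδ, hcK, zero_mul, zero_add,
        sqgv_tw_pow σ δ hδ, map_mul, map_mul, map_pow, map_mul, map_natCast, map_natCast]
      ring
  haveI : CharZero ↥E⟮t⟯ := charZero_of_injective_algebraMap (algebraMap E ↥E⟮t⟯).injective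
  have hint : IsIntegral ↥E⟮t⟯ x := (Algebra.IsAlgebraic.isAlgebraic x).isIntegral
  have hsep : (minpoly ↥E⟮t⟯ x).Separable := (minpoly.irreducible hint).separable
  have hne : aeval x (derivative (minpoly ↥E⟮t⟯ x)) ≠ 0 :=
    hsep.aeval_derivative_ne_zero (minpoly.aeval _ x)
  have h := hp (minpoly ↥E⟮t⟯ x)
  rw [minpoly.aeval, map_zero] at h
  exact (mul_eq_zero.mp h.symm).resolve_left ((map_ne_zero σ).mpr hne)

end DerivUnique

/-! ### `d/dj = θ / θ j` on `K((𝐪))` and on `F_K(N)` -/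

section DJ

variable (K : Type*) [Field K]

/-- `(θ j)⁻¹` in `K((𝐪))` -/
def sqgvThJ : LaurentSeries K := sqvtTheta K (jqModC K)

theorem sqgvThJ_ne_zero : sqgvThJ K ≠ 0 := (sqvtTheta_jq_isUnit K).ne_zero

/-- `d/dj = (θ j)⁻¹ · θ` on `K((𝐪))` -/
def sqgvDj : LaurentSeries K →+ LaurentSeries K :=
  (AddMonoidHom.mulLeft (sqgvThJ K)⁻¹).comp (sqvtTheta K)

theorem sqgvDj_apply (f : LaurentSeries K) : sqgvDj K f = (sqgvThJ K)⁻¹ * sqvtTheta K f := rfl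

theorem sqgvDj_mul (f g : LaurentSeries K) :
    sqgvDj K (f * g) = sqgvDj K f * g + f * sqgvDj K g := by
  rw [sqgvDj_apply, sqgvDj_apply, sqgvDj_apply, sqvtTheta_mul]
  ring

theorem sqgvDj_algebraMap (c : K) : sqgvDj K (algebraMap K (LaurentSeries K) c) = 0 := by
  rw [sqgvDj_apply, sqvtTheta_algebraMap, mul_zero]

theorem sqgvDj_j : sqgvDj K (jqModC K) = 1 := by
  rw [sqgvDj_apply]
  exact inv_mul_cancel₀ (sqgvThJ_ne_zero K)

theorem sqgvDj_mul_thJ (f : LaurentSeries K) : sqgvDj K f * sqgvThJ K = sqvtTheta K f := by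
  rw [sqgvDj_apply, mul_comm, ← mul_assoc, mul_inv_cancel₀ (sqgvThJ_ne_zero K), one_mul]

variable [CharZero K] (N : ℕ) [NeZero N]

/-- **(V0)** every `F_K(N)` is stable under `d/dj`. -/
theorem sqgv_dj_mem (x : modularFunctionFieldFullC K N) :
    sqgvDj K (x : LaurentSeries K) ∈ modularFunctionFieldFullC K N := by
  haveI := (ssvmd_finrank_j K N).1
  haveI : Algebra.IsAlgebraic ↥K⟮ssvmdJ K N⟯ ↥(modularFunctionFieldFullC K N) :=
    Algebra.IsAlgebraic.of_finite _ _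
  refine sqgv_deriv_closed (modularFunctionFieldFullC K N) (sqgvDj K) (sqgvDj_mul K)
    (sqgvDj_algebraMap K) (ssvmdJ K N) ?_ x
  show sqgvDj K (jqModC K) ∈ _
  rw [sqgvDj_j]
  exact one_mem _

/-- `d/dj` as an additive endomorphism of `F_K(N)` -/
def sqgvDer : modularFunctionFieldFullC K N →+ modularFunctionFieldFullC K N where
  toFun x := ⟨sqgvDj K (x : LaurentSeries K), sqgv_dj_mem K N x⟩
  map_zero' := Subtype.ext (by push_cast; rw [map_zero])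
  map_add' x y := Subtype.ext (by push_cast; rw [map_add])

theorem sqgvDer_coe (x : modularFunctionFieldFullC K N) :
    ((sqgvDer K N x : modularFunctionFieldFullC K N) : LaurentSeries K) =
      sqgvDj K (x : LaurentSeries K) := rfl

/-- **(V0)** `dx/dj · θ j = θ x` -/
theorem sqgvDer_spec (x : modularFunctionFieldFullC K N) :
    ((sqgvDer K N x : modularFunctionFieldFullC K N) : LaurentSeries K) *
      sqvtTheta K (jqModC K) = sqvtTheta K (x : LaurentSeries K) :=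
  sqgvDj_mul_thJ K _

theorem sqgvDer_mul (x y : modularFunctionFieldFullC K N) :
    sqgvDer K N (x * y) = sqgvDer K N x * y + x * sqgvDer K N y :=
  Subtype.ext (by
    push_cast
    rw [sqgvDer_coe, sqgvDer_coe, sqgvDer_coe]
    push_cast
    exact sqgvDj_mul K _ _)

theorem sqgvDer_algebraMap (c : K) :
    sqgvDer K N (algebraMap K (modularFunctionFieldFullC K N) c) = 0 :=
  Subtype.ext (sqgvDj_algebraMap K c)

theorem sqgvDer_j : sqgvDer K N (ssvmdJ K N) = 1 := Subtype.ext (sqgvDj_j K)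

/-- `θ x = 0` iff `dx/dj = 0` -/
theorem sqgvDer_eq_zero_iff (x : modularFunctionFieldFullC K N) :
    sqgvDer K N x = 0 ↔ sqvtTheta K (x : LaurentSeries K) = 0 := by
  rw [← sqgvDer_spec K N x]
  constructor
  · intro h
    rw [h]
    push_cast
    rw [zero_mul]
  · intro h
    apply Subtype.ext
    push_cast
    exact (mul_eq_zero.mp h).resolve_right (sqgvThJ_ne_zero K)

/-- **uniqueness** : a `σ`-derivation of `F_K(N)` into a field, killing `K` and agreeing with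
`δ₀ j · σ ∘ d/dj` at `j`, is `δ₀ j · σ ∘ d/dj`. -/
theorem sqgvDer_unique {L : Type*} [Field L] (σ : modularFunctionFieldFullC K N →+* L)
    (δ : modularFunctionFieldFullC K N →+ L) (hδ : ∀ a b, δ (a * b) = δ a * σ b + σ a * δ b)
    (hc : ∀ c : K, δ (algebraMap K (modularFunctionFieldFullC K N) c) = 0)
    (x : modularFunctionFieldFullC K N) : δ x = δ (ssvmdJ K N) * σ (sqgvDer K N x) := by
  haveI := (ssvmd_finrank_j K N).1
  haveI : Algebra.IsAlgebraic ↥K⟮ssvmdJ K N⟯ ↥(modularFunctionFieldFullC K N) :=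
    Algebra.IsAlgebraic.of_finite _ _
  let δ' : modularFunctionFieldFullC K N →+ L :=
    δ - (AddMonoidHom.mulLeft (δ (ssvmdJ K N))).comp
      ((σ : modularFunctionFieldFullC K N →+ L).comp (sqgvDer K N))
  have hδ'a : ∀ y, δ' y = δ y - δ (ssvmdJ K N) * σ (sqgvDer K N y) := fun y => rfl
  have h0 := sqgv_deriv_unique (E := K) σ δ' (fun a b => by
      rw [hδ'a, hδ'a, hδ'a, hδ, sqgvDer_mul, map_add, map_mul, map_mul]
      ring) (fun c => by rw [hδ'a, hc, sqgvDer_algebraMap, map_zero, mul_zero, sub_zero])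
    (ssvmdJ K N) (by rw [hδ'a, sqgvDer_j, map_one, mul_one, sub_self]) x
  rw [hδ'a, sub_eq_zero] at h0
  exact h0

/-- **`d/dx = (dx/dj)⁻¹ · d/dj`** on `F_K(N)`, for `x ∈ F_K(N)` -/
def sqgvDx (x : modularFunctionFieldFullC K N) :
    modularFunctionFieldFullC K N →+ modularFunctionFieldFullC K N :=
  (AddMonoidHom.mulLeft (sqgvDer K N x)⁻¹).comp (sqgvDer K N)

theorem sqgvDx_apply (x f : modularFunctionFieldFullC K N) :
    sqgvDx K N x f = (sqgvDer K N x)⁻¹ * sqgvDer K N f := rfl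

theorem sqgvDx_mul (x f g : modularFunctionFieldFullC K N) :
    sqgvDx K N x (f * g) = sqgvDx K N x f * g + f * sqgvDx K N x g := by
  rw [sqgvDx_apply, sqgvDx_apply, sqgvDx_apply, sqgvDer_mul]
  ring

theorem sqgvDx_algebraMap (x : modularFunctionFieldFullC K N) (c : K) :
    sqgvDx K N x (algebraMap K (modularFunctionFieldFullC K N) c) = 0 := by
  rw [sqgvDx_apply, sqgvDer_algebraMap, mul_zero]

theorem sqgvDx_self (x : modularFunctionFieldFullC K N) (hx : sqgvDer K N x ≠ 0) :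
    sqgvDx K N x x = 1 := by
  rw [sqgvDx_apply]
  exact inv_mul_cancel₀ hx

/-- `d f/dx · θ x = θ f` -/
theorem sqgvDx_spec (x f : modularFunctionFieldFullC K N) (hx : sqgvDer K N x ≠ 0) :
    ((sqgvDx K N x f : modularFunctionFieldFullC K N) : LaurentSeries K) *
      sqvtTheta K (x : LaurentSeries K) = sqvtTheta K (f : LaurentSeries K) := by
  have hx' : ((sqgvDer K N x : modularFunctionFieldFullC K N) : LaurentSeries K) ≠ 0 := fun h =>
    hx (Subtype.ext h)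
  rw [← sqgvDer_spec K N x, ← sqgvDer_spec K N f, sqgvDx_apply]
  push_cast
  rw [mul_comm (((sqgvDer K N x : modularFunctionFieldFullC K N) : LaurentSeries K))⁻¹, mul_assoc,
    ← mul_assoc (((sqgvDer K N x : modularFunctionFieldFullC K N) : LaurentSeries K))⁻¹,
    inv_mul_cancel₀ hx', one_mul]

/-- the chain rule `d f/dx = dy/dx · d f/dy` -/
theorem sqgvDx_chain (x y f : modularFunctionFieldFullC K N) (hy : sqgvDer K N y ≠ 0) :
    sqgvDx K N x f = sqgvDx K N x y * sqgvDx K N y f := by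
  rw [sqgvDx_apply, sqgvDx_apply, sqgvDx_apply]
  field_simp

end DJ

/-! ### The function `g = φ(θ j) / θ j = (1/ℓ) · d j_ℓ / dj` and `g_x` -/

section G

variable (K : Type*) [Field K] [CharZero K] (N ℓ : ℕ) [NeZero N] [NeZero ℓ]

/-- **`g = (1/ℓ) · d j(𝐪^ℓ) / dj ∈ F_K(N ℓ)`** -/
def sqgvG : modularFunctionFieldFullC K (N * ℓ) :=
  ((ℓ : ℕ) : modularFunctionFieldFullC K (N * ℓ))⁻¹ * sqgvDer K (N * ℓ) (ssvmmY K N ℓ)

theorem sqgv_natCast_ne_zero : ((ℓ : ℕ) : LaurentSeries K) ≠ 0 := by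
  rw [← map_natCast (algebraMap K (LaurentSeries K))]
  exact (_root_.map_ne_zero _).mpr (Nat.cast_ne_zero.mpr (NeZero.ne ℓ))

/-- **(V1)** `g · θ j = (θ j)(𝐪^ℓ)` -/
theorem sqgvG_coe :
    ((sqgvG K N ℓ : modularFunctionFieldFullC K (N * ℓ)) : LaurentSeries K) *
      sqvtTheta K (jqModC K) = qExpand K ℓ (sqvtTheta K (jqModC K)) := by
  have h := sqgvDer_spec K (N * ℓ) (ssvmmY K N ℓ)
  rw [ssvmmY_coe, sqvtTheta_qExpand] at h
  unfold sqgvG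
  push_cast
  rw [mul_assoc, h, ← mul_assoc, inv_mul_cancel₀ (sqgv_natCast_ne_zero K ℓ), one_mul]

theorem sqgvG_ne_zero : sqgvG K N ℓ ≠ 0 := by
  intro h0
  have h := sqgvG_coe K N ℓ
  rw [h0] at h
  push_cast at h
  rw [zero_mul] at h
  exact sqgvThJ_ne_zero K (qExpand_injective ℓ (h.symm.trans (map_zero _).symm))

/-- `d j_ℓ / dj = ℓ · g` -/
theorem sqgvDer_Y :
    sqgvDer K (N * ℓ) (ssvmmY K N ℓ) =
      ((ℓ : ℕ) : modularFunctionFieldFullC K (N * ℓ)) * sqgvG K N ℓ := by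
  have h : ((ℓ : ℕ) : modularFunctionFieldFullC K (N * ℓ)) ≠ 0 :=
    Nat.cast_ne_zero.mpr (NeZero.ne ℓ)
  unfold sqgvG
  rw [← mul_assoc, mul_inv_cancel₀ h, one_mul]

/-- the chain rule for `φ` : `d(φ x)/dj = ℓ · g · φ(dx/dj)` -/
theorem sqgvDer_phi (x : modularFunctionFieldFullC K N) :
    sqgvDer K (N * ℓ) (ssvmfPhi K N ℓ x) =
      ((ℓ : ℕ) : modularFunctionFieldFullC K (N * ℓ)) * sqgvG K N ℓ *
        ssvmfPhi K N ℓ (sqgvDer K N x) := by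
  apply Subtype.ext
  apply mul_right_cancel₀ (sqgvThJ_ne_zero K)
  show ((sqgvDer K (N * ℓ) (ssvmfPhi K N ℓ x) : modularFunctionFieldFullC K (N * ℓ)) :
    LaurentSeries K) * sqvtTheta K (jqModC K) = _
  rw [sqgvDer_spec, ssvmfPhi_coe, sqvtTheta_qExpand, ← sqgvDer_spec K N x, map_mul]
  push_cast
  rw [ssvmfPhi_coe]
  have h := sqgvG_coe K N ℓ
  show _ = _ * sqvtTheta K (jqModC K)
  calc ((ℓ : ℕ) : LaurentSeries K) * (qExpand K ℓ ((sqgvDer K N x : modularFunctionFieldFullC K N) :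
        LaurentSeries K) * qExpand K ℓ (sqvtTheta K (jqModC K)))
      = ((ℓ : ℕ) : LaurentSeries K) * (qExpand K ℓ ((sqgvDer K N x :
        modularFunctionFieldFullC K N) : LaurentSeries K) *
          (((sqgvG K N ℓ : modularFunctionFieldFullC K (N * ℓ)) : LaurentSeries K) *
            sqvtTheta K (jqModC K))) := by rw [h]
    _ = _ := by ring

/-- the chain rule for `α` : `d(α x)/dj = α(dx/dj)` -/
theorem sqgvDer_incl (x : modularFunctionFieldFullC K N) :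
    sqgvDer K (N * ℓ) (ssvmdIncl K N ℓ x) = ssvmdIncl K N ℓ (sqgvDer K N x) := by
  apply Subtype.ext
  rw [sqgvDer_coe, ssvmdIncl_coe, ssvmdIncl_coe, sqgvDer_coe]

/-- **`g_{x,x'} = g · φ(dx'/dj) / α(dx/dj)`** (`= (θ x')(𝐪^ℓ) / θ x = (1/ℓ) · d(φ x') / d(α x)`) -/
def sqgvGxy (x x' : modularFunctionFieldFullC K N) : modularFunctionFieldFullC K (N * ℓ) :=
  sqgvG K N ℓ * ssvmfPhi K N ℓ (sqgvDer K N x') / ssvmdIncl K N ℓ (sqgvDer K N x)

/-- **`g_x = g_{x,x} = (θ x)(𝐪^ℓ) / θ x`** -/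
def sqgvGx (x : modularFunctionFieldFullC K N) : modularFunctionFieldFullC K (N * ℓ) :=
  sqgvGxy K N ℓ x x

theorem sqgvGx_eq (x : modularFunctionFieldFullC K N) : sqgvGx K N ℓ x = sqgvGxy K N ℓ x x := rfl

/-- **(V4)** `g_{x,x'} · θ x = (θ x')(𝐪^ℓ)` (for `θ x ≠ 0`) -/
theorem sqgvGxy_coe (x x' : modularFunctionFieldFullC K N) (hx : sqgvDer K N x ≠ 0) :
    ((sqgvGxy K N ℓ x x' : modularFunctionFieldFullC K (N * ℓ)) : LaurentSeries K) *
      sqvtTheta K (x : LaurentSeries K) = qExpand K ℓ (sqvtTheta K (x' : LaurentSeries K)) := by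
  have h0' : ((sqgvDer K N x : modularFunctionFieldFullC K N) : LaurentSeries K) ≠ 0 := fun h =>
    hx (Subtype.ext h)
  rw [← sqgvDer_spec K N x, ← sqgvDer_spec K N x', map_mul, ← sqgvG_coe K N ℓ]
  unfold sqgvGxy
  push_cast
  rw [ssvmfPhi_coe, ssvmdIncl_coe]
  field_simp

/-- **(V4)** `g_x · θ x = (θ x)(𝐪^ℓ)` -/
theorem sqgvGx_coe (x : modularFunctionFieldFullC K N) :
    ((sqgvGx K N ℓ x : modularFunctionFieldFullC K (N * ℓ)) : LaurentSeries K) *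
      sqvtTheta K (x : LaurentSeries K) = qExpand K ℓ (sqvtTheta K (x : LaurentSeries K)) := by
  by_cases h0 : sqgvDer K N x = 0
  · have h1 := (sqgvDer_eq_zero_iff K N x).mp h0
    rw [h1, mul_zero, map_zero]
  exact sqgvGxy_coe K N ℓ x x h0

theorem sqgvGx_j : sqgvGx K N ℓ (ssvmdJ K N) = sqgvG K N ℓ := by
  unfold sqgvGx sqgvGxy
  rw [sqgvDer_j, map_one, map_one, mul_one, div_one]

theorem sqgvGxy_ne_zero (x x' : modularFunctionFieldFullC K N) (hx : sqgvDer K N x ≠ 0)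
    (hx' : sqgvDer K N x' ≠ 0) : sqgvGxy K N ℓ x x' ≠ 0 := by
  unfold sqgvGxy
  exact div_ne_zero (mul_ne_zero (sqgvG_ne_zero K N ℓ) ((_root_.map_ne_zero _).mpr hx'))
    ((_root_.map_ne_zero _).mpr hx)

theorem sqgvGx_ne_zero (x : modularFunctionFieldFullC K N) (hx : sqgvDer K N x ≠ 0) :
    sqgvGx K N ℓ x ≠ 0 := sqgvGxy_ne_zero K N ℓ x x hx hx

/-- **(V5), the `D`-identity** : for `x, x', a ∈ F_K(N)`, `c ≠ 0` a constant and
`D̃ := (φ x' - (α a)^ℓ) / c` :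
`g_{x,x'} = α(a^(ℓ-1) · da/dx) + (c/ℓ) · (dD̃/dj) / α(dx/dj)`, i.e.
`g_{x,x'} = α(a^(ℓ-1) · da/dx) + (c/ℓ) · dD̃/d(α x)`. -/
theorem sqgvGxy_D (x x' a : modularFunctionFieldFullC K N) (hx : sqgvDer K N x ≠ 0) (c : K)
    (hc : c ≠ 0) :
    sqgvGxy K N ℓ x x' =
      ssvmdIncl K N ℓ (a ^ (ℓ - 1) * sqgvDer K N a / sqgvDer K N x) +
      algebraMap K (modularFunctionFieldFullC K (N * ℓ)) c *
        ((ℓ : ℕ) : modularFunctionFieldFullC K (N * ℓ))⁻¹ *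
        sqgvDer K (N * ℓ) ((algebraMap K (modularFunctionFieldFullC K (N * ℓ)) c)⁻¹ *
          (ssvmfPhi K N ℓ x' - ssvmdIncl K N ℓ a ^ ℓ)) /
        ssvmdIncl K N ℓ (sqgvDer K N x) := by
  have hℓ : ((ℓ : ℕ) : modularFunctionFieldFullC K (N * ℓ)) ≠ 0 :=
    Nat.cast_ne_zero.mpr (NeZero.ne ℓ)
  have hc' : algebraMap K (modularFunctionFieldFullC K (N * ℓ)) c ≠ 0 :=
    (_root_.map_ne_zero _).mpr hc
  have ha : ssvmdIncl K N ℓ (sqgvDer K N x) ≠ 0 := (_root_.map_ne_zero _).mpr hx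
  have hcinv : (algebraMap K (modularFunctionFieldFullC K (N * ℓ)) c)⁻¹ =
      algebraMap K (modularFunctionFieldFullC K (N * ℓ)) c⁻¹ := (map_inv₀ _ c).symm
  have h1 : sqgvDer K (N * ℓ) ((algebraMap K (modularFunctionFieldFullC K (N * ℓ)) c)⁻¹ *
      (ssvmfPhi K N ℓ x' - ssvmdIncl K N ℓ a ^ ℓ)) =
      (algebraMap K (modularFunctionFieldFullC K (N * ℓ)) c)⁻¹ *
        (((ℓ : ℕ) : modularFunctionFieldFullC K (N * ℓ)) * sqgvG K N ℓ *
          ssvmfPhi K N ℓ (sqgvDer K N x') -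
        ((ℓ : ℕ) : modularFunctionFieldFullC K (N * ℓ)) * ssvmdIncl K N ℓ a ^ (ℓ - 1) *
          ssvmdIncl K N ℓ (sqgvDer K N a)) := by
    rw [sqgvDer_mul, hcinv, sqgvDer_algebraMap, zero_mul, zero_add, map_sub, sqgvDer_phi,
      sqvt_leibniz_pow (sqgvDer K (N * ℓ)) (sqgvDer_mul K (N * ℓ)), sqgvDer_incl]
  rw [h1, map_div₀, map_mul, map_pow]
  unfold sqgvGxy
  field_simp
  ring

end G

/-! ### `g` and `g_x` in the Gauss ring -/

section GGauss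

variable {A₀ : Type*} [CommRing A₀] [IsDomain A₀] [IsDiscreteValuationRing A₀] [CharZero A₀]
variable {L₀ : Type*} [Field L₀] [Algebra A₀ L₀] [IsFractionRing A₀ L₀] [CharZero L₀]
variable {ϖ : A₀} (N ℓ : ℕ) [NeZero N] [NeZero ℓ]

theorem sqgv_incl_theta (a : LaurentSeries A₀) :
    s18vIncl A₀ L₀ (sqvtTheta A₀ a) = sqvtTheta L₀ (s18vIncl A₀ L₀ a) :=
  (sqvtTheta_coeffMap _ a).symm

theorem sqgv_res_theta (a : LaurentSeries A₀) :
    s18vRes A₀ (sqvtTheta A₀ a) = sqvtTheta (ResidueField A₀) (s18vRes A₀ a) :=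
  (sqvtTheta_coeffMap _ a).symm

/-- **(V2)** `g` is a unit of the Gauss ring of `F(N ℓ)`, with reduction `(θ j̄)(𝐪^ℓ) / θ j̄`. -/
theorem sqgvG_gauss (hϖ : Irreducible ϖ) :
    ∃ hG : sqgvG L₀ N ℓ ∈ s18vO A₀ (modularFunctionFieldFullC L₀ (N * ℓ)),
      (sqgvG L₀ N ℓ)⁻¹ ∈ s18vO A₀ (modularFunctionFieldFullC L₀ (N * ℓ)) ∧
      s18vcRed (modularFunctionFieldFullC L₀ (N * ℓ)) ⟨sqgvG L₀ N ℓ, hG⟩ =
        qExpand (ResidueField A₀) ℓ (sqvtTheta (ResidueField A₀) (jqModC (ResidueField A₀))) /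
          sqvtTheta (ResidueField A₀) (jqModC (ResidueField A₀)) := by
  have hu : s18vRes A₀ (sqvtTheta A₀ (jqModC A₀)) ≠ 0 := by
    rw [sqgv_res_theta, coeffMap_jqModC]
    exact sqgvThJ_ne_zero _
  have hv : s18vRes A₀ (qExpand A₀ ℓ (sqvtTheta A₀ (jqModC A₀))) ≠ 0 := by
    rw [coeffMap_qExpand]
    intro h0
    exact hu (qExpand_injective ℓ (h0.trans (map_zero _).symm))
  have h : ((sqgvG L₀ N ℓ : modularFunctionFieldFullC L₀ (N * ℓ)) : LaurentSeries L₀) *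
      s18vIncl A₀ L₀ (sqvtTheta A₀ (jqModC A₀)) =
      s18vIncl A₀ L₀ (qExpand A₀ ℓ (sqvtTheta A₀ (jqModC A₀))) := by
    rw [coeffMap_qExpand, sqgv_incl_theta, coeffMap_jqModC]
    exact sqgvG_coe L₀ N ℓ
  obtain ⟨hG, hGinv, hred⟩ := sqgv_unit_of_mul_eq hϖ (modularFunctionFieldFullC L₀ (N * ℓ))
    (s18v_gen_full (N * ℓ)) (sqgvG L₀ N ℓ) _ _ hu hv h
  refine ⟨hG, hGinv, ?_⟩
  rw [hred, coeffMap_qExpand, sqgv_res_theta, coeffMap_jqModC]

/-- `θ` on the Gauss ring : for `x = a / b` in the Gauss ring of `F`, `θ x · b² = c` with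
`c = θa · b - a · θb ∈ A₀((𝐪))` and `c̄ = θ x̄ · b̄²`. -/
theorem sqgv_theta_gauss (F : IntermediateField L₀ (LaurentSeries L₀)) (x : ↥F)
    (hx : x ∈ s18vO A₀ F) :
    ∃ b c : LaurentSeries A₀, s18vRes A₀ b ≠ 0 ∧
      sqvtTheta L₀ (x : LaurentSeries L₀) * s18vIncl A₀ L₀ b ^ 2 = s18vIncl A₀ L₀ c ∧
      sqvtTheta (ResidueField A₀) (s18vcRed F ⟨x, hx⟩) * s18vRes A₀ b ^ 2 = s18vRes A₀ c := by
  obtain ⟨a, b, ha, hb, hb0, hxab⟩ := hx
  have hxred := s18vcRed_eq F ⟨x, ⟨a, b, ha, hb, hb0, hxab⟩⟩ a b hb0 hxab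
  refine ⟨b, sqvtTheta A₀ a * b - a * sqvtTheta A₀ b, hb0, ?_, ?_⟩
  · have h1 := congrArg (sqvtTheta L₀) hxab
    rw [sqvtTheta_mul, ← sqgv_incl_theta, ← sqgv_incl_theta] at h1
    rw [map_sub, map_mul, map_mul, ← h1, ← hxab]
    ring
  · rw [hxred]
    have h1 : s18vRes A₀ a / s18vRes A₀ b * s18vRes A₀ b = s18vRes A₀ a :=
      div_mul_cancel₀ _ hb0
    have h2 := congrArg (sqvtTheta (ResidueField A₀)) h1
    rw [sqvtTheta_mul, ← sqgv_res_theta, ← sqgv_res_theta] at h2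
    rw [map_sub, map_mul, map_mul, ← h2]
    conv_rhs => rw [← h1]
    field_simp
    ring

/-- **`d/dj` preserves the Gauss ring**, and `red(dx/dj) · θ j̄ = θ x̄`. -/
theorem sqgvDer_gauss (hϖ : Irreducible ϖ) (x : modularFunctionFieldFullC L₀ N)
    (hx : x ∈ s18vO A₀ (modularFunctionFieldFullC L₀ N)) :
    ∃ hD : sqgvDer L₀ N x ∈ s18vO A₀ (modularFunctionFieldFullC L₀ N),
      s18vcRed (modularFunctionFieldFullC L₀ N) ⟨sqgvDer L₀ N x, hD⟩ *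
        sqvtTheta (ResidueField A₀) (jqModC (ResidueField A₀)) =
      sqvtTheta (ResidueField A₀) (s18vcRed (modularFunctionFieldFullC L₀ N) ⟨x, hx⟩) := by
  obtain ⟨b, c, hb0, hxc, hxc'⟩ := sqgv_theta_gauss (modularFunctionFieldFullC L₀ N) x hx
  have hj0 : s18vRes A₀ (sqvtTheta A₀ (jqModC A₀)) ≠ 0 := by
    rw [sqgv_res_theta, coeffMap_jqModC]
    exact sqgvThJ_ne_zero _
  have hu : s18vRes A₀ (sqvtTheta A₀ (jqModC A₀) * b ^ 2) ≠ 0 := by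
    rw [map_mul, map_pow]
    exact mul_ne_zero hj0 (pow_ne_zero 2 hb0)
  have h : ((sqgvDer L₀ N x : modularFunctionFieldFullC L₀ N) : LaurentSeries L₀) *
      s18vIncl A₀ L₀ (sqvtTheta A₀ (jqModC A₀) * b ^ 2) = s18vIncl A₀ L₀ c := by
    rw [map_mul, map_pow, sqgv_incl_theta, coeffMap_jqModC, ← mul_assoc, sqgvDer_spec, hxc]
  have hD := sqgv_mem_of_mul_eq hϖ (modularFunctionFieldFullC L₀ N) (s18v_gen_full N)
    (sqgvDer L₀ N x) _ _ hu h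
  refine ⟨hD, ?_⟩
  have h2 := sqgv_red_of_mul_eq (modularFunctionFieldFullC L₀ N) ⟨sqgvDer L₀ N x, hD⟩ _ _ h
  rw [map_mul, map_pow, sqgv_res_theta, coeffMap_jqModC, ← hxc', ← mul_assoc] at h2
  exact mul_right_cancel₀ (pow_ne_zero 2 hb0) h2

/-- **(V4)** `g_{x,x'}` for `x, x'` in the Gauss ring of `F(N)` with `θ x̄ ≠ 0`, `θ x̄' ≠ 0` : a unit
of the Gauss ring of `F(N ℓ)`, with `red(g_{x,x'}) · θ x̄ = (θ x̄')(𝐪^ℓ)`. -/
theorem sqgvGxy_gauss (hϖ : Irreducible ϖ) (x x' : modularFunctionFieldFullC L₀ N)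
    (hx : x ∈ s18vO A₀ (modularFunctionFieldFullC L₀ N))
    (hx' : x' ∈ s18vO A₀ (modularFunctionFieldFullC L₀ N))
    (hθ : sqvtTheta (ResidueField A₀) (s18vcRed (modularFunctionFieldFullC L₀ N) ⟨x, hx⟩) ≠ 0)
    (hθ' : sqvtTheta (ResidueField A₀) (s18vcRed (modularFunctionFieldFullC L₀ N) ⟨x', hx'⟩) ≠ 0) :
    ∃ hG : sqgvGxy L₀ N ℓ x x' ∈ s18vO A₀ (modularFunctionFieldFullC L₀ (N * ℓ)),
      (sqgvGxy L₀ N ℓ x x')⁻¹ ∈ s18vO A₀ (modularFunctionFieldFullC L₀ (N * ℓ)) ∧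
      s18vcRed (modularFunctionFieldFullC L₀ (N * ℓ)) ⟨sqgvGxy L₀ N ℓ x x', hG⟩ *
        sqvtTheta (ResidueField A₀) (s18vcRed (modularFunctionFieldFullC L₀ N) ⟨x, hx⟩) =
        qExpand (ResidueField A₀) ℓ
          (sqvtTheta (ResidueField A₀) (s18vcRed (modularFunctionFieldFullC L₀ N) ⟨x', hx'⟩)) := by
  obtain ⟨b, c, hb0, hxc, hxc'⟩ := sqgv_theta_gauss (modularFunctionFieldFullC L₀ N) x hx
  obtain ⟨b', c', hb0', hxc₂, hxc₂'⟩ := sqgv_theta_gauss (modularFunctionFieldFullC L₀ N) x' hx'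
  have hc0 : s18vRes A₀ c ≠ 0 := by
    rw [← hxc']
    exact mul_ne_zero hθ (pow_ne_zero 2 hb0)
  have hc0' : s18vRes A₀ c' ≠ 0 := by
    rw [← hxc₂']
    exact mul_ne_zero hθ' (pow_ne_zero 2 hb0')
  have hqb0 : s18vRes A₀ (qExpand A₀ ℓ b') ≠ 0 := by
    rw [coeffMap_qExpand]
    intro h0
    exact hb0' (qExpand_injective ℓ (h0.trans (map_zero _).symm))
  have hqc0 : s18vRes A₀ (qExpand A₀ ℓ c') ≠ 0 := by
    rw [coeffMap_qExpand]
    intro h0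
    exact hc0' (qExpand_injective ℓ (h0.trans (map_zero _).symm))
  have hu : s18vRes A₀ (c * qExpand A₀ ℓ b' ^ 2) ≠ 0 := by
    rw [map_mul, map_pow]
    exact mul_ne_zero hc0 (pow_ne_zero 2 hqb0)
  have hv : s18vRes A₀ (qExpand A₀ ℓ c' * b ^ 2) ≠ 0 := by
    rw [map_mul, map_pow]
    exact mul_ne_zero hqc0 (pow_ne_zero 2 hb0)
  have hd0 : sqgvDer L₀ N x ≠ 0 := by
    intro h0
    have h1 := (sqgvDer_eq_zero_iff L₀ N x).mp h0
    rw [h1, zero_mul] at hxc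
    apply hc0
    rw [s18vg_incl_injective (hxc.symm.trans (map_zero _).symm), map_zero]
  have h : ((sqgvGxy L₀ N ℓ x x' : modularFunctionFieldFullC L₀ (N * ℓ)) : LaurentSeries L₀) *
      s18vIncl A₀ L₀ (c * qExpand A₀ ℓ b' ^ 2) = s18vIncl A₀ L₀ (qExpand A₀ ℓ c' * b ^ 2) := by
    have h1 := sqgvGxy_coe L₀ N ℓ x x' hd0
    rw [map_mul, map_mul, map_pow, map_pow, coeffMap_qExpand, coeffMap_qExpand, ← hxc, ← hxc₂,
      map_mul, map_pow, ← h1]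
    ring
  obtain ⟨hG, hGinv, hred⟩ := sqgv_unit_of_mul_eq hϖ (modularFunctionFieldFullC L₀ (N * ℓ))
    (s18v_gen_full (N * ℓ)) (sqgvGxy L₀ N ℓ x x') _ _ hu hv h
  refine ⟨hG, hGinv, ?_⟩
  have hqb0' : qExpand (ResidueField A₀) ℓ (s18vRes A₀ b') ≠ 0 := by
    rwa [coeffMap_qExpand] at hqb0
  rw [hred, map_mul, map_mul, map_pow, map_pow, coeffMap_qExpand, coeffMap_qExpand, ← hxc',
    ← hxc₂', map_mul, map_pow]
  field_simp

/-- `α` maps the Gauss ring of `F(N)` into the Gauss ring of `F(N ℓ)` -/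
theorem sqgv_incl_mem (x : modularFunctionFieldFullC L₀ N)
    (hx : x ∈ s18vO A₀ (modularFunctionFieldFullC L₀ N)) :
    ssvmdIncl L₀ N ℓ x ∈ s18vO A₀ (modularFunctionFieldFullC L₀ (N * ℓ)) := by
  obtain ⟨a, b, ha, hb, hb0, hxab⟩ := hx
  exact ⟨a, b, full_degeneracyC_le L₀ (dvd_mul_right N ℓ) ha,
    full_degeneracyC_le L₀ (dvd_mul_right N ℓ) hb, hb0, by rw [ssvmdIncl_coe]; exact hxab⟩

/-- if `θ x̄ ≠ 0` then `dx/dj` is a unit of the Gauss ring -/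
theorem sqgvDer_inv_gauss (hϖ : Irreducible ϖ) (x : modularFunctionFieldFullC L₀ N)
    (hx : x ∈ s18vO A₀ (modularFunctionFieldFullC L₀ N))
    (hθ : sqvtTheta (ResidueField A₀) (s18vcRed (modularFunctionFieldFullC L₀ N) ⟨x, hx⟩) ≠ 0) :
    (sqgvDer L₀ N x)⁻¹ ∈ s18vO A₀ (modularFunctionFieldFullC L₀ N) := by
  obtain ⟨hD, hred⟩ := sqgvDer_gauss N hϖ x hx
  rcases s18v_dvd_or_inv_mem hϖ (modularFunctionFieldFullC L₀ N) _ hD with h | h
  · exfalso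
    have h0 := (ssvmf_red_eq_zero_iff hϖ (modularFunctionFieldFullC L₀ N)
      ⟨sqgvDer L₀ N x, hD⟩).mpr h
    rw [h0, zero_mul] at hred
    exact hθ hred.symm
  · exact h

/-- **`d/dx` preserves the Gauss ring** when `θ x̄ ≠ 0` -/
theorem sqgvDx_gauss (hϖ : Irreducible ϖ) (x f : modularFunctionFieldFullC L₀ N)
    (hx : x ∈ s18vO A₀ (modularFunctionFieldFullC L₀ N))
    (hθ : sqvtTheta (ResidueField A₀) (s18vcRed (modularFunctionFieldFullC L₀ N) ⟨x, hx⟩) ≠ 0)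
    (hf : f ∈ s18vO A₀ (modularFunctionFieldFullC L₀ N)) :
    sqgvDx L₀ N x f ∈ s18vO A₀ (modularFunctionFieldFullC L₀ N) := by
  obtain ⟨hD, -⟩ := sqgvDer_gauss N hϖ f hf
  rw [sqgvDx_apply]
  exact Subring.mul_mem _ (sqgvDer_inv_gauss N hϖ x hx hθ) hD

/-- **(V5), the congruence** : `ℓ c₀ = ϖ` in `A₀`, `x` in the Gauss ring of `F(N)` with `θ x̄ ≠ 0`,
`ϖ D̃ = φ x' - (α a)^ℓ`, and `D̃ ≡ α Δ₀` modulo `ϖ ·` (Gauss ring of `F(N ℓ)`), `Δ₀ ∈ F(N)` : then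
`g_{x,x'} ≡ α(a^(ℓ-1) · da/dx + c₀ · dΔ₀/dx)` modulo `ϖ ·` (Gauss ring of `F(N ℓ)`), where
`d·/dx = (d·/dj) / (dx/dj)`. -/
theorem sqgvGxy_congr (hϖ : Irreducible ϖ) (c₀ : A₀) (hc₀ : ((ℓ : ℕ) : A₀) * c₀ = ϖ)
    (x x' a : modularFunctionFieldFullC L₀ N)
    (hx : x ∈ s18vO A₀ (modularFunctionFieldFullC L₀ N))
    (hθ : sqvtTheta (ResidueField A₀) (s18vcRed (modularFunctionFieldFullC L₀ N) ⟨x, hx⟩) ≠ 0)
    (Dt : modularFunctionFieldFullC L₀ (N * ℓ))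
    (hDt : algebraMap A₀ (modularFunctionFieldFullC L₀ (N * ℓ)) ϖ * Dt =
      ssvmfPhi L₀ N ℓ x' - ssvmdIncl L₀ N ℓ a ^ ℓ)
    (Δ₀ : modularFunctionFieldFullC L₀ N) (y : modularFunctionFieldFullC L₀ (N * ℓ))
    (hy : y ∈ s18vO A₀ (modularFunctionFieldFullC L₀ (N * ℓ)))
    (hDΔ : Dt - ssvmdIncl L₀ N ℓ Δ₀ = algebraMap A₀ (modularFunctionFieldFullC L₀ (N * ℓ)) ϖ * y) :
    ∃ z ∈ s18vO A₀ (modularFunctionFieldFullC L₀ (N * ℓ)),
      sqgvGxy L₀ N ℓ x x' - ssvmdIncl L₀ N ℓ (a ^ (ℓ - 1) * sqgvDer L₀ N a / sqgvDer L₀ N x +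
        algebraMap A₀ (modularFunctionFieldFullC L₀ N) c₀ * sqgvDer L₀ N Δ₀ / sqgvDer L₀ N x) =
      algebraMap A₀ (modularFunctionFieldFullC L₀ (N * ℓ)) ϖ * z := by
  have hϖ0 : algebraMap A₀ L₀ ϖ ≠ 0 := by
    rw [Ne, map_eq_zero_iff _ (IsFractionRing.injective A₀ L₀)]
    exact hϖ.ne_zero
  have hdinv := sqgvDer_inv_gauss N hϖ x hx hθ
  have hd0 : sqgvDer L₀ N x ≠ 0 := by
    intro h0
    obtain ⟨hD, hred⟩ := sqgvDer_gauss N hϖ x hx
    have e : (⟨sqgvDer L₀ N x, hD⟩ : ↥(s18vO A₀ (modularFunctionFieldFullC L₀ N))) = 0 :=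
      Subtype.ext h0
    rw [e, map_zero, zero_mul] at hred
    exact hθ hred.symm
  obtain ⟨hDy, -⟩ := sqgvDer_gauss (N * ℓ) hϖ y hy
  refine ⟨algebraMap A₀ (modularFunctionFieldFullC L₀ (N * ℓ)) c₀ * sqgvDer L₀ (N * ℓ) y *
      ssvmdIncl L₀ N ℓ (sqgvDer L₀ N x)⁻¹,
    Subring.mul_mem _ (Subring.mul_mem _ (s18vg_algebraMap_mem _ c₀) hDy)
      (sqgv_incl_mem N ℓ _ hdinv), ?_⟩
  have hid := sqgvGxy_D L₀ N ℓ x x' a hd0 (algebraMap A₀ L₀ ϖ) hϖ0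
  have eϖ : algebraMap L₀ (modularFunctionFieldFullC L₀ (N * ℓ)) (algebraMap A₀ L₀ ϖ) =
      algebraMap A₀ (modularFunctionFieldFullC L₀ (N * ℓ)) ϖ :=
    (IsScalarTower.algebraMap_apply A₀ L₀ (modularFunctionFieldFullC L₀ (N * ℓ)) ϖ).symm
  have hϖ1 : algebraMap A₀ (modularFunctionFieldFullC L₀ (N * ℓ)) ϖ ≠ 0 := by
    rw [← eϖ]
    exact (_root_.map_ne_zero _).mpr hϖ0
  have hℓ : ((ℓ : ℕ) : modularFunctionFieldFullC L₀ (N * ℓ)) ≠ 0 :=
    Nat.cast_ne_zero.mpr (NeZero.ne ℓ)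
  have ha : ssvmdIncl L₀ N ℓ (sqgvDer L₀ N x) ≠ 0 := (_root_.map_ne_zero _).mpr hd0
  rw [eϖ] at hid
  have hDt' : (algebraMap A₀ (modularFunctionFieldFullC L₀ (N * ℓ)) ϖ)⁻¹ *
      (ssvmfPhi L₀ N ℓ x' - ssvmdIncl L₀ N ℓ a ^ ℓ) = Dt := by
    rw [← hDt, ← mul_assoc, inv_mul_cancel₀ hϖ1, one_mul]
  rw [hDt'] at hid
  have hDt2 : Dt = ssvmdIncl L₀ N ℓ Δ₀ +
      algebraMap A₀ (modularFunctionFieldFullC L₀ (N * ℓ)) ϖ * y := by
    rw [← hDΔ]
    ring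
  have hc : algebraMap A₀ (modularFunctionFieldFullC L₀ (N * ℓ)) ϖ =
      ((ℓ : ℕ) : modularFunctionFieldFullC L₀ (N * ℓ)) *
        algebraMap A₀ (modularFunctionFieldFullC L₀ (N * ℓ)) c₀ := by
    rw [← hc₀, map_mul, map_natCast]
  have hDer : sqgvDer L₀ (N * ℓ) Dt = ssvmdIncl L₀ N ℓ (sqgvDer L₀ N Δ₀) +
      algebraMap A₀ (modularFunctionFieldFullC L₀ (N * ℓ)) ϖ * sqgvDer L₀ (N * ℓ) y := by
    rw [hDt2, map_add, sqgvDer_incl, sqgvDer_mul, ← eϖ, sqgvDer_algebraMap, zero_mul, zero_add]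
  have hcα : ssvmdIncl L₀ N ℓ (algebraMap A₀ (modularFunctionFieldFullC L₀ N) c₀) =
      algebraMap A₀ (modularFunctionFieldFullC L₀ (N * ℓ)) c₀ := by
    rw [IsScalarTower.algebraMap_apply A₀ L₀ (modularFunctionFieldFullC L₀ N),
      IsScalarTower.algebraMap_apply A₀ L₀ (modularFunctionFieldFullC L₀ (N * ℓ)), AlgHom.commutes]
  rw [hid, hDer, map_add, map_div₀, map_div₀, map_mul, map_mul, map_inv₀, hcα, hc]
  field_simp
  ring

end GGauss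

/-! ### The Atkin-Lehner involution : `w g = (ℓ² g)⁻¹` -/

section AL

variable (K : Type*) [Field K] [CharZero K] (N ℓ : ℕ) [NeZero N] [NeZero ℓ]

theorem sqgv_Y_eq_phi : ssvmmY K N ℓ = ssvmfPhi K N ℓ (ssvmdJ K N) := Subtype.ext rfl

theorem sqgv_J_eq_incl : ssvmdJ K (N * ℓ) = ssvmdIncl K N ℓ (ssvmdJ K N) :=
  (Subtype.ext (ssvmdIncl_coe K N ℓ (ssvmdJ K N))).symm

/-- **(V3)** for a ring automorphism `w` of `F_K(N ℓ)` over `K` exchanging `α` and `φ` :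
`w g · (ℓ² g) = 1`. -/
theorem sqgvG_w (w : modularFunctionFieldFullC K (N * ℓ) ≃+* modularFunctionFieldFullC K (N * ℓ))
    (hwα : ∀ x : modularFunctionFieldFullC K N, w (ssvmdIncl K N ℓ x) = ssvmfPhi K N ℓ x)
    (hwβ : ∀ x : modularFunctionFieldFullC K N, w (ssvmfPhi K N ℓ x) = ssvmdIncl K N ℓ x)
    (hww : ∀ x : modularFunctionFieldFullC K (N * ℓ), w (w x) = x)
    (hwc : ∀ c : K, w (algebraMap K (modularFunctionFieldFullC K (N * ℓ)) c) =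
      algebraMap K (modularFunctionFieldFullC K (N * ℓ)) c) :
    w (sqgvG K N ℓ) * (((ℓ : ℕ) : modularFunctionFieldFullC K (N * ℓ)) ^ 2 * sqgvG K N ℓ) = 1 := by
  let δ : modularFunctionFieldFullC K (N * ℓ) →+ modularFunctionFieldFullC K (N * ℓ) :=
    (w : modularFunctionFieldFullC K (N * ℓ) →+ modularFunctionFieldFullC K (N * ℓ)).comp
      ((sqgvDer K (N * ℓ)).comp
        (w : modularFunctionFieldFullC K (N * ℓ) →+ modularFunctionFieldFullC K (N * ℓ)))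
  have hδa : ∀ y, δ y = w (sqgvDer K (N * ℓ) (w y)) := fun y => rfl
  have key := sqgvDer_unique K (N * ℓ) (RingHom.id _) δ (fun a b => by
      rw [hδa, hδa, hδa, map_mul, sqgvDer_mul, map_add, map_mul, map_mul, hww, hww]
      rfl) (fun c => by rw [hδa, hwc, sqgvDer_algebraMap, map_zero]) (ssvmmY K N ℓ)
  rw [hδa, hδa, RingHom.id_apply, sqgv_Y_eq_phi, hwβ, ← sqgv_J_eq_incl, sqgvDer_j, map_one,
    sqgv_J_eq_incl, hwα, ← sqgv_Y_eq_phi, sqgvDer_Y, map_mul, map_natCast] at key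
  rw [key]
  ring

/-- **(V4)** the same for `g_{x,x'}` : `w g_{x,x'} · (ℓ² g_{x',x}) = 1`. -/
theorem sqgvGxy_w (w : modularFunctionFieldFullC K (N * ℓ) ≃+* modularFunctionFieldFullC K (N * ℓ))
    (hwα : ∀ x : modularFunctionFieldFullC K N, w (ssvmdIncl K N ℓ x) = ssvmfPhi K N ℓ x)
    (hwβ : ∀ x : modularFunctionFieldFullC K N, w (ssvmfPhi K N ℓ x) = ssvmdIncl K N ℓ x)
    (hww : ∀ x : modularFunctionFieldFullC K (N * ℓ), w (w x) = x)
    (hwc : ∀ c : K, w (algebraMap K (modularFunctionFieldFullC K (N * ℓ)) c) =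
      algebraMap K (modularFunctionFieldFullC K (N * ℓ)) c)
    (x x' : modularFunctionFieldFullC K N) (hx : sqgvDer K N x ≠ 0)
    (hx' : sqgvDer K N x' ≠ 0) :
    w (sqgvGxy K N ℓ x x') *
      (((ℓ : ℕ) : modularFunctionFieldFullC K (N * ℓ)) ^ 2 * sqgvGxy K N ℓ x' x) = 1 := by
  have h1 := sqgvG_w K N ℓ w hwα hwβ hww hwc
  have ha : ssvmdIncl K N ℓ (sqgvDer K N x) ≠ 0 := (_root_.map_ne_zero _).mpr hx
  have hb : ssvmfPhi K N ℓ (sqgvDer K N x) ≠ 0 := (_root_.map_ne_zero _).mpr hx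
  have ha' : ssvmdIncl K N ℓ (sqgvDer K N x') ≠ 0 := (_root_.map_ne_zero _).mpr hx'
  have hb' : ssvmfPhi K N ℓ (sqgvDer K N x') ≠ 0 := (_root_.map_ne_zero _).mpr hx'
  unfold sqgvGxy
  rw [map_div₀, map_mul, hwα, hwβ]
  calc w (sqgvG K N ℓ) * ssvmdIncl K N ℓ (sqgvDer K N x') / ssvmfPhi K N ℓ (sqgvDer K N x) *
        (((ℓ : ℕ) : modularFunctionFieldFullC K (N * ℓ)) ^ 2 *
          (sqgvG K N ℓ * ssvmfPhi K N ℓ (sqgvDer K N x) / ssvmdIncl K N ℓ (sqgvDer K N x')))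
      = w (sqgvG K N ℓ) *
          (((ℓ : ℕ) : modularFunctionFieldFullC K (N * ℓ)) ^ 2 * sqgvG K N ℓ) := by
        field_simp
    _ = 1 := h1

end AL

/-! ### The formula `g = - Φ_X(j, j_ℓ) / (ℓ Φ_Y(j, j_ℓ))` -/

section Formula

variable (K : Type*) [Field K] [CharZero K] (N ℓ : ℕ) [NeZero N] [NeZero ℓ]

/-- **(V1)** for every `Φ ∈ K[X][Y]` with `Φ(j, j_ℓ) = 0` : `g · (ℓ · Φ_Y(j, j_ℓ)) = - Φ_X(j, j_ℓ)`
(`Φ_X = sqvtDX Φ` the derivative in the inner variable, `Φ_Y = derivative Φ` in the outer one). -/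
theorem sqgvG_formula (Φ : K[X][X])
    (hroot : sqvtEv (jqModC K) (qExpand K ℓ (jqModC K)) Φ = 0) :
    ((sqgvG K N ℓ : modularFunctionFieldFullC K (N * ℓ)) : LaurentSeries K) *
      (((ℓ : ℕ) : LaurentSeries K) *
        sqvtEv (jqModC K) (qExpand K ℓ (jqModC K)) (derivative Φ)) =
      -sqvtEv (jqModC K) (qExpand K ℓ (jqModC K)) (sqvtDX Φ) := by
  have h1 := sqvt_chain (A := K) (sqvtTheta K) (sqvtTheta_mul K) (sqvtTheta_algebraMap K)
    (jqModC K) (qExpand K ℓ (jqModC K)) Φ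
  rw [hroot, map_zero, sqvtTheta_qExpand, ← sqgvG_coe K N ℓ] at h1
  apply mul_right_cancel₀ (sqgvThJ_ne_zero K)
  show _ * sqvtTheta K (jqModC K) = _ * sqvtTheta K (jqModC K)
  linear_combination -h1

/-- the coefficients of `sqvtDX Φ` -/
theorem sqgv_DX_coeff {A : Type*} [CommRing A] (Φ : A[X][X]) (i : ℕ) :
    (sqvtDX Φ).coeff i = derivative (Φ.coeff i) := by
  induction Φ using Polynomial.induction_on' with
  | add Φ Ψ hΦ hΨ => rw [map_add, coeff_add, coeff_add, hΦ, hΨ, map_add]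
  | monomial n c =>
    rw [sqvtDX_monomial, coeff_monomial, coeff_monomial]
    split_ifs with h
    · rfl
    · rw [map_zero]

/-- `sqvtDX Φ` is characterised by its coefficients -/
theorem sqgv_DX_eq {A : Type*} [CommRing A] (Φ Ψ : A[X][X])
    (hΨ : ∀ i, Ψ.coeff i = derivative (Φ.coeff i)) : sqvtDX Φ = Ψ := by
  ext i : 1
  rw [sqgv_DX_coeff, hΨ]

/-- **(V4), the formula in `F_K(N ℓ)`** : for `x, x' ∈ F_K(N)` (`θ x ≠ 0`) and every
`Φ ∈ K[X][Y]` with `Φ(α x, φ x') = 0` : `g_{x,x'} · (ℓ · Φ_Y(α x, φ x')) = - Φ_X(α x, φ x')`, where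
`Φ_Y = derivative Φ` and `Φ_X = Ψ` is ANY polynomial with `Ψ.coeff i = derivative (Φ.coeff i)`
(e.g. `sqvtDX Φ`). -/
theorem sqgvGxy_formula (x x' : modularFunctionFieldFullC K N) (hx : sqgvDer K N x ≠ 0)
    (Φ Ψ : K[X][X]) (hΨ : ∀ i, Ψ.coeff i = derivative (Φ.coeff i))
    (hroot : Φ.eval₂ ((aeval (ssvmdIncl K N ℓ x) :
        K[X] →ₐ[K] modularFunctionFieldFullC K (N * ℓ)) :
          K[X] →+* modularFunctionFieldFullC K (N * ℓ)) (ssvmfPhi K N ℓ x') = 0) :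
    sqgvGxy K N ℓ x x' * (((ℓ : ℕ) : modularFunctionFieldFullC K (N * ℓ)) *
      (derivative Φ).eval₂ ((aeval (ssvmdIncl K N ℓ x) :
        K[X] →ₐ[K] modularFunctionFieldFullC K (N * ℓ)) :
          K[X] →+* modularFunctionFieldFullC K (N * ℓ)) (ssvmfPhi K N ℓ x')) =
      -Ψ.eval₂ ((aeval (ssvmdIncl K N ℓ x) :
        K[X] →ₐ[K] modularFunctionFieldFullC K (N * ℓ)) :
          K[X] →+* modularFunctionFieldFullC K (N * ℓ)) (ssvmfPhi K N ℓ x') := by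
  have ha : ssvmdIncl K N ℓ (sqgvDer K N x) ≠ 0 := (_root_.map_ne_zero _).mpr hx
  have h1 := sqvt_chain (A := K) (sqgvDer K (N * ℓ)) (sqgvDer_mul K (N * ℓ))
    (sqgvDer_algebraMap K (N * ℓ)) (ssvmdIncl K N ℓ x) (ssvmfPhi K N ℓ x') Φ
  rw [sqgv_DX_eq Φ Ψ hΨ] at h1
  have e0 : sqvtEv (ssvmdIncl K N ℓ x) (ssvmfPhi K N ℓ x') Φ = 0 := hroot
  rw [e0, map_zero, sqgvDer_incl, sqgvDer_phi] at h1
  have e1 : sqvtEv (ssvmdIncl K N ℓ x) (ssvmfPhi K N ℓ x') Ψ =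
      Ψ.eval₂ ((aeval (ssvmdIncl K N ℓ x) :
        K[X] →ₐ[K] modularFunctionFieldFullC K (N * ℓ)) :
          K[X] →+* modularFunctionFieldFullC K (N * ℓ)) (ssvmfPhi K N ℓ x') := rfl
  have e2 : sqvtEv (ssvmdIncl K N ℓ x) (ssvmfPhi K N ℓ x') (derivative Φ) =
      (derivative Φ).eval₂ ((aeval (ssvmdIncl K N ℓ x) :
        K[X] →ₐ[K] modularFunctionFieldFullC K (N * ℓ)) :
          K[X] →+* modularFunctionFieldFullC K (N * ℓ)) (ssvmfPhi K N ℓ x') := rfl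
  rw [e1, e2] at h1
  unfold sqgvGxy
  rw [eq_neg_iff_add_eq_zero]
  have h2 : (sqgvG K N ℓ * ssvmfPhi K N ℓ (sqgvDer K N x') / ssvmdIncl K N ℓ (sqgvDer K N x) *
      (((ℓ : ℕ) : modularFunctionFieldFullC K (N * ℓ)) *
        (derivative Φ).eval₂ ((aeval (ssvmdIncl K N ℓ x) :
          K[X] →ₐ[K] modularFunctionFieldFullC K (N * ℓ)) :
            K[X] →+* modularFunctionFieldFullC K (N * ℓ)) (ssvmfPhi K N ℓ x')) +
      Ψ.eval₂ ((aeval (ssvmdIncl K N ℓ x) :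
        K[X] →ₐ[K] modularFunctionFieldFullC K (N * ℓ)) :
          K[X] →+* modularFunctionFieldFullC K (N * ℓ)) (ssvmfPhi K N ℓ x')) *
      ssvmdIncl K N ℓ (sqgvDer K N x) = 0 := by
    rw [h1]
    field_simp
    ring
  exact (mul_eq_zero.mp h2).resolve_right ha

end Formula

section Modular

variable {q : ℕ} [Fact q.Prime] (𝔸 : ValuationSubring Qb) (E : IntermediateField ℚ Qb)
  [IsDiscreteValuationRing ↥(s18dVal 𝔸 E)] [CharZero ↥(s18dVal 𝔸 E)]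

/-- the derivative in the outer variable of Kronecker's polynomial `(Y - X^q)(Y^q - X)` in
characteristic `q` is `Y^q - X` -/
theorem sqgv_derivative_kron (k : Type*) [CommRing k] (q : ℕ) [CharP k q] :
    derivative ((X - C (X ^ q)) * (X ^ q - C X) : k[X][X]) = X ^ q - C X := by
  have hq : ((q : ℕ) : k[X]) = 0 := by
    rw [← map_natCast (C : k →+* k[X]), CharP.cast_eq_zero k q, map_zero]
  rw [derivative_mul, derivative_sub, derivative_sub, derivative_X, derivative_C, derivative_C,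
    derivative_X_pow, hq, map_zero]
  ring

/-- **the modular polynomial with its two partial derivatives at `(j, j_q)`** : the `Φ` of
`ssvmc_modular` (over `A₀`, mapped to `E`) satisfies `Φ(j, j_q) = 0`, `Φ_Y(j, j_q) ≠ 0` and
`Φ_X(j, j_q) ≠ 0` in `E((𝐪))`. -/
theorem sqgv_modular (hA : 𝔸.LiesOverPrime q) {ϖ : ↥(s18dVal 𝔸 E)} (hϖ : Irreducible ϖ) :
    haveI : NeZero q := ⟨(Fact.out : q.Prime).ne_zero⟩
    ∃ Φ₀ : (↥(s18dVal 𝔸 E))[X][X], Φ₀.Monic ∧ Φ₀.natDegree = q + 1 ∧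
      Φ₀.map (mapRingHom (residue ↥(s18dVal 𝔸 E))) = (X - C (X ^ q)) * (X ^ q - C X) ∧
      sqvtEv (jqModC ↥E) (qExpand ↥E q (jqModC ↥E))
        (Φ₀.map (mapRingHom (algebraMap ↥(s18dVal 𝔸 E) ↥E))) = 0 ∧
      sqvtEv (jqModC ↥E) (qExpand ↥E q (jqModC ↥E))
        (derivative (Φ₀.map (mapRingHom (algebraMap ↥(s18dVal 𝔸 E) ↥E)))) ≠ 0 ∧
      sqvtEv (jqModC ↥E) (qExpand ↥E q (jqModC ↥E))
        (sqvtDX (Φ₀.map (mapRingHom (algebraMap ↥(s18dVal 𝔸 E) ↥E)))) ≠ 0 := by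
  have hq : q.Prime := Fact.out
  haveI : NeZero q := ⟨hq.ne_zero⟩
  haveI : CharP (ResidueField ↥(s18dVal 𝔸 E)) q := s18v_charP hϖ (s18d_natCast_mem 𝔸 E hA)
  have hmod := ssvmc_modular 𝔸 E hA
  obtain ⟨Φ₀, hm, hd, hc, hk, hroot, hmin, hc'⟩ := hmod
  have hroot' : sqvtEv (jqModC ↥(s18dVal 𝔸 E)) (qExpand ↥(s18dVal 𝔸 E) q (jqModC ↥(s18dVal 𝔸 E)))
      Φ₀ = 0 := by
    rw [sqvtEv_apply, ← Polynomial.eval_map]
    exact hroot
  have hrootE : sqvtEv (jqModC ↥E) (qExpand ↥E q (jqModC ↥E))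
      (Φ₀.map (mapRingHom (algebraMap ↥(s18dVal 𝔸 E) ↥E))) = 0 := by
    have h1 := sqvt_coeffMap_ev (algebraMap ↥(s18dVal 𝔸 E) ↥E) (jqModC ↥(s18dVal 𝔸 E))
      (qExpand ↥(s18dVal 𝔸 E) q (jqModC ↥(s18dVal 𝔸 E))) Φ₀
    rw [hroot', map_zero, coeffMap_qExpand, coeffMap_jqModC] at h1
    exact h1.symm
  have hY : sqvtEv (jqModC ↥E) (qExpand ↥E q (jqModC ↥E))
      (derivative (Φ₀.map (mapRingHom (algebraMap ↥(s18dVal 𝔸 E) ↥E)))) ≠ 0 := by
    rw [derivative_map]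
    have h1 := sqvt_coeffMap_ev (algebraMap ↥(s18dVal 𝔸 E) ↥E) (jqModC ↥(s18dVal 𝔸 E))
      (qExpand ↥(s18dVal 𝔸 E) q (jqModC ↥(s18dVal 𝔸 E))) (derivative Φ₀)
    rw [coeffMap_qExpand, coeffMap_jqModC] at h1
    rw [← h1]
    intro h0
    have h2 : sqvtEv (jqModC ↥(s18dVal 𝔸 E))
        (qExpand ↥(s18dVal 𝔸 E) q (jqModC ↥(s18dVal 𝔸 E))) (derivative Φ₀) = 0 :=
      s18vg_incl_injective (L₀ := ↥E) (h0.trans (map_zero _).symm)
    have h3 := sqvt_coeffMap_ev (residue ↥(s18dVal 𝔸 E)) (jqModC ↥(s18dVal 𝔸 E))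
      (qExpand ↥(s18dVal 𝔸 E) q (jqModC ↥(s18dVal 𝔸 E))) (derivative Φ₀)
    rw [h2, map_zero, ← derivative_map, hk, sqgv_derivative_kron, coeffMap_qExpand,
      coeffMap_jqModC, map_sub, map_pow, sqvtEv_X, sqvtEv_C, aeval_X] at h3
    exact sqvt_jq_pow_sub_ne_zero (k := ResidueField ↥(s18dVal 𝔸 E)) q h3.symm
  refine ⟨Φ₀, hm, hd, hk, hrootE, hY, ?_⟩
  intro h0
  have h1 := sqgvG_formula ↥E 1 q _ hrootE
  rw [h0, neg_zero] at h1
  rcases mul_eq_zero.mp h1 with h2 | h2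
  · exact sqgvG_ne_zero ↥E 1 q (Subtype.ext h2)
  · rcases mul_eq_zero.mp h2 with h3 | h3
    · exact sqgv_natCast_ne_zero ↥E q h3
    · exact hY h3

end Modular

/-! ### The two valuations of level `M q` at `g` and `g_x` -/

section Val

theorem sqgv_val_eq_one {F : Type*} [Field F] (V : ValuationSubring F) {x : F} (h0 : x ≠ 0)
    (hx : x ∈ V) (hx' : x⁻¹ ∈ V) : V.valuation x = 1 := by
  have h1 : V.valuation x ≤ 1 := (V.valuation_le_one_iff x).mpr hx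
  have h2 : V.valuation x⁻¹ ≤ 1 := (V.valuation_le_one_iff x⁻¹).mpr hx'
  rw [map_inv₀] at h2
  have h3 : V.valuation x ≠ 0 := (Valuation.ne_zero_iff _).mpr h0
  exact le_antisymm h1 ((inv_le_one₀ (zero_lt_iff.mpr h3)).mp h2)

variable {q : ℕ} [Fact q.Prime] (𝔸 : ValuationSubring Qb) (E : IntermediateField ℚ Qb)
  [IsDiscreteValuationRing ↥(s18dVal 𝔸 E)] [CharZero ↥(s18dVal 𝔸 E)]
variable (M : ℕ) [NeZero M]

/-- **(V2)** `g` lies in the Gauss ring of `F_E(M q)` and reduces to `(θ j̄)^(q-1)` -/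
theorem sqgvG_red (hA : 𝔸.LiesOverPrime q) {ϖ : ↥(s18dVal 𝔸 E)} (hϖ : Irreducible ϖ) :
    haveI : NeZero q := ⟨(Fact.out : q.Prime).ne_zero⟩
    ∃ hG : sqgvG E M q ∈ s18vO ↥(s18dVal 𝔸 E) (modularFunctionFieldFullC E (M * q)),
      (sqgvG E M q)⁻¹ ∈ s18vO ↥(s18dVal 𝔸 E) (modularFunctionFieldFullC E (M * q)) ∧
      s18vcRed (modularFunctionFieldFullC E (M * q)) ⟨sqgvG E M q, hG⟩ =
        sqvtTheta (ResidueField ↥(s18dVal 𝔸 E)) (jqModC (ResidueField ↥(s18dVal 𝔸 E))) ^ (q - 1) := by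
  have hq : q.Prime := Fact.out
  haveI : NeZero q := ⟨hq.ne_zero⟩
  haveI : CharP (ResidueField ↥(s18dVal 𝔸 E)) q := s18v_charP hϖ (s18d_natCast_mem 𝔸 E hA)
  obtain ⟨hG, hGinv, hred⟩ := sqgvG_gauss (A₀ := ↥(s18dVal 𝔸 E)) (L₀ := ↥E) M q hϖ
  refine ⟨hG, hGinv, ?_⟩
  rw [hred]
  have h1 := gcjf_pow_char (ResidueField ↥(s18dVal 𝔸 E)) q
    (sqvtTheta (ResidueField ↥(s18dVal 𝔸 E)) (jqModC (ResidueField ↥(s18dVal 𝔸 E))))
  rw [← sqvtTheta_coeffMap, coeffMap_jqModC] at h1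
  rw [← h1, div_eq_iff (sqvtTheta_jq_isUnit _).ne_zero, ← pow_succ, Nat.sub_add_cancel hq.one_le]

set_option maxHeartbeats 2000000 in
/-- a unit of the Gauss ring of `F_E(M q)` has `V₁`-valuation `1` -/
theorem sqgv_val₁_of_unit (hA : 𝔸.LiesOverPrime q) {ϖ : ↥(s18dVal 𝔸 E)} (hϖ : Irreducible ϖ)
    (Ξ G : haveI : NeZero q := ⟨(Fact.out : q.Prime).ne_zero⟩; (↥(ssvmmR 𝔸 E M q))[X])
    (h : haveI : NeZero q := ⟨(Fact.out : q.Prime).ne_zero⟩
      SsvAmb (ssvmmR 𝔸 E M q) (ssvmgRUnif (ssvmm_le E M q) ϖ) (ssvmmY E M q) Ξ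
        (X - C (ssvmmJ 𝔸 E M q ^ q)) (X ^ q - C (ssvmmJ 𝔸 E M q)) G)
    (x : haveI : NeZero q := ⟨(Fact.out : q.Prime).ne_zero⟩
      modularFunctionFieldFullC E (M * q)) (hx0 : x ≠ 0)
    (hx : haveI : NeZero q := ⟨(Fact.out : q.Prime).ne_zero⟩
      x ∈ s18vO ↥(s18dVal 𝔸 E) (modularFunctionFieldFullC E (M * q)))
    (hx' : haveI : NeZero q := ⟨(Fact.out : q.Prime).ne_zero⟩
      x⁻¹ ∈ s18vO ↥(s18dVal 𝔸 E) (modularFunctionFieldFullC E (M * q))) :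
    haveI : NeZero q := ⟨(Fact.out : q.Prime).ne_zero⟩
    h.V₁.valuation x = 1 := by
  have hq : q.Prime := Fact.out
  haveI : NeZero q := ⟨hq.ne_zero⟩
  exact sqgv_val_eq_one _ hx0 ((ssvma_mem₁_iff 𝔸 E M hA hϖ Ξ G h x).1.mpr hx)
    ((ssvma_mem₁_iff 𝔸 E M hA hϖ Ξ G h x⁻¹).1.mpr hx')

set_option maxHeartbeats 2000000 in
/-- an element whose image under `w` is a unit of the Gauss ring of `F_E(M q)` has
`V₂`-valuation `1` -/
theorem sqgv_val₂_of_unit (hA : 𝔸.LiesOverPrime q) (hqM : ¬ q ∣ M) {ϖ : ↥(s18dVal 𝔸 E)}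
    (hϖ : Irreducible ϖ)
    (Ξ G : haveI : NeZero q := ⟨(Fact.out : q.Prime).ne_zero⟩; (↥(ssvmmR 𝔸 E M q))[X])
    (h : haveI : NeZero q := ⟨(Fact.out : q.Prime).ne_zero⟩
      SsvAmb (ssvmmR 𝔸 E M q) (ssvmgRUnif (ssvmm_le E M q) ϖ) (ssvmmY E M q) Ξ
        (X - C (ssvmmJ 𝔸 E M q ^ q)) (X ^ q - C (ssvmmJ 𝔸 E M q)) G)
    (w : haveI : NeZero q := ⟨(Fact.out : q.Prime).ne_zero⟩
      modularFunctionFieldFullC E (M * q) ≃+* modularFunctionFieldFullC E (M * q))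
    (hwα : haveI : NeZero q := ⟨(Fact.out : q.Prime).ne_zero⟩
      ∀ x : modularFunctionFieldFullC E M, w (ssvmdIncl E M q x) = ssvmfPhi E M q x)
    (hwβ : haveI : NeZero q := ⟨(Fact.out : q.Prime).ne_zero⟩
      ∀ x : modularFunctionFieldFullC E M, w (ssvmfPhi E M q x) = ssvmdIncl E M q x)
    (hww : haveI : NeZero q := ⟨(Fact.out : q.Prime).ne_zero⟩
      ∀ x : modularFunctionFieldFullC E (M * q), w (w x) = x)
    (x : haveI : NeZero q := ⟨(Fact.out : q.Prime).ne_zero⟩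
      modularFunctionFieldFullC E (M * q)) (hx0 : x ≠ 0)
    (hx : haveI : NeZero q := ⟨(Fact.out : q.Prime).ne_zero⟩
      w x ∈ s18vO ↥(s18dVal 𝔸 E) (modularFunctionFieldFullC E (M * q)))
    (hx' : haveI : NeZero q := ⟨(Fact.out : q.Prime).ne_zero⟩
      (w x)⁻¹ ∈ s18vO ↥(s18dVal 𝔸 E) (modularFunctionFieldFullC E (M * q))) :
    haveI : NeZero q := ⟨(Fact.out : q.Prime).ne_zero⟩
    h.V₂.valuation x = 1 := by
  have hq : q.Prime := Fact.out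
  haveI : NeZero q := ⟨hq.ne_zero⟩
  refine sqgv_val_eq_one _ hx0
    ((ssvma_mem₂_iff 𝔸 E M hA hqM hϖ Ξ G h w hwα hwβ hww x).1.mpr hx)
    ((ssvma_mem₂_iff 𝔸 E M hA hqM hϖ Ξ G h w hwα hwβ hww x⁻¹).1.mpr ?_)
  rw [map_inv₀]
  exact hx'

set_option maxHeartbeats 2000000 in
/-- **(V2)** `V₁(g) = 1` -/
theorem sqgvG_val₁ (hA : 𝔸.LiesOverPrime q) {ϖ : ↥(s18dVal 𝔸 E)} (hϖ : Irreducible ϖ)
    (Ξ G : haveI : NeZero q := ⟨(Fact.out : q.Prime).ne_zero⟩; (↥(ssvmmR 𝔸 E M q))[X])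
    (h : haveI : NeZero q := ⟨(Fact.out : q.Prime).ne_zero⟩
      SsvAmb (ssvmmR 𝔸 E M q) (ssvmgRUnif (ssvmm_le E M q) ϖ) (ssvmmY E M q) Ξ
        (X - C (ssvmmJ 𝔸 E M q ^ q)) (X ^ q - C (ssvmmJ 𝔸 E M q)) G) :
    haveI : NeZero q := ⟨(Fact.out : q.Prime).ne_zero⟩
    h.V₁.valuation (sqgvG E M q) = 1 := by
  have hq : q.Prime := Fact.out
  haveI : NeZero q := ⟨hq.ne_zero⟩
  have hh := sqgvG_red 𝔸 E M hA hϖ
  obtain ⟨hG, hGinv, hred⟩ := hh
  exact sqgv_val₁_of_unit 𝔸 E M hA hϖ Ξ G h (sqgvG E M q) (sqgvG_ne_zero E M q) hG hGinv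

set_option maxHeartbeats 2000000 in
/-- **(V3)** `V₂(q² g) = 1`, i.e. `W₂(g) = -2 W₂(q)` -/
theorem sqgvG_val₂ (hA : 𝔸.LiesOverPrime q) (hqM : ¬ q ∣ M) {ϖ : ↥(s18dVal 𝔸 E)}
    (hϖ : Irreducible ϖ)
    (Ξ G : haveI : NeZero q := ⟨(Fact.out : q.Prime).ne_zero⟩; (↥(ssvmmR 𝔸 E M q))[X])
    (h : haveI : NeZero q := ⟨(Fact.out : q.Prime).ne_zero⟩
      SsvAmb (ssvmmR 𝔸 E M q) (ssvmgRUnif (ssvmm_le E M q) ϖ) (ssvmmY E M q) Ξ
        (X - C (ssvmmJ 𝔸 E M q ^ q)) (X ^ q - C (ssvmmJ 𝔸 E M q)) G) :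
    haveI : NeZero q := ⟨(Fact.out : q.Prime).ne_zero⟩
    h.V₂.valuation (((q : ℕ) : modularFunctionFieldFullC E (M * q)) ^ 2 * sqgvG E M q) = 1 := by
  have hq : q.Prime := Fact.out
  haveI : NeZero q := ⟨hq.ne_zero⟩
  have hhw := ssvma_exists_w E M hqM
  obtain ⟨w, hwα, hwβ, hww, hwc⟩ := hhw
  have hh := sqgvG_red 𝔸 E M hA hϖ
  obtain ⟨hG, hGinv, hred⟩ := hh
  have hq0 : ((q : ℕ) : modularFunctionFieldFullC E (M * q)) ≠ 0 :=
    Nat.cast_ne_zero.mpr hq.ne_zero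
  have hG0 := sqgvG_ne_zero E M q
  have hw := sqgvG_w E M q w hwα hwβ hww hwc
  have e : w (((q : ℕ) : modularFunctionFieldFullC E (M * q)) ^ 2 * sqgvG E M q) =
      (sqgvG E M q)⁻¹ := by
    apply eq_inv_of_mul_eq_one_left
    rw [map_mul, map_pow, map_natCast, ← hw]
    ring
  refine sqgv_val₂_of_unit 𝔸 E M hA hqM hϖ Ξ G h w hwα hwβ hww _
    (mul_ne_zero (pow_ne_zero 2 hq0) hG0) ?_ ?_
  · rw [e]
    exact hGinv
  · rw [e, inv_inv]
    exact hG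

set_option maxHeartbeats 2000000 in
/-- **(V4)** `V₁(g_{x,x'}) = 1`, `V₂(q² g_{x,x'}) = 1` and `red(g_{x,x'}) · θ x̄ = (θ x̄')(𝐪^q)` for
`x, x'` in the Gauss ring of `F_E(M)` with `θ x̄ ≠ 0`, `θ x̄' ≠ 0` -/
theorem sqgvGxy_val (hA : 𝔸.LiesOverPrime q) (hqM : ¬ q ∣ M) {ϖ : ↥(s18dVal 𝔸 E)}
    (hϖ : Irreducible ϖ)
    (Ξ G : haveI : NeZero q := ⟨(Fact.out : q.Prime).ne_zero⟩; (↥(ssvmmR 𝔸 E M q))[X])
    (h : haveI : NeZero q := ⟨(Fact.out : q.Prime).ne_zero⟩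
      SsvAmb (ssvmmR 𝔸 E M q) (ssvmgRUnif (ssvmm_le E M q) ϖ) (ssvmmY E M q) Ξ
        (X - C (ssvmmJ 𝔸 E M q ^ q)) (X ^ q - C (ssvmmJ 𝔸 E M q)) G)
    (x x' : modularFunctionFieldFullC E M)
    (hx : x ∈ s18vO ↥(s18dVal 𝔸 E) (modularFunctionFieldFullC E M))
    (hx' : x' ∈ s18vO ↥(s18dVal 𝔸 E) (modularFunctionFieldFullC E M))
    (hθ : sqvtTheta (ResidueField ↥(s18dVal 𝔸 E))
      (s18vcRed (modularFunctionFieldFullC E M) ⟨x, hx⟩) ≠ 0)
    (hθ' : sqvtTheta (ResidueField ↥(s18dVal 𝔸 E))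
      (s18vcRed (modularFunctionFieldFullC E M) ⟨x', hx'⟩) ≠ 0) :
    haveI : NeZero q := ⟨(Fact.out : q.Prime).ne_zero⟩
    h.V₁.valuation (sqgvGxy E M q x x') = 1 ∧
    h.V₂.valuation (((q : ℕ) : modularFunctionFieldFullC E (M * q)) ^ 2 * sqgvGxy E M q x x') = 1 ∧
    ∃ hG : sqgvGxy E M q x x' ∈ s18vO ↥(s18dVal 𝔸 E) (modularFunctionFieldFullC E (M * q)),
      s18vcRed (modularFunctionFieldFullC E (M * q)) ⟨sqgvGxy E M q x x', hG⟩ *
        sqvtTheta (ResidueField ↥(s18dVal 𝔸 E))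
          (s18vcRed (modularFunctionFieldFullC E M) ⟨x, hx⟩) =
        qExpand (ResidueField ↥(s18dVal 𝔸 E)) q
          (sqvtTheta (ResidueField ↥(s18dVal 𝔸 E))
            (s18vcRed (modularFunctionFieldFullC E M) ⟨x', hx'⟩)) := by
  have hq : q.Prime := Fact.out
  haveI : NeZero q := ⟨hq.ne_zero⟩
  have hhw := ssvma_exists_w E M hqM
  obtain ⟨w, hwα, hwβ, hww, hwc⟩ := hhw
  have hh := sqgvGxy_gauss (A₀ := ↥(s18dVal 𝔸 E)) (L₀ := ↥E) M q hϖ x x' hx hx' hθ hθ'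
  obtain ⟨hG, hGinv, hred⟩ := hh
  have hh' := sqgvGxy_gauss (A₀ := ↥(s18dVal 𝔸 E)) (L₀ := ↥E) M q hϖ x' x hx' hx hθ' hθ
  obtain ⟨hG', hGinv', hred'⟩ := hh'
  have hq0 : ((q : ℕ) : modularFunctionFieldFullC E (M * q)) ≠ 0 :=
    Nat.cast_ne_zero.mpr hq.ne_zero
  have hnz : ∀ (y y' : modularFunctionFieldFullC E M)
      (hy : y ∈ s18vO ↥(s18dVal 𝔸 E) (modularFunctionFieldFullC E M))
      (hy' : y' ∈ s18vO ↥(s18dVal 𝔸 E) (modularFunctionFieldFullC E M))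
      (hGy : sqgvGxy E M q y y' ∈ s18vO ↥(s18dVal 𝔸 E) (modularFunctionFieldFullC E (M * q))),
      sqvtTheta (ResidueField ↥(s18dVal 𝔸 E))
        (s18vcRed (modularFunctionFieldFullC E M) ⟨y', hy'⟩) ≠ 0 →
      s18vcRed (modularFunctionFieldFullC E (M * q)) ⟨sqgvGxy E M q y y', hGy⟩ *
        sqvtTheta (ResidueField ↥(s18dVal 𝔸 E))
          (s18vcRed (modularFunctionFieldFullC E M) ⟨y, hy⟩) =
        qExpand (ResidueField ↥(s18dVal 𝔸 E)) q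
          (sqvtTheta (ResidueField ↥(s18dVal 𝔸 E))
            (s18vcRed (modularFunctionFieldFullC E M) ⟨y', hy'⟩)) →
      sqgvGxy E M q y y' ≠ 0 := by
    intro y y' hy hy' hGy hθy' hredy h0
    have hr0 : s18vcRed (modularFunctionFieldFullC E (M * q)) ⟨sqgvGxy E M q y y', hGy⟩ = 0 := by
      have e : (⟨sqgvGxy E M q y y', hGy⟩ :
          ↥(s18vO ↥(s18dVal 𝔸 E) (modularFunctionFieldFullC E (M * q)))) = 0 :=
        Subtype.ext h0
      rw [e, map_zero]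
    rw [hr0, zero_mul] at hredy
    exact hθy' (qExpand_injective q (hredy.symm.trans (map_zero _).symm))
  have hG0 : sqgvGxy E M q x x' ≠ 0 := hnz x x' hx hx' hG hθ' hred
  have hG0' : sqgvGxy E M q x' x ≠ 0 := hnz x' x hx' hx hG' hθ hred'
  have hd0 : sqgvDer E M x ≠ 0 := by
    intro h0
    apply hG0
    unfold sqgvGxy
    simp only [h0, map_zero, div_zero]
  have hd0' : sqgvDer E M x' ≠ 0 := by
    intro h0
    apply hG0'
    unfold sqgvGxy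
    simp only [h0, map_zero, div_zero]
  have hw := sqgvGxy_w E M q w hwα hwβ hww hwc x' x hd0' hd0
  have e : w (((q : ℕ) : modularFunctionFieldFullC E (M * q)) ^ 2 * sqgvGxy E M q x x') =
      (sqgvGxy E M q x' x)⁻¹ := by
    apply eq_inv_of_mul_eq_one_right
    have e2 := congrArg w hw
    rw [map_mul, hww, map_one] at e2
    exact e2
  refine ⟨sqgv_val₁_of_unit 𝔸 E M hA hϖ Ξ G h (sqgvGxy E M q x x') hG0 hG hGinv,
    sqgv_val₂_of_unit 𝔸 E M hA hqM hϖ Ξ G h w hwα hwβ hww _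
      (mul_ne_zero (pow_ne_zero 2 hq0) hG0) ?_ ?_, hG, hred⟩
  · rw [e]
    exact hGinv'
  · rw [e, inv_inv]
    exact hG'

set_option maxHeartbeats 2000000 in
/-- **(V4)** the diagonal case `g_x = g_{x,x}` -/
theorem sqgvGx_val (hA : 𝔸.LiesOverPrime q) (hqM : ¬ q ∣ M) {ϖ : ↥(s18dVal 𝔸 E)}
    (hϖ : Irreducible ϖ)
    (Ξ G : haveI : NeZero q := ⟨(Fact.out : q.Prime).ne_zero⟩; (↥(ssvmmR 𝔸 E M q))[X])
    (h : haveI : NeZero q := ⟨(Fact.out : q.Prime).ne_zero⟩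
      SsvAmb (ssvmmR 𝔸 E M q) (ssvmgRUnif (ssvmm_le E M q) ϖ) (ssvmmY E M q) Ξ
        (X - C (ssvmmJ 𝔸 E M q ^ q)) (X ^ q - C (ssvmmJ 𝔸 E M q)) G)
    (x : modularFunctionFieldFullC E M)
    (hx : x ∈ s18vO ↥(s18dVal 𝔸 E) (modularFunctionFieldFullC E M))
    (hθ : sqvtTheta (ResidueField ↥(s18dVal 𝔸 E))
      (s18vcRed (modularFunctionFieldFullC E M) ⟨x, hx⟩) ≠ 0) :
    haveI : NeZero q := ⟨(Fact.out : q.Prime).ne_zero⟩
    h.V₁.valuation (sqgvGx E M q x) = 1 ∧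
    h.V₂.valuation (((q : ℕ) : modularFunctionFieldFullC E (M * q)) ^ 2 * sqgvGx E M q x) = 1 ∧
    ∃ hG : sqgvGx E M q x ∈ s18vO ↥(s18dVal 𝔸 E) (modularFunctionFieldFullC E (M * q)),
      s18vcRed (modularFunctionFieldFullC E (M * q)) ⟨sqgvGx E M q x, hG⟩ *
        sqvtTheta (ResidueField ↥(s18dVal 𝔸 E))
          (s18vcRed (modularFunctionFieldFullC E M) ⟨x, hx⟩) =
        qExpand (ResidueField ↥(s18dVal 𝔸 E)) q
          (sqvtTheta (ResidueField ↥(s18dVal 𝔸 E))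
            (s18vcRed (modularFunctionFieldFullC E M) ⟨x, hx⟩)) :=
  sqgvGxy_val 𝔸 E M hA hqM hϖ Ξ G h x x hx hx hθ hθ

end Val

end Fermat.Agent.SQ
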