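import Mathlib
import Fermat.Agent.S18.T.Spec
import Fermat.Agent.S18.V.Spec
import Fermat.Agent.S18.Core.Defs
import Fermat.Agent.SS.NF.Defs
import Fermat.Agent.SS.Germ.FrobLift

/-!
# Program Q (S36), risk R1, leaf (PERF) : the residue field of a closed point of the special fibre
is perfect

`P = s18tInt A t`, `𝔫` a maximal ideal of `P` containing `ϖ`.  Then `P / 𝔫` is a field integral over
the image of `A[t]`, which is generated over `k = A / ϖ` by the image of `t`; hence `P / 𝔫` is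
algebraic over `k`, and perfect as soon as `k` is : every `p ∈ P` is a `q`-th power modulo `𝔫`.

* `sqgpf_frobenius_surjective_zmod`, `sqgpf_frobenius_surjective_of_isAlgebraic` : Mathlib-only
  cores;
* `sqgpf_isAlgebraic_of_isIntegral_adjoin` : a field integral over `k[x]` is algebraic over `k`;
* `sqgpf_exists_pow` : the abstract statement over a DVR `A` with perfect residue field;
* `sqgpf_exists_pow_dVal` : the instance `A = s18dVal 𝔸 E`, `𝔸 | q`.

Prefix `sqgpf`.
-/

set_option autoImplicit false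
set_option linter.unusedSectionVars false
set_option linter.unusedVariables false
set_option linter.style.haveILetI false

noncomputable section

namespace Fermat.Agent.SQ

open Polynomial IsLocalRing Fermat.Agent.S18 Fermat.Agent.SS

/-! ### Mathlib-only cores -/

section Core

/-- a field of characteristic `q` algebraic over a field with surjective Frobenius has surjective
Frobenius -/
theorem sqgpf_frobenius_surjective_of_isAlgebraic (k K : Type*) [Field k] [Field K] [Algebra k K]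
    [Algebra.IsAlgebraic k K] (q : ℕ) [Fact q.Prime] [CharP k q] [CharP K q]
    (hk : Function.Surjective (frobenius k q)) : Function.Surjective (frobenius K q) := by
  haveI : PerfectRing k q := PerfectRing.ofSurjective k q hk
  haveI : PerfectField k := PerfectRing.toPerfectField k q
  haveI : PerfectField K := Algebra.IsAlgebraic.perfectField k
  exact (bijective_frobenius K q).2

/-- a field of characteristic `q` algebraic over `𝔽_q` has surjective Frobenius -/
theorem sqgpf_frobenius_surjective_zmod (K : Type*) [Field K] (q : ℕ) [Fact q.Prime] [CharP K q]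
    (h : letI : Algebra (ZMod q) K := ZMod.algebra K q
      ∀ x : K, IsAlgebraic (ZMod q) x) : Function.Surjective (frobenius K q) := by
  letI : Algebra (ZMod q) K := ZMod.algebra K q
  haveI : Algebra.IsAlgebraic (ZMod q) K := ⟨h⟩
  haveI : PerfectField K := Algebra.IsAlgebraic.perfectField (ZMod q)
  exact (bijective_frobenius K q).2

/-- a field integral over the subalgebra `k[x]` is algebraic over `k` (Zariski's lemma in one
variable) -/
theorem sqgpf_isAlgebraic_of_isIntegral_adjoin {k κ : Type*} [Field k] [Field κ] [Algebra k κ]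
    (x : κ) (h : ∀ y : κ, IsIntegral (Algebra.adjoin k {x}) y) : Algebra.IsAlgebraic k κ := by
  haveI : Algebra.IsIntegral (Algebra.adjoin k {x}) κ := ⟨h⟩
  have hS : IsField (Algebra.adjoin k {x}) :=
    isField_of_isIntegral_of_isField (R := Algebra.adjoin k {x}) (S := κ) Subtype.val_injective
      (Field.toIsField κ)
  -- `x` is algebraic over `k`
  have hx : IsAlgebraic k x := by
    by_contra htr
    have hinj : Function.Injective (aeval (R := k) x) := transcendental_iff_injective.mp htr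
    have e := AlgEquiv.ofInjective (aeval (R := k) x) hinj
    have hr : IsField (aeval (R := k) x).range := by
      rw [← Algebra.adjoin_singleton_eq_range_aeval]
      exact hS
    exact Polynomial.not_isField k (MulEquiv.isField hr e.toMulEquiv)
  have hxi : IsIntegral k x := hx.isIntegral
  have hle : Algebra.adjoin k {x} ≤ integralClosure k κ :=
    Algebra.adjoin_le (Set.singleton_subset_iff.mpr hxi)
  haveI : Algebra.IsIntegral k (Algebra.adjoin k {x}) := ⟨fun s => by
    have h1 : IsIntegral k ((s : Algebra.adjoin k {x}) : κ) := hle s.2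
    exact (isIntegral_algebraMap_iff (B := κ) Subtype.val_injective).mp h1⟩
  exact ⟨fun y => (isIntegral_trans (R := k) (A := Algebra.adjoin k {x}) y (h y)).isAlgebraic⟩

end Core

/-! ### The residue field of a closed point of the special fibre -/

section Main

variable {A : Type*} [CommRing A] [IsDomain A] [IsDiscreteValuationRing A] [CharZero A]
variable {F : Type*} [Field F] [Algebra A F]
variable {ϖ : A}

/-- `A → P` -/
def sqgpfIota (t : F) : A →+* ↥(s18tInt A t) :=
  (algebraMap A F).codRestrict (s18tInt A t) (s18tc_algebraMap_mem_int t)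

theorem sqgpfIota_coe (t : F) (a : A) : ((sqgpfIota t a : ↥(s18tInt A t)) : F) = algebraMap A F a :=
  rfl

/-- `A[t] → P` -/
def sqgpfChart (t : F) : ↥(s18tChart A t) →+* ↥(s18tInt A t) :=
  ((s18tChart A t).val : ↥(s18tChart A t) →+* F).codRestrict (s18tInt A t)
    (fun c => s18tc_chart_le_int t c.2)

theorem sqgpfChart_coe (t : F) (c : ↥(s18tChart A t)) :
    ((sqgpfChart t c : ↥(s18tInt A t)) : F) = (c : F) := rfl

/-- `k = A / 𝔪_A → P / 𝔫` for an ideal `𝔫 ∋ ϖ` -/
def sqgpfRes (hϖ : Irreducible ϖ) (t : F) (𝔫 : Ideal ↥(s18tInt A t)) (hϖ𝔫 : sskPi ϖ t ∈ 𝔫) :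
    ResidueField A →+* ↥(s18tInt A t) ⧸ 𝔫 :=
  Ideal.Quotient.lift (maximalIdeal A) ((Ideal.Quotient.mk 𝔫).comp (sqgpfIota t)) (by
    intro a ha
    rw [hϖ.maximalIdeal_eq, Ideal.mem_span_singleton] at ha
    obtain ⟨b, rfl⟩ := ha
    rw [map_mul]
    have h0 : Ideal.Quotient.mk 𝔫 (sqgpfIota t ϖ) = 0 := Ideal.Quotient.eq_zero_iff_mem.mpr hϖ𝔫
    rw [RingHom.comp_apply, h0, zero_mul])

theorem sqgpfRes_residue (hϖ : Irreducible ϖ) (t : F) (𝔫 : Ideal ↥(s18tInt A t))
    (hϖ𝔫 : sskPi ϖ t ∈ 𝔫) (a : A) :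
    sqgpfRes hϖ t 𝔫 hϖ𝔫 (residue A a) = Ideal.Quotient.mk 𝔫 (sqgpfIota t a) := rfl

set_option maxHeartbeats 1000000 in
/-- **(PERF), abstract form** : over a DVR `A` with perfect residue field of characteristic `q`,
every element of `P = s18tInt A t` is a `q`-th power modulo a maximal ideal `𝔫 ∋ ϖ`. -/
theorem sqgpf_exists_pow (hϖ : Irreducible ϖ) (t : F) (𝔫 : Ideal ↥(s18tInt A t)) [h𝔫 : 𝔫.IsMaximal]
    (hϖ𝔫 : sskPi ϖ t ∈ 𝔫) (q : ℕ) [Fact q.Prime] [CharP (ResidueField A) q]
    (hperf : Function.Surjective (frobenius (ResidueField A) q)) (p : ↥(s18tInt A t)) :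
    ∃ e : ↥(s18tInt A t), p - e ^ q ∈ 𝔫 := by
  letI : Field (↥(s18tInt A t) ⧸ 𝔫) := Ideal.Quotient.field 𝔫
  letI : Algebra (ResidueField A) (↥(s18tInt A t) ⧸ 𝔫) := (sqgpfRes hϖ t 𝔫 hϖ𝔫).toAlgebra
  haveI : CharP (↥(s18tInt A t) ⧸ 𝔫) q :=
    charP_of_injective_algebraMap (algebraMap (ResidueField A) (↥(s18tInt A t) ⧸ 𝔫)).injective q
  set tb : ↥(s18tInt A t) ⧸ 𝔫 := Ideal.Quotient.mk 𝔫 ⟨t, s18tc_self_mem_int t⟩ with htb
  -- the image of `A[t]` lies in `k[t̄]`
  have hmem : ∀ c : ↥(s18tChart A t),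
      Ideal.Quotient.mk 𝔫 (sqgpfChart t c) ∈ Algebra.adjoin (ResidueField A) {tb} := by
    rintro ⟨c, hc⟩
    induction hc using Algebra.adjoin_induction with
    | mem x hx =>
      rw [Set.mem_singleton_iff] at hx
      subst hx
      exact Algebra.self_mem_adjoin_singleton _ _
    | algebraMap a =>
      have e : Ideal.Quotient.mk 𝔫 (sqgpfChart t ⟨algebraMap A F a, Subalgebra.algebraMap_mem _ a⟩) =
          algebraMap (ResidueField A) (↥(s18tInt A t) ⧸ 𝔫) (residue A a) := rfl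
      rw [e]
      exact Subalgebra.algebraMap_mem _ _
    | add x y hx hy ihx ihy =>
      have e : sqgpfChart t ⟨x + y, add_mem hx hy⟩ =
          sqgpfChart t ⟨x, hx⟩ + sqgpfChart t ⟨y, hy⟩ := rfl
      rw [e, map_add]
      exact add_mem ihx ihy
    | mul x y hx hy ihx ihy =>
      have e : sqgpfChart t ⟨x * y, mul_mem hx hy⟩ =
          sqgpfChart t ⟨x, hx⟩ * sqgpfChart t ⟨y, hy⟩ := rfl
      rw [e, map_mul]
      exact mul_mem ihx ihy
  set ψ : ↥(s18tChart A t) →+* ↥(Algebra.adjoin (ResidueField A) {tb}) :=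
    ((Ideal.Quotient.mk 𝔫).comp (sqgpfChart t)).codRestrict
      (Algebra.adjoin (ResidueField A) {tb}) hmem with hψ
  -- `P / 𝔫` is integral over `k[t̄]`
  have hint : ∀ y : ↥(s18tInt A t) ⧸ 𝔫, IsIntegral (Algebra.adjoin (ResidueField A) {tb}) y := by
    intro y
    obtain ⟨x, rfl⟩ := Ideal.Quotient.mk_surjective y
    obtain ⟨f, hf, hfx⟩ := (mem_s18tInt A).mp x.2
    refine ⟨f.map ψ, hf.map ψ, ?_⟩
    rw [Polynomial.eval₂_map]
    have hc : (algebraMap (↥(Algebra.adjoin (ResidueField A) {tb})) (↥(s18tInt A t) ⧸ 𝔫)).comp ψ =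
        (Ideal.Quotient.mk 𝔫).comp (sqgpfChart t) := rfl
    rw [hc, ← Polynomial.hom_eval₂]
    have h0 : eval₂ (sqgpfChart t) x f = 0 := by
      apply Subtype.ext
      have h1 := Polynomial.hom_eval₂ f (sqgpfChart t) (s18tInt A t).subtype x
      rw [ZeroMemClass.coe_zero]
      exact h1.trans hfx
    rw [h0, map_zero]
  haveI : Algebra.IsAlgebraic (ResidueField A) (↥(s18tInt A t) ⧸ 𝔫) :=
    sqgpf_isAlgebraic_of_isIntegral_adjoin tb hint
  obtain ⟨eb, heb⟩ := sqgpf_frobenius_surjective_of_isAlgebraic (ResidueField A)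
    (↥(s18tInt A t) ⧸ 𝔫) q hperf (Ideal.Quotient.mk 𝔫 p)
  obtain ⟨e, rfl⟩ := Ideal.Quotient.mk_surjective eb
  refine ⟨e, ?_⟩
  rw [← Ideal.Quotient.eq_zero_iff_mem, map_sub, map_pow, sub_eq_zero]
  exact heb.symm

/-- **(PERF)** for `A = 𝔸 ∩ E`, `𝔸 | q` : every element of `P = s18tInt A t` is a `q`-th power
modulo a maximal ideal `𝔫 ∋ ϖ`. -/
theorem sqgpf_exists_pow_dVal {q : ℕ} [Fact q.Prime] (𝔸 : ValuationSubring (AlgebraicClosure ℚ))
    (E : IntermediateField ℚ (AlgebraicClosure ℚ)) [IsDiscreteValuationRing ↥(s18dVal 𝔸 E)]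
    [CharZero ↥(s18dVal 𝔸 E)] (hA : 𝔸.LiesOverPrime q) {ϖ : ↥(s18dVal 𝔸 E)} (hϖ : Irreducible ϖ)
    {F : Type*} [Field F] [Algebra ↥(s18dVal 𝔸 E) F] (t : F)
    (𝔫 : Ideal ↥(s18tInt ↥(s18dVal 𝔸 E) t)) [h𝔫 : 𝔫.IsMaximal] (hϖ𝔫 : sskPi ϖ t ∈ 𝔫)
    (p : ↥(s18tInt ↥(s18dVal 𝔸 E) t)) :
    ∃ e : ↥(s18tInt ↥(s18dVal 𝔸 E) t), p - e ^ q ∈ 𝔫 := by
  haveI : CharP (ResidueField ↥(s18dVal 𝔸 E)) q := s18v_charP hϖ (s18d_natCast_mem 𝔸 E hA)
  exact sqgpf_exists_pow hϖ t 𝔫 hϖ𝔫 q (ssgfl_frobenius_surjective_dVal 𝔸 E q) p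

end Main

end Fermat.Agent.SQ
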