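import Mathlib
import Fermat.Agent.SQ.Germ.CrossTop
import Fermat.Agent.SQ.Germ.DerivTheta
import Fermat.Agent.SQ.Germ.DerivVert
import Fermat.Agent.SQ.Germ.Perfect
import Fermat.Agent.SS.Germ.ModSingle

/-!
# Program Q, R1 (thickness one) : level-`M` part of the concrete (T1) chain (prefix `sqgtc`)

Level `M` (`q ∤ M`) and level `M q` over one number field `E`, `A₀ = 𝔸 ∩ E`, chart coordinate
`s ∈ F_E(M)` (`S18Coord`, `GrdfbHyp`), `t₁ = α₁ s`, `W_i = h.V_i` for a witness `h` of `ssvmm_amb`.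

* `sqgtcDer` : `d/dj` (helper3's `sqgvDer`) as an `A₀`-derivation of `F_E(M)`;
* `sqgtc_param` : at a closed point `𝔰 ∋ ϖ` of level `M` with local parameter `p` : helper1's
  Cartier hypotheses for `∂_p = (dp/dj)⁻¹ d/dj` (helper13's `sqgde_theta_cartierHyp`, (PERF) from
  helper22), `∂_p P_𝔰 ⊆ P_𝔰`, `∂_p O₀ ⊆ O₀`, and `θ p̄ ≠ 0`;
* `sqgtc_ident` : the `D`-identity (helper3's `sqgvGxy_congr`) in the shape of `SqgtpKD.ident`;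
* small valuation lemmas.
-/

set_option autoImplicit false
set_option linter.unusedSectionVars false
set_option linter.unusedVariables false
set_option linter.style.haveILetI false

noncomputable section

namespace Fermat.Agent.SQ

open Polynomial ModularCurve AlgebraicCurve IntermediateField IsLocalRing Fermat.Agent.S18
  Fermat.Agent.SS Fermat.Agent.G

local notation "Qb" => AlgebraicClosure ℚ

/-! ### level `M` : `d/dj` as a derivation, the Cartier package at a closed point -/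

section Level0

variable (A₀ : Type*) [CommRing A₀] [IsDomain A₀] [IsDiscreteValuationRing A₀] [CharZero A₀]
variable (L₀ : Type*) [Field L₀] [Algebra A₀ L₀] [IsFractionRing A₀ L₀] [CharZero L₀]
variable {ϖ : A₀} (N : ℕ) [NeZero N]

/-- `d/dj` as an `A₀`-derivation of `F_{L₀}(N)` -/
def sqgtcDer : Derivation A₀ (modularFunctionFieldFullC L₀ N) (modularFunctionFieldFullC L₀ N) :=
  sqgdeDer (sqgvDer L₀ N) (sqgvDer_mul L₀ N) (fun a => by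
    rw [IsScalarTower.algebraMap_apply A₀ L₀ (modularFunctionFieldFullC L₀ N)]
    exact sqgvDer_algebraMap L₀ N _)

theorem sqgtcDer_apply (x : modularFunctionFieldFullC L₀ N) :
    sqgtcDer A₀ L₀ N x = sqgvDer L₀ N x := rfl

variable {A₀ L₀}

/-- `d/dj` preserves the Gauss ring `O₀ = s18tIntLoc A₀ s (C ϖ)` of a chart coordinate `s` -/
theorem sqgtcDer_gauss (hϖ : Irreducible ϖ) (s : modularFunctionFieldFullC L₀ N)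
    (hc : S18Coord hϖ (modularFunctionFieldFullC L₀ N) s) :
    ∀ x ∈ s18tIntLoc A₀ s (C ϖ) (s18t_prime_C hϖ),
      sqgtcDer A₀ L₀ N x ∈ s18tIntLoc A₀ s (C ϖ) (s18t_prime_C hϖ) := by
  intro x hx
  rw [hc.intLoc_eq] at hx ⊢
  obtain ⟨hD, -⟩ := sqgvDer_gauss N hϖ x hx
  exact hD

/-- a unit of the Gauss ring has nonzero reduction -/
theorem sqgtc_red_ne_zero {F : IntermediateField L₀ (LaurentSeries L₀)} {x : ↥F}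
    (hx : x ∈ s18vO A₀ F) (hxi : x⁻¹ ∈ s18vO A₀ F) (hx0 : x ≠ 0) :
    s18vcRed F ⟨x, hx⟩ ≠ 0 := by
  intro h0
  have h1 : (⟨x, hx⟩ : ↥(s18vO A₀ F)) * ⟨x⁻¹, hxi⟩ = 1 := Subtype.ext (mul_inv_cancel₀ hx0)
  have h2 := congrArg (s18vcRed F) h1
  rw [map_mul, h0, zero_mul, map_one] at h2
  exact zero_ne_one h2

/-- **THE CARTIER PACKAGE AT A CLOSED POINT OF LEVEL `N`** : `𝔰 P_𝔰 = (ϖ, p)`, residue field of `𝔰`
perfect (`hperf`), `θ s̄ ≠ 0` for the chart coordinate `s`. -/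
theorem sqgtc_param (hϖ : Irreducible ϖ) (s : modularFunctionFieldFullC L₀ N)
    (hc : S18Coord hϖ (modularFunctionFieldFullC L₀ N) s) (hgood : GrdfbHyp hϖ s)
    (hsO : s ∈ s18vO A₀ (modularFunctionFieldFullC L₀ N))
    (hθs : sqvtTheta (ResidueField A₀) (s18vcRed (modularFunctionFieldFullC L₀ N) ⟨s, hsO⟩) ≠ 0)
    (𝔰 : Ideal ↥(s18tInt A₀ s)) [h𝔰 : 𝔰.IsPrime] (hϖ𝔰 : sskPi ϖ s ∈ 𝔰)
    (p : ↥(s18tInt A₀ s)) (hp𝔰 : p ∈ 𝔰)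
    (hgen : ∀ x ∈ 𝔰, ∃ r : ↥(s18tInt A₀ s), r ∉ 𝔰 ∧ ∃ a b : ↥(s18tInt A₀ s),
      r * x = a * sskPi ϖ s + b * p)
    (q : ℕ) (hq0 : q ≠ 0) (hqϖ : ϖ ∣ (q : A₀))
    (hperf : ∀ x : ↥(s18tInt A₀ s), ∃ e : ↥(s18tInt A₀ s), x - e ^ q ∈ 𝔰) :
    SqgcaHyp (s18tIntLoc A₀ s (C ϖ) (s18t_prime_C hϖ)) (ssLocRing s 𝔰)
        (algebraMap A₀ (modularFunctionFieldFullC L₀ N) ϖ) (p : modularFunctionFieldFullC L₀ N) q
        (sqgdeDp (sqgtcDer A₀ L₀ N) (p : modularFunctionFieldFullC L₀ N)) ∧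
      (∀ y, SsnfInLoc s 𝔰 y →
        SsnfInLoc s 𝔰 (sqgdeDp (sqgtcDer A₀ L₀ N) (p : modularFunctionFieldFullC L₀ N) y)) ∧
      (∀ x ∈ s18tIntLoc A₀ s (C ϖ) (s18t_prime_C hϖ),
        sqgdeDp (sqgtcDer A₀ L₀ N) (p : modularFunctionFieldFullC L₀ N) x ∈
          s18tIntLoc A₀ s (C ϖ) (s18t_prime_C hϖ)) ∧
      ∃ hpO : (p : modularFunctionFieldFullC L₀ N) ∈ s18vO A₀ (modularFunctionFieldFullC L₀ N),
        sqvtTheta (ResidueField A₀)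
          (s18vcRed (modularFunctionFieldFullC L₀ N) ⟨(p : modularFunctionFieldFullC L₀ N), hpO⟩) ≠ 0 := by
  haveI := hc.fin
  have ht := hc.transc
  have h1𝔰 : (1 : ↥(s18tInt A₀ s)) ∉ 𝔰 := fun h => h𝔰.ne_top ((Ideal.eq_top_iff_one _).mpr h)
  -- the chart coordinate as `j₀`
  have hj₀ : SsnfInLoc s 𝔰 s :=
    ⟨1, h1𝔰, by rw [OneMemClass.coe_one, one_mul]; exact s18tc_self_mem_int s⟩
  have hds0 : sqgvDer L₀ N s ≠ 0 := by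
    intro h0
    obtain ⟨hD, hred⟩ := sqgvDer_gauss N hϖ s hsO
    have e : (⟨sqgvDer L₀ N s, hD⟩ : ↥(s18vO A₀ (modularFunctionFieldFullC L₀ N))) = 0 :=
      Subtype.ext h0
    rw [e, map_zero, zero_mul] at hred
    exact hθs hred.symm
  have hj₀0 : sqgtcDer A₀ L₀ N s ≠ 0 := hds0
  have hj₀u : (sqgtcDer A₀ L₀ N s)⁻¹ ∈ s18tIntLoc A₀ s (C ϖ) (s18t_prime_C hϖ) := by
    rw [hc.intLoc_eq]
    exact sqgvDer_inv_gauss N hϖ s hsO hθs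
  have hD₀O := sqgtcDer_gauss N hϖ s hc
  refine ⟨sqgde_theta_cartierHyp (L := L₀) hϖ s ht hgood 𝔰 hϖ𝔰 p hp𝔰 hgen q hq0 hqϖ hperf
      (sqgtcDer A₀ L₀ N) hD₀O s hj₀ hj₀u hj₀0,
    fun y hy => sqgde_theta_stable (L := L₀) s ht 𝔰 hϖ𝔰 p hp𝔰 hgen q hq0 hqϖ hperf
      (sqgtcDer A₀ L₀ N) s hj₀ hj₀0 hy,
    fun x hx => sqgde_theta_gauss (L := L₀) hϖ s ht hgood 𝔰 hϖ𝔰 p hp𝔰 hgen q hq0 hqϖ hperf
      (sqgtcDer A₀ L₀ N) hD₀O s hj₀ hj₀u hj₀0 x hx, ?_⟩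
  -- `θ p̄ ≠ 0`
  have hpO : (p : modularFunctionFieldFullC L₀ N) ∈ s18vO A₀ (modularFunctionFieldFullC L₀ N) :=
    ssgfl_int_le_vO _ hϖ s hc p.2
  have hu := sqgde_theta_unit (L := L₀) hϖ s ht hgood 𝔰 hϖ𝔰 p hp𝔰 hgen q hq0 hqϖ hperf
    (sqgtcDer A₀ L₀ N) s hj₀ hj₀u hj₀0
  rw [hc.intLoc_eq] at hu
  have hp0 := sqgde_theta_ne_zero (L := L₀) s ht 𝔰 hϖ𝔰 p hp𝔰 hgen q hq0 hqϖ hperf
    (sqgtcDer A₀ L₀ N) s hj₀ hj₀0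
  obtain ⟨hD, hred⟩ := sqgvDer_gauss N hϖ (p : modularFunctionFieldFullC L₀ N) hpO
  refine ⟨hpO, ?_⟩
  rw [← hred]
  exact mul_ne_zero (sqgtc_red_ne_zero hD hu hp0) (sqgvThJ_ne_zero _)

/-- **the `D`-identity in the shape of `SqgtpKD.ident`** (helper3's `sqgvGxy_congr`) :
`g_{x,x'} - α (a^(ℓ-1) ∂_x a + ∂_x (c₀ Δ₀)) ∈ ϖ O₁`, `∂_x = (dx/dj)⁻¹ d/dj`. -/
theorem sqgtc_ident (ℓ : ℕ) [NeZero ℓ] (hϖ : Irreducible ϖ) (c₀ : A₀)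
    (hc₀ : ((ℓ : ℕ) : A₀) * c₀ = ϖ) (x x' a : modularFunctionFieldFullC L₀ N)
    (hx : x ∈ s18vO A₀ (modularFunctionFieldFullC L₀ N))
    (hθ : sqvtTheta (ResidueField A₀) (s18vcRed (modularFunctionFieldFullC L₀ N) ⟨x, hx⟩) ≠ 0)
    (Dt : modularFunctionFieldFullC L₀ (N * ℓ))
    (hDt : algebraMap A₀ (modularFunctionFieldFullC L₀ (N * ℓ)) ϖ * Dt =
      ssvmfPhi L₀ N ℓ x' - ssvmdIncl L₀ N ℓ a ^ ℓ)
    (Δ₀ : modularFunctionFieldFullC L₀ N) (y : modularFunctionFieldFullC L₀ (N * ℓ))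
    (hy : y ∈ s18vO A₀ (modularFunctionFieldFullC L₀ (N * ℓ)))
    (hDΔ : Dt - ssvmdIncl L₀ N ℓ Δ₀ = algebraMap A₀ (modularFunctionFieldFullC L₀ (N * ℓ)) ϖ * y) :
    ∃ z ∈ s18vO A₀ (modularFunctionFieldFullC L₀ (N * ℓ)),
      sqgvGxy L₀ N ℓ x x' - ssvmdIncl L₀ N ℓ (a ^ (ℓ - 1) * sqgdeDp (sqgtcDer A₀ L₀ N) x a +
        sqgdeDp (sqgtcDer A₀ L₀ N) x (algebraMap A₀ (modularFunctionFieldFullC L₀ N) c₀ * Δ₀)) =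
      algebraMap A₀ (modularFunctionFieldFullC L₀ (N * ℓ)) ϖ * z := by
  obtain ⟨z, hz, hzeq⟩ := sqgvGxy_congr N ℓ hϖ c₀ hc₀ x x' a hx hθ Dt hDt Δ₀ y hy hDΔ
  refine ⟨z, hz, ?_⟩
  rw [← hzeq]
  congr 2
  rw [sqgdeDp_apply, sqgdeDp_apply, sqgtcDer_apply, sqgtcDer_apply, sqgtcDer_apply, sqgvDer_mul,
    IsScalarTower.algebraMap_apply A₀ L₀ (modularFunctionFieldFullC L₀ N), sqgvDer_algebraMap]
  ring

end Level0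

/-! ### small valuation lemmas -/

section Small

variable {F : Type*} [Field F]

/-- division of a non-unit by a uniformiser -/
theorem sqgtc_div_unif {V : ValuationSubring F} {τ x : F} (hτ : S18IsUnif V τ) (hτ0 : τ ≠ 0)
    (hx : x ∈ V.nonunits) : x / τ ∈ V := by
  rw [← V.valuation_le_one_iff, map_div₀]
  have h1 := hτ.2 x ((V.mem_nonunits_iff).mp hx)
  have hv0 : V.valuation τ ≠ 0 := (Valuation.ne_zero_iff _).mpr hτ0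
  exact (div_le_one₀ (zero_lt_iff.mpr hv0)).mpr h1

/-- `τ z ∈ 𝔪_V` for `τ ∈ 𝔪_V`, `z ∈ V` -/
theorem sqgtc_mul_mem_nonunits {V : ValuationSubring F} {τ z : F} (hτ : τ ∈ V.nonunits)
    (hz : z ∈ V) : τ * z ∈ V.nonunits := by
  rw [V.mem_nonunits_iff, map_mul]
  have h1 : V.valuation z ≤ 1 := (V.valuation_le_one_iff _).mpr hz
  calc V.valuation τ * V.valuation z ≤ V.valuation τ * 1 := mul_le_mul' le_rfl h1
    _ = V.valuation τ := mul_one _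
    _ < 1 := (V.mem_nonunits_iff).mp hτ

/-- valuation one ⟹ membership of the element and of its inverse -/
theorem sqgtc_mem_of_val_one {V : ValuationSubring F} {x : F} (hx : V.valuation x = 1) :
    x ∈ V ∧ x⁻¹ ∈ V := by
  constructor
  · rw [← V.valuation_le_one_iff, hx]
  · rw [← V.valuation_le_one_iff, map_inv₀, hx, inv_one]

end Small

/-! ### abstract assembly lemmas (setting of `CrossTop`) -/

section Abs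

universe u₀ u₁

variable {A : Type*} [CommRing A] [IsDomain A] [IsDiscreteValuationRing A] [CharZero A]
variable {L : Type*} [Field L] [Algebra A L] [IsFractionRing A L]
variable {F₀ : Type u₀} [Field F₀] [Algebra A F₀] [Algebra L F₀] [IsScalarTower A L F₀]
variable {F₁ : Type u₁} [Field F₁] [Algebra A F₁] [Algebra L F₁] [IsScalarTower A L F₁]
variable {ϖ : A} {t₀ : F₀} {t₁ : F₁} {α φ : F₀ →+* F₁} {W₁ W₂ : ValuationSubring F₁} {q : ℕ}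
variable {𝔫₁ : Ideal ↥(s18tInt A t₁)}

/-- the two closed points of the lower level under a closed point on both components -/
theorem sqgtc_points {hϖ : Irreducible ϖ} (H : SsgiHyp hϖ (RingHom.id A) α φ ϖ t₀ t₁ W₁ W₂ q)
    (hαP : ∀ b ∈ s18tInt A t₀, α b ∈ s18tInt A t₁) (hφP : ∀ b ∈ s18tInt A t₀, φ b ∈ s18tInt A t₁)
    (hmax : 𝔫₁.IsMaximal) (hon₁ : SqgaOn t₁ 𝔫₁ W₁) (hon₂ : SqgaOn t₁ 𝔫₁ W₂) :
    (𝔫₁.comap (sqgtpMap α hαP)).IsMaximal ∧ (𝔫₁.comap (sqgtpMap φ hφP)).IsMaximal ∧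
      sskPi ϖ t₀ ∈ 𝔫₁.comap (sqgtpMap α hαP) ∧ sskPi ϖ t₀ ∈ 𝔫₁.comap (sqgtpMap φ hφP) := by
  have hϖ𝔫 : sskPi ϖ t₁ ∈ 𝔫₁ := hon₁ _ H.two.unif₁
  refine ⟨sqgtp_comap_isMaximal H.two.le₁ α hαP (ssgi_surj₁ H) hmax hon₁,
    sqgtp_comap_isMaximal H.two.le₂ φ hφP (ssgi_surj₂ H) hmax hon₂, ?_, ?_⟩
  · rw [sqgtp_mem_comap]
    have e : (⟨α (sskPi ϖ t₀ : ↥(s18tInt A t₀)), hαP _ (sskPi ϖ t₀).2⟩ : ↥(s18tInt A t₁)) =
        sskPi ϖ t₁ := Subtype.ext (H.level.compat ϖ)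
    rw [e]
    exact hϖ𝔫
  · rw [sqgtp_mem_comap]
    have e : (⟨φ (sskPi ϖ t₀ : ↥(s18tInt A t₀)), hφP _ (sskPi ϖ t₀).2⟩ : ↥(s18tInt A t₁)) =
        sskPi ϖ t₁ := Subtype.ext (H.φ_compat ϖ)
    rw [e]
    exact hϖ𝔫

/-- the vertical part of (K), abstractly : `v₁ g = 1`, `v₂ (q² g) = 1`, `ϖ = q c₀` with `c₀` a unit
of `A` ⟹ `g ∈ W₁ˣ`, `ϖ² g ∈ W₂ˣ`. -/
theorem sqgtc_vert_abs (hϖ0 : ϖ ≠ 0) (c₀ c : A) (hc₀ : ((q : ℕ) : A) * c₀ = ϖ)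
    (hcq : ((q : ℕ) : A) = ϖ * c) (hconst : ∀ x : A, algebraMap A F₁ x ∈ W₂) (g : F₁)
    (hv₁ : W₁.valuation g = 1) (hv₂ : W₂.valuation (((q : ℕ) : F₁) ^ 2 * g) = 1) :
    g ≠ 0 ∧ g ∈ W₁ ∧ g⁻¹ ∈ W₁ ∧ algebraMap A F₁ ϖ ^ 2 * g ∈ W₂ ∧
      (algebraMap A F₁ ϖ ^ 2 * g)⁻¹ ∈ W₂ := by
  have hg0 : g ≠ 0 := by
    intro h0
    rw [h0, map_zero] at hv₁
    exact zero_ne_one hv₁
  have hcc₀ : c * c₀ = 1 := by
    have h1 : ϖ * (c * c₀) = ϖ * 1 := by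
      rw [mul_one, ← mul_assoc, ← hcq, hc₀]
    exact mul_left_cancel₀ hϖ0 h1
  have hc₀v : W₂.valuation (algebraMap A F₁ c₀) = 1 := by
    have h1 : algebraMap A F₁ c * algebraMap A F₁ c₀ = 1 := by
      rw [← map_mul, hcc₀, map_one]
    have h0 : algebraMap A F₁ c₀ ≠ 0 := right_ne_zero_of_mul_eq_one h1
    refine sqgv_val_eq_one _ h0 (hconst c₀) ?_
    rw [← eq_inv_of_mul_eq_one_left h1]
    exact hconst c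
  have hϖq : algebraMap A F₁ ϖ = ((q : ℕ) : F₁) * algebraMap A F₁ c₀ := by
    rw [← hc₀, map_mul, map_natCast]
  have hv₂' : W₂.valuation (algebraMap A F₁ ϖ ^ 2 * g) = 1 := by
    have e : algebraMap A F₁ ϖ ^ 2 * g =
        algebraMap A F₁ c₀ ^ 2 * (((q : ℕ) : F₁) ^ 2 * g) := by
      rw [hϖq]; ring
    rw [e, map_mul, map_pow, hc₀v, one_pow, one_mul]
    exact hv₂
  exact ⟨hg0, (sqgtc_mem_of_val_one hv₁).1, (sqgtc_mem_of_val_one hv₁).2,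
    (sqgtc_mem_of_val_one hv₂').1, (sqgtc_mem_of_val_one hv₂').2⟩

/-- the `D`-identity modulo `𝔪_{W₁}`, abstractly : `u = φ π' - (α a)^q ∈ 𝔪_{W₁}`,
`Dt = u / ϖ ≡ α Δ₀`, and the congruence `hcongr` (helper3's `sqgvGxy_congr`). -/
theorem sqgtc_ident_abs {O₁ : Subring F₁} (hO₁ : ∀ x, x ∈ W₁ ↔ x ∈ O₁)
    (hunif₁ : S18IsUnif W₁ (algebraMap A F₁ ϖ)) (hϖ0 : algebraMap A F₁ ϖ ≠ 0)
    {O₀ : Subring F₀} (res₁ : ∀ x ∈ W₁, ∃ r ∈ O₀, x - α r ∈ W₁.nonunits)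
    {u : F₁} (hu : u ∈ W₁.nonunits) {g : F₁} (Φ : F₀ → F₀)
    (hcongr : ∀ Dt : F₁, algebraMap A F₁ ϖ * Dt = u → ∀ (Δ₀ : F₀) (y : F₁), y ∈ O₁ →
      Dt - α Δ₀ = algebraMap A F₁ ϖ * y → ∃ z ∈ O₁, g - α (Φ Δ₀) = algebraMap A F₁ ϖ * z) :
    ∃ Δ₀ ∈ O₀, g - α (Φ Δ₀) ∈ W₁.nonunits := by
  have hDtV : u / algebraMap A F₁ ϖ ∈ W₁ := sqgtc_div_unif hunif₁ hϖ0 hu
  obtain ⟨Δ₀, hΔ₀, hΔ⟩ := res₁ _ hDtV
  have hyV : (u / algebraMap A F₁ ϖ - α Δ₀) / algebraMap A F₁ ϖ ∈ W₁ :=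
    sqgtc_div_unif hunif₁ hϖ0 hΔ
  obtain ⟨z, hz, hzeq⟩ := hcongr (u / algebraMap A F₁ ϖ) (mul_div_cancel₀ _ hϖ0) Δ₀ _
    ((hO₁ _).mp hyV) (mul_div_cancel₀ _ hϖ0).symm
  refine ⟨Δ₀, hΔ₀, ?_⟩
  rw [hzeq]
  exact sqgtc_mul_mem_nonunits hunif₁.1 ((hO₁ z).mpr hz)

/-- the constructor of `SqgtpKD` for `γ = g⁻¹`, `ε = (ϖ² g)⁻¹` -/
theorem sqgtc_KD_mk {hϖ : Irreducible ϖ} {𝔰 : Ideal ↥(s18tInt A t₀)} [𝔰.IsPrime]
    {p : ↥(s18tInt A t₀)} {d : F₀ → F₀} {g : F₁} {b₀ D₀ : F₀}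
    (hcart : SqgcaHyp (s18tIntLoc A t₀ (C ϖ) (s18t_prime_C hϖ)) (ssLocRing t₀ 𝔰)
      (algebraMap A F₀ ϖ) (p : F₀) q d)
    (hϖ0 : algebraMap A F₁ ϖ ≠ 0)
    (hv : g ≠ 0 ∧ g ∈ W₁ ∧ g⁻¹ ∈ W₁ ∧ algebraMap A F₁ ϖ ^ 2 * g ∈ W₂ ∧
      (algebraMap A F₁ ϖ ^ 2 * g)⁻¹ ∈ W₂)
    (hhor : SqgciHor L t₁ 𝔫₁ g ∧ SqgciHor L t₁ 𝔫₁ g⁻¹)
    (hb₀ : b₀ ∈ ssLocRing t₀ 𝔰) (hD₀ : D₀ ∈ s18tIntLoc A t₀ (C ϖ) (s18t_prime_C hϖ))
    (hdD₀ : d D₀ ∈ s18tIntLoc A t₀ (C ϖ) (s18t_prime_C hϖ))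
    (hid : g - α (b₀ + d D₀) ∈ W₁.nonunits) :
    SqgtpKD L hϖ t₀ t₁ α W₁ W₂ q 𝔫₁ 𝔰 p d g⁻¹ (algebraMap A F₁ ϖ ^ 2 * g)⁻¹ b₀ D₀ := by
  obtain ⟨hg0, hg₁, hg₁i, hε₂, hε₂i⟩ := hv
  refine ⟨hcart, inv_ne_zero hg0, hg₁i, ?_, hε₂i, ?_, ?_, hhor.2, ?_, hb₀, hD₀, hdD₀, ?_⟩
  · rw [inv_inv]; exact hg₁
  · rw [inv_inv]; exact hε₂
  · rw [mul_inv, ← mul_assoc, mul_inv_cancel₀ (pow_ne_zero 2 hϖ0), one_mul]
  · rw [inv_inv]; exact hhor.1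
  · rw [inv_inv]; exact hid

/-- **a witness of `W₁ ≠ W₂` inside `P₁`** : `u = b(t₁) u₂` for the second crossing function `u₂`
of `SsvTwo`. -/
theorem sqgtc_sep (hϖ : Irreducible ϖ) (ht₁ : Transcendental L t₁) {u₁ u₂ : F₁}
    (h2 : SsvTwo hϖ t₁ u₁ u₂ W₁ W₂) :
    ∃ u ∈ s18tInt A t₁, u ∈ W₂.nonunits ∧ u ∉ W₁.nonunits := by
  have hu₂V₂ : u₂ ∈ W₂ := W₂.nonunits_le h2.mem₂
  have hu₂V₁ : u₂ ∈ W₁ := (sqgtc_mem_of_val_one h2.unit₂).1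
  have hu₂O : u₂ ∈ s18tIntLoc A t₁ (C ϖ) (s18t_prime_C hϖ) := (h2.mem_iff u₂).mpr ⟨hu₂V₁, hu₂V₂⟩
  obtain ⟨b, hb, hbu⟩ := (s18t_intLoc_iff hϖ t₁ u₂).mp hu₂O
  have hbP : aeval t₁ b ∈ s18tInt A t₁ := s18tc_chart_le_int t₁ (s18tb_aeval_mem_chart t₁ b)
  have hbV : ∀ x, x ∈ s18tInt A t₁ → x ∈ W₁ ∧ x ∈ W₂ := fun x hx =>
    (h2.mem_iff x).mp (ssga_int_le_intLoc hϖ t₁ hx)
  refine ⟨aeval t₁ b * u₂, hbu, ?_, ?_⟩
  · rw [mul_comm]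
    exact sqgtc_mul_mem_nonunits h2.mem₂ (hbV _ hbP).2
  · intro hnu
    have hb1 : aeval t₁ b ∉ W₁.nonunits :=
      sqgci_aeval_not_nonunits hϖ ht₁ W₁ (fun x hx => ((h2.mem_iff x).mp hx).1) hb
    apply hb1
    rw [W₁.mem_nonunits_iff] at hnu ⊢
    rw [map_mul, h2.unit₂, mul_one] at hnu
    exact hnu

end Abs

/-! ### `α₁⁻¹ W₁ ⊆ O₀` -/

section AlphaO

variable {A₀ : Type*} [CommRing A₀] [IsDomain A₀] [IsDiscreteValuationRing A₀] [CharZero A₀]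
variable {L₀ : Type*} [Field L₀] [Algebra A₀ L₀] [IsFractionRing A₀ L₀] [CharZero L₀]
variable {ϖ : A₀}

/-- an element of `F` whose image under `α` lies in a valuation ring `W₁ ∋ ϖ` (non-unit) containing
`α O₀` lies in the Gauss ring `O₀`. -/
theorem sqgtc_alphaO (hϖ : Irreducible ϖ) (F : IntermediateField L₀ (LaurentSeries L₀))
    (hF : S18VGen A₀ F) {F₁ : Type*} [Field F₁] [Algebra A₀ F₁] (α : ↥F →+* F₁)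
    (hα : ∀ a : A₀, α (algebraMap A₀ ↥F a) = algebraMap A₀ F₁ a) (W₁ : ValuationSubring F₁)
    (hϖW : algebraMap A₀ F₁ ϖ ∈ W₁.nonunits) (gauss₁ : ∀ x ∈ s18vO A₀ F, α x ∈ W₁) :
    ∀ x : ↥F, α x ∈ W₁ → x ∈ s18vO A₀ F := by
  intro x hx
  by_cases hx0 : x = 0
  · rw [hx0]; exact Subring.zero_mem _
  rcases s18v_mem_or_inv_mem hϖ F hF x with h1 | h1
  · exact h1
  rcases s18v_dvd_or_inv_mem hϖ F x⁻¹ h1 with ⟨y, hy, hxy⟩ | h2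
  · exfalso
    have h1' : α x * (algebraMap A₀ F₁ ϖ * α y) = 1 := by
      rw [← hα, ← map_mul, ← map_mul, ← hxy, mul_inv_cancel₀ hx0, map_one]
    have hnu : α x * (algebraMap A₀ F₁ ϖ * α y) ∈ W₁.nonunits := by
      have e : α x * (algebraMap A₀ F₁ ϖ * α y) = algebraMap A₀ F₁ ϖ * (α x * α y) := by ring
      rw [e]
      exact sqgtc_mul_mem_nonunits hϖW (W₁.mul_mem _ _ hx (gauss₁ y hy))
    rw [h1', W₁.mem_nonunits_iff, map_one] at hnu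
    exact lt_irrefl _ hnu
  · rw [inv_inv] at h2
    exact h2

end AlphaO

end Fermat.Agent.SQ
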