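import Mathlib
import Fermat.Agent.SQ.Germ.CrossPar

/-!
# Program Q, R1 (thickness one) : THE CONCRETE TOP OF THE (T1) CHAIN (prefix `sqgtc`)

Level `M` (`q ∤ M`) and level `M q` over one number field `E`, `A₀ = 𝔸 ∩ E`, chart coordinate
`s ∈ F_E(M)` (`S18Coord`, `GrdfbHyp`), `t₁ = α₁ s`, `W_i = h.V_i` for a witness `h` of `ssvmm_amb`.

* `sqgtc_vert` : the vertical part of (K) for `g = g_{p,π'}` (helper3's `sqgvGxy_val`);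
* `sqgtc_identV` : the `D`-identity modulo `𝔪_{W₁}` (helper3's `sqgvGxy_congr`);
* `sqgtc_KD` : the concrete input `SqgtpKD` of `sqgtp_hT1` for `γ = g_{p,π'}⁻¹`, with the
  horizontal part of (K) as a named hypothesis;
* `sqgtc_hT1` : **the hypothesis `hT1` of `sqgin_loc0`** (helper9).
-/

set_option autoImplicit false
set_option linter.unusedSectionVars false
set_option linter.unusedVariables false
set_option linter.style.haveILetI false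

noncomputable section

namespace Fermat.Agent.SQ

open Polynomial ModularCurve AlgebraicCurve IntermediateField IsLocalRing Fermat.Agent.S18
  Fermat.Agent.SS Fermat.Agent.G

local notation "Qb" => AlgebraicClosure ℚ

/-! ### the concrete input at a crossing point -/

section Conc

variable {q : ℕ} [Fact q.Prime] [NeZero q] (𝔸 : ValuationSubring Qb) (E : IntermediateField ℚ Qb)
  [IsDiscreteValuationRing ↥(s18dVal 𝔸 E)] [CharZero ↥(s18dVal 𝔸 E)] (M : ℕ) [NeZero M]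
variable {ϖ : ↥(s18dVal 𝔸 E)} {Ξ G : (↥(ssvmmR 𝔸 E M q))[X]}
  (h : SsvAmb (ssvmmR 𝔸 E M q) (ssvmgRUnif (ssvmm_le E M q) ϖ) (ssvmmY E M q) Ξ
    (X - C (ssvmmJ 𝔸 E M q ^ q)) (X ^ q - C (ssvmmJ 𝔸 E M q)) G)

set_option quotPrecheck false in
local notation "R₀" => ↥(s18dVal 𝔸 E)
set_option quotPrecheck false in
local notation "F₀" => ↥(modularFunctionFieldFullC E M)
set_option quotPrecheck false in
local notation "F₁" => ↥(modularFunctionFieldFullC E (M * q))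
set_option quotPrecheck false in
local notation "α₁" => ((ssvmdIncl E M q : modularFunctionFieldFullC E M →ₐ[E]
  modularFunctionFieldFullC E (M * q)) : modularFunctionFieldFullC E M →+*
  modularFunctionFieldFullC E (M * q))
set_option quotPrecheck false in
local notation "φ₁" => ssvmfPhi E M q


/-- **the vertical part of (K)** for `g = g_{x,x'}` : `g ∈ W₁ˣ`, `ϖ² g ∈ W₂ˣ`. -/
theorem sqgtc_vert (hA : 𝔸.LiesOverPrime q) (hqM : ¬ q ∣ M) (hϖ : Irreducible ϖ)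
    (c₀ c : R₀) (hc₀ : ((q : ℕ) : R₀) * c₀ = ϖ) (hcq : ((q : ℕ) : R₀) = ϖ * c)
    (hconst : ∀ x : R₀, algebraMap R₀ F₁ x ∈ h.V₂)
    (x x' : F₀) (hx : x ∈ s18vO R₀ (modularFunctionFieldFullC E M))
    (hx' : x' ∈ s18vO R₀ (modularFunctionFieldFullC E M))
    (hθ : sqvtTheta (ResidueField R₀) (s18vcRed (modularFunctionFieldFullC E M) ⟨x, hx⟩) ≠ 0)
    (hθ' : sqvtTheta (ResidueField R₀) (s18vcRed (modularFunctionFieldFullC E M) ⟨x', hx'⟩) ≠ 0) :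
    sqgvGxy E M q x x' ≠ 0 ∧ sqgvGxy E M q x x' ∈ h.V₁ ∧ (sqgvGxy E M q x x')⁻¹ ∈ h.V₁ ∧
      algebraMap R₀ F₁ ϖ ^ 2 * sqgvGxy E M q x x' ∈ h.V₂ ∧
      (algebraMap R₀ F₁ ϖ ^ 2 * sqgvGxy E M q x x')⁻¹ ∈ h.V₂ :=
  sqgtc_vert_abs (W₁ := h.V₁) (W₂ := h.V₂) hϖ.ne_zero c₀ c hc₀ hcq hconst (sqgvGxy E M q x x')
    (sqgvGxy_val 𝔸 E M hA hqM hϖ Ξ G h x x' hx hx' hθ hθ').1
    (sqgvGxy_val 𝔸 E M hA hqM hϖ Ξ G h x x' hx hx' hθ hθ').2.1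

/-- **the `D`-identity modulo `𝔪_{W₁}`** : for `φ₁ x' ≡ (α₁ a)^q` modulo `𝔪_{W₁}` there is
`Δ₀ ∈ O₀` with `g_{x,x'} ≡ α₁ (a^(q-1) ∂_x a + ∂_x (c₀ Δ₀))` modulo `𝔪_{W₁}`. -/
theorem sqgtc_identV (hA : 𝔸.LiesOverPrime q) (hϖ : Irreducible ϖ)
    (c₀ : R₀) (hc₀ : ((q : ℕ) : R₀) * c₀ = ϖ)
    (hunif₁ : S18IsUnif h.V₁ (algebraMap R₀ F₁ ϖ))
    {O₀ : Subring F₀} (res₁ : ∀ x ∈ h.V₁, ∃ r ∈ O₀, x - α₁ r ∈ h.V₁.nonunits)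
    (x x' a : F₀) (hx : x ∈ s18vO R₀ (modularFunctionFieldFullC E M))
    (hθ : sqvtTheta (ResidueField R₀) (s18vcRed (modularFunctionFieldFullC E M) ⟨x, hx⟩) ≠ 0)
    (hfrob : φ₁ x' - α₁ a ^ q ∈ h.V₁.nonunits) :
    ∃ Δ₀ ∈ O₀, sqgvGxy E M q x x' - α₁ (a ^ (q - 1) * sqgdeDp (sqgtcDer R₀ (↥E) M) x a +
      sqgdeDp (sqgtcDer R₀ (↥E) M) x (algebraMap R₀ F₀ c₀ * Δ₀)) ∈ h.V₁.nonunits :=
  sqgtc_ident_abs (A := R₀) (W₁ := h.V₁) (α := α₁)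
    (O₁ := s18vO R₀ (modularFunctionFieldFullC E (M * q)))
    (fun y => (ssvma_mem₁_iff 𝔸 E M hA hϖ Ξ G h y).1) hunif₁ (sqga_pi_ne_zero (↥E) hϖ) res₁ hfrob
    (fun Δ₀ => a ^ (q - 1) * sqgdeDp (sqgtcDer R₀ (↥E) M) x a +
      sqgdeDp (sqgtcDer R₀ (↥E) M) x (algebraMap R₀ F₀ c₀ * Δ₀))
    (fun Dt hDt Δ₀ y hy hDΔ =>
      sqgtc_ident (A₀ := R₀) (L₀ := ↥E) M q hϖ c₀ hc₀ x x' a hx hθ Dt hDt Δ₀ y hy hDΔ)

set_option maxHeartbeats 1000000 in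
/-- **THE CONCRETE INPUT `SqgtpKD`** at a closed point `𝔫₁` of level `M q` on both components, for
parameters `(p, π', a)` : `d = ∂_p`, `γ = g_{p,π'}⁻¹`, `ε = γ / ϖ²`, `b₀ = a^(q-1) ∂_p a`,
`D₀ = c₀ Δ₀`; the horizontal part of (K) is the hypothesis `hhor` (helper15's (K-x)). -/
theorem sqgtc_KD (hA : 𝔸.LiesOverPrime q) (hqM : ¬ q ∣ M) (hϖ : Irreducible ϖ)
    (c₀ : R₀) (hc₀ : ((q : ℕ) : R₀) * c₀ = ϖ)
    (s : F₀) (hc : S18Coord hϖ (modularFunctionFieldFullC E M) s) (hgood : GrdfbHyp hϖ s)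
    (hsO : s ∈ s18vO R₀ (modularFunctionFieldFullC E M))
    (hθs : sqvtTheta (ResidueField R₀)
      (s18vcRed (modularFunctionFieldFullC E M) ⟨s, hsO⟩) ≠ 0)
    (H : SsgiHyp hϖ (RingHom.id R₀) α₁ φ₁ ϖ s (ssvmdIncl E M q s) h.V₁ h.V₂ q)
    (hαP : ∀ b ∈ s18tInt R₀ s, α₁ b ∈ s18tInt R₀ (ssvmdIncl E M q s))
    (hφP : ∀ b ∈ s18tInt R₀ s, φ₁ b ∈ s18tInt R₀ (ssvmdIncl E M q s))
    (hunif₁ : S18IsUnif h.V₁ (algebraMap R₀ F₁ ϖ))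
    {𝔫₁ : Ideal ↥(s18tInt R₀ (ssvmdIncl E M q s))} (hmax : 𝔫₁.IsMaximal)
    (hon₁ : SqgaOn (ssvmdIncl E M q s) 𝔫₁ h.V₁) (hon₂ : SqgaOn (ssvmdIncl E M q s) 𝔫₁ h.V₂)
    {p π' a : ↥(s18tInt R₀ s)}
    (P : SqgtpParams ϖ s (ssvmdIncl E M q s) α₁ φ₁ h.V₁ q 𝔫₁ hαP hφP p π' a)
    (hhor : SqgciHor E (ssvmdIncl E M q s) 𝔫₁ (sqgvGxy E M q (p : F₀) (π' : F₀)) ∧
      SqgciHor E (ssvmdIncl E M q s) 𝔫₁ (sqgvGxy E M q (p : F₀) (π' : F₀))⁻¹) :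
    ∃ (d : F₀ → F₀) (γ ε : F₁) (b₀ D₀ : F₀), haveI := hmax.isPrime
      SqgtpKD E hϖ s (ssvmdIncl E M q s) α₁ h.V₁ h.V₂ q 𝔫₁ (𝔫₁.comap (sqgtpMap α₁ hαP)) p d γ ε
        b₀ D₀ := by
  haveI h𝔫₁ : 𝔫₁.IsPrime := hmax.isPrime
  have hq : q.Prime := Fact.out
  have hpts := sqgtc_points H hαP hφP hmax hon₁ hon₂
  have hmaxα : (𝔫₁.comap (sqgtpMap α₁ hαP)).IsMaximal := hpts.1
  have hmaxφ : (𝔫₁.comap (sqgtpMap φ₁ hφP)).IsMaximal := hpts.2.1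
  have hϖα : sskPi ϖ s ∈ 𝔫₁.comap (sqgtpMap α₁ hαP) := hpts.2.2.1
  have hϖφ : sskPi ϖ s ∈ 𝔫₁.comap (sqgtpMap φ₁ hφP) := hpts.2.2.2
  have hchar : ∃ c : R₀, ((q : ℕ) : R₀) = ϖ * c := H.hchar
  obtain ⟨c, hcq⟩ := hchar
  have hqϖ : ϖ ∣ ((q : ℕ) : R₀) := ⟨c, hcq⟩
  -- the Cartier packages at `(𝔰, p)` and `(𝔰', π')`
  have hperfα := fun x => sqgpf_exists_pow_dVal (q := q) 𝔸 E hA hϖ s
    (𝔫₁.comap (sqgtpMap α₁ hαP)) (h𝔫 := hmaxα) hϖα x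
  have hperfφ := fun x => sqgpf_exists_pow_dVal (q := q) 𝔸 E hA hϖ s
    (𝔫₁.comap (sqgtpMap φ₁ hφP)) (h𝔫 := hmaxφ) hϖφ x
  have Kp := sqgtc_param (A₀ := R₀) (L₀ := ↥E) M hϖ s hc hgood hsO hθs
    (𝔫₁.comap (sqgtpMap α₁ hαP)) hϖα p P.p_mem (fun x hx => P.p_gen x hx) q hq.ne_zero hqϖ hperfα
  have Kπ := sqgtc_param (A₀ := R₀) (L₀ := ↥E) M hϖ s hc hgood hsO hθs
    (𝔫₁.comap (sqgtpMap φ₁ hφP)) hϖφ π' P.π_mem (fun x hx => P.π_gen x hx) q hq.ne_zero hqϖ hperfφ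
  obtain ⟨hcart, hstab, hgauss, hpO, hθp⟩ := Kp
  obtain ⟨-, -, -, hπO, hθπ⟩ := Kπ
  -- the vertical part of (K)
  have hconst : ∀ x : R₀, algebraMap R₀ F₁ x ∈ h.V₂ := fun x =>
    H.two.le₂ _ (s18tc_algebraMap_mem_int _ x)
  have hv := sqgtc_vert 𝔸 E M h hA hqM hϖ c₀ c hc₀ hcq hconst (p : F₀) (π' : F₀) hpO hπO hθp hθπ
  -- the `D`-identity
  have hid := sqgtc_identV 𝔸 E M h hA hϖ c₀ hc₀ hunif₁ H.res₁ (p : F₀) (π' : F₀) (a : F₀) hpO hθp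
    P.frob
  obtain ⟨Δ₀, hΔ₀, hΔ⟩ := hid
  have hc₀O : algebraMap R₀ F₀ c₀ * Δ₀ ∈ s18tIntLoc R₀ s (C ϖ) (s18t_prime_C hϖ) :=
    Subring.mul_mem _ (s18tInt_le_intLoc hϖ s (s18tc_algebraMap_mem_int s c₀)) hΔ₀
  exact ⟨sqgdeDp (sqgtcDer R₀ (↥E) M) (p : F₀), _, _,
    (a : F₀) ^ (q - 1) * sqgdeDp (sqgtcDer R₀ (↥E) M) (p : F₀) (a : F₀),
    algebraMap R₀ F₀ c₀ * Δ₀,
    sqgtc_KD_mk hcart (sqga_pi_ne_zero (↥E) hϖ) hv hhor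
      (Subring.mul_mem _ (Subring.pow_mem _ (ssl_int_le_locRing s _ a.2) _)
        (hstab _ (ssl_int_le_locRing s _ a.2)))
      hc₀O (hgauss _ hc₀O) hΔ⟩

set_option maxHeartbeats 2000000 in
/-- **THE LEVEL-`q` INPUT `SsgiHyp` FOR A GIVEN WITNESS `h`** (the body of `ssgms_single`). -/
theorem sqgtc_hyp (hA : 𝔸.LiesOverPrime q) (hqM : ¬ q ∣ M) (hϖ : Irreducible ϖ)
    (s : F₀) (ht₁ : Transcendental E (ssvmdIncl E M q s))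
    [FiniteDimensional E⟮ssvmdIncl E M q s⟯ (modularFunctionFieldFullC E (M * q))]
    (υ : LaurentSeries ℤ) (hυ : ((s : modularFunctionFieldFullC E M) : LaurentSeries E) = grdSer υ E)
    (hc : S18Coord hϖ (modularFunctionFieldFullC E M) s) (hgood : GrdfbHyp hϖ s)
    {u₁ u₂ : F₁} (hTwo : SsvTwo hϖ (ssvmdIncl E M q s) u₁ u₂ h.V₁ h.V₂) :
    SsgiHyp hϖ (RingHom.id R₀) α₁ φ₁ ϖ s (ssvmdIncl E M q s) h.V₁ h.V₂ q := by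
  have hchar : ∃ c : R₀, ((q : ℕ) : R₀) = ϖ * c := by
    have h1 := s18d_natCast_mem 𝔸 E hA
    rw [hϖ.maximalIdeal_eq, Ideal.mem_span_singleton] at h1
    exact h1
  refine
    { hq := Fact.out
      level := ⟨fun a => ?_, rfl, ⟨1, by rw [RingHom.id_apply, mul_one]⟩⟩
      φ_compat := fun a => ?_
      two := ssga_two_of_ssvTwo hϖ (ssvmdIncl E M q s) ht₁ hTwo
      good := hgood
      gauss₁ := ssgmr_gauss₁_coord 𝔸 E M h hϖ s hc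
      gauss₂ := ssgmr_gauss₂_coord 𝔸 E M h hϖ s hc
      φ_mem₂ := fun x hx =>
        ssvmf_phi_mem₂ 𝔸 E M hA hqM hϖ Ξ G h x (ssgfl_int_le_vO _ hϖ s hc hx)
      hres := fun a => ⟨a, 0, by rw [RingHom.id_apply, mul_zero, add_zero]⟩
      hchar := hchar
      res₁ := ssgmr_res₁_coord 𝔸 E M h hϖ s hc
      res₂ := ssgmr_res₂_coord 𝔸 E M h hA hϖ s hc
      frob₁ := fun b hb => ssgmf_frob₁_int 𝔸 E M hA hqM hϖ Ξ G h υ s hυ hc hgood hb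
      frob₂ := fun b hb => ssgmf_frob₂_int 𝔸 E M hA hqM hϖ Ξ G h υ s hυ hc hgood hb }
  · rw [RingHom.id_apply,
      IsScalarTower.algebraMap_apply R₀ E (modularFunctionFieldFullC E M),
      IsScalarTower.algebraMap_apply R₀ E (modularFunctionFieldFullC E (M * q))]
    exact (ssvmdIncl E M q).commutes _
  · rw [RingHom.id_apply,
      IsScalarTower.algebraMap_apply R₀ E (modularFunctionFieldFullC E M),
      IsScalarTower.algebraMap_apply R₀ E (modularFunctionFieldFullC E (M * q))]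
    exact ssgq_phi_algebraMap E M q _

set_option maxHeartbeats 2000000 in
/-- **THE HYPOTHESIS `hT1` OF `sqgin_loc0`**, chart-generic : every prime of `P₁` on both components
is a node of thickness one.  The horizontal part of (K) is the named hypothesis `hhor` (helper15's
`sqgkx_sqgkHor`). -/
theorem sqgtc_hT1 (hA : 𝔸.LiesOverPrime q) (hqM : ¬ q ∣ M) (hϖ : Irreducible ϖ)
    (c₀ : R₀) (hc₀ : ((q : ℕ) : R₀) * c₀ = ϖ)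
    (s : F₀) (hc : S18Coord hϖ (modularFunctionFieldFullC E M) s) (hgood : GrdfbHyp hϖ s)
    (hsO : s ∈ s18vO R₀ (modularFunctionFieldFullC E M))
    (hθs : sqvtTheta (ResidueField R₀)
      (s18vcRed (modularFunctionFieldFullC E M) ⟨s, hsO⟩) ≠ 0)
    (ht₁ : Transcendental E (ssvmdIncl E M q s))
    [FiniteDimensional E⟮ssvmdIncl E M q s⟯ (modularFunctionFieldFullC E (M * q))]
    (H : SsgiHyp hϖ (RingHom.id R₀) α₁ φ₁ ϖ s (ssvmdIncl E M q s) h.V₁ h.V₂ q)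
    {u₁ u₂ : F₁} (hTwo : SsvTwo hϖ (ssvmdIncl E M q s) u₁ u₂ h.V₁ h.V₂)
    (hαP : ∀ b ∈ s18tInt R₀ s, α₁ b ∈ s18tInt R₀ (ssvmdIncl E M q s))
    (hφP : ∀ b ∈ s18tInt R₀ s, φ₁ b ∈ s18tInt R₀ (ssvmdIncl E M q s))
    (hhor : ∀ 𝔫₁ : Ideal ↥(s18tInt R₀ (ssvmdIncl E M q s)), 𝔫₁.IsMaximal →
      SqgaOn (ssvmdIncl E M q s) 𝔫₁ h.V₁ → SqgaOn (ssvmdIncl E M q s) 𝔫₁ h.V₂ →
      ∀ p π' a : ↥(s18tInt R₀ s),
        SqgtpParams ϖ s (ssvmdIncl E M q s) α₁ φ₁ h.V₁ q 𝔫₁ hαP hφP p π' a →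
        SqgciHor E (ssvmdIncl E M q s) 𝔫₁ (sqgvGxy E M q (p : F₀) (π' : F₀)) ∧
          SqgciHor E (ssvmdIncl E M q s) 𝔫₁ (sqgvGxy E M q (p : F₀) (π' : F₀))⁻¹) :
    ∀ 𝔫₁ : Ideal ↥(s18tInt R₀ (ssvmdIncl E M q s)), 𝔫₁.IsPrime →
      SqgaOn (ssvmdIncl E M q s) 𝔫₁ h.V₁ → SqgaOn (ssvmdIncl E M q s) 𝔫₁ h.V₂ →
      SqgaNode ϖ (ssvmdIncl E M q s) h.V₁ h.V₂ 𝔫₁ := by
  haveI := hc.fin
  have hαO : ∀ x : F₀, α₁ x ∈ h.V₁ → x ∈ s18tIntLoc R₀ s (C ϖ) (s18t_prime_C hϖ) := by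
    intro x hx
    rw [hc.intLoc_eq]
    refine sqgtc_alphaO hϖ (modularFunctionFieldFullC E M) (s18v_gen_full M) α₁
      (fun a => H.level.compat a) h.V₁ H.two.unif₁ (fun y hy => H.gauss₁ y ?_) x hx
    rw [hc.intLoc_eq]
    exact hy
  exact sqgtp_hT1 (L := ↥E) H hαP hφP hc.transc ht₁ hTwo.mem_iff hαO hTwo.unif₁
    (sqgtc_sep hϖ ht₁ hTwo)
    (fun 𝔫₁ hmax hon₁ hon₂ p π' a P =>
      sqgtc_KD 𝔸 E M h hA hqM hϖ c₀ hc₀ s hc hgood hsO hθs H hαP hφP hTwo.unif₁ hmax hon₁ hon₂ P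
        (hhor 𝔫₁ hmax hon₁ hon₂ p π' a P))

end Conc

end Fermat.Agent.SQ
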