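import Mathlib
import Fermat.Agent.SQ.Descend.Unram
import Fermat.Agent.SS.Dict.Place
import Fermat.Agent.SS.Dict.Descend

/-!
# Program Q (S36), (CFE) : THE CONSTANT FIELD EXTENSION `F_ℚ̄(N) / F_E(N)` IS UNRAMIFIED
(prefix `sqgce`)

`E ≤ E'` number fields in `ℚ̄`, `ι = sqgceIota h N : F_E(N) →+* F_{E'}(N)` coefficientwise.

* `sqgce_exists_primitive`, `sqgce_gen` : `E' = E[θ]`, `F_{E'}(N) = ι(F_E(N))[θ]`;
* `sqgce_restrict_fin` : a place `R₁` of `F_{E'}(N)` restricts to a place `R₀` of `F_E(N)` with
  `ord_{R₁} (ι x) = ord_{R₀} x` (`sqdu_unram`);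
* **`sqgce_ord_up`** : `R'` a place of `F_ℚ̄(N)`, `R` the place `R' ∩ F_E(N)` of `F_E(N)` :
  `ord_{R'} (ssdUp E N x) = ord_R x` (`r = 1` in main's `ssd_restrict`);
* `sqgce_restrict` : the form `∃ R, …` ; `sqgce_unif_up` : uniformisers stay uniformisers.
-/

set_option autoImplicit false
set_option linter.unusedSectionVars false
set_option linter.unusedVariables false
set_option linter.style.haveILetI false
set_option synthInstance.maxHeartbeats 400000

noncomputable section

namespace Fermat.Agent.SQ

open Polynomial ModularCurve AlgebraicCurve IntermediateField Fermat.Agent.S18 Fermat.Agent.SS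
  Fermat.Agent.S24

local notation "Qb" => AlgebraicClosure ℚ

variable {E E' : IntermediateField ℚ Qb} (h : E ≤ E')

/-- the inclusion `E → E'` -/
def sqgceIncl : E →+* E' := (IntermediateField.inclusion h).toRingHom

theorem sqgceIncl_coe (x : E) : ((sqgceIncl h x : E') : Qb) = (x : Qb) := rfl

/-- `E' = E[θ]` with `θ` a root of a monic separable polynomial over `E`. -/
theorem sqgce_exists_primitive [FiniteDimensional ℚ E'] :
    ∃ (θ : E') (p : E[X]), p.Monic ∧ p.Separable ∧
      p.eval₂ (sqgceIncl h) θ = 0 ∧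
      ∀ x : E', ∃ P : E[X], x = P.eval₂ (sqgceIncl h) θ := by
  letI : Algebra E E' := (sqgceIncl h).toAlgebra
  haveI : IsScalarTower ℚ E E' := IsScalarTower.of_algebraMap_eq fun x => rfl
  haveI : FiniteDimensional E E' := Module.Finite.of_restrictScalars_finite ℚ _ _
  obtain ⟨θ, hθ⟩ := Field.exists_primitive_element E E'
  have hint : IsIntegral E θ := Algebra.IsIntegral.isIntegral θ
  refine ⟨θ, minpoly E θ, minpoly.monic hint,
    Algebra.IsSeparable.isSeparable E θ, ?_, fun x => ?_⟩
  · have := minpoly.aeval E θ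
    rwa [aeval_def] at this
  · have hx : x ∈ E⟮θ⟯.toSubalgebra := by
      rw [hθ]; exact Algebra.mem_top
    rw [adjoin_simple_toSubalgebra_of_isAlgebraic hint.isAlgebraic,
      Algebra.adjoin_singleton_eq_range_aeval] at hx
    obtain ⟨P, hP⟩ := hx
    refine ⟨P, ?_⟩
    rw [← hP]
    exact aeval_def _ _

variable (N : ℕ)

/-- coefficientwise base change `F_E(N) → F_{E'}(N)` -/
def sqgceIota : modularFunctionFieldFullC E N →+* modularFunctionFieldFullC E' N where
  toFun x := ⟨coeffMap (sqgceIncl h) (x : LaurentSeries E), s18dd_coeffMap_mem_full _ N x.2⟩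
  map_one' := Subtype.ext (map_one (coeffMap (sqgceIncl h)))
  map_mul' x y := Subtype.ext (map_mul (coeffMap (sqgceIncl h)) _ _)
  map_zero' := Subtype.ext (map_zero (coeffMap (sqgceIncl h)))
  map_add' x y := Subtype.ext (map_add (coeffMap (sqgceIncl h)) _ _)

theorem sqgceIota_coe (x : modularFunctionFieldFullC E N) :
    ((sqgceIota h N x : modularFunctionFieldFullC E' N) : LaurentSeries E') =
      coeffMap (sqgceIncl h) (x : LaurentSeries E) := rfl

theorem sqgceIota_algebraMap (c : E) :
    sqgceIota h N (algebraMap E (modularFunctionFieldFullC E N) c) =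
      algebraMap E' (modularFunctionFieldFullC E' N) (sqgceIncl h c) := by
  apply Subtype.ext
  show coeffMap (sqgceIncl h) (algebraMap E (LaurentSeries E) c) =
    algebraMap E' (LaurentSeries E') (sqgceIncl h c)
  rw [s18dd_coeffMap_algebraMap]

variable [NeZero N]

/-- `ssdUp` is compatible with the base change. -/
theorem sqgce_up_iota (x : modularFunctionFieldFullC E N) :
    ssdUp E' N (sqgceIota h N x) = ssdUp E N x := by
  apply Subtype.ext
  rw [coe_ssdUp, coe_ssdUp, sqgceIota_coe]
  exact (s18dd_model_mono N h (x : LaurentSeries E) x.2).2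

/-- the two structure maps to `F_{E'}(N)` agree on `E`. -/
theorem sqgce_comp_eq :
    (sqgceIota h N).comp (algebraMap E (modularFunctionFieldFullC E N)) =
      (algebraMap E' (modularFunctionFieldFullC E' N)).comp (sqgceIncl h) :=
  RingHom.ext fun c => sqgceIota_algebraMap h N c

/-- `F_{E'}(N) = ι(F_E(N))[θ]`. -/
theorem sqgce_gen (θ : E') (p : E[X]) (hpm : p.Monic)
    (hpθ : p.eval₂ (sqgceIncl h) θ = 0)
    (hθ : ∀ x : E', ∃ P : E[X], x = P.eval₂ (sqgceIncl h) θ)
    (y : modularFunctionFieldFullC E' N) :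
    ∃ P : (modularFunctionFieldFullC E N)[X],
      y = P.eval₂ (sqgceIota h N) (algebraMap E' (modularFunctionFieldFullC E' N) θ) := by
  letI : Algebra (modularFunctionFieldFullC E N) (modularFunctionFieldFullC E' N) :=
    (sqgceIota h N).toAlgebra
  obtain ⟨θ', hθ'⟩ : ∃ t, t = algebraMap E' (modularFunctionFieldFullC E' N) θ := ⟨_, rfl⟩
  have hcomp : (algebraMap (modularFunctionFieldFullC E N)
      (modularFunctionFieldFullC E' N)).comp
        (algebraMap E (modularFunctionFieldFullC E N)) =
      (algebraMap E' (modularFunctionFieldFullC E' N)).comp (sqgceIncl h) := sqgce_comp_eq h N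
  have hconst : ∀ P : E[X],
      algebraMap E' (modularFunctionFieldFullC E' N) (P.eval₂ (sqgceIncl h) θ) =
        aeval θ' (P.map (algebraMap E (modularFunctionFieldFullC E N))) := by
    intro P
    rw [aeval_def, eval₂_map, hcomp, Polynomial.hom_eval₂, hθ']
  have hint : IsIntegral (modularFunctionFieldFullC E N) θ' := by
    refine ⟨p.map (algebraMap E (modularFunctionFieldFullC E N)),
      hpm.map _, ?_⟩
    have h' := hconst p
    rw [hpθ, map_zero, aeval_def] at h'
    exact h'.symm
  have hmemθ : ∀ P : (modularFunctionFieldFullC E N)[X],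
      aeval θ' P ∈ (modularFunctionFieldFullC E N)⟮θ'⟯ := by
    intro P
    have h1 : aeval θ' P ∈ Algebra.adjoin (modularFunctionFieldFullC E N) {θ'} :=
      Polynomial.aeval_mem_adjoin_singleton _ _
    exact IntermediateField.algebra_adjoin_le_adjoin _ _ h1
  have key : ∀ z : LaurentSeries E', z ∈ modularFunctionFieldFullC E' N →
      ∃ t ∈ (modularFunctionFieldFullC E N)⟮θ'⟯, (t : LaurentSeries E') = z := by
    intro z hz
    have hz' : z ∈ Subfield.closure
        (Set.range (algebraMap E' (LaurentSeries E')) ∪ divisorExpansionsC E' N) := hz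
    have hle : Subfield.closure
        (Set.range (algebraMap E' (LaurentSeries E')) ∪ divisorExpansionsC E' N) ≤
        ((modularFunctionFieldFullC E N)⟮θ'⟯.toSubfield).map
          ((modularFunctionFieldFullC E' N).val : modularFunctionFieldFullC E' N →+*
            LaurentSeries E') := by
      rw [Subfield.closure_le]
      rintro w (⟨c, rfl⟩ | ⟨d, hd, hdN, rfl⟩)
      · obtain ⟨P, hP⟩ := hθ c
        refine ⟨algebraMap E' (modularFunctionFieldFullC E' N) c, ?_, rfl⟩
        rw [hP, hconst]
        exact hmemθ _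
      · refine ⟨algebraMap (modularFunctionFieldFullC E N)
          (modularFunctionFieldFullC E' N)
          ⟨qExpand E d (jqModC E), jqModCd_mem_full E N hdN⟩,
          IntermediateField.algebraMap_mem _ _, ?_⟩
        show coeffMap (sqgceIncl h) (qExpand E d (jqModC E)) =
          qExpand E' d (jqModC E')
        rw [coeffMap_qExpand, coeffMap_jqModC]
    obtain ⟨t, ht, htz⟩ := hle hz'
    exact ⟨t, ht, htz⟩
  obtain ⟨t, ht, hty⟩ := key y.1 y.2
  have hty' : t = y := Subtype.ext hty
  rw [hty'] at ht
  have hy : y ∈ ((modularFunctionFieldFullC E N)⟮θ'⟯).toSubalgebra := ht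
  rw [adjoin_simple_toSubalgebra_of_isAlgebraic hint.isAlgebraic,
    Algebra.adjoin_singleton_eq_range_aeval] at hy
  obtain ⟨P, hP⟩ := hy
  refine ⟨P, ?_⟩
  rw [← hP, ← hθ']
  exact aeval_def θ' P

/-! ### places -/

/-- `E`-algebra structure on `F_{E'}(N)` through `E'`. -/
abbrev sqgceAlg : Algebra E (modularFunctionFieldFullC E' N) :=
  ((algebraMap E' (modularFunctionFieldFullC E' N)).comp (sqgceIncl h)).toAlgebra

/-- a place of `F_{E'}(N) / E'` is a place over `E` with the same valuation ring. -/
def sqgcePlace (R : Place E' (modularFunctionFieldFullC E' N)) :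
    @Place E (modularFunctionFieldFullC E' N) _ _ (sqgceAlg h N) :=
  letI := sqgceAlg h N
  { toValuationSubring := R.toValuationSubring
    algebraMap_mem' := fun a => R.algebraMap_mem' (sqgceIncl h a)
    ne_top' := R.ne_top'
    isPrincipalIdealRing' := R.isPrincipalIdealRing' }

/-- `F_{E'}(N)` is algebraic over `ι F_E(N)`. -/
theorem sqgce_isAlgebraic [FiniteDimensional ℚ E'] :
    letI : Algebra (modularFunctionFieldFullC E N) (modularFunctionFieldFullC E' N) :=
      (sqgceIota h N).toAlgebra
    Algebra.IsAlgebraic (modularFunctionFieldFullC E N)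
      (modularFunctionFieldFullC E' N) := by
  letI : Algebra (modularFunctionFieldFullC E N) (modularFunctionFieldFullC E' N) :=
    (sqgceIota h N).toAlgebra
  obtain ⟨θ, p, hpm, -, hpθ, hθ⟩ := sqgce_exists_primitive h
  have hint : IsIntegral (modularFunctionFieldFullC E N)
      (algebraMap E' (modularFunctionFieldFullC E' N) θ) := by
    refine ⟨p.map (algebraMap E (modularFunctionFieldFullC E N)),
      hpm.map _, ?_⟩
    rw [eval₂_map]
    have hcomp := sqgce_comp_eq h N
    have h1 : (algebraMap (modularFunctionFieldFullC E N)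
        (modularFunctionFieldFullC E' N)).comp
          (algebraMap E (modularFunctionFieldFullC E N)) =
        (algebraMap E' (modularFunctionFieldFullC E' N)).comp (sqgceIncl h) := hcomp
    rw [h1, ← Polynomial.hom_eval₂, hpθ, map_zero]
  refine ⟨fun y => ?_⟩
  obtain ⟨P, hP⟩ := sqgce_gen h N θ p hpm hpθ hθ y
  have hy : y = aeval (algebraMap E' (modularFunctionFieldFullC E' N) θ) P := by
    rw [hP]; exact (aeval_def _ P).symm
  rw [hy]
  have h1 : aeval (algebraMap E' (modularFunctionFieldFullC E' N) θ) P ∈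
      Algebra.adjoin (modularFunctionFieldFullC E N)
        {algebraMap E' (modularFunctionFieldFullC E' N) θ} := aeval_mem_adjoin_singleton _ _
  have h2 : Algebra.adjoin (modularFunctionFieldFullC E N)
      {algebraMap E' (modularFunctionFieldFullC E' N) θ} ≤
      integralClosure (modularFunctionFieldFullC E N)
        (modularFunctionFieldFullC E' N) := by
    rw [Algebra.adjoin_le_iff]
    rintro z rfl
    exact hint
  exact (h2 h1 : IsIntegral _ _).isAlgebraic

/-- **RESTRICTION, UNRAMIFIED, finite case** : the restriction `R₀` of a place `R` of `F_{E'}(N)`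
to `F_E(N)` satisfies `ord_R (ι x) = ord_{R₀} x`. -/
theorem sqgce_restrict_fin [FiniteDimensional ℚ E']
    (R : Place E' (modularFunctionFieldFullC E' N)) :
    ∃ R₀ : Place E (modularFunctionFieldFullC E N),
      R₀.toValuationSubring = R.toValuationSubring.comap (sqgceIota h N) ∧
      ∀ x : modularFunctionFieldFullC E N, R.ord (sqgceIota h N x) = R₀.ord x := by
  letI i1 : Algebra (modularFunctionFieldFullC E N) (modularFunctionFieldFullC E' N) :=
    (sqgceIota h N).toAlgebra
  letI i2 : Algebra E (modularFunctionFieldFullC E' N) := sqgceAlg h N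
  letI i0 : Algebra E (modularFunctionFieldFullC E N) := inferInstance
  haveI : IsScalarTower E (modularFunctionFieldFullC E N)
      (modularFunctionFieldFullC E' N) :=
    @IsScalarTower.of_algebraMap_eq E (modularFunctionFieldFullC E N)
      (modularFunctionFieldFullC E' N) _ _ _ i0 i1 i2 fun c => by
      have h1 := sqgceIota_algebraMap h N c
      exact h1.symm
  haveI : Algebra.IsAlgebraic (modularFunctionFieldFullC E N)
      (modularFunctionFieldFullC E' N) := sqgce_isAlgebraic h N
  obtain ⟨R₀, r, hr, hR₀, hord⟩ := s18r_place_restrict (K := E)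
    (F₀ := modularFunctionFieldFullC E N) (F₁ := modularFunctionFieldFullC E' N)
    (ssd_weak_place E N) (sqgcePlace h N R)
  have hord' : ∀ x : modularFunctionFieldFullC E N,
      R.ord (sqgceIota h N x) = r * R₀.ord x := fun x => hord x
  obtain ⟨θ, p, hpm, hps, hpθ, hθ⟩ := sqgce_exists_primitive h
  have hpθ' : p.eval₂ ((sqgceIota h N).comp
      (algebraMap E (modularFunctionFieldFullC E N)))
      (algebraMap E' (modularFunctionFieldFullC E' N) θ) = 0 := by
    rw [sqgce_comp_eq, ← Polynomial.hom_eval₂, hpθ, map_zero]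
  have hr1 : r = 1 := sqdu_unram (sqgceIota h N) R R₀ r hord'
    (algebraMap E' (modularFunctionFieldFullC E' N) θ) (R.algebraMap_mem' θ) p hps hpθ' hr
    (fun y => sqgce_gen h N θ p hpm hpθ hθ y)
  refine ⟨R₀, hR₀, fun x => ?_⟩
  rw [hord' x, hr1, Nat.cast_one, one_mul]

/-! ### the algebraic closure -/

/-- **(CFE)** : the constant field extension `F_ℚ̄(N) / F_E(N)` is unramified : `r = 1` in
`ssd_restrict`. -/
theorem sqgce_ord_up (E : IntermediateField ℚ Qb) [FiniteDimensional ℚ E]
    (R' : Place Qb (modularFunctionFieldBar N)) (R : Place E (modularFunctionFieldFullC E N))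
    (hR : R.toValuationSubring = R'.toValuationSubring.comap (ssdUp E N))
    (x : modularFunctionFieldFullC E N) : R'.ord (ssdUp E N x) = R.ord x := by
  obtain ⟨ϖ, hϖ⟩ := IsDiscreteValuationRing.exists_irreducible R'.toValuationSubring
  have hϖord : R'.ord (ϖ : modularFunctionFieldBar N) = 1 := R'.ord_coe_irreducible hϖ
  obtain ⟨E₁, hE₁fin, hE₁⟩ := ssd_exists_model N (ϖ : modularFunctionFieldBar N)
  haveI := hE₁fin
  have h : E ≤ E ⊔ E₁ := le_sup_left
  haveI : FiniteDimensional ℚ ↥(E ⊔ E₁) := IntermediateField.finiteDimensional_sup E E₁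
  obtain ⟨u, hu⟩ := hE₁ (E ⊔ E₁) le_sup_right
  obtain ⟨R₁, r₁, hr₁, hR₁, hord₁⟩ := ssd_restrict (E ⊔ E₁) N R'
  have hr1 : (r₁ : ℤ) = 1 := by
    have h1 := hord₁ u
    rw [hu, hϖord] at h1
    exact Int.eq_one_of_mul_eq_one_right (Int.natCast_nonneg r₁) h1.symm
  obtain ⟨R₀, hR₀, hord₀⟩ := sqgce_restrict_fin h N R₁
  have hRR : R₀ = R := by
    apply Place.ext
    rw [hR₀, hR, hR₁]
    ext y
    rw [ValuationSubring.mem_comap, ValuationSubring.mem_comap, ValuationSubring.mem_comap,
      sqgce_up_iota]
  rw [← sqgce_up_iota h N x, hord₁, hr1, one_mul, hord₀, hRR]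

/-- the form `∃ R` : restriction of a place of `F_ℚ̄(N)` to the `E`-form, with equal orders. -/
theorem sqgce_restrict (E : IntermediateField ℚ Qb) [FiniteDimensional ℚ E]
    (R' : Place Qb (modularFunctionFieldBar N)) :
    ∃ R : Place E (modularFunctionFieldFullC E N),
      R.toValuationSubring = R'.toValuationSubring.comap (ssdUp E N) ∧
      ∀ x : modularFunctionFieldFullC E N, R'.ord (ssdUp E N x) = R.ord x := by
  obtain ⟨R, r, -, hR, -⟩ := ssd_restrict E N R'
  exact ⟨R, hR, fun x => sqgce_ord_up N E R' R hR x⟩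

/-- every place of the `E`-form has a place of `F_ℚ̄(N)` above it with the same order function. -/
theorem sqgce_exists_above (E : IntermediateField ℚ Qb) [FiniteDimensional ℚ E]
    (R : Place E (modularFunctionFieldFullC E N)) :
    ∃ R' : Place Qb (modularFunctionFieldBar N),
      R'.toValuationSubring.comap (ssdUp E N) = R.toValuationSubring ∧
      ∀ x : modularFunctionFieldFullC E N, R'.ord (ssdUp E N x) = R.ord x := by
  obtain ⟨R', hR'⟩ := ssd_extend E N R
  exact ⟨R', hR', fun x => sqgce_ord_up N E R' R hR'.symm x⟩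

end Fermat.Agent.SQ
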