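import Mathlib
import Fermat.Agent.SS.K.Krull
import Fermat.Agent.SS.Val.Gauss2
import Fermat.Agent.SS.Germ.Res
import Fermat.Agent.SS.Germ.Abs

/-!
# Program Q (S36), R1 team, leaf (K), abstract part : THICKNESS ONE FROM A FUNCTION WITH DIVISOR `-2·C₂`
(prefix `sqgk`)

Setting of S18/T : `A` a DVR with uniformiser `ϖ`, `L = Frac A`, `F / L(t)` finite,
`P = s18tInt A t`, and the two-valuation package `SsvTwo hϖ t u₁ u₂ V₁ V₂` (the special fibre of `P`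
has the two components `C₁, C₂`).  `g ∈ F` is a function with
* `V₁(g) = 0`, `V₂(ϖ² g) = 0` (vertical divisor `-2·C₂`),
* `SqgkHor L t 𝔫 g` : `g` is a unit at every place of `F / L` centred in the closed point `𝔫`
  (no horizontal divisor through `𝔫`).

Then
* `sqgk_inLoc_inv` : `g⁻¹ ∈ P_𝔫`;
* `sqgk_inLoc_of_only` : `g ∈ P_𝔫` when `𝔫` does not lie on `C₂`;
* `sqgk_inv_mem_nonunits` : `g⁻¹ ∈ 𝔪_{V₂}`;
* **`sqgk_node`** : at a point on both components, if `w ∈ 𝔭₂` generates `𝔫 P_𝔫` modulo `𝔭₁`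
  (`SsgaGen t 𝔫 V₁ w`, transversality) and the reduction of `g⁻¹` on `C₁` does NOT vanish to
  order exactly one at `𝔫` (`hcart`, supplied by Cartier), then `ϖ ∈ 𝔭₁ P_𝔫 · w` :
  THICKNESS ONE (`SqgaNode` of helper9's `SQ/Germ/Abs`, stated literally).
  Proof : `f := w² g ∈ P_𝔫` (Krull), `w² = f · g⁻¹`; in the DVR `P_𝔫 / 𝔭₁` (uniformiser `w̄`) this
  reads `2 = ord f̄ + ord ḡ⁻¹` with `ord ḡ⁻¹ ≥ 1`, and `ord ḡ⁻¹ ≠ 1`, so `f` is a unit, whence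
  `V₂(w) = V₂(ϖ)`, `w` is a unit at the horizontal places through `𝔫`, and `ϖ / w ∈ P_𝔫 ∩ 𝔪_{V₁}`.
-/

set_option autoImplicit false
set_option linter.unusedSectionVars false
set_option linter.unusedVariables false

noncomputable section

namespace Fermat.Agent.SQ

open Polynomial IntermediateField Fermat.Agent.S18 Fermat.Agent.SS

universe u

variable {A : Type*} [CommRing A] [IsDomain A] [IsDiscreteValuationRing A] [CharZero A]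
variable (L : Type*) [Field L] [Algebra A L] [IsFractionRing A L]
variable {F : Type u} [Field F] [Algebra A F] [Algebra L F] [IsScalarTower A L F]
variable {ϖ : A}

/-- `g` is a unit at every place of `F / L` centred in `𝔫` -/
def SqgkHor (t : F) (𝔫 : Ideal ↥(s18tInt A t)) (g : F) : Prop :=
  ∀ V : ValuationSubring F, S18IsPlace L V → s18tInt A t ≤ V.toSubring →
    sskCentre t V ⊆ (𝔫 : Set ↥(s18tInt A t)) → g ∈ V ∧ g⁻¹ ∈ V

variable {L}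
variable {t : F} {𝔫 : Ideal ↥(s18tInt A t)} {V₁ V₂ : ValuationSubring F} {u₁ u₂ g : F}

/-- an element of `P ∖ 𝔫` is a unit of every valuation ring `V ⊇ P` centred inside `𝔫` -/
theorem sqgk_val_eq_one (V : ValuationSubring F) (hle : s18tInt A t ≤ V.toSubring)
    (hc : ∀ p : ↥(s18tInt A t), (p : F) ∈ V.nonunits → p ∈ 𝔫) {s : ↥(s18tInt A t)} (hs : s ∉ 𝔫) :
    V.valuation (s : F) = 1 := by
  have h1 : V.valuation (s : F) ≤ 1 := (V.valuation_le_one_iff _).mpr (hle s.2)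
  have h2 : ¬ V.valuation (s : F) < 1 := fun h => hs (hc s (V.mem_nonunits_iff.mpr h))
  exact le_antisymm h1 (not_lt.mp h2)

/-- `P ⊆ V₁` and `P ⊆ V₂` -/
theorem sqgk_int_le (hϖ : Irreducible ϖ) (h2 : SsvTwo hϖ t u₁ u₂ V₁ V₂) :
    s18tInt A t ≤ V₁.toSubring ∧ s18tInt A t ≤ V₂.toSubring := by
  constructor
  · intro x hx
    exact ((h2.mem_iff x).mp (ssga_int_le_intLoc hϖ t hx)).1
  · intro x hx
    exact ((h2.mem_iff x).mp (ssga_int_le_intLoc hϖ t hx)).2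

/-- the value of `g⁻¹` at `V₂` -/
theorem sqgk_val_inv (hg₂ : V₂.valuation (algebraMap A F ϖ ^ 2 * g) = 1) :
    V₂.valuation g⁻¹ = V₂.valuation (algebraMap A F ϖ) ^ 2 := by
  have hg0 : g ≠ 0 := by
    rintro rfl
    rw [mul_zero, map_zero] at hg₂
    exact zero_ne_one hg₂
  have hv0 : V₂.valuation g ≠ 0 := (V₂.valuation.ne_zero_iff).mpr hg0
  rw [map_mul, map_pow] at hg₂
  rw [map_inv₀]
  exact (eq_inv_of_mul_eq_one_left hg₂).symm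

/-- `g⁻¹ ∈ 𝔪_{V₂}` -/
theorem sqgk_inv_mem_nonunits (hϖ : Irreducible ϖ) (h2 : SsvTwo hϖ t u₁ u₂ V₁ V₂)
    (hg₂ : V₂.valuation (algebraMap A F ϖ ^ 2 * g) = 1) : g⁻¹ ∈ V₂.nonunits := by
  rw [V₂.mem_nonunits_iff, sqgk_val_inv hg₂]
  have h1 : V₂.valuation (algebraMap A F ϖ) < 1 := h2.unif₂.1
  calc V₂.valuation (algebraMap A F ϖ) ^ 2 < 1 ^ 2 := by
        exact pow_lt_pow_left₀ h1 zero_le two_ne_zero
    _ = 1 := one_pow 2

/-- **`g⁻¹ ∈ P_𝔫`** -/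
theorem sqgk_inLoc_inv (hϖ : Irreducible ϖ) (ht : Transcendental L t) [FiniteDimensional L⟮t⟯ F]
    (h𝔫 : 𝔫.IsMaximal) (h2 : SsvTwo hϖ t u₁ u₂ V₁ V₂)
    (hg₁ : V₁.valuation g = 1) (hg₂ : V₂.valuation (algebraMap A F ϖ ^ 2 * g) = 1)
    (hH : SqgkHor L t 𝔫 g) : SsnfInLoc t 𝔫 g⁻¹ := by
  refine ssk_krull hϖ t ht 𝔫 h𝔫 g⁻¹ ((h2.mem_iff _).mpr ⟨?_, ?_⟩)
    (fun V hV hle hc => (hH V hV hle hc).2)
  · rw [← V₁.valuation_le_one_iff, map_inv₀, hg₁, inv_one]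
  · exact V₂.nonunits_subset (sqgk_inv_mem_nonunits hϖ h2 hg₂)

/-- **`g ∈ P_𝔫`** at the points which do not lie on the second component -/
theorem sqgk_inLoc_of_only (hϖ : Irreducible ϖ) (ht : Transcendental L t)
    [FiniteDimensional L⟮t⟯ F] (h𝔫 : 𝔫.IsMaximal) (h2 : SsvTwo hϖ t u₁ u₂ V₁ V₂)
    (hg₁ : V₁.valuation g = 1) (hg₂ : V₂.valuation (algebraMap A F ϖ ^ 2 * g) = 1)
    (hH : SqgkHor L t 𝔫 g) (s₀ : ↥(s18tInt A t)) (hs₀ : (s₀ : F) ∈ V₂.nonunits) (hs₀𝔫 : s₀ ∉ 𝔫) :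
    SsnfInLoc t 𝔫 g := by
  obtain ⟨hP₁, hP₂⟩ := sqgk_int_le hϖ h2
  have hprime : 𝔫.IsPrime := h𝔫.isPrime
  have hx : (s₀ : F) ^ 2 * g ∈ s18tIntLoc A t (C ϖ) (s18t_prime_C hϖ) := by
    refine (h2.mem_iff _).mpr ⟨?_, ?_⟩
    · refine V₁.mul_mem _ _ (V₁.pow_mem (hP₁ s₀.2) 2) ?_
      rw [← V₁.valuation_le_one_iff, hg₁]
    · rw [← V₂.valuation_le_one_iff, map_mul, map_pow]
      have h1 : V₂.valuation (s₀ : F) ≤ V₂.valuation (algebraMap A F ϖ) :=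
        h2.unif₂.2 _ (V₂.mem_nonunits_iff.mp hs₀)
      calc V₂.valuation (s₀ : F) ^ 2 * V₂.valuation g
          ≤ V₂.valuation (algebraMap A F ϖ) ^ 2 * V₂.valuation g := by
            exact mul_le_mul_left (pow_le_pow_left₀ zero_le h1 2) _
        _ = 1 := by rw [← map_pow, ← map_mul, hg₂]
  obtain ⟨s, hs, hsx⟩ := ssk_krull hϖ t ht 𝔫 h𝔫 _ hx (fun V hV hle hc =>
    V.mul_mem _ _ (V.pow_mem (hle s₀.2) 2) (hH V hV hle hc).1)
  refine ⟨s * s₀ ^ 2, fun h => ?_, ?_⟩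
  · rcases hprime.mem_or_mem h with h | h
    · exact hs h
    · exact hs₀𝔫 (hprime.mem_of_pow_mem 2 h)
  · have : ((s * s₀ ^ 2 : ↥(s18tInt A t)) : F) * g = (s : F) * ((s₀ : F) ^ 2 * g) := by
      push_cast; ring
    rw [this]
    exact hsx

/-- the horizontal unit property is symmetric under `g ↦ g⁻¹` -/
theorem sqgk_hor_inv (h : SqgkHor L t 𝔫 g) : SqgkHor L t 𝔫 g⁻¹ := by
  intro V hV hle hc
  obtain ⟨h1, h2⟩ := h V hV hle hc
  exact ⟨h2, by rwa [inv_inv]⟩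

/-- **(T1'), abstract form** : `γ := g⁻¹` has divisor `2·C₂` near `𝔫`. -/
theorem sqgk_cross_abs (hϖ : Irreducible ϖ) (ht : Transcendental L t) [FiniteDimensional L⟮t⟯ F]
    (h𝔫 : 𝔫.IsMaximal) (h2 : SsvTwo hϖ t u₁ u₂ V₁ V₂)
    (hg₁ : V₁.valuation g = 1) (hg₂ : V₂.valuation (algebraMap A F ϖ ^ 2 * g) = 1)
    (hH : SqgkHor L t 𝔫 g) :
    g⁻¹ ≠ 0 ∧ g⁻¹ ∈ V₁ ∧ (g⁻¹)⁻¹ ∈ V₁ ∧
      (∃ ε : F, ε ∈ V₂ ∧ ε⁻¹ ∈ V₂ ∧ g⁻¹ = algebraMap A F ϖ ^ 2 * ε) ∧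
      SsnfInLoc t 𝔫 g⁻¹ ∧ g⁻¹ ∈ V₂.nonunits ∧ SqgkHor L t 𝔫 g⁻¹ := by
  have hg0 : g ≠ 0 := by
    rintro rfl
    rw [map_zero] at hg₁
    exact zero_ne_one hg₁
  have hne : algebraMap A F ϖ ^ 2 * g ≠ 0 :=
    (V₂.valuation.ne_zero_iff).mp (by rw [hg₂]; exact one_ne_zero)
  have hϖ0 : algebraMap A F ϖ ≠ 0 := (pow_ne_zero_iff two_ne_zero).mp (left_ne_zero_of_mul hne)
  refine ⟨inv_ne_zero hg0, ?_, ?_, ?_, sqgk_inLoc_inv hϖ ht h𝔫 h2 hg₁ hg₂ hH,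
    sqgk_inv_mem_nonunits hϖ h2 hg₂, sqgk_hor_inv hH⟩
  · rw [← V₁.valuation_le_one_iff, map_inv₀, hg₁, inv_one]
  · rw [inv_inv, ← V₁.valuation_le_one_iff, hg₁]
  · refine ⟨(algebraMap A F ϖ ^ 2 * g)⁻¹, ?_, ?_, ?_⟩
    · rw [← V₂.valuation_le_one_iff, map_inv₀, hg₂, inv_one]
    · rw [inv_inv, ← V₂.valuation_le_one_iff, hg₂]
    · rw [mul_inv, ← mul_assoc, mul_inv_cancel₀ (pow_ne_zero 2 hϖ0), one_mul]

/-- `P_𝔫 ⊆ V` as soon as the centre of `V` lies in `𝔫` -/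
theorem sqgk_inLoc_mem (V : ValuationSubring F) (hle : s18tInt A t ≤ V.toSubring)
    (hc : ∀ p : ↥(s18tInt A t), (p : F) ∈ V.nonunits → p ∈ 𝔫) {r : F}
    (hr : SsnfInLoc t 𝔫 r) : r ∈ V := by
  obtain ⟨s, hs, hsr⟩ := hr
  have hval := sqgk_val_eq_one V hle hc hs
  have hsr' : (s : F) * r ∈ V := hle hsr
  rw [← V.valuation_le_one_iff] at hsr' ⊢
  rwa [map_mul, hval, one_mul] at hsr'

/-- a unit of `P_𝔫` has value one at every `V ⊇ P` centred inside `𝔫` -/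
theorem sqgk_val_unit (V : ValuationSubring F) (hle : s18tInt A t ≤ V.toSubring)
    (hc : ∀ p : ↥(s18tInt A t), (p : F) ∈ V.nonunits → p ∈ 𝔫) {f : F}
    {s p : ↥(s18tInt A t)} (hs : s ∉ 𝔫) (hp : p ∉ 𝔫) (hsf : (s : F) * f = (p : F)) :
    V.valuation f = 1 := by
  have h1 := sqgk_val_eq_one V hle hc hs
  have h2 := sqgk_val_eq_one V hle hc hp
  have := congrArg V.valuation hsf
  rwa [map_mul, h1, h2, one_mul] at this

set_option maxHeartbeats 1000000 in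
/-- **(K), THICKNESS ONE** : at a closed point `𝔫` on both components, a function `g` with divisor
`-2·C₂` near `𝔫`, a transversal coordinate `w ∈ 𝔭₂` (`w̄` generates the maximal ideal of
`P_𝔫 / 𝔭₁`) and the Cartier input `hcart` (`ḡ⁻¹` does not vanish to order exactly one on `C₁`) give
`r ϖ = u' · w` with `u' ∈ 𝔭₁`, `w ∈ 𝔭₂`, `r ∉ 𝔫`. -/
theorem sqgk_node (hϖ : Irreducible ϖ) (ht : Transcendental L t) [FiniteDimensional L⟮t⟯ F]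
    (h𝔫 : 𝔫.IsMaximal) (h2 : SsvTwo hϖ t u₁ u₂ V₁ V₂)
    (h𝔭₁ : ∀ p : ↥(s18tInt A t), (p : F) ∈ V₁.nonunits → p ∈ 𝔫)
    (h𝔭₂ : ∀ p : ↥(s18tInt A t), (p : F) ∈ V₂.nonunits → p ∈ 𝔫)
    (hg₁ : V₁.valuation g = 1) (hg₂ : V₂.valuation (algebraMap A F ϖ ^ 2 * g) = 1)
    (hH : SqgkHor L t 𝔫 g)
    (z : ↥(s18tInt A t)) (hz𝔫 : z ∈ 𝔫) (hz₁ : V₁.valuation (z : F) = 1)
    (w : ↥(s18tInt A t)) (hw₂ : (w : F) ∈ V₂.nonunits) (hgen : SsgaGen t 𝔫 V₁ (w : F))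
    (hcart : ∀ c : F, SsnfInLoc t 𝔫 c → g⁻¹ - c * (w : F) ∈ V₁.nonunits → SsnfInMax t 𝔫 c) :
    ∃ u' w' r m : ↥(s18tInt A t), (u' : F) ∈ V₁.nonunits ∧ (w' : F) ∈ V₂.nonunits ∧ r ∉ 𝔫 ∧
      (r : F) * algebraMap A F ϖ = (u' : F) * (w' : F) * (m : F) := by
  classical
  obtain ⟨hP₁, hP₂⟩ := sqgk_int_le hϖ h2
  have hprime : 𝔫.IsPrime := h𝔫.isPrime
  have hg0 : g ≠ 0 := by
    rintro rfl
    rw [map_zero] at hg₁
    exact zero_ne_one hg₁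
  have hw𝔫 : w ∈ 𝔫 := h𝔭₂ w hw₂
  -- `w` is a unit of `V₁`
  have hw₁ : V₁.valuation (w : F) = 1 := by
    have hle : V₁.valuation (w : F) ≤ 1 := (V₁.valuation_le_one_iff _).mpr (hP₁ w.2)
    refine le_antisymm hle (not_lt.mp fun hlt => ?_)
    obtain ⟨s, hs, c, hsc⟩ := hgen z hz𝔫
    have h1 : (c : F) * (w : F) ∈ V₁.nonunits :=
      ssgr_nu_mul_right V₁ (hP₁ c.2) (V₁.mem_nonunits_iff.mpr hlt)
    have h3 : (s : F) * (z : F) ∈ V₁.nonunits := by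
      have := ssgr_nu_add V₁ hsc h1
      rwa [sub_add_cancel] at this
    rw [V₁.mem_nonunits_iff, map_mul, hz₁, mul_one] at h3
    exact hs (h𝔭₁ s (V₁.mem_nonunits_iff.mpr h3))
  have hw0 : (w : F) ≠ 0 := by
    intro h0
    rw [h0, map_zero] at hw₁
    exact zero_ne_one hw₁
  -- Step 2 : `f := w² g ∈ P_𝔫`
  have hfx : (w : F) ^ 2 * g ∈ s18tIntLoc A t (C ϖ) (s18t_prime_C hϖ) := by
    refine (h2.mem_iff _).mpr ⟨?_, ?_⟩
    · refine V₁.mul_mem _ _ (V₁.pow_mem (hP₁ w.2) 2) ?_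
      rw [← V₁.valuation_le_one_iff, hg₁]
    · rw [← V₂.valuation_le_one_iff, map_mul, map_pow]
      have h1 : V₂.valuation (w : F) ≤ V₂.valuation (algebraMap A F ϖ) :=
        h2.unif₂.2 _ (V₂.mem_nonunits_iff.mp hw₂)
      calc V₂.valuation (w : F) ^ 2 * V₂.valuation g
          ≤ V₂.valuation (algebraMap A F ϖ) ^ 2 * V₂.valuation g := by
            exact mul_le_mul_left (pow_le_pow_left₀ zero_le h1 2) _
        _ = 1 := by rw [← map_pow, ← map_mul, hg₂]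
  obtain ⟨sf, hsf, hsfx⟩ := ssk_krull hϖ t ht 𝔫 h𝔫 _ hfx (fun V hV hle hc =>
    V.mul_mem _ _ (V.pow_mem (hle w.2) 2) (hH V hV hle hc).1)
  set f : F := (w : F) ^ 2 * g with hf
  have hfg : f * g⁻¹ = (w : F) ^ 2 := by
    rw [hf, mul_assoc, mul_inv_cancel₀ hg0, mul_one]
  have hfV₁ : f ∈ V₁ := ((h2.mem_iff _).mp hfx).1
  -- Step 3 : `f ∉ 𝔫 P_𝔫`
  have hfnot : (⟨(sf : F) * f, hsfx⟩ : ↥(s18tInt A t)) ∉ 𝔫 := by
    intro hpf
    set p : ↥(s18tInt A t) := ⟨(sf : F) * f, hsfx⟩ with hp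
    have hpF : (sf : F) * f = (p : F) := rfl
    -- `g⁻¹ ∈ P_𝔫`, with numerator in `𝔫`
    obtain ⟨s₂, hs₂, hs₂g⟩ := sqgk_inLoc_inv hϖ ht h𝔫 h2 hg₁ hg₂ hH
    set p₂ : ↥(s18tInt A t) := ⟨(s₂ : F) * g⁻¹, hs₂g⟩ with hp₂
    have hp₂𝔫 : p₂ ∈ 𝔫 := by
      apply h𝔭₂
      exact ssgr_nu_mul_right V₂ (hP₂ s₂.2) (sqgk_inv_mem_nonunits hϖ h2 hg₂)
    obtain ⟨s₃, hs₃, c₃, hc₃⟩ := hgen p₂ hp₂𝔫
    have hs₃₂ : V₁.valuation ((s₃ : F) * (s₂ : F)) = 1 := by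
      rw [map_mul, sqgk_val_eq_one V₁ hP₁ h𝔭₁ hs₃, sqgk_val_eq_one V₁ hP₁ h𝔭₁ hs₂, one_mul]
    have hs₃₂0 : (s₃ : F) * (s₂ : F) ≠ 0 := by
      intro h0
      rw [h0, map_zero] at hs₃₂
      exact zero_ne_one hs₃₂
    have hs₃0 : (s₃ : F) ≠ 0 := left_ne_zero_of_mul hs₃₂0
    have hs₂0 : (s₂ : F) ≠ 0 := right_ne_zero_of_mul hs₃₂0
    set c : F := (c₃ : F) / ((s₃ : F) * (s₂ : F)) with hc
    have hcloc : SsnfInLoc t 𝔫 c := by
      refine ⟨s₃ * s₂, fun h => (hprime.mem_or_mem h).elim hs₃ hs₂, ?_⟩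
      have : ((s₃ * s₂ : ↥(s18tInt A t)) : F) * c = (c₃ : F) := by
        rw [hc]; push_cast; field_simp [hs₃0, hs₂0]
      rw [this]
      exact c₃.2
    have hcw : g⁻¹ - c * (w : F) ∈ V₁.nonunits := by
      have e : g⁻¹ - c * (w : F) =
          ((s₃ : F) * (s₂ : F))⁻¹ * ((s₃ : F) * (p₂ : F) - (c₃ : F) * (w : F)) := by
        rw [hc, hp₂]
        show g⁻¹ - (c₃ : F) / ((s₃ : F) * (s₂ : F)) * (w : F) =
          ((s₃ : F) * (s₂ : F))⁻¹ * ((s₃ : F) * ((s₂ : F) * g⁻¹) - (c₃ : F) * (w : F))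
        field_simp [hs₃0, hs₂0]
      rw [e]
      refine ssgr_nu_mul_right V₁ ?_ hc₃
      rw [← V₁.valuation_le_one_iff, map_inv₀, hs₃₂, inv_one]
    obtain ⟨s_c, hs_c, p_c, hp_c, hscc⟩ := hcart c hcloc hcw
    obtain ⟨s₄, hs₄, c₄, hc₄⟩ := hgen p hpf
    obtain ⟨s₅, hs₅, c₅, hc₅⟩ := hgen p_c hp_c
    -- the key identity
    have key : (s₄ : F) * (sf : F) * (s₅ : F) * (s_c : F) * (w : F) ^ 2 -
        (c₄ : F) * (c₅ : F) * (w : F) ^ 3 =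
        (s₄ : F) * (p : F) * ((s₅ : F) * (s_c : F)) * (g⁻¹ - c * (w : F)) +
          (((s₄ : F) * (p : F) - (c₄ : F) * (w : F)) * ((s₅ : F) * (p_c : F)) +
            (c₄ : F) * (w : F) * ((s₅ : F) * (p_c : F) - (c₅ : F) * (w : F))) * (w : F) := by
      rw [← hpF, ← hscc]
      linear_combination (-((s₄ : F) * (sf : F) * (s₅ : F) * (s_c : F))) * hfg
    have hmem : (s₄ : F) * (sf : F) * (s₅ : F) * (s_c : F) * (w : F) ^ 2 -
        (c₄ : F) * (c₅ : F) * (w : F) ^ 3 ∈ V₁.nonunits := by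
      rw [key]
      refine ssgr_nu_add V₁ (ssgr_nu_mul_right V₁ ?_ hcw) (ssgr_nu_mul_left V₁ ?_ (hP₁ w.2))
      · exact V₁.mul_mem _ _ (V₁.mul_mem _ _ (hP₁ s₄.2) (hP₁ p.2))
          (V₁.mul_mem _ _ (hP₁ s₅.2) (hP₁ s_c.2))
      · exact ssgr_nu_add V₁ (ssgr_nu_mul_left V₁ hc₄ (V₁.mul_mem _ _ (hP₁ s₅.2) (hP₁ p_c.2)))
          (ssgr_nu_mul_right V₁ (V₁.mul_mem _ _ (hP₁ c₄.2) (hP₁ w.2)) hc₅)
    -- divide by `w²`
    have hmem' : ((s₄ * sf * s₅ * s_c - c₄ * c₅ * w : ↥(s18tInt A t)) : F) ∈ V₁.nonunits := by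
      have e : (s₄ : F) * (sf : F) * (s₅ : F) * (s_c : F) * (w : F) ^ 2 -
          (c₄ : F) * (c₅ : F) * (w : F) ^ 3 =
          ((s₄ * sf * s₅ * s_c - c₄ * c₅ * w : ↥(s18tInt A t)) : F) * (w : F) ^ 2 := by
        push_cast; ring
      rw [e, V₁.mem_nonunits_iff, map_mul, map_pow, hw₁, one_pow, mul_one] at hmem
      exact V₁.mem_nonunits_iff.mpr hmem
    have hD : s₄ * sf * s₅ * s_c - c₄ * c₅ * w ∈ 𝔫 := h𝔭₁ _ hmem'
    have hD' : s₄ * sf * s₅ * s_c ∈ 𝔫 := by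
      have := 𝔫.add_mem hD (𝔫.mul_mem_left (c₄ * c₅) hw𝔫)
      rwa [sub_add_cancel] at this
    rcases hprime.mem_or_mem hD' with h | h
    · rcases hprime.mem_or_mem h with h | h
      · rcases hprime.mem_or_mem h with h | h
        · exact hs₄ h
        · exact hsf h
      · exact hs₅ h
    · exact hs_c h
  -- Step 4 : `f` is a unit, so `ϖ / w ∈ P_𝔫`
  have hfval : ∀ V : ValuationSubring F, s18tInt A t ≤ V.toSubring →
      (∀ p : ↥(s18tInt A t), (p : F) ∈ V.nonunits → p ∈ 𝔫) → V.valuation f = 1 :=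
    fun V hle hc => sqgk_val_unit V hle hc hsf hfnot rfl
  have hw2 : ∀ V : ValuationSubring F, V.valuation (w : F) ^ 2 =
      V.valuation f * V.valuation g⁻¹ := by
    intro V
    rw [← map_pow, ← map_mul, hfg]
  have hwV₂ : V₂.valuation (w : F) = V₂.valuation (algebraMap A F ϖ) := by
    have h := hw2 V₂
    rw [hfval V₂ hP₂ h𝔭₂, one_mul, sqgk_val_inv hg₂] at h
    exact (pow_left_inj₀ zero_le zero_le two_ne_zero).mp h
  have hxloc : algebraMap A F ϖ * (w : F)⁻¹ ∈ s18tIntLoc A t (C ϖ) (s18t_prime_C hϖ) := by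
    refine (h2.mem_iff _).mpr ⟨?_, ?_⟩
    · rw [← V₁.valuation_le_one_iff, map_mul, map_inv₀, hw₁, inv_one, mul_one]
      exact le_of_lt h2.unif₁.1
    · rw [← V₂.valuation_le_one_iff, map_mul, map_inv₀, hwV₂]
      rw [mul_inv_cancel₀]
      exact ne_of_gt (by
        rw [← hwV₂]
        exact (V₂.valuation.pos_iff).mpr hw0)
  obtain ⟨r, hr, hrx⟩ := ssk_krull hϖ t ht 𝔫 h𝔫 _ hxloc (fun V hV hle hc => by
    have hcen : ∀ p : ↥(s18tInt A t), (p : F) ∈ V.nonunits → p ∈ 𝔫 := fun p hp => hc hp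
    obtain ⟨hgV, hgiV⟩ := hH V hV hle hc
    have hgval : V.valuation g⁻¹ = 1 := by
      have h1 : V.valuation g ≤ 1 := (V.valuation_le_one_iff _).mpr hgV
      have h2' : V.valuation g⁻¹ ≤ 1 := (V.valuation_le_one_iff _).mpr hgiV
      rw [map_inv₀] at h2' ⊢
      have hv0 : V.valuation g ≠ 0 := (V.valuation.ne_zero_iff).mpr hg0
      have h3 : 1 ≤ V.valuation g := by
        by_contra hlt
        push Not at hlt
        have : 1 < (V.valuation g)⁻¹ := (one_lt_inv₀ (pos_of_ne_zero hv0)).mpr hlt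
        exact absurd h2' (not_le.mpr this)
      rw [le_antisymm h1 h3, inv_one]
    have hwV : V.valuation (w : F) = 1 := by
      have h := hw2 V
      rw [hfval V hle hcen, hgval, one_mul] at h
      have : V.valuation (w : F) ^ 2 = 1 ^ 2 := by rw [h, one_pow]
      exact (pow_left_inj₀ zero_le zero_le two_ne_zero).mp this
    rw [← V.valuation_le_one_iff, map_mul, map_inv₀, hwV, inv_one, mul_one]
    exact (V.valuation_le_one_iff _).mpr (hle (s18tc_algebraMap_mem_int t ϖ)))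
  refine ⟨⟨(r : F) * (algebraMap A F ϖ * (w : F)⁻¹), hrx⟩, w, r, 1, ?_, hw₂, hr, ?_⟩
  · show (r : F) * (algebraMap A F ϖ * (w : F)⁻¹) ∈ V₁.nonunits
    refine ssgr_nu_mul_right V₁ (hP₁ r.2) ?_
    rw [V₁.mem_nonunits_iff, map_mul, map_inv₀, hw₁, inv_one, mul_one]
    exact h2.unif₁.1
  · show (r : F) * algebraMap A F ϖ =
      (r : F) * (algebraMap A F ϖ * (w : F)⁻¹) * (w : F) * ((1 : ↥(s18tInt A t)) : F)
    push_cast
    field_simp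

end Fermat.Agent.SQ
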