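import Mathlib

/-!
# Program Q, GERM², leaf (H) abstract part : implicit differentiation (prefix `sqgd`)

* `sqgdDX Φ` : the partial derivative of `Φ : R[X][X]` with respect to the INNER variable;
  (`Polynomial.derivative Φ` is the partial derivative with respect to the outer variable);
* `sqgd_chain` : for a derivation `D` of an `R`-algebra `B`,
  `D (Φ(j, y)) = (∂₁Φ)(j, y) * D j + (∂₂Φ)(j, y) * D y`;
* `sqgd_ps_relation` : for power series `X Y` with `Φ(X, Y) = 0`,
  `(∂₁Φ)(X,Y) * X' + (∂₂Φ)(X,Y) * Y' = 0`;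
* `sqgd_order_eq` : Laurent-series form : if `x - C a`, `y - C b` have order one and `Φ(x,y) = 0`
  then `(∂₁Φ)(x,y)` and `(∂₂Φ)(x,y)` have the same order (and vanish simultaneously).
-/

set_option autoImplicit false

noncomputable section

namespace Fermat.Agent.SQ

open Polynomial

section Chain

variable {R : Type*} [CommRing R]

/-- the partial derivative of `Φ ∈ R[X][Y]` with respect to the inner variable `X`. -/
def sqgdDX (Φ : R[X][X]) : R[X][X] :=
  ∑ i ∈ Finset.range (Φ.natDegree + 1), monomial i (derivative (Φ.coeff i))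

theorem sqgdDX_coeff (Φ : R[X][X]) (i : ℕ) :
    (sqgdDX Φ).coeff i = derivative (Φ.coeff i) := by
  unfold sqgdDX
  rw [finsetSum_coeff]
  simp only [coeff_monomial]
  rw [Finset.sum_ite_eq' (Finset.range (Φ.natDegree + 1)) i
    (fun k => derivative (Φ.coeff k))]
  split_ifs with h
  · rfl
  · rw [Finset.mem_range, not_lt] at h
    rw [coeff_eq_zero_of_natDegree_lt (by omega), map_zero]

theorem sqgdDX_natDegree_le (Φ : R[X][X]) : (sqgdDX Φ).natDegree ≤ Φ.natDegree := by
  rw [natDegree_le_iff_coeff_eq_zero]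
  intro i hi
  rw [sqgdDX_coeff, coeff_eq_zero_of_natDegree_lt hi, map_zero]

theorem sqgdDX_map {S : Type*} [CommRing S] (f : R →+* S) (Φ : R[X][X]) :
    sqgdDX (Φ.map (mapRingHom f)) = (sqgdDX Φ).map (mapRingHom f) := by
  ext i : 1
  rw [sqgdDX_coeff, coeff_map, coeff_map, sqgdDX_coeff, coe_mapRingHom, derivative_map]

theorem sqgd_derivative_map {S : Type*} [CommRing S] (f : R →+* S) (Φ : R[X][X]) :
    derivative (Φ.map (mapRingHom f)) = (derivative Φ).map (mapRingHom f) :=
  derivative_map Φ (mapRingHom f)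

variable {B : Type*} [CommRing B] [Algebra R B]

/-- **chain rule** for a bivariate polynomial. -/
theorem sqgd_chain (D : Derivation R B B) (Φ : R[X][X]) (j y : B) :
    D (Φ.eval₂ ((aeval j : R[X] →ₐ[R] B) : R[X] →+* B) y) =
      (sqgdDX Φ).eval₂ ((aeval j : R[X] →ₐ[R] B) : R[X] →+* B) y * D j +
        (derivative Φ).eval₂ ((aeval j : R[X] →ₐ[R] B) : R[X] →+* B) y * D y := by
  set f : R[X] →+* B := ((aeval j : R[X] →ₐ[R] B) : R[X] →+* B) with hf
  have hfa : ∀ c : R[X], f c = aeval j c := fun c => rfl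
  have h1 : Φ.eval₂ f y = ∑ i ∈ Finset.range (Φ.natDegree + 1), f (Φ.coeff i) * y ^ i :=
    eval₂_eq_sum_range' f (Nat.lt_succ_self _) y
  have h2 : (sqgdDX Φ).eval₂ f y =
      ∑ i ∈ Finset.range (Φ.natDegree + 1), f (derivative (Φ.coeff i)) * y ^ i := by
    rw [eval₂_eq_sum_range' f (Nat.lt_succ_of_le (sqgdDX_natDegree_le Φ)) y]
    refine Finset.sum_congr rfl fun i _ => ?_
    rw [sqgdDX_coeff]
  have h3 : (derivative Φ).eval₂ f y =
      ∑ i ∈ Finset.range (Φ.natDegree + 1), f (Φ.coeff i) * ((i : B) * y ^ (i - 1)) := by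
    rw [eval₂_eq_sum_range' f
      (Nat.lt_succ_of_le ((natDegree_derivative_le Φ).trans (Nat.sub_le _ _))) y]
    have hR : ∑ i ∈ Finset.range (Φ.natDegree + 1), f (Φ.coeff i) * ((i : B) * y ^ (i - 1)) =
        ∑ i ∈ Finset.range Φ.natDegree,
          f (Φ.coeff (i + 1)) * (((i + 1 : ℕ) : B) * y ^ (i + 1 - 1)) := by
      rw [Finset.sum_range_succ']
      simp only [Nat.cast_zero, zero_mul, mul_zero, add_zero]
    have hL : ∑ i ∈ Finset.range (Φ.natDegree + 1), f ((derivative Φ).coeff i) * y ^ i =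
        ∑ i ∈ Finset.range Φ.natDegree, f ((derivative Φ).coeff i) * y ^ i := by
      rw [Finset.sum_range_succ]
      have hlast : (derivative Φ).coeff Φ.natDegree = 0 := by
        rw [coeff_derivative, coeff_eq_zero_of_natDegree_lt (Nat.lt_succ_self _), zero_mul]
      rw [hlast, map_zero, zero_mul, add_zero]
    rw [hR, hL]
    refine Finset.sum_congr rfl fun i _ => ?_
    rw [coeff_derivative, Nat.add_sub_cancel, map_mul]
    have : f ((i : R[X]) + 1) = (i : B) + 1 := by
      rw [map_add, map_natCast, map_one]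
    rw [this]
    push_cast
    ring
  rw [h1, h2, h3, map_sum, Finset.sum_mul, Finset.sum_mul, ← Finset.sum_add_distrib]
  refine Finset.sum_congr rfl fun i _ => ?_
  rw [Derivation.leibniz, Derivation.leibniz_pow, hfa, Derivation.map_aeval]
  simp only [smul_eq_mul, nsmul_eq_mul, hfa]
  ring

end Chain

section PowerSeries

variable {k : Type*} [Field k]

/-- implicit differentiation in `k⟦X⟧`. -/
theorem sqgd_ps_relation (Φ : k[X][X]) (x y : PowerSeries k)
    (h : Φ.eval₂ ((aeval x : k[X] →ₐ[k] PowerSeries k) : k[X] →+* PowerSeries k) y = 0) :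
    (sqgdDX Φ).eval₂ ((aeval x : k[X] →ₐ[k] PowerSeries k) : k[X] →+* PowerSeries k) y *
        PowerSeries.derivative k x +
      (derivative Φ).eval₂ ((aeval x : k[X] →ₐ[k] PowerSeries k) : k[X] →+* PowerSeries k) y *
        PowerSeries.derivative k y = 0 := by
  rw [← sqgd_chain (PowerSeries.derivative k) Φ x y, h, map_zero]

end PowerSeries

end Fermat.Agent.SQ

namespace Fermat.Agent.SQ

open Polynomial

section Laurent

variable {k : Type*} [Field k]

/-- evaluation of polynomials commutes with `k⟦X⟧ → k⸨X⸩`. -/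
theorem sqgd_ofPS_comp_aeval (x : PowerSeries k) :
    (HahnSeries.ofPowerSeries ℤ k).comp
        ((aeval x : k[X] →ₐ[k] PowerSeries k) : k[X] →+* PowerSeries k) =
      ((aeval (HahnSeries.ofPowerSeries ℤ k x) : k[X] →ₐ[k] LaurentSeries k) :
        k[X] →+* LaurentSeries k) := by
  refine Polynomial.ringHom_ext (fun c => ?_) ?_
  · simp only [RingHom.comp_apply, RingHom.coe_coe, aeval_C]
    exact (HahnSeries.algebraMap_apply' ℤ c).symm
  · simp only [RingHom.comp_apply, RingHom.coe_coe, aeval_X]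

theorem sqgd_ofPS_eval₂ (Φ : k[X][X]) (x y : PowerSeries k) :
    HahnSeries.ofPowerSeries ℤ k
        (Φ.eval₂ ((aeval x : k[X] →ₐ[k] PowerSeries k) : k[X] →+* PowerSeries k) y) =
      Φ.eval₂ ((aeval (HahnSeries.ofPowerSeries ℤ k x) : k[X] →ₐ[k] LaurentSeries k) :
        k[X] →+* LaurentSeries k) (HahnSeries.ofPowerSeries ℤ k y) := by
  rw [Polynomial.hom_eval₂, sqgd_ofPS_comp_aeval]

/-- a Laurent series `x` with `x - C a` of order one is a power series with unit derivative. -/
theorem sqgd_exists_ps (x : LaurentSeries k) (a : k)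
    (hx : (x - HahnSeries.C a).order = 1) :
    ∃ X : PowerSeries k, HahnSeries.ofPowerSeries ℤ k X = x ∧
      IsUnit (PowerSeries.derivative k X) := by
  set L : LaurentSeries k := x - HahnSeries.C a with hL
  have hL0 : L ≠ 0 := by
    intro h0
    rw [h0, HahnSeries.order_zero] at hx
    exact zero_ne_one hx
  have h1 : ((PowerSeries.X ^ 1 * L.powerSeriesPart : PowerSeries k) : LaurentSeries k) = L :=
    LaurentSeries.X_order_mul_powerSeriesPart (by rw [hx]; rfl)
  refine ⟨PowerSeries.C a + PowerSeries.X ^ 1 * L.powerSeriesPart, ?_, ?_⟩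
  · rw [map_add]
    have h2 : HahnSeries.ofPowerSeries ℤ k (PowerSeries.X ^ 1 * L.powerSeriesPart) = L := h1
    rw [h2, HahnSeries.ofPowerSeries_C, hL]
    ring
  · rw [map_add, PowerSeries.derivative_C, zero_add, pow_one, Derivation.leibniz,
      PowerSeries.derivative_X]
    rw [PowerSeries.isUnit_iff_constantCoeff]
    simp only [smul_eq_mul, mul_one, map_add, map_mul, PowerSeries.constantCoeff_X, zero_mul,
      zero_add]
    rw [isUnit_iff_ne_zero, ← PowerSeries.coeff_zero_eq_constantCoeff_apply,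
      LaurentSeries.powerSeriesPart_coeff, Nat.cast_zero, add_zero]
    exact fun h => hL0 (HahnSeries.coeff_order_eq_zero.1 h)

theorem sqgd_order_ofPS_unit {u : PowerSeries k} (hu : IsUnit u) :
    (HahnSeries.ofPowerSeries ℤ k u).order = 0 := by
  have hc : PowerSeries.constantCoeff u ≠ 0 := by
    rw [PowerSeries.isUnit_iff_constantCoeff, isUnit_iff_ne_zero] at hu
    exact hu
  have hcoeff : (HahnSeries.ofPowerSeries ℤ k u).coeff ((0 : ℕ) : ℤ) ≠ 0 := by
    rw [HahnSeries.ofPowerSeries_apply_coeff, PowerSeries.coeff_zero_eq_constantCoeff_apply]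
    exact hc
  have hne : HahnSeries.ofPowerSeries ℤ k u ≠ 0 := by
    intro h0; rw [h0] at hcoeff; exact hcoeff rfl
  apply le_antisymm
  · exact_mod_cast HahnSeries.order_le_of_coeff_ne_zero hcoeff
  · rw [HahnSeries.le_order_iff_forall hne]
    intro j hj
    rw [HahnSeries.ofPowerSeries_apply]
    refine HahnSeries.embDomain_of_notMem_range ?_
    rintro ⟨m, rfl⟩
    exact absurd hj (not_lt.mpr (Int.natCast_nonneg m))

/-- **implicit differentiation, Laurent form** : if `x - a`, `y - b` have order one and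
`Φ(x, y) = 0` then the two partial derivatives at `(x, y)` have the same order and vanish
simultaneously. -/
theorem sqgd_order_eq (Φ : k[X][X]) (x y : LaurentSeries k) (a b : k)
    (hx : (x - HahnSeries.C a).order = 1) (hy : (y - HahnSeries.C b).order = 1)
    (h : Φ.eval₂ ((aeval x : k[X] →ₐ[k] LaurentSeries k) : k[X] →+* LaurentSeries k) y = 0) :
    ((sqgdDX Φ).eval₂ ((aeval x : k[X] →ₐ[k] LaurentSeries k) : k[X] →+* LaurentSeries k) y = 0 ↔
      (derivative Φ).eval₂ ((aeval x : k[X] →ₐ[k] LaurentSeries k) : k[X] →+* LaurentSeries k) y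
        = 0) ∧
    ((sqgdDX Φ).eval₂ ((aeval x : k[X] →ₐ[k] LaurentSeries k) : k[X] →+* LaurentSeries k)
        y).order =
      ((derivative Φ).eval₂ ((aeval x : k[X] →ₐ[k] LaurentSeries k) : k[X] →+* LaurentSeries k)
        y).order := by
  obtain ⟨X₀, rfl, hX⟩ := sqgd_exists_ps x a hx
  obtain ⟨Y₀, rfl, hY⟩ := sqgd_exists_ps y b hy
  rw [← sqgd_ofPS_eval₂] at h
  have h0 : Φ.eval₂ ((aeval X₀ : k[X] →ₐ[k] PowerSeries k) : k[X] →+* PowerSeries k) Y₀ = 0 :=
    HahnSeries.ofPowerSeries_injective (by rw [h, map_zero])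
  have hrel := sqgd_ps_relation Φ X₀ Y₀ h0
  rw [← sqgd_ofPS_eval₂, ← sqgd_ofPS_eval₂]
  set P₁ := (sqgdDX Φ).eval₂ ((aeval X₀ : k[X] →ₐ[k] PowerSeries k) : k[X] →+* PowerSeries k) Y₀
  set P₂ := (derivative Φ).eval₂
    ((aeval X₀ : k[X] →ₐ[k] PowerSeries k) : k[X] →+* PowerSeries k) Y₀
  set o := HahnSeries.ofPowerSeries ℤ k
  have hrel' : o P₁ * o (PowerSeries.derivative k X₀) =
      - (o P₂ * o (PowerSeries.derivative k Y₀)) := by
    rw [← map_mul, ← map_mul, ← map_neg, eq_neg_of_add_eq_zero_left hrel]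
  have hX0 : o (PowerSeries.derivative k X₀) ≠ 0 := fun h0 =>
    hX.ne_zero (HahnSeries.ofPowerSeries_injective (by rw [h0, map_zero]))
  have hY0 : o (PowerSeries.derivative k Y₀) ≠ 0 := fun h0 =>
    hY.ne_zero (HahnSeries.ofPowerSeries_injective (by rw [h0, map_zero]))
  have hiff : o P₁ = 0 ↔ o P₂ = 0 := by
    constructor
    · intro h1
      rw [h1, zero_mul, eq_comm, neg_eq_zero, mul_eq_zero] at hrel'
      exact hrel'.resolve_right hY0
    · intro h2
      rw [h2, zero_mul, neg_zero, mul_eq_zero] at hrel'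
      exact hrel'.resolve_right hX0
  refine ⟨hiff, ?_⟩
  by_cases h1 : o P₁ = 0
  · rw [h1, hiff.1 h1]
  · have h2 : o P₂ ≠ 0 := fun h => h1 (hiff.2 h)
    have e1 := HahnSeries.order_mul h1 hX0
    have e2 := HahnSeries.order_mul h2 hY0
    rw [hrel', HahnSeries.order_neg, e2, sqgd_order_ofPS_unit hX, sqgd_order_ofPS_unit hY,
      add_zero, add_zero] at e1
    exact e1.symm

end Laurent

end Fermat.Agent.SQ
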