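import Mathlib
import Fermat.Agent.SQ.Germ.DerivAbs

/-!
# Program Q (S36), risk R1, piece (REL) abstract part : existence of a separable relation
(prefix `sqgxr_`)

* `sqgxr_exists_of_rel` : characteristic `0` : if `b` satisfies SOME nontrivial relation
  `Ψ(a, b) = 0` (`Ψ ∈ E[X][Y]`, `Ψ(a, Y) ≠ 0`) then it satisfies one with `Φ_Y(a, b) ≠ 0`
  (take `Ψ` with `Ψ(a, Y)` of minimal degree);
* `sqgxr_exists_of_isAlgebraic` : the same from `IsAlgebraic (Algebra.adjoin E {a}) b`;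
* `sqgxr_isAlgebraic_exchange` : `t, a` transcendental over `E`, `a`, `b` algebraic over `E(t)`
  ⟹ `b` algebraic over `E[a]` (Mathlib's exchange lemma `IsAlgebraic.adjoin_singleton`);
* `sqgxr_exists` : the combination : `F / E(t)` algebraic, `a` transcendental ⟹ for every `b`
  there is `Φ` with `Φ(a,b) = 0`, `Φ_Y(a,b) ≠ 0`;
* `sqgxr_chain` : the chain rule `Φ_X(a,b) · d a + Φ_Y(a,b) · d b = 0` for an additive Leibniz map
  `d : F → F` killing `E` (from helper10's `sqgd_chain`);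
* `sqgxr_d_ne_zero` : such a `d` with `d t = 1` (`F / E(t)` algebraic) does not kill a
  transcendental element.
-/

set_option autoImplicit false

noncomputable section

namespace Fermat.Agent.SQ

open Polynomial IntermediateField

section Rel

variable {E F : Type*} [Field E] [Field F] [Algebra E F]

/-- from any nontrivial relation to a separable one (characteristic `0`). -/
theorem sqgxr_exists_of_rel [CharZero F] (a b : F)
    (h : ∃ Ψ : E[X][X], Ψ.map ((aeval a : E[X] →ₐ[E] F) : E[X] →+* F) ≠ 0 ∧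
      Ψ.eval₂ ((aeval a : E[X] →ₐ[E] F) : E[X] →+* F) b = 0) :
    ∃ Φ : E[X][X], Φ.eval₂ ((aeval a : E[X] →ₐ[E] F) : E[X] →+* F) b = 0 ∧
      (derivative Φ).eval₂ ((aeval a : E[X] →ₐ[E] F) : E[X] →+* F) b ≠ 0 := by
  classical
  set f : E[X] →+* F := ((aeval a : E[X] →ₐ[E] F) : E[X] →+* F) with hf
  have hex : ∃ n : ℕ, ∃ Ψ : E[X][X], Ψ.map f ≠ 0 ∧ (Ψ.map f).natDegree = n ∧
      Ψ.eval₂ f b = 0 := by
    obtain ⟨Ψ, h1, h2⟩ := h
    exact ⟨_, Ψ, h1, rfl, h2⟩
  obtain ⟨Ψ, hΨ0, hΨn, hΨb⟩ := Nat.find_spec hex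
  refine ⟨Ψ, hΨb, fun hder => ?_⟩
  set g : F[X] := Ψ.map f with hg
  have hgb : g.eval b = 0 := by rw [hg, eval_map]; exact hΨb
  have hdeg : g.natDegree ≠ 0 := by
    intro h0
    rw [natDegree_eq_zero] at h0
    obtain ⟨c, hc⟩ := h0
    rw [← hc, eval_C] at hgb
    rw [← hc, hgb, map_zero] at hΨ0
    exact hΨ0 rfl
  have hdg : derivative g ≠ 0 := fun h0 => hdeg (Polynomial.derivative_eq_zero.mp h0)
  have hdmap : (derivative Ψ).map f = derivative g := by rw [hg, derivative_map]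
  have hlt : (derivative g).natDegree < Nat.find hex := by
    rw [← hΨn]
    exact natDegree_derivative_lt hdeg
  exact Nat.find_min hex hlt ⟨derivative Ψ, by rw [hdmap]; exact hdg, by rw [hdmap], hder⟩

/-- the same, from algebraicity over the subalgebra `E[a]`. -/
theorem sqgxr_exists_of_isAlgebraic [CharZero F] (a b : F)
    (h : IsAlgebraic (Algebra.adjoin E {a}) b) :
    ∃ Φ : E[X][X], Φ.eval₂ ((aeval a : E[X] →ₐ[E] F) : E[X] →+* F) b = 0 ∧
      (derivative Φ).eval₂ ((aeval a : E[X] →ₐ[E] F) : E[X] →+* F) b ≠ 0 := by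
  apply sqgxr_exists_of_rel
  obtain ⟨p, hp0, hpb⟩ := h
  set a' : Algebra.adjoin E {a} := ⟨a, Algebra.self_mem_adjoin_singleton E a⟩ with ha'
  set ρ : E[X] →+* Algebra.adjoin E {a} :=
    ((aeval a' : E[X] →ₐ[E] Algebra.adjoin E {a}) : E[X] →+* Algebra.adjoin E {a}) with hρ
  have hρc : ∀ r : E[X], ((ρ r : Algebra.adjoin E {a}) : F) = aeval a r := fun r => by
    rw [hρ]
    exact aeval_subalgebra_coe r _ a'
  have hsurj : Function.Surjective ρ := by
    rintro ⟨y, hy⟩
    rw [Algebra.adjoin_singleton_eq_range_aeval] at hy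
    obtain ⟨r, hr⟩ := hy
    exact ⟨r, Subtype.ext ((hρc r).trans hr)⟩
  obtain ⟨Ψ, hΨ⟩ := Polynomial.map_surjective ρ hsurj p
  have hcomp : ((aeval a : E[X] →ₐ[E] F) : E[X] →+* F) =
      (algebraMap (Algebra.adjoin E {a}) F).comp ρ := by
    ext r
    · simp only [RingHom.coe_comp, Function.comp_apply, RingHom.coe_coe, aeval_C]
      rw [show ρ (C r) = algebraMap E _ r from by rw [hρ]; simp]
      rfl
    · simp only [RingHom.coe_comp, Function.comp_apply, RingHom.coe_coe, aeval_X]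
      rw [show ρ X = a' from by rw [hρ]; simp]
      rfl
  refine ⟨Ψ, ?_, ?_⟩
  · rw [hcomp, ← Polynomial.map_map, hΨ]
    intro h0
    exact hp0 (Polynomial.map_injective _ (Subtype.val_injective) (h0.trans (Polynomial.map_zero _).symm))
  · rw [hcomp, ← eval_map, ← Polynomial.map_map, hΨ, eval_map]
    exact hpb

/-- exchange : `t`, `a` transcendental over `E`, `a` and `b` algebraic over `E[t]` ⟹ `b`
algebraic over `E[a]`. -/
theorem sqgxr_isAlgebraic_exchange (t a b : F) (ht : Transcendental E t)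
    (hat : Transcendental E a) (ha : IsAlgebraic (Algebra.adjoin E {t}) a)
    (hb : IsAlgebraic (Algebra.adjoin E {t}) b) : IsAlgebraic (Algebra.adjoin E {a}) b := by
  have h1 : IsAlgebraic (Algebra.adjoin E {a}) t := IsAlgebraic.adjoin_singleton ht hat ha
  refine IsAlgebraic.adjoin_of_forall_isAlgebraic (s := {t}) (t := {a}) ?_ hb
  rintro x ⟨hx, -⟩
  rw [Set.mem_singleton_iff] at hx
  rw [hx]
  exact h1

/-- **(REL)** : `F / E(t)` algebraic, `a` transcendental over `E` : every `b` satisfies a relation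
`Φ(a, b) = 0` with `Φ_Y(a, b) ≠ 0`. -/
theorem sqgxr_exists [CharZero F] (t : F) (ht : Transcendental E t)
    [Algebra.IsAlgebraic E⟮t⟯ F] (a b : F) (hat : Transcendental E a) :
    ∃ Φ : E[X][X], Φ.eval₂ ((aeval a : E[X] →ₐ[E] F) : E[X] →+* F) b = 0 ∧
      (derivative Φ).eval₂ ((aeval a : E[X] →ₐ[E] F) : E[X] →+* F) b ≠ 0 := by
  apply sqgxr_exists_of_isAlgebraic
  have h : ∀ y : F, IsAlgebraic (Algebra.adjoin E {t}) y := fun y =>
    IntermediateField.isAlgebraic_adjoin_iff.mp (Algebra.IsAlgebraic.isAlgebraic y)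
  exact sqgxr_isAlgebraic_exchange t a b ht hat (h a) (h b)

end Rel

section Chain

variable {E F : Type*} [Field E] [Field F] [Algebra E F]

/-- an additive Leibniz map killing `E`, as a derivation. -/
def sqgxrDer (d : F →+ F) (hd : ∀ x y, d (x * y) = d x * y + x * d y)
    (hc : ∀ c : E, d (algebraMap E F c) = 0) : Derivation E F F :=
  Derivation.mk'
    { toFun := d
      map_add' := map_add d
      map_smul' := fun c x => by
        rw [Algebra.smul_def, hd, hc, zero_mul, zero_add, RingHom.id_apply, Algebra.smul_def] }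
    (fun x y => by
      show d (x * y) = x • d y + y • d x
      rw [hd, smul_eq_mul, smul_eq_mul]; ring)

theorem sqgxrDer_apply (d : F →+ F) (hd : ∀ x y, d (x * y) = d x * y + x * d y)
    (hc : ∀ c : E, d (algebraMap E F c) = 0) (x : F) : sqgxrDer d hd hc x = d x := rfl

/-- the chain rule for an additive Leibniz map killing the constants. -/
theorem sqgxr_chain (d : F →+ F) (hd : ∀ x y, d (x * y) = d x * y + x * d y)
    (hc : ∀ c : E, d (algebraMap E F c) = 0) (Φ : E[X][X]) (a b : F)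
    (hΦ : Φ.eval₂ ((aeval a : E[X] →ₐ[E] F) : E[X] →+* F) b = 0) :
    (sqgdDX Φ).eval₂ ((aeval a : E[X] →ₐ[E] F) : E[X] →+* F) b * d a +
      (derivative Φ).eval₂ ((aeval a : E[X] →ₐ[E] F) : E[X] →+* F) b * d b = 0 := by
  have h := sqgd_chain (sqgxrDer d hd hc) Φ a b
  rw [hΦ, map_zero, sqgxrDer_apply, sqgxrDer_apply] at h
  exact h.symm

/-- a derivation with `d t = 1` (`F / E(t)` algebraic, characteristic `0`) does not kill a
transcendental element. -/
theorem sqgxr_d_ne_zero [CharZero F] (d : F →+ F) (hd : ∀ x y, d (x * y) = d x * y + x * d y)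
    (hc : ∀ c : E, d (algebraMap E F c) = 0) (t : F) (ht : Transcendental E t)
    [Algebra.IsAlgebraic E⟮t⟯ F] (hdt : d t = 1) (a : F) (hat : Transcendental E a) :
    d a ≠ 0 := by
  intro h0
  obtain ⟨Φ, hΦ, hΦY⟩ := sqgxr_exists t ht a t hat
  have h := sqgxr_chain d hd hc Φ a t hΦ
  rw [h0, mul_zero, zero_add, hdt, mul_one] at h
  exact hΦY h

/-- **consumer form** : `g · d a = d b`, `d a ≠ 0`, `Φ(a,b) = 0`, `Φ_Y(a,b) ≠ 0` ⟹
`g = - Φ_X(a,b) / Φ_Y(a,b)`. -/
theorem sqgxr_eq_neg_div (d : F →+ F) (hd : ∀ x y, d (x * y) = d x * y + x * d y)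
    (hc : ∀ c : E, d (algebraMap E F c) = 0) (Φ : E[X][X]) (a b g : F)
    (hΦ : Φ.eval₂ ((aeval a : E[X] →ₐ[E] F) : E[X] →+* F) b = 0)
    (hΦY : (derivative Φ).eval₂ ((aeval a : E[X] →ₐ[E] F) : E[X] →+* F) b ≠ 0)
    (hda : d a ≠ 0) (hg : g * d a = d b) :
    g = -((sqgdDX Φ).eval₂ ((aeval a : E[X] →ₐ[E] F) : E[X] →+* F) b *
      ((derivative Φ).eval₂ ((aeval a : E[X] →ₐ[E] F) : E[X] →+* F) b)⁻¹) := by
  have h := sqgxr_chain d hd hc Φ a b hΦ
  rw [← hg] at h
  have h2 : ((sqgdDX Φ).eval₂ ((aeval a : E[X] →ₐ[E] F) : E[X] →+* F) b +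
      (derivative Φ).eval₂ ((aeval a : E[X] →ₐ[E] F) : E[X] →+* F) b * g) * d a = 0 := by
    rw [← h]; ring
  have h3 := (mul_eq_zero.mp h2).resolve_right hda
  field_simp
  linear_combination h3

end Chain

end Fermat.Agent.SQ
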