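import Mathlib
import Fermat.Agent.S18.RH.R
import Fermat.Agent.SQ.Germ.DerivAbs

/-!
# Program Q, GERM², leaf (H) at the level `ℚ̄` (prefix `sqgd`)

* `sqgd_exists_emb` : a place `v` of `F_ℚ̄(N)` over `j = a`, `a ≠ 0, 1728`, is the place of a
  Laurent embedding `ε : F_ℚ̄(N) → ℂ((z))` with `order (ε f) = ord_v f`;
* `sqgd_ord_partial_eq` : if moreover `y ∈ F_ℚ̄(N)` is unramified at `v` (`ord_v (y - b) = 1`) and
  `Φ(j, y) = 0` then `ord_v (∂₁Φ)(j,y) = ord_v (∂₂Φ)(j,y)`.
-/

set_option autoImplicit false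
set_option linter.unusedSectionVars false
set_option linter.unusedVariables false

noncomputable section

namespace Fermat.Agent.SQ

open Fermat.Agent.S24 Fermat.Agent.S18 AlgebraicCurve ModularCurve UpperHalfPlane Polynomial
open scoped MatrixGroups Manifold ModularForm Real

variable (N : ℕ) [NeZero N]

/-- a place over a non-elliptic value of `j` is given by a Laurent embedding. -/
theorem sqgd_exists_emb (a : QBar) (ha0 : a ≠ 0) (ha : a ≠ 1728)
    (v : Place QBar (modularFunctionFieldBar N))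
    (hv : 0 < v.ord (jBar N - algebraMap QBar (modularFunctionFieldBar N) a)) :
    ∃ ε : modularFunctionFieldBar N →+* LaurentSeries ℂ,
      (∀ c : QBar, ε (algebraMap QBar (modularFunctionFieldBar N) c) =
        HahnSeries.C (iotaBar c)) ∧
      ∀ f : modularFunctionFieldBar N, f ≠ 0 → (ε f).order = v.ord f := by
  classical
  obtain ⟨τ₀, hτ⟩ := jFun_surjective (iotaBar a)
  have h0 : jFun τ₀ ≠ 0 := by
    rw [hτ]
    exact fun h => ha0 (iotaBar.injective (by rw [h, map_zero]))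
  have h1 : jFun τ₀ ≠ 1728 := by
    rw [hτ]
    exact fun h => ha (iotaBar.injective (by rw [h, map_ofNat]))
  have hζ : IsPrimitiveRoot (rotFactor 1 τ₀) 1 := by
    rw [rotFactor_one]
    exact IsPrimitiveRoot.one
  have he : analyticOrderAt (fun z : ℂ => jFun (ofComplex z) - jFun τ₀) (τ₀ : ℂ) = (1 : ℕ) := by
    rw [analyticOrderAt_jFun_sub, if_neg h0, if_neg h1]; rfl
  have hfin : Finite (SL(2, ℤ) ⧸ CongruenceSubgroup.Gamma0 N) := finite_quotient_Gamma0 N
  let _inst : Fintype (SL(2, ℤ) ⧸ CongruenceSubgroup.Gamma0 N) := Fintype.ofFinite _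
  have hζ0 : rotFactor (1 : SL(2, ℤ)) τ₀ ≠ 0 := hζ.ne_zero one_ne_zero
  set ζ : ℂˣ := Units.mk0 (rotFactor 1 τ₀) hζ0 with hζdef
  have hζval : (ζ : ℂ) = rotFactor 1 τ₀ := rfl
  have ht : IsSepGen QBar (jBar N - algebraMap QBar (modularFunctionFieldBar N) a) :=
    (isSepGen_jBar N).sub_algebraMap a
  obtain ⟨κ, hm, -, hsurj, -⟩ := exists_places_of_embeddings ht
    (fun q : SL(2, ℤ) ⧸ CongruenceSubgroup.Gamma0 N => pointEmb N τ₀ q.out)
    (pointEmb_out_injective N τ₀)
    (by rw [(isSepGen_jBar N).finrank_sub_algebraMap a, finrank_jBar, Fintype.card_eq_nat_card])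
    (fun i j c => by rw [pointEmb_algebraMap, pointEmb_algebraMap])
    (fun i c hc => by
      rw [pointEmb_algebraMap, HahnSeries.C_apply]
      apply HahnSeries.order_single
      intro h0
      exact hc (iotaBar_injective (by rw [h0, map_zero])))
    (fun i j => by rw [pointEmb_jBar_sub, pointEmb_jBar_sub])
    1 one_pos (fun i => order_pointEmb_jBar_sub N τ₀ _ a hτ 1 he)
    (rotFactor 1 τ₀) hζ (rotLaurent ζ) (fun f m => by rw [rotLaurent_coeff, hζval])
    (MulAction.toPerm (1 : SL(2, ℤ))⁻¹)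
    (by
      intro q f
      rw [rotLaurent_pointEmb N τ₀ 1 (one_smul _ _) ζ hζval]
      obtain ⟨h, hh, hout⟩ := exists_out_smul_eq N (1 : SL(2, ℤ))⁻¹ q
      show _ = pointEmb N τ₀ ((1 : SL(2, ℤ))⁻¹ • q).out f
      rw [hout, pointEmb_mul_of_mem_Gamma0 N τ₀ _ h hh])
  obtain ⟨i, rfl⟩ := hsurj v hv
  have hone : (κ i).ord (jBar N - algebraMap QBar (modularFunctionFieldBar N) a) = 1 :=
    s18r_ord_eq_one N a ha0 ha (κ i) hv
  refine ⟨pointEmb N τ₀ i.out, fun c => pointEmb_algebraMap N τ₀ _ c, fun f hf => ?_⟩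
  have := hm i f hf
  rw [hone, mul_one, Nat.cast_one, one_mul] at this
  exact this


/-- ring homomorphisms compatible with the constants commute with bivariate evaluation. -/
theorem sqgd_map_eval₂ {K F K' F' : Type*} [Field K] [Field F] [Algebra K F] [Field K']
    [Field F'] [Algebra K' F'] (ι : K →+* K') (ε : F →+* F')
    (hε : ∀ c : K, ε (algebraMap K F c) = algebraMap K' F' (ι c)) (Ψ : K[X][X]) (x y : F) :
    ε (Ψ.eval₂ ((aeval x : K[X] →ₐ[K] F) : K[X] →+* F) y) =
      (Ψ.map (mapRingHom ι)).eval₂ ((aeval (ε x) : K'[X] →ₐ[K'] F') : K'[X] →+* F') (ε y) := by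
  rw [Polynomial.hom_eval₂, Polynomial.eval₂_map]
  congr 1
  refine Polynomial.ringHom_ext (fun c => ?_) ?_
  · simp only [RingHom.comp_apply, RingHom.coe_coe, aeval_C, coe_mapRingHom, map_C, hε]
  · simp only [RingHom.comp_apply, RingHom.coe_coe, aeval_X, coe_mapRingHom, map_X]

/-- **(H) at the level `ℚ̄`** : implicit differentiation at a place where both coordinates are
unramified. -/
theorem sqgd_ord_partial_eq (a b : QBar) (ha0 : a ≠ 0) (ha : a ≠ 1728)
    (v : Place QBar (modularFunctionFieldBar N))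
    (hv : 0 < v.ord (jBar N - algebraMap QBar (modularFunctionFieldBar N) a))
    (y : modularFunctionFieldBar N)
    (hy : v.ord (y - algebraMap QBar (modularFunctionFieldBar N) b) = 1)
    (Φ : QBar[X][X])
    (hΦ : Φ.eval₂ ((aeval (jBar N) : QBar[X] →ₐ[QBar] modularFunctionFieldBar N) :
      QBar[X] →+* modularFunctionFieldBar N) y = 0) :
    ((sqgdDX Φ).eval₂ ((aeval (jBar N) : QBar[X] →ₐ[QBar] modularFunctionFieldBar N) :
        QBar[X] →+* modularFunctionFieldBar N) y = 0 ↔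
      (derivative Φ).eval₂ ((aeval (jBar N) : QBar[X] →ₐ[QBar] modularFunctionFieldBar N) :
        QBar[X] →+* modularFunctionFieldBar N) y = 0) ∧
    v.ord ((sqgdDX Φ).eval₂ ((aeval (jBar N) : QBar[X] →ₐ[QBar] modularFunctionFieldBar N) :
        QBar[X] →+* modularFunctionFieldBar N) y) =
      v.ord ((derivative Φ).eval₂
        ((aeval (jBar N) : QBar[X] →ₐ[QBar] modularFunctionFieldBar N) :
        QBar[X] →+* modularFunctionFieldBar N) y) := by
  obtain ⟨ε, hεc, hεo⟩ := sqgd_exists_emb N a ha0 ha v hv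
  have hεc' : ∀ c : QBar, ε (algebraMap QBar (modularFunctionFieldBar N) c) =
      algebraMap ℂ (LaurentSeries ℂ) (iotaBar c) := fun c => by
    rw [hεc]
    exact (LaurentSeries.algebraMap_apply ℂ (iotaBar c)).symm
  have hone := s18r_ord_eq_one N a ha0 ha v hv
  have hx0 : jBar N - algebraMap QBar (modularFunctionFieldBar N) a ≠ 0 := by
    intro h0
    rw [h0] at hone
    simp at hone
  have hy0 : y - algebraMap QBar (modularFunctionFieldBar N) b ≠ 0 := by
    intro h0
    rw [h0] at hy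
    simp at hy
  have hX : (ε (jBar N) - HahnSeries.C (iotaBar a)).order = 1 := by
    rw [← hεc, ← map_sub, hεo _ hx0, hone]
  have hY : (ε y - HahnSeries.C (iotaBar b)).order = 1 := by
    rw [← hεc, ← map_sub, hεo _ hy0, hy]
  have hΦ' := congrArg ε hΦ
  rw [sqgd_map_eval₂ iotaBar ε hεc', map_zero] at hΦ'
  obtain ⟨hiff, hord⟩ := sqgd_order_eq (Φ.map (mapRingHom iotaBar)) (ε (jBar N)) (ε y)
    (iotaBar a) (iotaBar b) hX hY hΦ'
  rw [sqgdDX_map, sqgd_derivative_map, ← sqgd_map_eval₂ iotaBar ε hεc',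
    ← sqgd_map_eval₂ iotaBar ε hεc'] at hiff hord
  have hinj : ∀ f : modularFunctionFieldBar N, ε f = 0 ↔ f = 0 := fun f =>
    map_eq_zero_iff ε ε.injective
  rw [hinj, hinj] at hiff
  refine ⟨hiff, ?_⟩
  by_cases h1 : (sqgdDX Φ).eval₂ ((aeval (jBar N) : QBar[X] →ₐ[QBar] modularFunctionFieldBar N) :
        QBar[X] →+* modularFunctionFieldBar N) y = 0
  · rw [h1, hiff.1 h1]
  · have h2 := fun h => h1 (hiff.2 h)
    rw [← hεo _ h1, ← hεo _ h2, hord]

end Fermat.Agent.SQ
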