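import Mathlib
import Fermat.Agent.SQ.Germ.DerivBar
import Fermat.Agent.SS.Dict.Place
import Fermat.Agent.S18.RH.Main

/-!
# Program Q (S36), risk R1, piece (H-x) : horizontal unit-ness of `d y / d x` for general
unramified coordinates (prefix `sqgx_`)

Generalises helper10's `sqgd_horizontal` from `(j, j_q)` to ANY pair `(a, b)` of elements of a
function field (`a = α x`, `b = φ x'` in the application), at a place where `m(a)`, `m'(b)` are
uniformisers for separable `m, m' ∈ E[X]` ("unramified coordinates"; the place need not be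
rational, `a`, `b` may take elliptic `j`-values).

* `sqgx_order_eq` (Mathlib + DerivAbs) : Laurent series, characteristic `0` : `x - a`, `y - b` of
  the SAME order `r ≥ 1`, `Φ(x,y) = 0` ⟹ `ord Φ_X(x,y) = ord Φ_Y(x,y)`;
* `sqgx_order_sub` : `m` separable, `ord_v m(a) > 0` ⟹ `ord (ε a - ρ) = ord_v m(a)` for a
  Laurent embedding `ε` of the place `v`;
* `sqgx_ord_partial_eq` : the statement at a place with a Laurent embedding (any `K`, `F`);
* `sqgx_horizontal` : the statement for `F_E(N)` and a weak place `V`, given Laurent embeddings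
  of the places of `F_ℚ̄(N)` above `V` (helper10 `sqgd_exists_emb` / helper28 (NOELL)).
-/

set_option autoImplicit false
set_option linter.unusedSectionVars false
set_option linter.unusedVariables false

noncomputable section

namespace Fermat.Agent.SQ

open Polynomial AlgebraicCurve Fermat.Agent.S24

section Laurent

variable {k : Type*} [Field k] [CharZero k]

/-- a Laurent series `x` with `x - C a` of order `r ≥ 1` is a power series whose derivative is
`X^(r-1)` times a unit (characteristic `0`). -/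
theorem sqgx_exists_ps (x : LaurentSeries k) (a : k) (r : ℕ) (hr : 0 < r)
    (hx : (x - HahnSeries.C a).order = (r : ℤ)) :
    ∃ X₀ W : PowerSeries k, HahnSeries.ofPowerSeries ℤ k X₀ = x ∧ IsUnit W ∧
      PowerSeries.derivative k X₀ = PowerSeries.X ^ (r - 1) * W := by
  set L : LaurentSeries k := x - HahnSeries.C a with hL
  have hL0 : L ≠ 0 := by
    intro h0
    rw [h0, HahnSeries.order_zero] at hx
    have : (r : ℤ) = 0 := hx.symm
    omega
  have h1 : ((PowerSeries.X ^ r * L.powerSeriesPart : PowerSeries k) : LaurentSeries k) = L :=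
    LaurentSeries.X_order_mul_powerSeriesPart hx.symm
  set U := L.powerSeriesPart with hU
  have hU0 : PowerSeries.constantCoeff U ≠ 0 := by
    rw [← PowerSeries.coeff_zero_eq_constantCoeff_apply, hU,
      LaurentSeries.powerSeriesPart_coeff, Nat.cast_zero, add_zero]
    exact fun h => hL0 (HahnSeries.coeff_order_eq_zero.1 h)
  refine ⟨PowerSeries.C a + PowerSeries.X ^ r * U,
    (r : PowerSeries k) * U + PowerSeries.X * PowerSeries.derivative k U, ?_, ?_, ?_⟩
  · rw [map_add]
    have h2 : HahnSeries.ofPowerSeries ℤ k (PowerSeries.X ^ r * U) = L := h1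
    rw [h2, HahnSeries.ofPowerSeries_C, hL]
    ring
  · rw [PowerSeries.isUnit_iff_constantCoeff, isUnit_iff_ne_zero]
    simp only [map_add, map_mul, map_natCast, PowerSeries.constantCoeff_X, zero_mul, add_zero]
    exact mul_ne_zero (Nat.cast_ne_zero.mpr hr.ne') hU0
  · obtain ⟨s, rfl⟩ : ∃ s, r = s + 1 := ⟨r - 1, by omega⟩
    rw [map_add, PowerSeries.derivative_C, zero_add, Derivation.leibniz, Derivation.leibniz_pow,
      PowerSeries.derivative_X, Nat.add_sub_cancel]
    simp only [smul_eq_mul, nsmul_eq_mul, mul_one]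
    rw [pow_succ]
    ring

/-- **implicit differentiation, Laurent form, equal orders** : if `x - a`, `y - b` have the same
order `r ≥ 1` and `Φ(x, y) = 0` then the two partial derivatives at `(x, y)` have the same order
and vanish simultaneously (characteristic `0`). -/
theorem sqgx_order_eq (Φ : k[X][X]) (x y : LaurentSeries k) (a b : k) (r : ℕ) (hr : 0 < r)
    (hx : (x - HahnSeries.C a).order = (r : ℤ)) (hy : (y - HahnSeries.C b).order = (r : ℤ))
    (h : Φ.eval₂ ((aeval x : k[X] →ₐ[k] LaurentSeries k) : k[X] →+* LaurentSeries k) y = 0) :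
    ((sqgdDX Φ).eval₂ ((aeval x : k[X] →ₐ[k] LaurentSeries k) : k[X] →+* LaurentSeries k) y = 0 ↔
      (derivative Φ).eval₂ ((aeval x : k[X] →ₐ[k] LaurentSeries k) : k[X] →+* LaurentSeries k) y
        = 0) ∧
    ((sqgdDX Φ).eval₂ ((aeval x : k[X] →ₐ[k] LaurentSeries k) : k[X] →+* LaurentSeries k)
        y).order =
      ((derivative Φ).eval₂ ((aeval x : k[X] →ₐ[k] LaurentSeries k) : k[X] →+* LaurentSeries k)
        y).order := by
  obtain ⟨X₀, WX, rfl, hWX, hdX⟩ := sqgx_exists_ps x a r hr hx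
  obtain ⟨Y₀, WY, rfl, hWY, hdY⟩ := sqgx_exists_ps y b r hr hy
  rw [← sqgd_ofPS_eval₂] at h
  have h0 : Φ.eval₂ ((aeval X₀ : k[X] →ₐ[k] PowerSeries k) : k[X] →+* PowerSeries k) Y₀ = 0 :=
    HahnSeries.ofPowerSeries_injective (by rw [h, map_zero])
  have hrel := sqgd_ps_relation Φ X₀ Y₀ h0
  rw [← sqgd_ofPS_eval₂, ← sqgd_ofPS_eval₂]
  set P₁ := (sqgdDX Φ).eval₂ ((aeval X₀ : k[X] →ₐ[k] PowerSeries k) : k[X] →+* PowerSeries k) Y₀
  set P₂ := (derivative Φ).eval₂
    ((aeval X₀ : k[X] →ₐ[k] PowerSeries k) : k[X] →+* PowerSeries k) Y₀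
  -- cancel `X^(r-1)`
  have hrel2 : P₁ * WX = -(P₂ * WY) := by
    rw [hdX, hdY] at hrel
    have hXne : (PowerSeries.X : PowerSeries k) ^ (r - 1) ≠ 0 := pow_ne_zero _ PowerSeries.X_ne_zero
    apply mul_left_cancel₀ hXne
    linear_combination hrel
  set o := HahnSeries.ofPowerSeries ℤ k
  have hrel' : o P₁ * o WX = -(o P₂ * o WY) := by
    rw [← map_mul, ← map_mul, ← map_neg, hrel2]
  have hX0 : o WX ≠ 0 := fun h0 =>
    hWX.ne_zero (HahnSeries.ofPowerSeries_injective (by rw [h0, map_zero]))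
  have hY0 : o WY ≠ 0 := fun h0 =>
    hWY.ne_zero (HahnSeries.ofPowerSeries_injective (by rw [h0, map_zero]))
  have hiff : o P₁ = 0 ↔ o P₂ = 0 := by
    constructor
    · intro h1
      rw [h1, zero_mul, eq_comm, neg_eq_zero, mul_eq_zero] at hrel'
      exact hrel'.resolve_right hY0
    · intro h2
      rw [h2, zero_mul, neg_zero, mul_eq_zero] at hrel'
      exact hrel'.resolve_right hX0
  refine ⟨hiff, ?_⟩
  by_cases h1 : o P₁ = 0
  · rw [h1, hiff.1 h1]
  · have h2 : o P₂ ≠ 0 := fun h => h1 (hiff.2 h)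
    have e1 := HahnSeries.order_mul h1 hX0
    have e2 := HahnSeries.order_mul h2 hY0
    rw [hrel', HahnSeries.order_neg, e2, sqgd_order_ofPS_unit hWX, sqgd_order_ofPS_unit hWY,
      add_zero, add_zero] at e1
    exact e1.symm

end Laurent

section Place

variable {K F : Type*} [Field K] [Field F] [Algebra K F]

/-- a Laurent series of order `≥ 0` is a power series -/
theorem sqgx_exists_ofPS {k : Type*} [Field k] (A : LaurentSeries k) (hA : 0 ≤ A.order) :
    ∃ A₀ : PowerSeries k, HahnSeries.ofPowerSeries ℤ k A₀ = A := by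
  obtain ⟨n, hn⟩ := Int.eq_ofNat_of_zero_le hA
  exact ⟨PowerSeries.X ^ n * A.powerSeriesPart,
    LaurentSeries.X_order_mul_powerSeriesPart hn.symm⟩

/-- **unramified coordinates and Laurent embeddings** : if `m(a)` has positive order at `v` for a
separable `m ∈ K[X]` then `ε a - ρ` has the same order for a constant `ρ`. -/
theorem sqgx_order_sub (v : Place K F) (ι : K →+* ℂ) (ε : F →+* LaurentSeries ℂ)
    (hεc : ∀ c : K, ε (algebraMap K F c) = HahnSeries.C (ι c))
    (hεo : ∀ f : F, f ≠ 0 → (ε f).order = v.ord f)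
    (a : F) (ha : a ∈ v.toValuationSubring) (m : K[X]) (hm : m.Separable)
    (hpos : 0 < v.ord (aeval a m)) :
    ∃ ρ : ℂ, (ε a - HahnSeries.C ρ).order = v.ord (aeval a m) := by
  have hma0 : aeval a m ≠ 0 := by
    intro h0
    rw [h0, Place.ord_zero] at hpos
    exact lt_irrefl _ hpos
  -- `ε a` is a power series
  have hAord : 0 ≤ (ε a).order := by
    rcases eq_or_ne a 0 with rfl | ha0
    · rw [map_zero, HahnSeries.order_zero]
    · rw [hεo a ha0]
      exact PlaceOrd.ord_nonneg_of_mem v ha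
  obtain ⟨A₀, hA₀⟩ := sqgx_exists_ofPS (ε a) hAord
  set ρ : ℂ := PowerSeries.constantCoeff A₀ with hρ
  set mC : ℂ[X] := m.map ι with hmC
  have hsep : mC.Separable := hm.map
  -- `ε (m(a)) = mC(ε a)`
  have hεm : ε (aeval a m) = HahnSeries.ofPowerSeries ℤ ℂ (aeval A₀ mC) := by
    have h1 : ε (aeval a m) = aeval (ε a) mC := by
      rw [hmC, aeval_def, aeval_def, eval₂_map, hom_eval₂]
      congr 1
      ext c
      simp only [RingHom.comp_apply, hεc]
      exact (LaurentSeries.algebraMap_apply ℂ (ι c)).symm ▸ rfl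
    rw [h1, ← hA₀]
    have := sqgd_ofPS_comp_aeval (k := ℂ) A₀
    exact (RingHom.congr_fun this mC).symm
  -- `ρ` is a root of `mC`
  have hroot : mC.eval ρ = 0 := by
    have h1 : PowerSeries.constantCoeff (aeval A₀ mC) = mC.eval ρ := by
      rw [hρ, ← Polynomial.coe_aeval_eq_eval, aeval_def, aeval_def, hom_eval₂]
      congr 1
    rw [← h1]
    by_contra hne
    have hu : IsUnit (aeval A₀ mC) := by
      rw [PowerSeries.isUnit_iff_constantCoeff, isUnit_iff_ne_zero]
      exact hne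
    have := sqgd_order_ofPS_unit hu
    rw [← hεm, hεo _ hma0] at this
    omega
  -- `mC = (X - C ρ) * n`, `n(ρ) ≠ 0`
  obtain ⟨n, hn⟩ : (X - C ρ) ∣ mC := dvd_iff_isRoot.mpr hroot
  have hnρ : n.eval ρ ≠ 0 := by
    intro h0
    obtain ⟨n₂, hn₂⟩ : (X - C ρ) ∣ n := dvd_iff_isRoot.mpr h0
    have hsq : (X - C ρ) * (X - C ρ) ∣ mC := ⟨n₂, by rw [hn, hn₂]; ring⟩
    have := hsep.squarefree (X - C ρ) hsq
    exact not_isUnit_X_sub_C ρ this
  have hfac : aeval A₀ mC = (A₀ - PowerSeries.C ρ) * aeval A₀ n := by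
    rw [hn, map_mul, map_sub, aeval_X, aeval_C]
    rfl
  have hun : IsUnit (aeval A₀ n) := by
    rw [PowerSeries.isUnit_iff_constantCoeff, isUnit_iff_ne_zero]
    have h1 : PowerSeries.constantCoeff (aeval A₀ n) = n.eval ρ := by
      rw [hρ, ← Polynomial.coe_aeval_eq_eval, aeval_def, aeval_def, hom_eval₂]
      congr 1
    rw [h1]
    exact hnρ
  refine ⟨ρ, ?_⟩
  have h2 : ε (aeval a m) =
      (ε a - HahnSeries.C ρ) * HahnSeries.ofPowerSeries ℤ ℂ (aeval A₀ n) := by
    rw [hεm, hfac, map_mul, map_sub, hA₀, HahnSeries.ofPowerSeries_C]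
  have hne1 : ε (aeval a m) ≠ 0 := (map_ne_zero_iff ε ε.injective).mpr hma0
  have hne2 : ε a - HahnSeries.C ρ ≠ 0 := by
    intro h0
    rw [h0, zero_mul] at h2
    exact hne1 h2
  have hne3 : HahnSeries.ofPowerSeries ℤ ℂ (aeval A₀ n) ≠ 0 := by
    intro h0
    rw [h0, mul_zero] at h2
    exact hne1 h2
  have h3 := HahnSeries.order_mul hne2 hne3
  rw [← h2, hεo _ hma0, sqgd_order_ofPS_unit hun, add_zero] at h3
  exact h3.symm


/-- **(H-x) at a place with a Laurent embedding.** -/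
theorem sqgx_ord_partial_eq (v : Place K F) (ι : K →+* ℂ) (ε : F →+* LaurentSeries ℂ)
    (hεc : ∀ c : K, ε (algebraMap K F c) = HahnSeries.C (ι c))
    (hεo : ∀ f : F, f ≠ 0 → (ε f).order = v.ord f)
    (a b : F) (ha : a ∈ v.toValuationSubring) (hb : b ∈ v.toValuationSubring)
    (m m' : K[X]) (hm : m.Separable) (hm' : m'.Separable)
    (hpos : 0 < v.ord (aeval a m)) (heq : v.ord (aeval a m) = v.ord (aeval b m'))
    (Φ : K[X][X])
    (hΦ : Φ.eval₂ ((aeval a : K[X] →ₐ[K] F) : K[X] →+* F) b = 0) :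
    ((sqgdDX Φ).eval₂ ((aeval a : K[X] →ₐ[K] F) : K[X] →+* F) b = 0 ↔
      (derivative Φ).eval₂ ((aeval a : K[X] →ₐ[K] F) : K[X] →+* F) b = 0) ∧
    v.ord ((sqgdDX Φ).eval₂ ((aeval a : K[X] →ₐ[K] F) : K[X] →+* F) b) =
      v.ord ((derivative Φ).eval₂ ((aeval a : K[X] →ₐ[K] F) : K[X] →+* F) b) := by
  have hεc' : ∀ c : K, ε (algebraMap K F c) = algebraMap ℂ (LaurentSeries ℂ) (ι c) := fun c => by
    rw [hεc]
    exact (LaurentSeries.algebraMap_apply ℂ (ι c)).symm
  obtain ⟨r, hr⟩ := Int.eq_ofNat_of_zero_le hpos.le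
  have hr0 : 0 < r := by
    rw [hr] at hpos
    exact_mod_cast hpos
  obtain ⟨ρa, hρa⟩ := sqgx_order_sub v ι ε hεc hεo a ha m hm hpos
  obtain ⟨ρb, hρb⟩ := sqgx_order_sub v ι ε hεc hεo b hb m' hm' (heq ▸ hpos)
  rw [hr] at hρa
  rw [← heq, hr] at hρb
  have hΦ' := congrArg ε hΦ
  rw [sqgd_map_eval₂ ι ε hεc', map_zero] at hΦ'
  obtain ⟨hiff, hord⟩ := sqgx_order_eq (Φ.map (mapRingHom ι)) (ε a) (ε b) ρa ρb r hr0 hρa hρb hΦ'
  rw [sqgdDX_map, sqgd_derivative_map, ← sqgd_map_eval₂ ι ε hεc',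
    ← sqgd_map_eval₂ ι ε hεc'] at hiff hord
  have hinj : ∀ f : F, ε f = 0 ↔ f = 0 := fun f => map_eq_zero_iff ε ε.injective
  rw [hinj, hinj] at hiff
  refine ⟨hiff, ?_⟩
  by_cases h1 : (sqgdDX Φ).eval₂ ((aeval a : K[X] →ₐ[K] F) : K[X] →+* F) b = 0
  · rw [h1, hiff.1 h1]
  · have h2 := fun h => h1 (hiff.2 h)
    rw [← hεo _ h1, ← hεo _ h2, hord]

end Place

/-! ### The level `E` -/

section Level

open Fermat.Agent.S18 Fermat.Agent.SS ModularCurve

local notation "Qb" => AlgebraicClosure ℚ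

variable (E : IntermediateField ℚ Qb) (N : ℕ) [NeZero N]

/-- univariate evaluation commutes with `ssdUp` -/
theorem sqgx_up_aeval (a : modularFunctionFieldFullC E N) (m : (↥E)[X]) :
    ssdUp E N (aeval a m) = aeval (ssdUp E N a) (m.map (algebraMap E Qb)) := by
  rw [aeval_def, aeval_def, eval₂_map, hom_eval₂]
  congr 1
  refine RingHom.ext fun c => ?_
  simp only [RingHom.comp_apply]
  exact ssdUp_algebraMap E N c

/-- a uniformiser of a weak place is nonzero -/
theorem sqgx_unif_ne_zero {F : Type*} [Field F] {V : ValuationSubring F} (hV : V ≠ ⊤) {τ : F}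
    (hτ : S18IsUnif V τ) : τ ≠ 0 := by
  rintro rfl
  apply hV
  rw [eq_top_iff]
  intro y _
  by_contra hy
  have hy0 : y ≠ 0 := fun h => hy (h ▸ V.zero_mem)
  have h1 : V.valuation y⁻¹ < 1 := by
    rw [map_inv₀]
    have : 1 < V.valuation y := by
      rw [← not_le, ValuationSubring.valuation_le_one_iff]
      exact hy
    exact inv_lt_one_of_one_lt₀ this
  have h2 := hτ.2 _ h1
  rw [map_zero, le_zero_iff, map_eq_zero] at h2
  exact inv_ne_zero hy0 h2

set_option maxHeartbeats 1600000 in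
set_option synthInstance.maxHeartbeats 400000 in
/-- **(H-x) at the level `E`** : `a b ∈ F_E(N)`, `Φ(a, b) = 0`, `V` a weak place of `F_E(N) / E` at
which `m(a)`, `m'(b)` are uniformisers (`m`, `m'` separable).  Given Laurent embeddings of the
places of `F_ℚ̄(N)` above `V`, the two partial derivatives `Φ_X(a,b)`, `Φ_Y(a,b)` have the same
valuation at `V`. -/
theorem sqgx_horizontal (a b : modularFunctionFieldFullC E N) (Φ : (↥E)[X][X])
    (hΦ : Φ.eval₂ ((aeval a : (↥E)[X] →ₐ[E] modularFunctionFieldFullC E N) :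
        (↥E)[X] →+* modularFunctionFieldFullC E N) b = 0)
    (V : ValuationSubring (modularFunctionFieldFullC E N)) (hV : S18IsPlace E V)
    (ha : a ∈ V) (hb : b ∈ V)
    (m m' : (↥E)[X]) (hm : m.Separable) (hm' : m'.Separable)
    (hua : S18IsUnif V (aeval a m)) (hub : S18IsUnif V (aeval b m'))
    (hemb : ∀ R' : Place Qb (modularFunctionFieldBar N),
      R'.toValuationSubring.comap (ssdUp E N) = V →
      ∃ ε : modularFunctionFieldBar N →+* LaurentSeries ℂ,
        (∀ c : Qb, ε (algebraMap Qb (modularFunctionFieldBar N) c) =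
          HahnSeries.C (iotaBar c)) ∧
        ∀ f : modularFunctionFieldBar N, f ≠ 0 → (ε f).order = R'.ord f) :
    (sqgdDX Φ).eval₂ ((aeval a : (↥E)[X] →ₐ[E] modularFunctionFieldFullC E N) :
          (↥E)[X] →+* modularFunctionFieldFullC E N) b *
        ((derivative Φ).eval₂ ((aeval a : (↥E)[X] →ₐ[E] modularFunctionFieldFullC E N) :
          (↥E)[X] →+* modularFunctionFieldFullC E N) b)⁻¹ ∈ V ∧
    (derivative Φ).eval₂ ((aeval a : (↥E)[X] →ₐ[E] modularFunctionFieldFullC E N) :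
          (↥E)[X] →+* modularFunctionFieldFullC E N) b *
        ((sqgdDX Φ).eval₂ ((aeval a : (↥E)[X] →ₐ[E] modularFunctionFieldFullC E N) :
          (↥E)[X] →+* modularFunctionFieldFullC E N) b)⁻¹ ∈ V := by
  let F := modularFunctionFieldFullC E N
  let Fb := modularFunctionFieldBar N
  let up := ssdUp E N
  obtain ⟨R, hR⟩ := ssd_weak_place E N V hV
  obtain ⟨R', hR'⟩ := ssd_extend E N R
  have hcomap : R'.toValuationSubring.comap up = V := by rw [hR', hR]
  have hmemV : ∀ x : F, x ∈ V ↔ up x ∈ R'.toValuationSubring := fun x => by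
    rw [← hcomap]; exact Iff.rfl
  obtain ⟨ε, hεc, hεo⟩ := hemb R' hcomap
  have hupc : ∀ c : E, up (algebraMap E F c) =
      algebraMap Qb Fb (algebraMap E Qb c) := fun c => ssdUp_algebraMap E N c
  have hupinj : ∀ x : F, up x = 0 ↔ x = 0 := fun x => map_eq_zero_iff up up.injective
  -- the two uniformisers
  have hma0 : aeval a m ≠ 0 := sqgx_unif_ne_zero hV.1 hua
  have hmb0 : aeval b m' ≠ 0 := sqgx_unif_ne_zero hV.1 hub
  have hpos : 0 < R'.ord (aeval (up a) (m.map (algebraMap E Qb))) := by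
    rw [← sqgx_up_aeval]
    have hne : up (aeval a m) ≠ 0 := fun h => hma0 ((hupinj _).1 h)
    rw [PlaceOrd.ord_pos_iff R' hne, ← map_inv₀ up, ← hmemV]
    intro hinv
    have h1 : V.valuation (aeval a m)⁻¹ ≤ 1 := (ValuationSubring.valuation_le_one_iff V _).2 hinv
    rw [map_inv₀] at h1
    have h2 := hua.1
    have h3 : V.valuation (aeval a m) ≠ 0 := by
      rw [Ne, map_eq_zero]
      exact hma0
    have h4 : 1 ≤ V.valuation (aeval a m) := by
      rwa [inv_le_one₀ (zero_lt_iff.mpr h3)] at h1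
    exact absurd h2 (not_lt.mpr h4)
  have heq : R'.ord (aeval (up a) (m.map (algebraMap E Qb))) =
      R'.ord (aeval (up b) (m'.map (algebraMap E Qb))) := by
    rw [← sqgx_up_aeval, ← sqgx_up_aeval]
    have hval : V.valuation (aeval a m) = V.valuation (aeval b m') :=
      le_antisymm (hub.2 _ hua.1) (hua.2 _ hub.1)
    have hne : aeval a m * (aeval b m')⁻¹ ≠ 0 := mul_ne_zero hma0 (inv_ne_zero hmb0)
    have h1 : aeval a m * (aeval b m')⁻¹ ∈ V := by
      rw [← ValuationSubring.valuation_le_one_iff, map_mul, map_inv₀, hval]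
      rw [mul_inv_cancel₀ (by rw [Ne, map_eq_zero]; exact hmb0)]
    have h2 : (aeval a m * (aeval b m')⁻¹)⁻¹ ∈ V := by
      rw [← ValuationSubring.valuation_le_one_iff, map_inv₀, map_mul, map_inv₀, hval]
      rw [mul_inv_cancel₀ (by rw [Ne, map_eq_zero]; exact hmb0), inv_one]
    have hne' : up (aeval a m * (aeval b m')⁻¹) ≠ 0 := fun h => hne ((hupinj _).1 h)
    have h3 : R'.ord (up (aeval a m * (aeval b m')⁻¹)) = 0 := by
      rw [PlaceOrd.ord_eq_zero_iff R' hne', ← map_inv₀ up, ← hmemV, ← hmemV]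
      exact ⟨h1, h2⟩
    rw [map_mul up, map_inv₀ up, R'.ord_mul (fun h => hma0 ((hupinj _).1 h))
      (inv_ne_zero (fun h => hmb0 ((hupinj _).1 h))), R'.ord_inv] at h3
    have e1 : R'.ord (ssdUp E N (aeval a m)) = R'.ord (up (aeval a m)) := rfl
    have e2 : R'.ord (ssdUp E N (aeval b m')) = R'.ord (up (aeval b m')) := rfl
    omega
  -- transport of `Φ`
  have hΦ' := congrArg up hΦ
  rw [sqgd_map_eval₂ (algebraMap E Qb) up hupc, map_zero] at hΦ'
  obtain ⟨hiff, hord⟩ := sqgx_ord_partial_eq R' iotaBar ε hεc hεo (up a) (up b)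
    ((hmemV a).1 ha) ((hmemV b).1 hb) (m.map (algebraMap E Qb)) (m'.map (algebraMap E Qb))
    hm.map hm'.map hpos heq (Φ.map (mapRingHom (algebraMap E Qb))) hΦ'
  rw [sqgdDX_map, sqgd_derivative_map, ← sqgd_map_eval₂ (algebraMap E Qb) up hupc,
    ← sqgd_map_eval₂ (algebraMap E Qb) up hupc] at hiff hord
  set P₁ := (sqgdDX Φ).eval₂ ((aeval a : (↥E)[X] →ₐ[E] F) : (↥E)[X] →+* F) b with hP₁
  set P₂ := (derivative Φ).eval₂ ((aeval a : (↥E)[X] →ₐ[E] F) : (↥E)[X] →+* F) b with hP₂
  rw [hmemV, hmemV, map_mul up, map_mul up, map_inv₀ up, map_inv₀ up]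
  by_cases h1 : up P₁ = 0
  · rw [h1, hiff.1 h1]
    simp only [zero_mul]
    exact ⟨R'.toValuationSubring.zero_mem, R'.toValuationSubring.zero_mem⟩
  · have h2 : up P₂ ≠ 0 := fun h => h1 (hiff.2 h)
    constructor
    · apply PlaceOrd.mem_of_ord_nonneg
      rw [R'.ord_mul h1 (inv_ne_zero h2), R'.ord_inv, hord]
      omega
    · apply PlaceOrd.mem_of_ord_nonneg
      rw [R'.ord_mul h2 (inv_ne_zero h1), R'.ord_inv, hord]
      omega

/-- **Laurent embeddings at all non-cuspidal places of `F_ℚ̄(N)`** : the export of (NOELL)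
(for `j`-values `≠ 0, 1728` this is helper10's `sqgd_exists_emb`, for ANY `N`). -/
def SqgxEmb (N : ℕ) [NeZero N] : Prop :=
  ∀ R' : Place Qb (modularFunctionFieldBar N), jBar N ∈ R'.toValuationSubring →
    ∃ ε : modularFunctionFieldBar N →+* LaurentSeries ℂ,
      (∀ c : Qb, ε (algebraMap Qb (modularFunctionFieldBar N) c) = HahnSeries.C (iotaBar c)) ∧
      ∀ f : modularFunctionFieldBar N, f ≠ 0 → (ε f).order = R'.ord f

theorem sqgx_up_j : ssdUp E N (ssdJ E N) = jBar N := by
  apply Subtype.ext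
  show s18dUp E (jqModC E) = coeffEmb Qb jq
  exact s18r_up_j E

/-- the non-elliptic part of `SqgxEmb` holds for every `N` (helper10's `sqgd_exists_emb`) -/
theorem sqgx_emb_of_nonell (R' : Place Qb (modularFunctionFieldBar N))
    (hj : jBar N ∈ R'.toValuationSubring) (hj0 : (jBar N)⁻¹ ∈ R'.toValuationSubring)
    (hj1 : (jBar N - 1728)⁻¹ ∈ R'.toValuationSubring) :
    ∃ ε : modularFunctionFieldBar N →+* LaurentSeries ℂ,
      (∀ c : Qb, ε (algebraMap Qb (modularFunctionFieldBar N) c) = HahnSeries.C (iotaBar c)) ∧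
      ∀ f : modularFunctionFieldBar N, f ≠ 0 → (ε f).order = R'.ord f := by
  have hdeg : R'.deg = 1 := (isSepGen_jBar N).deg_eq_one R'
  obtain ⟨c, hc⟩ := embCount_exists_const R' hdeg ⟨jBar N, hj⟩
  have htr : Transcendental Qb (jBar N) := transcendental_jBar N
  have hne : ∀ c' : Qb, jBar N - algebraMap Qb (modularFunctionFieldBar N) c' ≠ 0 := by
    intro c' h0
    apply htr
    rw [sub_eq_zero] at h0
    rw [h0]
    exact isAlgebraic_algebraMap c'
  have hne' : (⟨jBar N, hj⟩ - algebraMap Qb R'.toValuationSubring c :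
      R'.toValuationSubring) ≠ 0 := by
    intro h0
    apply hne c
    have := congrArg Subtype.val h0
    simpa using this
  have hpos : 0 < R'.ord (jBar N - algebraMap Qb (modularFunctionFieldBar N) c) := by
    have := (PlaceOrd.ord_pos_iff_mem_maximalIdeal R' hne').2 hc
    simpa using this
  refine sqgd_exists_emb N c ?_ ?_ R' hpos
  · rintro rfl
    rw [map_zero, sub_zero] at hpos
    have hxb0 : jBar N ≠ 0 := by
      have := hne 0
      rwa [map_zero, sub_zero] at this
    rw [PlaceOrd.ord_pos_iff R' hxb0] at hpos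
    exact hpos hj0
  · rintro rfl
    have h1728 : algebraMap Qb (modularFunctionFieldBar N) 1728 = 1728 := map_ofNat _ 1728
    rw [h1728] at hpos
    have hxb0 : jBar N - 1728 ≠ 0 := by
      have := hne 1728
      rwa [h1728] at this
    rw [PlaceOrd.ord_pos_iff R' hxb0] at hpos
    exact hpos hj1

/-- **(H-x), consumer form** : with `SqgxEmb N` ((NOELL) export) and `j ∈ V` (non-cuspidal). -/
theorem sqgx_horizontal_of_emb (hE : SqgxEmb N) (a b : modularFunctionFieldFullC E N)
    (Φ : (↥E)[X][X])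
    (hΦ : Φ.eval₂ ((aeval a : (↥E)[X] →ₐ[E] modularFunctionFieldFullC E N) :
        (↥E)[X] →+* modularFunctionFieldFullC E N) b = 0)
    (V : ValuationSubring (modularFunctionFieldFullC E N)) (hV : S18IsPlace E V)
    (hj : ssdJ E N ∈ V) (ha : a ∈ V) (hb : b ∈ V)
    (m m' : (↥E)[X]) (hm : m.Separable) (hm' : m'.Separable)
    (hua : S18IsUnif V (aeval a m)) (hub : S18IsUnif V (aeval b m')) :
    (sqgdDX Φ).eval₂ ((aeval a : (↥E)[X] →ₐ[E] modularFunctionFieldFullC E N) :
          (↥E)[X] →+* modularFunctionFieldFullC E N) b *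
        ((derivative Φ).eval₂ ((aeval a : (↥E)[X] →ₐ[E] modularFunctionFieldFullC E N) :
          (↥E)[X] →+* modularFunctionFieldFullC E N) b)⁻¹ ∈ V ∧
    (derivative Φ).eval₂ ((aeval a : (↥E)[X] →ₐ[E] modularFunctionFieldFullC E N) :
          (↥E)[X] →+* modularFunctionFieldFullC E N) b *
        ((sqgdDX Φ).eval₂ ((aeval a : (↥E)[X] →ₐ[E] modularFunctionFieldFullC E N) :
          (↥E)[X] →+* modularFunctionFieldFullC E N) b)⁻¹ ∈ V := by
  refine sqgx_horizontal E N a b Φ hΦ V hV ha hb m m' hm hm' hua hub fun R' hR' => ?_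
  apply hE R'
  rw [← sqgx_up_j E N]
  have : ssdJ E N ∈ R'.toValuationSubring.comap (ssdUp E N) := by rw [hR']; exact hj
  exact this

/-- the same at a non-elliptic place (no (NOELL) needed) -/
theorem sqgx_horizontal_nonell (a b : modularFunctionFieldFullC E N) (Φ : (↥E)[X][X])
    (hΦ : Φ.eval₂ ((aeval a : (↥E)[X] →ₐ[E] modularFunctionFieldFullC E N) :
        (↥E)[X] →+* modularFunctionFieldFullC E N) b = 0)
    (V : ValuationSubring (modularFunctionFieldFullC E N)) (hV : S18IsPlace E V)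
    (hj : ssdJ E N ∈ V) (hj0 : (ssdJ E N)⁻¹ ∈ V) (hj1 : (ssdJ E N - 1728)⁻¹ ∈ V)
    (ha : a ∈ V) (hb : b ∈ V)
    (m m' : (↥E)[X]) (hm : m.Separable) (hm' : m'.Separable)
    (hua : S18IsUnif V (aeval a m)) (hub : S18IsUnif V (aeval b m')) :
    (sqgdDX Φ).eval₂ ((aeval a : (↥E)[X] →ₐ[E] modularFunctionFieldFullC E N) :
          (↥E)[X] →+* modularFunctionFieldFullC E N) b *
        ((derivative Φ).eval₂ ((aeval a : (↥E)[X] →ₐ[E] modularFunctionFieldFullC E N) :
          (↥E)[X] →+* modularFunctionFieldFullC E N) b)⁻¹ ∈ V ∧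
    (derivative Φ).eval₂ ((aeval a : (↥E)[X] →ₐ[E] modularFunctionFieldFullC E N) :
          (↥E)[X] →+* modularFunctionFieldFullC E N) b *
        ((sqgdDX Φ).eval₂ ((aeval a : (↥E)[X] →ₐ[E] modularFunctionFieldFullC E N) :
          (↥E)[X] →+* modularFunctionFieldFullC E N) b)⁻¹ ∈ V := by
  refine sqgx_horizontal E N a b Φ hΦ V hV ha hb m m' hm hm' hua hub fun R' hR' => ?_
  have hmem : ∀ x : modularFunctionFieldFullC E N, x ∈ V → ssdUp E N x ∈ R'.toValuationSubring :=
    fun x hx => by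
      have : x ∈ R'.toValuationSubring.comap (ssdUp E N) := by rw [hR']; exact hx
      exact this
  apply sqgx_emb_of_nonell N R'
  · rw [← sqgx_up_j E N]
    exact hmem _ hj
  · rw [← sqgx_up_j E N, ← map_inv₀ (ssdUp E N)]
    exact hmem _ hj0
  · have h1 : jBar N - 1728 = ssdUp E N (ssdJ E N - 1728) := by
      rw [map_sub, sqgx_up_j, map_ofNat]
    rw [h1, ← map_inv₀ (ssdUp E N)]
    exact hmem _ hj1

end Level

end Fermat.Agent.SQ
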