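import Mathlib
import Fermat.Agent.SQ.Germ.DerivRelAbs
import Fermat.Agent.SQ.Germ.DerivX
import Fermat.Agent.SQ.Germ.DerivVert

/-!
# Program Q (S36), risk R1, piece (REL) : `g_{x,x'}` is a horizontal unit (prefix `sqgxr_`)

Combines (H-x) (`sqgx_horizontal_of_emb`, DerivX), the abstract relation lemma (`sqgxr_exists`,
DerivRelAbs) and helper3's `d/dj`-calculus (`sqgvDer`, `sqgvGxy`, DerivVert) :

* `sqgxr_mem_of_isIntegral`, `sqgxr_transcendental_of_unif` : an element `a` of a function field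
  such that `m(a)` is a uniformiser of some weak place is transcendental over the constants;
* `sqgxr_der_ne_zero` : `d x / d j ≠ 0` for `x ∈ F_E(N)` transcendental over `E`;
* **`sqgxr_gxy_unit`** : for `x x' ∈ F_E(M)` and a non-cuspidal weak place `V` of `F_E(M q) / E`
  at which `m(α x)`, `m'(φ x')` are uniformisers (`m`, `m'` separable) :
  `g_{x,x'} = sqgvGxy E M q x x' ∈ V` and `g_{x,x'}⁻¹ ∈ V`.
-/

set_option autoImplicit false
set_option linter.unusedSectionVars false
set_option linter.unusedVariables false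

noncomputable section

namespace Fermat.Agent.SQ

open Polynomial IntermediateField AlgebraicCurve Fermat.Agent.S24 Fermat.Agent.S18
  Fermat.Agent.SS ModularCurve

section Trans

variable {E F : Type*} [Field E] [Field F] [Algebra E F]

/-- a valuation subring containing the constants contains every element integral over them. -/
theorem sqgxr_mem_of_isIntegral (V : ValuationSubring F)
    (hV : ∀ c : E, algebraMap E F c ∈ V) (z : F) (hz : IsIntegral E z) : z ∈ V := by
  obtain ⟨p, hp, hpz⟩ := hz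
  let h : E →+* V := (algebraMap E F).codRestrict V.toSubring hV
  have hint : IsIntegral V z := by
    refine ⟨p.map h, hp.map h, ?_⟩
    rw [eval₂_map]
    exact hpz
  obtain ⟨y, hy⟩ := (IsIntegrallyClosed.isIntegral_iff (R := V) (K := F)).mp hint
  rw [← hy]
  exact y.2

/-- if `m(a)` is a uniformiser of a weak place then `a` is transcendental over the constants. -/
theorem sqgxr_transcendental_of_unif (V : ValuationSubring F) (hV : S18IsPlace E V) (a : F)
    (m : E[X]) (hu : S18IsUnif V (aeval a m)) : Transcendental E a := by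
  intro halg
  have hint : IsIntegral E a := isAlgebraic_iff_isIntegral.mp halg
  have hy : IsIntegral E (aeval a m) := by
    have h1 : aeval a m ∈ Algebra.adjoin E {a} := aeval_mem_adjoin_singleton E a
    have h2 : Algebra.adjoin E {a} ≤ integralClosure E F :=
      Algebra.adjoin_le (by
        intro z hz
        rw [Set.mem_singleton_iff] at hz
        rw [hz]
        exact hint)
    exact h2 h1
  have hy0 : aeval a m ≠ 0 := sqgx_unif_ne_zero hV.1 hu
  have hyi : IsIntegral E (aeval a m)⁻¹ :=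
    isAlgebraic_iff_isIntegral.mp (isAlgebraic_iff_isIntegral.mpr hy).inv
  have hmem : (aeval a m)⁻¹ ∈ V := sqgxr_mem_of_isIntegral V hV.2 _ hyi
  have h1 : V.valuation (aeval a m)⁻¹ ≤ 1 := (ValuationSubring.valuation_le_one_iff V _).2 hmem
  rw [map_inv₀] at h1
  have h2 := hu.1
  have h3 : V.valuation (aeval a m) ≠ 0 := by
    rw [Ne, map_eq_zero]
    exact hy0
  have h4 : 1 ≤ V.valuation (aeval a m) := by
    by_contra hlt
    rw [not_le] at hlt
    have := (one_lt_inv₀ (zero_lt_iff.mpr h3)).mpr hlt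
    exact absurd h1 (not_le.mpr this)
  exact absurd h2 (not_lt.mpr h4)

end Trans

section Level

local notation "Qb" => AlgebraicClosure ℚ

variable (E : IntermediateField ℚ Qb) (M q : ℕ) [NeZero M] [NeZero q]

/-- `d x / d j ≠ 0` for `x ∈ F_E(N)` transcendental over `E`. -/
theorem sqgxr_der_ne_zero (N : ℕ) [NeZero N] (x : modularFunctionFieldFullC E N)
    (hx : Transcendental E x) : sqgvDer E N x ≠ 0 := by
  have := (ssvmd_finrank_j E N).1
  have : Algebra.IsAlgebraic ↥(↥E)⟮ssvmdJ E N⟯ ↥(modularFunctionFieldFullC E N) :=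
    Algebra.IsAlgebraic.of_finite _ _
  exact sqgxr_d_ne_zero (sqgvDer E N) (sqgvDer_mul E N) (sqgvDer_algebraMap E N) (ssvmdJ E N)
    (ssd_transcendental_j E N) (sqgvDer_j E N) x hx

set_option maxHeartbeats 1600000 in
set_option synthInstance.maxHeartbeats 400000 in
/-- **(REL) + (H-x)** : `g_{x,x'} = (1/q) · d(φ x') / d(α x)` is a unit at every non-cuspidal weak
place `V` of `F_E(M q) / E` at which `α x` and `φ x'` are unramified coordinates. -/
theorem sqgxr_gxy_unit (hE : SqgxEmb (M * q)) (x x' : modularFunctionFieldFullC E M)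
    (V : ValuationSubring (modularFunctionFieldFullC E (M * q))) (hV : S18IsPlace E V)
    (hj : ssdJ E (M * q) ∈ V) (ha : ssvmdIncl E M q x ∈ V) (hb : ssvmfPhi E M q x' ∈ V)
    (m m' : (↥E)[X]) (hm : m.Separable) (hm' : m'.Separable)
    (hua : S18IsUnif V (aeval (ssvmdIncl E M q x) m))
    (hub : S18IsUnif V (aeval (ssvmfPhi E M q x') m')) :
    sqgvGxy E M q x x' ∈ V ∧ (sqgvGxy E M q x x')⁻¹ ∈ V := by
  let F := modularFunctionFieldFullC E (M * q)
  set a : F := ssvmdIncl E M q x with ha_def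
  set b : F := ssvmfPhi E M q x' with hb_def
  have := (ssvmd_finrank_j E (M * q)).1
  have : Algebra.IsAlgebraic ↥(↥E)⟮ssvmdJ E (M * q)⟯ ↥(modularFunctionFieldFullC E (M * q)) :=
    Algebra.IsAlgebraic.of_finite _ _
  have hat : Transcendental E a := sqgxr_transcendental_of_unif V hV a m hua
  -- `x` itself is transcendental
  have hxt : Transcendental E x := by
    intro halg
    exact hat (IsAlgebraic.algHom (ssvmdIncl E M q) halg)
  have hdx : sqgvDer E M x ≠ 0 := sqgxr_der_ne_zero E M x hxt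
  have hda : sqgvDer E (M * q) a = ssvmdIncl E M q (sqgvDer E M x) := sqgvDer_incl E M q x
  have hda0 : sqgvDer E (M * q) a ≠ 0 := by
    rw [hda]
    exact (_root_.map_ne_zero _).mpr hdx
  -- the relation
  obtain ⟨Φ, hΦ, hΦY⟩ := sqgxr_exists (ssvmdJ E (M * q)) (ssd_transcendental_j E (M * q)) a b hat
  obtain ⟨h1, h2⟩ := sqgx_horizontal_of_emb E (M * q) hE a b Φ hΦ V hV hj ha hb m m' hm hm'
    hua hub
  -- `(q g) · d a = d b`
  have hq0 : ((q : ℕ) : F) ≠ 0 := Nat.cast_ne_zero.mpr (NeZero.ne q)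
  have hg : ((q : ℕ) : F) * sqgvGxy E M q x x' * sqgvDer E (M * q) a = sqgvDer E (M * q) b := by
    rw [hb_def, sqgvDer_phi, hda]
    unfold sqgvGxy
    have := (_root_.map_ne_zero (ssvmdIncl E M q)).mpr hdx
    field_simp
  have heq := sqgxr_eq_neg_div (sqgvDer E (M * q)) (sqgvDer_mul E (M * q))
    (sqgvDer_algebraMap E (M * q)) Φ a b _ hΦ hΦY hda0 hg
  have hqV : ((q : ℕ) : F) ∈ V := by
    have := hV.2 ((q : ℕ) : E)
    rwa [map_natCast] at this
  have hqiV : ((q : ℕ) : F)⁻¹ ∈ V := by
    have := hV.2 (((q : ℕ) : E)⁻¹)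
    rwa [map_inv₀, map_natCast] at this
  set P₁ := (sqgdDX Φ).eval₂ ((aeval a : (↥E)[X] →ₐ[E] F) : (↥E)[X] →+* F) b with hP₁
  set P₂ := (derivative Φ).eval₂ ((aeval a : (↥E)[X] →ₐ[E] F) : (↥E)[X] →+* F) b with hP₂
  have hg1 : sqgvGxy E M q x x' = -(P₁ * P₂⁻¹) * ((q : ℕ) : F)⁻¹ := by
    rw [← heq]
    field_simp
  refine ⟨?_, ?_⟩
  · rw [hg1]
    exact V.mul_mem _ _ (V.neg_mem _ h1) hqiV
  · rw [hg1, mul_inv, inv_neg, mul_inv, inv_inv, inv_inv, mul_comm P₁⁻¹ P₂]
    exact V.mul_mem _ _ (V.neg_mem _ h2) hqV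

end Level

end Fermat.Agent.SQ
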