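import Mathlib
import Fermat.Agent.S18.RH.R

/-!
# Program Q (S36), R1, leaf (NOELL) : no elliptic points ⟹ full ramification over `j = 0, 1728`

If the level `N` has a prime factor `r ≡ 2 (mod 3)` then `S T` has no fixed point on
`SL₂(ℤ) / Γ₀(N)`, and EVERY place `v` of `F_ℚ̄(N)` over `j = 0` has `ord_v(j) = 3`; if `N` has a prime
factor `r' ≡ 3 (mod 4)` then `S` has no fixed point and every place over `j = 1728` has
`ord_v(j - 1728) = 2`.  (Over `a ≠ 0, 1728` : `ord_v(j - a) = 1`, main's `s18r_ord_eq_one`.)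

Proof : re-run of `s18rr_ord_dvd_of_point` keeping ALL clauses of `exists_places_of_embeddings`
(the fibres of `κ` are the orbits of the rotation `σ`), then count : `∑_v ord_v t = ψ(N) = #orbits · e`
and `ord_v t ∣ e`.
-/

set_option autoImplicit false
set_option linter.unusedSectionVars false

noncomputable section

namespace Fermat.Agent.SQ

open Fermat.Agent.S24 Fermat.Agent.S18 AlgebraicCurve ModularCurve UpperHalfPlane IntermediateField
open scoped MatrixGroups Manifold ModularForm Real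

/-! ### 1. abstract counting -/

/-- a power `< e` (`e` prime) of a permutation of order dividing `e` fixing `i` forces `σ i = i` -/
theorem sqgne_fixed_of_pow_fixed {ι : Type*} (σ : Equiv.Perm ι) (e : ℕ) (he : e.Prime)
    (hσe : σ ^ e = 1) (i : ι) (m : ℕ) (hm0 : 0 < m) (hme : m < e) (hfix : (σ ^ m) i = i) :
    σ i = i := by
  have hcop : Nat.Coprime m e := by
    rw [Nat.coprime_comm]
    exact (Nat.Prime.coprime_iff_not_dvd he).mpr (Nat.not_dvd_of_pos_of_lt hm0 hme)
  have hb : (m : ℤ) * Nat.gcdA m e + (e : ℤ) * Nat.gcdB m e = 1 := by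
    have := Nat.gcd_eq_gcd_ab m e
    rw [hcop.gcd_eq_one] at this
    exact_mod_cast this.symm
  have h1 : σ = (σ ^ m) ^ (Nat.gcdA m e) * (σ ^ e) ^ (Nat.gcdB m e) := by
    rw [← zpow_natCast σ m, ← zpow_natCast σ e, ← zpow_mul, ← zpow_mul, ← zpow_add, hb, zpow_one]
  rw [hσe, one_zpow, mul_one] at h1
  conv_lhs => rw [h1]
  exact Equiv.Perm.zpow_apply_eq_self_of_apply_eq_self hfix _

/-- orbits of a fixed-point-free permutation of prime order `e` have exactly `e` elements -/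
theorem sqgne_card_orbit {ι : Type*} [Fintype ι] [DecidableEq ι] (σ : Equiv.Perm ι) (e : ℕ)
    (he : e.Prime) (hσe : σ ^ e = 1) (hfix : ∀ i, σ i ≠ i) (i : ι)
    [DecidablePred fun j => ∃ k : ℕ, (σ ^ k) i = j] :
    (Finset.univ.filter fun j => ∃ k : ℕ, (σ ^ k) i = j).card = e := by
  have himg : (Finset.univ.filter fun j => ∃ k : ℕ, (σ ^ k) i = j) =
      (Finset.range e).image fun k => (σ ^ k) i := by
    ext j
    simp only [Finset.mem_filter, Finset.mem_univ, true_and, Finset.mem_image, Finset.mem_range]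
    constructor
    · rintro ⟨k, rfl⟩
      refine ⟨k % e, Nat.mod_lt _ he.pos, ?_⟩
      conv_rhs => rw [← Nat.div_add_mod k e]
      rw [pow_add, pow_mul, hσe, one_pow, one_mul]
    · rintro ⟨k, -, rfl⟩
      exact ⟨k, rfl⟩
  rw [himg, Finset.card_image_of_injOn, Finset.card_range]
  intro k hk l hl hkl
  simp only [Finset.coe_range, Set.mem_Iio] at hk hl
  by_contra hne
  have key : ∀ a b : ℕ, a < b → b < e → (σ ^ a) i = (σ ^ b) i → False := by
    intro a b hab hbe h
    have h2 : (σ ^ (b - a)) i = i := by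
      have h3 : σ ^ b = σ ^ a * σ ^ (b - a) := by
        rw [← pow_add]; congr 1; omega
      rw [h3, Equiv.Perm.mul_apply] at h
      exact ((σ ^ a).injective h).symm
    exact hfix i (sqgne_fixed_of_pow_fixed σ e he hσe i (b - a) (by omega) (by omega) h2)
  rcases Nat.lt_or_gt_of_ne hne with h | h
  · exact key k l h hl hkl
  · exact key l k h hk hkl.symm

/-- **the count** : if the fibres of `κ` are the orbits of a fixed-point-free permutation of prime
order `e`, `ι` has `[F : K(t)]` elements and all `ord_v t` divide `e`, then all `ord_v t = e`. -/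
theorem sqgne_ord_eq_of_noFixed {K F : Type*} [Field K] [Field F] [Algebra K F] [IsAlgClosed K]
    {t : F} (ht : IsSepGen K t) {ι : Type*} [Fintype ι]
    (hcard : Fintype.card ι = Module.finrank K⟮t⟯ F) (e : ℕ) (he : e.Prime)
    (κ : ι → Place K F) (hdvd : ∀ v : Place K F, 0 < v.ord t → v.ord t ∣ (e : ℤ))
    (hpos : ∀ i, 0 < (κ i).ord t) (hsurj : ∀ v : Place K F, 0 < v.ord t → ∃ i, κ i = v)
    (σ : Equiv.Perm ι) (hfib : ∀ i j, κ i = κ j ↔ ∃ k : ℕ, (σ ^ k) i = j)
    (hσe : σ ^ e = 1) (hfix : ∀ i, σ i ≠ i) (v : Place K F) (hv : 0 < v.ord t) :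
    v.ord t = e := by
  classical
  set P : Finset (Place K F) := ht.finite_ord_pos.toFinset with hP
  have hmemP : ∀ w, w ∈ P ↔ 0 < w.ord t := fun w => by
    rw [hP, Set.Finite.mem_toFinset]; rfl
  have hsum : ∑ w ∈ P, w.ord t = (Module.finrank K⟮t⟯ F : ℤ) := ht.sum_ord
  -- the fibres
  have hfibcard : ∀ w ∈ P, (Finset.univ.filter fun i => κ i = w).card = e := by
    intro w hw
    obtain ⟨i₀, hi₀⟩ := hsurj w ((hmemP w).mp hw)
    have : (Finset.univ.filter fun i => κ i = w) =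
        Finset.univ.filter fun j => ∃ k : ℕ, (σ ^ k) i₀ = j := by
      ext j
      simp only [Finset.mem_filter, Finset.mem_univ, true_and]
      rw [← hi₀, ← hfib i₀ j]
      exact eq_comm
    rw [this]
    exact sqgne_card_orbit σ e he hσe hfix i₀
  have hcount : Fintype.card ι = ∑ w ∈ P, (Finset.univ.filter fun i => κ i = w).card := by
    rw [← Finset.card_univ]
    exact Finset.card_eq_sum_card_fiberwise fun i _ => (hmemP _).mpr (hpos i)
  have hsum2 : ∑ w ∈ P, w.ord t = ∑ w ∈ P, (e : ℤ) := by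
    rw [hsum, ← hcard, hcount, Nat.cast_sum]
    exact Finset.sum_congr rfl fun w hw => by rw [hfibcard w hw]
  have hle : ∀ w ∈ P, w.ord t ≤ (e : ℤ) := fun w hw =>
    Int.le_of_dvd (by exact_mod_cast he.pos) (hdvd w ((hmemP w).mp hw))
  exact (Finset.sum_eq_sum_iff_of_le hle).mp hsum2 v ((hmemP v).mpr hv)

/-! ### 2. the group theory : `S`, `S T` have no fixed point on `SL₂(ℤ) / Γ₀(N)` -/

section Group

open ModularGroup

/-- an element of `SL₂(ℤ)` with matrix `-1` acts trivially on `SL₂(ℤ) / Γ₀(N)` -/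
theorem sqgne_negOne_smul (N : ℕ) (z : SL(2, ℤ))
    (hz : (z : Matrix (Fin 2) (Fin 2) ℤ) = -1)
    (x : SL(2, ℤ) ⧸ CongruenceSubgroup.Gamma0 N) : z • x = x := by
  induction x using QuotientGroup.induction_on with
  | H g =>
    rw [MulAction.Quotient.smul_mk, smul_eq_mul, QuotientGroup.eq]
    have hcomm : z * g = g * z := by
      apply Subtype.ext
      simp only [Matrix.SpecialLinearGroup.coe_mul, hz, neg_mul, one_mul, mul_neg, mul_one]
    rw [hcomm, mul_inv_rev, mul_assoc, inv_mul_cancel, mul_one, CongruenceSubgroup.Gamma0_mem]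
    have : ((z⁻¹ : SL(2, ℤ)) : Matrix (Fin 2) (Fin 2) ℤ) = -1 := by
      have h1 : z⁻¹ = z := by
        rw [inv_eq_iff_mul_eq_one]
        apply Subtype.ext
        simp only [Matrix.SpecialLinearGroup.coe_mul, hz, Matrix.SpecialLinearGroup.coe_one]
        simp
      rw [h1, hz]
    rw [this]
    simp

theorem sqgne_ST_pow : (((S * T)⁻¹ ^ 3 : SL(2, ℤ)) : Matrix (Fin 2) (Fin 2) ℤ) = -1 := by
  have h : ((S * T) ^ 3 : SL(2, ℤ)) = (S * T)⁻¹ ^ 3 := by
    rw [inv_pow, eq_inv_iff_mul_eq_one]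
    apply Subtype.ext
    simp only [Matrix.SpecialLinearGroup.coe_mul, Matrix.SpecialLinearGroup.coe_pow,
      Matrix.SpecialLinearGroup.coe_one, coe_S, coe_T]
    ext i j
    fin_cases i <;> fin_cases j <;> simp [pow_succ, Matrix.mul_apply, Fin.sum_univ_two]
  rw [← h]
  simp only [Matrix.SpecialLinearGroup.coe_mul, Matrix.SpecialLinearGroup.coe_pow, coe_S, coe_T]
  ext i j
  fin_cases i <;> fin_cases j <;> simp [pow_succ, Matrix.mul_apply, Fin.sum_univ_two]

theorem sqgne_S_pow : ((S⁻¹ ^ 2 : SL(2, ℤ)) : Matrix (Fin 2) (Fin 2) ℤ) = -1 := by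
  have h : (S ^ 2 : SL(2, ℤ)) = S⁻¹ ^ 2 := by
    rw [inv_pow, eq_inv_iff_mul_eq_one]
    apply Subtype.ext
    simp only [Matrix.SpecialLinearGroup.coe_mul, Matrix.SpecialLinearGroup.coe_pow,
      Matrix.SpecialLinearGroup.coe_one, coe_S]
    ext i j
    fin_cases i <;> fin_cases j <;> simp [pow_succ, Matrix.mul_apply, Fin.sum_univ_two]
  rw [← h]
  simp only [Matrix.SpecialLinearGroup.coe_pow, coe_S]
  ext i j
  fin_cases i <;> fin_cases j <;> simp [pow_succ, Matrix.mul_apply, Fin.sum_univ_two]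

/-- a fixed point of `γ⁻¹` on `SL₂(ℤ) / Γ₀(N)` gives an element of `Γ₀(N)` with the trace of `γ` -/
theorem sqgne_exists_of_fixed (N : ℕ) (γ : SL(2, ℤ))
    (x : SL(2, ℤ) ⧸ CongruenceSubgroup.Gamma0 N) (hx : γ⁻¹ • x = x) :
    ∃ h : SL(2, ℤ), h ∈ CongruenceSubgroup.Gamma0 N ∧
      (h : Matrix (Fin 2) (Fin 2) ℤ).trace = (γ : Matrix (Fin 2) (Fin 2) ℤ).trace := by
  induction x using QuotientGroup.induction_on with
  | H g =>
    rw [MulAction.Quotient.smul_mk, smul_eq_mul, QuotientGroup.eq] at hx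
    refine ⟨_, hx, ?_⟩
    rw [mul_inv_rev, inv_inv]
    simp only [Matrix.SpecialLinearGroup.coe_mul]
    rw [Matrix.trace_mul_cycle, ← Matrix.SpecialLinearGroup.coe_mul, mul_inv_cancel,
      Matrix.SpecialLinearGroup.coe_one, one_mul]

/-- the residue of the upper left entry : `a * (tr - a) = 1` in `ZMod r` -/
theorem sqgne_entry_eq (N r : ℕ) (hrN : r ∣ N) (h : SL(2, ℤ))
    (hh : h ∈ CongruenceSubgroup.Gamma0 N) :
    ((h 0 0 : ℤ) : ZMod r) * ((((h : Matrix (Fin 2) (Fin 2) ℤ).trace : ℤ) : ZMod r) -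
      ((h 0 0 : ℤ) : ZMod r)) = 1 := by
  have hdet := h.det_coe
  rw [Matrix.det_fin_two] at hdet
  rw [CongruenceSubgroup.Gamma0_mem, ZMod.intCast_zmod_eq_zero_iff_dvd] at hh
  have h10 : ((h 1 0 : ℤ) : ZMod r) = 0 := by
    rw [ZMod.intCast_zmod_eq_zero_iff_dvd]
    exact (Int.natCast_dvd_natCast.mpr hrN).trans hh
  have htr : (h : Matrix (Fin 2) (Fin 2) ℤ).trace = h 0 0 + h 1 1 := Matrix.trace_fin_two _
  rw [htr]
  have := congrArg (Int.cast : ℤ → ZMod r) hdet
  push_cast at this ⊢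
  rw [h10, mul_zero, sub_zero] at this
  rw [add_sub_cancel_left]
  exact this

/-- `r ≡ 2 (mod 3)` : no root of `a (1 - a) = 1` -/
theorem sqgne_no_root_three (r : ℕ) (hr : r.Prime) (hr3 : r % 3 = 2) (a : ZMod r) :
    a * (1 - a) ≠ 1 := by
  have : Fact r.Prime := ⟨hr⟩
  intro h
  have ha0 : a ≠ 0 := by
    rintro rfl
    rw [zero_mul] at h
    exact zero_ne_one h
  have h3 : a ^ 3 = -1 := by
    have : a ^ 3 + 1 = 0 := by
      have e1 : a ^ 3 + 1 = (a + 1) * (1 - a * (1 - a)) := by ring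
      rw [e1, h, sub_self, mul_zero]
    exact eq_neg_of_add_eq_zero_left this
  have hfer : a ^ (r - 1) = 1 := ZMod.pow_card_sub_one_eq_one ha0
  obtain ⟨k, hk⟩ : ∃ k, r - 1 = 3 * k + 1 := ⟨(r - 1) / 3, by omega⟩
  rw [hk, pow_succ, pow_mul, h3] at hfer
  have h3ne : (3 : ZMod r) ≠ 0 := by
    intro h30
    have : ((3 : ℕ) : ZMod r) = 0 := by exact_mod_cast h30
    rw [ZMod.natCast_eq_zero_iff] at this
    have := Nat.le_of_dvd (by norm_num) this
    interval_cases r <;> omega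
  rcases neg_one_pow_eq_or (ZMod r) k with hk1 | hk1
  · rw [hk1, one_mul] at hfer
    rw [hfer] at h
    simp at h
  · rw [hk1, neg_one_mul, neg_eq_iff_eq_neg] at hfer
    rw [hfer] at h
    apply h3ne
    have : (-1 : ZMod r) * (1 - -1) = -2 := by ring
    rw [this] at h
    have : (3 : ZMod r) = 1 - (-2) := by ring
    rw [this, h, sub_self]

/-- `r ≡ 3 (mod 4)` : no root of `a (0 - a) = 1` -/
theorem sqgne_no_root_four (r : ℕ) (hr : r.Prime) (hr4 : r % 4 = 3) (a : ZMod r) :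
    a * (0 - a) ≠ 1 := by
  have : Fact r.Prime := ⟨hr⟩
  intro h
  have : a ^ 2 = -1 := by
    rw [← h]; ring
  exact ZMod.mod_four_ne_three_of_sq_eq_neg_one this hr4

/-- **no elliptic point of order `3`** : `S T` has no fixed point on `SL₂(ℤ) / Γ₀(N)` as soon as
`N` has a prime factor `r ≡ 2 (mod 3)` -/
theorem sqgne_ST_noFixed (N r : ℕ) (hr : r.Prime) (hrN : r ∣ N) (hr3 : r % 3 = 2)
    (x : SL(2, ℤ) ⧸ CongruenceSubgroup.Gamma0 N) : (S * T)⁻¹ • x ≠ x := by
  intro hx
  obtain ⟨h, hh, htr⟩ := sqgne_exists_of_fixed N (S * T) x hx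
  have key := sqgne_entry_eq N r hrN h hh
  have h1 : ((S * T : SL(2, ℤ)) : Matrix (Fin 2) (Fin 2) ℤ).trace = 1 := by
    rw [Matrix.trace_fin_two]
    simp [coe_S, coe_T, Matrix.mul_apply, Fin.sum_univ_two]
  rw [htr, h1, Int.cast_one] at key
  exact sqgne_no_root_three r hr hr3 _ key

/-- **no elliptic point of order `2`** : `S` has no fixed point on `SL₂(ℤ) / Γ₀(N)` as soon as
`N` has a prime factor `r ≡ 3 (mod 4)` -/
theorem sqgne_S_noFixed (N r : ℕ) (hr : r.Prime) (hrN : r ∣ N) (hr4 : r % 4 = 3)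
    (x : SL(2, ℤ) ⧸ CongruenceSubgroup.Gamma0 N) : S⁻¹ • x ≠ x := by
  intro hx
  obtain ⟨h, hh, htr⟩ := sqgne_exists_of_fixed N S x hx
  have key := sqgne_entry_eq N r hrN h hh
  have h1 : ((S : SL(2, ℤ)) : Matrix (Fin 2) (Fin 2) ℤ).trace = 0 := by
    rw [Matrix.trace_fin_two]
    simp [coe_S]
  rw [htr, h1, Int.cast_zero] at key
  exact sqgne_no_root_four r hr hr4 _ key

end Group

/-! ### 3. the re-run of `s18rr_ord_dvd_of_point` -/

section Point

variable (N : ℕ) [NeZero N]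

/-- the data of `exists_places_of_embeddings` at a point `τ₀` : every place `v` over `j = a` with
`ord_v(j - a) = e` (the full order) is the place of a Laurent embedding computing `ord_v` exactly. -/
theorem sqgne_emb_of_point (a : QBar) (τ₀ : ℍ) (hτ₀ : jFun τ₀ = iotaBar a)
    (γ₀ : SL(2, ℤ)) (hγ₀ : γ₀ • τ₀ = τ₀) (e : ℕ)
    (he : analyticOrderAt (fun z : ℂ => jFun (ofComplex z) - jFun τ₀) (τ₀ : ℂ) = e)
    (hζ : IsPrimitiveRoot (rotFactor γ₀ τ₀) e)
    (v : Place QBar (modularFunctionFieldBar N))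
    (hve : v.ord (jBar N - algebraMap QBar (modularFunctionFieldBar N) a) = (e : ℤ)) :
    ∃ ε : modularFunctionFieldBar N →+* LaurentSeries ℂ,
      (∀ c : QBar, ε (algebraMap QBar (modularFunctionFieldBar N) c) =
        HahnSeries.C (iotaBar c)) ∧
      ∀ f : modularFunctionFieldBar N, f ≠ 0 → (ε f).order = v.ord f := by
  have hfin : Finite (SL(2, ℤ) ⧸ CongruenceSubgroup.Gamma0 N) := finite_quotient_Gamma0 N
  let _inst : Fintype (SL(2, ℤ) ⧸ CongruenceSubgroup.Gamma0 N) := Fintype.ofFinite _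
  have hepos : 0 < e := pos_of_analyticOrderAt_jFun_sub τ₀ e he
  have hv : 0 < v.ord (jBar N - algebraMap QBar (modularFunctionFieldBar N) a) := by
    rw [hve]; exact_mod_cast hepos
  have hζ0 : rotFactor γ₀ τ₀ ≠ 0 := hζ.ne_zero hepos.ne'
  set ζ : ℂˣ := Units.mk0 (rotFactor γ₀ τ₀) hζ0 with hζdef
  have hζval : (ζ : ℂ) = rotFactor γ₀ τ₀ := rfl
  have ht : IsSepGen QBar (jBar N - algebraMap QBar (modularFunctionFieldBar N) a) :=
    (isSepGen_jBar N).sub_algebraMap a
  obtain ⟨κ, hm, -, hsurj, -⟩ := exists_places_of_embeddings ht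
    (fun q : SL(2, ℤ) ⧸ CongruenceSubgroup.Gamma0 N => pointEmb N τ₀ q.out)
    (pointEmb_out_injective N τ₀)
    (by rw [(isSepGen_jBar N).finrank_sub_algebraMap a, finrank_jBar, Fintype.card_eq_nat_card])
    (fun i j c => by rw [pointEmb_algebraMap, pointEmb_algebraMap])
    (fun i c hc => by
      rw [pointEmb_algebraMap, HahnSeries.C_apply]
      apply HahnSeries.order_single
      intro h0
      exact hc (iotaBar_injective (by rw [h0, map_zero])))
    (fun i j => by rw [pointEmb_jBar_sub, pointEmb_jBar_sub])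
    e hepos (fun i => order_pointEmb_jBar_sub N τ₀ _ a hτ₀ e he)
    (rotFactor γ₀ τ₀) hζ (rotLaurent ζ) (fun f m => by rw [rotLaurent_coeff, hζval])
    (MulAction.toPerm γ₀⁻¹)
    (by
      intro q f
      rw [rotLaurent_pointEmb N τ₀ γ₀ hγ₀ ζ hζval]
      obtain ⟨h, hh, hout⟩ := exists_out_smul_eq N γ₀⁻¹ q
      show _ = pointEmb N τ₀ (γ₀⁻¹ • q).out f
      rw [hout, pointEmb_mul_of_mem_Gamma0 N τ₀ _ h hh])
  obtain ⟨i, rfl⟩ := hsurj v hv
  refine ⟨pointEmb N τ₀ i.out, fun c => pointEmb_algebraMap N τ₀ _ c, fun f hf => ?_⟩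
  have h1 := hm i f hf
  rw [hve, mul_comm] at h1
  exact mul_left_cancel₀ (by exact_mod_cast hepos.ne') h1

/-- full ramification over `j = a` when the rotation `γ₀` (of prime order `e` on the coset space) has
no fixed point on `SL₂(ℤ) / Γ₀(N)`. -/
theorem sqgne_ord_eq_of_point (a : QBar) (τ₀ : ℍ) (hτ₀ : jFun τ₀ = iotaBar a)
    (γ₀ : SL(2, ℤ)) (hγ₀ : γ₀ • τ₀ = τ₀) (e : ℕ) (hep : e.Prime)
    (he : analyticOrderAt (fun z : ℂ => jFun (ofComplex z) - jFun τ₀) (τ₀ : ℂ) = e)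
    (hζ : IsPrimitiveRoot (rotFactor γ₀ τ₀) e)
    (hpow : ∀ x : SL(2, ℤ) ⧸ CongruenceSubgroup.Gamma0 N, (γ₀⁻¹ ^ e) • x = x)
    (hfix : ∀ x : SL(2, ℤ) ⧸ CongruenceSubgroup.Gamma0 N, γ₀⁻¹ • x ≠ x)
    (v : Place QBar (modularFunctionFieldBar N))
    (hv : 0 < v.ord (jBar N - algebraMap QBar (modularFunctionFieldBar N) a)) :
    v.ord (jBar N - algebraMap QBar (modularFunctionFieldBar N) a) = (e : ℤ) := by
  have hfin : Finite (SL(2, ℤ) ⧸ CongruenceSubgroup.Gamma0 N) := finite_quotient_Gamma0 N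
  let _inst : Fintype (SL(2, ℤ) ⧸ CongruenceSubgroup.Gamma0 N) := Fintype.ofFinite _
  have hepos : 0 < e := hep.pos
  have hζ0 : rotFactor γ₀ τ₀ ≠ 0 := hζ.ne_zero hepos.ne'
  set ζ : ℂˣ := Units.mk0 (rotFactor γ₀ τ₀) hζ0 with hζdef
  have hζval : (ζ : ℂ) = rotFactor γ₀ τ₀ := rfl
  have ht : IsSepGen QBar (jBar N - algebraMap QBar (modularFunctionFieldBar N) a) :=
    (isSepGen_jBar N).sub_algebraMap a
  have hcard : Fintype.card (SL(2, ℤ) ⧸ CongruenceSubgroup.Gamma0 N) =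
      Module.finrank QBar⟮jBar N - algebraMap QBar (modularFunctionFieldBar N) a⟯
        (modularFunctionFieldBar N) := by
    rw [(isSepGen_jBar N).finrank_sub_algebraMap a, finrank_jBar, Fintype.card_eq_nat_card]
  obtain ⟨κ, hm, hpos, hsurj, hfib⟩ := exists_places_of_embeddings ht
    (fun q : SL(2, ℤ) ⧸ CongruenceSubgroup.Gamma0 N => pointEmb N τ₀ q.out)
    (pointEmb_out_injective N τ₀) hcard
    (fun i j c => by rw [pointEmb_algebraMap, pointEmb_algebraMap])
    (fun i c hc => by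
      rw [pointEmb_algebraMap, HahnSeries.C_apply]
      apply HahnSeries.order_single
      intro h0
      exact hc (iotaBar_injective (by rw [h0, map_zero])))
    (fun i j => by rw [pointEmb_jBar_sub, pointEmb_jBar_sub])
    e hepos (fun i => order_pointEmb_jBar_sub N τ₀ _ a hτ₀ e he)
    (rotFactor γ₀ τ₀) hζ (rotLaurent ζ) (fun f m => by rw [rotLaurent_coeff, hζval])
    (MulAction.toPerm γ₀⁻¹)
    (by
      intro q f
      rw [rotLaurent_pointEmb N τ₀ γ₀ hγ₀ ζ hζval]
      obtain ⟨h, hh, hout⟩ := exists_out_smul_eq N γ₀⁻¹ q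
      show _ = pointEmb N τ₀ (γ₀⁻¹ • q).out f
      rw [hout, pointEmb_mul_of_mem_Gamma0 N τ₀ _ h hh])
  have hdvd : ∀ w : Place QBar (modularFunctionFieldBar N),
      0 < w.ord (jBar N - algebraMap QBar (modularFunctionFieldBar N) a) →
      w.ord (jBar N - algebraMap QBar (modularFunctionFieldBar N) a) ∣ (e : ℤ) :=
    fun w hw => s18rr_dvd_of_kappa _ e κ hm hsurj w hw
  have hσe : (MulAction.toPerm γ₀⁻¹ : Equiv.Perm (SL(2, ℤ) ⧸ CongruenceSubgroup.Gamma0 N)) ^ e =
      1 := by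
    have h1 : (MulAction.toPerm γ₀⁻¹ : Equiv.Perm (SL(2, ℤ) ⧸ CongruenceSubgroup.Gamma0 N)) ^ e =
        MulAction.toPerm (γ₀⁻¹ ^ e) :=
      (map_pow (MulAction.toPermHom SL(2, ℤ) (SL(2, ℤ) ⧸ CongruenceSubgroup.Gamma0 N))
        γ₀⁻¹ e).symm
    rw [h1]
    ext x
    exact hpow x
  exact sqgne_ord_eq_of_noFixed ht hcard e hep κ hdvd hpos hsurj _ hfib hσe
    (fun x => hfix x) v hv

end Point

/-! ### 4. (NOELL) -/

section Final

variable (N : ℕ) [NeZero N]

/-- **(NOELL-0)** : if `N` has a prime factor `r ≡ 2 (mod 3)` then every place of `F_ℚ̄(N)` over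
`j = 0` has `ord_v(j) = 3`. -/
theorem sqgne_ord_zero (r : ℕ) (hr : r.Prime) (hrN : r ∣ N) (hr3 : r % 3 = 2)
    (v : Place QBar (modularFunctionFieldBar N)) (hv : 0 < v.ord (jBar N)) :
    v.ord (jBar N) = 3 := by
  have hτ : jFun ρ = iotaBar 0 := by rw [jFun_ρ, map_zero]
  have h0 : jBar N - algebraMap QBar (modularFunctionFieldBar N) 0 = jBar N := by
    rw [map_zero, sub_zero]
  have key := sqgne_ord_eq_of_point N 0 ρ hτ (ModularGroup.S * ModularGroup.T) ST_smul_ρ 3
    Nat.prime_three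
    (by rw [analyticOrderAt_jFun_sub, if_pos jFun_ρ]; rfl)
    (isPrimitiveRoot_rotFactor_ST ρ ST_smul_ρ)
    (fun x => sqgne_negOne_smul N _ sqgne_ST_pow x)
    (fun x => sqgne_ST_noFixed N r hr hrN hr3 x) v (by rw [h0]; exact hv)
  rw [h0] at key
  exact_mod_cast key

/-- **(NOELL-1728)** : if `N` has a prime factor `r ≡ 3 (mod 4)` then every place of `F_ℚ̄(N)` over
`j = 1728` has `ord_v(j - 1728) = 2`. -/
theorem sqgne_ord_1728 (r : ℕ) (hr : r.Prime) (hrN : r ∣ N) (hr4 : r % 4 = 3)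
    (v : Place QBar (modularFunctionFieldBar N))
    (hv : 0 < v.ord (jBar N - algebraMap QBar (modularFunctionFieldBar N) 1728)) :
    v.ord (jBar N - algebraMap QBar (modularFunctionFieldBar N) 1728) = 2 := by
  have hτ : jFun UpperHalfPlane.I = iotaBar 1728 := by rw [jFun_I, map_ofNat]
  have hζ : IsPrimitiveRoot (rotFactor ModularGroup.S UpperHalfPlane.I) 2 := by
    rw [rotFactor_S _ S_smul_I]
    exact IsPrimitiveRoot.neg_one 0 (by norm_num)
  have h0 : jFun UpperHalfPlane.I ≠ 0 := by rw [jFun_I]; norm_num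
  have key := sqgne_ord_eq_of_point N 1728 UpperHalfPlane.I hτ ModularGroup.S S_smul_I 2
    Nat.prime_two
    (by rw [analyticOrderAt_jFun_sub, if_neg h0, if_pos jFun_I]; rfl) hζ
    (fun x => sqgne_negOne_smul N _ sqgne_S_pow x)
    (fun x => sqgne_S_noFixed N r hr hrN hr4 x) v hv
  exact_mod_cast key

open Classical in
/-- the order of `j - a` at a place over `a` : `3`, `2`, `1` -/
def sqgneE (a : QBar) : ℕ := if a = 0 then 3 else if a = 1728 then 2 else 1

theorem sqgneE_pos (a : QBar) : 0 < sqgneE a := by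
  unfold sqgneE
  split_ifs <;> norm_num

/-- **(NOELL)** : no elliptic points ⟹ `ord_v(j - a) = e(a)` at EVERY place over `j = a`. -/
theorem sqgne_ord (r : ℕ) (hr : r.Prime) (hrN : r ∣ N) (hr3 : r % 3 = 2)
    (r' : ℕ) (hr' : r'.Prime) (hr'N : r' ∣ N) (hr4 : r' % 4 = 3) (a : QBar)
    (v : Place QBar (modularFunctionFieldBar N))
    (hv : 0 < v.ord (jBar N - algebraMap QBar (modularFunctionFieldBar N) a)) :
    v.ord (jBar N - algebraMap QBar (modularFunctionFieldBar N) a) = (sqgneE a : ℤ) := by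
  unfold sqgneE
  by_cases ha0 : a = 0
  · subst ha0
    rw [if_pos rfl]
    rw [map_zero, sub_zero] at hv ⊢
    exact_mod_cast sqgne_ord_zero N r hr hrN hr3 v hv
  · rw [if_neg ha0]
    by_cases ha : a = 1728
    · subst ha
      rw [if_pos rfl]
      exact_mod_cast sqgne_ord_1728 N r' hr' hr'N hr4 v hv
    · rw [if_neg ha]
      exact_mod_cast s18r_ord_eq_one N a ha0 ha v hv

/-- **(NOELL-emb)** : no elliptic points ⟹ every non-cuspidal place `v` of `F_ℚ̄(N)` is the place of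
a Laurent embedding `ε` with `order (ε f) = ord_v f`. -/
theorem sqgne_exists_emb (r : ℕ) (hr : r.Prime) (hrN : r ∣ N) (hr3 : r % 3 = 2)
    (r' : ℕ) (hr' : r'.Prime) (hr'N : r' ∣ N) (hr4 : r' % 4 = 3)
    (v : Place QBar (modularFunctionFieldBar N)) (hv : jBar N ∈ v.toValuationSubring) :
    ∃ ε : modularFunctionFieldBar N →+* LaurentSeries ℂ,
      (∀ c : QBar, ε (algebraMap QBar (modularFunctionFieldBar N) c) =
        HahnSeries.C (iotaBar c)) ∧
      ∀ f : modularFunctionFieldBar N, f ≠ 0 → (ε f).order = v.ord f := by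
  obtain ⟨a, ha, -⟩ := (isSepGen_jBar N).existsUnique_ord_sub_pos v
    (PlaceOrd.ord_nonneg_of_mem v hv)
  have hord := sqgne_ord N r hr hrN hr3 r' hr' hr'N hr4 a v ha
  by_cases ha0 : a = 0
  · subst ha0
    have hτ : jFun ρ = iotaBar 0 := by rw [jFun_ρ, map_zero]
    refine sqgne_emb_of_point N 0 ρ hτ (ModularGroup.S * ModularGroup.T) ST_smul_ρ 3
      (by rw [analyticOrderAt_jFun_sub, if_pos jFun_ρ]; rfl)
      (isPrimitiveRoot_rotFactor_ST ρ ST_smul_ρ) v ?_
    rw [hord, sqgneE, if_pos rfl]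
  · by_cases ha1 : a = 1728
    · subst ha1
      have hτ : jFun UpperHalfPlane.I = iotaBar 1728 := by rw [jFun_I, map_ofNat]
      have hζ : IsPrimitiveRoot (rotFactor ModularGroup.S UpperHalfPlane.I) 2 := by
        rw [rotFactor_S _ S_smul_I]
        exact IsPrimitiveRoot.neg_one 0 (by norm_num)
      have h0 : jFun UpperHalfPlane.I ≠ 0 := by rw [jFun_I]; norm_num
      refine sqgne_emb_of_point N 1728 UpperHalfPlane.I hτ ModularGroup.S S_smul_I 2
        (by rw [analyticOrderAt_jFun_sub, if_neg h0, if_pos jFun_I]; rfl) hζ v ?_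
      rw [hord, sqgneE, if_neg ha0, if_pos rfl]
    · obtain ⟨τ₀, hτ⟩ := jFun_surjective (iotaBar a)
      have h0 : jFun τ₀ ≠ 0 := by
        rw [hτ]
        exact fun h => ha0 (iotaBar.injective (by rw [h, map_zero]))
      have h1 : jFun τ₀ ≠ 1728 := by
        rw [hτ]
        exact fun h => ha1 (iotaBar.injective (by rw [h, map_ofNat]))
      have hζ : IsPrimitiveRoot (rotFactor 1 τ₀) 1 := by
        rw [rotFactor_one]
        exact IsPrimitiveRoot.one
      refine sqgne_emb_of_point N a τ₀ hτ 1 (one_smul _ _) 1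
        (by rw [analyticOrderAt_jFun_sub, if_neg h0, if_neg h1]; rfl) hζ v ?_
      rw [hord, sqgneE, if_neg ha0, if_neg ha1]

end Final

end Fermat.Agent.SQ
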