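import Mathlib
import Fermat.Agent.SQ.Germ.NoEll
import Fermat.Agent.S35.AuxLvl.DegBeta
import Fermat.Agent.SS.Dict.Place

/-!
# Program Q (S36), R1, leaf (RAM) : `α` and `β` are unramified at the non-cuspidal places

Level `M q`, `q ∤ M` prime, `M` with a prime factor `r ≡ 2 (mod 3)` and a prime factor
`r' ≡ 3 (mod 4)` (no elliptic points).  For a non-cuspidal place `v` of `F_ℚ̄(M q)` and the place
`v₀` of `F_ℚ̄(M)` below it along `α = heckeAlphaBar` (resp. `β = heckeBetaBar`) :
`ord_v (α f) = ord_{v₀} f` (resp. `ord_v (β f) = ord_{v₀} f`) for ALL `f`.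

* `sqgne_ord_comap` : abstract : one element `t` with `ord_{v₀} t = ord_v (φ t) = e > 0` suffices;
* `sqgne_ord_beta` : `ord_v (β j - b) = e(b)` at the places over `j_q = b` (Atkin-Lehner transport of
  (NOELL) at the level `M q`);
* `sqgne_exists_below` : the place below;
* `sqgne_ram_alpha`, `sqgne_ram_beta` : (RAM).
-/

set_option autoImplicit false
set_option linter.unusedSectionVars false
set_option linter.unusedVariables false

noncomputable section

namespace Fermat.Agent.SQ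

open Fermat.Agent.S24 Fermat.Agent.S18 Fermat.Agent.G Fermat.Agent.SS AlgebraicCurve ModularCurve

/-! ### 1. abstract -/

section Abs

variable {K F₀ F : Type*} [Field K] [Field F₀] [Field F] [Algebra K F₀] [Algebra K F]

/-- a place `v₀` below `v` along `φ` : units go to units -/
theorem sqgne_ord_zero_of_below (φ : F₀ →+* F) (v : Place K F) (v₀ : Place K F₀)
    (hv₀ : ∀ x, x ∈ v₀.toValuationSubring ↔ φ x ∈ v.toValuationSubring) (g : F₀) (hg : g ≠ 0)
    (h0 : v₀.ord g = 0) : v.ord (φ g) = 0 := by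
  have hφg : φ g ≠ 0 := (map_ne_zero_iff φ φ.injective).2 hg
  rw [PlaceOrd.ord_eq_zero_iff v₀ hg, hv₀, hv₀, map_inv₀] at h0
  exact (PlaceOrd.ord_eq_zero_iff v hφg).2 h0

/-- **unramified along `φ`** : if ONE element `t` has `ord_{v₀} t = ord_v (φ t) = e > 0` then
`ord_v (φ f) = ord_{v₀} f` for all `f`. -/
theorem sqgne_ord_comap (φ : F₀ →+* F) (v : Place K F) (v₀ : Place K F₀)
    (hv₀ : ∀ x, x ∈ v₀.toValuationSubring ↔ φ x ∈ v.toValuationSubring)
    (t : F₀) (e : ℤ) (he : 0 < e) (h0 : v₀.ord t = e) (h1 : v.ord (φ t) = e) (f : F₀) :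
    v.ord (φ f) = v₀.ord f := by
  rcases eq_or_ne f 0 with rfl | hf
  · rw [map_zero, Place.ord_zero, Place.ord_zero]
  have ht0 : t ≠ 0 := by
    rintro rfl
    rw [Place.ord_zero] at h0
    omega
  set n : ℤ := v₀.ord f with hn
  set g : F₀ := f ^ e * (t ^ n)⁻¹ with hgdef
  have hfe : f ^ e ≠ 0 := zpow_ne_zero _ hf
  have htn : t ^ n ≠ 0 := zpow_ne_zero _ ht0
  have hg0 : g ≠ 0 := mul_ne_zero hfe (inv_ne_zero htn)
  have hg : v₀.ord g = 0 := by
    rw [hgdef, v₀.ord_mul hfe (inv_ne_zero htn), v₀.ord_inv, v₀.ord_zpow, v₀.ord_zpow, h0, ← hn]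
    ring
  have key := sqgne_ord_zero_of_below φ v v₀ hv₀ g hg0 hg
  have hφf : φ f ≠ 0 := (map_ne_zero_iff φ φ.injective).2 hf
  have hφt : φ t ≠ 0 := (map_ne_zero_iff φ φ.injective).2 ht0
  rw [hgdef, map_mul, map_inv₀, map_zpow₀, map_zpow₀,
    v.ord_mul (zpow_ne_zero _ hφf) (inv_ne_zero (zpow_ne_zero _ hφt)), v.ord_inv, v.ord_zpow,
    v.ord_zpow, h1] at key
  have h2 : e * (v.ord (φ f) - n) = 0 := by linarith
  rcases mul_eq_zero.1 h2 with h3 | h3
  · omega
  · omega

end Abs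

/-! ### 2. the Atkin-Lehner transport -/

section Beta

variable (M q : ℕ) [NeZero M] [NeZero q]

theorem sqgne_alpha_jBar : heckeAlphaBar QBar M q (jBar M) = jBar (M * q) := by
  apply Subtype.ext
  rw [coe_heckeAlphaBar]
  rfl

variable [Fact q.Prime]

/-- **(NOELL) for `j_q`** : `ord_v (β j - b) = e(b)` at every place of `F_ℚ̄(M q)` over `j_q = b`. -/
theorem sqgne_ord_beta (hqM : ¬ q ∣ M) (r : ℕ) (hr : r.Prime) (hrM : r ∣ M) (hr3 : r % 3 = 2)
    (r' : ℕ) (hr' : r'.Prime) (hr'M : r' ∣ M) (hr4 : r' % 4 = 3) (b : QBar)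
    (v : Place QBar (modularFunctionFieldBar (M * q)))
    (hv : 0 < v.ord (heckeBetaBar QBar M q (jBar M) -
        algebraMap QBar (modularFunctionFieldBar (M * q)) b)) :
    v.ord (heckeBetaBar QBar M q (jBar M) -
        algebraMap QBar (modularFunctionFieldBar (M * q)) b) = (sqgneE b : ℤ) := by
  obtain ⟨w, hwα, hwβ, hww, hwc⟩ := s35db_exists_w M hqM
  set σ : modularFunctionFieldBar (M * q) ≃ₐ[QBar] modularFunctionFieldBar (M * q) :=
    AlgEquiv.ofRingEquiv (f := w) hwc with hσ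
  have hσw : ∀ x, σ x = w x := fun x => rfl
  set t' : modularFunctionFieldBar (M * q) := jBar (M * q) -
    algebraMap QBar (modularFunctionFieldBar (M * q)) b with ht'
  have hwt' : σ t' = heckeBetaBar QBar M q (jBar M) -
      algebraMap QBar (modularFunctionFieldBar (M * q)) b := by
    rw [hσw, ht', map_sub, hwc, ← sqgne_alpha_jBar M q, hwα]
  have key : v.ord (σ t') = (σ⁻¹ • v).ord t' := by
    have := Place.ord_smul σ (σ⁻¹ • v) t'
    rw [smul_inv_smul] at this
    exact this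
  rw [← hwt', key]
  rw [← hwt', key] at hv
  exact sqgne_ord (M * q) r hr (hrM.mul_right q) hr3 r' hr' (hr'M.mul_right q) hr4 b _ hv

end Beta

/-! ### 3. (RAM) -/

section Ram

variable (M q : ℕ) [NeZero M] [NeZero q]

/-- the place of `F_ℚ̄(M)` below a place of `F_ℚ̄(M q)` along a `ℚ̄`-embedding -/
theorem sqgne_exists_below
    (φ : modularFunctionFieldBar M →ₐ[QBar] modularFunctionFieldBar (M * q))
    (v : Place QBar (modularFunctionFieldBar (M * q))) (t : modularFunctionFieldBar M)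
    (ht : 0 < v.ord (φ t)) :
    ∃ v₀ : Place QBar (modularFunctionFieldBar M),
      ∀ x, x ∈ v₀.toValuationSubring ↔ φ x ∈ v.toValuationSubring := by
  set W : ValuationSubring (modularFunctionFieldBar M) :=
    v.toValuationSubring.comap (φ : modularFunctionFieldBar M →+*
      modularFunctionFieldBar (M * q)) with hW
  have hmemW : ∀ x, x ∈ W ↔ φ x ∈ v.toValuationSubring := fun x => Iff.rfl
  have hφt0 : φ t ≠ 0 := by
    intro h0
    rw [h0, Place.ord_zero] at ht
    exact lt_irrefl _ ht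
  have hWp : S18IsPlace QBar W := by
    refine ⟨fun htop => ?_, fun c => ?_⟩
    · have h1 : t⁻¹ ∈ W := by rw [htop]; exact ValuationSubring.mem_top _
      rw [hmemW, map_inv₀] at h1
      exact (PlaceOrd.ord_pos_iff v hφt0).1 ht h1
    · rw [hmemW, AlgHom.commutes]
      exact v.algebraMap_mem' c
  obtain ⟨v₀, hv₀⟩ := ssd_weak_place_bar M W hWp
  exact ⟨v₀, fun x => by rw [hv₀]; exact Iff.rfl⟩

/-- positivity goes down -/
theorem sqgne_pos_below {K F₀ F : Type*} [Field K] [Field F₀] [Field F] [Algebra K F₀]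
    [Algebra K F] (φ : F₀ →+* F) (v : Place K F) (v₀ : Place K F₀)
    (hv₀ : ∀ x, x ∈ v₀.toValuationSubring ↔ φ x ∈ v.toValuationSubring) (t : F₀)
    (ht : 0 < v.ord (φ t)) : 0 < v₀.ord t := by
  have hφt0 : φ t ≠ 0 := by
    intro h0
    rw [h0, Place.ord_zero] at ht
    exact lt_irrefl _ ht
  have ht0 : t ≠ 0 := fun h => hφt0 (by rw [h, map_zero])
  rw [PlaceOrd.ord_pos_iff v₀ ht0, hv₀, map_inv₀, ← PlaceOrd.ord_pos_iff v hφt0]
  exact ht

/-- **(RAM-α)** : `α` is unramified at every non-cuspidal place (no elliptic points at level `M`) -/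
theorem sqgne_ram_alpha (r : ℕ) (hr : r.Prime) (hrM : r ∣ M) (hr3 : r % 3 = 2)
    (r' : ℕ) (hr' : r'.Prime) (hr'M : r' ∣ M) (hr4 : r' % 4 = 3)
    (v : Place QBar (modularFunctionFieldBar (M * q)))
    (hv : jBar (M * q) ∈ v.toValuationSubring)
    (v₀ : Place QBar (modularFunctionFieldBar M))
    (hv₀ : ∀ x, x ∈ v₀.toValuationSubring ↔
      heckeAlphaBar QBar M q x ∈ v.toValuationSubring)
    (f : modularFunctionFieldBar M) :
    v.ord (heckeAlphaBar QBar M q f) = v₀.ord f := by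
  obtain ⟨a, ha, -⟩ := (isSepGen_jBar (M * q)).existsUnique_ord_sub_pos v
    (PlaceOrd.ord_nonneg_of_mem v hv)
  have h1 := sqgne_ord (M * q) r hr (hrM.mul_right q) hr3 r' hr' (hr'M.mul_right q) hr4 a v ha
  have hαt : heckeAlphaBar QBar M q (jBar M - algebraMap QBar (modularFunctionFieldBar M) a) =
      jBar (M * q) - algebraMap QBar (modularFunctionFieldBar (M * q)) a := by
    rw [map_sub, AlgHom.commutes, sqgne_alpha_jBar]
  have hpos : 0 < v₀.ord (jBar M - algebraMap QBar (modularFunctionFieldBar M) a) :=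
    sqgne_pos_below (heckeAlphaBar QBar M q : modularFunctionFieldBar M →+* _) v v₀ hv₀ _
      (by rw [RingHom.coe_coe, hαt]; exact ha)
  have h0 := sqgne_ord M r hr hrM hr3 r' hr' hr'M hr4 a v₀ hpos
  exact sqgne_ord_comap (heckeAlphaBar QBar M q : modularFunctionFieldBar M →+* _) v v₀ hv₀
    (jBar M - algebraMap QBar (modularFunctionFieldBar M) a) (sqgneE a)
    (by exact_mod_cast sqgneE_pos a) h0 (by rw [RingHom.coe_coe, hαt]; exact h1) f

/-- **(RAM-β)** : `β` is unramified at every non-cuspidal place -/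
theorem sqgne_ram_beta [Fact q.Prime] (hqM : ¬ q ∣ M)
    (r : ℕ) (hr : r.Prime) (hrM : r ∣ M) (hr3 : r % 3 = 2)
    (r' : ℕ) (hr' : r'.Prime) (hr'M : r' ∣ M) (hr4 : r' % 4 = 3)
    (v : Place QBar (modularFunctionFieldBar (M * q)))
    (hv : heckeBetaBar QBar M q (jBar M) ∈ v.toValuationSubring)
    (v₀ : Place QBar (modularFunctionFieldBar M))
    (hv₀ : ∀ x, x ∈ v₀.toValuationSubring ↔
      heckeBetaBar QBar M q x ∈ v.toValuationSubring)
    (f : modularFunctionFieldBar M) :
    v.ord (heckeBetaBar QBar M q f) = v₀.ord f := by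
  have hj₀ : jBar M ∈ v₀.toValuationSubring := (hv₀ _).2 hv
  obtain ⟨b, hb, -⟩ := (isSepGen_jBar M).existsUnique_ord_sub_pos v₀
    (PlaceOrd.ord_nonneg_of_mem v₀ hj₀)
  have h0 := sqgne_ord M r hr hrM hr3 r' hr' hr'M hr4 b v₀ hb
  have hβt : heckeBetaBar QBar M q (jBar M - algebraMap QBar (modularFunctionFieldBar M) b) =
      heckeBetaBar QBar M q (jBar M) - algebraMap QBar (modularFunctionFieldBar (M * q)) b := by
    rw [map_sub, AlgHom.commutes]
  -- positivity goes up
  have ht0 : jBar M - algebraMap QBar (modularFunctionFieldBar M) b ≠ 0 := by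
    intro h
    rw [h, Place.ord_zero] at hb
    exact lt_irrefl _ hb
  have hβt0 : heckeBetaBar QBar M q (jBar M) -
      algebraMap QBar (modularFunctionFieldBar (M * q)) b ≠ 0 := by
    rw [← hβt]
    exact (map_ne_zero_iff _ (heckeBetaBar QBar M q).toRingHom.injective).2 ht0
  have hpos : 0 < v.ord (heckeBetaBar QBar M q (jBar M) -
      algebraMap QBar (modularFunctionFieldBar (M * q)) b) := by
    rw [PlaceOrd.ord_pos_iff v hβt0, ← hβt, ← map_inv₀, ← hv₀, ← PlaceOrd.ord_pos_iff v₀ ht0]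
    exact hb
  have h1 := sqgne_ord_beta M q hqM r hr hrM hr3 r' hr' hr'M hr4 b v hpos
  exact sqgne_ord_comap (heckeBetaBar QBar M q : modularFunctionFieldBar M →+* _) v v₀ hv₀
    (jBar M - algebraMap QBar (modularFunctionFieldBar M) b) (sqgneE b)
    (by exact_mod_cast sqgneE_pos b) h0 (by rw [RingHom.coe_coe, hβt]; exact h1) f

/-- **(RAM-α), existence form** -/
theorem sqgne_ram_alpha_exists (r : ℕ) (hr : r.Prime) (hrM : r ∣ M) (hr3 : r % 3 = 2)
    (r' : ℕ) (hr' : r'.Prime) (hr'M : r' ∣ M) (hr4 : r' % 4 = 3)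
    (v : Place QBar (modularFunctionFieldBar (M * q)))
    (hv : jBar (M * q) ∈ v.toValuationSubring) :
    ∃ v₀ : Place QBar (modularFunctionFieldBar M),
      (∀ x, x ∈ v₀.toValuationSubring ↔ heckeAlphaBar QBar M q x ∈ v.toValuationSubring) ∧
      jBar M ∈ v₀.toValuationSubring ∧
      ∀ f : modularFunctionFieldBar M, v.ord (heckeAlphaBar QBar M q f) = v₀.ord f := by
  obtain ⟨a, ha, -⟩ := (isSepGen_jBar (M * q)).existsUnique_ord_sub_pos v
    (PlaceOrd.ord_nonneg_of_mem v hv)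
  have hαt : heckeAlphaBar QBar M q (jBar M - algebraMap QBar (modularFunctionFieldBar M) a) =
      jBar (M * q) - algebraMap QBar (modularFunctionFieldBar (M * q)) a := by
    rw [map_sub, AlgHom.commutes, sqgne_alpha_jBar]
  obtain ⟨v₀, hv₀⟩ := sqgne_exists_below M q (heckeAlphaBar QBar M q) v
    (jBar M - algebraMap QBar (modularFunctionFieldBar M) a) (by rw [hαt]; exact ha)
  refine ⟨v₀, hv₀, ?_, fun f =>
    sqgne_ram_alpha M q r hr hrM hr3 r' hr' hr'M hr4 v hv v₀ hv₀ f⟩
  rw [hv₀, sqgne_alpha_jBar]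
  exact hv

/-- **(RAM-β), existence form** -/
theorem sqgne_ram_beta_exists [Fact q.Prime] (hqM : ¬ q ∣ M)
    (r : ℕ) (hr : r.Prime) (hrM : r ∣ M) (hr3 : r % 3 = 2)
    (r' : ℕ) (hr' : r'.Prime) (hr'M : r' ∣ M) (hr4 : r' % 4 = 3)
    (v : Place QBar (modularFunctionFieldBar (M * q)))
    (hv : heckeBetaBar QBar M q (jBar M) ∈ v.toValuationSubring) :
    ∃ v₀ : Place QBar (modularFunctionFieldBar M),
      (∀ x, x ∈ v₀.toValuationSubring ↔ heckeBetaBar QBar M q x ∈ v.toValuationSubring) ∧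
      jBar M ∈ v₀.toValuationSubring ∧
      ∀ f : modularFunctionFieldBar M, v.ord (heckeBetaBar QBar M q f) = v₀.ord f := by
  obtain ⟨c, hc⟩ := embCount_exists_const v ((isSepGen_jBar (M * q)).deg_eq_one v)
    ⟨heckeBetaBar QBar M q (jBar M), hv⟩
  have hβt : heckeBetaBar QBar M q (jBar M - algebraMap QBar (modularFunctionFieldBar M) c) =
      heckeBetaBar QBar M q (jBar M) - algebraMap QBar (modularFunctionFieldBar (M * q)) c := by
    rw [map_sub, AlgHom.commutes]
  have ht0 : jBar M - algebraMap QBar (modularFunctionFieldBar M) c ≠ 0 := by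
    intro h
    apply transcendental_jBar M
    rw [sub_eq_zero] at h
    rw [h]
    exact isAlgebraic_algebraMap c
  have hβt0 : heckeBetaBar QBar M q (jBar M) -
      algebraMap QBar (modularFunctionFieldBar (M * q)) c ≠ 0 := by
    rw [← hβt]
    exact (map_ne_zero_iff _ (heckeBetaBar QBar M q).toRingHom.injective).2 ht0
  have hpos : 0 < v.ord (heckeBetaBar QBar M q (jBar M) -
      algebraMap QBar (modularFunctionFieldBar (M * q)) c) := by
    have hne : (⟨heckeBetaBar QBar M q (jBar M), hv⟩ - algebraMap QBar v.toValuationSubring c :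
        v.toValuationSubring) ≠ 0 := by
      intro h
      apply hβt0
      have := congrArg Subtype.val h
      simpa using this
    have := (PlaceOrd.ord_pos_iff_mem_maximalIdeal v hne).2 hc
    simpa using this
  obtain ⟨v₀, hv₀⟩ := sqgne_exists_below M q (heckeBetaBar QBar M q) v
    (jBar M - algebraMap QBar (modularFunctionFieldBar M) c) (by rw [hβt]; exact hpos)
  exact ⟨v₀, hv₀, (hv₀ _).2 hv, fun f =>
    sqgne_ram_beta M q hqM r hr hrM hr3 r' hr' hr'M hr4 v hv v₀ hv₀ f⟩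

end Ram

end Fermat.Agent.SQ
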