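import Mathlib

/-!
# Program Q, leaf (ET), abstract layer : unramifiedness is stable under generisation

`R → S` essentially of finite type, `𝔮` a maximal ideal of `S` over the maximal ideal `𝔭 = 𝔮 ∩ R`
with `κ(𝔮)/κ(𝔭)` separable and `𝔭 S_𝔮 = 𝔮 S_𝔮`.  Then for EVERY prime `𝔮' ⊆ 𝔮` of `S`, with
`𝔭' = 𝔮' ∩ R`: `𝔭' S_𝔮' = 𝔮' S_𝔮'`.

* `sqgu_isUnramifiedAt_of_le`     : the unramified locus is stable under generisation;
* `sqgu_isUnramifiedAt_of_map_le` : `𝔮 T ⊆ 𝔭 T` (`T` any model of `S_𝔮`) + separable ⟹ unramified;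
* `sqgu_map_eq_of_isUnramifiedAt` : unramified at `𝔮'` ⟹ `𝔭' T' = 𝔮' T'`;
* `sqgu_map_eq_of_le`             : the combination;
* `sqgu_sep`                      : over a local base with perfect residue field, for `S` of finite
  type and `𝔮` maximal, `𝔮 ∩ R` is maximal and the residue extension is separable.
-/

set_option autoImplicit false
set_option linter.style.haveILetI false

namespace Fermat.Agent.SQ

open IsLocalRing

section Abs

variable {R S : Type*} [CommRing R] [CommRing S] [Algebra R S]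

/-- the unramified locus is stable under generisation (no finiteness needed) -/
theorem sqgu_isUnramifiedAt_of_le (𝔮 𝔮' : Ideal S) [h𝔮 : 𝔮.IsPrime] [h𝔮' : 𝔮'.IsPrime]
    (hle : 𝔮' ≤ 𝔮) (h : Algebra.IsUnramifiedAt R 𝔮) : Algebra.IsUnramifiedAt R 𝔮' := by
  have h1 : (⟨𝔮, h𝔮⟩ : PrimeSpectrum S) ∈ Algebra.unramifiedLocus R S := h
  have h2 : (⟨𝔮', h𝔮'⟩ : PrimeSpectrum S) ∈ Algebra.unramifiedLocus R S := by
    rw [Algebra.unramifiedLocus_eq_compl_support] at h1 ⊢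
    intro h3
    exact h1 (Module.mem_support_mono (p := ⟨𝔮', h𝔮'⟩) (q := ⟨𝔮, h𝔮⟩) hle h3)
  exact h2

/-- transport of an extended ideal between two models of the localisation -/
theorem sqgu_map_algEquiv (𝔮 : Ideal S) [𝔮.IsPrime] (T T' : Type*) [CommRing T] [Algebra S T]
    [IsLocalization.AtPrime T 𝔮] [CommRing T'] [Algebra S T'] [IsLocalization.AtPrime T' 𝔮]
    (I : Ideal S) :
    (I.map (algebraMap S T)).map
      ((IsLocalization.algEquiv 𝔮.primeCompl T T' : T ≃ₐ[S] T') : T →+* T') =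
      I.map (algebraMap S T') := by
  rw [Ideal.map_map]
  congr 1
  ext s
  simp

variable [Algebra.EssFiniteType R S]

/-- `𝔮 T ⊆ 𝔭 T` and `κ(𝔮)/κ(𝔭)` separable ⟹ `S` is unramified over `R` at `𝔮`. -/
theorem sqgu_isUnramifiedAt_of_map_le (𝔮 : Ideal S) [𝔮.IsMaximal] [(𝔮.under R).IsMaximal]
    [Algebra.IsSeparable (R ⧸ 𝔮.under R) (S ⧸ 𝔮)]
    (T : Type*) [CommRing T] [Algebra S T] [IsLocalization.AtPrime T 𝔮]
    (hgen : 𝔮.map (algebraMap S T) ≤ ((𝔮.under R).map (algebraMap R S)).map (algebraMap S T)) :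
    Algebra.IsUnramifiedAt R 𝔮 := by
  let _ := Localization.AtPrime.algebraOfLiesOver (𝔮.under R) 𝔮
  rw [Algebra.isUnramifiedAt_iff_map_eq R (𝔮.under R) 𝔮]
  refine ⟨inferInstance, ?_⟩
  rw [IsScalarTower.algebraMap_eq R S (Localization.AtPrime 𝔮), ← Ideal.map_map,
    ← Localization.AtPrime.map_eq_maximalIdeal]
  apply le_antisymm (Ideal.map_mono Ideal.map_comap_le)
  have h1 := Ideal.map_mono
    (f := ((IsLocalization.algEquiv 𝔮.primeCompl T (Localization.AtPrime 𝔮) :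
      T ≃ₐ[S] Localization.AtPrime 𝔮) : T →+* Localization.AtPrime 𝔮)) hgen
  rwa [sqgu_map_algEquiv, sqgu_map_algEquiv] at h1

/-- unramified at `𝔮` ⟹ `𝔭 T = 𝔮 T`. -/
theorem sqgu_map_eq_of_isUnramifiedAt (𝔮 : Ideal S) [𝔮.IsPrime]
    (h : Algebra.IsUnramifiedAt R 𝔮)
    (T : Type*) [CommRing T] [Algebra S T] [IsLocalization.AtPrime T 𝔮] :
    ((𝔮.under R).map (algebraMap R S)).map (algebraMap S T) = 𝔮.map (algebraMap S T) := by
  let _ := Localization.AtPrime.algebraOfLiesOver (𝔮.under R) 𝔮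
  obtain ⟨-, h2⟩ := (Algebra.isUnramifiedAt_iff_map_eq R (𝔮.under R) 𝔮).mp h
  rw [IsScalarTower.algebraMap_eq R S (Localization.AtPrime 𝔮), ← Ideal.map_map,
    ← Localization.AtPrime.map_eq_maximalIdeal] at h2
  have h3 := congrArg (Ideal.map
    ((IsLocalization.algEquiv 𝔮.primeCompl (Localization.AtPrime 𝔮) T :
      Localization.AtPrime 𝔮 ≃ₐ[S] T) : Localization.AtPrime 𝔮 →+* T)) h2
  rwa [sqgu_map_algEquiv, sqgu_map_algEquiv] at h3

/-- **(ET), abstract form.** -/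
theorem sqgu_map_eq_of_le (𝔮 : Ideal S) [𝔮.IsMaximal] [(𝔮.under R).IsMaximal]
    [Algebra.IsSeparable (R ⧸ 𝔮.under R) (S ⧸ 𝔮)]
    (T : Type*) [CommRing T] [Algebra S T] [IsLocalization.AtPrime T 𝔮]
    (hgen : 𝔮.map (algebraMap S T) ≤ ((𝔮.under R).map (algebraMap R S)).map (algebraMap S T))
    (𝔮' : Ideal S) [𝔮'.IsPrime] (hle : 𝔮' ≤ 𝔮)
    (T' : Type*) [CommRing T'] [Algebra S T'] [IsLocalization.AtPrime T' 𝔮'] :
    ((𝔮'.under R).map (algebraMap R S)).map (algebraMap S T') = 𝔮'.map (algebraMap S T') :=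
  sqgu_map_eq_of_isUnramifiedAt 𝔮'
    (sqgu_isUnramifiedAt_of_le 𝔮 𝔮' hle (sqgu_isUnramifiedAt_of_map_le 𝔮 T hgen)) T'

end Abs

section Sep

variable {A₀ R S : Type*} [CommRing A₀] [CommRing R] [CommRing S] [Algebra A₀ R] [Algebra R S]
  [Algebra A₀ S] [IsScalarTower A₀ R S]

/-- the three-step tower of quotients -/
theorem sqgu_quot_tower (𝔪 : Ideal A₀) (𝔮 : Ideal S) [𝔮.LiesOver 𝔪] :
    IsScalarTower (A₀ ⧸ 𝔪) (R ⧸ 𝔮.under R) (S ⧸ 𝔮) := by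
  refine IsScalarTower.of_algebraMap_eq fun z => ?_
  obtain ⟨a, rfl⟩ := Ideal.Quotient.mk_surjective z
  simp only [Ideal.Quotient.algebraMap_mk_of_liesOver]
  rw [IsScalarTower.algebraMap_apply A₀ R S]

/-- over a base with perfect residue field `A₀/𝔪`, for `S` of finite type over `A₀` and `𝔮` a
maximal ideal over `𝔪` : `𝔮 ∩ R` is maximal and `κ(𝔮)/κ(𝔮 ∩ R)` is separable. -/
theorem sqgu_sep [Algebra.FiniteType A₀ S] (𝔪 : Ideal A₀) [h𝔪 : 𝔪.IsMaximal]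
    (hk : @PerfectField (A₀ ⧸ 𝔪) (Ideal.Quotient.field 𝔪))
    (𝔮 : Ideal S) [h𝔮 : 𝔮.IsMaximal] [𝔮.LiesOver 𝔪] :
    (𝔮.under R).IsMaximal ∧ Algebra.IsSeparable (R ⧸ 𝔮.under R) (S ⧸ 𝔮) := by
  letI := Ideal.Quotient.field 𝔪
  letI := Ideal.Quotient.field 𝔮
  haveI : IsScalarTower (A₀ ⧸ 𝔪) (R ⧸ 𝔮.under R) (S ⧸ 𝔮) := sqgu_quot_tower 𝔪 𝔮
  haveI : Algebra.FiniteType A₀ (S ⧸ 𝔮) :=
    Algebra.FiniteType.of_surjective (Ideal.Quotient.mkₐ A₀ 𝔮) Ideal.Quotient.mk_surjective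
  haveI : Algebra.FiniteType (A₀ ⧸ 𝔪) (S ⧸ 𝔮) :=
    Algebra.FiniteType.of_restrictScalars_finiteType A₀ _ _
  haveI : Module.Finite (A₀ ⧸ 𝔪) (S ⧸ 𝔮) := finite_of_finite_type_of_isJacobsonRing _ _
  haveI : Algebra.IsIntegral (A₀ ⧸ 𝔪) (S ⧸ 𝔮) := Algebra.IsIntegral.of_finite _ _
  have hinj : Function.Injective (algebraMap (R ⧸ 𝔮.under R) (S ⧸ 𝔮)) :=
    FaithfulSMul.algebraMap_injective _ _
  haveI : Algebra.IsIntegral (A₀ ⧸ 𝔪) (R ⧸ 𝔮.under R) :=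
    ⟨fun z => IsIntegral.tower_bot hinj (Algebra.IsIntegral.isIntegral _)⟩
  have hfield : IsField (R ⧸ 𝔮.under R) :=
    isField_of_isIntegral_of_isField' (Field.toIsField (A₀ ⧸ 𝔪))
  have hmax : (𝔮.under R).IsMaximal := Ideal.Quotient.maximal_of_isField _ hfield
  refine ⟨hmax, ?_⟩
  letI := Ideal.Quotient.field (𝔮.under R)
  haveI : Algebra.IsAlgebraic (A₀ ⧸ 𝔪) (R ⧸ 𝔮.under R) := Algebra.IsIntegral.isAlgebraic
  haveI : PerfectField (R ⧸ 𝔮.under R) := Algebra.IsAlgebraic.perfectField (A₀ ⧸ 𝔪)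
  haveI : Algebra.IsAlgebraic (A₀ ⧸ 𝔪) (S ⧸ 𝔮) := Algebra.IsIntegral.isAlgebraic
  haveI : Algebra.IsAlgebraic (R ⧸ 𝔮.under R) (S ⧸ 𝔮) :=
    Algebra.IsAlgebraic.tower_top (K := A₀ ⧸ 𝔪) (R ⧸ 𝔮.under R)
  exact Algebra.IsAlgebraic.isSeparable_of_perfectField

end Sep

end Fermat.Agent.SQ
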