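import Mathlib
import Fermat.Agent.S18.T.Spec
import Fermat.Agent.SS.Loc.Place
import Fermat.Agent.SS.NF.Defs
import Fermat.Agent.SQ.Germ.UnramAbs

/-!
# Program Q, leaf (ET) : a parameter of the special fibre at `𝔫` is unramified at every
horizontal place through `𝔫`

Setting of S18 package T : `A` a DVR of characteristic `0` with uniformiser `ϖ` and PERFECT residue
field, `L = Frac A`, `F / L(t)` finite, `P = s18tInt A t`, `𝔫` a maximal ideal of `P` containing `ϖ`.

If `𝔫 P_𝔫 = (ϖ, p(x))` for some `x ∈ P`, `p ∈ A[X]`, then at EVERY place `V` of `F / L` centred in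
`𝔫` the minimal polynomial `m ∈ L[X]` of the value `x(V)` has `m(x)` a uniformiser of `V`
(`sqgu_unram`).

Proof : `P` is of finite type over `R = A[X]` (`X ↦ x`), unramified at `𝔫` (Mathlib's
`Algebra.isUnramifiedAt_iff_map_eq`), hence at the centre `𝔮'` of `V` (`UnramAbs`), i.e.
`𝔮' P_𝔮' = (𝔮' ∩ A[x]) P_𝔮' = m(x) P_𝔮'`; a noetherian local domain with principal maximal ideal
is a valuation ring, so `P_𝔮' = V`.
-/

set_option autoImplicit false
set_option linter.unusedSectionVars false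
set_option linter.unusedVariables false
set_option linter.style.haveILetI false

noncomputable section

namespace Fermat.Agent.SQ

open Polynomial IntermediateField Fermat.Agent.S18 Fermat.Agent.SS IsLocalRing

universe u

variable {A : Type*} [CommRing A] [IsDomain A] [IsDiscreteValuationRing A] [CharZero A]
variable {L : Type*} [Field L] [Algebra A L] [IsFractionRing A L]
variable {F : Type u} [Field F] [Algebra A F] [Algebra L F] [IsScalarTower A L F]
variable {ϖ : A}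

/-! ## the algebra structures on `P` -/

/-- the constants `A → P` -/
def sqguConst (t : F) : A →+* ↥(s18tInt A t) :=
  RingHom.codRestrict (algebraMap A F) (s18tInt A t) (fun a => s18tc_algebraMap_mem_int t a)

theorem sqguConst_coe (t : F) (a : A) : ((sqguConst t a : ↥(s18tInt A t)) : F) = algebraMap A F a :=
  rfl

/-- `A[X] → P`, `X ↦ x` -/
def sqguEval (t : F) (x : ↥(s18tInt A t)) : A[X] →+* ↥(s18tInt A t) :=
  eval₂RingHom (sqguConst t) x

theorem sqguEval_coe (t : F) (x : ↥(s18tInt A t)) (g : A[X]) :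
    ((sqguEval t x g : ↥(s18tInt A t)) : F) = aeval (x : F) g := by
  have h := Polynomial.hom_eval₂ g (sqguConst t) (s18tInt A t).subtype x
  rw [aeval_def]
  exact h

theorem sqguEval_C (t : F) (x : ↥(s18tInt A t)) (a : A) : sqguEval t x (C a) = sqguConst t a :=
  eval₂_C _ _

/-- `P` is an `A`-algebra of finite type. -/
theorem sqgu_finiteType (t : F) (ht : Transcendental L t) [FiniteDimensional L⟮t⟯ F] :
    @Algebra.FiniteType A ↥(s18tInt A t) _ _ (sqguConst t).toAlgebra := by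
  letI : Algebra A ↥(s18tInt A t) := (sqguConst t).toAlgebra
  have htA : Transcendental A t := s18tb_transcendental ht
  haveI : IsIntegrallyClosed ↥(s18tChart A t) :=
    IsIntegrallyClosed.of_equiv (s18tlgE t htA).toRingEquiv
  haveI : IsNoetherianRing ↥(s18tChart A t) :=
    isNoetherianRing_of_ringEquiv A[X] (s18tlgE t htA).toRingEquiv
  letI : Algebra ↥(s18tChart A t) ↥L⟮t⟯ := (s18tlgChartToK0 L t).toAlgebra
  haveI : IsScalarTower ↥(s18tChart A t) ↥L⟮t⟯ F := IsScalarTower.of_algebraMap_eq (fun _ => rfl)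
  haveI : IsFractionRing ↥(s18tChart A t) ↥L⟮t⟯ := s18tlg_isFractionRing ht
  haveI : CharZero L := charZero_of_injective_algebraMap (IsFractionRing.injective A L)
  haveI : CharZero ↥L⟮t⟯ := charZero_of_injective_algebraMap (algebraMap L ↥L⟮t⟯).injective
  haveI : Module.Finite ↥(s18tChart A t) ↥(integralClosure ↥(s18tChart A t) F) :=
    IsIntegralClosure.finite ↥(s18tChart A t) ↥L⟮t⟯ F ↥(integralClosure ↥(s18tChart A t) F)
  have h1 : Algebra.FiniteType A ↥(s18tChart A t) :=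
    Algebra.FiniteType.equiv inferInstance (s18tlgE t htA)
  have h2 : Algebra.FiniteType ↥(s18tChart A t) ↥(integralClosure ↥(s18tChart A t) F) :=
    inferInstance
  have h3 : Algebra.FiniteType A ↥(integralClosure ↥(s18tChart A t) F) := h1.trans h2
  let e : ↥(integralClosure ↥(s18tChart A t) F) ≃ₐ[A] ↥(s18tInt A t) :=
    { toFun := fun x => ⟨x.1, x.2⟩
      invFun := fun x => ⟨x.1, x.2⟩
      left_inv := fun x => rfl
      right_inv := fun x => rfl
      map_mul' := fun x y => rfl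
      map_add' := fun x y => rfl
      commutes' := fun a => rfl }
  exact h3.equiv e

/-! ## the chart ring is unramified over `A[x]` along the generisations of `𝔫` -/

/-- `𝔫 ∩ A = 𝔪_A` -/
theorem sqgu_liesOver (hϖ : Irreducible ϖ) (t : F) (𝔫 : Ideal ↥(s18tInt A t)) [h𝔫 : 𝔫.IsPrime]
    (hϖ𝔫 : sskPi ϖ t ∈ 𝔫) : maximalIdeal A = 𝔫.comap (sqguConst t) := by
  have h1 : maximalIdeal A ≤ 𝔫.comap (sqguConst t) := by
    rw [hϖ.maximalIdeal_eq, Ideal.span_singleton_le_iff_mem, Ideal.mem_comap]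
    exact hϖ𝔫
  exact (maximalIdeal.isMaximal A).eq_of_le (Ideal.comap_ne_top _ h𝔫.ne_top) h1

/-- **(ET), ideal form** : if `𝔫 P_𝔫 = (ϖ, p(x))` then `𝔮' P_𝔮' = (𝔮' ∩ A[x]) P_𝔮'` for every prime
`𝔮' ⊆ 𝔫`. -/
theorem sqgu_chart (hϖ : Irreducible ϖ) [hperf : PerfectField (ResidueField A)] (t : F)
    (ht : Transcendental L t) [FiniteDimensional L⟮t⟯ F]
    (𝔫 : Ideal ↥(s18tInt A t)) [h𝔫 : 𝔫.IsMaximal] (hϖ𝔫 : sskPi ϖ t ∈ 𝔫)
    (x : ↥(s18tInt A t)) (p : A[X])
    (hgen : ∀ y ∈ 𝔫, ∃ s : ↥(s18tInt A t), s ∉ 𝔫 ∧ ∃ a b : ↥(s18tInt A t),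
        (s : F) * (y : F) = (a : F) * algebraMap A F ϖ + (b : F) * aeval (x : F) p)
    (hpx : sqguEval t x p ∈ 𝔫)
    (𝔮' : Ideal ↥(s18tInt A t)) [𝔮'.IsPrime] (hle : 𝔮' ≤ 𝔫) :
    ((𝔮'.comap (sqguEval t x)).map (sqguEval t x)).map
        (algebraMap ↥(s18tInt A t) ↥(ssLocRing t 𝔮')) =
      𝔮'.map (algebraMap ↥(s18tInt A t) ↥(ssLocRing t 𝔮')) := by
  letI iA : Algebra A ↥(s18tInt A t) := (sqguConst t).toAlgebra
  letI iR : Algebra A[X] ↥(s18tInt A t) := (sqguEval t x).toAlgebra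
  haveI : IsScalarTower A A[X] ↥(s18tInt A t) :=
    IsScalarTower.of_algebraMap_eq (fun a => (sqguEval_C t x a).symm)
  haveI : Algebra.FiniteType A ↥(s18tInt A t) := sqgu_finiteType (L := L) t ht
  haveI : Algebra.FiniteType A[X] ↥(s18tInt A t) :=
    Algebra.FiniteType.of_restrictScalars_finiteType A _ _
  haveI : Algebra.EssFiniteType A[X] ↥(s18tInt A t) := inferInstance
  haveI : 𝔫.LiesOver (maximalIdeal A) := ⟨sqgu_liesOver hϖ t 𝔫 hϖ𝔫⟩
  have hk : @PerfectField (A ⧸ maximalIdeal A) (Ideal.Quotient.field _) := hperf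
  obtain ⟨hmax, hsep⟩ := sqgu_sep (R := A[X]) (maximalIdeal A) hk 𝔫
  haveI := hmax
  haveI := hsep
  refine sqgu_map_eq_of_le 𝔫 ↥(ssLocRing t 𝔫) ?_ 𝔮' hle ↥(ssLocRing t 𝔮')
  -- the generation hypothesis
  rw [Ideal.map_le_iff_le_comap]
  intro y hy
  rw [Ideal.mem_comap]
  obtain ⟨s, hs, a, b, hsy⟩ := hgen y hy
  have h1 : s * y = a * sqguEval t x (C ϖ) + b * sqguEval t x p := by
    apply Subtype.ext
    push_cast
    rw [hsy, sqguEval_coe, sqguEval_coe, aeval_C]
  have hCϖ : (C ϖ : A[X]) ∈ 𝔫.under A[X] := by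
    rw [Ideal.mem_under]
    show sqguEval t x (C ϖ) ∈ 𝔫
    rw [sqguEval_C]
    exact hϖ𝔫
  have hp : p ∈ 𝔫.under A[X] := by
    rw [Ideal.mem_under]
    exact hpx
  have h2 : s * y ∈ (𝔫.under A[X]).map (algebraMap A[X] ↥(s18tInt A t)) := by
    rw [h1]
    exact Ideal.add_mem _ (Ideal.mul_mem_left _ _ (Ideal.mem_map_of_mem _ hCϖ))
      (Ideal.mul_mem_left _ _ (Ideal.mem_map_of_mem _ hp))
  have h3 := Ideal.mem_map_of_mem (algebraMap ↥(s18tInt A t) ↥(ssLocRing t 𝔫)) h2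
  rw [map_mul] at h3
  exact (Ideal.unit_mul_mem_iff_mem _ (ssl_isUnit_of_not_mem t 𝔫 hs)).mp h3

/-! ## the valuation statement -/

/-- the centre of `V ⊇ P` on `P`, as an ideal -/
def sqguCentre (t : F) (V : ValuationSubring F) (hPV : s18tInt A t ≤ V.toSubring) :
    Ideal ↥(s18tInt A t) :=
  (maximalIdeal V).comap (Subring.inclusion hPV)

instance sqguCentre_isPrime (t : F) (V : ValuationSubring F) (hPV : s18tInt A t ≤ V.toSubring) :
    (sqguCentre t V hPV).IsPrime :=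
  Ideal.comap_isPrime _ _

theorem mem_sqguCentre (t : F) (V : ValuationSubring F) (hPV : s18tInt A t ≤ V.toSubring)
    (y : ↥(s18tInt A t)) : y ∈ sqguCentre t V hPV ↔ V.valuation (y : F) < 1 := by
  rw [sqguCentre, Ideal.mem_comap, V.valuation_lt_one_iff]
  rfl

/-- constants of `L` lie in `P_𝔮'` when no nonzero constant of `A` lies in `𝔮'` -/
theorem sqgu_const_mem (t : F) (𝔮' : Ideal ↥(s18tInt A t)) [𝔮'.IsPrime]
    (h0 : ∀ a : A, a ≠ 0 → sqguConst t a ∉ 𝔮') (c : L) :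
    algebraMap L F c ∈ ssLocRing t 𝔮' := by
  obtain ⟨a, b, hb, rfl⟩ := IsFractionRing.div_surjective (A := A) c
  have hb0 : b ≠ 0 := nonZeroDivisors.ne_zero hb
  have hbL : algebraMap A L b ≠ 0 :=
    (map_ne_zero_iff _ (IsFractionRing.injective A L)).mpr hb0
  refine ⟨sqguConst t b, h0 b hb0, ?_⟩
  have h1 : ((sqguConst t b : ↥(s18tInt A t)) : F) *
      algebraMap L F (algebraMap A L a / algebraMap A L b) = algebraMap A F a := by
    rw [sqguConst_coe, IsScalarTower.algebraMap_apply A L F, ← map_mul, mul_div_cancel₀ _ hbL,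
      ← IsScalarTower.algebraMap_apply A L F]
  rw [h1]
  exact s18tc_algebraMap_mem_int t a

/-- `L[x] ⊆ P_𝔮'` -/
theorem sqgu_aevalL_mem (t : F) (𝔮' : Ideal ↥(s18tInt A t)) [𝔮'.IsPrime]
    (h0 : ∀ a : A, a ≠ 0 → sqguConst t a ∉ 𝔮') (x : F) (hx : x ∈ s18tInt A t) (g : L[X]) :
    aeval x g ∈ ssLocRing t 𝔮' := by
  rw [aeval_eq_sum_range]
  refine Subring.sum_mem _ fun i _ => ?_
  rw [Algebra.smul_def]
  exact Subring.mul_mem _ (sqgu_const_mem t 𝔮' h0 _)
    (Subring.pow_mem _ (ssl_int_le_locRing t 𝔮' hx) _)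

/-- **(ET)** : if `𝔫 P_𝔫 = (ϖ, p(x))` then at every place `V` of `F / L` centred in `𝔫` the minimal
polynomial `m` of `x(V)` over `L` has `m(x)` a uniformiser of `V`. -/
theorem sqgu_unram (hϖ : Irreducible ϖ) [hperf : PerfectField (ResidueField A)] (t : F)
    (ht : Transcendental L t) [FiniteDimensional L⟮t⟯ F]
    (𝔫 : Ideal ↥(s18tInt A t)) [h𝔫 : 𝔫.IsMaximal] (hϖ𝔫 : sskPi ϖ t ∈ 𝔫)
    (x : F) (hx : x ∈ s18tInt A t) (p : A[X])
    (hgen : ∀ y ∈ 𝔫, ∃ s : ↥(s18tInt A t), s ∉ 𝔫 ∧ ∃ a b : ↥(s18tInt A t),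
        (s : F) * (y : F) = (a : F) * algebraMap A F ϖ + (b : F) * aeval x p)
    (hpx : SsnfInMax t 𝔫 (aeval x p))
    (V : ValuationSubring F) (hV : S18IsPlace L V) (hPV : s18tInt A t ≤ V.toSubring)
    (hc : sskCentre t V ⊆ (𝔫 : Set ↥(s18tInt A t))) :
    ∃ m : L[X], m.Monic ∧ Irreducible m ∧ S18IsUnif V (aeval x m) ∧
      ∀ g : L[X], V.valuation (aeval x g) < 1 ↔ m ∣ g := by
  classical
  have htA : Transcendental A t := s18tb_transcendental ht
  have hpx' : sqguEval t ⟨x, hx⟩ p ∈ 𝔫 := by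
    obtain ⟨s, hs, q, hq, hsq⟩ := hpx
    have h1 : s * sqguEval t ⟨x, hx⟩ p = q := Subtype.ext (by
      push_cast
      rw [sqguEval_coe]
      exact hsq)
    exact (h𝔫.isPrime.mem_or_mem (h1 ▸ hq)).resolve_left hs
  have hle : sqguCentre t V hPV ≤ 𝔫 := fun y hy => hc ((mem_sqguCentre t V hPV y).mp hy)
  have h4 := sqgu_chart (L := L) hϖ t ht 𝔫 hϖ𝔫 ⟨x, hx⟩ p hgen hpx' (sqguCentre t V hPV) hle
  -- nonzero constants are not in the centre
  have h0 : ∀ a : A, a ≠ 0 → sqguConst t a ∉ sqguCentre t V hPV := fun a ha h => by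
    rw [mem_sqguCentre, sqguConst_coe, ssl_val_constA hV ha] at h
    exact lt_irrefl _ h
  have hTV : ssLocRing t (sqguCentre t V hPV) ≤ V.toSubring :=
    ssl_locRing_le t (sqguCentre t V hPV) ⟨hPV, fun q hq => (mem_sqguCentre t V hPV q).mpr hq⟩
  have hval : ∀ w : ↥(ssLocRing t (sqguCentre t V hPV)), V.valuation (w : F) ≤ 1 :=
    fun w => (V.valuation_le_one_iff _).mpr (hTV w.2)
  -- non-units
  have hnu : ∀ w : ↥(ssLocRing t (sqguCentre t V hPV)), V.valuation (w : F) < 1 →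
      w ∈ maximalIdeal ↥(ssLocRing t (sqguCentre t V hPV)) := by
    intro w hw
    rw [mem_maximalIdeal, mem_nonunits_iff]
    intro hu
    obtain ⟨w', hw'⟩ := hu.exists_right_inv
    have h1 : (w : F) * (w' : F) = 1 := congrArg Subtype.val hw'
    have h2 := congrArg V.valuation h1
    rw [map_mul, map_one] at h2
    exact absurd h2 (ne_of_lt (mul_lt_one_of_lt_of_le hw (hval w')))
  -- the residue field of `V` as an `L`-algebra
  let ιL : L →+* ↥V := RingHom.codRestrict (algebraMap L F) V (fun c => hV.2 c)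
  letI : Algebra L (ResidueField ↥V) := ((residue ↥V).comp ιL).toAlgebra
  let xV : ↥V := ⟨x, hPV hx⟩
  have key : ∀ g : L[X], aeval (residue ↥V xV) g = 0 ↔ V.valuation (aeval x g) < 1 := by
    intro g
    have h1 : aeval (residue ↥V xV) g = residue ↥V (eval₂ ιL xV g) := by
      rw [aeval_def]
      exact (Polynomial.hom_eval₂ g ιL (residue ↥V) xV).symm
    have h2 : ((eval₂ ιL xV g : ↥V) : F) = aeval x g := by
      rw [aeval_def]
      exact Polynomial.hom_eval₂ g ιL V.subtype xV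
    rw [h1, residue_eq_zero_iff, V.valuation_lt_one_iff, h2]
  -- the value of `x` is algebraic over `L`
  have hint : IsIntegral L (residue ↥V xV) := by
    obtain ⟨z, hz⟩ : ∃ z : F, z ∉ V := by
      by_contra hall
      exact hV.1 (eq_top_iff.mpr fun z _ => by
        by_contra hz
        exact hall ⟨z, hz⟩)
    have hz0 : z ≠ 0 := fun h => hz (h ▸ V.zero_mem)
    have hz1 : V.valuation z⁻¹ < 1 := by
      have h1 : 1 < V.valuation z := lt_of_not_ge (fun h => hz ((V.valuation_le_one_iff z).mp h))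
      rw [map_inv₀]
      exact inv_lt_one_of_one_lt₀ h1
    obtain ⟨r, hr0, hr⟩ := s18tlg_exists_multiple_mem_int (A := A) ht z⁻¹
    have hy0 : (⟨aeval t r * z⁻¹, hr⟩ : ↥(s18tInt A t)) ≠ 0 := by
      intro h
      have h1 : aeval t r * z⁻¹ = 0 := congrArg Subtype.val h
      exact (mul_ne_zero (s18tlg_aeval_ne_zero htA hr0) (inv_ne_zero hz0)) h1
    have hy : (⟨aeval t r * z⁻¹, hr⟩ : ↥(s18tInt A t)) ∈ sqguCentre t V hPV := by
      rw [mem_sqguCentre]
      show V.valuation (aeval t r * z⁻¹) < 1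
      rw [map_mul, mul_comm]
      exact mul_lt_one_of_lt_of_le hz1
        ((V.valuation_le_one_iff _).mpr (hPV (s18tlg_aeval_mem_int t r)))
    by_contra htr
    have hzero : (sqguCentre t V hPV).comap (sqguEval t ⟨x, hx⟩) = ⊥ := by
      rw [Submodule.eq_bot_iff]
      intro g hg
      rw [Ideal.mem_comap, mem_sqguCentre, sqguEval_coe] at hg
      by_contra hg0
      apply htr
      refine isAlgebraic_iff_isIntegral.mp ⟨g.map (algebraMap A L),
        (Polynomial.map_ne_zero_iff (IsFractionRing.injective A L)).mpr hg0, ?_⟩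
      rw [key, aeval_map_algebraMap]
      exact hg
    rw [hzero, Ideal.map_bot, Ideal.map_bot] at h4
    have h5 := Ideal.mem_map_of_mem
      (algebraMap ↥(s18tInt A t) ↥(ssLocRing t (sqguCentre t V hPV))) hy
    rw [← h4, Ideal.mem_bot] at h5
    have h6 : aeval t r * z⁻¹ = 0 := congrArg Subtype.val h5
    exact (mul_ne_zero (s18tlg_aeval_ne_zero htA hr0) (inv_ne_zero hz0)) h6
  have hdvd : ∀ g : L[X], V.valuation (aeval x g) < 1 ↔ minpoly L (residue ↥V xV) ∣ g :=
    fun g => by rw [← key, minpoly.dvd_iff]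
  have hτ1 : V.valuation (aeval x (minpoly L (residue ↥V xV))) < 1 := (hdvd _).mpr dvd_rfl
  have hτT : aeval x (minpoly L (residue ↥V xV)) ∈ ssLocRing t (sqguCentre t V hPV) :=
    sqgu_aevalL_mem t _ h0 x hx _
  -- the maximal ideal of `P_𝔮'` is generated by `τ`
  have hmaxT : maximalIdeal ↥(ssLocRing t (sqguCentre t V hPV)) =
      Ideal.span {(⟨aeval x (minpoly L (residue ↥V xV)), hτT⟩ :
        ↥(ssLocRing t (sqguCentre t V hPV)))} := by
    apply le_antisymm
    · rw [← IsLocalization.AtPrime.map_eq_maximalIdeal (sqguCentre t V hPV)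
        ↥(ssLocRing t (sqguCentre t V hPV)), ← h4, Ideal.map_map, Ideal.map_le_iff_le_comap]
      intro g hg
      rw [Ideal.mem_comap, mem_sqguCentre, sqguEval_coe] at hg
      rw [Ideal.mem_comap]
      have hv : V.valuation (aeval x (g.map (algebraMap A L))) < 1 := by
        rw [aeval_map_algebraMap]
        exact hg
      obtain ⟨h, hh⟩ := (hdvd _).mp hv
      rw [Ideal.mem_span_singleton']
      refine ⟨⟨aeval x h, sqgu_aevalL_mem t _ h0 x hx h⟩, Subtype.ext ?_⟩
      change aeval x h * aeval x (minpoly L (residue ↥V xV)) =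
        ((sqguEval t ⟨x, hx⟩ g : ↥(s18tInt A t)) : F)
      rw [sqguEval_coe]
      change _ = aeval x g
      rw [← aeval_map_algebraMap L x g, hh, map_mul, mul_comm]
    · rw [Ideal.span_singleton_le_iff_mem]
      exact hnu _ hτ1
  haveI : IsNoetherianRing ↥(ssLocRing t (sqguCentre t V hPV)) :=
    ssl_locRing_isNoetherianRing (L := L) t ht (sqguCentre t V hPV)
  have hprin : (maximalIdeal ↥(ssLocRing t (sqguCentre t V hPV))).IsPrincipal := by
    rw [hmaxT]
    exact ⟨⟨_, rfl⟩⟩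
  have hVR : ValuationRing ↥(ssLocRing t (sqguCentre t V hPV)) :=
    ((tfae_of_isNoetherianRing_of_isLocalRing_of_isDomain
      ↥(ssLocRing t (sqguCentre t V hPV))).out 4 1).mp hprin
  haveI := hVR
  refine ⟨minpoly L (residue ↥V xV), minpoly.monic hint, minpoly.irreducible hint,
    ⟨hτ1, ?_⟩, hdvd⟩
  intro y hy
  by_cases hy0 : y = 0
  · rw [hy0, map_zero]
    exact zero_le
  -- `y ∈ P_𝔮'`
  have hyT : y ∈ ssLocRing t (sqguCentre t V hPV) := by
    obtain ⟨r, hr0, hr⟩ := s18tlg_exists_multiple_mem_int (A := A) ht y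
    have hb0 : aeval t r ≠ 0 := s18tlg_aeval_ne_zero htA hr0
    obtain ⟨c, hc | hc⟩ := ValuationRing.cond
      (⟨aeval t r * y, ssl_int_le_locRing t _ hr⟩ : ↥(ssLocRing t (sqguCentre t V hPV)))
      ⟨aeval t r, ssl_int_le_locRing t _ (s18tlg_aeval_mem_int t r)⟩
    · exfalso
      have h1 : aeval t r * y * (c : F) = aeval t r := congrArg Subtype.val hc
      have h2 : y * (c : F) = 1 := mul_left_cancel₀ hb0 (by rw [← mul_assoc, h1, mul_one])
      have h3 := congrArg V.valuation h2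
      rw [map_mul, map_one] at h3
      exact absurd h3 (ne_of_lt (mul_lt_one_of_lt_of_le hy (hval c)))
    · have h1 : aeval t r * (c : F) = aeval t r * y := congrArg Subtype.val hc
      have h2 : (c : F) = y := mul_left_cancel₀ hb0 h1
      rw [← h2]
      exact c.2
  have hymax := hnu ⟨y, hyT⟩ hy
  rw [hmaxT, Ideal.mem_span_singleton'] at hymax
  obtain ⟨c, hc⟩ := hymax
  have h1 : (c : F) * aeval x (minpoly L (residue ↥V xV)) = y := congrArg Subtype.val hc
  rw [← h1, map_mul]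
  exact mul_le_of_le_one_left' (hval c)

/-- **(ET), parameter form** (`p = X`) : if `x ∈ P` lies in `𝔫` and `𝔫 P_𝔫 = (ϖ, x)` (the
`SsGermSmooth` shape with `z = x`), then at every place `V` of `F / L` centred in `𝔫` the minimal
polynomial `m` of `x(V)` over `L` has `m(x)` a uniformiser of `V`. -/
theorem sqgu_unram_param (hϖ : Irreducible ϖ) [hperf : PerfectField (ResidueField A)] (t : F)
    (ht : Transcendental L t) [FiniteDimensional L⟮t⟯ F]
    (𝔫 : Ideal ↥(s18tInt A t)) [h𝔫 : 𝔫.IsMaximal] (hϖ𝔫 : sskPi ϖ t ∈ 𝔫)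
    (x : F) (hx : x ∈ s18tInt A t)
    (hgen : ∀ y ∈ 𝔫, ∃ s : ↥(s18tInt A t), s ∉ 𝔫 ∧ ∃ a b : ↥(s18tInt A t),
        (s : F) * (y : F) = (a : F) * algebraMap A F ϖ + (b : F) * x)
    (hpx : SsnfInMax t 𝔫 x)
    (V : ValuationSubring F) (hV : S18IsPlace L V) (hPV : s18tInt A t ≤ V.toSubring)
    (hc : sskCentre t V ⊆ (𝔫 : Set ↥(s18tInt A t))) :
    ∃ m : L[X], m.Monic ∧ Irreducible m ∧ S18IsUnif V (aeval x m) ∧
      ∀ g : L[X], V.valuation (aeval x g) < 1 ↔ m ∣ g := by
  refine sqgu_unram (L := L) hϖ t ht 𝔫 hϖ𝔫 x hx X ?_ ?_ V hV hPV hc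
  · intro y hy
    obtain ⟨s, hs, a, b, h⟩ := hgen y hy
    exact ⟨s, hs, a, b, by rw [aeval_X]; exact h⟩
  · rw [aeval_X]
    exact hpx

end Fermat.Agent.SQ
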