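import Mathlib
import Fermat.Agent.S18.T.Spec
import Fermat.Agent.SS.Loc.Place
import Fermat.Agent.SS.NF.Defs
import Fermat.Agent.SQ.Germ.Unram

/-!
# Program Q, R1 : pushing a horizontal place down a level map

Two S18-T levels over the same `(A, L)` : `F₀ ∋ t₀`, `F₁ ∋ t₁`, `P_i = s18tInt A t_i`, and a level map
`α : F₀ →+* F₁` over `L` with `α P₀ ⊆ P₁`, `F₁` algebraic over `α F₀`.

* `sqgpd_comap` (PD1) : a place `V` of `F₁ / L` centred in `𝔫₁` restricts to a place `V.comap α` of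
  `F₀ / L` centred in `𝔫₁ ∩ P₀`;
* `sqgpd_unram` (PD2) : combined with (ET) (`sqgu_unram`) at the lower level;
* `sqgpd_unif_map` (PD3) : transfer of the uniformiser when `e(V | V.comap α) = 1`.
-/

set_option autoImplicit false
set_option linter.unusedSectionVars false
set_option linter.unusedVariables false
set_option linter.style.haveILetI false

noncomputable section

namespace Fermat.Agent.SQ

open Polynomial IntermediateField Fermat.Agent.S18 Fermat.Agent.SS IsLocalRing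

universe u₀ u₁

variable {A : Type*} [CommRing A] [IsDomain A] [IsDiscreteValuationRing A] [CharZero A]
variable {L : Type*} [Field L] [Algebra A L] [IsFractionRing A L]
variable {F₀ : Type u₀} [Field F₀] [Algebra A F₀] [Algebra L F₀] [IsScalarTower A L F₀]
variable {F₁ : Type u₁} [Field F₁] [Algebra A F₁] [Algebra L F₁] [IsScalarTower A L F₁]
variable {ϖ : A}

/-- the restriction `P₀ → P₁` of a level map -/
def sqgpdRes {t₀ : F₀} {t₁ : F₁} (α : F₀ →+* F₁)
    (hαP : ∀ x ∈ s18tInt A t₀, α x ∈ s18tInt A t₁) : ↥(s18tInt A t₀) →+* ↥(s18tInt A t₁) :=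
  (α.comp (s18tInt A t₀).subtype).codRestrict (s18tInt A t₁) (fun x => hαP x x.2)

theorem sqgpdRes_coe {t₀ : F₀} {t₁ : F₁} (α : F₀ →+* F₁)
    (hαP : ∀ x ∈ s18tInt A t₀, α x ∈ s18tInt A t₁) (x : ↥(s18tInt A t₀)) :
    ((sqgpdRes α hαP x : ↥(s18tInt A t₁)) : F₁) = α (x : F₀) := rfl

/-- non-units of `V.comap α` -/
theorem sqgpd_mem_nonunits_comap (α : F₀ →+* F₁) (V : ValuationSubring F₁) (x : F₀) :
    x ∈ (V.comap α).nonunits ↔ α x ∈ V.nonunits := by
  rw [ValuationSubring.mem_nonunits_iff_or, ValuationSubring.mem_nonunits_iff_or,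
    ValuationSubring.mem_comap, map_inv₀, map_eq_zero]

/-- valuations `< 1` along `V.comap α` -/
theorem sqgpd_val_lt_one_comap (α : F₀ →+* F₁) (V : ValuationSubring F₁) (x : F₀) :
    (V.comap α).valuation x < 1 ↔ V.valuation (α x) < 1 :=
  sqgpd_mem_nonunits_comap α V x

/-- valuations `≤ 1` along `V.comap α` -/
theorem sqgpd_val_le_one_comap (α : F₀ →+* F₁) (V : ValuationSubring F₁) (x : F₀) :
    (V.comap α).valuation x ≤ 1 ↔ V.valuation (α x) ≤ 1 := by
  rw [ValuationSubring.valuation_le_one_iff, ValuationSubring.valuation_le_one_iff,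
    ValuationSubring.mem_comap]

/-- a valuation subring containing `α F₀` is everything when `F₁` is algebraic over `α F₀` -/
theorem sqgpd_eq_top (α : F₀ →+* F₁)
    (halg : ∀ y : F₁, ∃ g : F₀[X], g ≠ 0 ∧ g.eval₂ α y = 0)
    (V : ValuationSubring F₁) (h : ∀ x : F₀, α x ∈ V) : V = ⊤ := by
  rw [eq_top_iff]
  intro y _
  obtain ⟨g, hg0, hgy⟩ := halg y
  let αV : F₀ →+* ↥V := α.codRestrict V h
  have hint : IsIntegral ↥V y := by
    refine ⟨(g * C g.leadingCoeff⁻¹).map αV, (monic_mul_leadingCoeff_inv hg0).map αV, ?_⟩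
    rw [eval₂_map]
    have h1 : (algebraMap ↥V F₁).comp αV = α := RingHom.ext fun x => rfl
    rw [h1, eval₂_mul, hgy, zero_mul]
  obtain ⟨z, hz⟩ := (IsIntegrallyClosed.isIntegral_iff (R := ↥V) (K := F₁)).mp hint
  rw [← hz]
  exact z.2

/-- **(PD1)** : a place of `F₁ / L` centred in `𝔫₁` restricts to a place of `F₀ / L` centred in
`𝔫₁ ∩ P₀`. -/
theorem sqgpd_comap {t₀ : F₀} {t₁ : F₁} (α : F₀ →+* F₁)
    (hαL : ∀ c : L, α (algebraMap L F₀ c) = algebraMap L F₁ c)
    (hαP : ∀ x ∈ s18tInt A t₀, α x ∈ s18tInt A t₁)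
    (halg : ∀ y : F₁, ∃ g : F₀[X], g ≠ 0 ∧ g.eval₂ α y = 0)
    (𝔫₁ : Ideal ↥(s18tInt A t₁)) (V : ValuationSubring F₁) (hV : S18IsPlace L V)
    (hPV : s18tInt A t₁ ≤ V.toSubring)
    (hc : sskCentre t₁ V ⊆ (𝔫₁ : Set ↥(s18tInt A t₁))) :
    S18IsPlace L (V.comap α) ∧ s18tInt A t₀ ≤ (V.comap α).toSubring ∧
      sskCentre t₀ (V.comap α) ⊆
        ((𝔫₁.comap (sqgpdRes α hαP) : Ideal ↥(s18tInt A t₀)) : Set ↥(s18tInt A t₀)) := by
  refine ⟨⟨fun htop => hV.1 (sqgpd_eq_top α halg V fun x => ?_), fun c => ?_⟩, fun x hx => ?_,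
    fun p hp => ?_⟩
  · have : x ∈ V.comap α := by rw [htop]; trivial
    exact this
  · rw [ValuationSubring.mem_comap, hαL]
    exact hV.2 c
  · exact hPV (hαP x hx)
  · have h1 : α (p : F₀) ∈ V.nonunits := (sqgpd_mem_nonunits_comap α V _).mp hp
    exact hc h1

end Fermat.Agent.SQ
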