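import Mathlib
import Fermat.Agent.SQ.Germ.DerivRel
import Fermat.Agent.SQ.Germ.NoEllRam
import Fermat.Agent.SQ.Germ.PlaceDown
import Fermat.Agent.SS.Loc.Germ

/-!
# Program Q (S36), risk R1, piece (K-x) : the `(K)`-package for the mixed function
`g_{p,π'} = φ(θ π') / α(θ p)` at a crossing point of the level `M q` (prefix `sqgkx_`)

`E ⊂ ℚ̄` a number field, `𝔸` a valuation subring of `ℚ̄` above `q`, `A = 𝔸 ∩ E` (a DVR),
`F₀ = F_E(M) →(α, φ) F₁ = F_E(M q)`, `q ∤ M`, `M` with the two auxiliary prime factors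
(no elliptic points).  For `p, π' ∈ F₀` put `g := sqgvGxy E M q p π'` (helper3, `DerivVert`),
`γ := g⁻¹`, `ε := γ / ϖ²`.

* `sqgkx_isUnif_of_ord` : an element of order one at a Prelude place is a uniformiser;
* `sqgkx_up_incl`, `sqgkx_up_phi` : `ssdUp` intertwines `(α, φ)` with `(heckeAlphaBar, heckeBetaBar)`;
* `SqgkxCfe E N` : (CFE) "the constant field extension `F_ℚ̄(N) / F_E(N)` is unramified"
  (helper19's `sqgce_ord_up`), as a named hypothesis;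
* `sqgkx_unif_transport`, `sqgkx_unif_alpha`, `sqgkx_unif_beta` : **the unramified transport**
  `S18IsUnif (V.comap α) f → S18IsUnif V (α f)` at every non-cuspidal place `V` of `F₁ / E`
  ((CFE) at the level `M` + helper28's (RAM) at the `ℚ̄`-level), and the same for `φ`;
* `sqgkx_gxy_unit` : `g, g⁻¹ ∈ V` from unramified coordinates at the places BELOW `V`
  (helper16's `sqgxr_gxy_unit` after the transport);
* `sqgkx_hor_of_unram`, `sqgkx_hor` : **the horizontal half** : `g` and `g⁻¹` have no pole at the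
  horizontal places through a closed point `𝔫₁` of the level `M q` (the literal `SqgciHor` of
  helper5's `CrossInst`), from (ET) (`sqgu_unram_param`, helper19) at the two closed points
  `α⁻¹ 𝔫₁`, `φ⁻¹ 𝔫₁` of the level `M`;
* `sqgkx_vert_abs`, `sqgkx_vert` : **the vertical half** from helper3's `sqgvGxy_val`;
* `sqgkx_theta_ne_zero` : `(dp/dj)⁻¹` in the Gauss ring ⟹ `θ p̄ ≠ 0` (the input of `sqgvGxy_val`);
* `sqgkx_package` : the eight clauses `(K)` of `SqgcrHyp.regular` / `sqgci_node_of_regular`.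
-/

set_option autoImplicit false
set_option linter.unusedSectionVars false
set_option linter.unusedVariables false
set_option linter.style.haveILetI false

noncomputable section

namespace Fermat.Agent.SQ

open Polynomial IntermediateField AlgebraicCurve Fermat.Agent.S24 Fermat.Agent.S18
  Fermat.Agent.SS Fermat.Agent.G ModularCurve IsLocalRing

local notation "Qb" => AlgebraicClosure ℚ

/-! ### 0. generalities -/

section Gen

variable {K F : Type*} [Field K] [Field F] [Algebra K F]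

/-- an element of order one at a Prelude place is a uniformiser -/
theorem sqgkx_isUnif_of_ord (R : Place K F) {f : F} (h : R.ord f = 1) :
    S18IsUnif R.toValuationSubring f := by
  obtain ⟨π, hdisc, hordπ, hval⟩ := s18r_place_disc R
  have hf0 : f ≠ 0 := by
    rintro rfl
    rw [Place.ord_zero] at h
    omega
  have e : R.toValuationSubring.valuation f = R.toValuationSubring.valuation π := by
    rw [hval f hf0, h, zpow_one]
  refine ⟨?_, fun x hx => ?_⟩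
  · rw [e]
    exact hdisc.2.1.1
  · rw [e]
    exact hdisc.2.1.2 x hx

/-- **algebraicity over the image of a level map** : `F₁` algebraic over `E(t)`, `ψ : F₀ → F₁` a
ring homomorphism over `E`, `F₀` containing an element transcendental over `E` : then `F₁` is
algebraic over `ψ F₀` (the hypothesis `halg` of `sqgpd_comap`). -/
theorem sqgkx_halg {E F₀ F₁ : Type*} [Field E] [Field F₀] [Field F₁] [Algebra E F₀]
    [Algebra E F₁] [CharZero F₁] (ψ : F₀ →+* F₁)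
    (hψ : ∀ c : E, ψ (algebraMap E F₀ c) = algebraMap E F₁ c)
    (t : F₁) (ht : Transcendental E t) [Algebra.IsAlgebraic E⟮t⟯ F₁]
    (j : F₀) (hj : Transcendental E j) (y : F₁) :
    ∃ g : F₀[X], g ≠ 0 ∧ g.eval₂ ψ y = 0 := by
  have hcomp : ψ.comp ((aeval j : E[X] →ₐ[E] F₀) : E[X] →+* F₀) =
      ((aeval (ψ j) : E[X] →ₐ[E] F₁) : E[X] →+* F₁) := by
    refine RingHom.ext fun P => ?_
    simp only [RingHom.comp_apply, RingHom.coe_coe]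
    rw [aeval_def, aeval_def, hom_eval₂]
    congr 1
    exact RingHom.ext fun c => hψ c
  have hat : Transcendental E (ψ j) := by
    intro halg
    obtain ⟨P, hP0, hP⟩ := halg
    apply hj
    refine ⟨P, hP0, ψ.injective ?_⟩
    have h1 := RingHom.congr_fun hcomp P
    simp only [RingHom.comp_apply, RingHom.coe_coe] at h1
    rw [h1, hP, map_zero]
  obtain ⟨Φ, hΦ, hΦY⟩ := sqgxr_exists t ht (ψ j) y hat
  refine ⟨Φ.map ((aeval j : E[X] →ₐ[E] F₀) : E[X] →+* F₀), ?_, ?_⟩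
  · intro h0
    have hinj : Function.Injective ((aeval j : E[X] →ₐ[E] F₀) : E[X] →+* F₀) := by
      rw [injective_iff_map_eq_zero]
      intro P hP
      by_contra hP0
      exact hj ⟨P, hP0, hP⟩
    have h1 : Φ = 0 := Polynomial.map_injective _ hinj (h0.trans (Polynomial.map_zero _).symm)
    apply hΦY
    rw [h1, derivative_zero, eval₂_zero]
  · rw [eval₂_map, hcomp]
    exact hΦ

end Gen

/-! ### 1. the unramified transport -/

section Transport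

variable (E : IntermediateField ℚ Qb) (M q : ℕ) [NeZero M] [NeZero q]

theorem sqgkx_up_incl (x : modularFunctionFieldFullC E M) :
    ssdUp E (M * q) (ssvmdIncl E M q x) = heckeAlphaBar Qb M q (ssdUp E M x) := by
  apply Subtype.ext
  rw [coe_ssdUp, ssvmdIncl_coe, coe_heckeAlphaBar, coe_ssdUp]

theorem sqgkx_up_phi (x : modularFunctionFieldFullC E M) :
    ssdUp E (M * q) (ssvmfPhi E M q x) = heckeBetaBar Qb M q (ssdUp E M x) := by
  apply Subtype.ext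
  show s18dUp E (qExpand E q (x : LaurentSeries E)) = qExpand Qb q (s18dUp E (x : LaurentSeries E))
  rw [coeffMap_qExpand]

/-- `φ` fixes the constants -/
theorem sqgkx_phi_algebraMap (c : E) :
    ssvmfPhi E M q (algebraMap E (modularFunctionFieldFullC E M) c) =
      algebraMap E (modularFunctionFieldFullC E (M * q)) c := by
  apply Subtype.ext
  show qExpand E q (algebraMap E (LaurentSeries E) c) = algebraMap E (LaurentSeries E) c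
  rw [algebraMap_laurentSeries_eq_single, qExpand_single, mul_zero]

/-- `φ` commutes with the evaluation of polynomials with constant coefficients -/
theorem sqgkx_phi_aeval (x : modularFunctionFieldFullC E M) (m : (↥E)[X]) :
    ssvmfPhi E M q (aeval x m) = aeval (ssvmfPhi E M q x) m := by
  rw [aeval_def, aeval_def, hom_eval₂]
  congr 1
  exact RingHom.ext fun c => sqgkx_phi_algebraMap E M q c

/-- **(CFE)** : the constant field extension `F_ℚ̄(N) / F_E(N)` is unramified (`r = 1` in main's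
`ssd_restrict`); helper19's `sqgce_ord_up`. -/
def SqgkxCfe (E : IntermediateField ℚ Qb) (N : ℕ) [NeZero N] : Prop :=
  ∀ (R' : Place Qb (modularFunctionFieldBar N)) (R : Place E (modularFunctionFieldFullC E N)),
    R.toValuationSubring = R'.toValuationSubring.comap (ssdUp E N) →
    ∀ x : modularFunctionFieldFullC E N, R'.ord (ssdUp E N x) = R.ord x

/-- **the unramified transport, abstract form** : `ψ : F_E(M) → F_E(M q)` lying under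
`ψb : F_ℚ̄(M) → F_ℚ̄(M q)`, `R'` a place of `F_ℚ̄(M q)` above `V`, `v₀` the place of `F_ℚ̄(M)` below
`R'` along `ψb`, unramified.  Then a uniformiser of `V.comap ψ` goes to a uniformiser of `V`. -/
theorem sqgkx_unif_transport (hcfe : SqgkxCfe E M)
    (ψ : modularFunctionFieldFullC E M →+* modularFunctionFieldFullC E (M * q))
    (ψb : modularFunctionFieldBar M →+* modularFunctionFieldBar (M * q))
    (hψ : ∀ x, ssdUp E (M * q) (ψ x) = ψb (ssdUp E M x))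
    (V : ValuationSubring (modularFunctionFieldFullC E (M * q)))
    (R' : Place Qb (modularFunctionFieldBar (M * q)))
    (hR' : R'.toValuationSubring.comap (ssdUp E (M * q)) = V)
    (v₀ : Place Qb (modularFunctionFieldBar M))
    (hv₀ : ∀ x, x ∈ v₀.toValuationSubring ↔ ψb x ∈ R'.toValuationSubring)
    (hram : ∀ f : modularFunctionFieldBar M, R'.ord (ψb f) = v₀.ord f)
    (f : modularFunctionFieldFullC E M) (hf : S18IsUnif (V.comap ψ) f) :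
    S18IsUnif V (ψ f) := by
  obtain ⟨R₀, r₀, hr₀, hR₀, -⟩ := ssd_restrict E M v₀
  have hcomap : R₀.toValuationSubring = V.comap ψ := by
    rw [hR₀]
    ext x
    rw [ValuationSubring.mem_comap, ValuationSubring.mem_comap, hv₀, ← hψ, ← hR',
      ValuationSubring.mem_comap]
  have h1 : R₀.ord f = 1 := ssl_ord_of_isUnif R₀ (by rw [hcomap]; exact hf)
  have h2 : v₀.ord (ssdUp E M f) = 1 := by rw [hcfe v₀ R₀ hR₀ f, h1]
  have h3 : R'.ord (ssdUp E (M * q) (ψ f)) = 1 := by rw [hψ, hram, h2]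
  obtain ⟨R₁, r₁, hr₁, hR₁, hord₁⟩ := ssd_restrict E (M * q) R'
  have h4 := hord₁ (ψ f)
  rw [h3] at h4
  have h5 : R₁.ord (ψ f) = 1 := by
    have h6 : (r₁ : ℤ) * R₁.ord (ψ f) = 1 := h4.symm
    have hr : (0 : ℤ) < (r₁ : ℤ) := by exact_mod_cast hr₁
    rcases Int.mul_eq_one_iff_eq_one_or_neg_one.mp h6 with ⟨-, h⟩ | ⟨h, -⟩
    · exact h
    · omega
  have h7 := sqgkx_isUnif_of_ord R₁ h5
  rw [hR₁, hR'] at h7
  exact h7

/-- **transport along `α`** at a non-cuspidal place -/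
theorem sqgkx_unif_alpha (hcfe : SqgkxCfe E M)
    (r : ℕ) (hr : r.Prime) (hrM : r ∣ M) (hr3 : r % 3 = 2)
    (r' : ℕ) (hr' : r'.Prime) (hr'M : r' ∣ M) (hr4 : r' % 4 = 3)
    (V : ValuationSubring (modularFunctionFieldFullC E (M * q))) (hV : S18IsPlace E V)
    (hj : ssdJ E (M * q) ∈ V) (f : modularFunctionFieldFullC E M)
    (hf : S18IsUnif (V.comap (ssvmdIncl E M q : modularFunctionFieldFullC E M →+*
      modularFunctionFieldFullC E (M * q))) f) :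
    S18IsUnif V (ssvmdIncl E M q f) := by
  obtain ⟨R, hR⟩ := ssd_weak_place E (M * q) V hV
  obtain ⟨R', hR'⟩ := ssd_extend E (M * q) R
  have hcomap : R'.toValuationSubring.comap (ssdUp E (M * q)) = V := by rw [hR', hR]
  have hjb : jBar (M * q) ∈ R'.toValuationSubring := by
    rw [← sqgx_up_j E (M * q)]
    have : ssdJ E (M * q) ∈ R'.toValuationSubring.comap (ssdUp E (M * q)) := by
      rw [hcomap]; exact hj
    exact this
  obtain ⟨v₀, hv₀, -, hram⟩ := sqgne_ram_alpha_exists M q r hr hrM hr3 r' hr' hr'M hr4 R' hjb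
  exact sqgkx_unif_transport E M q hcfe
    (ssvmdIncl E M q : modularFunctionFieldFullC E M →+* modularFunctionFieldFullC E (M * q))
    (heckeAlphaBar Qb M q : modularFunctionFieldBar M →+* modularFunctionFieldBar (M * q))
    (sqgkx_up_incl E M q) V R' hcomap v₀ hv₀ hram f hf

/-- **transport along `φ`** at a place where `j_q` is finite -/
theorem sqgkx_unif_beta [Fact q.Prime] (hqM : ¬ q ∣ M) (hcfe : SqgkxCfe E M)
    (r : ℕ) (hr : r.Prime) (hrM : r ∣ M) (hr3 : r % 3 = 2)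
    (r' : ℕ) (hr' : r'.Prime) (hr'M : r' ∣ M) (hr4 : r' % 4 = 3)
    (V : ValuationSubring (modularFunctionFieldFullC E (M * q))) (hV : S18IsPlace E V)
    (hy : ssvmfPhi E M q (ssdJ E M) ∈ V) (f : modularFunctionFieldFullC E M)
    (hf : S18IsUnif (V.comap (ssvmfPhi E M q)) f) :
    S18IsUnif V (ssvmfPhi E M q f) := by
  obtain ⟨R, hR⟩ := ssd_weak_place E (M * q) V hV
  obtain ⟨R', hR'⟩ := ssd_extend E (M * q) R
  have hcomap : R'.toValuationSubring.comap (ssdUp E (M * q)) = V := by rw [hR', hR]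
  have hyb : heckeBetaBar Qb M q (jBar M) ∈ R'.toValuationSubring := by
    rw [← sqgx_up_j E M, ← sqgkx_up_phi]
    have : ssvmfPhi E M q (ssdJ E M) ∈ R'.toValuationSubring.comap (ssdUp E (M * q)) := by
      rw [hcomap]; exact hy
    exact this
  obtain ⟨v₀, hv₀, -, hram⟩ :=
    sqgne_ram_beta_exists M q hqM r hr hrM hr3 r' hr' hr'M hr4 R' hyb
  exact sqgkx_unif_transport E M q hcfe (ssvmfPhi E M q)
    (heckeBetaBar Qb M q : modularFunctionFieldBar M →+* modularFunctionFieldBar (M * q))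
    (sqgkx_up_phi E M q) V R' hcomap v₀ hv₀ hram f hf

/-- **`g_{p,π'}` is a unit at every non-cuspidal place `V` of `F_E(M q)`** at which the places
below `V` along `α` and `φ` have the unramified coordinates `p` and `π'`. -/
theorem sqgkx_gxy_unit [Fact q.Prime] (hqM : ¬ q ∣ M) (hcfe : SqgkxCfe E M)
    (r : ℕ) (hr : r.Prime) (hrM : r ∣ M) (hr3 : r % 3 = 2)
    (r' : ℕ) (hr' : r'.Prime) (hr'M : r' ∣ M) (hr4 : r' % 4 = 3)
    (p π' : modularFunctionFieldFullC E M)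
    (V : ValuationSubring (modularFunctionFieldFullC E (M * q))) (hV : S18IsPlace E V)
    (hj : ssdJ E (M * q) ∈ V) (hy : ssvmfPhi E M q (ssdJ E M) ∈ V)
    (ha : ssvmdIncl E M q p ∈ V) (hb : ssvmfPhi E M q π' ∈ V)
    (m m' : (↥E)[X]) (hm : m.Separable) (hm' : m'.Separable)
    (hu : S18IsUnif (V.comap (ssvmdIncl E M q : modularFunctionFieldFullC E M →+*
      modularFunctionFieldFullC E (M * q))) (aeval p m))
    (hu' : S18IsUnif (V.comap (ssvmfPhi E M q)) (aeval π' m')) :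
    sqgvGxy E M q p π' ∈ V ∧ (sqgvGxy E M q p π')⁻¹ ∈ V := by
  have hE : SqgxEmb (M * q) := fun R' h =>
    sqgne_exists_emb (M * q) r hr (hrM.mul_right q) hr3 r' hr' (hr'M.mul_right q) hr4 R' h
  have hua := sqgkx_unif_alpha E M q hcfe r hr hrM hr3 r' hr' hr'M hr4 V hV hj (aeval p m) hu
  have hub := sqgkx_unif_beta E M q hqM hcfe r hr hrM hr3 r' hr' hr'M hr4 V hV hy
    (aeval π' m') hu'
  rw [← aeval_algHom_apply] at hua
  rw [sqgkx_phi_aeval] at hub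
  exact sqgxr_gxy_unit E M q hE p π' V hV hj ha hb m m' hm hm' hua hub

end Transport

/-! ### 2. the horizontal half -/

section Hor

variable {q : ℕ} [Fact q.Prime] [NeZero q] (𝔸 : ValuationSubring Qb) (E : IntermediateField ℚ Qb)
  [IsDiscreteValuationRing ↥(s18dVal 𝔸 E)] [CharZero ↥(s18dVal 𝔸 E)] (M : ℕ) [NeZero M]

/-- `P_𝔫 ⊆ V` for a valuation ring `V ⊇ P` whose centre lies in `𝔫` -/
theorem sqgkx_mem_of_inLoc {A : Type*} [CommRing A] {F : Type*} [Field F] [Algebra A F] {t : F}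
    {𝔫 : Ideal ↥(s18tInt A t)} (V : ValuationSubring F) (hle : s18tInt A t ≤ V.toSubring)
    (hc : sskCentre t V ⊆ (𝔫 : Set ↥(s18tInt A t))) {x : F} (hx : SsnfInLoc t 𝔫 x) : x ∈ V := by
  obtain ⟨s, hs, hsx⟩ := hx
  have h1 : V.valuation (s : F) ≤ 1 := (V.valuation_le_one_iff _).mpr (hle s.2)
  have h2 : ¬ V.valuation (s : F) < 1 := fun h => hs (hc (V.mem_nonunits_iff.mpr h))
  have hval : V.valuation (s : F) = 1 := le_antisymm h1 (not_lt.mp h2)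
  have hsx' : (s : F) * x ∈ V := hle hsx
  rw [← V.valuation_le_one_iff] at hsx' ⊢
  rwa [map_mul, hval, one_mul] at hsx'

/-- `P ⊆ P_𝔫` for a proper ideal `𝔫` -/
theorem sqgkx_inLoc_of_int {A : Type*} [CommRing A] {F : Type*} [Field F] [Algebra A F] {t : F}
    {𝔫 : Ideal ↥(s18tInt A t)} (h𝔫 : 𝔫 ≠ ⊤) {x : F} (hx : x ∈ s18tInt A t) :
    SsnfInLoc t 𝔫 x :=
  ⟨1, (Ideal.ne_top_iff_one 𝔫).mp h𝔫, by
    have : ((1 : ↥(s18tInt A t)) : F) * x = x := by push_cast; exact one_mul x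
    rw [this]; exact hx⟩

/-- **the horizontal half of (K-x), from unramified coordinates below** : `t₀`, `t₁` charts of the
levels `M`, `M q` with `α P₀ ⊆ P₁`, `φ P₀ ⊆ P₁`; `𝔫₁` an ideal of `P₁` which is NON-CUSPIDAL
(`j, j_q ∈ (P₁)_𝔫₁`; automatic in the chart `j`, see `sqgkx_inLoc_of_int`); `p, π' ∈ P₀` such
that `m(p)` (resp. `m'(π')`) is a uniformiser, `m` (resp. `m'`) separable, of every horizontal
place of the level `M` through `α⁻¹ 𝔫₁` (resp. `φ⁻¹ 𝔫₁`).  Then `g_{p,π'}` and its inverse have no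
pole at the horizontal places through `𝔫₁` (the literal `SqgciHor ↥E t₁ 𝔫₁` of `CrossInst`). -/
theorem sqgkx_hor_of_unram (hqM : ¬ q ∣ M) (hcfe : SqgkxCfe E M)
    (r : ℕ) (hr : r.Prime) (hrM : r ∣ M) (hr3 : r % 3 = 2)
    (r' : ℕ) (hr' : r'.Prime) (hr'M : r' ∣ M) (hr4 : r' % 4 = 3)
    {t₀ : modularFunctionFieldFullC E M} {t₁ : modularFunctionFieldFullC E (M * q)}
    (hαP : ∀ x ∈ s18tInt ↥(s18dVal 𝔸 E) t₀,
      (ssvmdIncl E M q).toRingHom x ∈ s18tInt ↥(s18dVal 𝔸 E) t₁)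
    (hφP : ∀ x ∈ s18tInt ↥(s18dVal 𝔸 E) t₀, ssvmfPhi E M q x ∈ s18tInt ↥(s18dVal 𝔸 E) t₁)
    (halgα : ∀ y : modularFunctionFieldFullC E (M * q), ∃ g : (modularFunctionFieldFullC E M)[X],
      g ≠ 0 ∧ g.eval₂ (ssvmdIncl E M q).toRingHom y = 0)
    (halgφ : ∀ y : modularFunctionFieldFullC E (M * q), ∃ g : (modularFunctionFieldFullC E M)[X],
      g ≠ 0 ∧ g.eval₂ (ssvmfPhi E M q) y = 0)
    (𝔫₁ : Ideal ↥(s18tInt ↥(s18dVal 𝔸 E) t₁))
    (hj𝔫 : SsnfInLoc t₁ 𝔫₁ (ssdJ E (M * q)))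
    (hy𝔫 : SsnfInLoc t₁ 𝔫₁ (ssvmfPhi E M q (ssdJ E M)))
    (p π' : modularFunctionFieldFullC E M)
    (hp : p ∈ s18tInt ↥(s18dVal 𝔸 E) t₀) (hπ' : π' ∈ s18tInt ↥(s18dVal 𝔸 E) t₀)
    (hETα : ∀ V₀ : ValuationSubring (modularFunctionFieldFullC E M), S18IsPlace ↥E V₀ →
      s18tInt ↥(s18dVal 𝔸 E) t₀ ≤ V₀.toSubring →
      sskCentre t₀ V₀ ⊆ ((𝔫₁.comap (sqgpdRes (ssvmdIncl E M q).toRingHom hαP) :
        Ideal ↥(s18tInt ↥(s18dVal 𝔸 E) t₀)) : Set ↥(s18tInt ↥(s18dVal 𝔸 E) t₀)) →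
      ∃ m : (↥E)[X], m.Separable ∧ S18IsUnif V₀ (aeval p m))
    (hETφ : ∀ V₀ : ValuationSubring (modularFunctionFieldFullC E M), S18IsPlace ↥E V₀ →
      s18tInt ↥(s18dVal 𝔸 E) t₀ ≤ V₀.toSubring →
      sskCentre t₀ V₀ ⊆ ((𝔫₁.comap (sqgpdRes (ssvmfPhi E M q) hφP) :
        Ideal ↥(s18tInt ↥(s18dVal 𝔸 E) t₀)) : Set ↥(s18tInt ↥(s18dVal 𝔸 E) t₀)) →
      ∃ m : (↥E)[X], m.Separable ∧ S18IsUnif V₀ (aeval π' m))
    (V : ValuationSubring (modularFunctionFieldFullC E (M * q))) (hV : S18IsPlace ↥E V)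
    (hPV : s18tInt ↥(s18dVal 𝔸 E) t₁ ≤ V.toSubring)
    (hc : sskCentre t₁ V ⊆ (𝔫₁ : Set ↥(s18tInt ↥(s18dVal 𝔸 E) t₁))) :
    sqgvGxy E M q p π' ∈ V ∧ (sqgvGxy E M q p π')⁻¹ ∈ V := by
  obtain ⟨hVα, hPα, hcα⟩ := sqgpd_comap (L := ↥E) (ssvmdIncl E M q).toRingHom
    (fun c => (ssvmdIncl E M q).commutes c) hαP halgα 𝔫₁ V hV hPV hc
  obtain ⟨hVφ, hPφ, hcφ⟩ := sqgpd_comap (L := ↥E) (ssvmfPhi E M q)
    (fun c => sqgkx_phi_algebraMap E M q c) hφP halgφ 𝔫₁ V hV hPV hc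
  obtain ⟨m, hm, hu⟩ := hETα _ hVα hPα hcα
  obtain ⟨m', hm', hu'⟩ := hETφ _ hVφ hPφ hcφ
  exact sqgkx_gxy_unit E M q hqM hcfe r hr hrM hr3 r' hr' hr'M hr4 p π' V hV
    (sqgkx_mem_of_inLoc V hPV hc hj𝔫) (sqgkx_mem_of_inLoc V hPV hc hy𝔫)
    (hPV (hαP _ hp)) (hPV (hφP _ hπ')) m m' hm hm' hu hu'

/-- `F_E(M q)` is algebraic over `α F_E(M)` -/
theorem sqgkx_halg_alpha (y : modularFunctionFieldFullC E (M * q)) :
    ∃ g : (modularFunctionFieldFullC E M)[X],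
      g ≠ 0 ∧ g.eval₂ (ssvmdIncl E M q).toRingHom y = 0 := by
  haveI := (ssvmd_finrank_j E (M * q)).1
  haveI : Algebra.IsAlgebraic ↥(↥E)⟮ssvmdJ E (M * q)⟯ ↥(modularFunctionFieldFullC E (M * q)) :=
    Algebra.IsAlgebraic.of_finite _ _
  exact sqgkx_halg (E := ↥E) (ssvmdIncl E M q).toRingHom (fun c => (ssvmdIncl E M q).commutes c)
    (ssvmdJ E (M * q)) (ssd_transcendental_j E (M * q)) (ssdJ E M) (ssd_transcendental_j E M) y

/-- `F_E(M q)` is algebraic over `φ F_E(M)` -/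
theorem sqgkx_halg_phi (y : modularFunctionFieldFullC E (M * q)) :
    ∃ g : (modularFunctionFieldFullC E M)[X], g ≠ 0 ∧ g.eval₂ (ssvmfPhi E M q) y = 0 := by
  haveI := (ssvmd_finrank_j E (M * q)).1
  haveI : Algebra.IsAlgebraic ↥(↥E)⟮ssvmdJ E (M * q)⟯ ↥(modularFunctionFieldFullC E (M * q)) :=
    Algebra.IsAlgebraic.of_finite _ _
  exact sqgkx_halg (E := ↥E) (ssvmfPhi E M q) (fun c => sqgkx_phi_algebraMap E M q c)
    (ssvmdJ E (M * q)) (ssd_transcendental_j E (M * q)) (ssdJ E M) (ssd_transcendental_j E M) y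

set_option maxHeartbeats 1600000 in
/-- **the horizontal half of (K-x)** : `𝔫₁ ∋ ϖ` an ideal of `P₁` whose pull-backs `𝔰 = α⁻¹ 𝔫₁` and
`𝔰' = φ⁻¹ 𝔫₁` are maximal, `p` a local parameter of the special fibre at `𝔰` and `π'` one at `𝔰'`
(the (ET)-hypotheses `hgen`, `hpx` of `sqgu_unram_param`, i.e. the `SsGermSmooth` shape).  Then
`g_{p,π'}` and its inverse have no pole at the horizontal places through `𝔫₁`. -/
theorem sqgkx_hor {ϖ : ↥(s18dVal 𝔸 E)} (hϖ : Irreducible ϖ)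
    [PerfectField (ResidueField ↥(s18dVal 𝔸 E))] (hqM : ¬ q ∣ M) (hcfe : SqgkxCfe E M)
    (r : ℕ) (hr : r.Prime) (hrM : r ∣ M) (hr3 : r % 3 = 2)
    (r' : ℕ) (hr' : r'.Prime) (hr'M : r' ∣ M) (hr4 : r' % 4 = 3)
    {t₀ : modularFunctionFieldFullC E M} {t₁ : modularFunctionFieldFullC E (M * q)}
    (ht₀ : Transcendental ↥E t₀) [FiniteDimensional (↥E)⟮t₀⟯ (modularFunctionFieldFullC E M)]
    (hαP : ∀ x ∈ s18tInt ↥(s18dVal 𝔸 E) t₀,
      (ssvmdIncl E M q).toRingHom x ∈ s18tInt ↥(s18dVal 𝔸 E) t₁)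
    (hφP : ∀ x ∈ s18tInt ↥(s18dVal 𝔸 E) t₀, ssvmfPhi E M q x ∈ s18tInt ↥(s18dVal 𝔸 E) t₁)
    (𝔫₁ : Ideal ↥(s18tInt ↥(s18dVal 𝔸 E) t₁))
    (hj𝔫 : SsnfInLoc t₁ 𝔫₁ (ssdJ E (M * q)))
    (hy𝔫 : SsnfInLoc t₁ 𝔫₁ (ssvmfPhi E M q (ssdJ E M))) (hϖ𝔫₁ : sskPi ϖ t₁ ∈ 𝔫₁)
    (h𝔰 : (𝔫₁.comap (sqgpdRes (ssvmdIncl E M q).toRingHom hαP)).IsMaximal)
    (h𝔰' : (𝔫₁.comap (sqgpdRes (ssvmfPhi E M q) hφP)).IsMaximal)
    (p π' : modularFunctionFieldFullC E M)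
    (hp : p ∈ s18tInt ↥(s18dVal 𝔸 E) t₀) (hπ' : π' ∈ s18tInt ↥(s18dVal 𝔸 E) t₀)
    (hgen : ∀ y ∈ 𝔫₁.comap (sqgpdRes (ssvmdIncl E M q).toRingHom hαP),
      ∃ s : ↥(s18tInt ↥(s18dVal 𝔸 E) t₀),
        s ∉ 𝔫₁.comap (sqgpdRes (ssvmdIncl E M q).toRingHom hαP) ∧
        ∃ a b : ↥(s18tInt ↥(s18dVal 𝔸 E) t₀),
          (s : modularFunctionFieldFullC E M) * (y : modularFunctionFieldFullC E M) =
            (a : modularFunctionFieldFullC E M) *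
              algebraMap ↥(s18dVal 𝔸 E) (modularFunctionFieldFullC E M) ϖ +
            (b : modularFunctionFieldFullC E M) * p)
    (hpx : SsnfInMax t₀ (𝔫₁.comap (sqgpdRes (ssvmdIncl E M q).toRingHom hαP)) p)
    (hgen' : ∀ y ∈ 𝔫₁.comap (sqgpdRes (ssvmfPhi E M q) hφP),
      ∃ s : ↥(s18tInt ↥(s18dVal 𝔸 E) t₀), s ∉ 𝔫₁.comap (sqgpdRes (ssvmfPhi E M q) hφP) ∧
        ∃ a b : ↥(s18tInt ↥(s18dVal 𝔸 E) t₀),
          (s : modularFunctionFieldFullC E M) * (y : modularFunctionFieldFullC E M) =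
            (a : modularFunctionFieldFullC E M) *
              algebraMap ↥(s18dVal 𝔸 E) (modularFunctionFieldFullC E M) ϖ +
            (b : modularFunctionFieldFullC E M) * π')
    (hpx' : SsnfInMax t₀ (𝔫₁.comap (sqgpdRes (ssvmfPhi E M q) hφP)) π')
    (V : ValuationSubring (modularFunctionFieldFullC E (M * q))) (hV : S18IsPlace ↥E V)
    (hPV : s18tInt ↥(s18dVal 𝔸 E) t₁ ≤ V.toSubring)
    (hc : sskCentre t₁ V ⊆ (𝔫₁ : Set ↥(s18tInt ↥(s18dVal 𝔸 E) t₁))) :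
    sqgvGxy E M q p π' ∈ V ∧ (sqgvGxy E M q p π')⁻¹ ∈ V := by
  have hAα : (ssvmdIncl E M q).toRingHom
      (algebraMap ↥(s18dVal 𝔸 E) (modularFunctionFieldFullC E M) ϖ) =
      algebraMap ↥(s18dVal 𝔸 E) (modularFunctionFieldFullC E (M * q)) ϖ := by
    rw [IsScalarTower.algebraMap_apply ↥(s18dVal 𝔸 E) ↥E (modularFunctionFieldFullC E M),
      IsScalarTower.algebraMap_apply ↥(s18dVal 𝔸 E) ↥E (modularFunctionFieldFullC E (M * q))]
    exact (ssvmdIncl E M q).commutes _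
  have hAφ : ssvmfPhi E M q
      (algebraMap ↥(s18dVal 𝔸 E) (modularFunctionFieldFullC E M) ϖ) =
      algebraMap ↥(s18dVal 𝔸 E) (modularFunctionFieldFullC E (M * q)) ϖ := by
    rw [IsScalarTower.algebraMap_apply ↥(s18dVal 𝔸 E) ↥E (modularFunctionFieldFullC E M),
      IsScalarTower.algebraMap_apply ↥(s18dVal 𝔸 E) ↥E (modularFunctionFieldFullC E (M * q))]
    exact sqgkx_phi_algebraMap E M q _
  have hϖ𝔰 : sskPi ϖ t₀ ∈ 𝔫₁.comap (sqgpdRes (ssvmdIncl E M q).toRingHom hαP) := by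
    rw [Ideal.mem_comap]
    have : sqgpdRes (ssvmdIncl E M q).toRingHom hαP (sskPi ϖ t₀) = sskPi ϖ t₁ :=
      Subtype.ext hAα
    rw [this]
    exact hϖ𝔫₁
  have hϖ𝔰' : sskPi ϖ t₀ ∈ 𝔫₁.comap (sqgpdRes (ssvmfPhi E M q) hφP) := by
    rw [Ideal.mem_comap]
    have : sqgpdRes (ssvmfPhi E M q) hφP (sskPi ϖ t₀) = sskPi ϖ t₁ := Subtype.ext hAφ
    rw [this]
    exact hϖ𝔫₁
  refine sqgkx_hor_of_unram 𝔸 E M hqM hcfe r hr hrM hr3 r' hr' hr'M hr4 hαP hφP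
    (sqgkx_halg_alpha E M) (sqgkx_halg_phi E M) 𝔫₁ hj𝔫 hy𝔫 p π' hp hπ' ?_ ?_ V hV hPV hc
  · intro V₀ hV₀ hP₀ hc₀
    haveI := h𝔰
    obtain ⟨m, -, hirr, hu, -⟩ := sqgu_unram_param (L := ↥E) hϖ t₀ ht₀ _ hϖ𝔰 p hp hgen hpx
      V₀ hV₀ hP₀ hc₀
    exact ⟨m, hirr.separable, hu⟩
  · intro V₀ hV₀ hP₀ hc₀
    haveI := h𝔰'
    obtain ⟨m, -, hirr, hu, -⟩ := sqgu_unram_param (L := ↥E) hϖ t₀ ht₀ _ hϖ𝔰' π' hπ' hgen' hpx'
      V₀ hV₀ hP₀ hc₀
    exact ⟨m, hirr.separable, hu⟩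

end Hor

/-! ### 3. the vertical half -/

section VertAbs

/-- **the vertical half, abstract form** : `W₁(g) = 1`, `W₂(q² g) = 1`, `W₂(q) = W₂(ϖ)` give the
first six clauses of `(K)` for `γ := g⁻¹`, `ε := γ / ϖ²`. -/
theorem sqgkx_vert_abs {F : Type*} [Field F] (W₁ W₂ : ValuationSubring F) (g ϖ qq : F)
    (hg₁ : W₁.valuation g = 1) (hg₂ : W₂.valuation (qq ^ 2 * g) = 1)
    (hqϖ : W₂.valuation qq = W₂.valuation ϖ) (hϖ0 : ϖ ≠ 0) :
    g⁻¹ ≠ 0 ∧ g⁻¹ ∈ W₁ ∧ (g⁻¹)⁻¹ ∈ W₁ ∧ g⁻¹ * (ϖ ^ 2)⁻¹ ∈ W₂ ∧ (g⁻¹ * (ϖ ^ 2)⁻¹)⁻¹ ∈ W₂ ∧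
      g⁻¹ = ϖ ^ 2 * (g⁻¹ * (ϖ ^ 2)⁻¹) := by
  have hg0 : g ≠ 0 := by
    rintro rfl
    rw [map_zero] at hg₁
    exact zero_ne_one hg₁
  have hε : W₂.valuation (g⁻¹ * (ϖ ^ 2)⁻¹) = 1 := by
    rw [← mul_inv, map_inv₀, mul_comm, map_mul, map_pow, ← hqϖ, ← map_pow, ← map_mul, hg₂, inv_one]
  refine ⟨inv_ne_zero hg0, ?_, ?_, ?_, ?_, ?_⟩
  · rw [← W₁.valuation_le_one_iff, map_inv₀, hg₁, inv_one]
  · rw [inv_inv, ← W₁.valuation_le_one_iff, hg₁]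
  · rw [← W₂.valuation_le_one_iff, hε]
  · rw [← W₂.valuation_le_one_iff, map_inv₀, hε, inv_one]
  · have h2 : ϖ ^ 2 ≠ 0 := pow_ne_zero 2 hϖ0
    rw [mul_comm g⁻¹, ← mul_assoc, mul_inv_cancel₀ h2, one_mul]

end VertAbs

section Theta

variable {A₀ : Type*} [CommRing A₀] [IsDomain A₀] [IsDiscreteValuationRing A₀] [CharZero A₀]
variable {L₀ : Type*} [Field L₀] [Algebra A₀ L₀] [IsFractionRing A₀ L₀] [CharZero L₀]
variable {ϖ : A₀} (N : ℕ) [NeZero N]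

/-- **the input `θ x̄ ≠ 0` of `sqgvGxy_val` from (DER)** : if `x` lies in the Gauss ring of `F(N)`,
`dx/dj ≠ 0` and `dj/dx = (dx/dj)⁻¹` lies in the Gauss ring, then `θ x̄ ≠ 0`. -/
theorem sqgkx_theta_ne_zero (hϖ : Irreducible ϖ) (x : modularFunctionFieldFullC L₀ N)
    (hx : x ∈ s18vO A₀ (modularFunctionFieldFullC L₀ N)) (hx0 : sqgvDer L₀ N x ≠ 0)
    (hinv : (sqgvDer L₀ N x)⁻¹ ∈ s18vO A₀ (modularFunctionFieldFullC L₀ N)) :
    sqvtTheta (ResidueField A₀) (s18vcRed (modularFunctionFieldFullC L₀ N) ⟨x, hx⟩) ≠ 0 := by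
  obtain ⟨hD, hred⟩ := sqgvDer_gauss N hϖ x hx
  intro h0
  rw [h0] at hred
  have h1 : s18vcRed (modularFunctionFieldFullC L₀ N) ⟨sqgvDer L₀ N x, hD⟩ = 0 :=
    (mul_eq_zero.mp hred).resolve_right (sqgvThJ_ne_zero _)
  have h2 : (⟨sqgvDer L₀ N x, hD⟩ : ↥(s18vO A₀ (modularFunctionFieldFullC L₀ N))) *
      ⟨(sqgvDer L₀ N x)⁻¹, hinv⟩ = 1 := Subtype.ext (mul_inv_cancel₀ hx0)
  have h3 := congrArg (s18vcRed (modularFunctionFieldFullC L₀ N)) h2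
  rw [map_mul, h1, zero_mul, map_one] at h3
  exact zero_ne_one h3

end Theta

/-! ### 4. the package `(K)` -/

section Package

variable {q : ℕ} [Fact q.Prime] [NeZero q] (𝔸 : ValuationSubring Qb) (E : IntermediateField ℚ Qb)
  [IsDiscreteValuationRing ↥(s18dVal 𝔸 E)] [CharZero ↥(s18dVal 𝔸 E)] (M : ℕ) [NeZero M]

set_option maxHeartbeats 1600000 in
/-- **the vertical half of (K-x)** : for `p, π'` in the Gauss ring of `F_E(M)` with `θ p̄ ≠ 0`,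
`θ π̄' ≠ 0` (helper3's `sqgvGxy_val`), and `W₂(q) = W₂(ϖ)` (`rfl`-like for `ϖ = q`), the first six
clauses of `(K)` for `γ := g_{p,π'}⁻¹`, `ε := γ / ϖ²`, `W_i := h.V_i`. -/
theorem sqgkx_vert (hA : 𝔸.LiesOverPrime q) (hqM : ¬ q ∣ M) {ϖ : ↥(s18dVal 𝔸 E)}
    (hϖ : Irreducible ϖ) (Ξ G : (↥(ssvmmR 𝔸 E M q))[X])
    (h : SsvAmb (ssvmmR 𝔸 E M q) (ssvmgRUnif (ssvmm_le E M q) ϖ) (ssvmmY E M q) Ξ
      (X - C (ssvmmJ 𝔸 E M q ^ q)) (X ^ q - C (ssvmmJ 𝔸 E M q)) G)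
    (p π' : modularFunctionFieldFullC E M)
    (hp : p ∈ s18vO ↥(s18dVal 𝔸 E) (modularFunctionFieldFullC E M))
    (hπ' : π' ∈ s18vO ↥(s18dVal 𝔸 E) (modularFunctionFieldFullC E M))
    (hθ : sqvtTheta (ResidueField ↥(s18dVal 𝔸 E))
      (s18vcRed (modularFunctionFieldFullC E M) ⟨p, hp⟩) ≠ 0)
    (hθ' : sqvtTheta (ResidueField ↥(s18dVal 𝔸 E))
      (s18vcRed (modularFunctionFieldFullC E M) ⟨π', hπ'⟩) ≠ 0)
    (hqϖ : h.V₂.valuation ((q : ℕ) : modularFunctionFieldFullC E (M * q)) =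
      h.V₂.valuation (algebraMap ↥(s18dVal 𝔸 E) (modularFunctionFieldFullC E (M * q)) ϖ)) :
    (sqgvGxy E M q p π')⁻¹ ≠ 0 ∧ (sqgvGxy E M q p π')⁻¹ ∈ h.V₁ ∧
      ((sqgvGxy E M q p π')⁻¹)⁻¹ ∈ h.V₁ ∧
      (sqgvGxy E M q p π')⁻¹ *
        (algebraMap ↥(s18dVal 𝔸 E) (modularFunctionFieldFullC E (M * q)) ϖ ^ 2)⁻¹ ∈ h.V₂ ∧
      ((sqgvGxy E M q p π')⁻¹ *
        (algebraMap ↥(s18dVal 𝔸 E) (modularFunctionFieldFullC E (M * q)) ϖ ^ 2)⁻¹)⁻¹ ∈ h.V₂ ∧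
      (sqgvGxy E M q p π')⁻¹ =
        algebraMap ↥(s18dVal 𝔸 E) (modularFunctionFieldFullC E (M * q)) ϖ ^ 2 *
          ((sqgvGxy E M q p π')⁻¹ *
            (algebraMap ↥(s18dVal 𝔸 E) (modularFunctionFieldFullC E (M * q)) ϖ ^ 2)⁻¹) := by
  have hval := sqgvGxy_val 𝔸 E M hA hqM hϖ Ξ G h p π' hp hπ' hθ hθ'
  obtain ⟨h1, h2, -⟩ := hval
  have hϖ0 : algebraMap ↥(s18dVal 𝔸 E) (modularFunctionFieldFullC E (M * q)) ϖ ≠ 0 := by
    rw [IsScalarTower.algebraMap_apply ↥(s18dVal 𝔸 E) ↥E (modularFunctionFieldFullC E (M * q))]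
    refine (_root_.map_ne_zero _).mpr ?_
    rw [Ne, map_eq_zero_iff _ (IsFractionRing.injective ↥(s18dVal 𝔸 E) ↥E)]
    exact hϖ.ne_zero
  exact sqgkx_vert_abs h.V₁ h.V₂ (sqgvGxy E M q p π') _ _ h1 h2 hqϖ hϖ0

set_option maxHeartbeats 1600000 in
/-- **(K-x) : THE PACKAGE `(K)` OF `SqgcrHyp.regular` / `sqgci_node_of_regular`** for
`γ := g_{p,π'}⁻¹`, `ε := γ / ϖ²` at an ideal `𝔫₁ ∋ ϖ` of the level `M q` (in the application : a
crossing point) : `γ ≠ 0`, `γ, γ⁻¹ ∈ W₁`, `ε, ε⁻¹ ∈ W₂`, `γ = ϖ² ε`, and `γ`, `γ⁻¹` have no pole at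
the horizontal places through `𝔫₁` (`SqgciHor ↥E t₁ 𝔫₁`, unfolded). -/
theorem sqgkx_package (hA : 𝔸.LiesOverPrime q) (hqM : ¬ q ∣ M) {ϖ : ↥(s18dVal 𝔸 E)}
    (hϖ : Irreducible ϖ) [PerfectField (ResidueField ↥(s18dVal 𝔸 E))] (hcfe : SqgkxCfe E M)
    (r : ℕ) (hr : r.Prime) (hrM : r ∣ M) (hr3 : r % 3 = 2)
    (r' : ℕ) (hr' : r'.Prime) (hr'M : r' ∣ M) (hr4 : r' % 4 = 3)
    (Ξ G : (↥(ssvmmR 𝔸 E M q))[X])
    (h : SsvAmb (ssvmmR 𝔸 E M q) (ssvmgRUnif (ssvmm_le E M q) ϖ) (ssvmmY E M q) Ξ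
      (X - C (ssvmmJ 𝔸 E M q ^ q)) (X ^ q - C (ssvmmJ 𝔸 E M q)) G)
    (hqϖ : h.V₂.valuation ((q : ℕ) : modularFunctionFieldFullC E (M * q)) =
      h.V₂.valuation (algebraMap ↥(s18dVal 𝔸 E) (modularFunctionFieldFullC E (M * q)) ϖ))
    {t₀ : modularFunctionFieldFullC E M} {t₁ : modularFunctionFieldFullC E (M * q)}
    (ht₀ : Transcendental ↥E t₀) [FiniteDimensional (↥E)⟮t₀⟯ (modularFunctionFieldFullC E M)]
    (hαP : ∀ x ∈ s18tInt ↥(s18dVal 𝔸 E) t₀,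
      (ssvmdIncl E M q).toRingHom x ∈ s18tInt ↥(s18dVal 𝔸 E) t₁)
    (hφP : ∀ x ∈ s18tInt ↥(s18dVal 𝔸 E) t₀, ssvmfPhi E M q x ∈ s18tInt ↥(s18dVal 𝔸 E) t₁)
    (𝔫₁ : Ideal ↥(s18tInt ↥(s18dVal 𝔸 E) t₁))
    (hj𝔫 : SsnfInLoc t₁ 𝔫₁ (ssdJ E (M * q)))
    (hy𝔫 : SsnfInLoc t₁ 𝔫₁ (ssvmfPhi E M q (ssdJ E M))) (hϖ𝔫₁ : sskPi ϖ t₁ ∈ 𝔫₁)
    (h𝔰 : (𝔫₁.comap (sqgpdRes (ssvmdIncl E M q).toRingHom hαP)).IsMaximal)
    (h𝔰' : (𝔫₁.comap (sqgpdRes (ssvmfPhi E M q) hφP)).IsMaximal)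
    (p π' : modularFunctionFieldFullC E M)
    (hp : p ∈ s18tInt ↥(s18dVal 𝔸 E) t₀) (hπ' : π' ∈ s18tInt ↥(s18dVal 𝔸 E) t₀)
    (hgen : ∀ y ∈ 𝔫₁.comap (sqgpdRes (ssvmdIncl E M q).toRingHom hαP),
      ∃ s : ↥(s18tInt ↥(s18dVal 𝔸 E) t₀),
        s ∉ 𝔫₁.comap (sqgpdRes (ssvmdIncl E M q).toRingHom hαP) ∧
        ∃ a b : ↥(s18tInt ↥(s18dVal 𝔸 E) t₀),
          (s : modularFunctionFieldFullC E M) * (y : modularFunctionFieldFullC E M) =
            (a : modularFunctionFieldFullC E M) *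
              algebraMap ↥(s18dVal 𝔸 E) (modularFunctionFieldFullC E M) ϖ +
            (b : modularFunctionFieldFullC E M) * p)
    (hpx : SsnfInMax t₀ (𝔫₁.comap (sqgpdRes (ssvmdIncl E M q).toRingHom hαP)) p)
    (hgen' : ∀ y ∈ 𝔫₁.comap (sqgpdRes (ssvmfPhi E M q) hφP),
      ∃ s : ↥(s18tInt ↥(s18dVal 𝔸 E) t₀), s ∉ 𝔫₁.comap (sqgpdRes (ssvmfPhi E M q) hφP) ∧
        ∃ a b : ↥(s18tInt ↥(s18dVal 𝔸 E) t₀),
          (s : modularFunctionFieldFullC E M) * (y : modularFunctionFieldFullC E M) =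
            (a : modularFunctionFieldFullC E M) *
              algebraMap ↥(s18dVal 𝔸 E) (modularFunctionFieldFullC E M) ϖ +
            (b : modularFunctionFieldFullC E M) * π')
    (hpx' : SsnfInMax t₀ (𝔫₁.comap (sqgpdRes (ssvmfPhi E M q) hφP)) π')
    (hpO : p ∈ s18vO ↥(s18dVal 𝔸 E) (modularFunctionFieldFullC E M))
    (hπ'O : π' ∈ s18vO ↥(s18dVal 𝔸 E) (modularFunctionFieldFullC E M))
    (hθ : sqvtTheta (ResidueField ↥(s18dVal 𝔸 E))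
      (s18vcRed (modularFunctionFieldFullC E M) ⟨p, hpO⟩) ≠ 0)
    (hθ' : sqvtTheta (ResidueField ↥(s18dVal 𝔸 E))
      (s18vcRed (modularFunctionFieldFullC E M) ⟨π', hπ'O⟩) ≠ 0) :
    ∃ γ ε : modularFunctionFieldFullC E (M * q), γ = (sqgvGxy E M q p π')⁻¹ ∧
      γ ≠ 0 ∧ γ ∈ h.V₁ ∧ γ⁻¹ ∈ h.V₁ ∧ ε ∈ h.V₂ ∧ ε⁻¹ ∈ h.V₂ ∧
      γ = algebraMap ↥(s18dVal 𝔸 E) (modularFunctionFieldFullC E (M * q)) ϖ ^ 2 * ε ∧
      (∀ V : ValuationSubring (modularFunctionFieldFullC E (M * q)), S18IsPlace ↥E V →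
        s18tInt ↥(s18dVal 𝔸 E) t₁ ≤ V.toSubring →
        sskCentre t₁ V ⊆ (𝔫₁ : Set ↥(s18tInt ↥(s18dVal 𝔸 E) t₁)) → γ ∈ V) ∧
      (∀ V : ValuationSubring (modularFunctionFieldFullC E (M * q)), S18IsPlace ↥E V →
        s18tInt ↥(s18dVal 𝔸 E) t₁ ≤ V.toSubring →
        sskCentre t₁ V ⊆ (𝔫₁ : Set ↥(s18tInt ↥(s18dVal 𝔸 E) t₁)) → γ⁻¹ ∈ V) := by
  obtain ⟨h0, h1, h2, h3, h4, h5⟩ :=
    sqgkx_vert 𝔸 E M hA hqM hϖ Ξ G h p π' hpO hπ'O hθ hθ' hqϖ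
  have hhor := fun V hV hPV hc => sqgkx_hor 𝔸 E M hϖ hqM hcfe r hr hrM hr3 r' hr' hr'M hr4 ht₀
    hαP hφP 𝔫₁ hj𝔫 hy𝔫 hϖ𝔫₁ h𝔰 h𝔰' p π' hp hπ' hgen hpx hgen' hpx' V hV hPV hc
  refine ⟨(sqgvGxy E M q p π')⁻¹, (sqgvGxy E M q p π')⁻¹ *
    (algebraMap ↥(s18dVal 𝔸 E) (modularFunctionFieldFullC E (M * q)) ϖ ^ 2)⁻¹, rfl, h0, h1, h2,
    h3, h4, h5, fun V hV hPV hc => (hhor V hV hPV hc).2, fun V hV hPV hc => ?_⟩
  rw [inv_inv]
  exact (hhor V hV hPV hc).1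

end Package

end Fermat.Agent.SQ
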