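import Mathlib
import Fermat.Agent.SQ.Germ.DerivUnitX
import Fermat.Agent.SQ.Germ.DerivNode
import Fermat.Agent.SQ.Germ.ConstExt

/-!
# Program Q (S36), risk R1, pieces (K-x) and (K-x-ord), FINAL FORMS (prefix `sqgkx_`)

`SQ/Germ/DerivUnitX.lean` with its hypothesis (CFE) discharged by helper12's `sqgce_ord_up`
(`E` a number field), in helper10's vocabulary (`SqgkHor`, `SQ/Germ/DerivNode.lean`) :

* `sqgkx_cfe` : `SqgkxCfe E N`;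
* `sqgkx_sqgkHor` : **`SqgkHor ↥E t₁ 𝔫₁ g_{p,π'}`** at EVERY non-cuspidal ideal `𝔫₁ ∋ ϖ` of the level
  `M q` whose pull-backs `α⁻¹ 𝔫₁`, `φ⁻¹ 𝔫₁` are closed points with local parameters `p`, `π'`
  (nodes AND `W₁`-only / `W₂`-only points);
* `sqgkx_sqgkHor_of_mem` : the same with `𝔰`, `𝔰'` given by membership (`x ∈ 𝔰 ↔ α x ∈ 𝔫₁`);
* `sqgkx_val` : `W₁(g) = 1`, `W₂(ϖ² g) = 1` (helper3's `sqgvGxy_val` with `q` replaced by `ϖ`);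
* `sqgkx_inLoc` : **(K-x-ord)** at a closed point off the second component : `g, g⁻¹ ∈ (P₁)_𝔫₁`;
* `sqgkx_cross` : helper10's `sqgk_cross_abs` for the mixed `g` at a closed point (`γ := g⁻¹` has
  divisor `2 C₂` near `𝔫₁`) - the `(K)`-block of `sqgci_node_of_regular` plus `γ ∈ (P₁)_𝔫₁`.
-/

set_option autoImplicit false
set_option linter.unusedSectionVars false
set_option linter.unusedVariables false
set_option linter.style.haveILetI false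

noncomputable section

namespace Fermat.Agent.SQ

open Polynomial IntermediateField AlgebraicCurve Fermat.Agent.S24 Fermat.Agent.S18
  Fermat.Agent.SS Fermat.Agent.G ModularCurve IsLocalRing

local notation "Qb" => AlgebraicClosure ℚ

/-- replacing `q` by `ϖ` in `V(q² g) = 1` -/
theorem sqgkx_val_swap {F : Type*} [Field F] (V : ValuationSubring F) (a b g : F)
    (hab : V.valuation a = V.valuation b) (h : V.valuation (a ^ 2 * g) = 1) :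
    V.valuation (b ^ 2 * g) = 1 := by
  rw [map_mul, map_pow, ← hab, ← map_pow, ← map_mul]
  exact h

/-- (CFE) for a number field (helper12's `sqgce_ord_up`) -/
theorem sqgkx_cfe (E : IntermediateField ℚ Qb) [FiniteDimensional ℚ E] (N : ℕ) [NeZero N] :
    SqgkxCfe E N := fun R' R hR x => sqgce_ord_up N E R' R hR x

variable {q : ℕ} [Fact q.Prime] [NeZero q] (𝔸 : ValuationSubring Qb) (E : IntermediateField ℚ Qb)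
  [FiniteDimensional ℚ E]
  [IsDiscreteValuationRing ↥(s18dVal 𝔸 E)] [CharZero ↥(s18dVal 𝔸 E)] (M : ℕ) [NeZero M]

set_option maxHeartbeats 1600000 in
/-- **(K-x), horizontal half, final form** : `g_{p,π'}` is a unit at every horizontal place through
`𝔫₁` (helper10's `SqgkHor`; `= SqgciHor ↥E t₁ 𝔫₁ g ∧ SqgciHor ↥E t₁ 𝔫₁ g⁻¹` pointwise). -/
theorem sqgkx_sqgkHor {ϖ : ↥(s18dVal 𝔸 E)} (hϖ : Irreducible ϖ)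
    [PerfectField (ResidueField ↥(s18dVal 𝔸 E))] (hqM : ¬ q ∣ M)
    (r : ℕ) (hr : r.Prime) (hrM : r ∣ M) (hr3 : r % 3 = 2)
    (r' : ℕ) (hr' : r'.Prime) (hr'M : r' ∣ M) (hr4 : r' % 4 = 3)
    {t₀ : modularFunctionFieldFullC E M} {t₁ : modularFunctionFieldFullC E (M * q)}
    (ht₀ : Transcendental ↥E t₀) [FiniteDimensional (↥E)⟮t₀⟯ (modularFunctionFieldFullC E M)]
    (hαP : ∀ x ∈ s18tInt ↥(s18dVal 𝔸 E) t₀,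
      (ssvmdIncl E M q).toRingHom x ∈ s18tInt ↥(s18dVal 𝔸 E) t₁)
    (hφP : ∀ x ∈ s18tInt ↥(s18dVal 𝔸 E) t₀, ssvmfPhi E M q x ∈ s18tInt ↥(s18dVal 𝔸 E) t₁)
    (𝔫₁ : Ideal ↥(s18tInt ↥(s18dVal 𝔸 E) t₁))
    (hj𝔫 : SsnfInLoc t₁ 𝔫₁ (ssdJ E (M * q)))
    (hy𝔫 : SsnfInLoc t₁ 𝔫₁ (ssvmfPhi E M q (ssdJ E M)))
    (hϖ𝔫₁ : sskPi ϖ t₁ ∈ 𝔫₁)
    (h𝔰 : (𝔫₁.comap (sqgpdRes (ssvmdIncl E M q).toRingHom hαP)).IsMaximal)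
    (h𝔰' : (𝔫₁.comap (sqgpdRes (ssvmfPhi E M q) hφP)).IsMaximal)
    (p π' : modularFunctionFieldFullC E M)
    (hp : p ∈ s18tInt ↥(s18dVal 𝔸 E) t₀) (hπ' : π' ∈ s18tInt ↥(s18dVal 𝔸 E) t₀)
    (hgen : ∀ y ∈ 𝔫₁.comap (sqgpdRes (ssvmdIncl E M q).toRingHom hαP),
      ∃ s : ↥(s18tInt ↥(s18dVal 𝔸 E) t₀),
        s ∉ 𝔫₁.comap (sqgpdRes (ssvmdIncl E M q).toRingHom hαP) ∧
        ∃ a b : ↥(s18tInt ↥(s18dVal 𝔸 E) t₀),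
          (s : modularFunctionFieldFullC E M) * (y : modularFunctionFieldFullC E M) =
            (a : modularFunctionFieldFullC E M) *
              algebraMap ↥(s18dVal 𝔸 E) (modularFunctionFieldFullC E M) ϖ +
            (b : modularFunctionFieldFullC E M) * p)
    (hpx : SsnfInMax t₀ (𝔫₁.comap (sqgpdRes (ssvmdIncl E M q).toRingHom hαP)) p)
    (hgen' : ∀ y ∈ 𝔫₁.comap (sqgpdRes (ssvmfPhi E M q) hφP),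
      ∃ s : ↥(s18tInt ↥(s18dVal 𝔸 E) t₀), s ∉ 𝔫₁.comap (sqgpdRes (ssvmfPhi E M q) hφP) ∧
        ∃ a b : ↥(s18tInt ↥(s18dVal 𝔸 E) t₀),
          (s : modularFunctionFieldFullC E M) * (y : modularFunctionFieldFullC E M) =
            (a : modularFunctionFieldFullC E M) *
              algebraMap ↥(s18dVal 𝔸 E) (modularFunctionFieldFullC E M) ϖ +
            (b : modularFunctionFieldFullC E M) * π')
    (hpx' : SsnfInMax t₀ (𝔫₁.comap (sqgpdRes (ssvmfPhi E M q) hφP)) π') :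
    SqgkHor ↥E t₁ 𝔫₁ (sqgvGxy E M q p π') := fun V hV hPV hc =>
  sqgkx_hor 𝔸 E M hϖ hqM (sqgkx_cfe E M) r hr hrM hr3 r' hr' hr'M hr4 ht₀ hαP hφP 𝔫₁ hj𝔫 hy𝔫
    hϖ𝔫₁ h𝔰 h𝔰' p π' hp hπ' hgen hpx hgen' hpx' V hV hPV hc

set_option maxHeartbeats 1600000 in
/-- **(K-x), horizontal half, membership form** : the same with the two closed points `𝔰`, `𝔰'` of
the level `M` given as ideals together with `x ∈ 𝔰 ↔ α x ∈ 𝔫₁`, `x ∈ 𝔰' ↔ φ x ∈ 𝔫₁` (the shape of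
helper29's `[MAP]`-block and of helper18's (PAR⁺)), instead of `Ideal.comap` of a restricted map. -/
theorem sqgkx_sqgkHor_of_mem {ϖ : ↥(s18dVal 𝔸 E)} (hϖ : Irreducible ϖ)
    [PerfectField (ResidueField ↥(s18dVal 𝔸 E))] (hqM : ¬ q ∣ M)
    (r : ℕ) (hr : r.Prime) (hrM : r ∣ M) (hr3 : r % 3 = 2)
    (r' : ℕ) (hr' : r'.Prime) (hr'M : r' ∣ M) (hr4 : r' % 4 = 3)
    {t₀ : modularFunctionFieldFullC E M} {t₁ : modularFunctionFieldFullC E (M * q)}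
    (ht₀ : Transcendental ↥E t₀) [FiniteDimensional (↥E)⟮t₀⟯ (modularFunctionFieldFullC E M)]
    (hαP : ∀ x ∈ s18tInt ↥(s18dVal 𝔸 E) t₀,
      (ssvmdIncl E M q).toRingHom x ∈ s18tInt ↥(s18dVal 𝔸 E) t₁)
    (hφP : ∀ x ∈ s18tInt ↥(s18dVal 𝔸 E) t₀, ssvmfPhi E M q x ∈ s18tInt ↥(s18dVal 𝔸 E) t₁)
    (𝔫₁ : Ideal ↥(s18tInt ↥(s18dVal 𝔸 E) t₁))
    (hj𝔫 : SsnfInLoc t₁ 𝔫₁ (ssdJ E (M * q)))
    (hy𝔫 : SsnfInLoc t₁ 𝔫₁ (ssvmfPhi E M q (ssdJ E M)))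
    (hϖ𝔫₁ : sskPi ϖ t₁ ∈ 𝔫₁)
    (𝔰 𝔰' : Ideal ↥(s18tInt ↥(s18dVal 𝔸 E) t₀))
    (h𝔰𝔫 : ∀ x : ↥(s18tInt ↥(s18dVal 𝔸 E) t₀), x ∈ 𝔰 ↔
      (⟨(ssvmdIncl E M q).toRingHom x, hαP x x.2⟩ : ↥(s18tInt ↥(s18dVal 𝔸 E) t₁)) ∈ 𝔫₁)
    (h𝔰'𝔫 : ∀ x : ↥(s18tInt ↥(s18dVal 𝔸 E) t₀), x ∈ 𝔰' ↔
      (⟨ssvmfPhi E M q x, hφP x x.2⟩ : ↥(s18tInt ↥(s18dVal 𝔸 E) t₁)) ∈ 𝔫₁)
    (h𝔰 : 𝔰.IsMaximal) (h𝔰' : 𝔰'.IsMaximal)
    (p π' : modularFunctionFieldFullC E M)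
    (hp : p ∈ s18tInt ↥(s18dVal 𝔸 E) t₀) (hπ' : π' ∈ s18tInt ↥(s18dVal 𝔸 E) t₀)
    (hgen : ∀ y ∈ 𝔰, ∃ s : ↥(s18tInt ↥(s18dVal 𝔸 E) t₀), s ∉ 𝔰 ∧
        ∃ a b : ↥(s18tInt ↥(s18dVal 𝔸 E) t₀),
          (s : modularFunctionFieldFullC E M) * (y : modularFunctionFieldFullC E M) =
            (a : modularFunctionFieldFullC E M) *
              algebraMap ↥(s18dVal 𝔸 E) (modularFunctionFieldFullC E M) ϖ +
            (b : modularFunctionFieldFullC E M) * p)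
    (hpx : SsnfInMax t₀ 𝔰 p)
    (hgen' : ∀ y ∈ 𝔰', ∃ s : ↥(s18tInt ↥(s18dVal 𝔸 E) t₀), s ∉ 𝔰' ∧
        ∃ a b : ↥(s18tInt ↥(s18dVal 𝔸 E) t₀),
          (s : modularFunctionFieldFullC E M) * (y : modularFunctionFieldFullC E M) =
            (a : modularFunctionFieldFullC E M) *
              algebraMap ↥(s18dVal 𝔸 E) (modularFunctionFieldFullC E M) ϖ +
            (b : modularFunctionFieldFullC E M) * π')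
    (hpx' : SsnfInMax t₀ 𝔰' π') :
    SqgkHor ↥E t₁ 𝔫₁ (sqgvGxy E M q p π') := by
  have e : 𝔰 = 𝔫₁.comap (sqgpdRes (ssvmdIncl E M q).toRingHom hαP) :=
    Ideal.ext fun x => (h𝔰𝔫 x).trans Iff.rfl
  have e' : 𝔰' = 𝔫₁.comap (sqgpdRes (ssvmfPhi E M q) hφP) :=
    Ideal.ext fun x => (h𝔰'𝔫 x).trans Iff.rfl
  subst e
  subst e'
  exact sqgkx_sqgkHor 𝔸 E M hϖ hqM r hr hrM hr3 r' hr' hr'M hr4 ht₀ hαP hφP 𝔫₁ hj𝔫 hy𝔫 hϖ𝔫₁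
    h𝔰 h𝔰' p π' hp hπ' hgen hpx hgen' hpx'

set_option maxHeartbeats 1600000 in
/-- **the two vertical valuations of `g_{p,π'}`** in helper10's shape : `W₁(g) = 1`,
`W₂(ϖ² g) = 1`. -/
theorem sqgkx_val (hA : 𝔸.LiesOverPrime q) (hqM : ¬ q ∣ M) {ϖ : ↥(s18dVal 𝔸 E)}
    (hϖ : Irreducible ϖ) (Ξ G : (↥(ssvmmR 𝔸 E M q))[X])
    (h : SsvAmb (ssvmmR 𝔸 E M q) (ssvmgRUnif (ssvmm_le E M q) ϖ) (ssvmmY E M q) Ξ
      (X - C (ssvmmJ 𝔸 E M q ^ q)) (X ^ q - C (ssvmmJ 𝔸 E M q)) G)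
    (hqϖ : h.V₂.valuation ((q : ℕ) : modularFunctionFieldFullC E (M * q)) =
      h.V₂.valuation (algebraMap ↥(s18dVal 𝔸 E) (modularFunctionFieldFullC E (M * q)) ϖ))
    (p π' : modularFunctionFieldFullC E M)
    (hpO : p ∈ s18vO ↥(s18dVal 𝔸 E) (modularFunctionFieldFullC E M))
    (hπ'O : π' ∈ s18vO ↥(s18dVal 𝔸 E) (modularFunctionFieldFullC E M))
    (hθ : sqvtTheta (ResidueField ↥(s18dVal 𝔸 E))
      (s18vcRed (modularFunctionFieldFullC E M) ⟨p, hpO⟩) ≠ 0)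
    (hθ' : sqvtTheta (ResidueField ↥(s18dVal 𝔸 E))
      (s18vcRed (modularFunctionFieldFullC E M) ⟨π', hπ'O⟩) ≠ 0) :
    h.V₁.valuation (sqgvGxy E M q p π') = 1 ∧
      h.V₂.valuation (algebraMap ↥(s18dVal 𝔸 E) (modularFunctionFieldFullC E (M * q)) ϖ ^ 2 *
        sqgvGxy E M q p π') = 1 := by
  have hval := sqgvGxy_val 𝔸 E M hA hqM hϖ Ξ G h p π' hpO hπ'O hθ hθ'
  obtain ⟨h1, h2, -⟩ := hval
  exact ⟨h1, sqgkx_val_swap h.V₂ _ _ _ hqϖ h2⟩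

set_option maxHeartbeats 1600000 in
/-- **(K-x-ord)** : at a closed point `𝔫₁` of the level `M q` which does NOT lie on the second
component (`s₀ ∈ P₁ ∩ 𝔪_{W₂}`, `s₀ ∉ 𝔫₁`), `g_{p,π'}` is a unit of `(P₁)_𝔫₁`.  (`hH` is the output
of `sqgkx_sqgkHor`.) -/
theorem sqgkx_inLoc (hA : 𝔸.LiesOverPrime q) (hqM : ¬ q ∣ M) {ϖ : ↥(s18dVal 𝔸 E)}
    (hϖ : Irreducible ϖ) (Ξ G : (↥(ssvmmR 𝔸 E M q))[X])
    (h : SsvAmb (ssvmmR 𝔸 E M q) (ssvmgRUnif (ssvmm_le E M q) ϖ) (ssvmmY E M q) Ξ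
      (X - C (ssvmmJ 𝔸 E M q ^ q)) (X ^ q - C (ssvmmJ 𝔸 E M q)) G)
    (hqϖ : h.V₂.valuation ((q : ℕ) : modularFunctionFieldFullC E (M * q)) =
      h.V₂.valuation (algebraMap ↥(s18dVal 𝔸 E) (modularFunctionFieldFullC E (M * q)) ϖ))
    {t₁ : modularFunctionFieldFullC E (M * q)} (ht₁ : Transcendental ↥E t₁)
    [FiniteDimensional (↥E)⟮t₁⟯ (modularFunctionFieldFullC E (M * q))]
    {u₁ u₂ : modularFunctionFieldFullC E (M * q)} (h2 : SsvTwo hϖ t₁ u₁ u₂ h.V₁ h.V₂)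
    (𝔫₁ : Ideal ↥(s18tInt ↥(s18dVal 𝔸 E) t₁)) (h𝔫₁ : 𝔫₁.IsMaximal)
    (p π' : modularFunctionFieldFullC E M)
    (hpO : p ∈ s18vO ↥(s18dVal 𝔸 E) (modularFunctionFieldFullC E M))
    (hπ'O : π' ∈ s18vO ↥(s18dVal 𝔸 E) (modularFunctionFieldFullC E M))
    (hθ : sqvtTheta (ResidueField ↥(s18dVal 𝔸 E))
      (s18vcRed (modularFunctionFieldFullC E M) ⟨p, hpO⟩) ≠ 0)
    (hθ' : sqvtTheta (ResidueField ↥(s18dVal 𝔸 E))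
      (s18vcRed (modularFunctionFieldFullC E M) ⟨π', hπ'O⟩) ≠ 0)
    (hH : SqgkHor ↥E t₁ 𝔫₁ (sqgvGxy E M q p π'))
    (s₀ : ↥(s18tInt ↥(s18dVal 𝔸 E) t₁))
    (hs₀ : (s₀ : modularFunctionFieldFullC E (M * q)) ∈ h.V₂.nonunits) (hs₀𝔫 : s₀ ∉ 𝔫₁) :
    SsnfInLoc t₁ 𝔫₁ (sqgvGxy E M q p π') ∧ SsnfInLoc t₁ 𝔫₁ (sqgvGxy E M q p π')⁻¹ := by
  obtain ⟨hg₁, hg₂⟩ := sqgkx_val 𝔸 E M hA hqM hϖ Ξ G h hqϖ p π' hpO hπ'O hθ hθ'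
  exact ⟨sqgk_inLoc_of_only (L := ↥E) hϖ ht₁ h𝔫₁ h2 hg₁ hg₂ hH s₀ hs₀ hs₀𝔫,
    sqgk_inLoc_inv (L := ↥E) hϖ ht₁ h𝔫₁ h2 hg₁ hg₂ hH⟩

set_option maxHeartbeats 1600000 in
/-- **(K-x) in helper10's `(T1')`-shape** : at a closed point `𝔫₁` of the level `M q`,
`γ := g_{p,π'}⁻¹` has divisor `2 C₂` near `𝔫₁` : the `(K)`-block of `sqgci_node_of_regular`
together with `γ ∈ (P₁)_𝔫₁ ∩ 𝔪_{W₂}`.  (`hH` is the output of `sqgkx_sqgkHor`.) -/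
theorem sqgkx_cross (hA : 𝔸.LiesOverPrime q) (hqM : ¬ q ∣ M) {ϖ : ↥(s18dVal 𝔸 E)}
    (hϖ : Irreducible ϖ) (Ξ G : (↥(ssvmmR 𝔸 E M q))[X])
    (h : SsvAmb (ssvmmR 𝔸 E M q) (ssvmgRUnif (ssvmm_le E M q) ϖ) (ssvmmY E M q) Ξ
      (X - C (ssvmmJ 𝔸 E M q ^ q)) (X ^ q - C (ssvmmJ 𝔸 E M q)) G)
    (hqϖ : h.V₂.valuation ((q : ℕ) : modularFunctionFieldFullC E (M * q)) =
      h.V₂.valuation (algebraMap ↥(s18dVal 𝔸 E) (modularFunctionFieldFullC E (M * q)) ϖ))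
    {t₁ : modularFunctionFieldFullC E (M * q)} (ht₁ : Transcendental ↥E t₁)
    [FiniteDimensional (↥E)⟮t₁⟯ (modularFunctionFieldFullC E (M * q))]
    {u₁ u₂ : modularFunctionFieldFullC E (M * q)} (h2 : SsvTwo hϖ t₁ u₁ u₂ h.V₁ h.V₂)
    (𝔫₁ : Ideal ↥(s18tInt ↥(s18dVal 𝔸 E) t₁)) (h𝔫₁ : 𝔫₁.IsMaximal)
    (p π' : modularFunctionFieldFullC E M)
    (hpO : p ∈ s18vO ↥(s18dVal 𝔸 E) (modularFunctionFieldFullC E M))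
    (hπ'O : π' ∈ s18vO ↥(s18dVal 𝔸 E) (modularFunctionFieldFullC E M))
    (hθ : sqvtTheta (ResidueField ↥(s18dVal 𝔸 E))
      (s18vcRed (modularFunctionFieldFullC E M) ⟨p, hpO⟩) ≠ 0)
    (hθ' : sqvtTheta (ResidueField ↥(s18dVal 𝔸 E))
      (s18vcRed (modularFunctionFieldFullC E M) ⟨π', hπ'O⟩) ≠ 0)
    (hH : SqgkHor ↥E t₁ 𝔫₁ (sqgvGxy E M q p π')) :
    (sqgvGxy E M q p π')⁻¹ ≠ 0 ∧ (sqgvGxy E M q p π')⁻¹ ∈ h.V₁ ∧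
      ((sqgvGxy E M q p π')⁻¹)⁻¹ ∈ h.V₁ ∧
      (∃ ε : modularFunctionFieldFullC E (M * q), ε ∈ h.V₂ ∧ ε⁻¹ ∈ h.V₂ ∧
        (sqgvGxy E M q p π')⁻¹ =
          algebraMap ↥(s18dVal 𝔸 E) (modularFunctionFieldFullC E (M * q)) ϖ ^ 2 * ε) ∧
      SsnfInLoc t₁ 𝔫₁ (sqgvGxy E M q p π')⁻¹ ∧ (sqgvGxy E M q p π')⁻¹ ∈ h.V₂.nonunits ∧
      SqgkHor ↥E t₁ 𝔫₁ (sqgvGxy E M q p π')⁻¹ := by
  obtain ⟨hg₁, hg₂⟩ := sqgkx_val 𝔸 E M hA hqM hϖ Ξ G h hqϖ p π' hpO hπ'O hθ hθ'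
  exact sqgk_cross_abs (L := ↥E) hϖ ht₁ h𝔫₁ h2 hg₁ hg₂ hH

end Fermat.Agent.SQ
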