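import Mathlib

/-!
# Program Q (S36), risk R1 : Cartier via Hochschild, `ord` form (file CartierOrd; helper20's Cartier.lean is the canonical `sqc_main`)

Mathlib only.  `R` is a commutative ring, a *Leibniz map* is an additive map `D : R →+ R` with
`D (x * y) = D x * y + x * D y` (`SqgcLeib D`; this is the shape of `sqvtTheta_mul`).

* `sqgc_hochschild` : **Hochschild's formula** in characteristic `p` :
  `(a D)^p g = a^p · D^p g + ((a D)^(p-1) a) · D g`.
* `sqgc_deligne` : for a unit `f` with inverse `g` and a Leibniz map `θ` with `θ x = f`,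
  `∂ := g θ` (so `∂ x = 1`) : `θ^(p-1) f = - f · ∂^(p-1) (f^(p-1))`.
* `sqgc_cartier` : if moreover `θ^p x = θ x` then `∂^(p-1) (f^(p-1)) = -1`.
-/

set_option autoImplicit false

namespace Fermat.Agent.SQ

open Finset

section Conv

variable {R : Type*} [CommRing R]

/-- binomial convolution of sequences (product of divided-power series) -/
def sqgcConv (s t : ℕ → R) (n : ℕ) : R :=
  ∑ i ∈ range (n + 1), (n.choose i : R) * (s i * t (n - i))

theorem sqgcConv_succ (s t : ℕ → R) (n : ℕ) :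
    sqgcConv s t (n + 1) =
      sqgcConv s (fun j => t (j + 1)) n + sqgcConv (fun i => s (i + 1)) t n := by
  unfold sqgcConv
  rw [sum_choose_succ_mul (fun i j => s i * t j) n]
  congr 1
  refine sum_congr rfl fun i hi => ?_
  have hi' : i ≤ n := by simpa [Nat.lt_succ_iff] using hi
  rw [show n + 1 - i = n - i + 1 by omega]

theorem sqgcConv_add_right (s t t' : ℕ → R) (n : ℕ) :
    sqgcConv s (fun j => t j + t' j) n = sqgcConv s t n + sqgcConv s t' n := by
  unfold sqgcConv
  rw [← sum_add_distrib]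
  exact sum_congr rfl fun i _ => by ring

theorem sqgcConv_add_left (s s' t : ℕ → R) (n : ℕ) :
    sqgcConv (fun j => s j + s' j) t n = sqgcConv s t n + sqgcConv s' t n := by
  unfold sqgcConv
  rw [← sum_add_distrib]
  exact sum_congr rfl fun i _ => by ring

theorem sqgcConv_smul_right (c : R) (s t : ℕ → R) (n : ℕ) :
    sqgcConv s (fun j => c * t j) n = c * sqgcConv s t n := by
  unfold sqgcConv
  rw [mul_sum]
  exact sum_congr rfl fun i _ => by ring

theorem sqgcConv_smul_left (c : R) (s t : ℕ → R) (n : ℕ) :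
    sqgcConv (fun j => c * s j) t n = c * sqgcConv s t n := by
  unfold sqgcConv
  rw [mul_sum]
  exact sum_congr rfl fun i _ => by ring

/-- the unit sequence -/
def sqgcDelta : ℕ → R := fun n => if n = 0 then 1 else 0

theorem sqgcConv_delta_left (t : ℕ → R) (n : ℕ) : sqgcConv sqgcDelta t n = t n := by
  unfold sqgcConv
  rw [sum_eq_single 0]
  · simp [sqgcDelta]
  · intro i _ hi
    simp [sqgcDelta, hi]
  · intro h
    exact absurd (mem_range.mpr (Nat.succ_pos n)) h

end Conv

section Leib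

variable {R : Type*} [CommRing R]

/-- the Leibniz rule for an additive endomorphism -/
def SqgcLeib (D : R →+ R) : Prop := ∀ x y, D (x * y) = D x * y + x * D y

/-- `a D` -/
def sqgcMul (a : R) (D : R →+ R) : R →+ R := (AddMonoidHom.mulLeft a).comp D

@[simp]
theorem sqgcMul_apply (a : R) (D : R →+ R) (y : R) : sqgcMul a D y = a * D y := rfl

theorem SqgcLeib.smul {D : R →+ R} (hD : SqgcLeib D) (a : R) : SqgcLeib (sqgcMul a D) := by
  intro x y
  simp only [sqgcMul_apply, hD x y]
  ring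

theorem SqgcLeib.map_one {D : R →+ R} (hD : SqgcLeib D) : D 1 = 0 := by
  have h := hD 1 1
  simp only [mul_one, one_mul] at h
  exact left_eq_add.mp h

theorem SqgcLeib.map_natCast {D : R →+ R} (hD : SqgcLeib D) (n : ℕ) : D (n : R) = 0 := by
  have h : (n : R) = n • (1 : R) := by simp
  rw [h, map_nsmul, hD.map_one, smul_zero]

theorem SqgcLeib.map_natCast_mul {D : R →+ R} (hD : SqgcLeib D) (n : ℕ) (y : R) :
    D ((n : R) * y) = (n : R) * D y := by
  rw [hD, hD.map_natCast, zero_mul, zero_add]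

theorem SqgcLeib.map_pow {D : R →+ R} (hD : SqgcLeib D) (y : R) (n : ℕ) :
    D (y ^ (n + 1)) = ((n + 1 : ℕ) : R) * y ^ n * D y := by
  induction n with
  | zero => simp
  | succ n ih =>
    rw [pow_succ, hD, ih]
    push_cast
    ring

theorem SqgcLeib.map_pow_char {D : R →+ R} (hD : SqgcLeib D) (p : ℕ) [CharP R p] (hp : p ≠ 0)
    (y : R) : D (y ^ p) = 0 := by
  obtain ⟨n, rfl⟩ := Nat.exists_eq_succ_of_ne_zero hp
  rw [hD.map_pow, CharP.cast_eq_zero, zero_mul, zero_mul]

/-- a `D`-constant can be pulled out of iterates -/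
theorem SqgcLeib.iterate_const_mul {D : R →+ R} (hD : SqgcLeib D) {c : R} (hc : D c = 0)
    (n : ℕ) (y : R) : D^[n] (c * y) = c * D^[n] y := by
  induction n generalizing y with
  | zero => rfl
  | succ n ih =>
    rw [Function.iterate_succ_apply, Function.iterate_succ_apply, hD, hc, zero_mul, zero_add, ih]

theorem SqgcLeib.conv {D : R →+ R} (hD : SqgcLeib D) (s t : ℕ → R) (n : ℕ) :
    D (sqgcConv s t n) =
      sqgcConv (fun i => D (s i)) t n + sqgcConv s (fun j => D (t j)) n := by
  unfold sqgcConv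
  rw [map_sum, ← sum_add_distrib]
  refine sum_congr rfl fun i _ => ?_
  rw [hD.map_natCast_mul, hD]
  ring

end Leib

section Hochschild

variable {R : Type*} [CommRing R]

/-- `A_0 = 0`, `A_(m+1) = (a D)^m a` -/
def sqgcA (a : R) (D : R →+ R) : ℕ → R
  | 0 => 0
  | (m + 1) => (sqgcMul a D)^[m] a

/-- the `k`-th convolution power of `A` -/
def sqgcP (a : R) (D : R →+ R) : ℕ → ℕ → R
  | 0 => sqgcDelta
  | (k + 1) => sqgcConv (sqgcA a D) (sqgcP a D k)

/-- the coefficients of `(a D)^n = ∑ₖ c_(n,k) D^k` -/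
def sqgcC (a : R) (D : R →+ R) : ℕ → ℕ → R
  | 0, 0 => 1
  | 0, (_ + 1) => 0
  | (n + 1), 0 => a * D (sqgcC a D n 0)
  | (n + 1), (k + 1) => a * D (sqgcC a D n (k + 1)) + a * sqgcC a D n k

theorem sqgcC_eq_zero_of_lt (a : R) (D : R →+ R) {n k : ℕ} (h : n < k) : sqgcC a D n k = 0 := by
  induction n generalizing k with
  | zero =>
    obtain ⟨k, rfl⟩ := Nat.exists_eq_succ_of_ne_zero (Nat.pos_iff_ne_zero.mp h)
    rfl
  | succ n ih =>
    obtain ⟨k, rfl⟩ := Nat.exists_eq_succ_of_ne_zero (Nat.pos_iff_ne_zero.mp (by omega : 0 < k))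
    rw [sqgcC, ih (by omega), ih (by omega), map_zero, mul_zero, add_zero]

theorem sqgcC_self (a : R) (D : R →+ R) (n : ℕ) : sqgcC a D n n = a ^ n := by
  induction n with
  | zero => simp [sqgcC]
  | succ n ih =>
    rw [sqgcC, ih, sqgcC_eq_zero_of_lt a D (Nat.lt_succ_self n), map_zero, mul_zero, zero_add,
      pow_succ, mul_comm]

theorem sqgcC_zero_right {a : R} {D : R →+ R} (hD : SqgcLeib D) (n : ℕ) :
    sqgcC a D (n + 1) 0 = 0 := by
  induction n with
  | zero => rw [sqgcC, sqgcC, hD.map_one, mul_zero]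
  | succ n ih => rw [sqgcC, ih, map_zero, mul_zero]

/-- `(a D)^n g = ∑ₖ c_(n,k) D^k g` -/
theorem sqgc_iterate_eq_sum (a : R) {D : R →+ R} (hD : SqgcLeib D) (n : ℕ) (g : R) :
    (sqgcMul a D)^[n] g = ∑ k ∈ range (n + 1), sqgcC a D n k * D^[k] g := by
  induction n with
  | zero => simp [sqgcC]
  | succ n ih =>
    rw [Function.iterate_succ_apply', ih, sqgcMul_apply, map_sum, mul_sum]
    have h1 : ∀ k ∈ range (n + 1), a * D (sqgcC a D n k * D^[k] g) =
        a * D (sqgcC a D n k) * D^[k] g + a * sqgcC a D n k * D^[k + 1] g := by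
      intro k _
      rw [hD, Function.iterate_succ_apply']
      ring
    rw [sum_congr rfl h1, sum_add_distrib]
    rw [sum_range_succ' (fun k => sqgcC a D (n + 1) k * D^[k] g) (n + 1)]
    have h2 : ∀ k ∈ range (n + 1), sqgcC a D (n + 1) (k + 1) * D^[k + 1] g =
        a * D (sqgcC a D n (k + 1)) * D^[k + 1] g + a * sqgcC a D n k * D^[k + 1] g := by
      intro k _
      rw [sqgcC]
      ring
    rw [sum_congr rfl h2, sum_add_distrib]
    rw [sum_range_succ' (fun k => a * D (sqgcC a D n k) * D^[k] g) n]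
    rw [sum_range_succ (fun k => a * D (sqgcC a D n (k + 1)) * D^[k + 1] g) n]
    rw [sqgcC_eq_zero_of_lt a D (Nat.lt_succ_self n), map_zero, mul_zero, zero_mul, add_zero]
    rw [sqgcC]
    ring

theorem sqgcA_succ (a : R) (D : R →+ R) (i : ℕ) :
    sqgcA a D (i + 1) = sqgcMul a D (sqgcA a D i) + a * sqgcDelta i := by
  cases i with
  | zero => simp [sqgcA, sqgcDelta]
  | succ m =>
    simp only [sqgcA, sqgcDelta, Function.iterate_succ_apply', sqgcMul_apply]
    simp

theorem sqgcP_succ_zero (a : R) (D : R →+ R) (k : ℕ) : sqgcP a D (k + 1) 0 = 0 := by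
  simp [sqgcP, sqgcConv, sqgcA]

/-- the shift rule for the convolution powers -/
theorem sqgcP_succ_right (a : R) {D : R →+ R} (hD : SqgcLeib D) (k n : ℕ) :
    sqgcP a D k (n + 1) =
      sqgcMul a D (sqgcP a D k n) + (k : R) * a * sqgcP a D (k - 1) n := by
  have hu := hD.smul a
  induction k generalizing n with
  | zero =>
    have h1 : sqgcP a D 0 (n + 1) = 0 := by simp [sqgcP, sqgcDelta]
    have h2 : sqgcMul a D (sqgcP a D 0 n) = 0 := by
      by_cases h : n = 0
      · simp only [sqgcP, sqgcDelta, h, if_true]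
        exact hu.map_one
      · simp only [sqgcP, sqgcDelta, h, if_false]
        exact map_zero _
    rw [h1, h2, Nat.cast_zero, zero_mul, zero_mul, add_zero]
  | succ k ih =>
    have e1 : (fun j => sqgcP a D k (j + 1)) = fun j =>
        sqgcMul a D (sqgcP a D k j) + (k : R) * a * sqgcP a D (k - 1) j := funext fun j => ih j
    have e2 : (fun i => sqgcA a D (i + 1)) = fun i =>
        sqgcMul a D (sqgcA a D i) + a * sqgcDelta i := funext fun i => sqgcA_succ a D i
    have e3 : (k : R) * a * sqgcConv (sqgcA a D) (sqgcP a D (k - 1)) n =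
        (k : R) * a * sqgcP a D k n := by
      cases k with
      | zero => simp
      | succ k => rfl
    rw [show sqgcP a D (k + 1) = sqgcConv (sqgcA a D) (sqgcP a D k) from rfl, sqgcConv_succ, e1, e2,
      sqgcConv_add_right, sqgcConv_add_left, sqgcConv_smul_right, sqgcConv_smul_left,
      sqgcConv_delta_left, e3, hu.conv, Nat.add_sub_cancel]
    push_cast
    ring

/-- `k! · c_(n,k)` is the `k`-th convolution power of `A` -/
theorem sqgc_factorial_mul_C (a : R) {D : R →+ R} (hD : SqgcLeib D) (n k : ℕ) :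
    (k.factorial : R) * sqgcC a D n k = sqgcP a D k n := by
  have hu := hD.smul a
  induction n generalizing k with
  | zero =>
    cases k with
    | zero => simp [sqgcC, sqgcP, sqgcDelta]
    | succ k => rw [sqgcP_succ_zero, sqgcC, mul_zero]
  | succ n ih =>
    rw [sqgcP_succ_right a hD]
    cases k with
    | zero =>
      have h0 := ih 0
      rw [Nat.factorial_zero, Nat.cast_one, one_mul] at h0
      rw [sqgcC, Nat.factorial_zero, Nat.cast_one, one_mul, Nat.cast_zero, zero_mul, zero_mul,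
        add_zero, ← h0, sqgcMul_apply]
    | succ k =>
      rw [Nat.add_sub_cancel, ← ih (k + 1), ← ih k, hu.map_natCast_mul, sqgcMul_apply, sqgcC,
        Nat.factorial_succ]
      push_cast
      ring

end Hochschild

section CharP

variable {R : Type*} [CommRing R] (p : ℕ) [hp : Fact p.Prime] [CharP R p]

theorem sqgc_choose_eq_zero {i : ℕ} (h0 : i ≠ 0) (hi : i < p) : ((p.choose i : ℕ) : R) = 0 :=
  (CharP.cast_eq_zero_iff R p _).mpr (hp.out.dvd_choose_self h0 hi)

/-- in characteristic `p` only the two end terms of the `p`-th convolution coefficient survive -/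
theorem sqgcConv_char (s t : ℕ → R) : sqgcConv s t p = s 0 * t p + s p * t 0 := by
  unfold sqgcConv
  rw [Finset.sum_eq_add (0 : ℕ) p hp.out.ne_zero.symm]
  · simp
  · intro i hi hne
    have hi' : i < p := by
      have := mem_range.mp hi
      omega
    rw [sqgc_choose_eq_zero p hne.1 hi', zero_mul]
  · intro h
    exact absurd (mem_range.mpr (Nat.succ_pos p)) h
  · intro h
    exact absurd (mem_range.mpr (Nat.lt_succ_self p)) h

theorem sqgc_isUnit_factorial {k : ℕ} (hk : k < p) : IsUnit ((k.factorial : ℕ) : R) := by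
  let _ := ZMod.algebra R p
  have h : IsUnit ((k.factorial : ℕ) : ZMod p) := by
    rw [isUnit_iff_ne_zero, Ne, ZMod.natCast_eq_zero_iff]
    intro hdvd
    exact absurd ((Nat.Prime.dvd_factorial hp.out).mp hdvd) (not_le.mpr hk)
  have h2 := h.map (algebraMap (ZMod p) R)
  rwa [map_natCast] at h2

theorem sqgcP_char (a : R) (D : R →+ R) (k : ℕ) : sqgcP a D (k + 2) p = 0 := by
  rw [show sqgcP a D (k + 2) = sqgcConv (sqgcA a D) (sqgcP a D (k + 1)) from rfl, sqgcConv_char,
    sqgcP_succ_zero, mul_zero, add_zero, show sqgcA a D 0 = 0 from rfl, zero_mul]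

theorem sqgcP_one_char (a : R) (D : R →+ R) : sqgcP a D 1 p = (sqgcMul a D)^[p - 1] a := by
  rw [show sqgcP a D 1 = sqgcConv (sqgcA a D) sqgcDelta from rfl, sqgcConv_char]
  obtain ⟨m, hm⟩ := Nat.exists_eq_succ_of_ne_zero hp.out.ne_zero
  rw [hm]
  simp [sqgcA, sqgcDelta]

/-- **Hochschild's formula** : `(a D)^p = a^p D^p + ((a D)^(p-1) a) D` in characteristic `p` -/
theorem sqgc_hochschild (a : R) {D : R →+ R} (hD : SqgcLeib D) (g : R) :
    (sqgcMul a D)^[p] g = a ^ p * D^[p] g + (sqgcMul a D)^[p - 1] a * D g := by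
  have hp2 : 2 ≤ p := hp.out.two_le
  rw [sqgc_iterate_eq_sum a hD p g, Finset.sum_eq_add (1 : ℕ) p (by omega)]
  · have h1 := sqgc_factorial_mul_C a hD p 1
    rw [Nat.factorial_one, Nat.cast_one, one_mul, sqgcP_one_char] at h1
    rw [h1, sqgcC_self, Function.iterate_one, add_comm]
  · intro k hk hne
    have hk' : k < p := by
      have := mem_range.mp hk
      omega
    rcases k with _ | _ | k
    · obtain ⟨m, hm⟩ := Nat.exists_eq_succ_of_ne_zero hp.out.ne_zero
      rw [hm, sqgcC_zero_right hD, zero_mul]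
    · exact absurd rfl hne.1
    · have h1 := sqgc_factorial_mul_C a hD p (k + 2)
      rw [sqgcP_char] at h1
      rw [(sqgc_isUnit_factorial (R := R) p hk').mul_right_eq_zero.mp h1, zero_mul]
  · intro h
    exact absurd (mem_range.mpr (by omega)) h
  · intro h
    exact absurd (mem_range.mpr (Nat.lt_succ_self p)) h

/-- **Deligne's identity** (unit form) : `θ x = f`, `g f = 1`, `∂ := g θ` (so `∂ x = 1`).  Then
`θ^(p-1) f = - f · ∂^(p-1) (f^(p-1))`. -/
theorem sqgc_deligne {θ : R →+ R} (hθ : SqgcLeib θ) (x f g : R) (hx : θ x = f) (hfg : g * f = 1) :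
    θ^[p - 1] f = -(f * (sqgcMul g θ)^[p - 1] (f ^ (p - 1))) := by
  have hp2 : 2 ≤ p := hp.out.two_le
  have hd := hθ.smul g
  have hH := sqgc_hochschild p g hθ x
  have hdx : sqgcMul g θ x = 1 := by rw [sqgcMul_apply, hx, hfg]
  -- `∂^p x = 0`
  have h0 : (sqgcMul g θ)^[p] x = 0 := by
    obtain ⟨m, hm⟩ : ∃ m, p = m + 2 := ⟨p - 2, by omega⟩
    rw [hm, Function.iterate_succ_apply, hdx, Function.iterate_succ_apply, hd.map_one,
      iterate_map_zero]
  -- `θ^p x = θ^(p-1) f`
  have h1 : θ^[p] x = θ^[p - 1] f := by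
    obtain ⟨m, hm⟩ : ∃ m, p = m + 1 := ⟨p - 1, by omega⟩
    rw [hm, Function.iterate_succ_apply, hx, Nat.add_sub_cancel]
  rw [h0, h1, hx] at hH
  -- `∂^(p-1) (f^(p-1)) = f^p ∂^(p-1) g`
  have hc : sqgcMul g θ (f ^ p) = 0 := hd.map_pow_char p hp.out.ne_zero f
  have h2 : (sqgcMul g θ)^[p - 1] (f ^ (p - 1)) = f ^ p * (sqgcMul g θ)^[p - 1] g := by
    rw [← hd.iterate_const_mul hc]
    congr 1
    obtain ⟨m, hm⟩ : ∃ m, p = m + 1 := ⟨p - 1, by omega⟩
    rw [hm, Nat.add_sub_cancel, pow_succ, mul_assoc, mul_comm f g, hfg, mul_one]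
  rw [h2]
  -- multiply `hH` by `f^p`
  have h3 : f ^ p * g ^ p = 1 := by rw [← mul_pow, mul_comm, hfg, one_pow]
  have h4 : θ^[p - 1] f = (f ^ p * g ^ p) * θ^[p - 1] f := by rw [h3, one_mul]
  rw [h4]
  linear_combination (-(f ^ p)) * hH

/-- **Cartier** : if moreover `θ^p x = θ x` then `∂^(p-1) ((θ x)^(p-1)) = -1`. -/
theorem sqgc_cartier {θ : R →+ R} (hθ : SqgcLeib θ) (x g : R) (hfg : g * θ x = 1)
    (hx : θ^[p] x = θ x) : (sqgcMul g θ)^[p - 1] (θ x ^ (p - 1)) = -1 := by
  have hp2 : 2 ≤ p := hp.out.two_le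
  have h := sqgc_deligne p hθ x (θ x) g rfl hfg
  have h1 : θ^[p - 1] (θ x) = θ x := by
    obtain ⟨m, hm⟩ : ∃ m, p = m + 1 := ⟨p - 1, by omega⟩
    rw [hm, Function.iterate_succ_apply] at hx
    rw [hm, Nat.add_sub_cancel]
    exact hx
  rw [h1] at h
  have h2 : g * θ x = g * -(θ x * (sqgcMul g θ)^[p - 1] (θ x ^ (p - 1))) := congrArg (g * ·) h
  rw [mul_neg, ← mul_assoc, hfg, one_mul] at h2
  rw [h2, neg_neg]

end CharP

/-! ### Valuations : `∂^(p-1) H = -1` bounds `ord H` -/

section Ord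

variable {K : Type*} [Field K]

/-- the `ord`-function of a discrete valuation, in the (junk-value agnostic) shape of the Prelude's
`Place.ord` : `ord_mul` for nonzero arguments, `min_le_ord_add` for a nonzero sum -/
structure SqgcOrd (ν : K → ℤ) : Prop where
  map_mul : ∀ a b : K, a ≠ 0 → b ≠ 0 → ν (a * b) = ν a + ν b
  map_add : ∀ a b : K, a + b ≠ 0 → min (ν a) (ν b) ≤ ν (a + b)

namespace SqgcOrd

variable {ν : K → ℤ} (h : SqgcOrd ν)
include h

theorem map_one : ν 1 = 0 := by
  have h1 := h.map_mul 1 1 one_ne_zero one_ne_zero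
  rw [mul_one] at h1
  omega

theorem map_neg_one : ν (-1) = 0 := by
  have h1 := h.map_mul (-1) (-1) (neg_ne_zero.mpr one_ne_zero) (neg_ne_zero.mpr one_ne_zero)
  rw [neg_mul_neg, mul_one, h.map_one] at h1
  omega

theorem map_neg (a : K) : ν (-a) = ν a := by
  rcases eq_or_ne a 0 with rfl | ha
  · rw [neg_zero]
  · rw [← neg_one_mul, h.map_mul _ _ (neg_ne_zero.mpr one_ne_zero) ha, h.map_neg_one, zero_add]

theorem map_pow {a : K} (ha : a ≠ 0) (n : ℕ) : ν (a ^ n) = n * ν a := by
  induction n with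
  | zero => simp [h.map_one]
  | succ n ih =>
    rw [pow_succ, h.map_mul _ _ (pow_ne_zero n ha) ha, ih]
    push_cast
    ring

/-- nonzero elements of the prime field have `ord = 0` -/
theorem map_natCast (p : ℕ) [hp : Fact p.Prime] [CharP K p] {n : ℕ} (hn : (n : K) ≠ 0) :
    ν (n : K) = 0 := by
  let _ := ZMod.algebra K p
  have h0 : (n : ZMod p) ≠ 0 := by
    intro h0
    apply hn
    have := congrArg (algebraMap (ZMod p) K) h0
    rwa [_root_.map_natCast, _root_.map_zero] at this
  have h1 : (n : K) ^ (p - 1) = 1 := by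
    have := congrArg (algebraMap (ZMod p) K) (ZMod.pow_card_sub_one_eq_one h0)
    rwa [_root_.map_pow, _root_.map_natCast, _root_.map_one] at this
  have h2 := h.map_pow hn (p - 1)
  rw [h1, h.map_one] at h2
  have hp1 : ((p - 1 : ℕ) : ℤ) ≠ 0 := by
    have := hp.out.two_le
    omega
  rcases mul_eq_zero.mp h2.symm with h3 | h3
  · exact absurd h3 hp1
  · exact h3

/-- if all nonzero terms have `ord > m`, so has the sum (if it is nonzero) -/
theorem sum_gt {ι : Type*} (s : Finset ι) (T : ι → K) (m : ℤ)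
    (hT : ∀ i ∈ s, T i ≠ 0 → m < ν (T i)) (hs : ∑ i ∈ s, T i ≠ 0) : m < ν (∑ i ∈ s, T i) := by
  classical
  induction s using Finset.induction_on with
  | empty => simp at hs
  | insert a s ha ih =>
    rw [Finset.sum_insert ha] at hs ⊢
    by_cases h1 : T a = 0
    · rw [h1, zero_add] at hs ⊢
      exact ih (fun i hi => hT i (mem_insert_of_mem hi)) hs
    by_cases h2 : ∑ i ∈ s, T i = 0
    · rw [h2, add_zero]
      exact hT a (mem_insert_self a s) h1
    have e1 := h.map_add _ _ hs
    have e2 := hT a (mem_insert_self a s) h1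
    have e3 := ih (fun i hi => hT i (mem_insert_of_mem hi)) h2
    exact lt_of_lt_of_le (lt_min e2 e3) e1

/-- a strictly dominant term decides the `ord` of a sum -/
theorem add_eq_of_lt {a b : K} (ha : a ≠ 0) (hb : b ≠ 0 → ν a < ν b) :
    a + b ≠ 0 ∧ ν (a + b) = ν a := by
  rcases eq_or_ne b 0 with rfl | hb0
  · rw [add_zero]
    exact ⟨ha, rfl⟩
  have hlt := hb hb0
  have hne : a + b ≠ 0 := by
    intro h0
    have : a = -b := eq_neg_of_add_eq_zero_left h0
    rw [this, h.map_neg] at hlt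
    exact lt_irrefl _ hlt
  refine ⟨hne, le_antisymm ?_ ?_⟩
  · by_contra hcon
    push Not at hcon
    have e1 := h.map_add (a + b) (-b) (by rwa [add_neg_cancel_right])
    rw [add_neg_cancel_right, h.map_neg] at e1
    exact absurd (lt_of_lt_of_le (lt_min hcon hlt) e1) (lt_irrefl _)
  · have e1 := h.map_add a b hne
    rwa [min_eq_left hlt.le] at e1

theorem sum_eq {ι : Type*} [DecidableEq ι] (s : Finset ι) (T : ι → K) {i₀ : ι} (hi₀ : i₀ ∈ s)
    (h0 : T i₀ ≠ 0) (hmin : ∀ j ∈ s, j ≠ i₀ → T j ≠ 0 → ν (T i₀) < ν (T j)) :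
    ∑ i ∈ s, T i ≠ 0 ∧ ν (∑ i ∈ s, T i) = ν (T i₀) := by
  rw [← Finset.add_sum_erase s T hi₀]
  apply h.add_eq_of_lt h0
  intro hne
  exact h.sum_gt _ T _ (fun j hj hTj => hmin j (Finset.mem_of_mem_erase hj)
    (Finset.ne_of_mem_erase hj) hTj) hne

end SqgcOrd

variable (p : ℕ) [hp : Fact p.Prime] [CharP K p]

/-- **`d/dx` lowers `ord` by at most one, and by exactly one if `p ∤ ord`.**  `ν` is an
`ord`-function with `ν x = 1`, `K = ⊕_(i<p) K^p x^i` (`hspan`), `∂` a Leibniz map with `∂ x = 1`. -/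
theorem sqgc_ord_deriv {ν : K → ℤ} (h : SqgcOrd ν) {x : K} (hνx : ν x = 1)
    (hspan : ∀ y : K, ∃ a : ℕ → K, y = ∑ i ∈ range p, a i ^ p * x ^ i)
    {d : K →+ K} (hd : SqgcLeib d) (hdx : d x = 1) {y : K} (hy : y ≠ 0) :
    (d y ≠ 0 → ν y - 1 ≤ ν (d y)) ∧ (¬ (p : ℤ) ∣ ν y → d y ≠ 0 ∧ ν (d y) = ν y - 1) := by
  classical
  have hp2 : 2 ≤ p := hp.out.two_le
  have hx0 : x ≠ 0 := by
    rintro rfl
    rw [map_zero] at hdx
    exact zero_ne_one hdx
  obtain ⟨a, ha⟩ := hspan y
  -- the terms of `y` and of `d y`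
  set T : ℕ → K := fun i => a i ^ p * x ^ i with hT
  set S : ℕ → K := fun i => a i ^ p * ((i : K) * x ^ (i - 1)) with hS
  have hdT : ∀ i, d (T i) = S i := by
    intro i
    simp only [hT, hS]
    rw [hd, hd.map_pow_char p hp.out.ne_zero, zero_mul, zero_add]
    congr 1
    cases i with
    | zero => simp [hd.map_one]
    | succ i => rw [hd.map_pow, hdx, mul_one, Nat.add_sub_cancel]
  have hdy : d y = ∑ i ∈ range p, S i := by
    rw [ha, map_sum]
    exact Finset.sum_congr rfl fun i _ => hdT i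
  have hνT : ∀ i, a i ≠ 0 → ν (T i) = p * ν (a i) + i := by
    intro i hai
    simp only [hT]
    rw [h.map_mul _ _ (pow_ne_zero p hai) (pow_ne_zero i hx0), h.map_pow hai, h.map_pow hx0, hνx,
      mul_one]
  have hcast : ∀ i, i ≠ 0 → i < p → ((i : ℕ) : K) ≠ 0 := by
    intro i hi0 hip hc
    have := (CharP.cast_eq_zero_iff K p i).mp hc
    exact absurd (Nat.le_of_dvd (Nat.pos_of_ne_zero hi0) this) (not_le.mpr hip)
  have hνS : ∀ i, a i ≠ 0 → i ≠ 0 → i < p → S i ≠ 0 ∧ ν (S i) = ν (T i) - 1 := by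
    intro i hai hi0 hip
    have h1 := hcast i hi0 hip
    refine ⟨mul_ne_zero (pow_ne_zero p hai) (mul_ne_zero h1 (pow_ne_zero _ hx0)), ?_⟩
    rw [hνT i hai]
    simp only [hS]
    rw [h.map_mul _ _ (pow_ne_zero p hai) (mul_ne_zero h1 (pow_ne_zero _ hx0)),
      h.map_mul _ _ h1 (pow_ne_zero _ hx0), h.map_pow hai, h.map_pow hx0, hνx,
      h.map_natCast p h1]
    have : ((i - 1 : ℕ) : ℤ) = (i : ℤ) - 1 := by omega
    rw [this]
    ring
  have hS0 : ∀ i, a i = 0 ∨ i = 0 → S i = 0 := by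
    intro i hi
    simp only [hS]
    rcases hi with hi | hi
    · rw [hi, zero_pow hp.out.ne_zero, zero_mul]
    · rw [hi, Nat.cast_zero, zero_mul, mul_zero]
  -- the index of the dominant term of `y`
  have hne : ((range p).filter fun i => a i ≠ 0).Nonempty := by
    by_contra hcon
    rw [Finset.not_nonempty_iff_eq_empty, Finset.filter_eq_empty_iff] at hcon
    apply hy
    rw [ha]
    refine Finset.sum_eq_zero fun i hi => ?_
    have : a i = 0 := by
      by_contra h1
      exact hcon hi h1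
    rw [this, zero_pow hp.out.ne_zero, zero_mul]
  obtain ⟨i₀, hi₀, hmin⟩ := Finset.exists_min_image _ (fun i => ν (T i)) hne
  rw [Finset.mem_filter, Finset.mem_range] at hi₀
  have hstrict : ∀ j ∈ range p, j ≠ i₀ → a j ≠ 0 → ν (T i₀) < ν (T j) := by
    intro j hj hne' haj
    have hle := hmin j (Finset.mem_filter.mpr ⟨hj, haj⟩)
    refine lt_of_le_of_ne hle ?_
    rw [hνT _ hi₀.2, hνT _ haj]
    intro heq
    have hj' := Finset.mem_range.mp hj
    have : ((p : ℤ)) ∣ (j : ℤ) - i₀ := ⟨ν (a i₀) - ν (a j), by linear_combination (-1 : ℤ) * heq⟩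
    have h2 : (j : ℤ) - i₀ = 0 := by
      apply Int.eq_zero_of_abs_lt_dvd this
      rw [abs_lt]
      constructor <;> omega
    apply hne'
    omega
  have hTne : ∀ j, T j ≠ 0 → a j ≠ 0 := by
    intro j hTj haj
    apply hTj
    simp only [hT]
    rw [haj, zero_pow hp.out.ne_zero, zero_mul]
  have hTi₀ : T i₀ ≠ 0 := mul_ne_zero (pow_ne_zero p hi₀.2) (pow_ne_zero _ hx0)
  have hνy : ν y = ν (T i₀) := by
    rw [ha]
    exact (h.sum_eq (range p) T (Finset.mem_range.mpr hi₀.1) hTi₀
      fun j hj hne' hTj => hstrict j hj hne' (hTne j hTj)).2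
  constructor
  · intro hdy0
    rw [hdy] at hdy0 ⊢
    have := h.sum_gt (range p) S (ν y - 2) (fun i hi hSi => by
      have hai : a i ≠ 0 := fun h1 => hSi (hS0 i (Or.inl h1))
      have hi0 : i ≠ 0 := fun h1 => hSi (hS0 i (Or.inr h1))
      rw [(hνS i hai hi0 (Finset.mem_range.mp hi)).2, hνy]
      have := hmin i (Finset.mem_filter.mpr ⟨hi, hai⟩)
      omega) hdy0
    omega
  · intro hndvd
    have hi₀0 : i₀ ≠ 0 := by
      rintro h1
      apply hndvd
      rw [hνy, hνT _ hi₀.2, h1]
      exact ⟨ν (a 0), by simp⟩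
    have hSi₀ := hνS i₀ hi₀.2 hi₀0 hi₀.1
    have := h.sum_eq (range p) S (Finset.mem_range.mpr hi₀.1) hSi₀.1 (fun j hj hne' hSj => by
      have haj : a j ≠ 0 := fun h1 => hSj (hS0 j (Or.inl h1))
      have hj0 : j ≠ 0 := fun h1 => hSj (hS0 j (Or.inr h1))
      rw [hSi₀.2, (hνS j haj hj0 (Finset.mem_range.mp hj)).2]
      have := hstrict j hj hne' haj
      omega)
    rw [hdy, this.2, hSi₀.2, hνy]
    exact ⟨this.1, rfl⟩

/-- **`∂^(p-1) H = -1` ⟹ `ord H ≤ p - 1`, and `ord H ≡ -1 (p)` only if `ord H = p - 1`** -/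
theorem sqgc_ord_of_iterate {ν : K → ℤ} (h : SqgcOrd ν) {x : K} (hνx : ν x = 1)
    (hspan : ∀ y : K, ∃ a : ℕ → K, y = ∑ i ∈ range p, a i ^ p * x ^ i)
    {d : K →+ K} (hd : SqgcLeib d) (hdx : d x = 1) {H : K} (hH : d^[p - 1] H = -1) :
    ν H ≤ p - 1 ∧ ((p : ℤ) ∣ ν H + 1 → ν H = p - 1) := by
  have hp2 : 2 ≤ p := hp.out.two_le
  -- all iterates are nonzero
  have hne : ∀ k, k ≤ p - 1 → d^[k] H ≠ 0 := by
    intro k hk h0
    have : d^[p - 1] H = 0 := by
      rw [show p - 1 = (p - 1 - k) + k by omega, Function.iterate_add_apply, h0, iterate_map_zero]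
    rw [hH] at this
    exact neg_ne_zero.mpr one_ne_zero this
  have hstep : ∀ k, k + 1 ≤ p - 1 → ν (d^[k] H) - 1 ≤ ν (d^[k + 1] H) := by
    intro k hk
    have := (sqgc_ord_deriv p h hνx hspan hd hdx (hne k (by omega))).1
    rw [Function.iterate_succ_apply']
    apply this
    rw [← Function.iterate_succ_apply' d k H]
    exact hne (k + 1) hk
  have hlow : ∀ k, k ≤ p - 1 → ν H - k ≤ ν (d^[k] H) := by
    intro k
    induction k with
    | zero => intro _; simp
    | succ k ih =>
      intro hk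
      have := ih (by omega)
      have := hstep k hk
      push_cast
      omega
  have hend : ν (d^[p - 1] H) = 0 := by rw [hH, h.map_neg_one]
  constructor
  · have := hlow (p - 1) le_rfl
    rw [hend] at this
    have : ((p - 1 : ℕ) : ℤ) = (p : ℤ) - 1 := by omega
    omega
  · intro hdvd
    have hex : ∀ k, k ≤ p - 1 → ν (d^[k] H) = ν H - k := by
      intro k
      induction k with
      | zero => intro _; simp
      | succ k ih =>
        intro hk
        have e := ih (by omega)
        have hnd : ¬ (p : ℤ) ∣ ν (d^[k] H) := by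
          rw [e]
          intro hd2
          have h3 : (p : ℤ) ∣ (k : ℤ) + 1 := by
            have := dvd_sub hdvd hd2
            rwa [show ν H + 1 - (ν H - k) = (k : ℤ) + 1 by ring] at this
          have := Int.le_of_dvd (by omega) h3
          omega
        have := (sqgc_ord_deriv p h hνx hspan hd hdx (hne k (by omega))).2 hnd
        rw [Function.iterate_succ_apply', this.2, e]
        push_cast
        ring
    have := hex (p - 1) le_rfl
    rw [hend] at this
    have : ((p - 1 : ℕ) : ℤ) = (p : ℤ) - 1 := by omega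
    omega

/-- **Consumer form (helper1's (b))** : `K` a field of characteristic `p` with an `ord`-function
`ν`, `ν x = 1`, `K = ⊕_(i<p) K^p x^i`; `θ` a Leibniz map with `θ^p x = θ x`, `θ x ≠ 0`.  Then
`H := (θ x)^(p-1)` has `ord H ≤ p - 1`, and `ord H ≡ -1 (p)` only for `ord H = p - 1`;
in particular `ord H ≠ -1`. -/
theorem sqgc_ord_hasse {ν : K → ℤ} (h : SqgcOrd ν) {x : K} (hνx : ν x = 1)
    (hspan : ∀ y : K, ∃ a : ℕ → K, y = ∑ i ∈ range p, a i ^ p * x ^ i)
    {θ : K →+ K} (hθ : SqgcLeib θ) (hx : θ^[p] x = θ x) (hθx : θ x ≠ 0) :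
    ν (θ x ^ (p - 1)) ≤ p - 1 ∧ ((p : ℤ) ∣ ν (θ x ^ (p - 1)) + 1 → ν (θ x ^ (p - 1)) = p - 1) ∧
      ν (θ x ^ (p - 1)) ≠ -1 := by
  have hp2 : 2 ≤ p := hp.out.two_le
  have hfg : (θ x)⁻¹ * θ x = 1 := inv_mul_cancel₀ hθx
  have hc := sqgc_cartier p hθ x (θ x)⁻¹ hfg hx
  have hd := hθ.smul (θ x)⁻¹
  have hdx : sqgcMul (θ x)⁻¹ θ x = 1 := by rw [sqgcMul_apply, hfg]
  have := sqgc_ord_of_iterate p h hνx hspan hd hdx hc
  refine ⟨this.1, this.2, ?_⟩
  intro h1
  have h2 := this.2 (by rw [h1]; simp)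
  rw [h1] at h2
  omega

/-- **Consumer form with an embedding** (the way it is used : `K = κ₀` a function field in
characteristic `p`, `ι : κ₀ → k((𝐪))` the `𝐪`-expansion, `θ = 𝐪 d/d𝐪` on `R = k((𝐪))`, which does
NOT preserve `κ₀`; only `H_x = (θ x)^(p-1)` lies in `κ₀`).  `hspan` makes `(θ x)⁻¹ θ` preserve
`ι K`. -/
theorem sqgc_ord_hasse_emb {R : Type*} [Field R] [CharP R p] (ι : K →+* R) {ν : K → ℤ}
    (h : SqgcOrd ν) {x : K} (hνx : ν x = 1)
    (hspan : ∀ y : K, ∃ a : ℕ → K, y = ∑ i ∈ range p, a i ^ p * x ^ i)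
    {θ : R →+ R} (hθ : SqgcLeib θ) (hx : θ^[p] (ι x) = θ (ι x)) (hθx : θ (ι x) ≠ 0)
    {H : K} (hH : ι H = θ (ι x) ^ (p - 1)) :
    ν H ≤ p - 1 ∧ ((p : ℤ) ∣ ν H + 1 → ν H = p - 1) ∧ ν H ≠ -1 := by
  classical
  have hp2 : 2 ≤ p := hp.out.two_le
  have hfg : (θ (ι x))⁻¹ * θ (ι x) = 1 := inv_mul_cancel₀ hθx
  have hc := sqgc_cartier p hθ (ι x) (θ (ι x))⁻¹ hfg hx
  have hD := hθ.smul (θ (ι x))⁻¹
  have hDx : sqgcMul (θ (ι x))⁻¹ θ (ι x) = 1 := by rw [sqgcMul_apply, hfg]
  set D := sqgcMul (θ (ι x))⁻¹ θ with hDdef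
  -- `D` preserves `ι K`
  have hpres : ∀ y : K, ∃ z : K, ι z = D (ι y) := by
    intro y
    obtain ⟨a, ha⟩ := hspan y
    refine ⟨∑ i ∈ range p, a i ^ p * ((i : K) * x ^ (i - 1)), ?_⟩
    rw [ha, map_sum, map_sum, map_sum]
    refine Finset.sum_congr rfl fun i _ => ?_
    rw [map_mul, map_mul, map_mul, map_pow, map_pow, map_pow, map_natCast, hD,
      hD.map_pow_char p hp.out.ne_zero, zero_mul, zero_add]
    congr 1
    cases i with
    | zero => simp [hD.map_one]
    | succ i => rw [hD.map_pow, hDx, mul_one, Nat.add_sub_cancel]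
  have hinj : Function.Injective ι := ι.injective
  let d : K →+ K :=
    { toFun := fun y => Classical.choose (hpres y)
      map_zero' := hinj (by
        have e1 := Classical.choose_spec (hpres 0)
        calc ι (Classical.choose (hpres 0)) = D (ι 0) := e1
          _ = ι 0 := by rw [map_zero, map_zero])
      map_add' := fun y z => hinj (by
        have e1 := Classical.choose_spec (hpres (y + z))
        have e2 := Classical.choose_spec (hpres y)
        have e3 := Classical.choose_spec (hpres z)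
        calc ι (Classical.choose (hpres (y + z))) = D (ι (y + z)) := e1
          _ = D (ι y) + D (ι z) := by rw [map_add, map_add]
          _ = ι (Classical.choose (hpres y)) + ι (Classical.choose (hpres z)) :=
            congrArg₂ (· + ·) e2.symm e3.symm
          _ = ι (Classical.choose (hpres y) + Classical.choose (hpres z)) :=
            (map_add ι _ _).symm) }
  have hd_spec : ∀ y, ι (d y) = D (ι y) := fun y => Classical.choose_spec (hpres y)
  have hd : SqgcLeib d := by
    intro y z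
    apply hinj
    rw [hd_spec, map_mul, hD, map_add, map_mul, map_mul, hd_spec, hd_spec]
  have hdx : d x = 1 := by
    apply hinj
    rw [hd_spec, hDx, map_one]
  have hiter : ∀ n y, ι (d^[n] y) = D^[n] (ι y) := by
    intro n
    induction n with
    | zero => intro y; rfl
    | succ n ih =>
      intro y
      rw [Function.iterate_succ_apply, Function.iterate_succ_apply, ih, hd_spec]
  have hdH : d^[p - 1] H = -1 := by
    apply hinj
    rw [hiter, hH, hc, map_neg, map_one]
  have := sqgc_ord_of_iterate p h hνx hspan hd hdx hdH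
  refine ⟨this.1, this.2, ?_⟩
  intro h1
  have h2 := this.2 (by rw [h1]; simp)
  rw [h1] at h2
  omega

end Ord

/-! ### The producer of `hspan` : `[K : K^p] = p` for function fields of one variable -/

open Polynomial IntermediateField

section Span

variable {K : Type*} [Field K] (p : ℕ) [hp : Fact p.Prime] [CharP K p]

/-- the subfield `K^p` -/
def sqgcKp (K : Type*) [Field K] (p : ℕ) [Fact p.Prime] [CharP K p] : Subfield K :=
  (frobenius K p).fieldRange

theorem sqgc_mem_Kp {y : K} : y ∈ sqgcKp K p ↔ ∃ a : K, a ^ p = y := by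
  simp [sqgcKp, RingHom.mem_fieldRange, frobenius_def]

/-- `[K : K^p] = p`, `x ∉ K^p` ⟹ `K = ⊕_(i<p) K^p x^i` -/
theorem sqgc_span_of_finrank (hfr : Module.finrank (sqgcKp K p) K = p) {x : K}
    (hx : ∀ a : K, a ^ p ≠ x) (y : K) :
    ∃ a : ℕ → K, y = ∑ i ∈ range p, a i ^ p * x ^ i := by
  classical
  have : FiniteDimensional (sqgcKp K p) K :=
    Module.finite_of_finrank_pos (by rw [hfr]; exact hp.out.pos)
  have htop : (sqgcKp K p)⟮x⟯ = ⊤ := by
    have hmul := Module.finrank_mul_finrank (sqgcKp K p) (sqgcKp K p)⟮x⟯ K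
    rw [hfr] at hmul
    rcases (Nat.dvd_prime hp.out).mp ⟨_, hmul.symm⟩ with h1 | h1
    · exfalso
      rw [IntermediateField.finrank_eq_one_iff] at h1
      have hmem := IntermediateField.mem_adjoin_simple_self (sqgcKp K p) x
      rw [h1, IntermediateField.mem_bot] at hmem
      obtain ⟨⟨b, hb⟩, hbx⟩ := hmem
      obtain ⟨a, ha⟩ := (sqgc_mem_Kp p).mp hb
      exact hx a (ha.trans hbx)
    · rw [h1] at hmul
      have h2 : Module.finrank (sqgcKp K p)⟮x⟯ K = 1 :=
        Nat.eq_of_mul_eq_mul_left hp.out.pos (by rw [hmul, mul_one])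
      exact IntermediateField.finrank_eq_one_iff_eq_top.mp h2
  have hy : y ∈ (sqgcKp K p)⟮x⟯ := by rw [htop]; exact IntermediateField.mem_top
  have halg : IsAlgebraic (sqgcKp K p) x := Algebra.IsAlgebraic.isAlgebraic x
  rw [← IntermediateField.mem_toSubalgebra,
    IntermediateField.adjoin_simple_toSubalgebra_of_isAlgebraic halg,
    Algebra.adjoin_singleton_eq_range_aeval] at hy
  obtain ⟨P, hP⟩ := hy
  -- reduce modulo `X^p - x^p`
  have hxp : x ^ p ∈ sqgcKp K p := (sqgc_mem_Kp p).mpr ⟨x, rfl⟩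
  set m : (sqgcKp K p)[X] := X ^ p - C ⟨x ^ p, hxp⟩ with hm
  have hmon : m.Monic := monic_X_pow_sub_C _ hp.out.ne_zero
  have hroot : aeval x m = 0 := by
    simp only [hm, map_sub, map_pow, aeval_X, aeval_C]
    exact sub_self _
  have hdeg : (P %ₘ m).natDegree < p := by
    have h1 := natDegree_modByMonic_lt P hmon (by
      intro h1
      have := congrArg natDegree h1
      rw [hm, natDegree_X_pow_sub_C, natDegree_one] at this
      exact hp.out.ne_zero this)
    rwa [hm, natDegree_X_pow_sub_C] at h1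
  have hPR : aeval x P = aeval x (P %ₘ m) := by
    conv_lhs => rw [← modByMonic_add_div P m]
    rw [map_add, map_mul, hroot, zero_mul, add_zero]
  have hcoef : ∀ i, ∃ a : K, a ^ p = ((P %ₘ m).coeff i : K) := fun i =>
    (sqgc_mem_Kp p).mp ((P %ₘ m).coeff i).2
  refine ⟨fun i => Classical.choose (hcoef i), ?_⟩
  rw [← hP]
  change aeval x P = _
  rw [hPR, aeval_eq_sum_range' hdeg]
  refine Finset.sum_congr rfl fun i _ => ?_
  rw [Classical.choose_spec (hcoef i)]
  rfl

end Span

section Finrank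

variable (k : Type*) {K : Type*} [Field k] [Field K] [Algebra k K] (p : ℕ) [hp : Fact p.Prime]
  [CharP K p]

omit [CharP K p] in
/-- `t` transcendental over `k` is not a `p`-th power in `k(t)` -/
theorem sqgc_not_pow_of_transcendental {t : K} (ht : Transcendental k t) {c : K}
    (hc : c ∈ k⟮t⟯) : c ^ p ≠ t := by
  intro hct
  obtain ⟨P, Q, rfl⟩ := (IntermediateField.mem_adjoin_simple_iff k c).mp hc
  have ht0 : t ≠ 0 := by
    rintro rfl
    exact ht isAlgebraic_zero
  have hQ : aeval t Q ≠ 0 := by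
    intro h0
    rw [h0, div_zero, zero_pow hp.out.ne_zero] at hct
    exact ht0 hct.symm
  rw [div_pow, div_eq_iff (pow_ne_zero p hQ)] at hct
  have h1 : aeval t (X * Q ^ p - P ^ p) = 0 := by
    simp only [map_sub, map_mul, map_pow, aeval_X]
    rw [hct, sub_self]
  have hinj := transcendental_iff_injective.mp ht
  have h2 : X * Q ^ p - P ^ p = 0 := hinj (by rw [h1, map_zero])
  have hQ0 : Q ≠ 0 := by
    rintro rfl
    simp at hQ
  have h3 : X * Q ^ p = P ^ p := sub_eq_zero.mp h2
  have h4 := congrArg natDegree h3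
  rw [natDegree_X_mul (pow_ne_zero p hQ0), natDegree_pow, natDegree_pow] at h4
  have h5 : p ∣ 1 := (Nat.dvd_add_right (dvd_mul_right p _)).mp (h4 ▸ dvd_mul_right p _)
  exact hp.out.one_lt.ne' (Nat.dvd_one.mp h5)

variable [PerfectField k]

theorem sqgc_finrank_Kp {t : K} (ht : Transcendental k t) [FiniteDimensional k⟮t⟯ K] :
    Module.finrank (sqgcKp K p) K = p := by
  classical
  have hck : CharP k p := RingHom.charP (algebraMap k K) (algebraMap k K).injective p
  set S : Subfield K := (k⟮t⟯).toSubfield with hS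
  set A : Subfield K := S.map (frobenius K p) with hA
  have hKp : sqgcKp K p = (⊤ : Subfield K).map (frobenius K p) := by
    ext y
    simp [sqgcKp, RingHom.mem_fieldRange]
  have hAS : A ≤ S := by
    rintro _ ⟨c, hc, rfl⟩
    exact pow_mem hc p
  have hAKp : A ≤ sqgcKp K p := by
    rintro _ ⟨c, _, rfl⟩
    exact ⟨c, rfl⟩
  have h1 : A.relfinrank (sqgcKp K p) = Module.finrank S K := by
    rw [hKp, Subfield.relfinrank_map_map, Subfield.relfinrank_top_right]
  have htA : t ∉ A := by
    rintro ⟨c, hc, hct⟩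
    exact sqgc_not_pow_of_transcendental k p ht hc hct
  have h2 : A.relfinrank S = p := by
    rw [Subfield.relfinrank_eq_finrank_of_le hAS]
    have hE : Subfield.extendScalars hAS = IntermediateField.adjoin A {t} := by
      apply le_antisymm
      · intro y hy
        have hy' : y ∈ S := hy
        rw [hS, IntermediateField.adjoin_toSubfield] at hy'
        have hle : Subfield.closure (Set.range (algebraMap k K) ∪ {t}) ≤
            (IntermediateField.adjoin A {t}).toSubfield := by
          rw [Subfield.closure_le]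
          rintro z (⟨c, rfl⟩ | rfl)
          · obtain ⟨c', rfl⟩ := surjective_frobenius k p c
            have hcA : algebraMap k K (frobenius k p c') ∈ A := by
              refine ⟨algebraMap k K c', IntermediateField.algebraMap_mem k⟮t⟯ c', ?_⟩
              simp [frobenius_def]
            exact IntermediateField.algebraMap_mem (IntermediateField.adjoin A {t}) (⟨_, hcA⟩ : A)
          · exact mem_adjoin_simple_self A z
        exact hle hy'
      · rw [IntermediateField.adjoin_le_iff]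
        exact Set.singleton_subset_iff.mpr (mem_adjoin_simple_self k t : t ∈ k⟮t⟯)
    rw [hE]
    have htp : t ^ p ∈ A := ⟨t, mem_adjoin_simple_self k t, rfl⟩
    have hirr : Irreducible (X ^ p - C (⟨t ^ p, htp⟩ : A)) := by
      rw [X_pow_sub_C_irreducible_iff_of_prime hp.out]
      intro b hb
      have hb' : (b : K) ^ p = t ^ p := congrArg Subtype.val hb
      have : (b : K) = t := frobenius_inj K p hb'
      exact htA (this ▸ b.2)
    have hroot : aeval t (X ^ p - C (⟨t ^ p, htp⟩ : A)) = 0 := by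
      simp only [map_sub, map_pow, aeval_X, aeval_C]
      exact sub_self _
    have hmin := minpoly.eq_of_irreducible_of_monic hirr hroot
      (monic_X_pow_sub_C _ hp.out.ne_zero)
    have hint : IsIntegral A t := ⟨_, monic_X_pow_sub_C _ hp.out.ne_zero, hroot⟩
    rw [IntermediateField.adjoin.finrank hint, ← hmin, natDegree_X_pow_sub_C]
  have h3 := Subfield.relfinrank_mul_relfinrank hAS (le_top : S ≤ ⊤)
  have h4 := Subfield.relfinrank_mul_relfinrank hAKp (le_top : sqgcKp K p ≤ ⊤)
  rw [Subfield.relfinrank_top_right, h2] at h3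
  rw [Subfield.relfinrank_top_right, h1, ← h3] at h4
  have hfin : FiniteDimensional S K := ‹FiniteDimensional k⟮t⟯ K›
  have hpos : 0 < Module.finrank S K := Module.finrank_pos
  rw [mul_comm] at h4
  exact Nat.eq_of_mul_eq_mul_right hpos h4


/-- **producer of `hspan`** : `K` finite over `k(t)`, `k` perfect, `x` not a `p`-th power -/
theorem sqgc_span_of_transcendental {t : K} (ht : Transcendental k t)
    [FiniteDimensional k⟮t⟯ K] {x : K} (hx : ∀ a : K, a ^ p ≠ x) (y : K) :
    ∃ a : ℕ → K, y = ∑ i ∈ range p, a i ^ p * x ^ i :=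
  sqgc_span_of_finrank p (sqgc_finrank_Kp k p ht) hx y

omit [PerfectField k] [Algebra k K] [CharP K p] in
/-- an element of `ord = 1` is not a `p`-th power -/
theorem SqgcOrd.not_pow {ν : K → ℤ} (h : SqgcOrd ν) {x : K} (hx0 : x ≠ 0) (hνx : ν x = 1)
    (a : K) : a ^ p ≠ x := by
  rintro rfl
  have ha : a ≠ 0 := fun h0 => hx0 (by rw [h0, zero_pow hp.out.ne_zero])
  rw [h.map_pow ha] at hνx
  have h1 : (p : ℤ) ∣ 1 := ⟨ν a, hνx.symm⟩
  have h2 := Int.le_of_dvd one_pos h1
  have := hp.out.two_le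
  omega

/-- **Consumer form, function-field version** : `hspan` replaced by `K` finite over `k(t)`, `k`
perfect. -/
theorem sqgc_ord_hasse_emb' {R : Type*} [Field R] [CharP R p] (ι : K →+* R) {ν : K → ℤ}
    (h : SqgcOrd ν) {t : K} (ht : Transcendental k t) [FiniteDimensional k⟮t⟯ K]
    {x : K} (hνx : ν x = 1) {θ : R →+ R} (hθ : SqgcLeib θ) (hx : θ^[p] (ι x) = θ (ι x))
    (hθx : θ (ι x) ≠ 0) {H : K} (hH : ι H = θ (ι x) ^ (p - 1)) :
    ν H ≤ p - 1 ∧ ((p : ℤ) ∣ ν H + 1 → ν H = p - 1) ∧ ν H ≠ -1 := by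
  have hx0 : x ≠ 0 := by
    rintro rfl
    rw [map_zero, map_zero] at hθx
    exact hθx rfl
  exact sqgc_ord_hasse_emb p ι h hνx
    (sqgc_span_of_transcendental k p ht (h.not_pow p hx0 hνx)) hθ hx hθx hH

end Finrank

end Fermat.Agent.SQ
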