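import Mathlib
import Fermat.Agent.SQ.Germ.Surj

/-!
# Program Q (S36), package SQ/Germ : `SqgHyp` FROM THE TWO STEPS OF THE TOWER (prefix `sqgcp`)

`F₀ ⊂ F₁ ⊂ F` (levels `M'`, `q M'`, `q² M'`), `α₁ φ₁ : F₀ → F₁`, `α φ : F₁ → F`,
`β₀ = α ∘ α₁`, `β₂ = φ ∘ φ₁`; `W₁, W₂` the two valuation rings of `F₁`, `V₁, V₂, V₃` the three of `F`,
in the positions `V₁, V₂ | W₁` (via `α`), `V₃ | W₂` (via `φ`).

* `sqgcp_gauss`, `sqgcp_map_nonunits`, `sqgcp_res` : the Gauss inclusion, the maximal ideal and the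
  residue surjection compose along a lying-over `V.comap f = W`;
* `sqgcp_sub_of_pow`, `sqgcp_res_of_ins` : in residue characteristic `q`, `x^q ≡ y^q ⟹ x ≡ y`;
  `κ(V)^q ⊆ f κ(W)` and `f κ(W) ⊆ g κ(W')^q` give `κ(V) = g κ(W')`;
* `sqgcp_surj` : **the residue surjection `P = f P₀ + 𝔭_V` when the chart `t` of `F` is only congruent
  modulo `𝔪_V` to `f (c₀(t₀))`** for a polynomial `c₀` (generalises `sqgs_surj`; needed for `V₃` and
  `β₂`, where `t = β₀ t₀ ≡ (β₂ t₀)^{q²}`, in EVERY chart including the charts at infinity);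
* `sqgcp_hyp` : **`SqgHyp` for `β₀, β₂`** from the one-step statements of the two levels
  (level one : `κ(W₁) = ᾱ₁ κ(O₀)`, `κ(W₂) = φ̄₁ κ(O₀)`; level two : `κ(V₁) = ᾱ κ(W₁)`,
  `κ(V₂) = ᾱ κ(W₁)`, `κ(V₃) = φ̄ κ(W₂)`); `sqgcp_surj₂'` : `P = β₂ P₀ + 𝔭₂`;
* `sqgcp_pos` : `SqgaPos` from the positions as lying-over statements.
-/

set_option autoImplicit false
set_option linter.unusedSectionVars false
set_option linter.unusedVariables false

noncomputable section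

namespace Fermat.Agent.SQ

open Polynomial IntermediateField AlgebraicCurve Fermat.Agent.S18 Fermat.Agent.SS Fermat.Agent.G
  IsLocalRing

universe u u₀ u₁

/-! ### composition along a lying-over (pure valuation theory) -/

section Abs

variable {K₀ K₁ K : Type*} [Field K₀] [Field K₁] [Field K]

/-- Gauss inclusions compose -/
theorem sqgcp_gauss {O₀ : Set K₀} {f₁ : K₀ →+* K₁} {f : K₁ →+* K} {W : ValuationSubring K₁}
    {V : ValuationSubring K} (hpos : V.comap f = W) (g₁ : ∀ x ∈ O₀, f₁ x ∈ W) :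
    ∀ x ∈ O₀, (f.comp f₁) x ∈ V := by
  intro x hx
  have h := g₁ x hx
  rw [← hpos, ValuationSubring.mem_comap] at h
  exact h

/-- a lying-over maps the maximal ideal into the maximal ideal -/
theorem sqgcp_map_nonunits {f : K₁ →+* K} {W : ValuationSubring K₁} {V : ValuationSubring K}
    (hpos : V.comap f = W) {x : K₁} (hx : x ∈ W.nonunits) : f x ∈ V.nonunits := by
  rw [ValuationSubring.mem_nonunits_iff_or] at hx ⊢
  rcases hx with rfl | hxi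
  · exact Or.inl (map_zero f)
  · refine Or.inr fun h => hxi ?_
    rw [← map_inv₀] at h
    rw [← hpos, ValuationSubring.mem_comap]
    exact h

/-- residue surjections compose -/
theorem sqgcp_res {O₀ : Set K₀} {f₁ : K₀ →+* K₁} {f : K₁ →+* K} {W : ValuationSubring K₁}
    {V : ValuationSubring K} (hpos : V.comap f = W)
    (r₁ : ∀ x ∈ W, ∃ r ∈ O₀, x - f₁ r ∈ W.nonunits)
    (r₂ : ∀ x ∈ V, ∃ r ∈ W, x - f r ∈ V.nonunits) :
    ∀ x ∈ V, ∃ r ∈ O₀, x - (f.comp f₁) r ∈ V.nonunits := by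
  intro x hx
  obtain ⟨r, hr, hxr⟩ := r₂ x hx
  obtain ⟨r₀, hr₀, hrr₀⟩ := r₁ r hr
  refine ⟨r₀, hr₀, ?_⟩
  have e : x - (f.comp f₁) r₀ = (x - f r) + f (r - f₁ r₀) := by
    rw [RingHom.comp_apply, map_sub]; ring
  rw [e]
  exact ssgr_nu_add V hxr (sqgcp_map_nonunits hpos hrr₀)

/-- in residue characteristic `q` : `x ^ q ≡ y ^ q ⟹ x ≡ y`. -/
theorem sqgcp_sub_of_pow {V : ValuationSubring K} {q : ℕ} (hq : q.Prime)
    (hqV : (q : K) ∈ V.nonunits) {x y : K} (hx : x ∈ V) (hy : y ∈ V)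
    (h : x ^ q - y ^ q ∈ V.nonunits) : x - y ∈ V.nonunits := by
  -- work in the residue field of `V`
  have hmem : ∀ z : K, z ∈ V.nonunits ↔ ∃ hz : z ∈ V, residue ↥V ⟨z, hz⟩ = 0 := by
    intro z
    constructor
    · intro hz
      refine ⟨ValuationSubring.nonunits_le hz, ?_⟩
      rw [residue_eq_zero_iff]
      exact (ValuationSubring.mem_nonunits_iff_exists_mem_maximalIdeal.mp hz).2
    · rintro ⟨hz, h0⟩
      rw [residue_eq_zero_iff] at h0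
      exact ValuationSubring.mem_nonunits_iff_exists_mem_maximalIdeal.mpr ⟨hz, h0⟩
  have : Fact q.Prime := ⟨hq⟩
  have hchar : CharP (ResidueField ↥V) q := by
    have h0 : ((q : ℕ) : ResidueField ↥V) = 0 := by
      obtain ⟨hz, h0⟩ := (hmem _).mp hqV
      have : (⟨(q : K), hz⟩ : ↥V) = ((q : ℕ) : ↥V) := Subtype.ext (by simp)
      rw [this, map_natCast] at h0
      exact h0
    exact (CharP.charP_iff_prime_eq_zero hq).mpr h0
  obtain ⟨hz, h0⟩ := (hmem _).mp h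
  rw [hmem]
  refine ⟨V.sub_mem hx hy, ?_⟩
  have e : (⟨x ^ q - y ^ q, hz⟩ : ↥V) = (⟨x, hx⟩ : ↥V) ^ q - (⟨y, hy⟩ : ↥V) ^ q :=
    Subtype.ext rfl
  rw [e, map_sub, map_pow, map_pow, ← sub_pow_char] at h0
  have e' : (⟨x - y, V.sub_mem hx hy⟩ : ↥V) = (⟨x, hx⟩ : ↥V) - (⟨y, hy⟩ : ↥V) :=
    Subtype.ext rfl
  rw [e', map_sub]
  exact pow_eq_zero_iff (hq.ne_zero) |>.mp h0

/-- `κ(V)^q ⊆ f̄ κ(W)` and `f̄ κ(W) ⊆ (ḡ κ(W'))^q` give `κ(V) = ḡ κ(W')`. -/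
theorem sqgcp_res_of_ins {K₁' : Type*} [Field K₁'] {f : K₁ →+* K} {g : K₁' →+* K}
    {W : ValuationSubring K₁} {W' : ValuationSubring K₁'} {V : ValuationSubring K} {q : ℕ}
    (hq : q.Prime) (hqV : (q : K) ∈ V.nonunits) (hg : ∀ x ∈ W', g x ∈ V)
    (ins : ∀ x ∈ V, ∃ r ∈ W, x ^ q - f r ∈ V.nonunits)
    (root : ∀ h ∈ W, ∃ h' ∈ W', f h - g h' ^ q ∈ V.nonunits) :
    ∀ x ∈ V, ∃ r ∈ W', x - g r ∈ V.nonunits := by
  intro x hx
  obtain ⟨r, hr, hxr⟩ := ins x hx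
  obtain ⟨h', hh', hrh'⟩ := root r hr
  refine ⟨h', hh', sqgcp_sub_of_pow hq hqV hx (hg _ hh') ?_⟩
  have e : x ^ q - g h' ^ q = (x ^ q - f r) + (f r - g h' ^ q) := by ring
  rw [e]
  exact ssgr_nu_add V hxr hrh'

end Abs

/-! ### the residue surjection when the chart of `F` is only CONGRUENT to the image of a polynomial in the
chart of `F₀` -/

section Surj

variable {A : Type*} [CommRing A] [IsDomain A] [IsDiscreteValuationRing A] [CharZero A]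
variable {L : Type*} [Field L] [Algebra A L] [IsFractionRing A L]
variable {F : Type u} [Field F] [Algebra A F] [Algebra L F] [IsScalarTower A L F]
variable {A₀ : Type*} [CommRing A₀] [IsDomain A₀] [IsDiscreteValuationRing A₀] [CharZero A₀]
variable {L₀ : Type*} [Field L₀] [Algebra A₀ L₀] [IsFractionRing A₀ L₀]
variable {F₀ : Type u₀} [Field F₀] [Algebra A₀ F₀] [Algebra L₀ F₀] [IsScalarTower A₀ L₀ F₀]
variable {ϖ : A} {t : F} {ϖ₀ : A₀} {t₀ : F₀}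
variable {j : A₀ →+* A}

/-- the two evaluations `c ↦ f (c(c₀(t₀)))` and `c ↦ (j c)(t)` of `A₀[X]` are congruent modulo `𝔪_V`
when `t ≡ f (c₀(t₀))`. -/
theorem sqgcp_eval_cong {f : F₀ →+* F}
    (compat : ∀ a : A₀, f (algebraMap A₀ F₀ a) = algebraMap A F (j a))
    (V : ValuationSubring F) (hA : ∀ a : A, algebraMap A F a ∈ V) (ht : t ∈ V)
    (c₀ : A₀[X]) (hcong : t - f (aeval t₀ c₀) ∈ V.nonunits) (c : A₀[X]) :
    f (aeval t₀ (aeval c₀ c)) - aeval t (c.map j) ∈ V.nonunits := by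
  have hfb : f (aeval t₀ c₀) ∈ V := by
    have e : f (aeval t₀ c₀) = t - (t - f (aeval t₀ c₀)) := by ring
    rw [e]
    exact V.sub_mem ht (ValuationSubring.nonunits_le hcong)
  have hcong' : f (aeval t₀ c₀) - t ∈ V.nonunits := by
    have e : f (aeval t₀ c₀) - t = -(t - f (aeval t₀ c₀)) := by ring
    rw [e]
    exact ssgr_nu_neg V hcong
  induction c using Polynomial.induction_on' with
  | add p q hp hq =>
    have e : f (aeval t₀ (aeval c₀ (p + q))) - aeval t ((p + q).map j) =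
        (f (aeval t₀ (aeval c₀ p)) - aeval t (p.map j)) +
          (f (aeval t₀ (aeval c₀ q)) - aeval t (q.map j)) := by
      rw [map_add, map_add, map_add, Polynomial.map_add, map_add]
      ring
    rw [e]
    exact ssgr_nu_add V hp hq
  | monomial n a =>
    have e : f (aeval t₀ (aeval c₀ (monomial n a))) - aeval t ((monomial n a).map j) =
        algebraMap A F (j a) * (f (aeval t₀ c₀) ^ n - t ^ n) := by
      rw [Polynomial.map_monomial, aeval_monomial, aeval_monomial, map_mul, map_pow, map_mul,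
        map_pow]
      have h1 : aeval t₀ ((algebraMap A₀ A₀[X]) a) = algebraMap A₀ F₀ a := by
        rw [Polynomial.algebraMap_apply, aeval_C]
        rfl
      rw [h1, compat]
      ring
    rw [e]
    exact ssgr_nu_mul_right V (hA _) (ssgr_pow_sub_pow V hfb ht hcong' n)

/-- **THE RESIDUE SURJECTION** `P = f P₀ + 𝔭_V` when `t ≡ f (c₀(t₀))` modulo `𝔪_V` for a polynomial
`c₀ ∈ A₀[X]` (generalises `sqgs_surj`, which is the case `c₀ = X`, `t = f t₀`) : e.g. `V = V₃`,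
`f = β₂`, `t = β₀ t₀ ≡ (β₂ t₀)^{q²}`. -/
theorem sqgcp_surj (hϖ₀ : Irreducible ϖ₀) {f : F₀ →+* F}
    (compat : ∀ a : A₀, f (algebraMap A₀ F₀ a) = algebraMap A F (j a))
    (unif : ∃ c : A, j ϖ₀ = ϖ * c)
    (good : GrdfbHyp hϖ₀ t₀) (hres : ∀ a : A, ∃ a₀ : A₀, ∃ b : A, a = j a₀ + ϖ * b)
    (V : ValuationSubring F) (hle : ∀ x ∈ s18tInt A t, x ∈ V)
    (hϖV : algebraMap A F ϖ ∈ V.nonunits)
    (gauss : ∀ x ∈ s18tIntLoc A₀ t₀ (C ϖ₀) (s18t_prime_C hϖ₀), f x ∈ V)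
    (res : ∀ x ∈ V, ∃ r ∈ s18tIntLoc A₀ t₀ (C ϖ₀) (s18t_prime_C hϖ₀), x - f r ∈ V.nonunits)
    (c₀ : A₀[X]) (hcong : t - f (aeval t₀ c₀) ∈ V.nonunits) :
    ∀ p ∈ s18tInt A t, ∃ b ∈ s18tInt A₀ t₀, p - f b ∈ V.nonunits := by
  intro x hx
  obtain ⟨r, hr, hxr⟩ := res x (hle x hx)
  obtain ⟨p, hp, hpx⟩ := grdfb_isIntegralElem_of_mem_int t x hx
  obtain ⟨m₀, hm₀, d, hd⟩ := ssgi_lift_monic hres p hp
  have hA : ∀ a : A, algebraMap A F a ∈ V := fun a => hle _ (s18tc_algebraMap_mem_int t a)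
  have htV : t ∈ V := hle _ (s18tc_self_mem_int t)
  -- the substitution `c ↦ c(c₀)` and the two evaluations
  set κ : A₀[X] →+* A₀[X] := ((aeval c₀ : A₀[X] →ₐ[A₀] A₀[X]) : A₀[X] →+* A₀[X]) with hκ
  set e₀ : A₀[X] →+* F₀ := ((aeval t₀ : A₀[X] →ₐ[A₀] F₀) : A₀[X] →+* F₀) with he₀
  set g : A₀[X] →+* F := f.comp (e₀.comp κ) with hgdef
  set g' : A₀[X] →+* F :=
    (((aeval t : A[X] →ₐ[A] F) : A[X] →+* F)).comp (Polynomial.mapRingHom j) with hg'def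
  have hgg' : ∀ c, g c - g' c ∈ V.nonunits := fun c =>
    sqgcp_eval_cong compat V hA htV c₀ hcong c
  -- `f ϖ₀ ∈ 𝔪_V`
  have hfϖ₀ : f (algebraMap A₀ F₀ ϖ₀) ∈ V.nonunits := by
    obtain ⟨c, hc⟩ := unif
    rw [compat, hc, map_mul]
    exact ssgr_nu_mul_left V hϖV (hA c)
  -- the monic equation of `x` modulo `𝔪_V`, via `g'`
  have h1 : eval₂ g' x m₀ =
      algebraMap A F ϖ * eval₂ ((aeval t : A[X] →ₐ[A] F) : A[X] →+* F) x d := by
    rw [hg'def, ← eval₂_map, hd, eval₂_add, hpx, zero_add, eval₂_mul, eval₂_C]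
    congr 1
    simp
  have h1V' : eval₂ g' x m₀ ∈ V.nonunits := by
    rw [h1]
    exact ssgr_nu_mul_left V hϖV (hle _ (ssgi_eval₂_mem t x hx d))
  -- pass from `g'` to `g`
  have h1V : eval₂ g x m₀ ∈ V.nonunits := by
    have e : eval₂ g x m₀ = eval₂ g' x m₀ + (eval₂ g x m₀ - eval₂ g' x m₀) := by ring
    rw [e]
    refine ssgr_nu_add V h1V' ?_
    rw [eval₂_eq_sum_range, eval₂_eq_sum_range, ← Finset.sum_sub_distrib]
    refine ssgr_nu_sum V _ _ fun i _ => ?_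
    rw [← sub_mul]
    exact ssgr_nu_mul_left V (hgg' _) (V.pow_mem (hle x hx) i)
  have hgP : ∀ c, (e₀ (κ c) : F₀) ∈ s18tIntLoc A₀ t₀ (C ϖ₀) (s18t_prime_C hϖ₀) := fun c =>
    ssga_int_le_intLoc hϖ₀ t₀ (s18tc_chart_le_int t₀ (s18tb_aeval_mem_chart t₀ (κ c)))
  have hgV : ∀ c, g c ∈ V := fun c => gauss _ (hgP c)
  have h2 := sqgs_eval₂_sub V g hgV m₀ (hle x hx) (gauss r hr) hxr
  have h3 : eval₂ g (f r) m₀ = f (eval₂ (e₀.comp κ) r m₀) := by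
    rw [hgdef, Polynomial.hom_eval₂]
  set r' : F₀ := eval₂ (e₀.comp κ) r m₀ with hr'def
  have hr' : r' ∈ s18tIntLoc A₀ t₀ (C ϖ₀) (s18t_prime_C hϖ₀) :=
    sqgs_eval₂_mem _ _ hgP m₀ hr
  have h4 : f r' ∈ V.nonunits := by
    have e : f r' = eval₂ g x m₀ - (eval₂ g x m₀ - eval₂ g (f r) m₀) := by rw [h3]; ring
    rw [e]
    exact ssgr_nu_sub V h1V h2
  -- `r' ∈ ϖ₀ O₀`
  have h5 : S18DvdGauss hϖ₀ t₀ r' := by
    rcases good.val r' hr' with h | hinv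
    · exact h
    · by_cases h0 : r' = 0
      · exact ⟨0, Subring.zero_mem _, by rw [h0, mul_zero]⟩
      · exfalso
        have hfr : f r' ≠ 0 := (map_ne_zero f).mpr h0
        have h6 : (f r')⁻¹ ∈ V := by
          rw [← map_inv₀]
          exact gauss _ hinv
        rw [V.mem_nonunits_iff] at h4
        have h7 := (V.valuation_le_one_iff _).mpr h6
        rw [map_inv₀] at h7
        have h8 : V.valuation (f r') ≠ 0 := (Valuation.ne_zero_iff _).mpr hfr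
        exact absurd h4 (not_lt.mpr ((inv_le_one₀ (zero_lt_iff.mpr h8)).mp h7))
  obtain ⟨y, hy, hxy⟩ := h5
  -- `r` is integral over `A₀[t₀]` modulo `ϖ₀` : the monic polynomial `m₀.map κ`
  have hint : GrdnIntMod (s18t_prime_C hϖ₀) t₀ r := by
    refine ⟨m₀.map κ, hm₀.map κ, y, hy, ?_⟩
    rw [eval₂_map]
    exact hxy
  obtain ⟨b, hb, y', hy', hby⟩ := good.norm r hr hint
  refine ⟨b, hb, ?_⟩
  have e : x - f b = (x - f r) + f (algebraMap A₀ F₀ ϖ₀) * f y' := by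
    rw [← map_mul, ← hby, map_sub]
    ring
  rw [e]
  exact ssgr_nu_add V hxr (ssgr_nu_mul_left V hfϖ₀ (gauss _ hy'))

end Surj

/-! ### `SqgHyp` from the two steps -/

section Hyp

variable {A : Type*} [CommRing A] [IsDomain A] [IsDiscreteValuationRing A] [CharZero A]
variable {L : Type*} [Field L] [Algebra A L] [IsFractionRing A L]
variable {F : Type u} [Field F] [Algebra A F] [Algebra L F] [IsScalarTower A L F]
variable {A₀ : Type*} [CommRing A₀] [IsDomain A₀] [IsDiscreteValuationRing A₀] [CharZero A₀]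
variable {L₀ : Type*} [Field L₀] [Algebra A₀ L₀] [IsFractionRing A₀ L₀]
variable {F₀ : Type u₀} [Field F₀] [Algebra A₀ F₀] [Algebra L₀ F₀] [IsScalarTower A₀ L₀ F₀]
variable {F₁ : Type u₁} [Field F₁]
variable {ϖ : A} {t : F} {ϖ₀ : A₀} {t₀ : F₀}
variable {j : A₀ →+* A}

/-- **`SqgHyp` FROM THE TWO STEPS OF THE TOWER** : level one `κ(W₁) = ᾱ₁ κ(O₀)`, `κ(W₂) = φ̄₁ κ(O₀)`,
level two `κ(V₁) = κ(V₂) = ᾱ κ(W₁)`, `κ(V₃) = φ̄ κ(W₂)`, the positions `V₁, V₂ | W₁` (along `α`),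
`V₃ | W₂` (along `φ`), and the congruence `t ≡ β₂ (c₀(t₀))` modulo `𝔪_{V₃}` (`c₀ = X^{q²}`). -/
theorem sqgcp_hyp (hϖ₀ : Irreducible ϖ₀) {α₁ φ₁ : F₀ →+* F₁} {α φ : F₁ →+* F}
    {W₁ W₂ : ValuationSubring F₁} {e₂ : ℕ} {V₁ V₂ V₃ : ValuationSubring F}
    (level : SsgaLevel j (α.comp α₁) ϖ₀ ϖ t₀ t)
    (compat₂ : ∀ a : A₀, (φ.comp φ₁) (algebraMap A₀ F₀ a) = algebraMap A F (j a))
    (three : SqgaThree ϖ t e₂ V₁ V₂ V₃) (good : GrdfbHyp hϖ₀ t₀)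
    (hres : ∀ a : A, ∃ a₀ : A₀, ∃ b : A, a = j a₀ + ϖ * b)
    -- level one
    (g₁ : ∀ x ∈ s18tIntLoc A₀ t₀ (C ϖ₀) (s18t_prime_C hϖ₀), α₁ x ∈ W₁)
    (g₂ : ∀ x ∈ s18tIntLoc A₀ t₀ (C ϖ₀) (s18t_prime_C hϖ₀), φ₁ x ∈ W₂)
    (r₁ : ∀ x ∈ W₁, ∃ r ∈ s18tIntLoc A₀ t₀ (C ϖ₀) (s18t_prime_C hϖ₀), x - α₁ r ∈ W₁.nonunits)
    (r₂ : ∀ x ∈ W₂, ∃ r ∈ s18tIntLoc A₀ t₀ (C ϖ₀) (s18t_prime_C hϖ₀), x - φ₁ r ∈ W₂.nonunits)
    -- level two
    (posα₁ : V₁.comap α = W₁) (posα₂ : V₂.comap α = W₁) (posφ₃ : V₃.comap φ = W₂)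
    (res₁α : ∀ x ∈ V₁, ∃ r ∈ W₁, x - α r ∈ V₁.nonunits)
    (res₂α : ∀ x ∈ V₂, ∃ r ∈ W₁, x - α r ∈ V₂.nonunits)
    (res₃φ : ∀ x ∈ V₃, ∃ r ∈ W₂, x - φ r ∈ V₃.nonunits)
    -- the chart on the third component
    (c₀ : A₀[X]) (hcong₃ : t - (φ.comp φ₁) (aeval t₀ c₀) ∈ V₃.nonunits) :
    SqgHyp hϖ₀ j (α.comp α₁) (φ.comp φ₁) ϖ t₀ t e₂ V₁ V₂ V₃ :=
  { level := level
    compat₂ := compat₂
    three := three
    good := good
    surj₁ := sqgs_surj hϖ₀ level good hres V₁ three.le₁ three.unif₁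
      (sqgcp_gauss posα₁ g₁) (sqgcp_res posα₁ r₁ res₁α)
    surj₂ := sqgs_surj hϖ₀ level good hres V₂ three.le₂ three.unif₂
      (sqgcp_gauss posα₂ g₁) (sqgcp_res posα₂ r₁ res₂α)
    surj₃ := sqgcp_surj hϖ₀ compat₂ level.unif good hres V₃ three.le₃ three.unif₃
      (sqgcp_gauss posφ₃ g₂) (sqgcp_res posφ₃ r₂ res₃φ) c₀ hcong₃ }

/-- `surj₂'` : the residue surjection `P = β₂ P₀ + 𝔭₂` along `φ ∘ φ₁` for the middle component. -/
theorem sqgcp_surj₂' (hϖ₀ : Irreducible ϖ₀) {φ₁ : F₀ →+* F₁} {φ : F₁ →+* F}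
    {W₂ : ValuationSubring F₁} {V₂ : ValuationSubring F}
    (compat₂ : ∀ a : A₀, (φ.comp φ₁) (algebraMap A₀ F₀ a) = algebraMap A F (j a))
    (unif : ∃ c : A, j ϖ₀ = ϖ * c) (good : GrdfbHyp hϖ₀ t₀)
    (hres : ∀ a : A, ∃ a₀ : A₀, ∃ b : A, a = j a₀ + ϖ * b)
    (hle : ∀ x ∈ s18tInt A t, x ∈ V₂) (hϖV : algebraMap A F ϖ ∈ V₂.nonunits)
    (g₂ : ∀ x ∈ s18tIntLoc A₀ t₀ (C ϖ₀) (s18t_prime_C hϖ₀), φ₁ x ∈ W₂)
    (r₂ : ∀ x ∈ W₂, ∃ r ∈ s18tIntLoc A₀ t₀ (C ϖ₀) (s18t_prime_C hϖ₀), x - φ₁ r ∈ W₂.nonunits)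
    (posφ₂ : V₂.comap φ = W₂) (res₂φ : ∀ x ∈ V₂, ∃ r ∈ W₂, x - φ r ∈ V₂.nonunits)
    (c₀ : A₀[X]) (hcong₂ : t - (φ.comp φ₁) (aeval t₀ c₀) ∈ V₂.nonunits) :
    ∀ p ∈ s18tInt A t, ∃ b ∈ s18tInt A₀ t₀, p - (φ.comp φ₁) b ∈ V₂.nonunits :=
  sqgcp_surj hϖ₀ compat₂ unif good hres V₂ hle hϖV
    (sqgcp_gauss posφ₂ g₂) (sqgcp_res posφ₂ r₂ res₂φ) c₀ hcong₂

end Hyp

/-! ### `SqgaPos` from lying-over statements -/

section Pos

variable {A : Type*} [CommRing A] [IsDomain A] [IsDiscreteValuationRing A] [CharZero A]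
variable {L : Type*} [Field L] [Algebra A L] [IsFractionRing A L]
variable {F : Type u} [Field F] [Algebra A F] [Algebra L F] [IsScalarTower A L F]
variable {F₁ : Type u₁} [Field F₁] [Algebra A F₁] [Algebra L F₁] [IsScalarTower A L F₁]
variable {ϖ : A} {t : F} {t₁ : F₁}

/-- **`SqgaPos` FROM THE POSITIONS** `Va ∩ F₁ = Vb ∩ F₁ = W`, `Vc ∩ F₁ = W'` (along `α`), the
compatibility with the constants, `α P₁ ⊆ P` and `ϖ` a uniformiser of `W`. -/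
theorem sqgcp_pos {α : F₁ →+* F} {W W' : ValuationSubring F₁} {Va Vb Vc : ValuationSubring F}
    (compat : ∀ a : A, α (algebraMap A F₁ a) = algebraMap A F a)
    (hint : ∀ x ∈ s18tInt A t₁, α x ∈ s18tInt A t) (unif : S18IsUnif W (algebraMap A F₁ ϖ))
    (ha : Va.comap α = W) (hb : Vb.comap α = W) (hc : Vc.comap α = W') :
    SqgaPos α ϖ t₁ t W W' Va Vb Vc where
  compat := compat
  int := hint
  unif := unif
  mem_a := fun x hx => by
    rw [← ha, ValuationSubring.mem_comap] at hx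
    exact hx
  mem_b := fun x hx => by
    rw [← hb, ValuationSubring.mem_comap] at hx
    exact hx
  nu_c := fun x hx => sqgcp_map_nonunits hc hx

end Pos

end Fermat.Agent.SQ
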