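import Mathlib
import Fermat.Agent.SQ.Germ.Comp
import Fermat.Agent.SS.Germ.ModSingle
import Fermat.Agent.SS.Germ.Close

/-!
# Program Q (S36), leaf GERM² concrete (G-a) : THE MODULAR INSTANCE OF `SqgHyp`, `SqgaPos`, `hloc₂`
(prefix `sqgmh`)

The tower `F₀ = F_{E'}(M) ⊂ F₁ = F_{E'}(M q) ⊂ F = F_{E'}(M q q)` over ONE number field `E'`,
`A = A₀ = 𝔸 ∩ E'`, `j = id`; `α₁ = ssvmdIncl E' M q`, `φ₁ = ssvmfPhi E' M q`, `α = ssvmdIncl E' (M q) q`,
`φ = ssvmfPhi E' (M q) q`, `β₀ = sqgmhB0 = α ∘ α₁`, `β₂ = sqgmhB2 = φ ∘ φ₁`.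

GENERIC CHART (`s ∈ F₀`, `t = β₀ s`) :
* `sqgmh_hyp` : **the concrete `SqgHyp`** of `SQ/Germ/Main.lean` : `level`, `compat₂` are proved; the inputs
  are (VAL²) `three : SqgaThree`, good reduction `GrdfbHyp` at level `M` and the residue surjections
  `surj₁, surj₂, surj₃` (producer : `sqgcp_hyp` / `sqgs_surj` / `sqgcp_surj`);
* `sqgmh_hyp_of_steps` : the same with `surj_i` DERIVED (`sqgcp_hyp`) from the one-step residue statements
  of the two levels, the positions `V₁, V₂ | W₁` (along `α`), `V₃ | W₂` (along `φ`), and the congruence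
  `t ≡ β₂ (c₀(s))` modulo `𝔪_{V₃}`;
* `sqgmh_posα`, `sqgmh_posφ` : `SqgaPos` along `α` (every chart) and along `φ` (needs `φ t₁ ∈ P`);
* `sqgmh_loc₂` : `hloc₂` of `sqgm_germ` (needs `β₂ s ∈ P`);
* `sqgmh_germ` : `sqgm_germ` with all of the above plugged in (sanity check of the shapes).

THE CHARTS `j, j⁻¹` (`q ≥ 5`, `ζ_{6M} ∈ E'`) and `h_a, h_a⁻¹` (`q ∈ {2,3}`, `a = 5 - q ∣ M`, `ζ_M ∈ E'`),
as in `SS/Germ/ModSingle.lean` : `sqgmh_B0_j`, `sqgmh_B0_h` (`β₀ s = t`), `sqgmh_good_*`,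
`sqgmh_phi_j_mem`, `sqgmh_phi_h_mem`, `sqgmh_phi_hinv_mem` (`φ t₁ ∈ P`), `sqgmh_B2_*_mem` (`β₂ s ∈ P`),
`sqgmh_hyp_j/_jinv/_h/_hinv`, `sqgmh_posα_*`, `sqgmh_posφ_j/_h/_hinv`, `sqgmh_loc₂_j/_h/_hinv`.
For `j⁻¹` there is no `posφ`/`loc₂` : `φ` does not map the chart at infinity into itself (the cusps are
helper5's `SQ/Germ/Cusp.lean`, through `sqgm_germ_simple`).
-/

set_option autoImplicit false
set_option linter.unusedSectionVars false
set_option linter.unusedVariables false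
set_option linter.style.haveILetI false
set_option synthInstance.maxHeartbeats 400000

noncomputable section

namespace Fermat.Agent.SQ

open Polynomial ModularCurve AlgebraicCurve IntermediateField IsLocalRing Fermat.Agent.S18
  Fermat.Agent.G Fermat.Agent.SS

local notation "Qb" => AlgebraicClosure ℚ

section Maps

variable (K : Type*) [Field K] (M q : ℕ) [NeZero M] [NeZero q]

/-- `β₀ = α ∘ α₁ : F_K(M) → F_K(M q q)`, the inclusion -/
def sqgmhB0 : modularFunctionFieldFullC K M →+* modularFunctionFieldFullC K (M * q * q) :=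
  ((ssvmdIncl K (M * q) q : modularFunctionFieldFullC K (M * q) →ₐ[K]
    modularFunctionFieldFullC K (M * q * q)) : modularFunctionFieldFullC K (M * q) →+*
      modularFunctionFieldFullC K (M * q * q)).comp
  ((ssvmdIncl K M q : modularFunctionFieldFullC K M →ₐ[K] modularFunctionFieldFullC K (M * q)) :
    modularFunctionFieldFullC K M →+* modularFunctionFieldFullC K (M * q))

/-- `β₂ = φ ∘ φ₁ : F_K(M) → F_K(M q q)`, `𝐪 ↦ 𝐪^{q²}` -/
def sqgmhB2 : modularFunctionFieldFullC K M →+* modularFunctionFieldFullC K (M * q * q) :=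
  (ssvmfPhi K (M * q) q).comp (ssvmfPhi K M q)

theorem sqgmhB0_apply (x : modularFunctionFieldFullC K M) :
    sqgmhB0 K M q x = ssvmdIncl K (M * q) q (ssvmdIncl K M q x) := rfl

theorem sqgmhB2_apply (x : modularFunctionFieldFullC K M) :
    sqgmhB2 K M q x = ssvmfPhi K (M * q) q (ssvmfPhi K M q x) := rfl

theorem sqgmhB0_coe (x : modularFunctionFieldFullC K M) :
    ((sqgmhB0 K M q x : modularFunctionFieldFullC K (M * q * q)) : LaurentSeries K) = x := by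
  rw [sqgmhB0_apply, ssvmdIncl_coe, ssvmdIncl_coe]

end Maps

section Compat

variable (𝔸 : ValuationSubring Qb) (E' : IntermediateField ℚ Qb) (N q : ℕ) [NeZero N] [NeZero q]

/-- the inclusion is compatible with the constants of `𝔸 ∩ E'` -/
theorem sqgmh_incl_algebraMap (a : ↥(s18dVal 𝔸 E')) :
    ssvmdIncl E' N q (algebraMap ↥(s18dVal 𝔸 E') (modularFunctionFieldFullC E' N) a) =
      algebraMap ↥(s18dVal 𝔸 E') (modularFunctionFieldFullC E' (N * q)) a := by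
  rw [IsScalarTower.algebraMap_apply ↥(s18dVal 𝔸 E') E' (modularFunctionFieldFullC E' N),
    IsScalarTower.algebraMap_apply ↥(s18dVal 𝔸 E') E' (modularFunctionFieldFullC E' (N * q))]
  exact (ssvmdIncl E' N q).commutes _

/-- `φ` is compatible with the constants of `𝔸 ∩ E'` -/
theorem sqgmh_phi_algebraMap (a : ↥(s18dVal 𝔸 E')) :
    ssvmfPhi E' N q (algebraMap ↥(s18dVal 𝔸 E') (modularFunctionFieldFullC E' N) a) =
      algebraMap ↥(s18dVal 𝔸 E') (modularFunctionFieldFullC E' (N * q)) a := by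
  rw [IsScalarTower.algebraMap_apply ↥(s18dVal 𝔸 E') E' (modularFunctionFieldFullC E' N),
    IsScalarTower.algebraMap_apply ↥(s18dVal 𝔸 E') E' (modularFunctionFieldFullC E' (N * q))]
  exact ssgq_phi_algebraMap E' N q _

end Compat

section Generic

variable {q : ℕ} [NeZero q] (𝔸 : ValuationSubring Qb)
  (E' : IntermediateField ℚ Qb) [IsDiscreteValuationRing ↥(s18dVal 𝔸 E')]
variable (M : ℕ) [NeZero M]

theorem sqgmhB0_algebraMap (a : ↥(s18dVal 𝔸 E')) :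
    sqgmhB0 E' M q (algebraMap ↥(s18dVal 𝔸 E') (modularFunctionFieldFullC E' M) a) =
      algebraMap ↥(s18dVal 𝔸 E') (modularFunctionFieldFullC E' (M * q * q)) a := by
  rw [sqgmhB0_apply, sqgmh_incl_algebraMap, sqgmh_incl_algebraMap]

theorem sqgmhB2_algebraMap (a : ↥(s18dVal 𝔸 E')) :
    sqgmhB2 E' M q (algebraMap ↥(s18dVal 𝔸 E') (modularFunctionFieldFullC E' M) a) =
      algebraMap ↥(s18dVal 𝔸 E') (modularFunctionFieldFullC E' (M * q * q)) a := by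
  rw [sqgmhB2_apply, sqgmh_phi_algebraMap, sqgmh_phi_algebraMap]

/-- the level structure of `β₀` for a chart coordinate `s` and `t = β₀ s` -/
theorem sqgmh_level₀ (s : modularFunctionFieldFullC E' M) (ϖ₀ : ↥(s18dVal 𝔸 E')) :
    SsgaLevel (RingHom.id ↥(s18dVal 𝔸 E')) (sqgmhB0 E' M q) ϖ₀ ϖ₀ s (sqgmhB0 E' M q s) :=
  ⟨fun a => by rw [RingHom.id_apply, sqgmhB0_algebraMap], rfl,
    ⟨1, by rw [RingHom.id_apply, mul_one]⟩⟩

/-- the level structure of `β₂` for a chart coordinate `s` and the chart `β₂ s` -/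
theorem sqgmh_level₂ (s : modularFunctionFieldFullC E' M) (ϖ₀ : ↥(s18dVal 𝔸 E')) :
    SsgaLevel (RingHom.id ↥(s18dVal 𝔸 E')) (sqgmhB2 E' M q) ϖ₀ ϖ₀ s (sqgmhB2 E' M q s) :=
  ⟨fun a => by rw [RingHom.id_apply, sqgmhB2_algebraMap], rfl,
    ⟨1, by rw [RingHom.id_apply, mul_one]⟩⟩

/-- **THE CONCRETE `SqgHyp`** over one number field `E'`, generic chart coordinate `s` of `F_{E'}(M)`,
`t = β₀ s` : the fields `level`, `compat₂` hold for the modular tower; (VAL²) `three`, good reduction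
`good` and the residue surjections are the inputs. -/
theorem sqgmh_hyp (s : modularFunctionFieldFullC E' M) (ϖ₀ : ↥(s18dVal 𝔸 E'))
    (hϖ₀ : Irreducible ϖ₀) (good : GrdfbHyp hϖ₀ s) {e₂ : ℕ}
    {V₁ V₂ V₃ : ValuationSubring (modularFunctionFieldFullC E' (M * q * q))}
    (three : SqgaThree ϖ₀ (sqgmhB0 E' M q s) e₂ V₁ V₂ V₃)
    (surj₁ : ∀ p ∈ s18tInt ↥(s18dVal 𝔸 E') (sqgmhB0 E' M q s),
      ∃ b ∈ s18tInt ↥(s18dVal 𝔸 E') s, p - sqgmhB0 E' M q b ∈ V₁.nonunits)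
    (surj₂ : ∀ p ∈ s18tInt ↥(s18dVal 𝔸 E') (sqgmhB0 E' M q s),
      ∃ b ∈ s18tInt ↥(s18dVal 𝔸 E') s, p - sqgmhB0 E' M q b ∈ V₂.nonunits)
    (surj₃ : ∀ p ∈ s18tInt ↥(s18dVal 𝔸 E') (sqgmhB0 E' M q s),
      ∃ b ∈ s18tInt ↥(s18dVal 𝔸 E') s, p - sqgmhB2 E' M q b ∈ V₃.nonunits) :
    SqgHyp hϖ₀ (RingHom.id ↥(s18dVal 𝔸 E')) (sqgmhB0 E' M q) (sqgmhB2 E' M q) ϖ₀ s
      (sqgmhB0 E' M q s) e₂ V₁ V₂ V₃ :=
  { level := sqgmh_level₀ 𝔸 E' M s ϖ₀
    compat₂ := (sqgmh_level₂ 𝔸 E' M s ϖ₀).compat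
    three := three
    good := good
    surj₁ := surj₁
    surj₂ := surj₂
    surj₃ := surj₃ }

/-- **THE CONCRETE `SqgHyp` FROM THE TWO STEPS** (`sqgcp_hyp`) : the residue surjections are derived
from the one-step residue statements at level `M q` (for `W₁, W₂`) and at level `M q q`. -/
theorem sqgmh_hyp_of_steps (s : modularFunctionFieldFullC E' M) (ϖ₀ : ↥(s18dVal 𝔸 E'))
    (hϖ₀ : Irreducible ϖ₀) (good : GrdfbHyp hϖ₀ s) {e₂ : ℕ}
    {W₁ W₂ : ValuationSubring (modularFunctionFieldFullC E' (M * q))}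
    {V₁ V₂ V₃ : ValuationSubring (modularFunctionFieldFullC E' (M * q * q))}
    (three : SqgaThree ϖ₀ (sqgmhB0 E' M q s) e₂ V₁ V₂ V₃)
    -- level one
    (g₁ : ∀ x ∈ s18tIntLoc ↥(s18dVal 𝔸 E') s (C ϖ₀) (s18t_prime_C hϖ₀), ssvmdIncl E' M q x ∈ W₁)
    (g₂ : ∀ x ∈ s18tIntLoc ↥(s18dVal 𝔸 E') s (C ϖ₀) (s18t_prime_C hϖ₀), ssvmfPhi E' M q x ∈ W₂)
    (r₁ : ∀ x ∈ W₁, ∃ r ∈ s18tIntLoc ↥(s18dVal 𝔸 E') s (C ϖ₀) (s18t_prime_C hϖ₀),
      x - ssvmdIncl E' M q r ∈ W₁.nonunits)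
    (r₂ : ∀ x ∈ W₂, ∃ r ∈ s18tIntLoc ↥(s18dVal 𝔸 E') s (C ϖ₀) (s18t_prime_C hϖ₀),
      x - ssvmfPhi E' M q r ∈ W₂.nonunits)
    -- level two
    (posα₁ : V₁.comap ((ssvmdIncl E' (M * q) q : modularFunctionFieldFullC E' (M * q) →ₐ[E']
      modularFunctionFieldFullC E' (M * q * q)) : modularFunctionFieldFullC E' (M * q) →+*
        modularFunctionFieldFullC E' (M * q * q)) = W₁)
    (posα₂ : V₂.comap ((ssvmdIncl E' (M * q) q : modularFunctionFieldFullC E' (M * q) →ₐ[E']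
      modularFunctionFieldFullC E' (M * q * q)) : modularFunctionFieldFullC E' (M * q) →+*
        modularFunctionFieldFullC E' (M * q * q)) = W₁)
    (posφ₃ : V₃.comap (ssvmfPhi E' (M * q) q) = W₂)
    (res₁α : ∀ x ∈ V₁, ∃ r ∈ W₁, x - ssvmdIncl E' (M * q) q r ∈ V₁.nonunits)
    (res₂α : ∀ x ∈ V₂, ∃ r ∈ W₁, x - ssvmdIncl E' (M * q) q r ∈ V₂.nonunits)
    (res₃φ : ∀ x ∈ V₃, ∃ r ∈ W₂, x - ssvmfPhi E' (M * q) q r ∈ V₃.nonunits)
    -- the chart on the third component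
    (c₀ : (↥(s18dVal 𝔸 E'))[X])
    (hcong₃ : sqgmhB0 E' M q s - sqgmhB2 E' M q (aeval s c₀) ∈ V₃.nonunits) :
    SqgHyp hϖ₀ (RingHom.id ↥(s18dVal 𝔸 E')) (sqgmhB0 E' M q) (sqgmhB2 E' M q) ϖ₀ s
      (sqgmhB0 E' M q s) e₂ V₁ V₂ V₃ :=
  sqgcp_hyp hϖ₀ (sqgmh_level₀ 𝔸 E' M s ϖ₀) (sqgmh_level₂ 𝔸 E' M s ϖ₀).compat three good
    (fun a => ⟨a, 0, by rw [RingHom.id_apply, mul_zero, add_zero]⟩)
    g₁ g₂ r₁ r₂ posα₁ posα₂ posφ₃ res₁α res₂α res₃φ c₀ hcong₃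

/-- **`SqgaPos` ALONG `α`** (the inclusion `F_{E'}(M q) → F_{E'}(M q q)`), for every chart `t₁` of
`F_{E'}(M q)` and `t = α t₁`. -/
theorem sqgmh_posα (t₁ : modularFunctionFieldFullC E' (M * q)) (ϖ₀ : ↥(s18dVal 𝔸 E'))
    {W₁ W₂ : ValuationSubring (modularFunctionFieldFullC E' (M * q))}
    {V₁ V₂ V₃ : ValuationSubring (modularFunctionFieldFullC E' (M * q * q))}
    (unif : S18IsUnif W₁ (algebraMap ↥(s18dVal 𝔸 E') (modularFunctionFieldFullC E' (M * q)) ϖ₀))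
    (h₁ : V₁.comap ((ssvmdIncl E' (M * q) q : modularFunctionFieldFullC E' (M * q) →ₐ[E']
      modularFunctionFieldFullC E' (M * q * q)) : modularFunctionFieldFullC E' (M * q) →+*
        modularFunctionFieldFullC E' (M * q * q)) = W₁)
    (h₂ : V₂.comap ((ssvmdIncl E' (M * q) q : modularFunctionFieldFullC E' (M * q) →ₐ[E']
      modularFunctionFieldFullC E' (M * q * q)) : modularFunctionFieldFullC E' (M * q) →+*
        modularFunctionFieldFullC E' (M * q * q)) = W₁)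
    (h₃ : V₃.comap ((ssvmdIncl E' (M * q) q : modularFunctionFieldFullC E' (M * q) →ₐ[E']
      modularFunctionFieldFullC E' (M * q * q)) : modularFunctionFieldFullC E' (M * q) →+*
        modularFunctionFieldFullC E' (M * q * q)) = W₂) :
    SqgaPos ((ssvmdIncl E' (M * q) q : modularFunctionFieldFullC E' (M * q) →ₐ[E']
      modularFunctionFieldFullC E' (M * q * q)) : modularFunctionFieldFullC E' (M * q) →+*
        modularFunctionFieldFullC E' (M * q * q)) ϖ₀ t₁ (ssvmdIncl E' (M * q) q t₁) W₁ W₂ V₁ V₂ V₃ :=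
  sqgcp_pos (sqgmh_incl_algebraMap 𝔸 E' (M * q) q)
    (fun x hx => ssgq_map_mem_int _ (sqgmh_incl_algebraMap 𝔸 E' (M * q) q) t₁ _
      (s18tc_self_mem_int _) hx) unif h₁ h₂ h₃

/-- **`SqgaPos` ALONG `φ`** (`𝐪 ↦ 𝐪^q`, `F_{E'}(M q) → F_{E'}(M q q)`), for charts `t₁`, `t` with
`φ t₁ ∈ P = s18tInt A t`. -/
theorem sqgmh_posφ (t₁ : modularFunctionFieldFullC E' (M * q))
    (t : modularFunctionFieldFullC E' (M * q * q))
    (hφt : ssvmfPhi E' (M * q) q t₁ ∈ s18tInt ↥(s18dVal 𝔸 E') t) (ϖ₀ : ↥(s18dVal 𝔸 E'))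
    {W₁ W₂ : ValuationSubring (modularFunctionFieldFullC E' (M * q))}
    {V₁ V₂ V₃ : ValuationSubring (modularFunctionFieldFullC E' (M * q * q))}
    (unif : S18IsUnif W₂ (algebraMap ↥(s18dVal 𝔸 E') (modularFunctionFieldFullC E' (M * q)) ϖ₀))
    (h₃ : V₃.comap (ssvmfPhi E' (M * q) q) = W₂) (h₂ : V₂.comap (ssvmfPhi E' (M * q) q) = W₂)
    (h₁ : V₁.comap (ssvmfPhi E' (M * q) q) = W₁) :
    SqgaPos (ssvmfPhi E' (M * q) q) ϖ₀ t₁ t W₂ W₁ V₃ V₂ V₁ :=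
  sqgcp_pos (sqgmh_phi_algebraMap 𝔸 E' (M * q) q)
    (fun x hx => ssgq_map_mem_int _ (sqgmh_phi_algebraMap 𝔸 E' (M * q) q) t₁ t hφt hx)
    unif h₃ h₂ h₁

/-- **`hloc₂`** of `sqgm_germ` : `β₂ P₀ ⊆ P ⊆ P_𝔫` as soon as `β₂ s ∈ P`. -/
theorem sqgmh_loc₂ (s : modularFunctionFieldFullC E' M)
    (t : modularFunctionFieldFullC E' (M * q * q))
    (hβt : sqgmhB2 E' M q s ∈ s18tInt ↥(s18dVal 𝔸 E') t)
    (𝔫 : Ideal ↥(s18tInt ↥(s18dVal 𝔸 E') t)) [h𝔫 : 𝔫.IsPrime] :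
    ∀ b ∈ s18tInt ↥(s18dVal 𝔸 E') s, sqgmhB2 E' M q b ∈ ssLocRing t 𝔫 :=
  ssgm_loc_of_int fun b hb =>
    ssgq_map_mem_int (sqgmhB2 E' M q) (sqgmhB2_algebraMap 𝔸 E' M) s t hβt hb

end Generic

end Fermat.Agent.SQ
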