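import Mathlib
import Fermat.Agent.SQ.Conc.Chart
import Fermat.Agent.SQ.ThreeLoc
import Fermat.Agent.SS.Geo.CuspSep
import Fermat.Agent.SS.K.Krull
import Fermat.Agent.SS.Val.ModALRes
import Fermat.Agent.SS.Germ.ModSingle

/-!
# Program Q (S36), package SQ/Germ : THE CUSPS OF LEVEL `q²` IN THE CHART `h_a⁻¹`, `q ∈ {2, 3}`
(leaf (H) of the plan (A-inf); prefix `sqgch`)

For `t = h_a` both charts `h`, `u = h⁻¹` are of finite type, so the finite-chart theorem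
(`sqgad_h0` of `SQ/Germ/Adapt.lean`) gives `SqSimpleAt ∨ SqTripleAt` at every closed point of the chart
`u`.  This file proves that A CLOSED POINT `𝔫 ∋ u` (A CUSP POINT) IS NOT A TRIPLE POINT : it does not lie on
`V₁` and on `V₃`.

ABSTRACT (setting of `SS/Geo/NewtonAbs.lean` : Hauptmodul relations `SsgnHaupt` for `(j, j_a, h)` and
`(j_q, j_{aq}, h_q)`, the modular polynomial `SsgnModPoly` for `(j, j_q)` and `(j_a, j_{aq})`) :
* `sqgch_val_le` : `v h ≥ 1 ⟹ v h_q ≤ (v h)^q` (Newton polygon);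
* `sqgch_sep_mem` : THE SEPARATING FUNCTION `f₁ = u^q h_q` LIES IN `Q = s18tInt A u`;
* `sqgch_cusp_mem` : `u ∈ 𝔫 ⟹ h_q⁻¹ ∈ 𝔫` (every cusp point of the chart `u` is a pole of `h_q`);
* `sqgch_not_cross` : `h_q ≡ h^q mod 𝔪_{V₁}`, `h_q^q ≡ h mod 𝔪_{V₃}`, `u ∈ 𝔫` ⟹
  `¬ (SqtOn V₁ u 𝔫 ∧ SqtOn V₃ u 𝔫)` (`ssgc_no_cross` with `s := u`, `y := h_q`).

* `sqgch_no_cross_gen` : the generic form of `ssgc_no_cross` (`w ∈ 𝔫` any element, not the chart coordinate).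

MODULAR (`F_E(M) ⊂ F_E(M q) ⊂ F_E(M q q)`, `h₀ = ssgH E M a`, `h_q = α (φ₁ h₀) = φ (α₁ h₀)`,
`h_qq = φ (φ₁ h₀)`) :
* `sqgch_sep_mem_mod`, `sqgch_cusp_mem_mod` : `u^q · φ h ∈ s18tInt A u`, `u ∈ 𝔫 ⟹ (φ h)⁻¹ ∈ 𝔫` at level `N q`
  for every level `N`; `sqgch_sep_mem_top`;
* `sqgch_not_triple` : THE LITERAL OF THE PLAN `¬ (SqtOn V₁ u 𝔫 ∧ SqtOn V₃ u 𝔫)`, from the positions in the
  weak form `α 𝔪_{W₁} ⊆ 𝔪_{V₁}`, `α 𝔪_{W₂} ⊆ 𝔪_{V₃}` and the two Frobenius congruences of level `M q` on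
  `W₁`, `W₂`; `sqgch_not_triple_pos` (positions as `V.comap α = W`); `sqgch_not_cross₁₂` (the pair
  `V₁, V₂`, positions along `φ`);
* `sqgch_red_fixed`, `sqgch_cong_int`, `sqgch_cong_h`, `sqgch_cong_j` : the Frobenius congruences
  `φ₁ t₀ ≡ (α₁ t₀)^q mod 𝔪_{W₁}`, `(φ₁ t₀)^q ≡ α₁ t₀ mod 𝔪_{W₂}` for `W_i = h.V_i` (a witness `h` of the
  ambient (VAL) package) and `t₀` given by an INTEGER series (`t₀ = h_a`, `j`);
* `sqgch_not_triple_amb`, `sqgch_cusp_one_amb` : for `W_i = h.V_i` : A CUSP POINT OF THE CHART `u` LIES ON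
  AT MOST ONE COMPONENT (`h12`, `h13`, `h23` of `sqgm_germ_simple`), from `Q ⊆ V_i` and five positions.
-/

set_option autoImplicit false
set_option linter.unusedSectionVars false
set_option linter.unusedVariables false
set_option linter.style.haveILetI false
set_option synthInstance.maxHeartbeats 400000

noncomputable section

namespace Fermat.Agent.SQ

open Polynomial ModularCurve AlgebraicCurve IntermediateField IsLocalRing Fermat.Agent.S18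
  Fermat.Agent.G Fermat.Agent.SS

local notation "Qb" => AlgebraicClosure ℚ

/-! ### abstract : the separating function -/

section Abs

variable {A F : Type*} [CommRing A] [Field F] [Algebra A F]
variable {a q : ℕ} {R₁ R₂ : A[X]} {j ja h jq jaq hq : F} {Φ : A[X][X]}

/-- `v h ≥ 1 ⟹ v h_q ≤ (v h)^q`. -/
theorem sqgch_val_le {Γ₀ : Type*} [LinearOrderedCommGroupWithZero Γ₀] (v : Valuation F Γ₀)
    (hA : ∀ a : A, v (algebraMap A F a) ≤ 1)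
    (H : SsgnHaupt A F a R₁ R₂ j ja h) (Hq : SsgnHaupt A F a R₁ R₂ jq jaq hq)
    (ha : 2 ≤ a) (hq2 : 2 ≤ q) (haq : a ≠ q)
    (MP1 : SsgnModPoly A F j jq q Φ) (MP2 : SsgnModPoly A F ja jaq q Φ)
    (hh : 1 ≤ v h) : v hq ≤ v h ^ q := by
  have NP1 : 1 < v j → v jq = v j ^ q ∨ v jq ^ q = v j := fun hj => ssgn_newton v hA MP1 hq2 hj
  have NP2 : 1 < v ja → v jaq = v ja ^ q ∨ v jaq ^ q = v ja :=
    fun hj => ssgn_newton v hA MP2 hq2 hj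
  have INT : v j ≤ 1 → v jq ≤ 1 := fun hj => ssgn_int_of_le v hA MP1 hj
  rcases hh.lt_or_eq with hlt | heq
  · -- `v h > 1`
    have hbig : 1 < v hq := ssgn_cusp_infty v H Hq hA ha hq2 haq NP1 NP2 hlt
    obtain ⟨b1, -⟩ := H.big v hA hlt
    obtain ⟨c1, -⟩ := Hq.big v hA hbig
    have hj1 : 1 < v j := by rw [b1]; exact hlt
    rcases NP1 hj1 with e | e
    · rw [c1, b1] at e
      exact e.le
    · rw [c1, b1] at e
      calc v hq = v hq ^ 1 := (pow_one _).symm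
        _ ≤ v hq ^ q := pow_le_pow_right₀ hbig.le (by omega)
        _ = v h := e
        _ = v h ^ 1 := (pow_one _).symm
        _ ≤ v h ^ q := pow_le_pow_right₀ hlt.le (by omega)
  · -- `v h = 1`
    rw [← heq, one_pow]
    exact ssgn_le_one v H Hq hA ha hq2 haq NP1 NP2 INT heq.symm.le

/-- **THE SEPARATING FUNCTION** `u^q h_q ∈ s18tInt A u`, `u = h⁻¹`. -/
theorem sqgch_sep_mem (H : SsgnHaupt A F a R₁ R₂ j ja h) (Hq : SsgnHaupt A F a R₁ R₂ jq jaq hq)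
    (ha : 2 ≤ a) (hq2 : 2 ≤ q) (haq : a ≠ q)
    (MP1 : SsgnModPoly A F j jq q Φ) (MP2 : SsgnModPoly A F ja jaq q Φ) :
    h⁻¹ ^ q * hq ∈ s18tInt A h⁻¹ := by
  refine ssgn_mem_int_of_forall h⁻¹ (h⁻¹ ^ q * hq) fun V hA hu => ?_
  rw [← V.valuation_le_one_iff] at hu ⊢
  have hA' := ssgn_valuation_le_one V hA
  have hne : h ≠ 0 := H.ne_zero V.valuation hA'
  have hvh : V.valuation h ≠ 0 := (Valuation.ne_zero_iff _).mpr hne
  have hpos : 0 < V.valuation h := zero_lt_iff.mpr hvh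
  rw [map_inv₀, inv_le_one₀ hpos] at hu
  have hle := sqgch_val_le V.valuation hA' H Hq ha hq2 haq MP1 MP2 hu
  rw [map_mul, map_pow, map_inv₀, inv_pow]
  rw [inv_mul_le_iff₀ (pow_pos hpos q), mul_one]
  exact hle

/-- at a valuation with `v u < 1` : `v h_q⁻¹ < 1`. -/
theorem sqgch_val_cusp {Γ₀ : Type*} [LinearOrderedCommGroupWithZero Γ₀] (v : Valuation F Γ₀)
    (hA : ∀ a : A, v (algebraMap A F a) ≤ 1)
    (H : SsgnHaupt A F a R₁ R₂ j ja h) (Hq : SsgnHaupt A F a R₁ R₂ jq jaq hq)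
    (ha : 2 ≤ a) (hq2 : 2 ≤ q) (haq : a ≠ q)
    (MP1 : SsgnModPoly A F j jq q Φ) (MP2 : SsgnModPoly A F ja jaq q Φ)
    (hu : v h⁻¹ < 1) : v hq⁻¹ < 1 := by
  have hne : h ≠ 0 := H.ne_zero v hA
  have hqne : hq ≠ 0 := Hq.ne_zero v hA
  have hvh : v h ≠ 0 := (Valuation.ne_zero_iff v).mpr hne
  have hvhq : v hq ≠ 0 := (Valuation.ne_zero_iff v).mpr hqne
  rw [map_inv₀, inv_lt_one₀ (zero_lt_iff.mpr hvh)] at hu
  rw [map_inv₀, inv_lt_one₀ (zero_lt_iff.mpr hvhq)]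
  exact ssgn_cusp_infty v H Hq hA ha hq2 haq
    (fun hj => ssgn_newton v hA MP1 hq2 hj) (fun hj => ssgn_newton v hA MP2 hq2 hj) hu

/-- **EVERY CUSP POINT OF THE CHART `u = h⁻¹` IS A POLE OF `h_q`** : `u ∈ 𝔫 ⟹ h_q⁻¹ ∈ 𝔫`. -/
theorem sqgch_cusp_mem (H : SsgnHaupt A F a R₁ R₂ j ja h) (Hq : SsgnHaupt A F a R₁ R₂ jq jaq hq)
    (ha : 2 ≤ a) (hq2 : 2 ≤ q) (haq : a ≠ q)
    (MP1 : SsgnModPoly A F j jq q Φ) (MP2 : SsgnModPoly A F ja jaq q Φ)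
    (𝔫 : Ideal ↥(s18tInt A h⁻¹)) [h𝔫 : 𝔫.IsPrime]
    (hcusp : (⟨h⁻¹, ssgn_self_mem_int h⁻¹⟩ : ↥(s18tInt A h⁻¹)) ∈ 𝔫) :
    (⟨hq⁻¹, ssgn_hq_inv_mem_int H Hq ha hq2 haq MP1 MP2⟩ : ↥(s18tInt A h⁻¹)) ∈ 𝔫 := by
  obtain ⟨V, hle, hV⟩ := sskr_exists_valuationSubring (s18tInt A h⁻¹) 𝔫
  have hA : ∀ a : A, algebraMap A F a ∈ V := fun a => hle (ssgn_algebraMap_mem_int h⁻¹ a)
  have hA' := ssgn_valuation_le_one V hA
  have h1 : V.valuation h⁻¹ < 1 := (V.mem_nonunits_iff).mp ((hV _).mpr hcusp)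
  have h2 := sqgch_val_cusp V.valuation hA' H Hq ha hq2 haq MP1 MP2 h1
  exact (hV ⟨hq⁻¹, _⟩).mp ((V.mem_nonunits_iff).mpr h2)

end Abs

/-! ### abstract : a cusp point of the chart `u = h⁻¹` does not lie on `V₁` and on `V₃` -/

section NoCross

variable {A : Type*} [CommRing A] [IsDomain A] [IsDiscreteValuationRing A] [CharZero A]
variable {F : Type*} [Field F] [Algebra A F]

/-- **NO CUSP POINT LIES ON `V₁` AND ON `V₃`** : `y ≡ h^q mod 𝔪_{V₁}`, `y^q ≡ h mod 𝔪_{V₃}` and the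
separating function `u^q y ∈ Q`. -/
theorem sqgch_not_cross (h y : F) (q : ℕ) (hq : 2 ≤ q) (h0 : h ≠ 0) (V₁ V₃ : ValuationSubring F)
    (hQ₁ : ∀ x ∈ s18tInt A h⁻¹, x ∈ V₁) (hQ₃ : ∀ x ∈ s18tInt A h⁻¹, x ∈ V₃)
    (hf : h⁻¹ ^ q * y ∈ s18tInt A h⁻¹)
    (h₁ : y - h ^ q ∈ V₁.nonunits) (h₃ : y ^ q - h ∈ V₃.nonunits)
    (𝔫 : Ideal ↥(s18tInt A h⁻¹)) [h𝔫 : 𝔫.IsPrime] (hu : ssglTinv (A := A) h ∈ 𝔫) :
    ¬ (SqtOn V₁ h⁻¹ 𝔫 ∧ SqtOn V₃ h⁻¹ 𝔫) := by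
  rintro ⟨hon₁, hon₃⟩
  refine ssgc_no_cross h⁻¹ y q hq (inv_ne_zero h0) V₁ V₃ hQ₁ hQ₃ hf ?_ ?_ 𝔫 hu hon₁ hon₃
  · rw [inv_inv]; exact h₁
  · rw [inv_inv]; exact h₃

/-- **NO CROSSING AT A COMMON POLE**, generic form of `ssgc_no_cross` : `w ∈ 𝔫` ANY element of the closed
point (not necessarily the chart coordinate), `y` with `w^q y ∈ Q`, `y ≡ w^{-q} mod 𝔪_V`,
`y^q ≡ w⁻¹ mod 𝔪_{V'}` ⟹ `𝔫` does not lie on `V` and on `V'`. -/
theorem sqgch_no_cross_gen (s w y : F) (q : ℕ) (hq : 2 ≤ q) (hw0 : w ≠ 0)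
    (V V' : ValuationSubring F)
    (hQ : ∀ x ∈ s18tInt A s, x ∈ V) (hQ' : ∀ x ∈ s18tInt A s, x ∈ V')
    (hw : w ∈ s18tInt A s) (hf : w ^ q * y ∈ s18tInt A s)
    (h₁ : y - (w⁻¹) ^ q ∈ V.nonunits) (h₂ : y ^ q - w⁻¹ ∈ V'.nonunits)
    (𝔫 : Ideal ↥(s18tInt A s)) [h𝔫 : 𝔫.IsPrime]
    (hw𝔫 : (⟨w, hw⟩ : ↥(s18tInt A s)) ∈ 𝔫) :
    ¬ (SqtOn V s 𝔫 ∧ SqtOn V' s 𝔫) := by
  rintro ⟨h𝔭₁, h𝔭₂⟩
  set S : ↥(s18tInt A s) := ⟨w, hw⟩ with hS
  set f : ↥(s18tInt A s) := ⟨w ^ q * y, hf⟩ with hfdef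
  have nu_mul : ∀ (U : ValuationSubring F) {a b : F}, a ∈ U → b ∈ U.nonunits →
      a * b ∈ U.nonunits := by
    intro U a b ha hb
    rw [U.mem_nonunits_iff] at hb ⊢
    rw [map_mul]
    have ha' := (U.valuation_le_one_iff a).mpr ha
    calc U.valuation a * U.valuation b ≤ 1 * U.valuation b := mul_le_mul_left ha' _
      _ = U.valuation b := one_mul _
      _ < 1 := hb
  -- `f - 1 ∈ 𝔭_V`
  have h1 : f - 1 ∈ 𝔫 := by
    apply h𝔭₁
    have e : ((f - 1 : ↥(s18tInt A s)) : F) = w ^ q * (y - (w⁻¹) ^ q) := by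
      push_cast
      rw [hfdef, mul_sub, ← mul_pow, mul_inv_cancel₀ hw0, one_pow]
    rw [e]
    exact nu_mul V (pow_mem (hQ w hw) q) h₁
  -- `f^q - w^(q²-1) ∈ 𝔭_{V'}`
  have h2 : f ^ q - S ^ (q * q - 1) ∈ 𝔫 := by
    apply h𝔭₂
    have hqq : q * q = (q * q - 1) + 1 := by
      have : 1 ≤ q * q := Nat.one_le_iff_ne_zero.mpr (by positivity)
      omega
    have e : ((f ^ q - S ^ (q * q - 1) : ↥(s18tInt A s)) : F) = w ^ (q * q) * (y ^ q - w⁻¹) := by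
      push_cast
      rw [hfdef, hS]
      simp only
      rw [mul_sub, mul_pow, ← pow_mul]
      congr 1
      conv_rhs => rw [hqq, pow_succ, mul_assoc, mul_inv_cancel₀ hw0, mul_one]
    rw [e]
    exact nu_mul V' (pow_mem (hQ' w hw) _) h₂
  have hSpow : S ^ (q * q - 1) ∈ 𝔫 := by
    apply 𝔫.pow_mem_of_mem hw𝔫
    have : 4 ≤ q * q := by nlinarith
    omega
  have hfq : f ^ q ∈ 𝔫 := by
    have := 𝔫.add_mem h2 hSpow
    rwa [sub_add_cancel] at this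
  have hf𝔫 : f ∈ 𝔫 := h𝔫.mem_of_pow_mem q hfq
  have h1' : (1 : ↥(s18tInt A s)) ∈ 𝔫 := by
    have := 𝔫.sub_mem hf𝔫 h1
    rwa [sub_sub_cancel] at this
  exact h𝔫.ne_top ((Ideal.eq_top_iff_one _).mpr h1')

end NoCross

/-! ### modular, level-generic : the separating function in `F_E(N q)` -/

section Mod

variable (A : ValuationSubring Qb) (E : IntermediateField ℚ Qb) (N q : ℕ) [NeZero N] [NeZero q]
variable {Φ : (↥(s18dVal A E))[X][X]}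

/-- `u^q · h_a(𝐪^q) ∈ s18tInt A u`, `u = h_a⁻¹`, in `F_E(N q)`. -/
theorem sqgch_sep_mem_mod (a : ℕ) [NeZero a] (ha : a = 2 ∨ a = 3) (haN : a ∣ N)
    (hq2 : 2 ≤ q) (haq : a ≠ q) (hu : IsUnit ((a : ℕ) : ↥(s18dVal A E)))
    (MP : SsgnModPoly ↥(s18dVal A E) (LaurentSeries E) (jqModC E) (qExpand E q (jqModC E)) q Φ) :
    (ssgH E (N * q) a ha (haN.mul_right q))⁻¹ ^ q * ssvmfPhi E N q (ssgH E N a ha haN) ∈
      s18tInt ↥(s18dVal A E) (ssgH E (N * q) a ha (haN.mul_right q))⁻¹ := by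
  have ha2 : 2 ≤ a := by rcases ha with rfl | rfl <;> norm_num
  rw [ssgnp_phi_eq]
  rcases ha with rfl | rfl
  · obtain ⟨HF, HqF, MP1, MP2⟩ := sqcch_haupt_data A E N q 2 (Or.inl rfl) haN
      (ssgn_haupt_two A E hu) MP
    exact sqgch_sep_mem HF HqF ha2 hq2 haq MP1 MP2
  · obtain ⟨HF, HqF, MP1, MP2⟩ := sqcch_haupt_data A E N q 3 (Or.inr rfl) haN
      (ssgn_haupt_three A E hu) MP
    exact sqgch_sep_mem HF HqF ha2 hq2 haq MP1 MP2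

/-- every cusp point of the chart `u = h_a⁻¹` of `F_E(N q)` is a pole of `h_a(𝐪^q)`. -/
theorem sqgch_cusp_mem_mod (a : ℕ) [NeZero a] (ha : a = 2 ∨ a = 3) (haN : a ∣ N)
    (hq2 : 2 ≤ q) (haq : a ≠ q) (hu : IsUnit ((a : ℕ) : ↥(s18dVal A E)))
    (MP : SsgnModPoly ↥(s18dVal A E) (LaurentSeries E) (jqModC E) (qExpand E q (jqModC E)) q Φ)
    (𝔫 : Ideal ↥(s18tInt ↥(s18dVal A E) (ssgH E (N * q) a ha (haN.mul_right q))⁻¹))
    [h𝔫 : 𝔫.IsPrime]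
    (hcusp : (⟨(ssgH E (N * q) a ha (haN.mul_right q))⁻¹, ssgn_self_mem_int _⟩ :
      ↥(s18tInt ↥(s18dVal A E) (ssgH E (N * q) a ha (haN.mul_right q))⁻¹)) ∈ 𝔫)
    (hmem : (ssvmfPhi E N q (ssgH E N a ha haN))⁻¹ ∈
      s18tInt ↥(s18dVal A E) (ssgH E (N * q) a ha (haN.mul_right q))⁻¹) :
    (⟨(ssvmfPhi E N q (ssgH E N a ha haN))⁻¹, hmem⟩ :
      ↥(s18tInt ↥(s18dVal A E) (ssgH E (N * q) a ha (haN.mul_right q))⁻¹)) ∈ 𝔫 := by
  have ha2 : 2 ≤ a := by rcases ha with rfl | rfl <;> norm_num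
  have key : ∀ (y : modularFunctionFieldFullC E (N * q)) (hy : y = ssgnPhi E N q (ssgH E N a ha haN))
      (hm : y⁻¹ ∈ s18tInt ↥(s18dVal A E) (ssgH E (N * q) a ha (haN.mul_right q))⁻¹),
      (⟨y⁻¹, hm⟩ : ↥(s18tInt ↥(s18dVal A E) (ssgH E (N * q) a ha (haN.mul_right q))⁻¹)) ∈ 𝔫 := by
    rintro y rfl hm
    rcases ha with rfl | rfl
    · obtain ⟨HF, HqF, MP1, MP2⟩ := sqcch_haupt_data A E N q 2 (Or.inl rfl) haN
        (ssgn_haupt_two A E hu) MP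
      exact sqgch_cusp_mem HF HqF ha2 hq2 haq MP1 MP2 𝔫 hcusp
    · obtain ⟨HF, HqF, MP1, MP2⟩ := sqcch_haupt_data A E N q 3 (Or.inr rfl) haN
        (ssgn_haupt_three A E hu) MP
      exact sqgch_cusp_mem HF HqF ha2 hq2 haq MP1 MP2 𝔫 hcusp
  exact key _ (ssgnp_phi_eq E N q _) hmem

end Mod

/-! ### the tower `F_E(M) ⊂ F_E(M q) ⊂ F_E(M q q)` -/

section Tower

variable {q : ℕ} [NeZero q] (A : ValuationSubring Qb) (E : IntermediateField ℚ Qb)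
  [IsDiscreteValuationRing ↥(s18dVal A E)] [CharZero ↥(s18dVal A E)] (M : ℕ) [NeZero M]

/-- the separating function at the top level : `u^q · φ h₁ ∈ s18tInt A u`, `u = h_a⁻¹ ∈ F_E(M q q)`,
`h₁ = h_a ∈ F_E(M q)`. -/
theorem sqgch_sep_mem_top [Fact q.Prime] (hA : A.LiesOverPrime q) (a : ℕ) [NeZero a]
    (ha : a = 2 ∨ a = 3) (haM : a ∣ M) (haq : a ≠ q) :
    (ssgH E (M * q * q) a ha ((haM.mul_right q).mul_right q))⁻¹ ^ q *
        ssvmfPhi E (M * q) q (ssgH E (M * q) a ha (haM.mul_right q)) ∈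
      s18tInt ↥(s18dVal A E) (ssgH E (M * q * q) a ha ((haM.mul_right q).mul_right q))⁻¹ := by
  obtain ⟨Φ, MP⟩ := ssgcl_modPoly_over q A hA E
  have hqp : q.Prime := Fact.out
  have hq2 : 2 ≤ q := hqp.two_le
  have hndvd : ¬ q ∣ a := by
    intro hdvd
    have hap : a.Prime := by rcases ha with rfl | rfl <;> norm_num
    exact haq ((Nat.prime_dvd_prime_iff_eq hqp hap).mp hdvd).symm
  have hu : IsUnit ((a : ℕ) : ↥(s18dVal A E)) := s18r_isUnit_natCast A E hA a hndvd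
  exact sqgch_sep_mem_mod A E (M * q) q a ha (haM.mul_right q) hq2 haq hu MP

/-- **A CUSP POINT OF THE CHART `u = h_a⁻¹` OF LEVEL `M q q` IS NOT A TRIPLE POINT** : it does not lie on
`V₁` and on `V₃`.  Inputs : `Q = s18tInt A u ⊆ V₁, V₃`, the positions in the weak form
`α 𝔪_{W₁} ⊆ 𝔪_{V₁}`, `α 𝔪_{W₂} ⊆ 𝔪_{V₃}` and the two Frobenius congruences of level `M q` for
`h₀ = h_a ∈ F_E(M)` : `φ₁ h₀ ≡ (α₁ h₀)^q mod 𝔪_{W₁}`, `(φ₁ h₀)^q ≡ α₁ h₀ mod 𝔪_{W₂}`. -/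
theorem sqgch_not_triple [Fact q.Prime] (hA : A.LiesOverPrime q) (a : ℕ) [NeZero a]
    (ha : a = 2 ∨ a = 3) (haM : a ∣ M) (haq : a ≠ q)
    {W₁ W₂ : ValuationSubring (modularFunctionFieldFullC E (M * q))}
    {V₁ V₃ : ValuationSubring (modularFunctionFieldFullC E (M * q * q))}
    (hQ₁ : ∀ x ∈ s18tInt ↥(s18dVal A E)
      (ssgH E (M * q * q) a ha ((haM.mul_right q).mul_right q))⁻¹, x ∈ V₁)
    (hQ₃ : ∀ x ∈ s18tInt ↥(s18dVal A E)
      (ssgH E (M * q * q) a ha ((haM.mul_right q).mul_right q))⁻¹, x ∈ V₃)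
    (hα₁ : ∀ x ∈ W₁.nonunits, ssvmdIncl E (M * q) q x ∈ V₁.nonunits)
    (hα₃ : ∀ x ∈ W₂.nonunits, ssvmdIncl E (M * q) q x ∈ V₃.nonunits)
    (hc₁ : ssvmfPhi E M q (ssgH E M a ha haM) - ssvmdIncl E M q (ssgH E M a ha haM) ^ q ∈
      W₁.nonunits)
    (hc₂ : ssvmfPhi E M q (ssgH E M a ha haM) ^ q - ssvmdIncl E M q (ssgH E M a ha haM) ∈
      W₂.nonunits)
    (𝔫 : Ideal ↥(s18tInt ↥(s18dVal A E)
      (ssgH E (M * q * q) a ha ((haM.mul_right q).mul_right q))⁻¹)) [h𝔫 : 𝔫.IsPrime]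
    (hu : ssglTinv (A := ↥(s18dVal A E))
      (ssgH E (M * q * q) a ha ((haM.mul_right q).mul_right q)) ∈ 𝔫) :
    ¬ (SqtOn V₁ (ssgH E (M * q * q) a ha ((haM.mul_right q).mul_right q))⁻¹ 𝔫 ∧
      SqtOn V₃ (ssgH E (M * q * q) a ha ((haM.mul_right q).mul_right q))⁻¹ 𝔫) := by
  have hq2 : 2 ≤ q := (Fact.out : q.Prime).two_le
  have h0 : ssgH E (M * q * q) a ha ((haM.mul_right q).mul_right q) ≠ 0 := by
    intro h0
    have ht := ssg_transcendental_h E (M * q * q) a ha ((haM.mul_right q).mul_right q)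
    rw [h0] at ht
    exact ht (isAlgebraic_zero)
  -- `y = φ h₁ = α (φ₁ h₀)`, `t = α (α₁ h₀)`
  have ey : ssvmfPhi E (M * q) q (ssgH E (M * q) a ha (haM.mul_right q)) =
      ssvmdIncl E (M * q) q (ssvmfPhi E M q (ssgH E M a ha haM)) := by
    rw [sqcch_comm, sqcch_incl_h]
  have et : ssgH E (M * q * q) a ha ((haM.mul_right q).mul_right q) =
      ssvmdIncl E (M * q) q (ssvmdIncl E M q (ssgH E M a ha haM)) := by
    rw [sqcch_incl_h, sqcch_incl_h]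
  refine sqgch_not_cross _ (ssvmfPhi E (M * q) q (ssgH E (M * q) a ha (haM.mul_right q))) q hq2 h0
    V₁ V₃ hQ₁ hQ₃ (sqgch_sep_mem_top A E M hA a ha haM haq) ?_ ?_ 𝔫 hu
  · have := hα₁ _ hc₁
    rw [ey, et]
    rw [map_sub, map_pow] at this
    exact this
  · have := hα₃ _ hc₂
    rw [ey, et]
    rw [map_sub, map_pow] at this
    exact this

/-- the same with the positions as lying-over statements `V₁.comap α = W₁`, `V₃.comap α = W₂`. -/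
theorem sqgch_not_triple_pos [Fact q.Prime] (hA : A.LiesOverPrime q) (a : ℕ) [NeZero a]
    (ha : a = 2 ∨ a = 3) (haM : a ∣ M) (haq : a ≠ q)
    {W₁ W₂ : ValuationSubring (modularFunctionFieldFullC E (M * q))}
    {V₁ V₃ : ValuationSubring (modularFunctionFieldFullC E (M * q * q))}
    (hQ₁ : ∀ x ∈ s18tInt ↥(s18dVal A E)
      (ssgH E (M * q * q) a ha ((haM.mul_right q).mul_right q))⁻¹, x ∈ V₁)
    (hQ₃ : ∀ x ∈ s18tInt ↥(s18dVal A E)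
      (ssgH E (M * q * q) a ha ((haM.mul_right q).mul_right q))⁻¹, x ∈ V₃)
    (posα₁ : V₁.comap ((ssvmdIncl E (M * q) q : modularFunctionFieldFullC E (M * q) →ₐ[E]
      modularFunctionFieldFullC E (M * q * q)) : modularFunctionFieldFullC E (M * q) →+*
        modularFunctionFieldFullC E (M * q * q)) = W₁)
    (posα₃ : V₃.comap ((ssvmdIncl E (M * q) q : modularFunctionFieldFullC E (M * q) →ₐ[E]
      modularFunctionFieldFullC E (M * q * q)) : modularFunctionFieldFullC E (M * q) →+*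
        modularFunctionFieldFullC E (M * q * q)) = W₂)
    (hc₁ : ssvmfPhi E M q (ssgH E M a ha haM) - ssvmdIncl E M q (ssgH E M a ha haM) ^ q ∈
      W₁.nonunits)
    (hc₂ : ssvmfPhi E M q (ssgH E M a ha haM) ^ q - ssvmdIncl E M q (ssgH E M a ha haM) ∈
      W₂.nonunits)
    (𝔫 : Ideal ↥(s18tInt ↥(s18dVal A E)
      (ssgH E (M * q * q) a ha ((haM.mul_right q).mul_right q))⁻¹)) [h𝔫 : 𝔫.IsPrime]
    (hu : ssglTinv (A := ↥(s18dVal A E))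
      (ssgH E (M * q * q) a ha ((haM.mul_right q).mul_right q)) ∈ 𝔫) :
    ¬ (SqtOn V₁ (ssgH E (M * q * q) a ha ((haM.mul_right q).mul_right q))⁻¹ 𝔫 ∧
      SqtOn V₃ (ssgH E (M * q * q) a ha ((haM.mul_right q).mul_right q))⁻¹ 𝔫) :=
  sqgch_not_triple A E M hA a ha haM haq hQ₁ hQ₃
    (fun x hx => sqgcp_map_nonunits posα₁ hx) (fun x hx => sqgcp_map_nonunits posα₃ hx)
    hc₁ hc₂ 𝔫 hu

/-- **A CUSP POINT OF THE CHART `u = h_a⁻¹` OF LEVEL `M q q` DOES NOT LIE ON `V₁` AND ON `V₂`** : the second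
separating function `h_q^{-q} h_qq = φ (h₁^{-q} φ₁ h₀)`, `w = (φ h₁)⁻¹ ∈ 𝔫`, the positions along `φ` in
the weak form `φ 𝔪_{W₁} ⊆ 𝔪_{V₁}`, `φ 𝔪_{W₂} ⊆ 𝔪_{V₂}`. -/
theorem sqgch_not_cross₁₂ [Fact q.Prime] (hA : A.LiesOverPrime q) (a : ℕ) [NeZero a]
    (ha : a = 2 ∨ a = 3) (haM : a ∣ M) (haq : a ≠ q)
    {W₁ W₂ : ValuationSubring (modularFunctionFieldFullC E (M * q))}
    {V₁ V₂ : ValuationSubring (modularFunctionFieldFullC E (M * q * q))}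
    (hQ₁ : ∀ x ∈ s18tInt ↥(s18dVal A E)
      (ssgH E (M * q * q) a ha ((haM.mul_right q).mul_right q))⁻¹, x ∈ V₁)
    (hQ₂ : ∀ x ∈ s18tInt ↥(s18dVal A E)
      (ssgH E (M * q * q) a ha ((haM.mul_right q).mul_right q))⁻¹, x ∈ V₂)
    (hφ₁ : ∀ x ∈ W₁.nonunits, ssvmfPhi E (M * q) q x ∈ V₁.nonunits)
    (hφ₂ : ∀ x ∈ W₂.nonunits, ssvmfPhi E (M * q) q x ∈ V₂.nonunits)
    (hc₁ : ssvmfPhi E M q (ssgH E M a ha haM) - ssvmdIncl E M q (ssgH E M a ha haM) ^ q ∈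
      W₁.nonunits)
    (hc₂ : ssvmfPhi E M q (ssgH E M a ha haM) ^ q - ssvmdIncl E M q (ssgH E M a ha haM) ∈
      W₂.nonunits)
    (𝔫 : Ideal ↥(s18tInt ↥(s18dVal A E)
      (ssgH E (M * q * q) a ha ((haM.mul_right q).mul_right q))⁻¹)) [h𝔫 : 𝔫.IsPrime]
    (hu : ssglTinv (A := ↥(s18dVal A E))
      (ssgH E (M * q * q) a ha ((haM.mul_right q).mul_right q)) ∈ 𝔫) :
    ¬ (SqtOn V₁ (ssgH E (M * q * q) a ha ((haM.mul_right q).mul_right q))⁻¹ 𝔫 ∧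
      SqtOn V₂ (ssgH E (M * q * q) a ha ((haM.mul_right q).mul_right q))⁻¹ 𝔫) := by
  obtain ⟨Φ, MP⟩ := ssgcl_modPoly_over q A hA E
  have hqp : q.Prime := Fact.out
  have hq2 : 2 ≤ q := hqp.two_le
  have hndvd : ¬ q ∣ a := by
    intro hdvd
    have hap : a.Prime := by rcases ha with rfl | rfl <;> norm_num
    exact haq ((Nat.prime_dvd_prime_iff_eq hqp hap).mp hdvd).symm
  have hun : IsUnit ((a : ℕ) : ↥(s18dVal A E)) := s18r_isUnit_natCast A E hA a hndvd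
  -- `w = (φ h₁)⁻¹`
  have hw : (ssvmfPhi E (M * q) q (ssgH E (M * q) a ha (haM.mul_right q)))⁻¹ ∈
      s18tInt ↥(s18dVal A E) (ssgH E (M * q * q) a ha ((haM.mul_right q).mul_right q))⁻¹ := by
    rw [ssgnp_phi_eq]
    exact (ssgn_phi_h_mem A E (M * q) q a ha (haM.mul_right q) hq2 haq hun MP).2
  have hw𝔫 := sqgch_cusp_mem_mod A E (M * q) q a ha (haM.mul_right q) hq2 haq hun MP 𝔫 hu hw
  have hw0 : (ssvmfPhi E (M * q) q (ssgH E (M * q) a ha (haM.mul_right q)))⁻¹ ≠ 0 := by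
    apply inv_ne_zero
    intro h0
    have ht := ssg_transcendental_h E (M * q) a ha (haM.mul_right q)
    have h1 : ssgH E (M * q) a ha (haM.mul_right q) = 0 :=
      (ssvmfPhi E (M * q) q).injective (by rw [h0, map_zero])
    rw [h1] at ht
    exact ht (isAlgebraic_zero)
  -- the separating function `w^q · φ (φ₁ h₀) = φ (h₁^{-q} · φ₁ h₀)`
  have hsep₁ := sqgch_sep_mem_mod A E M q a ha haM hq2 haq hun MP
  have hf : (ssvmfPhi E (M * q) q (ssgH E (M * q) a ha (haM.mul_right q)))⁻¹ ^ q *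
      ssvmfPhi E (M * q) q (ssvmfPhi E M q (ssgH E M a ha haM)) ∈
      s18tInt ↥(s18dVal A E) (ssgH E (M * q * q) a ha ((haM.mul_right q).mul_right q))⁻¹ := by
    have := ssgnp_phi_int_h_inv A E (M * q) q a ha (haM.mul_right q) hq2 haq hun MP _ hsep₁
    rw [map_mul, map_pow, map_inv₀] at this
    exact this
  have e1 : ssvmfPhi E (M * q) q (ssgH E (M * q) a ha (haM.mul_right q)) =
      ssvmfPhi E (M * q) q (ssvmdIncl E M q (ssgH E M a ha haM)) := by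
    rw [sqcch_incl_h]
  refine sqgch_no_cross_gen _ _ (ssvmfPhi E (M * q) q (ssvmfPhi E M q (ssgH E M a ha haM))) q hq2
    hw0 V₁ V₂ hQ₁ hQ₂ hw hf ?_ ?_ 𝔫 hw𝔫
  · have := hφ₁ _ hc₁
    rw [inv_inv, e1]
    rw [map_sub, map_pow] at this
    exact this
  · have := hφ₂ _ hc₂
    rw [inv_inv, e1]
    rw [map_sub, map_pow] at this
    exact this

end Tower

/-! ### the two Frobenius congruences of level `M q` for a coordinate given by an integer series -/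

section RedFix

variable {A₀ : Type*} [CommRing A₀] [IsDomain A₀] [IsDiscreteValuationRing A₀] [CharZero A₀]
variable {L₀ : Type*} [Field L₀] [Algebra A₀ L₀] [IsFractionRing A₀ L₀]
variable (F : IntermediateField L₀ (LaurentSeries L₀))

/-- the reduction of a function whose `𝐪`-expansion is an INTEGER series is fixed by every endomorphism
of the residue field acting on the coefficients. -/
theorem sqgch_red_fixed (υ : LaurentSeries ℤ) (x : ↥(s18vO A₀ F))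
    (ht : ((x : F) : LaurentSeries L₀) = grdSer υ L₀)
    (φ : ResidueField A₀ →+* ResidueField A₀) :
    coeffMap φ (s18vcRed F x) = s18vcRed F x := by
  have hτ : ((x : F) : LaurentSeries L₀) = s18vIncl A₀ L₀ (grdSer υ A₀) := by
    rw [ht]
    exact (grdSer_coeffMap υ (algebraMap A₀ L₀)).symm
  rw [s18vcRed_incl F x (grdSer υ A₀) hτ]
  show coeffMap φ (coeffMap (residue A₀) (grdSer υ A₀)) = coeffMap (residue A₀) (grdSer υ A₀)
  rw [grdSer_coeffMap, grdSer_coeffMap]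

end RedFix

section Cong

variable {q : ℕ} [Fact q.Prime] [NeZero q] (A : ValuationSubring Qb) (E : IntermediateField ℚ Qb)
  [IsDiscreteValuationRing ↥(s18dVal A E)] [CharZero ↥(s18dVal A E)] (M : ℕ) [NeZero M]

/-- `-x ∈ 𝔪_V` -/
theorem sqgch_neg_mem_nonunits {K : Type*} [Field K] (V : ValuationSubring K) {x y : K}
    (h : x - y ∈ V.nonunits) : y - x ∈ V.nonunits := by
  rw [ValuationSubring.mem_nonunits_iff] at h ⊢
  rw [← Valuation.map_neg, neg_sub]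
  exact h

set_option maxHeartbeats 1000000 in
/-- a function `t₀ ∈ F_E(M)` of the Gauss ring whose `𝐪`-expansion is an INTEGER series satisfies
`φ₁ t₀ ≡ (α₁ t₀)^q mod 𝔪_{W₁}` and `(φ₁ t₀)^q ≡ α₁ t₀ mod 𝔪_{W₂}` (`W_i = h.V_i` for a witness `h` of
the ambient (VAL) package of level `M q`). -/
theorem sqgch_cong_int (hA : A.LiesOverPrime q) (hqM : ¬ q ∣ M) {ϖ : ↥(s18dVal A E)}
    (hϖ : Irreducible ϖ) (Ξ G : (↥(ssvmmR A E M q))[X])
    (h : SsvAmb (ssvmmR A E M q) (ssvmgRUnif (ssvmm_le E M q) ϖ) (ssvmmY E M q) Ξ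
      (X - C (ssvmmJ A E M q ^ q)) (X ^ q - C (ssvmmJ A E M q)) G)
    (υ : LaurentSeries ℤ) (t₀ : modularFunctionFieldFullC E M)
    (ht : (t₀ : LaurentSeries ↥E) = grdSer υ ↥E)
    (hg : t₀ ∈ s18vO ↥(s18dVal A E) (modularFunctionFieldFullC E M)) :
    ssvmfPhi E M q t₀ - ssvmdIncl E M q t₀ ^ q ∈ h.V₁.nonunits ∧
      ssvmfPhi E M q t₀ ^ q - ssvmdIncl E M q t₀ ∈ h.V₂.nonunits := by
  haveI : CharP (ResidueField ↥(s18dVal A E)) q := s18v_charP hϖ (s18d_natCast_mem A E hA)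
  have hfr := sqgch_red_fixed (modularFunctionFieldFullC E M) υ ⟨t₀, hg⟩ ht
    (frobenius (ResidueField ↥(s18dVal A E)) q)
  exact ⟨sqgch_neg_mem_nonunits _ (ssvmar_frob₁ A E M hA hqM hϖ Ξ G h t₀ t₀ hg hg hfr),
    ssvmf_frob₂ A E M hA hqM hϖ Ξ G h t₀ t₀ hg hg hfr⟩

/-- the two Frobenius congruences for `h₀ = h_a ∈ F_E(M)`. -/
theorem sqgch_cong_h (hA : A.LiesOverPrime q) (hqM : ¬ q ∣ M) {ϖ : ↥(s18dVal A E)}
    (hϖ : Irreducible ϖ) (Ξ G : (↥(ssvmmR A E M q))[X])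
    (h : SsvAmb (ssvmmR A E M q) (ssvmgRUnif (ssvmm_le E M q) ϖ) (ssvmmY E M q) Ξ
      (X - C (ssvmmJ A E M q ^ q)) (X ^ q - C (ssvmmJ A E M q)) G)
    (a : ℕ) [NeZero a] (ha : a = 2 ∨ a = 3) (haM : a ∣ M) :
    ssvmfPhi E M q (ssgH E M a ha haM) - ssvmdIncl E M q (ssgH E M a ha haM) ^ q ∈
        h.V₁.nonunits ∧
      ssvmfPhi E M q (ssgH E M a ha haM) ^ q - ssvmdIncl E M q (ssgH E M a ha haM) ∈
        h.V₂.nonunits :=
  sqgch_cong_int A E M hA hqM hϖ Ξ G h (s18hq a (s18hExp a) ℤ) (ssgH E M a ha haM)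
    (grdis_grdSer_hq a (s18hExp a) E).symm
    (ssgfl_int_le_vO _ hϖ _ (s18hk_coord hϖ a ha M s18h_identity_two s18h_identity_three
      (ssgH E M a ha haM).2 (s18v_coord_j hϖ (s18d_natCast_mem A E hA) M hqM))
      (ssgn_self_mem_int _))

/-- the two Frobenius congruences for `j ∈ F_E(M)`. -/
theorem sqgch_cong_j (hA : A.LiesOverPrime q) (hqM : ¬ q ∣ M) {ϖ : ↥(s18dVal A E)}
    (hϖ : Irreducible ϖ) (Ξ G : (↥(ssvmmR A E M q))[X])
    (h : SsvAmb (ssvmmR A E M q) (ssvmgRUnif (ssvmm_le E M q) ϖ) (ssvmmY E M q) Ξ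
      (X - C (ssvmmJ A E M q ^ q)) (X ^ q - C (ssvmmJ A E M q)) G) :
    ssvmfPhi E M q (ssdJ E M) - ssvmdIncl E M q (ssdJ E M) ^ q ∈ h.V₁.nonunits ∧
      ssvmfPhi E M q (ssdJ E M) ^ q - ssvmdIncl E M q (ssdJ E M) ∈ h.V₂.nonunits :=
  sqgch_cong_int A E M hA hqM hϖ Ξ G h (jqModC ℤ) (ssdJ E M) (grdi_grdSer_j E).symm
    (ssgfl_int_le_vO _ hϖ _ (s18v_coord_j' hϖ (s18d_natCast_mem A E hA) M hqM)
      (ssgn_self_mem_int _))

/-- **A CUSP POINT OF THE CHART `u = h_a⁻¹` OF LEVEL `M q q` IS NOT A TRIPLE POINT**, for `W_i = h.V_i`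
(a witness `h` of the ambient (VAL) package of level `M q`) : only the inclusions `Q ⊆ V₁, V₃` and the
two positions `V₁.comap α = h.V₁`, `V₃.comap α = h.V₂` remain. -/
theorem sqgch_not_triple_amb (hA : A.LiesOverPrime q) (hqM : ¬ q ∣ M) {ϖ : ↥(s18dVal A E)}
    (hϖ : Irreducible ϖ) (Ξ G : (↥(ssvmmR A E M q))[X])
    (h : SsvAmb (ssvmmR A E M q) (ssvmgRUnif (ssvmm_le E M q) ϖ) (ssvmmY E M q) Ξ
      (X - C (ssvmmJ A E M q ^ q)) (X ^ q - C (ssvmmJ A E M q)) G)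
    (a : ℕ) [NeZero a] (ha : a = 2 ∨ a = 3) (haM : a ∣ M) (haq : a ≠ q)
    {V₁ V₃ : ValuationSubring (modularFunctionFieldFullC E (M * q * q))}
    (hQ₁ : ∀ x ∈ s18tInt ↥(s18dVal A E)
      (ssgH E (M * q * q) a ha ((haM.mul_right q).mul_right q))⁻¹, x ∈ V₁)
    (hQ₃ : ∀ x ∈ s18tInt ↥(s18dVal A E)
      (ssgH E (M * q * q) a ha ((haM.mul_right q).mul_right q))⁻¹, x ∈ V₃)
    (posα₁ : V₁.comap ((ssvmdIncl E (M * q) q : modularFunctionFieldFullC E (M * q) →ₐ[E]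
      modularFunctionFieldFullC E (M * q * q)) : modularFunctionFieldFullC E (M * q) →+*
        modularFunctionFieldFullC E (M * q * q)) = h.V₁)
    (posα₃ : V₃.comap ((ssvmdIncl E (M * q) q : modularFunctionFieldFullC E (M * q) →ₐ[E]
      modularFunctionFieldFullC E (M * q * q)) : modularFunctionFieldFullC E (M * q) →+*
        modularFunctionFieldFullC E (M * q * q)) = h.V₂)
    (𝔫 : Ideal ↥(s18tInt ↥(s18dVal A E)
      (ssgH E (M * q * q) a ha ((haM.mul_right q).mul_right q))⁻¹)) [h𝔫 : 𝔫.IsPrime]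
    (hu : ssglTinv (A := ↥(s18dVal A E))
      (ssgH E (M * q * q) a ha ((haM.mul_right q).mul_right q)) ∈ 𝔫) :
    ¬ (SqtOn V₁ (ssgH E (M * q * q) a ha ((haM.mul_right q).mul_right q))⁻¹ 𝔫 ∧
      SqtOn V₃ (ssgH E (M * q * q) a ha ((haM.mul_right q).mul_right q))⁻¹ 𝔫) :=
  sqgch_not_triple_pos A E M hA a ha haM haq hQ₁ hQ₃ posα₁ posα₃
    (sqgch_cong_h A E M hA hqM hϖ Ξ G h a ha haM).1
    (sqgch_cong_h A E M hA hqM hϖ Ξ G h a ha haM).2 𝔫 hu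

/-- **A CUSP POINT OF THE CHART `u = h_a⁻¹` OF LEVEL `M q q` LIES ON AT MOST ONE COMPONENT** (`h12`, `h13`,
`h23` of `sqgm_germ_simple`), for `W_i = h.V_i` : from the inclusions `Q ⊆ V_i` and the five positions
`V₁.comap α = V₂.comap α = W₁`, `V₃.comap α = W₂`, `V₁.comap φ = W₁`, `V₂.comap φ = W₂`. -/
theorem sqgch_cusp_one_amb (hA : A.LiesOverPrime q) (hqM : ¬ q ∣ M) {ϖ : ↥(s18dVal A E)}
    (hϖ : Irreducible ϖ) (Ξ G : (↥(ssvmmR A E M q))[X])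
    (h : SsvAmb (ssvmmR A E M q) (ssvmgRUnif (ssvmm_le E M q) ϖ) (ssvmmY E M q) Ξ
      (X - C (ssvmmJ A E M q ^ q)) (X ^ q - C (ssvmmJ A E M q)) G)
    (a : ℕ) [NeZero a] (ha : a = 2 ∨ a = 3) (haM : a ∣ M) (haq : a ≠ q)
    {V₁ V₂ V₃ : ValuationSubring (modularFunctionFieldFullC E (M * q * q))}
    (hQ₁ : ∀ x ∈ s18tInt ↥(s18dVal A E)
      (ssgH E (M * q * q) a ha ((haM.mul_right q).mul_right q))⁻¹, x ∈ V₁)
    (hQ₂ : ∀ x ∈ s18tInt ↥(s18dVal A E)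
      (ssgH E (M * q * q) a ha ((haM.mul_right q).mul_right q))⁻¹, x ∈ V₂)
    (hQ₃ : ∀ x ∈ s18tInt ↥(s18dVal A E)
      (ssgH E (M * q * q) a ha ((haM.mul_right q).mul_right q))⁻¹, x ∈ V₃)
    (posα₁ : V₁.comap ((ssvmdIncl E (M * q) q : modularFunctionFieldFullC E (M * q) →ₐ[E]
      modularFunctionFieldFullC E (M * q * q)) : modularFunctionFieldFullC E (M * q) →+*
        modularFunctionFieldFullC E (M * q * q)) = h.V₁)
    (posα₂ : V₂.comap ((ssvmdIncl E (M * q) q : modularFunctionFieldFullC E (M * q) →ₐ[E]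
      modularFunctionFieldFullC E (M * q * q)) : modularFunctionFieldFullC E (M * q) →+*
        modularFunctionFieldFullC E (M * q * q)) = h.V₁)
    (posα₃ : V₃.comap ((ssvmdIncl E (M * q) q : modularFunctionFieldFullC E (M * q) →ₐ[E]
      modularFunctionFieldFullC E (M * q * q)) : modularFunctionFieldFullC E (M * q) →+*
        modularFunctionFieldFullC E (M * q * q)) = h.V₂)
    (posφ₁ : V₁.comap (ssvmfPhi E (M * q) q) = h.V₁)
    (posφ₂ : V₂.comap (ssvmfPhi E (M * q) q) = h.V₂)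
    (𝔫 : Ideal ↥(s18tInt ↥(s18dVal A E)
      (ssgH E (M * q * q) a ha ((haM.mul_right q).mul_right q))⁻¹)) [h𝔫 : 𝔫.IsPrime]
    (hu : ssglTinv (A := ↥(s18dVal A E))
      (ssgH E (M * q * q) a ha ((haM.mul_right q).mul_right q)) ∈ 𝔫) :
    ¬ (SqtOn V₁ (ssgH E (M * q * q) a ha ((haM.mul_right q).mul_right q))⁻¹ 𝔫 ∧
        SqtOn V₂ (ssgH E (M * q * q) a ha ((haM.mul_right q).mul_right q))⁻¹ 𝔫) ∧
      ¬ (SqtOn V₁ (ssgH E (M * q * q) a ha ((haM.mul_right q).mul_right q))⁻¹ 𝔫 ∧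
        SqtOn V₃ (ssgH E (M * q * q) a ha ((haM.mul_right q).mul_right q))⁻¹ 𝔫) ∧
      ¬ (SqtOn V₂ (ssgH E (M * q * q) a ha ((haM.mul_right q).mul_right q))⁻¹ 𝔫 ∧
        SqtOn V₃ (ssgH E (M * q * q) a ha ((haM.mul_right q).mul_right q))⁻¹ 𝔫) := by
  obtain ⟨hc₁, hc₂⟩ := sqgch_cong_h A E M hA hqM hϖ Ξ G h a ha haM
  exact ⟨sqgch_not_cross₁₂ A E M hA a ha haM haq hQ₁ hQ₂
      (fun x hx => sqgcp_map_nonunits posφ₁ hx) (fun x hx => sqgcp_map_nonunits posφ₂ hx)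
      hc₁ hc₂ 𝔫 hu,
    sqgch_not_triple_pos A E M hA a ha haM haq hQ₁ hQ₃ posα₁ posα₃ hc₁ hc₂ 𝔫 hu,
    sqgch_not_triple_pos A E M hA a ha haM haq hQ₂ hQ₃ posα₂ posα₃ hc₁ hc₂ 𝔫 hu⟩

end Cong

end Fermat.Agent.SQ
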