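import Mathlib
import Fermat.Agent.SQ.Germ.DerivVert
import Fermat.Agent.SQ.Val.ModTwoField

/-!
# Program Q (S36), R1 : the congruence (T2-cong)

`F₁ = F_E(M q) ⊂ F₂ = F_E(M q q)` (`α = ssvmdIncl E (M q) q`), `j_q ∈ F₁`, `j_qq = sqvmY ∈ F₂`,
`g = sqgvG E M q = φ(θ j)/α(θ j) = (1/q) dj_q/dj ∈ F₁`.

For EVERY valuation subring `V` of `F₂` which contains the `α`-image of the Gauss ring of `F₁`, with
`ϖ ∈ 𝔪_V` and `j_qq ≡ j mod 𝔪_V` (i.e. `V = V₂`, the `(q-1)`-ramified valuation over `W₁`) :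

  `(j_qq - j)^(q-1) / ϖ  ≡  - (q/ϖ) · α(g)   mod 𝔪_V`.

The proof is purely algebraic (no expansion at the cusp `1/q`, no `ζ_q`) :
`Ξ = Φ(j_q, Y) /ₘ (Y - j) = (Y - j_q^q)(Y - j)^(q-1) + ϖ G` over the Gauss ring of `F₁`
(`sqvm_step₁`), `Ξ(j_qq) = 0`, `ϖ G(j) = Ξ(j) = Φ_Y(j_q, j)`, and the `θ`-relation
`Φ_Y(j_q, j) = - q g Φ_X(j_q, j)` with `Φ_X(j_q, j) ≡ j_q^q - j mod ϖ` (Kronecker).

* `sqgct_core`, `sqgct_step` : the abstract statements (Mathlib only + `sqvm_step₁`);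
* `sqgct_rel`, `sqgct_PX_kron` : the `θ`-relation and Kronecker for `Φ_X` in `F₁`;
* `sqgct_cong_W` : the congruence over an arbitrary DVR `W ∋ A₀, j, j_q` of `F₁`;
* `sqgct_cong`, `sqgct_main` : the congruence for the Gauss ring (`sqgct_main` : no `Φ`);
* `sqgct_vert`, `sqgct_val_U` : `V(q/ϖ · α g) = 1`, `V((j_qq - j)^(q-1)/ϖ) = 1` when `q ~ ϖ`.

Prefix `sqgct`.
-/

set_option autoImplicit false
set_option linter.unusedSectionVars false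
set_option linter.unusedVariables false
set_option linter.style.haveILetI false
set_option synthInstance.maxHeartbeats 400000

noncomputable section

namespace Fermat.Agent.SQ

open Polynomial ModularCurve AlgebraicCurve IsLocalRing IntermediateField Fermat.Agent.S24
  Fermat.Agent.G Fermat.Agent.S18 Fermat.Agent.SS

local notation "Qb" => AlgebraicClosure ℚ

attribute [local instance] sqvm_neZero

section Abstract

variable {F : Type*} [Field F]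

/-- products of an element of the maximal ideal with an integral element -/
theorem sqgct_nonunits_mul (V : ValuationSubring F) {x y : F} (hx : x ∈ V.nonunits) (hy : y ∈ V) :
    x * y ∈ V.nonunits := by
  rw [ValuationSubring.mem_nonunits_iff] at hx ⊢
  rw [map_mul]
  have h1 : V.valuation y ≤ 1 := (V.valuation_le_one_iff y).mpr hy
  calc V.valuation x * V.valuation y ≤ V.valuation x * 1 := by gcongr
    _ = V.valuation x := mul_one _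
    _ < 1 := hx

/-- a unit minus an element of the maximal ideal is a unit -/
theorem sqgct_unit_sub (V : ValuationSubring F) {u x : F} (hu0 : u ≠ 0) (hu : u ∈ V)
    (hui : u⁻¹ ∈ V) (hx : x ∈ V.nonunits) : u - x ≠ 0 ∧ (u - x)⁻¹ ∈ V := by
  have h1 : V.valuation u = 1 := by
    have h1 : V.valuation u ≤ 1 := (V.valuation_le_one_iff u).mpr hu
    have h2 : V.valuation u⁻¹ ≤ 1 := (V.valuation_le_one_iff u⁻¹).mpr hui
    rw [map_inv₀] at h2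
    have h3 : V.valuation u ≠ 0 := (Valuation.ne_zero_iff _).mpr hu0
    exact le_antisymm h1 ((inv_le_one₀ (zero_lt_iff.mpr h3)).mp h2)
  have h2 : V.valuation x < 1 := (ValuationSubring.mem_nonunits_iff _).mp hx
  have h3 : V.valuation (u - x) = 1 := by
    rw [← h1]
    apply Valuation.map_sub_eq_of_lt_left
    rw [h1]
    exact h2
  have h4 : u - x ≠ 0 := by
    intro h0
    rw [h0, map_zero] at h3
    exact zero_ne_one h3
  refine ⟨h4, ?_⟩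
  rw [← V.valuation_le_one_iff, map_inv₀, h3, inv_one]

/-- **abstract core of (T2-cong)** : if `(z - a)(z - j)^e + ϖ G(z) = 0` with `G ∈ V[Y]`,
`z ≡ j mod 𝔪_V` and `a - j ∈ Vˣ`, then `(z - j)^e / ϖ ≡ G(j) / (a - j) mod 𝔪_V`. -/
theorem sqgct_core (V : ValuationSubring F) {ϖ z j a : F} (e : ℕ) (G : (↥V)[X])
    (hϖ0 : ϖ ≠ 0) (hz : z ∈ V) (hj : j ∈ V) (ha : a ∈ V) (haj0 : a - j ≠ 0)
    (haj : (a - j)⁻¹ ∈ V) (hzj : z - j ∈ V.nonunits)
    (hroot : (z - a) * (z - j) ^ e + ϖ * (G.map V.subtype).eval z = 0) :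
    (z - j) ^ e * ϖ⁻¹ - (G.map V.subtype).eval j * (a - j)⁻¹ ∈ V.nonunits := by
  obtain ⟨haz0, haz⟩ := sqgct_unit_sub V haj0 (sub_mem ha hj) haj hzj
  have e1 : a - j - (z - j) = a - z := by ring
  rw [e1] at haz0 haz
  -- the difference quotient of `G`
  obtain ⟨s, hs⟩ := Polynomial.sub_dvd_eval_sub (⟨z, hz⟩ : ↥V) ⟨j, hj⟩ G
  have hs' : (G.map V.subtype).eval z - (G.map V.subtype).eval j = (z - j) * (s : F) := by
    have h1 := congrArg V.subtype hs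
    rw [map_sub, map_mul, map_sub] at h1
    rw [Polynomial.eval_map, Polynomial.eval_map]
    have h2 : ∀ y : ↥V, V.subtype (G.eval y) = G.eval₂ V.subtype (y : F) := by
      intro y
      rw [← Polynomial.eval₂_hom]
      rfl
    rw [h2, h2] at h1
    exact h1
  have hGj : (G.map V.subtype).eval j ∈ V := by
    rw [Polynomial.eval_map]
    have h2 : V.subtype (G.eval ⟨j, hj⟩) = G.eval₂ V.subtype j := by
      rw [← Polynomial.eval₂_hom]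
      rfl
    rw [← h2]
    exact (G.eval ⟨j, hj⟩).2
  -- `(z - j)^e / ϖ = G(z) / (a - z)`
  have h3 : (z - j) ^ e * ϖ⁻¹ = (G.map V.subtype).eval z * (a - z)⁻¹ := by
    field_simp
    linear_combination -hroot
  have h4 : (z - j) ^ e * ϖ⁻¹ - (G.map V.subtype).eval j * (a - j)⁻¹ =
      (z - j) * (((s : F) * (a - j) + (G.map V.subtype).eval j) * ((a - z)⁻¹ * (a - j)⁻¹)) := by
    rw [h3]
    have h5 : (G.map V.subtype).eval z = (G.map V.subtype).eval j + (z - j) * (s : F) := by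
      rw [← hs']
      ring
    rw [h5]
    field_simp
    ring
  rw [h4]
  refine sqgct_nonunits_mul V hzj ?_
  exact V.mul_mem _ _ (V.add_mem _ _ (V.mul_mem _ _ s.2 (sub_mem ha hj)) hGj)
    (V.mul_mem _ _ haz haj)

end Abstract

section Step

variable {F : Type*} [Field F]
variable {W : Type*} [CommRing W] [IsDomain W] [IsDiscreteValuationRing W]
variable {q : ℕ} [Fact q.Prime]

/-- **(T2-cong), semi-abstract** : `W` a DVR, `ρ : W → V ⊆ F`, `Ψ = (Y - x^q)(Y^q - x) + ϖ H`,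
`Ψ(j) = 0`, `x ≡ j^q`, `z ∈ V` a root of `Ξ = Ψ /ₘ (Y - j)` with `z ≡ ρ j mod 𝔪_V`, `ρ(x^q - j)` a
unit of `V` : `(z - ρ j)^(q-1) / ρ ϖ ≡ ρ(Ψ'(j)) / (ρ ϖ · ρ(x^q - j)) mod 𝔪_V`. -/
theorem sqgct_step (V : ValuationSubring F) (ρ : W →+* F) (hρ : ∀ w, ρ w ∈ V) {ϖ : W}
    (hϖ : Irreducible ϖ) (hρϖ : ρ ϖ ≠ 0) (hq : (q : W) ∈ maximalIdeal W)
    (Ψ H : W[X]) (j x : W)
    (hkron : Ψ = (X - C (x ^ q)) * (X ^ q - C x) + C ϖ * H) (hroot : Ψ.IsRoot j)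
    (hcong : x - j ^ q ∈ maximalIdeal W) (z : F) (hz : z ∈ V)
    (hzroot : (Ψ /ₘ (X - C j)).eval₂ ρ z = 0) (hzj : z - ρ j ∈ V.nonunits)
    (hu0 : ρ (x ^ q - j) ≠ 0) (hu : (ρ (x ^ q - j))⁻¹ ∈ V) :
    (z - ρ j) ^ (q - 1) * (ρ ϖ)⁻¹ -
      ρ ((derivative Ψ).eval j) * (ρ ϖ)⁻¹ * (ρ (x ^ q - j))⁻¹ ∈ V.nonunits := by
  have hqp : q.Prime := Fact.out
  obtain ⟨G, hG⟩ := sqvm_step₁ hϖ hq Ψ H j x hkron hroot hcong
  -- `ρ` with values in `V`
  let ρV : W →+* ↥V := ρ.codRestrict V.toSubring hρ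
  have hρV : V.subtype.comp ρV = ρ := by
    ext w
    rfl
  have hGz : ((G.map ρV).map V.subtype).eval z = G.eval₂ ρ z := by
    rw [Polynomial.map_map, hρV, Polynomial.eval_map]
  have hGj : ((G.map ρV).map V.subtype).eval (ρ j) = ρ (G.eval j) := by
    rw [Polynomial.map_map, hρV, Polynomial.eval_map, Polynomial.eval₂_at_apply]
  -- the value at `j`
  have h1 : (derivative Ψ).eval j = ϖ * G.eval j := by
    rw [← sqvm_eval_div hroot, hG]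
    obtain ⟨m, hm⟩ : ∃ m, q - 1 = m + 1 := ⟨q - 2, by have := hqp.two_le; omega⟩
    rw [hm]
    simp
  -- the root `z`
  have h2 : (z - ρ (x ^ q)) * (z - ρ j) ^ (q - 1) + ρ ϖ * ((G.map ρV).map V.subtype).eval z = 0 := by
    rw [hGz, ← hzroot, hG]
    simp [eval₂_add, eval₂_mul, eval₂_sub, eval₂_pow]
  have h3 := sqgct_core V (q - 1) (G.map ρV) hρϖ hz (hρ j) (hρ (x ^ q))
    (by rw [← map_sub]; exact hu0) (by rw [← map_sub]; exact hu) hzj h2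
  rw [hGj, ← map_sub] at h3
  have h4 : ρ ((derivative Ψ).eval j) * (ρ ϖ)⁻¹ = ρ (G.eval j) := by
    rw [h1, map_mul]
    field_simp
  rw [h4]
  exact h3

end Step


section DX

variable {A : Type*} [CommRing A]

/-- `∂/∂X` is linear over constants -/
theorem sqgct_DX_C_mul (c : A) (Φ : A[X][X]) : sqvtDX (C (C c) * Φ) = C (C c) * sqvtDX Φ := by
  apply sqgv_DX_eq
  intro i
  rw [coeff_C_mul, coeff_C_mul, sqgv_DX_coeff, derivative_C_mul]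

/-- `∂/∂X` of Kronecker's polynomial `(Y - X^q)(Y^q - X)` over any ring -/
theorem sqgct_DX_kron (q : ℕ) :
    sqvtDX ((X - C (X ^ q)) * (X ^ q - C X) : A[X][X]) =
      C (C ((q : A) + 1) * X ^ q) - C (C (q : A) * X ^ (q - 1)) * X ^ q - X := by
  have h1 : ((X - C (X ^ q)) * (X ^ q - C X) : A[X][X]) =
      X ^ (q + 1) - C X * X ^ 1 - C (X ^ q) * X ^ q + C (X ^ (q + 1)) := by
    rw [pow_succ (X : A[X]) q, C_mul]
    ring
  rw [h1, map_add, map_sub, map_sub, sqvtDX_X_pow, sqvtDX_C_mul_X_pow, sqvtDX_C_mul_X_pow, sqvtDX_C,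
    derivative_X, derivative_X_pow, derivative_X_pow, Nat.cast_add, Nat.add_sub_cancel]
  simp only [map_natCast, Nat.cast_one, one_mul, pow_one, map_add, map_one]
  ring

end DX

section Rel

variable {q : ℕ} [Fact q.Prime] (𝔸 : ValuationSubring Qb) (E : IntermediateField ℚ Qb)
variable (M : ℕ) [NeZero M]

/-- `Φ_X(j_q, j) ∈ F_E(M q)` -/
def sqgctPX (Φ : (↥(s18dVal 𝔸 E))[X][X]) : ↥(modularFunctionFieldFullC E (M * q)) :=
  ((sqvtDX Φ).map (sqvmEvqF (q := q) 𝔸 E M)).eval (ssvmdJ E (M * q))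

/-- **the `θ`-relation in `F_E(M q)`** : `Φ_Y(j_q, j) = - q · g · Φ_X(j_q, j)` -/
theorem sqgct_rel (Φ : (↥(s18dVal 𝔸 E))[X][X])
    (hrj : (Φ.map (sqvmEvq ↥(s18dVal 𝔸 E) q)).eval (jqModC ↥(s18dVal 𝔸 E)) = 0) :
    (derivative (sqvmPsi (q := q) 𝔸 E M Φ)).eval (ssvmdJ E (M * q)) =
      -(((q : ℕ) : ↥(modularFunctionFieldFullC E (M * q))) * sqgvG E M q * sqgctPX 𝔸 E M Φ) := by
  have hc : ∀ a : ↥(s18dVal 𝔸 E), sqgvDer (↥E) (M * q)
      (algebraMap ↥(s18dVal 𝔸 E) ↥(modularFunctionFieldFullC E (M * q)) a) = 0 := by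
    intro a
    rw [IsScalarTower.algebraMap_apply ↥(s18dVal 𝔸 E) ↥E ↥(modularFunctionFieldFullC E (M * q))]
    exact sqgvDer_algebraMap (↥E) (M * q) _
  have h1 := sqvt_chain (A := ↥(s18dVal 𝔸 E)) (sqgvDer (↥E) (M * q)) (sqgvDer_mul (↥E) (M * q)) hc
    (ssvmmY E M q) (ssvmdJ E (M * q)) Φ
  have e0 : sqvtEv (ssvmmY E M q) (ssvmdJ E (M * q)) Φ = 0 := by
    have h2 := sqvm_psi_root_j 𝔸 E M Φ hrj
    rw [IsRoot.def, sqvmPsi, Polynomial.eval_map] at h2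
    exact h2
  have e1 : sqvtEv (ssvmmY E M q) (ssvmdJ E (M * q)) (derivative Φ) =
      (derivative (sqvmPsi (q := q) 𝔸 E M Φ)).eval (ssvmdJ E (M * q)) := by
    rw [sqvmPsi, derivative_map, Polynomial.eval_map]
    rfl
  have e2 : sqvtEv (ssvmmY E M q) (ssvmdJ E (M * q)) (sqvtDX Φ) = sqgctPX 𝔸 E M Φ := by
    rw [sqgctPX, Polynomial.eval_map]
    rfl
  rw [e0, map_zero, e1, e2, sqgvDer_Y, sqgvDer_j, mul_one] at h1
  linear_combination -h1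

/-- **Kronecker for `Φ_X`** : `Φ_X(j_q, j) = (j_q^q - j) + q j_q^(q-1) (j_q - j^q) + ϖ Φ'_X(j_q, j)` -/
theorem sqgct_PX_kron {ϖ : ↥(s18dVal 𝔸 E)} (Φ Φ' : (↥(s18dVal 𝔸 E))[X][X])
    (h : Φ = (X - C (X ^ q)) * (X ^ q - C X) + C (C ϖ) * Φ') :
    sqgctPX 𝔸 E M Φ = (ssvmmY E M q ^ q - ssvmdJ E (M * q)) +
      ((q : ℕ) : ↥(modularFunctionFieldFullC E (M * q))) * ssvmmY E M q ^ (q - 1) *
        (ssvmmY E M q - ssvmdJ E (M * q) ^ q) +
      algebraMap ↥(s18dVal 𝔸 E) ↥(modularFunctionFieldFullC E (M * q)) ϖ * sqgctPX 𝔸 E M Φ' := by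
  have hq : q.Prime := Fact.out
  have hX : sqvmEvqF (q := q) 𝔸 E M X = ssvmmY E M q := by
    simp [sqvmEvqF]
  have hC : ∀ a : ↥(s18dVal 𝔸 E), sqvmEvqF (q := q) 𝔸 E M (C a) =
      algebraMap ↥(s18dVal 𝔸 E) ↥(modularFunctionFieldFullC E (M * q)) a := by
    intro a
    simp [sqvmEvqF]
  unfold sqgctPX
  rw [h, map_add, sqgct_DX_C_mul, sqgct_DX_kron]
  simp only [Polynomial.map_add, Polynomial.map_sub, Polynomial.map_mul, Polynomial.map_pow,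
    map_X, map_C, eval_add, eval_sub, eval_mul, eval_pow, eval_X, eval_C, map_mul, map_pow,
    map_add, map_one, hX, hC, map_natCast, Polynomial.map_natCast, Polynomial.map_one, eval_natCast,
    eval_one]
  have hy : ssvmmY E M q ^ q = ssvmmY E M q ^ (q - 1) * ssvmmY E M q := by
    rw [← pow_succ, Nat.sub_add_cancel hq.one_le]
  rw [hy]
  ring

end Rel

section Main

variable {q : ℕ} [Fact q.Prime] (𝔸 : ValuationSubring Qb) (E : IntermediateField ℚ Qb)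
variable (M : ℕ) [NeZero M]
variable (W : ValuationSubring ↥(modularFunctionFieldFullC E (M * q)))

/-- sums of elements of the maximal ideal -/
theorem sqgct_nonunits_add {F : Type*} [Field F] (V : ValuationSubring F) {x y : F}
    (hx : x ∈ V.nonunits) (hy : y ∈ V.nonunits) : x + y ∈ V.nonunits := by
  rw [ValuationSubring.mem_nonunits_iff] at hx hy ⊢
  exact lt_of_le_of_lt (Valuation.map_add _ _ _) (max_lt hx hy)

/-- negatives of elements of the maximal ideal -/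
theorem sqgct_nonunits_neg {F : Type*} [Field F] (V : ValuationSubring F) {x : F}
    (hx : x ∈ V.nonunits) : -x ∈ V.nonunits := by
  rw [ValuationSubring.mem_nonunits_iff] at hx ⊢
  rwa [Valuation.map_neg]

/-- the maximal ideal is contained in the ring -/
theorem sqgct_nonunits_mem {F : Type*} [Field F] (V : ValuationSubring F) {x : F}
    (hx : x ∈ V.nonunits) : x ∈ V := by
  rw [ValuationSubring.mem_nonunits_iff] at hx
  exact (V.valuation_le_one_iff x).mp hx.le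

/-- `α` commutes with the constants of `A₀` -/
theorem sqgct_incl_algebraMap (a : ↥(s18dVal 𝔸 E)) :
    ssvmdIncl E (M * q) q (algebraMap ↥(s18dVal 𝔸 E) ↥(modularFunctionFieldFullC E (M * q)) a) =
      algebraMap ↥(s18dVal 𝔸 E) ↥(modularFunctionFieldFullC E (M * q * q)) a := by
  rw [IsScalarTower.algebraMap_apply ↥(s18dVal 𝔸 E) ↥E ↥(modularFunctionFieldFullC E (M * q)),
    IsScalarTower.algebraMap_apply ↥(s18dVal 𝔸 E) ↥E ↥(modularFunctionFieldFullC E (M * q * q)),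
    AlgHom.commutes]

/-- polynomial expressions in `j_q, j` over `A₀` lie in `W` -/
theorem sqgct_eval_mem (hA : ∀ a : ↥(s18dVal 𝔸 E),
      algebraMap ↥(s18dVal 𝔸 E) ↥(modularFunctionFieldFullC E (M * q)) a ∈ W)
    (hj : ssvmdJ E (M * q) ∈ W) (hjq : ssvmmY E M q ∈ W) (Φ : (↥(s18dVal 𝔸 E))[X][X]) :
    ((Φ.map (sqvmEvqF (q := q) 𝔸 E M)).eval (ssvmdJ E (M * q))) ∈ W := by
  have h1 : W.subtype ((Φ.map (sqvmEvW 𝔸 E M W hA hjq)).eval ⟨ssvmdJ E (M * q), hj⟩) =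
      (Φ.map (sqvmEvqF (q := q) 𝔸 E M)).eval (ssvmdJ E (M * q)) := by
    conv_lhs => rw [Polynomial.eval_map, Polynomial.hom_eval₂, sqvm_subtype_evW]
    rw [Polynomial.eval_map]
    rfl
  rw [← h1]
  exact Subtype.prop _

set_option maxHeartbeats 1000000 in
/-- **(T2-cong) over a DVR `W ∋ A₀, j, j_q` of `F_E(M q)`** : for every valuation subring `V` of
`F_E(M q q)` containing `α W`, with `ϖ ∈ 𝔪_V` and `j_qq ≡ j mod 𝔪_V` :
`(j_qq - j)^(q-1) / ϖ ≡ - (q/ϖ) · α(g) mod 𝔪_V`. -/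
theorem sqgct_cong_W [IsDiscreteValuationRing ↥W] (hA : ∀ a : ↥(s18dVal 𝔸 E),
      algebraMap ↥(s18dVal 𝔸 E) ↥(modularFunctionFieldFullC E (M * q)) a ∈ W)
    (hj : ssvmdJ E (M * q) ∈ W) (hjq : ssvmmY E M q ∈ W) {ϖ : ↥(s18dVal 𝔸 E)}
    (hϖW : Irreducible (sqvmIotaW 𝔸 E M W hA ϖ))
    (c₀ : ↥(s18dVal 𝔸 E)) (hc₀ : ((q : ℕ) : ↥(s18dVal 𝔸 E)) = ϖ * c₀)
    (hcong : ssvmmY E M q - ssvmdJ E (M * q) ^ q ∈ W.nonunits)
    (hu0 : ssvmmY E M q ^ q - ssvmdJ E (M * q) ≠ 0)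
    (hu : (ssvmmY E M q ^ q - ssvmdJ E (M * q))⁻¹ ∈ W)
    (hg : sqgvG E M q ∈ W)
    (Φ Φ' : (↥(s18dVal 𝔸 E))[X][X])
    (hkron : Φ = (X - C (X ^ q)) * (X ^ q - C X) + C (C ϖ) * Φ')
    (hrj : (Φ.map (sqvmEvq ↥(s18dVal 𝔸 E) q)).eval (jqModC ↥(s18dVal 𝔸 E)) = 0)
    (hrq : (Φ.map (sqvmEvq ↥(s18dVal 𝔸 E) q)).eval
      (qExpand ↥(s18dVal 𝔸 E) (q * q) (jqModC ↥(s18dVal 𝔸 E))) = 0)
    (V : ValuationSubring ↥(modularFunctionFieldFullC E (M * q * q)))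
    (hWV : ∀ x ∈ W, ssvmdIncl E (M * q) q x ∈ V)
    (hϖV : algebraMap ↥(s18dVal 𝔸 E) ↥(modularFunctionFieldFullC E (M * q * q)) ϖ ∈ V.nonunits)
    (hπ : sqvmY E M q - ssvmdJ E (M * q * q) ∈ V.nonunits) :
    (sqvmY E M q - ssvmdJ E (M * q * q)) ^ (q - 1) *
        (algebraMap ↥(s18dVal 𝔸 E) ↥(modularFunctionFieldFullC E (M * q * q)) ϖ)⁻¹ +
      ((q : ℕ) : ↥(modularFunctionFieldFullC E (M * q * q))) *
        (algebraMap ↥(s18dVal 𝔸 E) ↥(modularFunctionFieldFullC E (M * q * q)) ϖ)⁻¹ *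
          ssvmdIncl E (M * q) q (sqgvG E M q) ∈ V.nonunits := by
  have hq : q.Prime := Fact.out
  -- notation
  let α : ↥(modularFunctionFieldFullC E (M * q)) →+* ↥(modularFunctionFieldFullC E (M * q * q)) :=
    (ssvmdIncl E (M * q) q).toRingHom
  have hαdef : ∀ x, α x = ssvmdIncl E (M * q) q x := fun x => rfl
  let ρ : ↥W →+* ↥(modularFunctionFieldFullC E (M * q * q)) := α.comp W.subtype
  have hρdef : ∀ w : ↥W, ρ w = ssvmdIncl E (M * q) q (w : ↥(modularFunctionFieldFullC E (M * q))) :=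
    fun w => rfl
  have hρ : ∀ w : ↥W, ρ w ∈ V := fun w => hWV _ w.2
  have hϖ0 : algebraMap ↥(s18dVal 𝔸 E) ↥(modularFunctionFieldFullC E (M * q * q)) ϖ ≠ 0 := by
    intro h0
    apply hϖW.ne_zero
    apply Subtype.ext
    rw [sqvmIotaW_coe]
    apply (ssvmdIncl E (M * q) q).toRingHom.injective
    show ssvmdIncl E (M * q) q _ = ssvmdIncl E (M * q) q 0
    rw [sqgct_incl_algebraMap, h0, map_zero]
  have hρϖ : ρ (sqvmIotaW 𝔸 E M W hA ϖ) =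
      algebraMap ↥(s18dVal 𝔸 E) ↥(modularFunctionFieldFullC E (M * q * q)) ϖ := by
    rw [hρdef, sqvmIotaW_coe, sqgct_incl_algebraMap]
  have hqW : ((q : ℕ) : ↥W) ∈ maximalIdeal ↥W := by
    have h1 : ((q : ℕ) : ↥W) = sqvmIotaW 𝔸 E M W hA ϖ * sqvmIotaW 𝔸 E M W hA c₀ := by
      rw [← map_mul, ← hc₀, map_natCast]
    rw [h1]
    exact Ideal.mul_mem_right _ _ ((mem_maximalIdeal _).mpr hϖW.not_isUnit)
  have hcongW : (⟨ssvmmY E M q, hjq⟩ : ↥W) - (⟨ssvmdJ E (M * q), hj⟩ : ↥W) ^ q ∈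
      maximalIdeal ↥W := by
    obtain ⟨h1, h2⟩ := (ValuationSubring.mem_nonunits_iff_exists_mem_maximalIdeal).mp hcong
    exact h2
  have hJV : ssvmdJ E (M * q * q) ∈ V := by
    rw [← sqvm_incl_J]
    exact hWV _ hj
  have hzV : sqvmY E M q ∈ V := by
    have h1 := V.add_mem _ _ (sqgct_nonunits_mem V hπ) hJV
    rwa [sub_add_cancel] at h1
  have hzroot : ((sqvmPsiW 𝔸 E M W hA hjq Φ) /ₘ
      (X - C (⟨ssvmdJ E (M * q), hj⟩ : ↥W))).eval₂ ρ (sqvmY E M q) = 0 := by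
    have h1 := sqvm_xi_root 𝔸 E M Φ hrj hrq
    rw [← sqvm_xiW_map 𝔸 E M W hA hj hjq Φ, Polynomial.eval₂_map] at h1
    exact h1
  have hρj : ρ (⟨ssvmdJ E (M * q), hj⟩ : ↥W) = ssvmdJ E (M * q * q) := by
    rw [hρdef]
    exact sqvm_incl_J E M q
  have hρu : ρ ((⟨ssvmmY E M q, hjq⟩ : ↥W) ^ q - (⟨ssvmdJ E (M * q), hj⟩ : ↥W)) =
      ssvmdIncl E (M * q) q (ssvmmY E M q ^ q - ssvmdJ E (M * q)) := by
    rw [hρdef]
    rfl
  have hαu0 : ssvmdIncl E (M * q) q (ssvmmY E M q ^ q - ssvmdJ E (M * q)) ≠ 0 :=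
    (_root_.map_ne_zero _).mpr hu0
  have hαu : (ssvmdIncl E (M * q) q (ssvmmY E M q ^ q - ssvmdJ E (M * q)))⁻¹ ∈ V := by
    rw [← map_inv₀]
    exact hWV _ hu
  have key := sqgct_step V ρ hρ hϖW (by rw [hρϖ]; exact hϖ0) hqW
    (sqvmPsiW 𝔸 E M W hA hjq Φ) (Φ'.map (sqvmEvW 𝔸 E M W hA hjq))
    (⟨ssvmdJ E (M * q), hj⟩ : ↥W) (⟨ssvmmY E M q, hjq⟩ : ↥W)
    (sqvm_psiW_kron 𝔸 E M W hA hjq Φ Φ' hkron) (sqvm_psiW_root 𝔸 E M W hA hj hjq Φ hrj)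
    hcongW (sqvmY E M q) hzV hzroot (by rw [hρj]; exact hπ) (by rw [hρu]; exact hαu0)
    (by rw [hρu]; exact hαu)
  rw [hρj, hρϖ, hρu] at key
  -- the derivative
  have hder : ρ ((derivative (sqvmPsiW 𝔸 E M W hA hjq Φ)).eval (⟨ssvmdJ E (M * q), hj⟩ : ↥W)) =
      ssvmdIncl E (M * q) q
        ((derivative (sqvmPsi (q := q) 𝔸 E M Φ)).eval (ssvmdJ E (M * q))) := by
    rw [hρdef, ← sqvm_psiW_map 𝔸 E M W hA hjq Φ, derivative_map, Polynomial.eval_map]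
    congr 1
    exact (Polynomial.eval₂_at_apply W.subtype _).symm
  rw [hder, sqgct_rel 𝔸 E M Φ hrj, sqgct_PX_kron 𝔸 E M Φ Φ' hkron] at key
  -- memberships
  have hPX' : ssvmdIncl E (M * q) q (sqgctPX 𝔸 E M Φ') ∈ V :=
    hWV _ (sqgct_eval_mem 𝔸 E M W hA hj hjq (sqvtDX Φ'))
  have hgV : ssvmdIncl E (M * q) q (sqgvG E M q) ∈ V := hWV _ hg
  have hyV : ssvmdIncl E (M * q) q (ssvmmY E M q) ∈ V := hWV _ hjq
  have hc₀V : algebraMap ↥(s18dVal 𝔸 E) ↥(modularFunctionFieldFullC E (M * q * q)) c₀ ∈ V := by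
    rw [← sqgct_incl_algebraMap]
    exact hWV _ (hA c₀)
  have hqF : ((q : ℕ) : ↥(modularFunctionFieldFullC E (M * q * q))) =
      algebraMap ↥(s18dVal 𝔸 E) ↥(modularFunctionFieldFullC E (M * q * q)) ϖ *
        algebraMap ↥(s18dVal 𝔸 E) ↥(modularFunctionFieldFullC E (M * q * q)) c₀ := by
    rw [← map_mul, ← hc₀, map_natCast]
  have hqV : ((q : ℕ) : ↥(modularFunctionFieldFullC E (M * q * q))) ∈ V.nonunits := by
    rw [hqF]
    exact sqgct_nonunits_mul V hϖV hc₀V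
  have hqϖ : ((q : ℕ) : ↥(modularFunctionFieldFullC E (M * q * q))) *
      (algebraMap ↥(s18dVal 𝔸 E) ↥(modularFunctionFieldFullC E (M * q * q)) ϖ)⁻¹ =
      algebraMap ↥(s18dVal 𝔸 E) ↥(modularFunctionFieldFullC E (M * q * q)) c₀ := by
    rw [hqF]
    field_simp
  -- the error term
  have herr : -(((q : ℕ) : ↥(modularFunctionFieldFullC E (M * q * q))) *
      (algebraMap ↥(s18dVal 𝔸 E) ↥(modularFunctionFieldFullC E (M * q * q)) ϖ)⁻¹ *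
      ssvmdIncl E (M * q) q (sqgvG E M q) *
      (((q : ℕ) : ↥(modularFunctionFieldFullC E (M * q * q))) *
          ssvmdIncl E (M * q) q (ssvmmY E M q) ^ (q - 1) *
            ssvmdIncl E (M * q) q (ssvmmY E M q - ssvmdJ E (M * q) ^ q) +
        algebraMap ↥(s18dVal 𝔸 E) ↥(modularFunctionFieldFullC E (M * q * q)) ϖ *
          ssvmdIncl E (M * q) q (sqgctPX 𝔸 E M Φ')) *
      (ssvmdIncl E (M * q) q (ssvmmY E M q ^ q - ssvmdJ E (M * q)))⁻¹) ∈ V.nonunits := by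
    have h1 : ((q : ℕ) : ↥(modularFunctionFieldFullC E (M * q * q))) *
          ssvmdIncl E (M * q) q (ssvmmY E M q) ^ (q - 1) *
            ssvmdIncl E (M * q) q (ssvmmY E M q - ssvmdJ E (M * q) ^ q) +
        algebraMap ↥(s18dVal 𝔸 E) ↥(modularFunctionFieldFullC E (M * q * q)) ϖ *
          ssvmdIncl E (M * q) q (sqgctPX 𝔸 E M Φ') ∈ V.nonunits := by
      refine sqgct_nonunits_add V ?_ (sqgct_nonunits_mul V hϖV hPX')
      exact sqgct_nonunits_mul V (sqgct_nonunits_mul V hqV (pow_mem hyV _))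
        (hWV _ (sqgct_nonunits_mem W hcong))
    have h2 := sqgct_nonunits_mul V h1 (V.mul_mem _ _ (V.mul_mem _ _ hc₀V hgV) hαu)
    rw [← hqϖ] at h2
    have h3 := sqgct_nonunits_neg V h2
    convert h3 using 1
    ring
  simp only [map_neg, map_mul, map_add, map_natCast, map_pow, sqgct_incl_algebraMap] at key
  have hfin := sqgct_nonunits_add V key herr
  convert hfin using 1
  field_simp
  ring

end Main

section Gauss

variable {q : ℕ} [Fact q.Prime] (𝔸 : ValuationSubring Qb) (E : IntermediateField ℚ Qb)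
  [IsDiscreteValuationRing ↥(s18dVal 𝔸 E)] [CharZero ↥(s18dVal 𝔸 E)]
variable (M : ℕ) [NeZero M]

/-- the series of `j` and `j_q` in `F_E(M q)` -/
theorem sqgct_coe_J : ((ssvmdJ E (M * q) : ↥(modularFunctionFieldFullC E (M * q))) :
    LaurentSeries ↥E) = s18vIncl ↥(s18dVal 𝔸 E) ↥E (jqModC ↥(s18dVal 𝔸 E)) := by
  rw [coeffMap_jqModC]
  rfl

theorem sqgct_coe_Y : ((ssvmmY E M q : ↥(modularFunctionFieldFullC E (M * q))) :
    LaurentSeries ↥E) =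
      s18vIncl ↥(s18dVal 𝔸 E) ↥E (qExpand ↥(s18dVal 𝔸 E) q (jqModC ↥(s18dVal 𝔸 E))) := by
  rw [coeffMap_qExpand, coeffMap_jqModC]
  rfl

/-- `j, j_q` lie in the Gauss ring of `F_E(M q)` -/
theorem sqgct_J_mem {ϖ : ↥(s18dVal 𝔸 E)} (hϖ : Irreducible ϖ) :
    ssvmdJ E (M * q) ∈ s18vO ↥(s18dVal 𝔸 E) (modularFunctionFieldFullC E (M * q)) := by
  refine sqgv_mem_of_mul_eq hϖ _ (s18v_gen_full _) _ 1 (jqModC ↥(s18dVal 𝔸 E)) ?_ ?_
  · rw [map_one]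
    exact one_ne_zero
  · rw [map_one, mul_one, sqgct_coe_J 𝔸 E M]

theorem sqgct_Y_mem {ϖ : ↥(s18dVal 𝔸 E)} (hϖ : Irreducible ϖ) :
    ssvmmY E M q ∈ s18vO ↥(s18dVal 𝔸 E) (modularFunctionFieldFullC E (M * q)) := by
  refine sqgv_mem_of_mul_eq hϖ _ (s18v_gen_full _) _ 1
    (qExpand ↥(s18dVal 𝔸 E) q (jqModC ↥(s18dVal 𝔸 E))) ?_ ?_
  · rw [map_one]
    exact one_ne_zero
  · rw [map_one, mul_one, sqgct_coe_Y 𝔸 E M]

/-- `j_q ≡ j^q` modulo the maximal ideal of the Gauss ring of `F_E(M q)` -/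
theorem sqgct_frob (hA : 𝔸.LiesOverPrime q) {ϖ : ↥(s18dVal 𝔸 E)} (hϖ : Irreducible ϖ) :
    ssvmmY E M q - ssvmdJ E (M * q) ^ q ∈
      (ssvmfW hϖ (modularFunctionFieldFullC E (M * q)) (s18v_gen_full _)).nonunits := by
  haveI : CharP (ResidueField ↥(s18dVal 𝔸 E)) q := s18v_charP hϖ (s18d_natCast_mem 𝔸 E hA)
  have hmem : ssvmmY E M q - ssvmdJ E (M * q) ^ q ∈
      s18vO ↥(s18dVal 𝔸 E) (modularFunctionFieldFullC E (M * q)) :=
    Subring.sub_mem _ (sqgct_Y_mem 𝔸 E M hϖ) (Subring.pow_mem _ (sqgct_J_mem 𝔸 E M hϖ) q)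
  rw [ssvmf_mem_nonunits_iff]
  rw [← ssvmf_red_eq_zero_iff hϖ _ ⟨_, hmem⟩]
  rw [s18vcRed_incl _ _ (qExpand ↥(s18dVal 𝔸 E) q (jqModC ↥(s18dVal 𝔸 E)) -
    jqModC ↥(s18dVal 𝔸 E) ^ q)]
  · rw [map_sub, map_pow, coeffMap_qExpand, coeffMap_jqModC, gcjf_pow_char, coeffMap_jqModC,
      sub_self]
  · push_cast
    rw [sqgct_coe_Y 𝔸 E M, sqgct_coe_J 𝔸 E M, map_sub, map_pow]

/-- `j_q^q - j` is a unit of the Gauss ring of `F_E(M q)` -/
theorem sqgct_unit (hA : 𝔸.LiesOverPrime q) {ϖ : ↥(s18dVal 𝔸 E)} (hϖ : Irreducible ϖ) :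
    ssvmmY E M q ^ q - ssvmdJ E (M * q) ≠ 0 ∧
      (ssvmmY E M q ^ q - ssvmdJ E (M * q))⁻¹ ∈
        s18vO ↥(s18dVal 𝔸 E) (modularFunctionFieldFullC E (M * q)) := by
  haveI : CharP (ResidueField ↥(s18dVal 𝔸 E)) q := s18v_charP hϖ (s18d_natCast_mem 𝔸 E hA)
  have hv : s18vRes ↥(s18dVal 𝔸 E) (qExpand ↥(s18dVal 𝔸 E) q (jqModC ↥(s18dVal 𝔸 E)) ^ q -
      jqModC ↥(s18dVal 𝔸 E)) ≠ 0 := by
    rw [map_sub, map_pow, coeffMap_qExpand, coeffMap_jqModC]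
    exact sqvt_jq_pow_sub_ne_zero (k := ResidueField ↥(s18dVal 𝔸 E)) q
  have h := sqgv_unit_of_mul_eq hϖ (modularFunctionFieldFullC E (M * q)) (s18v_gen_full _)
    (ssvmmY E M q ^ q - ssvmdJ E (M * q)) 1
    (qExpand ↥(s18dVal 𝔸 E) q (jqModC ↥(s18dVal 𝔸 E)) ^ q - jqModC ↥(s18dVal 𝔸 E))
    (by rw [map_one]; exact one_ne_zero) hv
    (by
      push_cast
      rw [map_one, mul_one, sqgct_coe_Y 𝔸 E M, sqgct_coe_J 𝔸 E M, map_sub, map_pow])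
  obtain ⟨hx, hxi, -⟩ := h
  refine ⟨?_, hxi⟩
  intro h0
  apply hv
  have h1 : s18vIncl ↥(s18dVal 𝔸 E) ↥E (qExpand ↥(s18dVal 𝔸 E) q (jqModC ↥(s18dVal 𝔸 E)) ^ q -
      jqModC ↥(s18dVal 𝔸 E)) = 0 := by
    have h2 : ((ssvmmY E M q ^ q - ssvmdJ E (M * q) : ↥(modularFunctionFieldFullC E (M * q))) :
        LaurentSeries ↥E) = ((0 : ↥(modularFunctionFieldFullC E (M * q))) : LaurentSeries ↥E) := by
      rw [h0]
    push_cast at h2
    rw [sqgct_coe_Y 𝔸 E M, sqgct_coe_J 𝔸 E M] at h2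
    rw [map_sub, map_pow]
    exact h2
  rw [s18vg_incl_injective (h1.trans (map_zero _).symm), map_zero]

set_option maxHeartbeats 1000000 in
/-- **(T2-cong)** : for every valuation subring `V` of `F_E(M q q)` containing the image under `α`
of the Gauss ring of `F_E(M q)`, with `ϖ ∈ 𝔪_V` and `j_qq ≡ j mod 𝔪_V` :
`(j_qq - j)^(q-1) / ϖ + (q/ϖ) · α(g) ∈ 𝔪_V`. -/
theorem sqgct_cong (hA : 𝔸.LiesOverPrime q) {ϖ : ↥(s18dVal 𝔸 E)} (hϖ : Irreducible ϖ)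
    (Φ : (↥(s18dVal 𝔸 E))[X][X])
    (hk : Φ.map (mapRingHom (residue ↥(s18dVal 𝔸 E))) = (X - C (X ^ q)) * (X ^ q - C X))
    (hrj : (Φ.map (sqvmEvq ↥(s18dVal 𝔸 E) q)).eval (jqModC ↥(s18dVal 𝔸 E)) = 0)
    (hrq : (Φ.map (sqvmEvq ↥(s18dVal 𝔸 E) q)).eval
      (qExpand ↥(s18dVal 𝔸 E) (q * q) (jqModC ↥(s18dVal 𝔸 E))) = 0)
    (V : ValuationSubring ↥(modularFunctionFieldFullC E (M * q * q)))
    (hWV : ∀ x ∈ s18vO ↥(s18dVal 𝔸 E) (modularFunctionFieldFullC E (M * q)),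
      ssvmdIncl E (M * q) q x ∈ V)
    (hϖV : algebraMap ↥(s18dVal 𝔸 E) ↥(modularFunctionFieldFullC E (M * q * q)) ϖ ∈ V.nonunits)
    (hπ : sqvmY E M q - ssvmdJ E (M * q * q) ∈ V.nonunits) :
    (sqvmY E M q - ssvmdJ E (M * q * q)) ^ (q - 1) *
        (algebraMap ↥(s18dVal 𝔸 E) ↥(modularFunctionFieldFullC E (M * q * q)) ϖ)⁻¹ +
      ((q : ℕ) : ↥(modularFunctionFieldFullC E (M * q * q))) *
        (algebraMap ↥(s18dVal 𝔸 E) ↥(modularFunctionFieldFullC E (M * q * q)) ϖ)⁻¹ *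
          ssvmdIncl E (M * q) q (sqgvG E M q) ∈ V.nonunits := by
  have hq : q.Prime := Fact.out
  obtain ⟨Φ', hkron⟩ := sqvm_kron_lift hϖ q Φ hk
  have hqm := s18d_natCast_mem 𝔸 E hA
  rw [hϖ.maximalIdeal_eq, Ideal.mem_span_singleton'] at hqm
  obtain ⟨c₀, hc₀⟩ := hqm
  have hgr := sqgvG_red 𝔸 E M hA hϖ
  obtain ⟨hG, -, -⟩ := hgr
  have hun := sqgct_unit 𝔸 E M hA hϖ
  haveI : IsDiscreteValuationRing
      ↥(ssvmfW hϖ (modularFunctionFieldFullC E (M * q)) (s18v_gen_full _)) :=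
    (ssvmg_dvr (modularFunctionFieldFullC E (M * q)) hϖ).1
  exact sqgct_cong_W 𝔸 E M (ssvmfW hϖ (modularFunctionFieldFullC E (M * q)) (s18v_gen_full _))
    (s18vg_algebraMap_mem _) (sqgct_J_mem 𝔸 E M hϖ) (sqgct_Y_mem 𝔸 E M hϖ)
    (ssvmg_dvr (modularFunctionFieldFullC E (M * q)) hϖ).2 c₀ (by rw [← hc₀, mul_comm])
    (sqgct_frob 𝔸 E M hA hϖ) hun.1 hun.2 hG Φ Φ' hkron hrj hrq V hWV hϖV hπ

end Gauss


section Final

variable {q : ℕ} [Fact q.Prime] (𝔸 : ValuationSubring Qb) (E : IntermediateField ℚ Qb)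
  [IsDiscreteValuationRing ↥(s18dVal 𝔸 E)] [CharZero ↥(s18dVal 𝔸 E)]
variable (M : ℕ) [NeZero M]

set_option maxHeartbeats 1000000 in
/-- **(T2-cong), final form** (the modular polynomial is supplied by `ssvmc_modular`) -/
theorem sqgct_main (hA : 𝔸.LiesOverPrime q) {ϖ : ↥(s18dVal 𝔸 E)} (hϖ : Irreducible ϖ)
    (V : ValuationSubring ↥(modularFunctionFieldFullC E (M * q * q)))
    (hWV : ∀ x ∈ s18vO ↥(s18dVal 𝔸 E) (modularFunctionFieldFullC E (M * q)),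
      ssvmdIncl E (M * q) q x ∈ V)
    (hϖV : algebraMap ↥(s18dVal 𝔸 E) ↥(modularFunctionFieldFullC E (M * q * q)) ϖ ∈ V.nonunits)
    (hπ : sqvmY E M q - ssvmdJ E (M * q * q) ∈ V.nonunits) :
    (sqvmY E M q - ssvmdJ E (M * q * q)) ^ (q - 1) *
        (algebraMap ↥(s18dVal 𝔸 E) ↥(modularFunctionFieldFullC E (M * q * q)) ϖ)⁻¹ +
      ((q : ℕ) : ↥(modularFunctionFieldFullC E (M * q * q))) *
        (algebraMap ↥(s18dVal 𝔸 E) ↥(modularFunctionFieldFullC E (M * q * q)) ϖ)⁻¹ *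
          ssvmdIncl E (M * q) q (sqgvG E M q) ∈ V.nonunits := by
  have hq : q.Prime := Fact.out
  have hq1 : ¬ q ∣ 1 := fun h => hq.one_lt.ne' (Nat.dvd_one.mp h)
  have hmod := ssvmc_modular 𝔸 E hA
  obtain ⟨Φ, hm, hd, hc, hk, hroot, hmin, hc'⟩ := hmod
  exact sqgct_cong 𝔸 E M hA hϖ Φ hk (sqvm_root_j 𝔸 E Φ (hmin 1 hq1)) (sqvm_root_qq Φ hroot)
    V hWV hϖV hπ

set_option maxHeartbeats 1000000 in
/-- **(vert)** : when `q` is a uniformiser of `A₀` (`q = ϖ c₀`, `c₀ c₁ = 1`), `G₀ = (q/ϖ) · α(g)` is a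
unit of `V` -/
theorem sqgct_vert (hA : 𝔸.LiesOverPrime q) {ϖ : ↥(s18dVal 𝔸 E)} (hϖ : Irreducible ϖ)
    (c₀ c₁ : ↥(s18dVal 𝔸 E)) (hc₀ : ((q : ℕ) : ↥(s18dVal 𝔸 E)) = ϖ * c₀) (hc₁ : c₀ * c₁ = 1)
    (V : ValuationSubring ↥(modularFunctionFieldFullC E (M * q * q)))
    (hWV : ∀ x ∈ s18vO ↥(s18dVal 𝔸 E) (modularFunctionFieldFullC E (M * q)),
      ssvmdIncl E (M * q) q x ∈ V) :
    V.valuation (((q : ℕ) : ↥(modularFunctionFieldFullC E (M * q * q))) *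
        (algebraMap ↥(s18dVal 𝔸 E) ↥(modularFunctionFieldFullC E (M * q * q)) ϖ)⁻¹ *
          ssvmdIncl E (M * q) q (sqgvG E M q)) = 1 := by
  have hq : q.Prime := Fact.out
  have hϖ0 : algebraMap ↥(s18dVal 𝔸 E) ↥(modularFunctionFieldFullC E (M * q * q)) ϖ ≠ 0 := by
    intro h0
    exact hϖ.ne_zero (s18vg_algebraMap_injective (modularFunctionFieldFullC E (M * q * q))
      (by rw [h0, map_zero]))
  have hqF : ((q : ℕ) : ↥(modularFunctionFieldFullC E (M * q * q))) *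
      (algebraMap ↥(s18dVal 𝔸 E) ↥(modularFunctionFieldFullC E (M * q * q)) ϖ)⁻¹ =
      algebraMap ↥(s18dVal 𝔸 E) ↥(modularFunctionFieldFullC E (M * q * q)) c₀ := by
    have h1 : ((q : ℕ) : ↥(modularFunctionFieldFullC E (M * q * q))) =
        algebraMap ↥(s18dVal 𝔸 E) ↥(modularFunctionFieldFullC E (M * q * q)) ϖ *
          algebraMap ↥(s18dVal 𝔸 E) ↥(modularFunctionFieldFullC E (M * q * q)) c₀ := by
      rw [← map_mul, ← hc₀, map_natCast]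
    rw [h1]
    field_simp
  have h01 : algebraMap ↥(s18dVal 𝔸 E) ↥(modularFunctionFieldFullC E (M * q * q)) c₀ *
      algebraMap ↥(s18dVal 𝔸 E) ↥(modularFunctionFieldFullC E (M * q * q)) c₁ = 1 := by
    rw [← map_mul, hc₁, map_one]
  have hc₀0 : algebraMap ↥(s18dVal 𝔸 E) ↥(modularFunctionFieldFullC E (M * q * q)) c₀ ≠ 0 :=
    left_ne_zero_of_mul_eq_one h01
  have hmemA : ∀ a : ↥(s18dVal 𝔸 E),
      algebraMap ↥(s18dVal 𝔸 E) ↥(modularFunctionFieldFullC E (M * q * q)) a ∈ V := by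
    intro a
    rw [← sqgct_incl_algebraMap]
    exact hWV _ (s18vg_algebraMap_mem _ a)
  have hgr := sqgvG_red 𝔸 E M hA hϖ
  obtain ⟨hG, hGi, -⟩ := hgr
  have hg0 : ssvmdIncl E (M * q) q (sqgvG E M q) ≠ 0 :=
    (_root_.map_ne_zero _).mpr (sqgvG_ne_zero E M q)
  rw [hqF, map_mul]
  have h1 : V.valuation (algebraMap ↥(s18dVal 𝔸 E)
      ↥(modularFunctionFieldFullC E (M * q * q)) c₀) = 1 := by
    refine sqgv_val_eq_one V hc₀0 (hmemA c₀) ?_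
    rw [← eq_inv_of_mul_eq_one_right h01]
    exact hmemA c₁
  have h2 : V.valuation (ssvmdIncl E (M * q) q (sqgvG E M q)) = 1 := by
    refine sqgv_val_eq_one V hg0 (hWV _ hG) ?_
    rw [← map_inv₀]
    exact hWV _ hGi
  rw [h1, h2, one_mul]

set_option maxHeartbeats 1000000 in
/-- **`U = (j_qq - j)^(q-1)/ϖ` is a unit of `V`** (when `q` is a uniformiser of `A₀`) -/
theorem sqgct_val_U (hA : 𝔸.LiesOverPrime q) {ϖ : ↥(s18dVal 𝔸 E)} (hϖ : Irreducible ϖ)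
    (c₀ c₁ : ↥(s18dVal 𝔸 E)) (hc₀ : ((q : ℕ) : ↥(s18dVal 𝔸 E)) = ϖ * c₀) (hc₁ : c₀ * c₁ = 1)
    (V : ValuationSubring ↥(modularFunctionFieldFullC E (M * q * q)))
    (hWV : ∀ x ∈ s18vO ↥(s18dVal 𝔸 E) (modularFunctionFieldFullC E (M * q)),
      ssvmdIncl E (M * q) q x ∈ V)
    (hϖV : algebraMap ↥(s18dVal 𝔸 E) ↥(modularFunctionFieldFullC E (M * q * q)) ϖ ∈ V.nonunits)
    (hπ : sqvmY E M q - ssvmdJ E (M * q * q) ∈ V.nonunits) :
    V.valuation ((sqvmY E M q - ssvmdJ E (M * q * q)) ^ (q - 1) *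
        (algebraMap ↥(s18dVal 𝔸 E) ↥(modularFunctionFieldFullC E (M * q * q)) ϖ)⁻¹) = 1 := by
  have h1 := sqgct_main 𝔸 E M hA hϖ V hWV hϖV hπ
  have h2 := sqgct_vert 𝔸 E M hA hϖ c₀ c₁ hc₀ hc₁ V hWV
  rw [ValuationSubring.mem_nonunits_iff] at h1
  have h3 : (sqvmY E M q - ssvmdJ E (M * q * q)) ^ (q - 1) *
        (algebraMap ↥(s18dVal 𝔸 E) ↥(modularFunctionFieldFullC E (M * q * q)) ϖ)⁻¹ =
      ((sqvmY E M q - ssvmdJ E (M * q * q)) ^ (q - 1) *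
        (algebraMap ↥(s18dVal 𝔸 E) ↥(modularFunctionFieldFullC E (M * q * q)) ϖ)⁻¹ +
      ((q : ℕ) : ↥(modularFunctionFieldFullC E (M * q * q))) *
        (algebraMap ↥(s18dVal 𝔸 E) ↥(modularFunctionFieldFullC E (M * q * q)) ϖ)⁻¹ *
          ssvmdIncl E (M * q) q (sqgvG E M q)) -
      ((q : ℕ) : ↥(modularFunctionFieldFullC E (M * q * q))) *
        (algebraMap ↥(s18dVal 𝔸 E) ↥(modularFunctionFieldFullC E (M * q * q)) ϖ)⁻¹ *
          ssvmdIncl E (M * q) q (sqgvG E M q) := by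
    ring
  rw [h3, ← h2]
  apply Valuation.map_sub_eq_of_lt_right
  rw [h2]
  exact h1

end Final

end Fermat.Agent.SQ
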