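import Mathlib
import Fermat.Agent.SQ.Germ.Surj
import Fermat.Agent.SQ.Germ.OfVal

/-!
# Program Q (S36), package SQ/Germ : THE HYPOTHESES `SqgHyp` FOR THE CHART AT INFINITY (prefix `sqgcy`)

At the chart at infinity the third residue surjection `P = β₂ P₀ + 𝔭₃` cannot be obtained from
`sqgs_surj` : the chart coordinate `t⁻¹` of `P` is NOT `β₂ (t₀⁻¹)` (and `s18tInt A (β₂ t₀)⁻¹ ≠
s18tInt A t⁻¹`).  But `t ≡ (β₂ t₀)^n mod 𝔪_{V₃}` (`n = q²`), which is enough :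

* `sqgcy_surj_at_pow`, `sqgcy_surj_pow` : the residue surjection `P = f P₀ + 𝔭_V` when the chart
  coordinate `t` of `P` is only CONGRUENT to `(f t₀)^n` modulo `𝔪_V`;
* `sqgcy_hyp_inf` : **`SqgHyp hϖ₀ j β₀ β₂ ϖ t₀⁻¹ t⁻¹ e₂ V₁ V₂ V₃`** from the (chart-independent)
  valuation-level residue surjections, good reduction of the lower level in the chart `t₀⁻¹`, and
  `t ≡ (β₂ t₀)^n mod 𝔪_{V₃}`.
-/

set_option autoImplicit false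
set_option linter.unusedSectionVars false
set_option linter.unusedVariables false
set_option linter.style.haveILetI false

noncomputable section

namespace Fermat.Agent.SQ

open Polynomial IntermediateField AlgebraicCurve Fermat.Agent.S18 Fermat.Agent.SS Fermat.Agent.G
  IsLocalRing

universe u u₀

variable {A : Type*} [CommRing A] [IsDomain A] [IsDiscreteValuationRing A] [CharZero A]
variable {L : Type*} [Field L] [Algebra A L] [IsFractionRing A L]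
variable {F : Type u} [Field F] [Algebra A F] [Algebra L F] [IsScalarTower A L F]
variable {A₀ : Type*} [CommRing A₀] [IsDomain A₀] [IsDiscreteValuationRing A₀] [CharZero A₀]
variable {L₀ : Type*} [Field L₀] [Algebra A₀ L₀] [IsFractionRing A₀ L₀]
variable {F₀ : Type u₀} [Field F₀] [Algebra A₀ F₀] [Algebra L₀ F₀] [IsScalarTower A₀ L₀ F₀]
variable {ϖ : A} {t : F} {ϖ₀ : A₀} {t₀ : F₀}
variable {j : A₀ →+* A}

/-- values of polynomials at a point of `P₀` lie in `P₀` -/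
theorem sqgcy_aeval_mem_int {b : F₀} (hb : b ∈ s18tInt A₀ t₀) (c : A₀[X]) :
    aeval b c ∈ s18tInt A₀ t₀ := by
  rw [aeval_eq_sum_range]
  refine Subring.sum_mem _ fun i _ => ?_
  rw [Algebra.smul_def]
  exact Subring.mul_mem _ (s18tc_algebraMap_mem_int t₀ _) (Subring.pow_mem _ hb i)

/-- **THE RESIDUE SURJECTION AT ONE ELEMENT, CHART CONGRUENT TO A POWER** : `t ≡ (f t₀)^n mod 𝔪_V`. -/
theorem sqgcy_surj_at_pow (hϖ₀ : Irreducible ϖ₀) {f : F₀ →+* F}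
    (compat : ∀ a : A₀, f (algebraMap A₀ F₀ a) = algebraMap A F (j a))
    (unif : ∃ c : A, j ϖ₀ = ϖ * c)
    (good : GrdfbHyp hϖ₀ t₀) (hres : ∀ a : A, ∃ a₀ : A₀, ∃ b : A, a = j a₀ + ϖ * b)
    (V : ValuationSubring F) (hle : ∀ x ∈ s18tInt A t, x ∈ V)
    (hϖV : algebraMap A F ϖ ∈ V.nonunits)
    (gauss : ∀ x ∈ s18tIntLoc A₀ t₀ (C ϖ₀) (s18t_prime_C hϖ₀), f x ∈ V)
    (n : ℕ) (hchart : t - f t₀ ^ n ∈ V.nonunits)
    {x : F} (hx : x ∈ s18tInt A t)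
    (res : ∃ r ∈ s18tIntLoc A₀ t₀ (C ϖ₀) (s18t_prime_C hϖ₀), x - f r ∈ V.nonunits) :
    ∃ b ∈ s18tInt A₀ t₀, x - f b ∈ V.nonunits := by
  obtain ⟨r, hr, hxr⟩ := res
  obtain ⟨p, hp, hpx⟩ := grdfb_isIntegralElem_of_mem_int t x hx
  obtain ⟨m₀, hm₀, d, hd⟩ := ssgi_lift_monic hres p hp
  have lev : SsgaLevel j f ϖ₀ ϖ (t₀ ^ n) (f t₀ ^ n) := ⟨compat, map_pow f t₀ n, unif⟩
  set g : A₀[X] →+* F := f.comp ((aeval (t₀ ^ n) : A₀[X] →ₐ[A₀] F₀) : A₀[X] →+* F₀) with hgdef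
  set g' : A₀[X] →+* F :=
    (((aeval t : A[X] →ₐ[A] F) : A[X] →+* F)).comp (Polynomial.mapRingHom j) with hg'def
  have htV : t ∈ V := hle t (s18tc_self_mem_int t)
  have hft₀ : f t₀ ^ n ∈ V :=
    pow_mem (gauss t₀ (ssga_int_le_intLoc hϖ₀ t₀ (s18tc_self_mem_int t₀))) n
  have hconst : ∀ a : A, algebraMap A F a ∈ V := fun a => hle _ (s18tc_algebraMap_mem_int t a)
  -- `g c ≡ g' c`
  have hgg' : ∀ c : A₀[X], g c - g' c ∈ V.nonunits := by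
    intro c
    have e1 : g c = eval₂ (algebraMap A F) (f t₀ ^ n) (c.map j) := by
      rw [hgdef, RingHom.comp_apply]
      exact (lev.aeval c).trans (aeval_def _ _)
    have e2 : g' c = eval₂ (algebraMap A F) t (c.map j) := by
      rw [hg'def, RingHom.comp_apply]
      exact aeval_def _ _
    rw [e1, e2]
    have h := sqgs_eval₂_sub V (algebraMap A F) hconst (c.map j) htV hft₀ hchart
    have e3 : eval₂ (algebraMap A F) (f t₀ ^ n) (c.map j) - eval₂ (algebraMap A F) t (c.map j) =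
        -(eval₂ (algebraMap A F) t (c.map j) - eval₂ (algebraMap A F) (f t₀ ^ n) (c.map j)) := by
      ring
    rw [e3]
    exact ssgr_nu_neg V h
  -- `f ϖ₀ ∈ 𝔪_V`
  have hfϖ₀ : f (algebraMap A₀ F₀ ϖ₀) ∈ V.nonunits := by
    obtain ⟨c, hc⟩ := unif
    rw [compat, hc, map_mul]
    exact ssgr_nu_mul_left V hϖV (hconst c)
  -- the monic equation of `x` modulo `𝔪_V`
  have h1 : eval₂ g' x m₀ =
      algebraMap A F ϖ * eval₂ ((aeval t : A[X] →ₐ[A] F) : A[X] →+* F) x d := by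
    rw [hg'def, ← eval₂_map, hd, eval₂_add, hpx, zero_add, eval₂_mul, eval₂_C]
    congr 1
    simp
  have h1V' : eval₂ g' x m₀ ∈ V.nonunits := by
    rw [h1]
    exact ssgr_nu_mul_left V hϖV (hle _ (ssgi_eval₂_mem t x hx d))
  have hxV : x ∈ V := hle x hx
  have h1V : eval₂ g x m₀ ∈ V.nonunits := by
    have e : eval₂ g x m₀ = (eval₂ g x m₀ - eval₂ g' x m₀) + eval₂ g' x m₀ := by ring
    rw [e]
    refine ssgr_nu_add V ?_ h1V'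
    rw [eval₂_eq_sum_range, eval₂_eq_sum_range, ← Finset.sum_sub_distrib]
    refine ssgr_nu_sum V _ _ fun i _ => ?_
    rw [← sub_mul]
    exact ssgr_nu_mul_left V (hgg' _) (pow_mem hxV i)
  have ht₀n : t₀ ^ n ∈ s18tInt A₀ t₀ := Subring.pow_mem _ (s18tc_self_mem_int t₀) n
  have hgP : ∀ c, (aeval (t₀ ^ n) c : F₀) ∈ s18tIntLoc A₀ t₀ (C ϖ₀) (s18t_prime_C hϖ₀) := fun c =>
    ssga_int_le_intLoc hϖ₀ t₀ (sqgcy_aeval_mem_int ht₀n c)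
  have hgV : ∀ c, g c ∈ V := fun c => gauss _ (hgP c)
  have h2 := sqgs_eval₂_sub V g hgV m₀ hxV (gauss r hr) hxr
  have h3 : eval₂ g (f r) m₀ =
      f (eval₂ ((aeval (t₀ ^ n) : A₀[X] →ₐ[A₀] F₀) : A₀[X] →+* F₀) r m₀) := by
    rw [hgdef, Polynomial.hom_eval₂]
  set r' : F₀ := eval₂ ((aeval (t₀ ^ n) : A₀[X] →ₐ[A₀] F₀) : A₀[X] →+* F₀) r m₀ with hr'def
  have hr' : r' ∈ s18tIntLoc A₀ t₀ (C ϖ₀) (s18t_prime_C hϖ₀) :=
    sqgs_eval₂_mem _ _ hgP m₀ hr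
  have h4 : f r' ∈ V.nonunits := by
    have e : f r' = eval₂ g x m₀ - (eval₂ g x m₀ - eval₂ g (f r) m₀) := by rw [h3]; ring
    rw [e]
    exact ssgr_nu_sub V h1V h2
  -- `r' ∈ ϖ₀ O₀`
  have h5 : S18DvdGauss hϖ₀ t₀ r' := by
    rcases good.val r' hr' with h | hinv
    · exact h
    · by_cases h0 : r' = 0
      · exact ⟨0, Subring.zero_mem _, by rw [h0, mul_zero]⟩
      · exfalso
        have hfr : f r' ≠ 0 := (map_ne_zero f).mpr h0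
        have h6 : (f r')⁻¹ ∈ V := by
          rw [← map_inv₀]
          exact gauss _ hinv
        rw [V.mem_nonunits_iff] at h4
        have h7 := (V.valuation_le_one_iff _).mpr h6
        rw [map_inv₀] at h7
        have h8 : V.valuation (f r') ≠ 0 := (Valuation.ne_zero_iff _).mpr hfr
        exact absurd h4 (not_lt.mpr ((inv_le_one₀ (zero_lt_iff.mpr h8)).mp h7))
  obtain ⟨y, hy, hxy⟩ := h5
  -- integrality over `A₀[t₀]` : expand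
  have hexp : eval₂ ((aeval t₀ : A₀[X] →ₐ[A₀] F₀) : A₀[X] →+* F₀) r
      (m₀.map ((expand A₀ n : A₀[X] →ₐ[A₀] A₀[X]) : A₀[X] →+* A₀[X])) = r' := by
    rw [eval₂_map, hr'def]
    congr 1
    refine RingHom.ext fun c => ?_
    show aeval t₀ (expand A₀ n c) = aeval (t₀ ^ n) c
    exact expand_aeval n c t₀
  obtain ⟨b, hb, y', hy', hby⟩ := good.norm r hr
    ⟨m₀.map ((expand A₀ n : A₀[X] →ₐ[A₀] A₀[X]) : A₀[X] →+* A₀[X]), hm₀.map _, y, hy, by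
      rw [hexp]; exact hxy⟩
  refine ⟨b, hb, ?_⟩
  have e : x - f b = (x - f r) + f (algebraMap A₀ F₀ ϖ₀) * f y' := by
    rw [← map_mul, ← hby, map_sub]
    ring
  rw [e]
  exact ssgr_nu_add V hxr (ssgr_nu_mul_left V hfϖ₀ (gauss _ hy'))

/-- **THE RESIDUE SURJECTION** `P = f P₀ + 𝔭_V`, chart congruent to a power. -/
theorem sqgcy_surj_pow (hϖ₀ : Irreducible ϖ₀) {f : F₀ →+* F}
    (compat : ∀ a : A₀, f (algebraMap A₀ F₀ a) = algebraMap A F (j a))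
    (unif : ∃ c : A, j ϖ₀ = ϖ * c)
    (good : GrdfbHyp hϖ₀ t₀) (hres : ∀ a : A, ∃ a₀ : A₀, ∃ b : A, a = j a₀ + ϖ * b)
    (V : ValuationSubring F) (hle : ∀ x ∈ s18tInt A t, x ∈ V)
    (hϖV : algebraMap A F ϖ ∈ V.nonunits)
    (gauss : ∀ x ∈ s18tIntLoc A₀ t₀ (C ϖ₀) (s18t_prime_C hϖ₀), f x ∈ V)
    (n : ℕ) (hchart : t - f t₀ ^ n ∈ V.nonunits)
    (res : ∀ x ∈ V, ∃ r ∈ s18tIntLoc A₀ t₀ (C ϖ₀) (s18t_prime_C hϖ₀), x - f r ∈ V.nonunits) :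
    ∀ p ∈ s18tInt A t, ∃ b ∈ s18tInt A₀ t₀, p - f b ∈ V.nonunits := fun x hx =>
  sqgcy_surj_at_pow hϖ₀ compat unif good hres V hle hϖV gauss n hchart hx (res x (hle x hx))

/-- the Gauss rings of the charts `t₀` and `t₀⁻¹` coincide -/
theorem sqgcy_intLoc_inv (hϖ₀ : Irreducible ϖ₀) (t₀ : F₀) (ht₀ : Transcendental L₀ t₀) :
    s18tIntLoc A₀ t₀⁻¹ (C ϖ₀) (s18t_prime_C hϖ₀) = s18tIntLoc A₀ t₀ (C ϖ₀) (s18t_prime_C hϖ₀) := by
  unfold s18tIntLoc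
  rw [s18t_loc_inv (L := L₀) hϖ₀ t₀ ht₀]

/-- **THE HYPOTHESES OF THE ABSTRACT GERM² FOR THE CHART AT INFINITY.** -/
theorem sqgcy_hyp_inf (hϖ₀ : Irreducible ϖ₀) (ht₀ : Transcendental L₀ t₀)
    {β₀ β₂ : F₀ →+* F} {e₂ : ℕ} {V₁ V₂ V₃ : ValuationSubring F}
    (lev : SsgaLevel j β₀ ϖ₀ ϖ t₀ t)
    (compat₂ : ∀ a : A₀, β₂ (algebraMap A₀ F₀ a) = algebraMap A F (j a))
    (three : SqgaThree ϖ t⁻¹ e₂ V₁ V₂ V₃)
    (good : GrdfbHyp hϖ₀ t₀⁻¹)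
    (hres : ∀ a : A, ∃ a₀ : A₀, ∃ b : A, a = j a₀ + ϖ * b)
    (gauss₁ : ∀ x ∈ s18tIntLoc A₀ t₀ (C ϖ₀) (s18t_prime_C hϖ₀), β₀ x ∈ V₁)
    (gauss₂ : ∀ x ∈ s18tIntLoc A₀ t₀ (C ϖ₀) (s18t_prime_C hϖ₀), β₀ x ∈ V₂)
    (gauss₃ : ∀ x ∈ s18tIntLoc A₀ t₀ (C ϖ₀) (s18t_prime_C hϖ₀), β₂ x ∈ V₃)
    (vres₁ : ∀ x ∈ V₁, ∃ r ∈ s18tIntLoc A₀ t₀ (C ϖ₀) (s18t_prime_C hϖ₀), x - β₀ r ∈ V₁.nonunits)
    (vres₂ : ∀ x ∈ V₂, ∃ r ∈ s18tIntLoc A₀ t₀ (C ϖ₀) (s18t_prime_C hϖ₀), x - β₀ r ∈ V₂.nonunits)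
    (vres₃ : ∀ x ∈ V₃, ∃ r ∈ s18tIntLoc A₀ t₀ (C ϖ₀) (s18t_prime_C hϖ₀), x - β₂ r ∈ V₃.nonunits)
    (n : ℕ) (hchart₃ : t⁻¹ - β₂ t₀⁻¹ ^ n ∈ V₃.nonunits) :
    SqgHyp hϖ₀ j β₀ β₂ ϖ t₀⁻¹ t⁻¹ e₂ V₁ V₂ V₃ := by
  have e := sqgcy_intLoc_inv (L₀ := L₀) hϖ₀ t₀ ht₀
  have lev' : SsgaLevel j β₀ ϖ₀ ϖ t₀⁻¹ t⁻¹ :=
    ⟨lev.compat, by rw [map_inv₀, lev.coord], lev.unif⟩
  refine
    { level := lev'
      compat₂ := compat₂
      three := three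
      good := good
      surj₁ := sqgs_surj hϖ₀ lev' good hres V₁ three.le₁ three.unif₁ ?_ ?_
      surj₂ := sqgs_surj hϖ₀ lev' good hres V₂ three.le₂ three.unif₂ ?_ ?_
      surj₃ := sqgcy_surj_pow hϖ₀ compat₂ lev.unif good hres V₃ three.le₃ three.unif₃ ?_ n
        hchart₃ ?_ }
  all_goals rw [e]
  · exact gauss₁
  · exact vres₁
  · exact gauss₂
  · exact vres₂
  · exact gauss₃
  · exact vres₃

end Fermat.Agent.SQ
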