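/-
Program Q (S36), GERM² at the cusp of `C₂`, leaf for helper5 (`SQ/Germ/CuspAbs.lean`); written by helper22.

`sqgcu_val_sub` : `v` a valuation of residue characteristic prime to `q` (`v q = 1`), `Φ` of the shape of
the modular polynomial with BOTH `Φ(y, t) = 0` and `Φ(y, z) = 0` (`SsgnModPoly A F y t q Φ`,
`SsgnModPoly A F y z q Φ`), `v t > 1`, `v y = (v t)^q`, `v z = v t`, `z ≠ t`  ⟹  `v (z - t) = v t`
(i.e. `z/t - 1` is a `v`-unit).

Proof: `0 = Φ(y,z) - Φ(y,t) = (z - t) Ψ`, `Ψ = ∑ ξ_i(y) G_i`, `G_i = ∑_{a+b=i-1} z^a t^b`; if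
`v (G_q) = (v t)^{q-1}` the term `i = q` dominates strictly, so `Ψ ≠ 0`; hence `v (∑_{a<q} (z/t)^a) < 1`,
and `v (z/t - 1) < 1` would give `∑_{a<q} (z/t)^a ≡ q`, a `v`-unit.
-/
import Mathlib
import Fermat.Agent.SS.Geo.NewtonAbs

set_option autoImplicit false
set_option linter.unusedSectionVars false
set_option linter.unusedVariables false

namespace Fermat.Agent.SQ

open Polynomial Fermat.Agent.SS

variable {A F Γ₀ : Type*} [CommRing A] [Field F] [Algebra A F] [LinearOrderedCommGroupWithZero Γ₀]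
variable (v : Valuation F Γ₀)

/-- the valuation of `G_n = ∑_{k<n} z^k t^{n-1-k}` for `v z = v t ≥ 1`. -/
theorem sqgcu_val_geom₂_le {z t : F} (hzt : v z = v t) (n : ℕ) :
    v (∑ k ∈ Finset.range n, z ^ k * t ^ (n - 1 - k)) ≤ v t ^ (n - 1) := by
  refine v.map_sum_le fun k hk => ?_
  rw [Finset.mem_range] at hk
  rw [map_mul, map_pow, map_pow, hzt, ← pow_add]
  exact le_of_eq (congrArg _ (by omega))

/-- if `v (r - 1) < 1` then `v (∑_{k<q} r^k - q) < 1`. -/
theorem sqgcu_val_geom_sub {r : F} (hr : v (r - 1) < 1) (q : ℕ) :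
    v (∑ k ∈ Finset.range q, r ^ k - (q : F)) < 1 := by
  have hr1 : v r ≤ 1 := by
    have h : r = (r - 1) + 1 := by ring
    rw [h]
    exact v.map_add_le hr.le (by rw [map_one])
  have hk : ∀ k : ℕ, v (r ^ k - 1) < 1 := by
    intro k
    have h : r ^ k - 1 = (∑ i ∈ Finset.range k, r ^ i) * (r - 1) := (geom_sum_mul r k).symm
    rw [h, map_mul]
    have h1 : v (∑ i ∈ Finset.range k, r ^ i) ≤ 1 := by
      refine v.map_sum_le fun i _ => ?_
      rw [map_pow]
      exact pow_le_one₀ zero_le hr1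
    calc v (∑ i ∈ Finset.range k, r ^ i) * v (r - 1) ≤ 1 * v (r - 1) := mul_le_mul_left h1 _
      _ = v (r - 1) := one_mul _
      _ < 1 := hr
  have h : ∑ k ∈ Finset.range q, r ^ k - (q : F) = ∑ k ∈ Finset.range q, (r ^ k - 1) := by
    rw [Finset.sum_sub_distrib]
    simp
  rw [h]
  exact v.map_sum_lt one_ne_zero fun k _ => hk k

/-- **the two roots `t`, `z` of the modular polynomial `Φ(y, ·)` at a cusp of type `1/q`** differ by a
unit multiple of `t`: `v (z - t) = v t`. -/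
theorem sqgcu_val_sub (hA : ∀ a : A, v (algebraMap A F a) ≤ 1) {q : ℕ} (hq : 2 ≤ q)
    (hvq : v ((q : ℕ) : F) = 1) {y t z : F} {Φ : A[X][X]} (ht : SsgnModPoly A F y t q Φ)
    (hz : SsgnModPoly A F y z q Φ) (h1 : 1 < v t) (hy : v y = v t ^ q) (hzt : v z = v t)
    (hne : z ≠ t) : v (z - t) = v t := by
  have hμ0 : v t ≠ 0 := (lt_trans zero_lt_one h1).ne'
  have ht0 : t ≠ 0 := fun h => hμ0 (by rw [h, map_zero])
  have hy1 : 1 < v y := by
    rw [hy]
    exact one_lt_pow₀ h1 (by omega)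
  -- the coefficients
  set c : ℕ → F := fun i => aeval y (Φ.coeff i) with hc
  have hcq : v (c q) = v t ^ (q * q) := by
    show v (aeval y (Φ.coeff q)) = _
    rw [ssgn_val_aeval_eq v hA hy1 _ (ssgn_unit_val v hA ht.lcq), ht.degq, hy, ← pow_mul]
  have hci : ∀ i, 1 ≤ i → i ≤ q → v (c i) ≤ v t ^ (q * q) := by
    intro i hi1 hiq
    show v (aeval y (Φ.coeff i)) ≤ _
    have := ssgn_val_aeval_le v hA hy1.le _ (ht.mid i hi1 hiq)
    rwa [hy, ← pow_mul] at this
  -- the geometric sums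
  set G : ℕ → F := fun n => ∑ k ∈ Finset.range n, z ^ k * t ^ (n - 1 - k) with hG
  have hGmul : ∀ n, G n * (z - t) = z ^ n - t ^ n := fun n => geom_sum₂_mul z t n
  have hGle : ∀ n, v (G n) ≤ v t ^ (n - 1) := fun n => sqgcu_val_geom₂_le v hzt n
  -- `Ψ = 0`
  have hΨ : G (q + 1) + c q * G q + ∑ i ∈ Finset.Ico 1 q, c i * G i = 0 := by
    have hEt := ht.expand (by omega)
    have hEz := hz.expand (by omega)
    have hzt0 : z - t ≠ 0 := sub_ne_zero.mpr hne
    apply mul_right_cancel₀ hzt0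
    rw [zero_mul, add_mul, add_mul, mul_assoc, hGmul, hGmul, Finset.sum_mul]
    have h2 : ∑ i ∈ Finset.Ico 1 q, c i * G i * (z - t) =
        ∑ i ∈ Finset.Ico 1 q, c i * z ^ i - ∑ i ∈ Finset.Ico 1 q, c i * t ^ i := by
      rw [← Finset.sum_sub_distrib]
      refine Finset.sum_congr rfl fun i _ => ?_
      rw [mul_assoc, hGmul, mul_sub]
    rw [h2]
    linear_combination hEz - hEt
  -- `v (G q) < (v t)^(q-1)`
  have hGq : v (G q) < v t ^ (q - 1) := by
    refine lt_of_le_of_ne (hGle q) fun heq => ?_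
    have hdom : v (c q * G q) = v t ^ (q * q + (q - 1)) := by
      rw [map_mul, hcq, heq, ← pow_add]
    have hlt1 : v (G (q + 1)) < v (c q * G q) := by
      rw [hdom]
      calc v (G (q + 1)) ≤ v t ^ (q + 1 - 1) := hGle (q + 1)
        _ < v t ^ (q * q + (q - 1)) := pow_lt_pow_right₀ h1 (by
            have : 2 * q ≤ q * q := Nat.mul_le_mul_right q hq
            omega)
    have hlt2 : v (∑ i ∈ Finset.Ico 1 q, c i * G i) < v (c q * G q) := by
      rw [hdom]
      refine v.map_sum_lt (pow_ne_zero _ hμ0) fun i hi => ?_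
      rw [Finset.mem_Ico] at hi
      rw [map_mul]
      calc v (c i) * v (G i) ≤ v t ^ (q * q) * v t ^ (i - 1) :=
            mul_le_mul' (hci i hi.1 hi.2.le) (hGle i)
        _ = v t ^ (q * q + (i - 1)) := (pow_add _ _ _).symm
        _ < v t ^ (q * q + (q - 1)) := pow_lt_pow_right₀ h1 (by omega)
    have h3 : c q * G q = -(G (q + 1) + ∑ i ∈ Finset.Ico 1 q, c i * G i) := by
      linear_combination hΨ
    have h4 : v (G (q + 1) + ∑ i ∈ Finset.Ico 1 q, c i * G i) < v (c q * G q) :=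
      v.map_add_lt hlt1 hlt2
    rw [h3, Valuation.map_neg] at h4
    exact lt_irrefl _ h4
  -- pass to `r = z / t`
  set r : F := z / t with hr
  have hzr : z = r * t := by rw [hr, div_mul_cancel₀ _ ht0]
  have hGr : G q = t ^ (q - 1) * ∑ k ∈ Finset.range q, r ^ k := by
    show ∑ k ∈ Finset.range q, z ^ k * t ^ (q - 1 - k) = _
    rw [Finset.mul_sum]
    refine Finset.sum_congr rfl fun k hk => ?_
    rw [Finset.mem_range] at hk
    rw [hzr, mul_pow]
    have : q - 1 = k + (q - 1 - k) := by omega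
    conv_rhs => rw [this, pow_add]
    ring
  have hSr : v (∑ k ∈ Finset.range q, r ^ k) < 1 := by
    rw [hGr, map_mul, map_pow] at hGq
    by_contra hge
    rw [not_lt] at hge
    have : v t ^ (q - 1) * 1 ≤ v t ^ (q - 1) * v (∑ k ∈ Finset.range q, r ^ k) :=
      mul_le_mul_right hge _
    rw [mul_one] at this
    exact absurd hGq (not_lt.mpr this)
  have hvr : v r = 1 := by
    rw [hr, map_div₀, hzt, div_self hμ0]
  have hr1 : v (r - 1) = 1 := by
    refine le_antisymm ?_ ?_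
    · refine le_trans (v.map_sub_le (le_of_eq hvr) (le_of_eq (map_one v))) le_rfl
    · by_contra hlt
      rw [not_le] at hlt
      have h5 := sqgcu_val_geom_sub v hlt q
      have h6 : ((q : ℕ) : F) = ∑ k ∈ Finset.range q, r ^ k -
          (∑ k ∈ Finset.range q, r ^ k - (q : F)) := by ring
      have h7 : v ((q : ℕ) : F) < 1 := by
        rw [h6]
        exact v.map_sub_lt hSr h5
      rw [hvq] at h7
      exact lt_irrefl _ h7
  have h8 : z - t = t * (r - 1) := by rw [hzr]; ring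
  rw [h8, map_mul, hr1, mul_one]

end Fermat.Agent.SQ
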