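import Mathlib
import Fermat.Agent.SQ.Three
import Fermat.Agent.SQ.ThreeLoc
import Fermat.Agent.SQ.Germ.CuspAbs
import Fermat.Agent.SQ.Germ.CuspVal
import Fermat.Agent.SS.K.Krull
import Fermat.Agent.SS.Loc.Place

/-!
# Program Q (S36), package SQ/Germ : (T2) AT THE CUSP POINT OF THE COMPONENT OF MULTIPLICITY `q - 1`
(prefix `sqgcz`)

Chart at infinity : `s = t⁻¹`, `Q = s18tInt A t⁻¹`, `𝔫` a maximal ideal of `Q` containing `s`, lying on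
the component `V i₂` only (`i₂` the index of the component of multiplicity `e i₂`).  Tower
`t ↦ y ↦ z` with `Φ(t, y) = Φ(y, z) = Φ(y, t) = 0`.

* `sqgcz_fam_inv`  : `SqvFam` for the chart `t⁻¹` from the chart `t`;
* `sqgcz_gk`       : (GK) generalised Krull in `ValuationSubring` form;
* `sqgcz_val_ff`   : (VL1) at a place with `v z = (v y)^q > 1` : `y^{-q} z ≡ - lc`;
* `sqgcz_T2`       : **(T2) at the cusp point** : `ϖ = π^{e₂} w`, `π = t z⁻¹ - 1 ∈ 𝔪_{V₂} ∩ Q_𝔫`,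
  `w ∈ Q_𝔫` — the hypothesis `hT2` of `sqgm_germ_simple`.
-/

set_option autoImplicit false
set_option linter.unusedSectionVars false
set_option linter.unusedVariables false
set_option linter.style.haveILetI false

noncomputable section

namespace Fermat.Agent.SQ

open Polynomial IntermediateField Fermat.Agent.S18 Fermat.Agent.SS IsLocalRing

universe u

variable {A : Type*} [CommRing A] [IsDomain A] [IsDiscreteValuationRing A] [CharZero A]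
variable {L : Type*} [Field L] [Algebra A L] [IsFractionRing A L]
variable {F : Type u} [Field F] [Algebra A F] [Algebra L F] [IsScalarTower A L F]
variable {ϖ : A}
variable {hϖ : Irreducible ϖ} {t : F} {ι : Type*} {V : ι → ValuationSubring F} {π : ι → F}
  {e : ι → ℕ}

/-! ### the chart at infinity -/

theorem sqgcz_transcendental_inv (ht : Transcendental L t) : Transcendental L t⁻¹ := by
  intro halg
  exact ht (by simpa using halg.inv)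

theorem sqgcz_finiteDimensional_inv (t : F) [FiniteDimensional L⟮t⟯ F] :
    FiniteDimensional L⟮t⁻¹⟯ F := by
  have e : L⟮t⁻¹⟯ = L⟮t⟯ := by
    apply le_antisymm
    · rw [adjoin_simple_le_iff]
      exact inv_mem (mem_adjoin_simple_self L t)
    · rw [adjoin_simple_le_iff]
      have h1 : (t⁻¹)⁻¹ ∈ L⟮t⁻¹⟯ := inv_mem (mem_adjoin_simple_self L t⁻¹)
      rwa [inv_inv] at h1
  rw [e]
  infer_instance

/-- the Gauss rings of the charts `t` and `t⁻¹` coincide -/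
theorem sqgcz_intLoc_inv (hϖ : Irreducible ϖ) (t : F) (ht : Transcendental L t) :
    s18tIntLoc A t⁻¹ (C ϖ) (s18t_prime_C hϖ) = s18tIntLoc A t (C ϖ) (s18t_prime_C hϖ) := by
  unfold s18tIntLoc
  rw [s18t_loc_inv (L := L) hϖ t ht]

/-- the family `V i` for the chart `t⁻¹` -/
theorem sqgcz_fam_inv (h : SqvFam hϖ t V π e) (ht : Transcendental L t) :
    SqvFam hϖ t⁻¹ V π e :=
  ⟨fun x => by rw [sqgcz_intLoc_inv (L := L) hϖ t ht]; exact h.mem_iff x, h.unif, h.e_ne, h.pow,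
    h.sep⟩

/-! ### (GK) in `ValuationSubring` form -/

/-- **(GK)** generalised Krull : `x ∈ V i` for the components THROUGH `𝔫` and no pole at the
horizontal places through `𝔫` ⟹ `x ∈ P_𝔫`. -/
theorem sqgcz_gk [Fintype ι] (h : SqvFam hϖ t V π e) (ht : Transcendental L t)
    [FiniteDimensional L⟮t⟯ F] (𝔫 : Ideal ↥(s18tInt A t)) (h𝔫 : 𝔫.IsMaximal) {x : F}
    (hv : ∀ i, SqtOn (V i) t 𝔫 → x ∈ V i)
    (hpl : ∀ W : ValuationSubring F, S18IsPlace L W → s18tInt A t ≤ W.toSubring →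
      sskCentre t W ⊆ (𝔫 : Set ↥(s18tInt A t)) → x ∈ W) : SsnfInLoc t 𝔫 x := by
  classical
  haveI h𝔫p : 𝔫.IsPrime := h𝔫.isPrime
  obtain ⟨b, hb, hbv⟩ := h.exists_clear 𝔫
  obtain ⟨K, hK⟩ := h.arch ht x
  have hy : (b : F) ^ K * x ∈ s18tIntLoc A t (C ϖ) (s18t_prime_C hϖ) := by
    refine (h.mem_iff _).mpr fun i => ?_
    by_cases hon : SqtOn (V i) t 𝔫
    · exact (V i).mul_mem _ _ ((V i).pow_mem (h.int_mem i b.2) K) (hv i hon)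
    · rw [← (V i).valuation_le_one_iff, map_mul, map_pow]
      calc (V i).valuation (b : F) ^ K * (V i).valuation x
          ≤ (V i).valuation (algebraMap A F ϖ) ^ K * (V i).valuation x :=
            mul_le_mul_left (pow_le_pow_left₀ zero_le (hbv i hon) K) _
        _ = (V i).valuation (algebraMap A F ϖ ^ K * x) := by rw [map_mul, map_pow]
        _ ≤ 1 := hK i
  obtain ⟨s, hs, hsy⟩ := ssk_krull hϖ t ht 𝔫 h𝔫 _ hy (by
    intro W hW hPW hcentre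
    exact W.mul_mem _ _ (W.pow_mem (hPW b.2) K) (hpl W hW hPW hcentre))
  refine ⟨s * b ^ K, fun hmem => ?_, ?_⟩
  · rcases h𝔫p.mem_or_mem hmem with h1 | h1
    · exact hs h1
    · exact hb (h𝔫p.mem_of_pow_mem K h1)
  · have : ((s * b ^ K : ↥(s18tInt A t)) : F) * x = (s : F) * ((b : F) ^ K * x) := by
      push_cast; ring
    rw [this]; exact hsy

/-! ### (VL1) -/

section VL1

variable {Γ₀ : Type*} [LinearOrderedCommGroupWithZero Γ₀] (v : Valuation F Γ₀)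

/-- **(VL1)** at a place with `v z = (v y)^q`, `v y > 1` (the pattern of the cusp `∞`) :
`y^{-q} z ≡ - lc(Φ_q)` modulo the maximal ideal. -/
theorem sqgcz_val_ff (hA : ∀ a : A, v (algebraMap A F a) ≤ 1) {q : ℕ} (hq : 2 ≤ q) {y z : F}
    {Φ : A[X][X]} (h : SsgnModPoly A F y z q Φ) (h1 : 1 < v y) (hz : v z = v y ^ q) :
    v (y⁻¹ ^ q * z + algebraMap A F (Φ.coeff q).leadingCoeff) < 1 := by
  have hμ0 : v y ≠ 0 := (lt_trans zero_lt_one h1).ne'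
  have hy0 : y ≠ 0 := fun h0 => hμ0 (by rw [h0, map_zero])
  have hz0 : z ≠ 0 := fun h0 => by
    rw [h0, map_zero] at hz
    exact pow_ne_zero q hμ0 hz.symm
  have hexp := h.expand (by omega)
  -- `c_q = lc y^q + r`
  set r : F := aeval y (Φ.coeff q).eraseLead with hr
  have hcq : aeval y (Φ.coeff q) = r + algebraMap A F (Φ.coeff q).leadingCoeff * y ^ q := by
    conv_lhs => rw [← eraseLead_add_C_mul_X_pow (Φ.coeff q), h.degq]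
    rw [map_add, map_mul, aeval_C, map_pow, aeval_X]
  have hrv : v r ≤ v y ^ (q - 1) := by
    refine ssgn_val_aeval_le v hA h1.le _ ?_
    have := eraseLead_natDegree_le (Φ.coeff q)
    rw [h.degq] at this
    exact this
  -- the identity
  have key : (y⁻¹ ^ q * z + algebraMap A F (Φ.coeff q).leadingCoeff) * (z ^ q * y ^ q) =
      -(r * z ^ q + ∑ i ∈ Finset.Ico 1 q, aeval y (Φ.coeff i) * z ^ i + aeval y (Φ.coeff 0)) := by
    have e1 : y⁻¹ ^ q * y ^ q = 1 := by rw [← mul_pow, inv_mul_cancel₀ hy0, one_pow]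
    have e2 : (y⁻¹ ^ q * z + algebraMap A F (Φ.coeff q).leadingCoeff) * (z ^ q * y ^ q) =
        (y⁻¹ ^ q * y ^ q) * z ^ (q + 1) +
          algebraMap A F (Φ.coeff q).leadingCoeff * y ^ q * z ^ q := by ring
    rw [e2, e1, one_mul]
    rw [hcq] at hexp
    linear_combination hexp
  have hden : v (z ^ q * y ^ q) = v y ^ (q * q + q) := by
    rw [map_mul, map_pow, map_pow, hz, ← pow_mul, ← pow_add]
  have hlt : v (r * z ^ q + ∑ i ∈ Finset.Ico 1 q, aeval y (Φ.coeff i) * z ^ i +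
      aeval y (Φ.coeff 0)) < v y ^ (q * q + q) := by
    refine v.map_add_lt (v.map_add_lt ?_ ?_) ?_
    · rw [map_mul, map_pow, hz, ← pow_mul]
      calc v r * v y ^ (q * q) ≤ v y ^ (q - 1) * v y ^ (q * q) := mul_le_mul_left hrv _
        _ = v y ^ (q - 1 + q * q) := (pow_add _ _ _).symm
        _ < v y ^ (q * q + q) := pow_lt_pow_right₀ h1 (by omega)
    · refine v.map_sum_lt (pow_ne_zero _ hμ0) fun i hi => ?_
      rw [Finset.mem_Ico] at hi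
      rw [map_mul, map_pow, hz, ← pow_mul]
      calc v (aeval y (Φ.coeff i)) * v y ^ (q * i)
          ≤ v y ^ q * v y ^ (q * i) :=
            mul_le_mul_left (ssgn_val_aeval_le v hA h1.le _ (h.mid i hi.1 hi.2.le)) _
        _ = v y ^ (q + q * i) := (pow_add _ _ _).symm
        _ < v y ^ (q * q + q) := pow_lt_pow_right₀ h1 (by
            have : q * i < q * q := Nat.mul_lt_mul_of_pos_left hi.2 (by omega)
            omega)
    · calc v (aeval y (Φ.coeff 0)) ≤ v y ^ (q + 1) :=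
            ssgn_val_aeval_le v hA h1.le _ h.deg0.le
        _ < v y ^ (q * q + q) := pow_lt_pow_right₀ h1 (by nlinarith)
  have h2 : v (y⁻¹ ^ q * z + algebraMap A F (Φ.coeff q).leadingCoeff) * v y ^ (q * q + q) <
      1 * v y ^ (q * q + q) := by
    rw [← hden, ← map_mul, key, Valuation.map_neg, one_mul, hden]
    exact hlt
  exact lt_of_mul_lt_mul_right h2 zero_le

end VL1

/-! ### the relation `SqgcuRel` from `SsgnModPoly` -/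

theorem sqgcz_rel_of_modPoly {x y : F} {q : ℕ} {Φ : A[X][X]} (h : SsgnModPoly A F x y q Φ) :
    SqgcuRel A x y q (fun i => Φ.coeff i) := by
  refine ⟨?_, h.lead, h.deg0.le, h.mid, ?_⟩
  · have hroot := h.root
    rw [eval₂_eq_sum_range, h.deg] at hroot
    exact hroot
  · have := h.lc0
    rwa [leadingCoeff, h.deg0] at this

/-! ### the two separating functions at a cusp point on `V₂` -/

section Sep

variable {y z : F} {q : ℕ} {p p' : ℕ → A[X]}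
variable (𝔫 : Ideal ↥(s18tInt A t⁻¹)) [h𝔫 : 𝔫.IsPrime]

/-- `f₁ = s^q y ∉ 𝔫` at a point of a component where `y ≡ t^q`. -/
theorem sqgcz_sep₁_not_mem (h₁ : SqgcuRel A t y q p) (ht : t ≠ 0) (hq : 1 ≤ q)
    (V₂ : ValuationSubring F) (hQ₂ : ∀ x ∈ s18tInt A t⁻¹, x ∈ V₂)
    (hy₂ : y - t ^ q ∈ V₂.nonunits)
    (hon₂ : ∀ x : ↥(s18tInt A t⁻¹), (x : F) ∈ V₂.nonunits → x ∈ 𝔫) :
    (⟨t⁻¹ ^ q * y, h₁.sep_mem ht hq⟩ : ↥(s18tInt A t⁻¹)) ∉ 𝔫 := by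
  intro hmem
  have h1 : (⟨t⁻¹ ^ q * y, h₁.sep_mem ht hq⟩ - 1 : ↥(s18tInt A t⁻¹)) ∈ 𝔫 := by
    refine hon₂ _ ?_
    have e : ((⟨t⁻¹ ^ q * y, h₁.sep_mem ht hq⟩ - 1 : ↥(s18tInt A t⁻¹)) : F) =
        t⁻¹ ^ q * (y - t ^ q) := by
      rw [mul_sub, ← mul_pow, inv_mul_cancel₀ ht, one_pow]
      rfl
    rw [e]
    exact sqgcu_nu_mul V₂ (pow_mem (hQ₂ _ (s18tc_self_mem_int t⁻¹)) q) hy₂
  have h2 : (1 : ↥(s18tInt A t⁻¹)) ∈ 𝔫 := by
    have := 𝔫.sub_mem hmem h1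
    rwa [sub_sub_cancel] at this
  exact h𝔫.ne_top ((Ideal.eq_top_iff_one _).mpr h2)

/-- `f₂ = y^{-q} z ∈ 𝔫 Q_𝔫` at a cusp point of a component where `z^q ≡ y`. -/
theorem sqgcz_sep₂_inMax (h₁ : SqgcuRel A t y q p) (h₂ : SqgcuRel A y z q p') (ht : t ≠ 0)
    (hy : y ≠ 0) (hq : 2 ≤ q)
    (hcusp : (⟨t⁻¹, s18tc_self_mem_int t⁻¹⟩ : ↥(s18tInt A t⁻¹)) ∈ 𝔫)
    (V₂ : ValuationSubring F) (hQ₂ : ∀ x ∈ s18tInt A t⁻¹, x ∈ V₂)
    (hz₂ : z ^ q - y ∈ V₂.nonunits)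
    (hon₂ : ∀ x : ↥(s18tInt A t⁻¹), (x : F) ∈ V₂.nonunits → x ∈ 𝔫) :
    SsInMax t⁻¹ 𝔫 (y⁻¹ ^ q * z) := by
  have hq1 : 1 ≤ q := by omega
  have hyMax : SsInMax t⁻¹ 𝔫 y⁻¹ := h₁.pole 𝔫 ht hcusp
  have hyR : y⁻¹ ∈ ssLocRing t⁻¹ 𝔫 := hyMax.inLoc
  have hfR : y⁻¹ ^ q * z ∈ ssLocRing t⁻¹ 𝔫 := sqgcu_sep₂ 𝔫 h₁ h₂ ht hy hq1 hcusp
  set f : F := y⁻¹ ^ q * z with hf
  have hyV₂ : y⁻¹ ∈ V₂ := sqgcu_loc_le_of_on V₂ hQ₂ hon₂ hyR
  have hqq : q * q = (q * q - 1) + 1 := by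
    have : 1 ≤ q * q := Nat.one_le_iff_ne_zero.mpr (by positivity)
    omega
  have e2 : f ^ q - y⁻¹ ^ (q * q - 1) = y⁻¹ ^ (q * q) * (z ^ q - y) := by
    rw [hf, mul_sub, mul_pow, ← pow_mul]
    congr 1
    conv_rhs => rw [hqq, pow_succ, mul_assoc, inv_mul_cancel₀ hy, mul_one]
  have h2 : SsInMax t⁻¹ 𝔫 (f ^ q - y⁻¹ ^ (q * q - 1)) := by
    refine sqgcu_inMax_of_on V₂ hQ₂ hon₂
      (Subring.sub_mem _ (Subring.pow_mem _ hfR _) (Subring.pow_mem _ hyR _)) ?_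
    rw [e2]
    exact sqgcu_nu_mul V₂ (pow_mem hyV₂ _) hz₂
  have hypow : SsInMax t⁻¹ 𝔫 (y⁻¹ ^ (q * q - 1)) := by
    have hpos : q * q - 1 = (q * q - 2) + 1 := by
      have : 4 ≤ q * q := by nlinarith
      omega
    rw [hpos, pow_succ]
    exact sqgcu_inMax_mul (Subring.pow_mem _ hyR _) hyMax
  have hfq : SsInMax t⁻¹ 𝔫 (f ^ q) := by
    have := sqgcu_inMax_add h2 hypow
    rwa [sub_add_cancel] at this
  exact sqgcu_inMax_of_pow hfR q hfq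

end Sep

/-! ### horizontal places through `𝔫` -/

section Hor

variable {𝔫 : Ideal ↥(s18tInt A t)} [h𝔫 : 𝔫.IsPrime] {W : ValuationSubring F}

/-- `P_𝔫 ⊆ W` -/
theorem sqgcz_loc_mem (hQ : s18tInt A t ≤ W.toSubring)
    (hc : sskCentre t W ⊆ (𝔫 : Set ↥(s18tInt A t))) {x : F} (hx : x ∈ ssLocRing t 𝔫) : x ∈ W := by
  obtain ⟨σ, hσ, hσx⟩ := hx
  have h1 : W.valuation (σ : F) = 1 := by
    refine le_antisymm ((W.valuation_le_one_iff _).mpr (hQ σ.2)) (not_lt.mp fun hlt => hσ ?_)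
    exact hc ((ValuationSubring.mem_nonunits_iff _).mpr hlt)
  have h2 : W.valuation ((σ : F) * x) ≤ 1 := (W.valuation_le_one_iff _).mpr (hQ hσx)
  rw [map_mul, h1, one_mul] at h2
  exact (W.valuation_le_one_iff _).mp h2

/-- `P_𝔫 ∩ 𝔪_W ⊆ 𝔫 P_𝔫` -/
theorem sqgcz_inMax_of_lt (hQ : s18tInt A t ≤ W.toSubring)
    (hc : sskCentre t W ⊆ (𝔫 : Set ↥(s18tInt A t))) {x : F} (hx : x ∈ ssLocRing t 𝔫)
    (hlt : W.valuation x < 1) : SsInMax t 𝔫 x := by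
  obtain ⟨σ, hσ, hσx⟩ := hx
  refine ⟨σ, hσ, ⟨_, hσx⟩, hc ?_, rfl⟩
  show ((σ : F) * x) ∈ W.nonunits
  rw [ValuationSubring.mem_nonunits_iff, map_mul]
  calc W.valuation (σ : F) * W.valuation x ≤ 1 * W.valuation x :=
        mul_le_mul_left ((W.valuation_le_one_iff _).mpr (hQ σ.2)) _
    _ = W.valuation x := one_mul _
    _ < 1 := hlt

/-- a unit of `P_𝔫` has valuation one at `W` -/
theorem sqgcz_val_unit (hQ : s18tInt A t ≤ W.toSubring)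
    (hc : sskCentre t W ⊆ (𝔫 : Set ↥(s18tInt A t))) {x : F} (hx0 : x ≠ 0)
    (hx : x ∈ ssLocRing t 𝔫) (hxi : x⁻¹ ∈ ssLocRing t 𝔫) : W.valuation x = 1 := by
  have h1 : W.valuation x ≤ 1 := (W.valuation_le_one_iff _).mpr (sqgcz_loc_mem hQ hc hx)
  have h2 : W.valuation x⁻¹ ≤ 1 := (W.valuation_le_one_iff _).mpr (sqgcz_loc_mem hQ hc hxi)
  have h0 : W.valuation x ≠ 0 := (Valuation.ne_zero_iff _).mpr hx0
  rw [map_inv₀, inv_le_one₀ (zero_lt_iff.mpr h0)] at h2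
  exact le_antisymm h1 h2

/-- at a horizontal place through `𝔫` : `(x - a)⁻¹ ∈ W` for every `x` with `x⁻¹ ∈ 𝔫 P_𝔫` and every
constant `a ∈ A` (a pole of `x` is not a zero of `x - a`). -/
theorem sqgcz_inv_sub_mem (hQ : s18tInt A t ≤ W.toSubring)
    (hc : sskCentre t W ⊆ (𝔫 : Set ↥(s18tInt A t))) {x : F} (hx0 : x ≠ 0)
    (hx : SsInMax t 𝔫 x⁻¹) (a : A) : (x - algebraMap A F a)⁻¹ ∈ W := by
  have haR : algebraMap A F a ∈ ssLocRing t 𝔫 :=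
    ssl_int_le_locRing t 𝔫 (ssgcl_algebraMap_mem_int t a)
  have h1 : 1 - algebraMap A F a * x⁻¹ ∈ ssLocRing t 𝔫 :=
    Subring.sub_mem _ (Subring.one_mem _) (Subring.mul_mem _ haR hx.inLoc)
  have h2 : ¬ SsInMax t 𝔫 (1 - algebraMap A F a * x⁻¹) := by
    intro hmem
    have h3 := sqgcu_inMax_add hmem (sqgcu_inMax_mul haR hx)
    rw [sub_add_cancel] at h3
    exact sqgcu_not_inMax_one h3
  have h3 : (1 - algebraMap A F a * x⁻¹)⁻¹ ∈ ssLocRing t 𝔫 := sqgcu_inv_mem_of_not_inMax h1 h2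
  have e : (x - algebraMap A F a)⁻¹ = x⁻¹ * (1 - algebraMap A F a * x⁻¹)⁻¹ := by
    rw [← mul_inv]
    congr 1
    rw [mul_sub, mul_one, mul_comm (algebraMap A F a), ← mul_assoc, mul_inv_cancel₀ hx0, one_mul]
  rw [e]
  exact sqgcz_loc_mem hQ hc (Subring.mul_mem _ hx.inLoc h3)

end Hor

/-! ### the horizontal places through a cusp point of `V₂` -/

section HorCusp

variable {𝔫 : Ideal ↥(s18tInt A t⁻¹)} [h𝔫 : 𝔫.IsPrime] {W : ValuationSubring F}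
variable {y z : F} {q : ℕ} {Φ : A[X][X]}

/-- the constants are integral at `W ⊇ Q` -/
theorem sqgcz_hA (hQ : s18tInt A t⁻¹ ≤ W.toSubring) (a : A) :
    W.valuation (algebraMap A F a) ≤ 1 :=
  (W.valuation_le_one_iff _).mpr (hQ (ssgcl_algebraMap_mem_int t⁻¹ a))

/-- a unit of `A` is not in `𝔫 Q_𝔫` -/
theorem sqgcz_not_inMax_unit {a : A} (ha : IsUnit a) : ¬ SsInMax t⁻¹ 𝔫 (algebraMap A F a) := by
  intro hmem
  obtain ⟨b, hb⟩ := ha.exists_left_inv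
  have h1 : SsInMax t⁻¹ 𝔫 (algebraMap A F b * algebraMap A F a) :=
    sqgcu_inMax_mul (ssl_int_le_locRing t⁻¹ 𝔫 (ssgcl_algebraMap_mem_int t⁻¹ b)) hmem
  rw [← map_mul, hb, map_one] at h1
  exact sqgcu_not_inMax_one h1

/-- **a cuspidal horizontal place through a cusp point of `V₂` is of type `1/q`** :
`v y = (v t)^q`, `v z = v t`, `v (z - t) = v t`. -/
theorem sqgcz_hor_cusp (hQ : s18tInt A t⁻¹ ≤ W.toSubring)
    (hc : sskCentre t⁻¹ W ⊆ (𝔫 : Set ↥(s18tInt A t⁻¹))) (hq : 2 ≤ q)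
    (hvq : W.valuation ((q : ℕ) : F) = 1)
    (MP₂ : SsgnModPoly A F y z q Φ) (MP₃ : SsgnModPoly A F y t q Φ) (hzt : z ≠ t)
    (hf₁ : W.valuation (t⁻¹ ^ q * y) = 1) (hf₂ : SsInMax t⁻¹ 𝔫 (y⁻¹ ^ q * z)) (htW : t ∉ W) :
    W.valuation y = W.valuation t ^ q ∧ W.valuation z = W.valuation t ∧
      W.valuation (z - t) = W.valuation t := by
  have hA := sqgcz_hA (t := t) hQ
  have h1 : 1 < W.valuation t := not_le.mp fun h => htW ((W.valuation_le_one_iff _).mp h)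
  have hμ0 : W.valuation t ≠ 0 := (lt_trans zero_lt_one h1).ne'
  have hvy : W.valuation y = W.valuation t ^ q := by
    rw [map_mul, map_pow, map_inv₀, inv_pow] at hf₁
    have h2 : W.valuation t ^ q * ((W.valuation t ^ q)⁻¹ * W.valuation y) = W.valuation t ^ q := by
      rw [hf₁, mul_one]
    rwa [mul_inv_cancel_left₀ (pow_ne_zero q hμ0)] at h2
  have hy1 : 1 < W.valuation y := by
    rw [hvy]; exact one_lt_pow₀ h1 (by omega)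
  have hvz : W.valuation z = W.valuation t := by
    rcases ssgn_newton W.valuation hA MP₂ hq hy1 with e | e
    · exfalso
      have h2 := sqgcz_val_ff W.valuation hA hq MP₂ hy1 e
      have h3 : y⁻¹ ^ q * z + algebraMap A F (Φ.coeff q).leadingCoeff ∈ ssLocRing t⁻¹ 𝔫 :=
        Subring.add_mem _ hf₂.inLoc
          (ssl_int_le_locRing t⁻¹ 𝔫 (ssgcl_algebraMap_mem_int t⁻¹ _))
      have h4 := sqgcz_inMax_of_lt hQ hc h3 h2
      have h5 := sqgcu_inMax_sub h4 hf₂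
      rw [add_sub_cancel_left] at h5
      exact sqgcz_not_inMax_unit MP₂.lcq h5
    · rw [hvy] at e
      exact (pow_left_inj₀ zero_le zero_le (by omega : q ≠ 0)).mp e
  exact ⟨hvy, hvz, sqgcu_val_sub W.valuation hA hq hvq MP₃ MP₂ h1 hvy hvz hzt⟩

/-- a non-cuspidal horizontal place through a cusp point : `y, z ∈ W`. -/
theorem sqgcz_hor_fin (hQ : s18tInt A t⁻¹ ≤ W.toSubring)
    (MP₁ : SsgnModPoly A F t y q Φ) (MP₂ : SsgnModPoly A F y z q Φ) (htW : t ∈ W) :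
    y ∈ W ∧ z ∈ W := by
  have hA := sqgcz_hA (t := t) hQ
  have h1 : W.valuation y ≤ 1 :=
    ssgn_int_of_le W.valuation hA MP₁ ((W.valuation_le_one_iff _).mpr htW)
  exact ⟨(W.valuation_le_one_iff _).mp h1,
    (W.valuation_le_one_iff _).mp (ssgn_int_of_le W.valuation hA MP₂ h1)⟩

/-- **the nine memberships at a non-cuspidal horizontal place through a cusp point** : `t, y, z`,
their inverses and the inverses of `t - a`, `y - a`, `z - a` (`a ∈ A`) lie in `W` — the hypotheses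
of `sqgd_horizontal`. -/
theorem sqgcz_hor_fin_mem (hQ : s18tInt A t⁻¹ ≤ W.toSubring)
    (hc : sskCentre t⁻¹ W ⊆ (𝔫 : Set ↥(s18tInt A t⁻¹)))
    (hcusp : (⟨t⁻¹, s18tc_self_mem_int t⁻¹⟩ : ↥(s18tInt A t⁻¹)) ∈ 𝔫) (hq : 1 ≤ q)
    (MP₁ : SsgnModPoly A F t y q Φ) (MP₂ : SsgnModPoly A F y z q Φ) (ht0 : t ≠ 0) (hy0 : y ≠ 0)
    (hz0 : z ≠ 0) (htW : t ∈ W) (a : A) :
    (t⁻¹ ∈ W ∧ (t - algebraMap A F a)⁻¹ ∈ W) ∧ (y ∈ W ∧ y⁻¹ ∈ W ∧ (y - algebraMap A F a)⁻¹ ∈ W) ∧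
      (z ∈ W ∧ z⁻¹ ∈ W ∧ (z - algebraMap A F a)⁻¹ ∈ W) := by
  have h₁ := sqgcz_rel_of_modPoly MP₁
  have h₂ := sqgcz_rel_of_modPoly MP₂
  have htMax : SsInMax t⁻¹ 𝔫 t⁻¹ := sqgcu_inMax_of_mem hcusp
  have hyMax : SsInMax t⁻¹ 𝔫 y⁻¹ := h₁.pole 𝔫 ht0 hcusp
  have hzMax : SsInMax t⁻¹ 𝔫 z⁻¹ := sqgcu_pole₂ 𝔫 h₁ h₂ ht0 hy0 hq hcusp
  obtain ⟨hyW, hzW⟩ := sqgcz_hor_fin hQ MP₁ MP₂ htW
  exact ⟨⟨hQ (s18tc_self_mem_int t⁻¹), sqgcz_inv_sub_mem hQ hc ht0 htMax a⟩,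
    ⟨hyW, sqgcz_loc_mem hQ hc hyMax.inLoc, sqgcz_inv_sub_mem hQ hc hy0 hyMax a⟩,
    ⟨hzW, sqgcz_loc_mem hQ hc hzMax.inLoc, sqgcz_inv_sub_mem hQ hc hz0 hzMax a⟩⟩

end HorCusp

/-! ### (T2) at the cusp point -/

section Main

variable [Fintype ι]

/-- **(T2) AT THE CUSP POINT OF `V₂ = V i₂`.**  `𝔫` a closed point of the chart `s = t⁻¹` with
`s ∈ 𝔫`, lying on `V i₂` only; `Φ(t, y) = Φ(y, z) = Φ(y, t) = 0`; on `V i₂` : `y ≡ t^q`, `z^q ≡ y`,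
`z ≡ t`, `v₂(z - t)^{e₂} = v₂(ϖ)`; `G₀` a function with `(z - t)^{e₂} / ϖ ≡ G₀` on `V i₂`, a unit
at the non-cuspidal horizontal places through `𝔫`, with `v G₀ = (v t)^{e₂}` at the cuspidal ones.
Then `ϖ = π₂^{e₂} w` with `π₂ = t z⁻¹ - 1 ∈ 𝔪_{V₂} ∩ Q_𝔫`, `w ∈ Q_𝔫`. -/
theorem sqgcz_T2 (hfam : SqvFam hϖ t V π e) (ht : Transcendental L t)
    [FiniteDimensional L⟮t⟯ F] (i₂ : ι)
    (𝔫 : Ideal ↥(s18tInt A t⁻¹)) (h𝔫 : 𝔫.IsMaximal)
    (hcusp : (⟨t⁻¹, s18tc_self_mem_int t⁻¹⟩ : ↥(s18tInt A t⁻¹)) ∈ 𝔫)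
    (hon : SqtOn (V i₂) t⁻¹ 𝔫) (hoff : ∀ i, i ≠ i₂ → ¬ SqtOn (V i) t⁻¹ 𝔫)
    {q : ℕ} (hq : 2 ≤ q) {y z : F} {Φ : A[X][X]}
    (MP₁ : SsgnModPoly A F t y q Φ) (MP₂ : SsgnModPoly A F y z q Φ)
    (MP₃ : SsgnModPoly A F y t q Φ) (hzt : z ≠ t)
    (hy₂ : y - t ^ q ∈ (V i₂).nonunits) (hz₂ : z ^ q - y ∈ (V i₂).nonunits)
    (hzt₂ : z - t ∈ (V i₂).nonunits)
    (hpow : (V i₂).valuation (z - t) ^ e i₂ = (V i₂).valuation (algebraMap A F ϖ))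
    (G₀ : F)
    (hcong : (z - t) ^ e i₂ * (algebraMap A F ϖ)⁻¹ - G₀ ∈ (V i₂).nonunits)
    (hfin : ∀ W : ValuationSubring F, S18IsPlace L W → s18tInt A t⁻¹ ≤ W.toSubring →
      sskCentre t⁻¹ W ⊆ (𝔫 : Set ↥(s18tInt A t⁻¹)) → t ∈ W → G₀ ∈ W ∧ G₀⁻¹ ∈ W)
    (hcsp : ∀ W : ValuationSubring F, S18IsPlace L W → s18tInt A t⁻¹ ≤ W.toSubring →
      sskCentre t⁻¹ W ⊆ (𝔫 : Set ↥(s18tInt A t⁻¹)) → t ∉ W →
      W.valuation G₀ = W.valuation t ^ e i₂) :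
    ∃ π₂ w : F, SsnfInLoc t⁻¹ 𝔫 π₂ ∧ π₂ ∈ (V i₂).nonunits ∧ SsnfInLoc t⁻¹ 𝔫 w ∧
      algebraMap A F ϖ = π₂ ^ e i₂ * w := by
  classical
  haveI h𝔫p : 𝔫.IsPrime := h𝔫.isPrime
  have ht' : Transcendental L t⁻¹ := sqgcz_transcendental_inv ht
  haveI hfd' : FiniteDimensional L⟮t⁻¹⟯ F := sqgcz_finiteDimensional_inv t
  have hfam' : SqvFam hϖ t⁻¹ V π e := sqgcz_fam_inv hfam ht
  have ht0 : t ≠ 0 := fun h0 => ht (by rw [h0]; exact isAlgebraic_zero)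
  have hϖ0 : algebraMap A F ϖ ≠ 0 := sqt_unif_ne_zero L hϖ
  have hq1 : 1 ≤ q := by omega
  set v₂ := (V i₂).valuation with hv₂
  -- vertical values
  have hQ₂ : ∀ x ∈ s18tInt A t⁻¹, x ∈ V i₂ := fun x hx => hfam'.int_mem i₂ hx
  have vt : v₂ t = 1 := by
    have h1 : v₂ t ≤ 1 := ((V i₂).valuation_le_one_iff _).mpr (hfam.int_mem i₂ (s18tc_self_mem_int t))
    have h2 : v₂ t⁻¹ ≤ 1 :=
      ((V i₂).valuation_le_one_iff _).mpr (hQ₂ _ (s18tc_self_mem_int t⁻¹))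
    have h0 : v₂ t ≠ 0 := (Valuation.ne_zero_iff _).mpr ht0
    rw [map_inv₀, inv_le_one₀ (zero_lt_iff.mpr h0)] at h2
    exact le_antisymm h1 h2
  have vz : v₂ z = 1 := by
    have h1 : v₂ (z - t) < v₂ t := by
      rw [vt]; exact ((V i₂).mem_nonunits_iff).mp hzt₂
    have h2 : z = (z - t) + t := by ring
    rw [h2, Valuation.map_add_eq_of_lt_right _ h1, vt]
  have vy : v₂ y = 1 := by
    have h1 : v₂ (y - t ^ q) < v₂ (t ^ q) := by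
      rw [map_pow, vt, one_pow]; exact ((V i₂).mem_nonunits_iff).mp hy₂
    have h2 : y = (y - t ^ q) + t ^ q := by ring
    rw [h2, Valuation.map_add_eq_of_lt_right _ h1, map_pow, vt, one_pow]
  have hy0 : y ≠ 0 := fun h0 => by rw [h0, map_zero] at vy; exact zero_ne_one vy
  have hz0 : z ≠ 0 := fun h0 => by rw [h0, map_zero] at vz; exact zero_ne_one vz
  have vU : v₂ ((z - t) ^ e i₂ * (algebraMap A F ϖ)⁻¹) = 1 := by
    rw [map_mul, map_pow, hpow, map_inv₀,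
      mul_inv_cancel₀ ((Valuation.ne_zero_iff _).mpr hϖ0)]
  have vG : v₂ G₀ = 1 := by
    have h1 : v₂ (-((z - t) ^ e i₂ * (algebraMap A F ϖ)⁻¹ - G₀)) <
        v₂ ((z - t) ^ e i₂ * (algebraMap A F ϖ)⁻¹) := by
      rw [Valuation.map_neg, vU]; exact ((V i₂).mem_nonunits_iff).mp hcong
    have h2 : G₀ = -((z - t) ^ e i₂ * (algebraMap A F ϖ)⁻¹ - G₀) +
        (z - t) ^ e i₂ * (algebraMap A F ϖ)⁻¹ := by ring
    rw [h2, Valuation.map_add_eq_of_lt_right _ h1, vU]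
  have hG0 : G₀ ≠ 0 := fun h0 => by rw [h0, map_zero] at vG; exact zero_ne_one vG
  -- the poles and the separating functions
  have h₁ := sqgcz_rel_of_modPoly MP₁
  have h₂ := sqgcz_rel_of_modPoly MP₂
  have hzMax : SsInMax t⁻¹ 𝔫 z⁻¹ := sqgcu_pole₂ 𝔫 h₁ h₂ ht0 hy0 hq1 hcusp
  have hzR : z⁻¹ ∈ ssLocRing t⁻¹ 𝔫 := hzMax.inLoc
  have hf₁ := sqgcz_sep₁_not_mem 𝔫 h₁ ht0 hq1 (V i₂) hQ₂ hy₂ hon
  have hf₂ := sqgcz_sep₂_inMax 𝔫 h₁ h₂ ht0 hy0 hq hcusp (V i₂) hQ₂ hz₂ hon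
  -- the horizontal places through `𝔫`
  have hor : ∀ W : ValuationSubring F, S18IsPlace L W → s18tInt A t⁻¹ ≤ W.toSubring →
      sskCentre t⁻¹ W ⊆ (𝔫 : Set ↥(s18tInt A t⁻¹)) →
      (t ∈ W ∧ z ∈ W ∧ z⁻¹ ∈ W ∧ G₀ ∈ W ∧ G₀⁻¹ ∈ W) ∨
      (W.valuation z = W.valuation t ∧ W.valuation (z - t) = W.valuation t ∧
        W.valuation G₀ = W.valuation t ^ e i₂ ∧ W.valuation t ≠ 0) := by
    intro W hW hQ hc
    by_cases htW : t ∈ W
    · left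
      obtain ⟨hG1, hG2⟩ := hfin W hW hQ hc htW
      exact ⟨htW, (sqgcz_hor_fin hQ MP₁ MP₂ htW).2, sqgcz_loc_mem hQ hc hzR, hG1, hG2⟩
    · right
      have hvq : W.valuation ((q : ℕ) : F) = 1 := by
        have : ((q : ℕ) : F) = algebraMap A F ((q : ℕ) : A) := (map_natCast _ q).symm
        rw [this]
        exact ssl_val_constA hW (Nat.cast_ne_zero.mpr (by omega))
      have hvf₁ : W.valuation (t⁻¹ ^ q * y) = 1 := by
        refine le_antisymm ((W.valuation_le_one_iff _).mpr (hQ (h₁.sep_mem ht0 hq1)))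
          (not_lt.mp fun hlt => hf₁ (hc ?_))
        exact (ValuationSubring.mem_nonunits_iff _).mpr hlt
      obtain ⟨-, e2, e3⟩ := sqgcz_hor_cusp hQ hc hq hvq MP₂ MP₃ hzt hvf₁ hf₂ htW
      exact ⟨e2, e3, hcsp W hW hQ hc htW, (Valuation.ne_zero_iff _).mpr ht0⟩
  -- the elements
  set π₂ : F := t * z⁻¹ - 1 with hπ₂
  have hπ₂' : π₂ = -((z - t) * z⁻¹) := by
    rw [hπ₂, sub_mul, mul_inv_cancel₀ hz0]; ring
  have hπ₂0 : π₂ ≠ 0 := by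
    rw [hπ₂']
    exact neg_ne_zero.mpr (mul_ne_zero (sub_ne_zero.mpr hzt) (inv_ne_zero hz0))
  set U : F := π₂ ^ e i₂ * (algebraMap A F ϖ)⁻¹ with hU
  set G : F := G₀ * (-z⁻¹) ^ e i₂ with hG
  have hUG : U - G = ((z - t) ^ e i₂ * (algebraMap A F ϖ)⁻¹ - G₀) * (-z⁻¹) ^ e i₂ := by
    rw [hU, hG, hπ₂']
    have : -((z - t) * z⁻¹) = (z - t) * (-z⁻¹) := by ring
    rw [this, mul_pow]; ring
  have hGinv : G⁻¹ = G₀⁻¹ * (-z) ^ e i₂ := by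
    rw [hG, mul_inv, ← inv_pow, neg_inv, inv_inv]
  have vzi : v₂ z⁻¹ = 1 := by rw [map_inv₀, vz, inv_one]
  have vπ₂ : v₂ π₂ = v₂ (z - t) := by
    rw [hπ₂', Valuation.map_neg, map_mul, vzi, mul_one]
  -- memberships in `Q_𝔫` by (GK)
  have hon_iff : ∀ i, SqtOn (V i) t⁻¹ 𝔫 → i = i₂ := fun i hi => by
    by_contra hne
    exact hoff i hne hi
  have hπ₂R : SsnfInLoc t⁻¹ 𝔫 π₂ := by
    refine sqgcz_gk hfam' ht' 𝔫 h𝔫 (fun i hi => ?_) (fun W hW hQ hc => ?_)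
    · rw [hon_iff i hi, ← (V i₂).valuation_le_one_iff, ← hv₂, vπ₂]
      exact (((V i₂).mem_nonunits_iff).mp hzt₂).le
    · rcases hor W hW hQ hc with ⟨h1, -, h3, -, -⟩ | ⟨e2, e3, -, e0⟩
      · exact sub_mem (W.mul_mem _ _ h1 h3) W.one_mem
      · rw [← W.valuation_le_one_iff, hπ₂', Valuation.map_neg, map_mul, map_inv₀, e2, e3,
          mul_inv_cancel₀ e0]
  have hUR : SsnfInLoc t⁻¹ 𝔫 U := by
    refine sqgcz_gk hfam' ht' 𝔫 h𝔫 (fun i hi => ?_) (fun W hW hQ hc => ?_)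
    · rw [hon_iff i hi, ← (V i₂).valuation_le_one_iff, ← hv₂, hU, map_mul, map_pow, vπ₂, hpow,
        map_inv₀, mul_inv_cancel₀ ((Valuation.ne_zero_iff _).mpr hϖ0)]
    · have hvϖ : W.valuation (algebraMap A F ϖ) = 1 := ssl_val_constA hW hϖ.ne_zero
      rw [← W.valuation_le_one_iff, hU, map_mul, map_pow, map_inv₀, hvϖ, inv_one, mul_one]
      refine pow_le_one₀ zero_le ?_
      rcases hor W hW hQ hc with ⟨h1, -, h3, -, -⟩ | ⟨e2, e3, -, e0⟩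
      · exact (W.valuation_le_one_iff _).mpr (sub_mem (W.mul_mem _ _ h1 h3) W.one_mem)
      · rw [hπ₂', Valuation.map_neg, map_mul, map_inv₀, e2, e3, mul_inv_cancel₀ e0]
  have hGR : SsnfInLoc t⁻¹ 𝔫 G := by
    refine sqgcz_gk hfam' ht' 𝔫 h𝔫 (fun i hi => ?_) (fun W hW hQ hc => ?_)
    · rw [hon_iff i hi, ← (V i₂).valuation_le_one_iff, ← hv₂, hG, map_mul, map_pow,
        Valuation.map_neg, vzi, one_pow, mul_one, vG]
    · rcases hor W hW hQ hc with ⟨-, -, h3, h4, -⟩ | ⟨e2, -, e4, e0⟩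
      · exact W.mul_mem _ _ h4 (W.pow_mem (W.neg_mem _ h3) _)
      · rw [← W.valuation_le_one_iff, hG, map_mul, map_pow, Valuation.map_neg, map_inv₀, e2, e4,
          inv_pow, mul_inv_cancel₀ (pow_ne_zero _ e0)]
  have hGiR : SsnfInLoc t⁻¹ 𝔫 G⁻¹ := by
    rw [hGinv]
    refine sqgcz_gk hfam' ht' 𝔫 h𝔫 (fun i hi => ?_) (fun W hW hQ hc => ?_)
    · rw [hon_iff i hi, ← (V i₂).valuation_le_one_iff, ← hv₂, map_mul, map_pow,
        Valuation.map_neg, vz, one_pow, mul_one, map_inv₀, vG, inv_one]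
    · rcases hor W hW hQ hc with ⟨-, h2, -, -, h5⟩ | ⟨e2, -, e4, e0⟩
      · exact W.mul_mem _ _ h5 (W.pow_mem (W.neg_mem _ h2) _)
      · rw [← W.valuation_le_one_iff, map_mul, map_pow, Valuation.map_neg, map_inv₀, e2, e4,
          inv_mul_cancel₀ (pow_ne_zero _ e0)]
  -- `U ≡ G` modulo `𝔫 Q_𝔫`, hence `U` is a unit
  have hUGmax : SsInMax t⁻¹ 𝔫 (U - G) := by
    refine sqgcu_inMax_of_on (V i₂) hQ₂ hon (Subring.sub_mem _ hUR hGR) ?_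
    rw [hUG, mul_comm]
    refine sqgcu_nu_mul (V i₂) ?_ hcong
    rw [← (V i₂).valuation_le_one_iff, ← hv₂, map_pow, Valuation.map_neg, vzi, one_pow]
  have hG0' : G ≠ 0 := by
    rw [hG]
    exact mul_ne_zero hG0 (pow_ne_zero _ (neg_ne_zero.mpr (inv_ne_zero hz0)))
  have hUnot : ¬ SsInMax t⁻¹ 𝔫 U := by
    intro hmem
    have h1 : SsInMax t⁻¹ 𝔫 G := by
      have := sqgcu_inMax_sub hmem hUGmax
      rwa [sub_sub_cancel] at this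
    have h2 : SsInMax t⁻¹ 𝔫 (G⁻¹ * G) := sqgcu_inMax_mul hGiR h1
    rw [inv_mul_cancel₀ hG0'] at h2
    exact sqgcu_not_inMax_one h2
  have hUi : U⁻¹ ∈ ssLocRing t⁻¹ 𝔫 := sqgcu_inv_mem_of_not_inMax hUR hUnot
  refine ⟨π₂, U⁻¹, hπ₂R, ?_, hUi, ?_⟩
  · rw [(V i₂).mem_nonunits_iff, ← hv₂, vπ₂]
    exact ((V i₂).mem_nonunits_iff).mp hzt₂
  · rw [hU, mul_inv, inv_inv, ← mul_assoc, mul_inv_cancel₀ (pow_ne_zero _ hπ₂0), one_mul]

/-- **(T2) AT THE CUSP POINT, for the three components of (VAL²)** (`SqvThree`, chart `t`; the closed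
point `𝔫` in the chart `t⁻¹`). -/
theorem sqgcz_T2_three {e₂ : ℕ} {π₂ : F} {V₁ V₂ V₃ : ValuationSubring F}
    (h3 : SqvThree hϖ t e₂ π₂ V₁ V₂ V₃) (ht : Transcendental L t)
    [FiniteDimensional L⟮t⟯ F]
    (𝔫 : Ideal ↥(s18tInt A t⁻¹)) (h𝔫 : 𝔫.IsMaximal)
    (hcusp : (⟨t⁻¹, s18tc_self_mem_int t⁻¹⟩ : ↥(s18tInt A t⁻¹)) ∈ 𝔫)
    {q : ℕ} (hq : 2 ≤ q) {y z : F} {Φ : A[X][X]}
    (MP₁ : SsgnModPoly A F t y q Φ) (MP₂ : SsgnModPoly A F y z q Φ)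
    (MP₃ : SsgnModPoly A F y t q Φ) (hzt : z ≠ t)
    (hy₂ : y - t ^ q ∈ V₂.nonunits) (hz₂ : z ^ q - y ∈ V₂.nonunits)
    (hzt₂ : z - t ∈ V₂.nonunits)
    (hπ : V₂.valuation (z - t) = V₂.valuation π₂)
    (G₀ : F)
    (hcong : (z - t) ^ e₂ * (algebraMap A F ϖ)⁻¹ - G₀ ∈ V₂.nonunits)
    (hfin : ∀ W : ValuationSubring F, S18IsPlace L W → s18tInt A t⁻¹ ≤ W.toSubring →
      sskCentre t⁻¹ W ⊆ (𝔫 : Set ↥(s18tInt A t⁻¹)) → t ∈ W → G₀ ∈ W ∧ G₀⁻¹ ∈ W)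
    (hcsp : ∀ W : ValuationSubring F, S18IsPlace L W → s18tInt A t⁻¹ ≤ W.toSubring →
      sskCentre t⁻¹ W ⊆ (𝔫 : Set ↥(s18tInt A t⁻¹)) → t ∉ W →
      W.valuation G₀ = W.valuation t ^ e₂)
    (hon : SqtOn V₂ t⁻¹ 𝔫) (hoff₁ : ¬ SqtOn V₁ t⁻¹ 𝔫) (hoff₃ : ¬ SqtOn V₃ t⁻¹ 𝔫) :
    ∃ π w : F, SsnfInLoc t⁻¹ 𝔫 π ∧ π ∈ V₂.nonunits ∧ SsnfInLoc t⁻¹ 𝔫 w ∧
      algebraMap A F ϖ = π ^ e₂ * w := by
  have hfam := h3.fam
  refine sqgcz_T2 hfam ht (1 : Fin 3) 𝔫 h𝔫 hcusp hon (fun i hi => ?_) hq MP₁ MP₂ MP₃ hzt hy₂ hz₂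
    hzt₂ ?_ G₀ hcong hfin hcsp
  · fin_cases i
    · exact hoff₁
    · exact absurd rfl hi
    · exact hoff₃
  · have := hfam.pow (1 : Fin 3)
    show V₂.valuation (z - t) ^ e₂ = V₂.valuation (algebraMap A F ϖ)
    rw [hπ]
    exact this

end Main

end Fermat.Agent.SQ
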