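import Mathlib
import Fermat.Agent.SQ.Germ.CuspT2
import Fermat.Agent.SQ.Germ.CuspHyp
import Fermat.Agent.SQ.Germ.Point
import Fermat.Agent.SS.Geo.ChartInv

/-!
# Program Q (S36), package SQ/Germ : THE CLOSED POINTS OF THE CHART AT INFINITY WITH `t⁻¹ = 0` ARE SIMPLE
(abstract `locInf` for `t = j`; prefix `sqgcn`)

`sqgcn_locInf` : every closed point `𝔫 ∋ ϖ, t⁻¹` of the chart `t⁻¹` is a SIMPLE point (regular germ,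
exactly one component through it, which is a smooth branch) : helper9's `sqgm_germ_simple` for the chart
at infinity (`SqgHyp` from `SQ/Germ/CuspHyp.lean`) with

* `hloc₂`, `h12`, `h13`, `h23` from `SQ/Germ/CuspAbs.lean` (no cusp point lies on two components),
* `hT2` from `SQ/Germ/CuspT2.lean`.
-/

set_option autoImplicit false
set_option linter.unusedSectionVars false
set_option linter.unusedVariables false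
set_option linter.style.haveILetI false

noncomputable section

namespace Fermat.Agent.SQ

open Polynomial IntermediateField AlgebraicCurve Fermat.Agent.S18 Fermat.Agent.SS Fermat.Agent.G
  IsLocalRing

universe u u₀

variable {A : Type*} [CommRing A] [IsDomain A] [IsDiscreteValuationRing A] [CharZero A]
variable {L : Type*} [Field L] [Algebra A L] [IsFractionRing A L]
variable {F : Type u} [Field F] [Algebra A F] [Algebra L F] [IsScalarTower A L F]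
variable {A₀ : Type*} [CommRing A₀] [IsDomain A₀] [IsDiscreteValuationRing A₀] [CharZero A₀]
variable {L₀ : Type*} [Field L₀] [Algebra A₀ L₀] [IsFractionRing A₀ L₀]
variable {F₀ : Type u₀} [Field F₀] [Algebra A₀ F₀] [Algebra L₀ F₀] [IsScalarTower A₀ L₀ F₀]
variable {ϖ : A} {t : F} {ϖ₀ : A₀} {t₀ : F₀}
variable {j : A₀ →+* A} {β₀ β₂ : F₀ →+* F} {e₂ : ℕ} {V₁ V₂ V₃ : ValuationSubring F}
variable {hϖ₀ : Irreducible ϖ₀}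

include L in
/-- **`locInf`, ABSTRACT** : the closed points `𝔫 ∋ ϖ, t⁻¹` of the chart `t⁻¹` are simple. -/
theorem sqgcn_locInf (H : SqgHyp hϖ₀ j β₀ β₂ ϖ t₀⁻¹ t⁻¹ e₂ V₁ V₂ V₃) (hϖ : Irreducible ϖ)
    (ht₀ : Transcendental L₀ t₀⁻¹) [FiniteDimensional L₀⟮t₀⁻¹⟯ F₀]
    {π₂ : F} (h3 : SqvThree hϖ t e₂ π₂ V₁ V₂ V₃) (ht : Transcendental L t)
    [FiniteDimensional L⟮t⟯ F]
    {q : ℕ} (hq : 2 ≤ q) {y z : F} {Φ : A[X][X]}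
    (MP₁ : SsgnModPoly A F t y q Φ) (MP₂ : SsgnModPoly A F y z q Φ)
    (MP₃ : SsgnModPoly A F y t q Φ) (hzt : z ≠ t) (hβ₂ : β₂ t₀ = z)
    (hy₁ : y - t ^ q ∈ V₁.nonunits) (hz₁ : z - y ^ q ∈ V₁.nonunits)
    (hy₂ : y - t ^ q ∈ V₂.nonunits) (hz₂ : z ^ q - y ∈ V₂.nonunits)
    (hzt₂ : z - t ∈ V₂.nonunits) (hy₃ : y ^ q - t ∈ V₃.nonunits)
    (hπ : V₂.valuation (z - t) = V₂.valuation π₂)
    (G₀ : F) (hcong : (z - t) ^ e₂ * (algebraMap A F ϖ)⁻¹ - G₀ ∈ V₂.nonunits)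
    (hfin : ∀ 𝔫 : Ideal ↥(s18tInt A t⁻¹), 𝔫.IsMaximal → ssglTinv (A := A) t ∈ 𝔫 →
      SqtOn V₂ t⁻¹ 𝔫 → ∀ W : ValuationSubring F, S18IsPlace L W → s18tInt A t⁻¹ ≤ W.toSubring →
      sskCentre t⁻¹ W ⊆ (𝔫 : Set ↥(s18tInt A t⁻¹)) → t ∈ W → G₀ ∈ W ∧ G₀⁻¹ ∈ W)
    (hcsp : ∀ 𝔫 : Ideal ↥(s18tInt A t⁻¹), 𝔫.IsMaximal → ssglTinv (A := A) t ∈ 𝔫 →
      SqtOn V₂ t⁻¹ 𝔫 → ∀ W : ValuationSubring F, S18IsPlace L W → s18tInt A t⁻¹ ≤ W.toSubring →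
      sskCentre t⁻¹ W ⊆ (𝔫 : Set ↥(s18tInt A t⁻¹)) → t ∉ W →
      W.valuation G₀ = W.valuation t ^ e₂) :
    ∀ 𝔫 : Ideal ↥(s18tInt A t⁻¹), 𝔫.IsMaximal → sskPi ϖ t⁻¹ ∈ 𝔫 → ssglTinv (A := A) t ∈ 𝔫 →
      SqgpSimple t⁻¹ V₁ V₂ V₃ 𝔫 ∨ SqgpSimple t⁻¹ V₂ V₁ V₃ 𝔫 ∨ SqgpSimple t⁻¹ V₃ V₁ V₂ 𝔫 := by
  intro 𝔫 hmax hϖ𝔫 hcusp
  haveI h𝔫p : 𝔫.IsPrime := hmax.isPrime
  have ht' : Transcendental L t⁻¹ := sqgcz_transcendental_inv ht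
  haveI hfd' : FiniteDimensional L⟮t⁻¹⟯ F := sqgcz_finiteDimensional_inv t
  have ht0 : t ≠ 0 := fun h0 => ht (by rw [h0]; exact isAlgebraic_zero)
  have hq1 : 1 ≤ q := by omega
  have hfam' : SqvFam hϖ t⁻¹ ![V₁, V₂, V₃] ![algebraMap A F ϖ, π₂, algebraMap A F ϖ] ![1, e₂, 1] :=
    sqgcz_fam_inv h3.fam ht
  have h₁ := sqgcz_rel_of_modPoly MP₁
  have h₂ := sqgcz_rel_of_modPoly MP₂
  have hcusp' : (⟨t⁻¹, s18tc_self_mem_int t⁻¹⟩ : ↥(s18tInt A t⁻¹)) ∈ 𝔫 := hcusp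
  -- `y ≠ 0`
  have hy0 : y ≠ 0 := by
    intro h0
    have h1 : V₂.valuation (y - t ^ q) < 1 := (V₂.mem_nonunits_iff).mp hy₂
    have htV : t ∈ V₂ := (h3.fam.int_mem (1 : Fin 3) (s18tc_self_mem_int t))
    have htiV : t⁻¹ ∈ V₂ := (hfam'.int_mem (1 : Fin 3) (s18tc_self_mem_int t⁻¹))
    have h2 : V₂.valuation t = 1 := by
      have a1 : V₂.valuation t ≤ 1 := (V₂.valuation_le_one_iff _).mpr htV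
      have a2 : V₂.valuation t⁻¹ ≤ 1 := (V₂.valuation_le_one_iff _).mpr htiV
      have a0 : V₂.valuation t ≠ 0 := (Valuation.ne_zero_iff _).mpr ht0
      rw [map_inv₀, inv_le_one₀ (zero_lt_iff.mpr a0)] at a2
      exact le_antisymm a1 a2
    rw [h0, zero_sub, Valuation.map_neg, map_pow, h2, one_pow] at h1
    exact lt_irrefl _ h1
  -- no cusp point lies on two components
  have h12 : ¬ (SqgaOn t⁻¹ 𝔫 V₁ ∧ SqgaOn t⁻¹ 𝔫 V₂) := fun ⟨ho1, ho2⟩ =>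
    sqgcu_no_cross₁₂ 𝔫 h₁ h₂ ht0 hy0 hq hcusp' V₁ V₂ H.three.le₁ H.three.le₂ hz₁ hz₂ ho1 ho2
  have h13 : ¬ (SqgaOn t⁻¹ 𝔫 V₁ ∧ SqgaOn t⁻¹ 𝔫 V₃) := fun ⟨ho1, ho3⟩ =>
    sqgcu_no_cross₃ 𝔫 h₁ ht0 hq hcusp' V₁ V₃ H.three.le₁ H.three.le₃ hy₁ hy₃ ho1 ho3
  have h23 : ¬ (SqgaOn t⁻¹ 𝔫 V₂ ∧ SqgaOn t⁻¹ 𝔫 V₃) := fun ⟨ho2, ho3⟩ =>
    sqgcu_no_cross₃ 𝔫 h₁ ht0 hq hcusp' V₂ V₃ H.three.le₂ H.three.le₃ hy₂ hy₃ ho2 ho3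
  -- `β₂ P₀ ⊆ Q_𝔫`
  have hloc₂ : ∀ b ∈ s18tInt A₀ t₀⁻¹, β₂ b ∈ ssLocRing t⁻¹ 𝔫 := by
    intro b hb
    have lev₂ : SsgaLevel j β₂ ϖ₀ ϖ t₀⁻¹ z⁻¹ :=
      ⟨H.compat₂, by rw [map_inv₀, hβ₂], H.level.unif⟩
    exact sqgcu_int_le_loc₂ 𝔫 h₁ h₂ ht0 hy0 hq1 hcusp' _ (ssga_map_int lev₂ hb)
  -- (T2)
  have hT2 : SqgaOn t⁻¹ 𝔫 V₂ → ¬ SqgaOn t⁻¹ 𝔫 V₁ → ¬ SqgaOn t⁻¹ 𝔫 V₃ →
      ∃ π w : F, SsnfInLoc t⁻¹ 𝔫 π ∧ π ∈ V₂.nonunits ∧ SsnfInLoc t⁻¹ 𝔫 w ∧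
        algebraMap A F ϖ = π ^ e₂ * w := fun ho2 hn1 hn3 =>
    sqgcz_T2_three h3 ht 𝔫 hmax hcusp' hq MP₁ MP₂ MP₃ hzt hy₂ hz₂ hzt₂ hπ G₀ hcong
      (hfin 𝔫 hmax hcusp ho2) (hcsp 𝔫 hmax hcusp ho2) ho2 hn1 hn3
  obtain ⟨hreg, hb1, hb2, hb3⟩ := sqgm_germ_simple (L := L) H hϖ ht₀ 𝔫 hmax hϖ𝔫 hloc₂ h12 h13 h23 hT2
  -- the point lies on some component
  obtain ⟨i, hi⟩ := hfam'.on_some ht' 𝔫 hϖ𝔫
  fin_cases i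
  · have ho1 : SqgaOn t⁻¹ 𝔫 V₁ := hi
    exact Or.inl ⟨hreg, ho1, sqgp_branch_of H.three.le₁ (hb1 ho1), fun h => h12 ⟨ho1, h⟩,
      fun h => h13 ⟨ho1, h⟩⟩
  · have ho2 : SqgaOn t⁻¹ 𝔫 V₂ := hi
    exact Or.inr (Or.inl ⟨hreg, ho2, sqgp_branch_of H.three.le₂ (hb2 ho2), fun h => h12 ⟨h, ho2⟩,
      fun h => h23 ⟨ho2, h⟩⟩)
  · have ho3 : SqgaOn t⁻¹ 𝔫 V₃ := hi
    exact Or.inr (Or.inr ⟨hreg, ho3, sqgp_branch_of H.three.le₃ (hb3 ho3), fun h => h13 ⟨h, ho3⟩,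
      fun h => h23 ⟨h, ho3⟩⟩)

end Fermat.Agent.SQ
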