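/-
Program Q (S36), GERM² at the cusp of `C₂`, two more valuation leaves for helper5
(`SQ/Germ/CuspT2.lean`); written by helper22.

`v` a valuation of `F`, `≤ 1` on the image of `A`; `Φ` of the shape of the modular polynomial
(`SsgnModPoly A F j y q Φ` : `Φ(j, y) = 0`), at a place with `v j > 1` and `v y = (v j)^q`
(the branch "`y = j_q` has the `q`-fold pole").

* `sqgcu_val_add_le`  : `v (y + ξ_q(j)) ≤ 1` (`ξ_q = Φ.coeff q`);
* `sqgcu_val_ff`      : `v (j⁻¹ ^ q * y + lc ξ_q) < 1`  (VL1);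
* `sqgcu_val_deriv`   : `v (Φ_Y(j, y)) = (v j)^(q q)` and `v (Φ_X(j, y)) = (v j)^(q q + q - 1)` (VL2);
* `sqgcu_val_g`       : `g · (q Φ_Y) = - Φ_X  ⟹  v g = (v j)^(q - 1)`.
-/
import Mathlib
import Fermat.Agent.SS.Geo.NewtonAbs

set_option autoImplicit false
set_option linter.unusedSectionVars false
set_option linter.unusedVariables false

namespace Fermat.Agent.SQ

open Polynomial Fermat.Agent.SS

variable {A F Γ₀ : Type*} [CommRing A] [Field F] [Algebra A F] [LinearOrderedCommGroupWithZero Γ₀]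
variable (v : Valuation F Γ₀)

/-- natural numbers have valuation `≤ 1` -/
theorem sqgcu_val_natCast_le (hA : ∀ a : A, v (algebraMap A F a) ≤ 1) (n : ℕ) :
    v ((n : ℕ) : F) ≤ 1 := by
  have h := hA (n : A)
  rwa [map_natCast] at h

/-- `a * b ≤ a`, `a ≠ 0` ⟹ `b ≤ 1` -/
theorem sqgcu_le_one_of_mul_le {a b : Γ₀} (ha : a ≠ 0) (h : a * b ≤ a) : b ≤ 1 := by
  by_contra hb
  rw [not_le] at hb
  have h1 : a * 1 < a * b := mul_lt_mul_of_pos_left hb (zero_lt_iff.mpr ha)
  rw [mul_one] at h1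
  exact absurd h (not_le.mpr h1)

/-- the lower part of a polynomial value : `v (p(x) - lc · x^deg) ≤ (v x)^(deg - 1)` for `v x ≥ 1` -/
theorem sqgcu_val_aeval_sub_top (hA : ∀ a : A, v (algebraMap A F a) ≤ 1) {x : F} (hx : 1 ≤ v x)
    (p : A[X]) : v (aeval x p - algebraMap A F p.leadingCoeff * x ^ p.natDegree) ≤
      v x ^ (p.natDegree - 1) := by
  have h : aeval x p - algebraMap A F p.leadingCoeff * x ^ p.natDegree =
      ∑ i ∈ Finset.range p.natDegree, p.coeff i • x ^ i := by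
    rw [aeval_eq_sum_range, Finset.sum_range_succ, Algebra.smul_def]
    have : p.coeff p.natDegree = p.leadingCoeff := rfl
    rw [this]
    ring
  rw [h]
  refine v.map_sum_le fun i hi => ?_
  rw [Finset.mem_range] at hi
  rw [Algebra.smul_def, map_mul, map_pow]
  calc v (algebraMap A F (p.coeff i)) * v x ^ i ≤ 1 * v x ^ i := mul_le_mul_left (hA _) _
    _ = v x ^ i := one_mul _
    _ ≤ v x ^ (p.natDegree - 1) := pow_le_pow_right₀ hx (by omega)

variable {j y : F} {q : ℕ} {Φ : A[X][X]}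

/-- on the branch `v y = (v j)^q` : `v (y + ξ_q(j)) ≤ 1`. -/
theorem sqgcu_val_add_le (hA : ∀ a : A, v (algebraMap A F a) ≤ 1) (h : SsgnModPoly A F j y q Φ)
    (hq : 2 ≤ q) (h1 : 1 < v j) (hy : v y = v j ^ q) : v (y + aeval j (Φ.coeff q)) ≤ 1 := by
  have hμ0 : v j ≠ 0 := (lt_trans zero_lt_one h1).ne'
  have hexp := h.expand (by omega)
  have h0 : v (aeval j (Φ.coeff 0)) = v j ^ (q + 1) := by
    rw [ssgn_val_aeval_eq v hA h1 _ (ssgn_unit_val v hA h.lc0), h.deg0]
  have hmid : ∀ i, 1 ≤ i → i ≤ q → v (aeval j (Φ.coeff i)) ≤ v j ^ q := fun i h1' h2 =>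
    ssgn_val_aeval_le v hA h1.le _ (h.mid i h1' h2)
  have hqq : q + 1 ≤ q * q := by nlinarith
  have hS : v (∑ i ∈ Finset.Ico 1 q, aeval j (Φ.coeff i) * y ^ i) ≤ v j ^ (q * q) := by
    refine v.map_sum_le fun i hi => ?_
    rw [Finset.mem_Ico] at hi
    rw [map_mul, map_pow, hy, ← pow_mul]
    calc v (aeval j (Φ.coeff i)) * v j ^ (q * i) ≤ v j ^ q * v j ^ (q * i) :=
          mul_le_mul_left (hmid i hi.1 hi.2.le) _
      _ = v j ^ (q + q * i) := (pow_add _ _ _).symm
      _ ≤ v j ^ (q * q) := pow_le_pow_right₀ h1.le (by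
          have : q * i ≤ q * (q - 1) := Nat.mul_le_mul_left q (by omega)
          have h3 : q * (q - 1) + q = q * q := by
            rw [← Nat.mul_succ]
            congr 1
            omega
          omega)
  have hkey : y ^ q * (y + aeval j (Φ.coeff q)) =
      -(∑ i ∈ Finset.Ico 1 q, aeval j (Φ.coeff i) * y ^ i + aeval j (Φ.coeff 0)) := by
    linear_combination hexp
  have h2 : v (y ^ q * (y + aeval j (Φ.coeff q))) ≤ v j ^ (q * q) := by
    rw [hkey, Valuation.map_neg]
    refine v.map_add_le hS ?_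
    rw [h0]
    exact pow_le_pow_right₀ h1.le hqq
  rw [map_mul, map_pow, hy, ← pow_mul] at h2
  exact sqgcu_le_one_of_mul_le (pow_ne_zero _ hμ0) h2

/-- **(VL1)** : on the branch `v y = (v j)^q` : `j⁻¹^q y ≡ - lc(ξ_q)` modulo the maximal ideal. -/
theorem sqgcu_val_ff (hA : ∀ a : A, v (algebraMap A F a) ≤ 1) (h : SsgnModPoly A F j y q Φ)
    (hq : 2 ≤ q) (h1 : 1 < v j) (hy : v y = v j ^ q) :
    v (j⁻¹ ^ q * y + algebraMap A F (Φ.coeff q).leadingCoeff) < 1 := by
  have hμ0 : v j ≠ 0 := (lt_trans zero_lt_one h1).ne'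
  have hj0 : j ≠ 0 := fun h0 => hμ0 (by rw [h0, map_zero])
  have hadd := sqgcu_val_add_le v hA h hq h1 hy
  have hlow := sqgcu_val_aeval_sub_top v hA h1.le (Φ.coeff q)
  rw [h.degq] at hlow
  set X : F := j⁻¹ ^ q * y + algebraMap A F (Φ.coeff q).leadingCoeff with hX
  have hXj : X * j ^ q = (y + aeval j (Φ.coeff q)) -
      (aeval j (Φ.coeff q) - algebraMap A F (Φ.coeff q).leadingCoeff * j ^ q) := by
    rw [hX, inv_pow]
    field_simp
    ring
  have hW : v (X * j ^ q) < v j ^ q := by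
    rw [hXj]
    refine lt_of_le_of_lt (v.map_sub_le (g := v j ^ (q - 1)) ?_ hlow) ?_
    · exact hadd.trans (one_le_pow₀ h1.le)
    · exact pow_lt_pow_right₀ h1 (by omega)
  by_contra hge
  rw [not_lt] at hge
  have h3 : 1 * v j ^ q ≤ v X * v j ^ q := mul_le_mul_left hge _
  rw [one_mul] at h3
  rw [map_mul, map_pow] at hW
  exact absurd hW (not_lt.mpr h3)

/-- splitting off the two top terms of a sum over `range (q + 1)` -/
theorem sqgcu_sum_split (hq : 1 ≤ q) (T : ℕ → F) :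
    ∑ i ∈ Finset.range (q + 1), T i = ∑ i ∈ Finset.range (q - 1), T i + T (q - 1) + T q := by
  obtain ⟨m, rfl⟩ : ∃ m, q = m + 1 := ⟨q - 1, by omega⟩
  rw [Finset.sum_range_succ, Finset.sum_range_succ, Nat.add_sub_cancel]

/-- **(VL2), outer partial** : `v (Φ_Y(j, y)) = (v j)^(q q)` on the branch `v y = (v j)^q`. -/
theorem sqgcu_val_derivY (hA : ∀ a : A, v (algebraMap A F a) ≤ 1) (h : SsgnModPoly A F j y q Φ)
    (hq : 2 ≤ q) (h1 : 1 < v j) (hy : v y = v j ^ q) :
    v ((derivative Φ).eval₂ ((aeval j : A[X] →ₐ[A] F) : A[X] →+* F) y) = v j ^ (q * q) := by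
  have hμ0 : v j ≠ 0 := (lt_trans zero_lt_one h1).ne'
  have hadd := sqgcu_val_add_le v hA h hq h1 hy
  have hmid : ∀ i, 1 ≤ i → i ≤ q → v (aeval j (Φ.coeff i)) ≤ v j ^ q := fun i h1' h2 =>
    ssgn_val_aeval_le v hA h1.le _ (h.mid i h1' h2)
  have hdeg : (derivative Φ).natDegree < q + 1 := by
    have h2 := natDegree_derivative_lt (p := Φ) (by rw [h.deg]; omega)
    rwa [h.deg] at h2
  set T : ℕ → F := fun i => aeval j (Φ.coeff (i + 1)) * ((i : F) + 1) * y ^ i with hT
  have hsum : (derivative Φ).eval₂ ((aeval j : A[X] →ₐ[A] F) : A[X] →+* F) y =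
      ∑ i ∈ Finset.range (q + 1), T i := by
    rw [eval₂_eq_sum_range' _ hdeg]
    refine Finset.sum_congr rfl fun i _ => ?_
    rw [coeff_derivative, map_mul, map_add, map_natCast, map_one]
    rfl
  rw [hsum, sqgcu_sum_split (by omega) T]
  -- the two top terms
  have hq1 : q - 1 + 1 = q := by omega
  have hcast : (((q - 1 : ℕ) : F) + 1) = (q : F) := by
    rw [← Nat.cast_succ, Nat.succ_eq_add_one, hq1]
  have hTq : T q = ((q : F) + 1) * y ^ q := by
    show aeval j (Φ.coeff (q + 1)) * ((q : F) + 1) * y ^ q = _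
    rw [h.lead, map_one, one_mul]
  have hTq1 : T (q - 1) = aeval j (Φ.coeff q) * (q : F) * y ^ (q - 1) := by
    show aeval j (Φ.coeff (q - 1 + 1)) * (((q - 1 : ℕ) : F) + 1) * y ^ (q - 1) = _
    rw [hq1, hcast]
  have hmain : T (q - 1) + T q =
      y ^ (q - 1) * (y + (q : F) * (y + aeval j (Φ.coeff q))) := by
    rw [hTq, hTq1]
    have hyq : y ^ q = y ^ (q - 1) * y := by rw [← pow_succ, hq1]
    rw [hyq]
    ring
  have hy1 : 1 < v y := by
    rw [hy]
    exact one_lt_pow₀ h1 (by omega)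
  have hvmain : v (T (q - 1) + T q) = v j ^ (q * q) := by
    rw [hmain, map_mul, map_pow]
    have h2 : v ((q : F) * (y + aeval j (Φ.coeff q))) < v y := by
      rw [map_mul]
      calc v (q : F) * v (y + aeval j (Φ.coeff q)) ≤ 1 * 1 :=
            mul_le_mul' (sqgcu_val_natCast_le v hA q) hadd
        _ = 1 := one_mul _
        _ < v y := hy1
    rw [v.map_add_eq_of_lt_left h2, ← pow_succ, hq1, hy, ← pow_mul]
  have hrest : v (∑ i ∈ Finset.range (q - 1), T i) < v j ^ (q * q) := by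
    refine v.map_sum_lt (pow_ne_zero _ hμ0) fun i hi => ?_
    rw [Finset.mem_range] at hi
    show v (aeval j (Φ.coeff (i + 1)) * ((i : F) + 1) * y ^ i) < _
    have hc : v ((i : F) + 1) ≤ 1 := by
      have := sqgcu_val_natCast_le v hA (i + 1)
      rwa [Nat.cast_succ] at this
    rw [map_mul, map_mul, map_pow, hy, ← pow_mul]
    calc v (aeval j (Φ.coeff (i + 1))) * v ((i : F) + 1) * v j ^ (q * i)
        ≤ v j ^ q * 1 * v j ^ (q * i) :=
          mul_le_mul_left (mul_le_mul' (hmid (i + 1) (by omega) (by omega)) hc) _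
      _ = v j ^ (q + q * i) := by rw [mul_one, ← pow_add]
      _ < v j ^ (q * q) := pow_lt_pow_right₀ h1 (by
          have h3 : q * i ≤ q * (q - 2) := Nat.mul_le_mul_left q (by omega)
          have h4 : q * (q - 2) + q + q = q * q := by
            obtain ⟨m, rfl⟩ : ∃ m, q = m + 2 := ⟨q - 2, by omega⟩
            rw [Nat.add_sub_cancel]
            ring
          omega)
  rw [add_assoc]
  rw [← hvmain] at hrest ⊢
  exact v.map_add_eq_of_lt_right hrest

/-- **(VL2), inner partial** : `v (Φ_X(j, y)) = (v j)^(q q + q - 1)` on the branch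
`v y = (v j)^q`, at a place of residue characteristic prime to `q`. -/
theorem sqgcu_val_derivX (hA : ∀ a : A, v (algebraMap A F a) ≤ 1) (h : SsgnModPoly A F j y q Φ)
    (hq : 2 ≤ q) (hvq : v ((q : ℕ) : F) = 1) (h1 : 1 < v j) (hy : v y = v j ^ q) :
    v (∑ i ∈ Finset.range (q + 2), aeval j (derivative (Φ.coeff i)) * y ^ i) =
      v j ^ (q * q + q - 1) := by
  have hμ0 : v j ≠ 0 := (lt_trans zero_lt_one h1).ne'
  have hq1 : q - 1 + 1 = q := by omega
  -- the derivative of `ξ_q`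
  have hlc : v (algebraMap A F ((Φ.coeff q).leadingCoeff * (q : A))) = 1 := by
    rw [map_mul, map_mul, map_natCast, hvq, mul_one]
    exact ssgn_unit_val v hA h.lcq
  have hcoeff : (derivative (Φ.coeff q)).coeff (q - 1) = (Φ.coeff q).leadingCoeff * (q : A) := by
    rw [coeff_derivative, hq1]
    have e1 : (Φ.coeff q).coeff q = (Φ.coeff q).leadingCoeff := by
      rw [Polynomial.leadingCoeff, h.degq]
    have e2 : (((q - 1 : ℕ) : A) + 1) = (q : A) := by
      rw [← Nat.cast_succ, Nat.succ_eq_add_one, hq1]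
    rw [e1, e2]
  have hne : (derivative (Φ.coeff q)).coeff (q - 1) ≠ 0 := by
    rw [hcoeff]
    intro h0
    rw [h0, map_zero, map_zero] at hlc
    exact zero_ne_one hlc
  have hnd : (derivative (Φ.coeff q)).natDegree = q - 1 := by
    refine natDegree_eq_of_le_of_coeff_ne_zero ?_ hne
    have := natDegree_derivative_le (Φ.coeff q)
    rwa [h.degq] at this
  have hvq' : v (aeval j (derivative (Φ.coeff q))) = v j ^ (q - 1) := by
    have hl : (derivative (Φ.coeff q)).leadingCoeff = (Φ.coeff q).leadingCoeff * (q : A) := by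
      rw [Polynomial.leadingCoeff, hnd, hcoeff]
    rw [ssgn_val_aeval_eq v hA h1 _ (by rw [hl]; exact hlc), hnd]
  -- split the sum
  rw [Finset.sum_range_succ, Finset.sum_range_succ, h.lead, derivative_one, map_zero, zero_mul,
    add_zero]
  have hexp : q * q + q - 1 = (q - 1) + q * q := by omega
  have hvD : v (aeval j (derivative (Φ.coeff q)) * y ^ q) = v j ^ (q * q + q - 1) := by
    rw [map_mul, map_pow, hvq', hy, ← pow_mul, ← pow_add, hexp]
  have hrest : v (∑ i ∈ Finset.range q, aeval j (derivative (Φ.coeff i)) * y ^ i) <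
      v j ^ (q * q + q - 1) := by
    refine v.map_sum_lt (pow_ne_zero _ hμ0) fun i hi => ?_
    rw [Finset.mem_range] at hi
    have hd : (derivative (Φ.coeff i)).natDegree ≤ q := by
      refine (natDegree_derivative_le _).trans ?_
      rcases Nat.eq_zero_or_pos i with rfl | hi0
      · rw [h.deg0, Nat.add_sub_cancel]
      · exact (Nat.sub_le _ _).trans (h.mid i hi0 hi.le)
    rw [map_mul, map_pow, hy, ← pow_mul]
    calc v (aeval j (derivative (Φ.coeff i))) * v j ^ (q * i)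
        ≤ v j ^ q * v j ^ (q * i) := mul_le_mul_left (ssgn_val_aeval_le v hA h1.le _ hd) _
      _ = v j ^ (q + q * i) := (pow_add _ _ _).symm
      _ < v j ^ (q * q + q - 1) := pow_lt_pow_right₀ h1 (by
          have h3 : q * i ≤ q * (q - 1) := Nat.mul_le_mul_left q (by omega)
          have h4 : q * (q - 1) + q = q * q := by
            obtain ⟨m, rfl⟩ : ∃ m, q = m + 1 := ⟨q - 1, by omega⟩
            rw [Nat.add_sub_cancel]
            ring
          omega)
  rw [← hvD] at hrest ⊢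
  exact v.map_add_eq_of_lt_right hrest

/-- **(VL2)** in helper5's literal form -/
theorem sqgcu_val_deriv (hA : ∀ a : A, v (algebraMap A F a) ≤ 1) (h : SsgnModPoly A F j y q Φ)
    (hq : 2 ≤ q) (hvq : v ((q : ℕ) : F) = 1) (h1 : 1 < v j) (hy : v y = v j ^ q) :
    v ((derivative Φ).eval₂ ((aeval j : A[X] →ₐ[A] F) : A[X] →+* F) y) = v j ^ (q * q) ∧
      v (∑ i ∈ Finset.range (q + 2), aeval j (derivative (Φ.coeff i)) * y ^ i) =
        v j ^ (q * q + q - 1) :=
  ⟨sqgcu_val_derivY v hA h hq h1 hy, sqgcu_val_derivX v hA h hq hvq h1 hy⟩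

/-- the consequence : `g · (q Φ_Y(j, y)) = - Φ_X(j, y)  ⟹  v g = (v j)^(q - 1)` -/
theorem sqgcu_val_g (hA : ∀ a : A, v (algebraMap A F a) ≤ 1) (h : SsgnModPoly A F j y q Φ)
    (hq : 2 ≤ q) (hvq : v ((q : ℕ) : F) = 1) (h1 : 1 < v j) (hy : v y = v j ^ q) {g : F}
    (hg : g * ((q : F) * (derivative Φ).eval₂ ((aeval j : A[X] →ₐ[A] F) : A[X] →+* F) y) =
      -∑ i ∈ Finset.range (q + 2), aeval j (derivative (Φ.coeff i)) * y ^ i) :
    v g = v j ^ (q - 1) := by
  have hμ0 : v j ≠ 0 := (lt_trans zero_lt_one h1).ne'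
  obtain ⟨hY, hX⟩ := sqgcu_val_deriv v hA h hq hvq h1 hy
  have h2 := congrArg v hg
  rw [map_mul, map_mul, Valuation.map_neg, hvq, one_mul, hY, hX] at h2
  have hexp : q * q + q - 1 = (q - 1) + q * q := by omega
  rw [hexp, pow_add] at h2
  exact mul_right_cancel₀ (pow_ne_zero _ hμ0) h2

end Fermat.Agent.SQ
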