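import Mathlib
import Fermat.Agent.SQ.Germ.DerivNode
import Fermat.Agent.S24.PlaceOrd
import Fermat.Agent.S18.RH.W
import Fermat.Agent.SS.NF.Defs

/-!
# Program Q (S36), R1 team, leaf (K) : TRANSPORT OF THE HORIZONTAL UNIT PROPERTY (prefix `sqgk`)

* `sqgk_comap_isPlace` : for a homomorphism of fields `ι : F₀ → F` over `L` with `F` integral over
  `ι F₀`, the restriction `V.comap ι` of a (weak) place `V` of `F / L` is a (weak) place of `F₀ / L`;
* `sqgk_comap_nonunits` : `𝔪_{V.comap ι} = ι⁻¹ 𝔪_V`;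
* **`sqgk_hor_comap`** : if `ι` maps the chart ring `P₀ = s18tInt A t₀` into `P = s18tInt A t`
  (`f : P₀ →+* P` the restriction) and `g ∈ F₀` is a unit at every place of `F₀ / L` centred in
  `𝔫.comap f`, then `ι g` is a unit at every place of `F / L` centred in `𝔫`
  (level `q M ⟶ q² M` : `α (g) ∈ P_𝔫ˣ` by (GK), without knowing which components pass through
  `𝔫.comap f`);
* `sqgk_hor_iff_ord` : `SqgkHor L t 𝔫 g ↔ ∀ R : Place L F, SsCentredAt t 𝔫 R → R.ord g = 0`
  (the `Place` form consumed by `SQ/Germ/CrossReg`, `SQ/KumAt`).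
-/

set_option autoImplicit false
set_option linter.unusedSectionVars false
set_option linter.unusedVariables false

noncomputable section

namespace Fermat.Agent.SQ

open Polynomial IntermediateField AlgebraicCurve Fermat.Agent.S18 Fermat.Agent.SS Fermat.Agent.S24

universe u u₀

section Field

variable {F₀ : Type*} {F : Type*} [Field F₀] [Field F]

/-- membership in the maximal ideal of a valuation subring, in terms of membership only -/
theorem sqgk_mem_nonunits_iff (V : ValuationSubring F) (x : F) :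
    x ∈ V.nonunits ↔ x ∈ V ∧ (x = 0 ∨ x⁻¹ ∉ V) := by
  rw [V.mem_nonunits_iff]
  constructor
  · intro h
    refine ⟨(V.valuation_le_one_iff x).mp (le_of_lt h), ?_⟩
    by_cases hx : x = 0
    · exact Or.inl hx
    · right
      intro hinv
      have h1 := (V.valuation_le_one_iff _).mpr hinv
      rw [map_inv₀] at h1
      have hv0 : V.valuation x ≠ 0 := (V.valuation.ne_zero_iff).mpr hx
      have : 1 ≤ V.valuation x := (inv_le_one₀ (pos_of_ne_zero hv0)).mp h1
      exact absurd h (not_lt.mpr this)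
  · rintro ⟨hx, h0 | hinv⟩
    · rw [h0, map_zero]; exact zero_lt_one
    · by_contra hlt
      push Not at hlt
      apply hinv
      rw [← V.valuation_le_one_iff, map_inv₀]
      exact inv_le_one_of_one_le₀ hlt

/-- `𝔪_{V.comap ι} = ι⁻¹ 𝔪_V` -/
theorem sqgk_comap_nonunits (ι : F₀ →+* F) (V : ValuationSubring F) (x : F₀) :
    x ∈ (V.comap ι).nonunits ↔ ι x ∈ V.nonunits := by
  rw [sqgk_mem_nonunits_iff, sqgk_mem_nonunits_iff]
  simp only [ValuationSubring.mem_comap, map_inv₀, map_eq_zero]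

/-- a valuation subring containing `ι F₀`, with `F` integral over `ι F₀`, is everything -/
theorem sqgk_comap_ne_top (ι : F₀ →+* F) (hint : ι.IsIntegral) (V : ValuationSubring F)
    (hV : V ≠ ⊤) : V.comap ι ≠ ⊤ := by
  intro htop
  apply hV
  rw [eq_top_iff]
  intro x _
  have hle : ∀ y : F₀, ι y ∈ V := fun y => by
    have : y ∈ V.comap ι := by rw [htop]; trivial
    exact this
  obtain ⟨p, hp, hpx⟩ := hint x
  -- `x` is integral over `V`
  have hcoe : ∀ n, (p.map ι).coeff n ∈ V.toSubring := fun n => by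
    rw [coeff_map]; exact hle _
  have hsub : (↑(p.map ι).coeffs : Set F) ⊆ ↑V.toSubring := by
    intro c hc
    obtain ⟨n, -, rfl⟩ := (Polynomial.mem_coeffs_iff).mp hc
    exact hcoe n
  have hxint : IsIntegral ↥V x := by
    refine ⟨(p.map ι).toSubring V.toSubring hsub, ?_, ?_⟩
    · exact (Polynomial.monic_toSubring _ _ _).mpr (hp.map ι)
    · have h1 : eval₂ (algebraMap ↥V F) x ((p.map ι).toSubring V.toSubring hsub) =
          eval₂ (RingHom.id F) x
            (((p.map ι).toSubring V.toSubring hsub).map V.toSubring.subtype) := by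
        rw [eval₂_map]; rfl
      rw [h1, Polynomial.map_toSubring, eval₂_id, eval_map]
      exact hpx
  obtain ⟨y, hy⟩ := (IsIntegrallyClosed.isIntegral_iff (R := ↥V) (K := F)).mp hxint
  rw [← hy]
  exact y.2

end Field

variable {A : Type*} [CommRing A] [IsDomain A] [IsDiscreteValuationRing A] [CharZero A]
variable {L : Type*} [Field L] [Algebra A L] [IsFractionRing A L]
variable {F : Type u} [Field F] [Algebra A F] [Algebra L F] [IsScalarTower A L F]
variable {F₀ : Type u₀} [Field F₀] [Algebra A F₀] [Algebra L F₀] [IsScalarTower A L F₀]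

/-- the restriction of a place along an integral homomorphism of fields over `L` is a place -/
theorem sqgk_comap_isPlace (ι : F₀ →+* F)
    (hιL : ∀ c : L, ι (algebraMap L F₀ c) = algebraMap L F c) (hint : ι.IsIntegral)
    (V : ValuationSubring F) (hV : S18IsPlace L V) : S18IsPlace L (V.comap ι) := by
  refine ⟨sqgk_comap_ne_top ι hint V hV.1, fun c => ?_⟩
  show ι (algebraMap L F₀ c) ∈ V
  rw [hιL]
  exact hV.2 c

/-- **transport of the horizontal unit property** along `ι : F₀ → F` -/
theorem sqgk_hor_comap {t₀ : F₀} {t : F} (ι : F₀ →+* F)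
    (hιL : ∀ c : L, ι (algebraMap L F₀ c) = algebraMap L F c) (hint : ι.IsIntegral)
    (f : ↥(s18tInt A t₀) →+* ↥(s18tInt A t)) (hf : ∀ p : ↥(s18tInt A t₀), ((f p : ↥(s18tInt A t)) : F) = ι p)
    (𝔫 : Ideal ↥(s18tInt A t)) {g : F₀} (hg : SqgkHor L t₀ (𝔫.comap f) g) :
    SqgkHor L t 𝔫 (ι g) := by
  intro V hV hle hc
  have hV₀ := sqgk_comap_isPlace ι hιL hint V hV
  have hle₀ : s18tInt A t₀ ≤ (V.comap ι).toSubring := by
    intro b hb
    show ι b ∈ V
    have := hf ⟨b, hb⟩
    rw [← this]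
    exact hle (f ⟨b, hb⟩).2
  have hc₀ : sskCentre t₀ (V.comap ι) ⊆ ((𝔫.comap f : Ideal ↥(s18tInt A t₀)) :
      Set ↥(s18tInt A t₀)) := by
    intro p hp
    have hp' : (p : F₀) ∈ (V.comap ι).nonunits := hp
    rw [sqgk_comap_nonunits, ← hf] at hp'
    exact hc hp'
  obtain ⟨h1, h2⟩ := hg (V.comap ι) hV₀ hle₀ hc₀
  refine ⟨h1, ?_⟩
  have : ι g⁻¹ ∈ V := h2
  rwa [map_inv₀] at this

/-- the `Place` form of the horizontal unit property -/
theorem sqgk_hor_iff_ord {t : F} (ht : Transcendental L t) [FiniteDimensional L⟮t⟯ F]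
    (𝔫 : Ideal ↥(s18tInt A t)) {g : F} (hg0 : g ≠ 0) :
    SqgkHor L t 𝔫 g ↔ ∀ R : Place L F, SsCentredAt t 𝔫 R → R.ord g = 0 := by
  constructor
  · intro h R hR
    rw [PlaceOrd.ord_eq_zero_iff R hg0]
    exact h R.toValuationSubring ⟨R.ne_top', R.algebraMap_mem'⟩ hR.1 hR.2
  · intro h V hV hle hc
    obtain ⟨R, hR⟩ := s18r_exists_place t ht V hV
    have hcen : SsCentredAt t 𝔫 R := by
      refine ⟨?_, ?_⟩
      · rw [hR]; exact hle
      · rw [hR]; exact hc
    have := (PlaceOrd.ord_eq_zero_iff R hg0).mp (h R hcen)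
    rwa [hR] at this

end Fermat.Agent.SQ
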