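import Mathlib
import Fermat.Agent.SQ.Germ.DerivBar
import Fermat.Agent.S35.AuxLvl.DegBeta
import Fermat.Agent.SS.Dict.Place

/-!
# Program Q, GERM², leaf (H) at the level `ℚ̄`, second coordinate (prefix `sqgd`)

`j_q = β j` is unramified over the non-elliptic values (transport of `s18r_ord_eq_one` by the
Atkin-Lehner involution), and the resulting statement
`sqgd_ord_partial_beta` : `ord_v (∂₁Φ)(j, j_q) = ord_v (∂₂Φ)(j, j_q)` at every place `v` of
`F_ℚ̄(M q)` with `j(v), j_q(v) ∉ {0, 1728, ∞}`.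
-/

set_option autoImplicit false
set_option linter.unusedSectionVars false
set_option linter.unusedVariables false
set_option linter.style.haveILetI false

noncomputable section

namespace Fermat.Agent.SQ

open Fermat.Agent.S24 Fermat.Agent.S18 Fermat.Agent.G Fermat.Agent.SS AlgebraicCurve ModularCurve
  Polynomial

section Unif

variable {K F : Type*} [Field K] [Field F] [Algebra K F]

/-- characterisation of uniformisers by divisibility. -/
theorem sqgd_ord_eq_one_iff (v : Place K F) {f : F} (hf : 0 < v.ord f) :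
    v.ord f = 1 ↔ ∀ g : F, g ≠ 0 → 0 < v.ord g → g * f⁻¹ ∈ v.toValuationSubring := by
  have hf0 : f ≠ 0 := by
    rintro rfl
    simp at hf
  constructor
  · intro h1 g hg0 hg
    apply PlaceOrd.mem_of_ord_nonneg
    rw [v.ord_mul hg0 (inv_ne_zero hf0), v.ord_inv, h1]
    omega
  · intro h
    obtain ⟨π, ⟨hπ0, -, -⟩, hπ1, -⟩ := s18r_place_disc v
    have h1 := PlaceOrd.ord_nonneg_of_mem v (h π hπ0 (by rw [hπ1]; exact one_pos))
    rw [v.ord_mul hπ0 (inv_ne_zero hf0), v.ord_inv, hπ1] at h1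
    omega

end Unif

variable (M : ℕ) [NeZero M] {q : ℕ} [Fact q.Prime]

theorem sqgd_alpha_jBar :
    haveI : NeZero q := ⟨(Fact.out : q.Prime).ne_zero⟩
    heckeAlphaBar QBar M q (jBar M) = jBar (M * q) := by
  haveI : NeZero q := ⟨(Fact.out : q.Prime).ne_zero⟩
  apply Subtype.ext
  rw [coe_heckeAlphaBar]
  rfl

/-- **`j_q` is unramified over the non-elliptic values.** -/
theorem sqgd_ord_beta (hqM : ¬ q ∣ M) (b : QBar) (hb0 : b ≠ 0) (hb : b ≠ 1728)
    (v : haveI : NeZero q := ⟨(Fact.out : q.Prime).ne_zero⟩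
      Place QBar (modularFunctionFieldBar (M * q)))
    (hv : haveI : NeZero q := ⟨(Fact.out : q.Prime).ne_zero⟩
      0 < v.ord (heckeBetaBar QBar M q (jBar M) -
        algebraMap QBar (modularFunctionFieldBar (M * q)) b)) :
    haveI : NeZero q := ⟨(Fact.out : q.Prime).ne_zero⟩
    v.ord (heckeBetaBar QBar M q (jBar M) -
        algebraMap QBar (modularFunctionFieldBar (M * q)) b) = 1 := by
  haveI : NeZero q := ⟨(Fact.out : q.Prime).ne_zero⟩
  obtain ⟨w, hwα, hwβ, hww, hwc⟩ := s35db_exists_w M hqM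
  -- the transported place
  set W : ValuationSubring (modularFunctionFieldBar (M * q)) :=
    v.toValuationSubring.comap (w : modularFunctionFieldBar (M * q) →+*
      modularFunctionFieldBar (M * q)) with hW
  have hmemW : ∀ x, x ∈ W ↔ w x ∈ v.toValuationSubring := fun x => Iff.rfl
  have hWp : S18IsPlace QBar W := by
    refine ⟨fun htop => v.ne_top' ?_, fun c => ?_⟩
    · refine SetLike.ext fun x => ⟨fun _ => ValuationSubring.mem_top _, fun _ => ?_⟩
      have : w x ∈ W := by rw [htop]; exact ValuationSubring.mem_top _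
      rw [hmemW, hww] at this
      exact this
    · rw [hmemW, hwc]
      exact v.algebraMap_mem' c
  obtain ⟨v', hv'⟩ := ssd_weak_place_bar (M * q) W hWp
  have hmem' : ∀ x, x ∈ v'.toValuationSubring ↔ w x ∈ v.toValuationSubring := fun x => by
    rw [hv']; exact Iff.rfl
  set t : modularFunctionFieldBar (M * q) := heckeBetaBar QBar M q (jBar M) -
    algebraMap QBar (modularFunctionFieldBar (M * q)) b with ht
  set t' : modularFunctionFieldBar (M * q) := jBar (M * q) -
    algebraMap QBar (modularFunctionFieldBar (M * q)) b with ht'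
  have hwt' : w t' = t := by
    rw [ht', ht, map_sub, hwc, ← sqgd_alpha_jBar M, hwα]
  have hwt : w t = t' := by rw [← hwt', hww]
  have ht0 : t ≠ 0 := by
    intro h0
    rw [h0] at hv
    simp at hv
  have ht'0 : t' ≠ 0 := by
    intro h0
    rw [h0, map_zero] at hwt'
    exact ht0 hwt'.symm
  -- `t'` is in the maximal ideal of `v'`
  have hpos' : 0 < v'.ord t' := by
    rw [PlaceOrd.ord_pos_iff v' ht'0, hmem', map_inv₀, hwt', ← PlaceOrd.ord_pos_iff v ht0]
    exact hv
  have hone' : v'.ord t' = 1 := s18r_ord_eq_one (M * q) b hb0 hb v' hpos'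
  rw [sqgd_ord_eq_one_iff v hv]
  intro g hg0 hg
  have hwg0 : w g ≠ 0 := (map_ne_zero_iff w w.injective).2 hg0
  have hg' : 0 < v'.ord (w g) := by
    rw [PlaceOrd.ord_pos_iff v' hwg0, hmem', map_inv₀, hww, ← PlaceOrd.ord_pos_iff v hg0]
    exact hg
  have h1 := (sqgd_ord_eq_one_iff v' hpos').1 hone' (w g) hwg0 hg'
  rw [hmem', map_mul, map_inv₀, hww, hwt'] at h1
  exact h1

/-- **(H) at the level `ℚ̄`** for the pair `(j, j_q)`. -/
theorem sqgd_ord_partial_beta (hqM : ¬ q ∣ M) (a b : QBar) (ha0 : a ≠ 0) (ha : a ≠ 1728)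
    (hb0 : b ≠ 0) (hb : b ≠ 1728)
    (v : haveI : NeZero q := ⟨(Fact.out : q.Prime).ne_zero⟩
      Place QBar (modularFunctionFieldBar (M * q)))
    (hva : haveI : NeZero q := ⟨(Fact.out : q.Prime).ne_zero⟩
      0 < v.ord (jBar (M * q) - algebraMap QBar (modularFunctionFieldBar (M * q)) a))
    (hvb : haveI : NeZero q := ⟨(Fact.out : q.Prime).ne_zero⟩
      0 < v.ord (heckeBetaBar QBar M q (jBar M) -
        algebraMap QBar (modularFunctionFieldBar (M * q)) b))
    (Φ : QBar[X][X])
    (hΦ : haveI : NeZero q := ⟨(Fact.out : q.Prime).ne_zero⟩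
      Φ.eval₂ ((aeval (jBar (M * q)) : QBar[X] →ₐ[QBar] modularFunctionFieldBar (M * q)) :
        QBar[X] →+* modularFunctionFieldBar (M * q)) (heckeBetaBar QBar M q (jBar M)) = 0) :
    haveI : NeZero q := ⟨(Fact.out : q.Prime).ne_zero⟩
    ((sqgdDX Φ).eval₂ ((aeval (jBar (M * q)) :
          QBar[X] →ₐ[QBar] modularFunctionFieldBar (M * q)) :
          QBar[X] →+* modularFunctionFieldBar (M * q)) (heckeBetaBar QBar M q (jBar M)) = 0 ↔
      (derivative Φ).eval₂ ((aeval (jBar (M * q)) :
          QBar[X] →ₐ[QBar] modularFunctionFieldBar (M * q)) :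
          QBar[X] →+* modularFunctionFieldBar (M * q)) (heckeBetaBar QBar M q (jBar M)) = 0) ∧
    v.ord ((sqgdDX Φ).eval₂ ((aeval (jBar (M * q)) :
          QBar[X] →ₐ[QBar] modularFunctionFieldBar (M * q)) :
          QBar[X] →+* modularFunctionFieldBar (M * q)) (heckeBetaBar QBar M q (jBar M))) =
      v.ord ((derivative Φ).eval₂ ((aeval (jBar (M * q)) :
          QBar[X] →ₐ[QBar] modularFunctionFieldBar (M * q)) :
          QBar[X] →+* modularFunctionFieldBar (M * q)) (heckeBetaBar QBar M q (jBar M))) := by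
  haveI : NeZero q := ⟨(Fact.out : q.Prime).ne_zero⟩
  exact sqgd_ord_partial_eq (M * q) a b ha0 ha v hva _
    (sqgd_ord_beta M hqM b hb0 hb v hvb) Φ hΦ

end Fermat.Agent.SQ
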