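import Mathlib
import Fermat.Agent.SQ.Germ.DerivBeta
import Fermat.Agent.SS.Val.ModMain

/-!
# Program Q, GERM², leaf (H) at the level `E` (prefix `sqgd`)

`sqgd_horizontal` : let `Φ ∈ E[X][Y]` with `Φ(j, j_q) = 0` in `F_E(M q)` (`q ∤ M` prime).  At every
place `V` of `F_E(M q) / E` at which `j`, `j - 1728`, `j_q`, `j_q - 1728` are units, the two
partial derivatives `(∂₁Φ)(j, j_q)` and `(∂₂Φ)(j, j_q)` have the same valuation: their quotient
and its inverse lie in `V`.  (So the divisor of `dj_q/dj = -(∂₁Φ)/(∂₂Φ)` on the generic fibre is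
supported at the elliptic points and the cusps.)
-/

set_option autoImplicit false
set_option linter.unusedSectionVars false
set_option linter.unusedVariables false
set_option linter.style.haveILetI false

noncomputable section

namespace Fermat.Agent.SQ

open Fermat.Agent.S24 Fermat.Agent.S18 Fermat.Agent.G Fermat.Agent.SS AlgebraicCurve ModularCurve
  Polynomial

local notation "Qb" => AlgebraicClosure ℚ

variable (E : IntermediateField ℚ Qb) (M : ℕ) [NeZero M] {q : ℕ} [Fact q.Prime] [NeZero q]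

theorem sqgd_up_j (N : ℕ) [NeZero N] : ssdUp E N (ssvmdJ E N) = jBar N := by
  apply Subtype.ext
  show s18dUp E (jqModC E) = coeffEmb Qb jq
  exact s18r_up_j E

theorem sqgd_up_y :
    ssdUp E (M * q) (ssvmmY E M q) = heckeBetaBar Qb M q (jBar M) := by
  apply Subtype.ext
  show s18dUp E (qExpand E q (jqModC E)) = qExpand Qb q (coeffEmb Qb jq)
  rw [coeffMap_qExpand]
  congr 1
  exact s18r_up_j E

set_option maxHeartbeats 1600000 in
set_option synthInstance.maxHeartbeats 400000 in
/-- **(H) at the level `E`.** -/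
theorem sqgd_horizontal (hqM : ¬ q ∣ M) (Φ : (↥E)[X][X])
    (hΦ : Φ.eval₂ ((aeval (ssvmdJ E (M * q)) : (↥E)[X] →ₐ[E] modularFunctionFieldFullC E (M * q)) :
        (↥E)[X] →+* modularFunctionFieldFullC E (M * q)) (ssvmmY E M q) = 0)
    (V : ValuationSubring (modularFunctionFieldFullC E (M * q)))
    (hV : S18IsPlace E V)
    (hj : ssvmdJ E (M * q) ∈ V)
    (hj0 : (ssvmdJ E (M * q))⁻¹ ∈ V)
    (hj1 : (ssvmdJ E (M * q) - 1728)⁻¹ ∈ V)
    (hy : ssvmmY E M q ∈ V) (hy0 : (ssvmmY E M q)⁻¹ ∈ V) (hy1 : (ssvmmY E M q - 1728)⁻¹ ∈ V) :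
    (sqgdDX Φ).eval₂ ((aeval (ssvmdJ E (M * q)) :
          (↥E)[X] →ₐ[E] modularFunctionFieldFullC E (M * q)) :
          (↥E)[X] →+* modularFunctionFieldFullC E (M * q)) (ssvmmY E M q) *
        ((derivative Φ).eval₂ ((aeval (ssvmdJ E (M * q)) :
          (↥E)[X] →ₐ[E] modularFunctionFieldFullC E (M * q)) :
          (↥E)[X] →+* modularFunctionFieldFullC E (M * q)) (ssvmmY E M q))⁻¹ ∈ V ∧
    (derivative Φ).eval₂ ((aeval (ssvmdJ E (M * q)) :
          (↥E)[X] →ₐ[E] modularFunctionFieldFullC E (M * q)) :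
          (↥E)[X] →+* modularFunctionFieldFullC E (M * q)) (ssvmmY E M q) *
        ((sqgdDX Φ).eval₂ ((aeval (ssvmdJ E (M * q)) :
          (↥E)[X] →ₐ[E] modularFunctionFieldFullC E (M * q)) :
          (↥E)[X] →+* modularFunctionFieldFullC E (M * q)) (ssvmmY E M q))⁻¹ ∈ V := by
  set j := ssvmdJ E (M * q) with hjdef
  set y := ssvmmY E M q with hydef
  let F := modularFunctionFieldFullC E (M * q)
  let Fb := modularFunctionFieldBar (M * q)
  set up := ssdUp E (M * q) with hup
  -- the place of `F_ℚ̄` above `V`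
  obtain ⟨R, hR⟩ := ssd_weak_place E (M * q) V hV
  obtain ⟨R', hR'⟩ := ssd_extend E (M * q) R
  have hmemV : ∀ x : F, x ∈ V ↔ up x ∈ R'.toValuationSubring := fun x => by
    rw [← hR, ← hR']; exact Iff.rfl
  have hupj : up j = jBar (M * q) := sqgd_up_j E (M * q)
  have hupy : up y = heckeBetaBar Qb M q (jBar M) := sqgd_up_y E M
  have hupc : ∀ c : E, up (algebraMap E F c) =
      algebraMap Qb Fb (algebraMap E Qb c) := fun c => ssdUp_algebraMap E (M * q) c
  have hdeg : R'.deg = 1 := (isSepGen_jBar (M * q)).deg_eq_one R'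
  -- the values of `j` and `y`
  have key : ∀ (x : F) (xb : Fb), up x = xb → Transcendental Qb xb → x ∈ V → x⁻¹ ∈ V →
      (x - 1728)⁻¹ ∈ V → ∃ c : Qb, c ≠ 0 ∧ c ≠ 1728 ∧ 0 < R'.ord (xb - algebraMap Qb Fb c) := by
    intro x xb hx htr hxV hx0 hx1
    have hxb : xb ∈ R'.toValuationSubring := by rw [← hx, ← hmemV]; exact hxV
    obtain ⟨c, hc⟩ := embCount_exists_const R' hdeg ⟨xb, hxb⟩
    have hne : ∀ c' : Qb, xb - algebraMap Qb Fb c' ≠ 0 := by
      intro c' h0
      apply htr
      rw [sub_eq_zero] at h0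
      rw [h0]
      exact isAlgebraic_algebraMap c'
    have hne' : (⟨xb, hxb⟩ - algebraMap Qb R'.toValuationSubring c :
        R'.toValuationSubring) ≠ 0 := by
      intro h0
      apply hne c
      have := congrArg Subtype.val h0
      simpa using this
    have hpos : 0 < R'.ord (xb - algebraMap Qb Fb c) := by
      have := (PlaceOrd.ord_pos_iff_mem_maximalIdeal R' hne').2 hc
      simpa using this
    refine ⟨c, ?_, ?_, hpos⟩
    · rintro rfl
      rw [map_zero, sub_zero] at hpos
      have hxb0 : xb ≠ 0 := by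
        intro h0
        have := hne 0
        rw [map_zero, sub_zero] at this
        exact this h0
      rw [PlaceOrd.ord_pos_iff R' hxb0] at hpos
      apply hpos
      rw [← hx, ← map_inv₀, ← hmemV]
      exact hx0
    · rintro rfl
      have h1728 : algebraMap Qb Fb 1728 = 1728 := map_ofNat _ 1728
      rw [h1728] at hpos
      have hxb0 : xb - 1728 ≠ 0 := by
        have := hne 1728
        rwa [h1728] at this
      rw [PlaceOrd.ord_pos_iff R' hxb0] at hpos
      apply hpos
      have : xb - 1728 = up (x - 1728) := by rw [map_sub, hx, map_ofNat]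
      rw [this, ← map_inv₀, ← hmemV]
      exact hx1
  have htrj : Transcendental Qb (jBar (M * q)) := transcendental_jBar (M * q)
  have htry : Transcendental Qb (heckeBetaBar Qb M q (jBar M)) := by
    intro halg
    apply transcendental_jBar M
    exact (isAlgebraic_algHom_iff (heckeBetaBar Qb M q)
      (heckeBetaBar Qb M q).toRingHom.injective).1 halg
  obtain ⟨a, ha0, ha, hva⟩ := key j _ hupj htrj hj hj0 hj1
  obtain ⟨b, hb0, hb, hvb⟩ := key y _ hupy htry hy hy0 hy1
  -- transport of `Φ`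
  have hΦ' := congrArg up hΦ
  rw [sqgd_map_eval₂ (algebraMap E Qb) up hupc, map_zero, hupj, hupy] at hΦ'
  obtain ⟨hiff, hord⟩ := sqgd_ord_partial_beta M hqM a b ha0 ha hb0 hb R' hva hvb
    (Φ.map (mapRingHom (algebraMap E Qb))) hΦ'
  rw [sqgdDX_map, sqgd_derivative_map, ← hupj, ← hupy,
    ← sqgd_map_eval₂ (algebraMap E Qb) up hupc,
    ← sqgd_map_eval₂ (algebraMap E Qb) up hupc] at hiff hord
  set P₁ := (sqgdDX Φ).eval₂ ((aeval j : (↥E)[X] →ₐ[E] F) : (↥E)[X] →+* F) y with hP₁
  set P₂ := (derivative Φ).eval₂ ((aeval j : (↥E)[X] →ₐ[E] F) : (↥E)[X] →+* F) y with hP₂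
  rw [hmemV, hmemV, map_mul, map_mul, map_inv₀, map_inv₀]
  by_cases h1 : up P₁ = 0
  · rw [h1, hiff.1 h1]
    simp only [zero_mul]
    exact ⟨R'.toValuationSubring.zero_mem, R'.toValuationSubring.zero_mem⟩
  · have h2 : up P₂ ≠ 0 := fun h => h1 (hiff.2 h)
    constructor
    · apply PlaceOrd.mem_of_ord_nonneg
      rw [R'.ord_mul h1 (inv_ne_zero h2), R'.ord_inv, hord]
      omega
    · apply PlaceOrd.mem_of_ord_nonneg
      rw [R'.ord_mul h2 (inv_ne_zero h1), R'.ord_inv, hord]
      omega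

end Fermat.Agent.SQ
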