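import Mathlib
import Fermat.Agent.SQ.Germ.DerivE
import Fermat.Agent.SQ.Germ.DerivNode
import Fermat.Agent.SS.Germ.IntPhi

/-!
# Program Q (S36), R1 team, leaf (K), modular part (prefix `sqgk`)

Level `q M` (`q ∤ M`), `A₀ = 𝔸 ∩ E`, `F₁ = F_E(M q)`, chart `t = j`, `P₁ = s18tInt A₀ j`,
`y = j_q = j(𝐪^q)`, the two components `V₁ ∋ y - j^q`, `V₂ ∋ y^q - j` (`SsvTwo`).

* `sqgk_on_or` (abstract) : a prime `𝔫 ∋ ϖ` of `P` contains `𝔭₁` or `𝔭₂`;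
* `sqgk_natCast_mem` : `q ∈ 𝔫₁`;
* `sqgk_y_not_mem` : `j - c ∉ 𝔫₁ ⟹ j_q - c ∉ 𝔫₁` for `c ∈ ℕ` (`c = 0, 1728`);
* **`sqgk_hor`** : for `g ∈ F₁` with `g · (q · Φ_Y(j, j_q)) = - Φ_X(j, j_q)` (`Φ ∈ E[X][Y]`,
  `Φ(j, j_q) = 0`, `Φ_Y(j, j_q) ≠ 0`), i.e. `g = (1/q) dj_q/dj`, and a prime `𝔫₁ ∋ ϖ` of `P₁` with
  `j, j - 1728 ∉ 𝔫₁` : `SqgkHor E j 𝔫₁ g` (`g` is a unit at every place of `F₁ / E` centred in `𝔫₁`);
* `sqgk_node_modular` : `sqgk_node` for this `g`.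
-/

set_option autoImplicit false
set_option linter.unusedSectionVars false
set_option linter.unusedVariables false
set_option linter.style.haveILetI false

noncomputable section

namespace Fermat.Agent.SQ

open Fermat.Agent.S24 Fermat.Agent.S18 Fermat.Agent.G Fermat.Agent.SS AlgebraicCurve ModularCurve
  Polynomial IntermediateField

local notation "Qb" => AlgebraicClosure ℚ

universe u

section Abs

variable {A : Type*} [CommRing A] [IsDomain A] [IsDiscreteValuationRing A] [CharZero A]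
variable {L : Type*} [Field L] [Algebra A L] [IsFractionRing A L]
variable {F : Type u} [Field F] [Algebra A F] [Algebra L F] [IsScalarTower A L F]
variable {ϖ : A} {t : F} {𝔫 : Ideal ↥(s18tInt A t)} {V₁ V₂ : ValuationSubring F} {u₁ u₂ : F}

/-- a prime of `P` containing `ϖ` contains `𝔭₁` or `𝔭₂` (element form) -/
theorem sqgk_on_or (hϖ : Irreducible ϖ) (ht : Transcendental L t) [FiniteDimensional L⟮t⟯ F]
    (h2 : SsvTwo hϖ t u₁ u₂ V₁ V₂) [h𝔫 : 𝔫.IsPrime] (hϖ𝔫 : sskPi ϖ t ∈ 𝔫)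
    (a b : ↥(s18tInt A t)) (ha : (a : F) ∈ V₁.nonunits) (hb : (b : F) ∈ V₂.nonunits) :
    a ∈ 𝔫 ∨ b ∈ 𝔫 := by
  obtain ⟨hP₁, hP₂⟩ := sqgk_int_le hϖ h2
  have hab : S18DvdGauss hϖ t ((a : F) * (b : F)) :=
    (h2.dvd_iff _).mpr ⟨ssgr_nu_mul_left V₁ ha (hP₁ b.2), ssgr_nu_mul_right V₂ (hP₂ a.2) hb⟩
  obtain ⟨y, hy, hab'⟩ := hab
  have hyP : y ∈ s18tInt A t := by
    refine s18t_saturated (L := L) hϖ t ht y hy ?_
    rw [← hab']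
    exact (a * b).2
  have : a * b = sskPi ϖ t * ⟨y, hyP⟩ := Subtype.ext hab'
  have hmem : a * b ∈ 𝔫 := by
    rw [this]
    exact 𝔫.mul_mem_right _ hϖ𝔫
  exact h𝔫.mem_or_mem hmem

end Abs

/-- Frobenius bookkeeping in a commutative ring : `q ∈ 𝔫` prime, `y ≡ j^q` or `y^q ≡ j` modulo `𝔫`,
`j ≢ c` ⟹ `y ≢ c` (`c ∈ ℕ`). -/
theorem sqgk_frob_aux {R : Type*} [CommRing R] (𝔫 : Ideal R) [h𝔫 : 𝔫.IsPrime] {q : ℕ}
    (hq : q.Prime) (hq𝔫 : ((q : ℕ) : R) ∈ 𝔫) (j y : R) (c : ℕ)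
    (hor : y - j ^ q ∈ 𝔫 ∨ y ^ q - j ∈ 𝔫) (hj : j - (c : R) ∉ 𝔫) : y - (c : R) ∉ 𝔫 := by
  haveI : Fact q.Prime := ⟨hq⟩
  haveI : IsDomain (R ⧸ 𝔫) := Ideal.Quotient.isDomain 𝔫
  have hq0 : ((q : ℕ) : R ⧸ 𝔫) = 0 := by
    rw [← map_natCast (Ideal.Quotient.mk 𝔫) q]
    exact Ideal.Quotient.eq_zero_iff_mem.mpr hq𝔫
  haveI : CharP (R ⧸ 𝔫) q := (CharP.charP_iff_prime_eq_zero hq).mpr hq0
  have hcq : ((c : ℕ) : R ⧸ 𝔫) ^ q = c := by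
    have := map_natCast (frobenius (R ⧸ 𝔫) q) c
    rwa [frobenius_def] at this
  intro hy
  apply hj
  have hy' : Ideal.Quotient.mk 𝔫 y = c := by
    have := Ideal.Quotient.eq_zero_iff_mem.mpr hy
    rw [map_sub, map_natCast, sub_eq_zero] at this
    exact this
  rw [← Ideal.Quotient.eq_zero_iff_mem, map_sub, map_natCast, sub_eq_zero]
  rcases hor with h | h
  · have h' := Ideal.Quotient.eq_zero_iff_mem.mpr h
    rw [map_sub, map_pow, sub_eq_zero] at h'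
    have h3 : (Ideal.Quotient.mk 𝔫 j - c) ^ q = 0 := by
      rw [sub_pow_char, ← h', hy', hcq, sub_self]
    exact sub_eq_zero.mp ((pow_eq_zero_iff hq.ne_zero).mp h3)
  · have h' := Ideal.Quotient.eq_zero_iff_mem.mpr h
    rw [map_sub, map_pow, sub_eq_zero] at h'
    rw [← h', hy', hcq]

variable (𝔸 : ValuationSubring Qb) (E : IntermediateField ℚ Qb)
  [IsDiscreteValuationRing ↥(s18dVal 𝔸 E)] [CharZero ↥(s18dVal 𝔸 E)]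
variable (M : ℕ) [NeZero M] (q : ℕ) [Fact q.Prime] [NeZero q]

/-- `j` as an element of `P₁` -/
def sqgkJ : ↥(s18tInt ↥(s18dVal 𝔸 E) (ssvmdJ E (M * q))) :=
  ⟨ssvmdJ E (M * q), s18tc_self_mem_int _⟩

/-- `j_q` as an element of `P₁` -/
def sqgkY (hA : 𝔸.LiesOverPrime q) (hqM : ¬ q ∣ M) :
    ↥(s18tInt ↥(s18dVal 𝔸 E) (ssvmdJ E (M * q))) :=
  ⟨ssvmmY E M q, ssgq_jq_mem_int 𝔸 E M hA hqM⟩

/-- the inner partial derivative of `Φ` at `(j, j_q)` -/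
def sqgkPX (Φ : (↥E)[X][X]) : modularFunctionFieldFullC E (M * q) :=
  (sqgdDX Φ).eval₂ ((aeval (ssvmdJ E (M * q)) :
    (↥E)[X] →ₐ[E] modularFunctionFieldFullC E (M * q)) :
    (↥E)[X] →+* modularFunctionFieldFullC E (M * q)) (ssvmmY E M q)

/-- the outer partial derivative of `Φ` at `(j, j_q)` -/
def sqgkPY (Φ : (↥E)[X][X]) : modularFunctionFieldFullC E (M * q) :=
  (derivative Φ).eval₂ ((aeval (ssvmdJ E (M * q)) :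
    (↥E)[X] →ₐ[E] modularFunctionFieldFullC E (M * q)) :
    (↥E)[X] →+* modularFunctionFieldFullC E (M * q)) (ssvmmY E M q)

variable {q}

/-- `q ∈ 𝔫₁` -/
theorem sqgk_natCast_mem (hA : 𝔸.LiesOverPrime q) {ϖ : ↥(s18dVal 𝔸 E)} (hϖ : Irreducible ϖ)
    (𝔫₁ : Ideal ↥(s18tInt ↥(s18dVal 𝔸 E) (ssvmdJ E (M * q))))
    (hϖ𝔫 : sskPi ϖ (ssvmdJ E (M * q)) ∈ 𝔫₁) :
    ((q : ℕ) : ↥(s18tInt ↥(s18dVal 𝔸 E) (ssvmdJ E (M * q)))) ∈ 𝔫₁ := by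
  have hq_mem : ((q : ℕ) : ↥(s18dVal 𝔸 E)) ∈ IsLocalRing.maximalIdeal ↥(s18dVal 𝔸 E) :=
    s18d_natCast_mem 𝔸 E hA
  rw [hϖ.maximalIdeal_eq, Ideal.mem_span_singleton'] at hq_mem
  obtain ⟨c, hc⟩ := hq_mem
  have : ((q : ℕ) : ↥(s18tInt ↥(s18dVal 𝔸 E) (ssvmdJ E (M * q)))) =
      ⟨algebraMap ↥(s18dVal 𝔸 E) _ c, s18tc_algebraMap_mem_int _ c⟩ *
        sskPi ϖ (ssvmdJ E (M * q)) := by
    apply Subtype.ext
    show ((q : ℕ) : modularFunctionFieldFullC E (M * q)) =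
      algebraMap ↥(s18dVal 𝔸 E) _ c * algebraMap ↥(s18dVal 𝔸 E) _ ϖ
    rw [← map_mul, hc, map_natCast]
  rw [this]
  exact 𝔫₁.mul_mem_left _ hϖ𝔫

set_option maxHeartbeats 1000000 in
set_option synthInstance.maxHeartbeats 400000 in
/-- `j - c ∉ 𝔫₁ ⟹ j_q - c ∉ 𝔫₁` (`c ∈ ℕ`) -/
theorem sqgk_y_not_mem (hA : 𝔸.LiesOverPrime q) (hqM : ¬ q ∣ M) {ϖ : ↥(s18dVal 𝔸 E)}
    (hϖ : Irreducible ϖ) (ht : Transcendental E (ssvmdJ E (M * q)))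
    [FiniteDimensional E⟮ssvmdJ E (M * q)⟯ (modularFunctionFieldFullC E (M * q))]
    {V₁ V₂ : ValuationSubring (modularFunctionFieldFullC E (M * q))}
    (h2 : SsvTwo hϖ (ssvmdJ E (M * q)) (ssvmmY E M q - ssvmdJ E (M * q) ^ q)
      (ssvmmY E M q ^ q - ssvmdJ E (M * q)) V₁ V₂)
    (𝔫₁ : Ideal ↥(s18tInt ↥(s18dVal 𝔸 E) (ssvmdJ E (M * q)))) [h𝔫 : 𝔫₁.IsPrime]
    (hϖ𝔫 : sskPi ϖ (ssvmdJ E (M * q)) ∈ 𝔫₁) (c : ℕ)
    (hj : sqgkJ 𝔸 E M q - (c : ↥(s18tInt ↥(s18dVal 𝔸 E) (ssvmdJ E (M * q)))) ∉ 𝔫₁) :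
    sqgkY 𝔸 E M q hA hqM - (c : ↥(s18tInt ↥(s18dVal 𝔸 E) (ssvmdJ E (M * q)))) ∉ 𝔫₁ := by
  have hq : q.Prime := Fact.out
  set jP := sqgkJ 𝔸 E M q with hjP
  set yP := sqgkY 𝔸 E M q hA hqM with hyP
  -- the two coordinates as elements of `P₁`
  have hu₁ : ((yP - jP ^ q : ↥(s18tInt ↥(s18dVal 𝔸 E) (ssvmdJ E (M * q)))) :
      modularFunctionFieldFullC E (M * q)) ∈ V₁.nonunits := by
    have : ((yP - jP ^ q : ↥(s18tInt ↥(s18dVal 𝔸 E) (ssvmdJ E (M * q)))) :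
        modularFunctionFieldFullC E (M * q)) = ssvmmY E M q - ssvmdJ E (M * q) ^ q := by
      push_cast; rfl
    rw [this]; exact h2.mem₁
  have hu₂ : ((yP ^ q - jP : ↥(s18tInt ↥(s18dVal 𝔸 E) (ssvmdJ E (M * q)))) :
      modularFunctionFieldFullC E (M * q)) ∈ V₂.nonunits := by
    have : ((yP ^ q - jP : ↥(s18tInt ↥(s18dVal 𝔸 E) (ssvmdJ E (M * q)))) :
        modularFunctionFieldFullC E (M * q)) = ssvmmY E M q ^ q - ssvmdJ E (M * q) := by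
      push_cast; rfl
    rw [this]; exact h2.mem₂
  have hor := sqgk_on_or hϖ ht h2 hϖ𝔫 _ _ hu₁ hu₂
  exact sqgk_frob_aux 𝔫₁ hq (sqgk_natCast_mem 𝔸 E M hA hϖ 𝔫₁ hϖ𝔫) jP yP c hor hj

set_option maxHeartbeats 1600000 in
set_option synthInstance.maxHeartbeats 400000 in
/-- **(K), horizontal part** : `g = (1/q) dj_q/dj` is a unit at every place of `F_E(M q) / E`
centred in a closed point `𝔫₁ ∋ ϖ` of `P₁` with `j, j - 1728 ∉ 𝔫₁`. -/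
theorem sqgk_hor (hA : 𝔸.LiesOverPrime q) (hqM : ¬ q ∣ M) {ϖ : ↥(s18dVal 𝔸 E)}
    (hϖ : Irreducible ϖ) (ht : Transcendental E (ssvmdJ E (M * q)))
    [FiniteDimensional E⟮ssvmdJ E (M * q)⟯ (modularFunctionFieldFullC E (M * q))]
    {V₁ V₂ : ValuationSubring (modularFunctionFieldFullC E (M * q))}
    (h2 : SsvTwo hϖ (ssvmdJ E (M * q)) (ssvmmY E M q - ssvmdJ E (M * q) ^ q)
      (ssvmmY E M q ^ q - ssvmdJ E (M * q)) V₁ V₂)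
    (Φ : (↥E)[X][X])
    (hΦ : Φ.eval₂ ((aeval (ssvmdJ E (M * q)) : (↥E)[X] →ₐ[E] modularFunctionFieldFullC E (M * q)) :
        (↥E)[X] →+* modularFunctionFieldFullC E (M * q)) (ssvmmY E M q) = 0)
    (hPY : sqgkPY E M q Φ ≠ 0)
    (g : modularFunctionFieldFullC E (M * q)) (hg0 : g ≠ 0)
    (hg : g * (((q : ℕ) : modularFunctionFieldFullC E (M * q)) * sqgkPY E M q Φ) =
      - sqgkPX E M q Φ)
    (𝔫₁ : Ideal ↥(s18tInt ↥(s18dVal 𝔸 E) (ssvmdJ E (M * q)))) [h𝔫 : 𝔫₁.IsPrime]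
    (hϖ𝔫 : sskPi ϖ (ssvmdJ E (M * q)) ∈ 𝔫₁)
    (hj0 : sqgkJ 𝔸 E M q ∉ 𝔫₁)
    (hj1 : sqgkJ 𝔸 E M q -
      ((1728 : ℕ) : ↥(s18tInt ↥(s18dVal 𝔸 E) (ssvmdJ E (M * q)))) ∉ 𝔫₁) :
    SqgkHor E (ssvmdJ E (M * q)) 𝔫₁ g := by
  intro V hV hle hc
  have hcen : ∀ p : ↥(s18tInt ↥(s18dVal 𝔸 E) (ssvmdJ E (M * q))),
      (p : modularFunctionFieldFullC E (M * q)) ∈ V.nonunits → p ∈ 𝔫₁ := fun p hp => hc hp
  have hunit : ∀ p : ↥(s18tInt ↥(s18dVal 𝔸 E) (ssvmdJ E (M * q))), p ∉ 𝔫₁ →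
      (p : modularFunctionFieldFullC E (M * q)) ∈ V ∧
        (p : modularFunctionFieldFullC E (M * q))⁻¹ ∈ V := by
    intro p hp
    have h1 := sqgk_val_eq_one V hle hcen hp
    refine ⟨hle p.2, ?_⟩
    rw [← V.valuation_le_one_iff, map_inv₀, h1, inv_one]
  have hj0' : sqgkJ 𝔸 E M q -
      ((0 : ℕ) : ↥(s18tInt ↥(s18dVal 𝔸 E) (ssvmdJ E (M * q)))) ∉ 𝔫₁ := by
    rwa [Nat.cast_zero, sub_zero]
  have hy0 := sqgk_y_not_mem 𝔸 E M hA hqM hϖ ht h2 𝔫₁ hϖ𝔫 0 hj0'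
  have hy1 := sqgk_y_not_mem 𝔸 E M hA hqM hϖ ht h2 𝔫₁ hϖ𝔫 1728 hj1
  rw [Nat.cast_zero, sub_zero] at hy0
  have e1 : ((sqgkJ 𝔸 E M q - ((1728 : ℕ) : ↥(s18tInt ↥(s18dVal 𝔸 E) (ssvmdJ E (M * q)))) :
      ↥(s18tInt ↥(s18dVal 𝔸 E) (ssvmdJ E (M * q)))) : modularFunctionFieldFullC E (M * q)) =
      ssvmdJ E (M * q) - 1728 := by
    push_cast; rfl
  have e2 : ((sqgkY 𝔸 E M q hA hqM -
      ((1728 : ℕ) : ↥(s18tInt ↥(s18dVal 𝔸 E) (ssvmdJ E (M * q)))) :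
      ↥(s18tInt ↥(s18dVal 𝔸 E) (ssvmdJ E (M * q)))) : modularFunctionFieldFullC E (M * q)) =
      ssvmmY E M q - 1728 := by
    push_cast; rfl
  have hJ := hunit _ hj0
  have hJ1 := hunit _ hj1
  have hY := hunit _ hy0
  have hY1 := hunit _ hy1
  rw [e1] at hJ1
  rw [e2] at hY1
  obtain ⟨H1, H2⟩ := sqgd_horizontal E M hqM Φ hΦ V hV hJ.1 hJ.2 hJ1.2 hY.1 hY.2 hY1.2
  change sqgkPX E M q Φ * (sqgkPY E M q Φ)⁻¹ ∈ V at H1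
  change sqgkPY E M q Φ * (sqgkPX E M q Φ)⁻¹ ∈ V at H2
  have hq0 : ((q : ℕ) : modularFunctionFieldFullC E (M * q)) ≠ 0 :=
    Nat.cast_ne_zero.mpr (NeZero.ne q)
  have hqV : ((q : ℕ) : modularFunctionFieldFullC E (M * q)) ∈ V := by
    have := hV.2 ((q : ℕ) : E)
    rwa [map_natCast] at this
  have hqiV : ((q : ℕ) : modularFunctionFieldFullC E (M * q))⁻¹ ∈ V := by
    have := hV.2 (((q : ℕ) : E)⁻¹)
    rwa [map_inv₀, map_natCast] at this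
  have hPX : sqgkPX E M q Φ ≠ 0 := by
    intro h0
    rw [h0, neg_zero] at hg
    rcases mul_eq_zero.mp hg with h | h
    · exact hg0 h
    · exact (mul_ne_zero hq0 hPY) h
  have eg : g = -(sqgkPX E M q Φ * (sqgkPY E M q Φ)⁻¹) *
      ((q : ℕ) : modularFunctionFieldFullC E (M * q))⁻¹ := by
    field_simp
    linear_combination hg
  have egi : g⁻¹ = -(sqgkPY E M q Φ * (sqgkPX E M q Φ)⁻¹) *
      ((q : ℕ) : modularFunctionFieldFullC E (M * q)) := by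
    rw [eg]
    field_simp
  constructor
  · rw [eg]
    exact V.mul_mem _ _ (V.neg_mem _ H1) hqiV
  · rw [egi]
    exact V.mul_mem _ _ (V.neg_mem _ H2) hqV

end Fermat.Agent.SQ
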