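import Mathlib
import Fermat.Agent.SQ.Germ.DerivUnit
import Fermat.Agent.SQ.Germ.DerivComap
import Fermat.Agent.SQ.Germ.DerivVert

/-!
# Program Q (S36), R1 team, leaf (K), concrete form for `g = g_j = sqgvG E M q` (prefix `sqgk`)

`g = φ(θ j) / θ j = (1/q) dj_q/dj ∈ F_E(M q)` (helper3's `sqgvG`), `A₀ = 𝔸 ∩ E`, `q ∤ M`,
`P₁ = s18tInt A₀ j`, `𝔫₁` a prime of `P₁` containing `ϖ` with `j ∉ 𝔫₁`, `j - 1728 ∉ 𝔫₁`
(non-elliptic `j`-value).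

* `sqgk_DX_eq` : `sqvtDX = sqgdDX` (the two inner partial derivatives agree);
* `sqgk_coe_eval₂` : evaluation at `(j, j_q)` in `F_E(M q)` versus `sqvtEv` in `E((𝐪))`;
* `sqgk_G_formula` : `g · (q · Φ_Y(j, j_q)) = - Φ_X(j, j_q)` in `F_E(M q)`;
* **`sqgk_G_hor`** : `SqgkHor E j 𝔫₁ g` : `g` is a unit at every place of `F_E(M q) / E` centred in
  `𝔫₁`;
* `sqgk_G_val₂` : `V₂(ϖ² g) = 1` when `q` is a uniformiser of `A₀` (`E` unramified at `𝔸`);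
* **`sqgk_G_inLoc`** (T2') : at a point not on the second component, `g, g⁻¹ ∈ (P₁)_{𝔫₁}`;
* **`sqgk_G_cross`** (T1') : `γ := g⁻¹` satisfies `γ ≠ 0`, `γ, γ⁻¹ ∈ V₁`, `γ = ϖ² ε` with
  `ε, ε⁻¹ ∈ V₂`, `γ ∈ (P₁)_{𝔫₁}`, and `γ, γ⁻¹` lie in every place centred in `𝔫₁`.
-/

set_option autoImplicit false
set_option linter.unusedSectionVars false
set_option linter.unusedVariables false
set_option linter.style.haveILetI false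
set_option synthInstance.maxHeartbeats 400000

noncomputable section

namespace Fermat.Agent.SQ

open Fermat.Agent.S24 Fermat.Agent.S18 Fermat.Agent.G Fermat.Agent.SS AlgebraicCurve ModularCurve
  Polynomial IntermediateField IsLocalRing

local notation "Qb" => AlgebraicClosure ℚ

section Abs

variable {R : Type*} [CommRing R]

/-- the two definitions of the inner partial derivative agree -/
theorem sqgk_DX_eq (Φ : R[X][X]) : sqvtDX Φ = sqgdDX Φ := by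
  ext1 i
  rw [sqgdDX_coeff]
  induction Φ using Polynomial.induction_on' with
  | add Φ Ψ hΦ hΨ => rw [map_add, coeff_add, hΦ, hΨ, coeff_add, map_add]
  | monomial n c =>
    rw [sqvtDX_monomial, coeff_monomial, coeff_monomial]
    split_ifs with h
    · rfl
    · rw [map_zero]

end Abs

section Coe

variable (K : Type*) [Field K] [CharZero K] (N ℓ : ℕ) [NeZero N] [NeZero ℓ]

/-- evaluation at `(j, j_ℓ)` : `F_K(N ℓ)` versus `K((𝐪))` -/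
theorem sqgk_coe_eval₂ (Ψ : K[X][X]) :
    ((Ψ.eval₂ ((aeval (ssvmdJ K (N * ℓ)) : K[X] →ₐ[K] modularFunctionFieldFullC K (N * ℓ)) :
        K[X] →+* modularFunctionFieldFullC K (N * ℓ)) (ssvmmY K N ℓ) :
        modularFunctionFieldFullC K (N * ℓ)) : LaurentSeries K) =
      sqvtEv (jqModC K) (qExpand K ℓ (jqModC K)) Ψ := by
  have h := sqgd_map_eval₂ (RingHom.id K)
    ((modularFunctionFieldFullC K (N * ℓ)).val : modularFunctionFieldFullC K (N * ℓ) →+*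
      LaurentSeries K) (fun c => rfl) Ψ (ssvmdJ K (N * ℓ)) (ssvmmY K N ℓ)
  rw [sqvtEv_apply]
  have e : Ψ.map (mapRingHom (RingHom.id K)) = Ψ := by
    have : mapRingHom (RingHom.id K) = RingHom.id K[X] := by
      ext <;> simp
    rw [this, Polynomial.map_id]
  rw [e] at h
  exact h

/-- **(V1) in `F_K(N ℓ)`** : `g · (ℓ · Φ_Y(j, j_ℓ)) = - Φ_X(j, j_ℓ)` -/
theorem sqgk_G_formula (Φ : K[X][X])
    (hΦ : Φ.eval₂ ((aeval (ssvmdJ K (N * ℓ)) : K[X] →ₐ[K] modularFunctionFieldFullC K (N * ℓ)) :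
        K[X] →+* modularFunctionFieldFullC K (N * ℓ)) (ssvmmY K N ℓ) = 0) :
    sqgvG K N ℓ * (((ℓ : ℕ) : modularFunctionFieldFullC K (N * ℓ)) *
      (derivative Φ).eval₂ ((aeval (ssvmdJ K (N * ℓ)) :
        K[X] →ₐ[K] modularFunctionFieldFullC K (N * ℓ)) :
        K[X] →+* modularFunctionFieldFullC K (N * ℓ)) (ssvmmY K N ℓ)) =
      -(sqgdDX Φ).eval₂ ((aeval (ssvmdJ K (N * ℓ)) :
        K[X] →ₐ[K] modularFunctionFieldFullC K (N * ℓ)) :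
        K[X] →+* modularFunctionFieldFullC K (N * ℓ)) (ssvmmY K N ℓ) := by
  have hroot : sqvtEv (jqModC K) (qExpand K ℓ (jqModC K)) Φ = 0 := by
    rw [← sqgk_coe_eval₂ K N ℓ Φ, hΦ]
    rfl
  have h := sqgvG_formula K N ℓ Φ hroot
  rw [sqgk_DX_eq, ← sqgk_coe_eval₂ K N ℓ (derivative Φ), ← sqgk_coe_eval₂ K N ℓ (sqgdDX Φ)] at h
  apply Subtype.ext
  push_cast
  exact h

end Coe

section Main

variable {q : ℕ} [Fact q.Prime] [NeZero q] (𝔸 : ValuationSubring Qb) (E : IntermediateField ℚ Qb)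
  [IsDiscreteValuationRing ↥(s18dVal 𝔸 E)] [CharZero ↥(s18dVal 𝔸 E)]
variable (M : ℕ) [NeZero M]

set_option maxHeartbeats 1600000 in
/-- **(K), horizontal part for `g = g_j`** -/
theorem sqgk_G_hor (hA : 𝔸.LiesOverPrime q) (hqM : ¬ q ∣ M) {ϖ : ↥(s18dVal 𝔸 E)}
    (hϖ : Irreducible ϖ) (ht : Transcendental E (ssvmdJ E (M * q)))
    [FiniteDimensional E⟮ssvmdJ E (M * q)⟯ (modularFunctionFieldFullC E (M * q))]
    {V₁ V₂ : ValuationSubring (modularFunctionFieldFullC E (M * q))}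
    (h2 : SsvTwo hϖ (ssvmdJ E (M * q)) (ssvmmY E M q - ssvmdJ E (M * q) ^ q)
      (ssvmmY E M q ^ q - ssvmdJ E (M * q)) V₁ V₂)
    (𝔫₁ : Ideal ↥(s18tInt ↥(s18dVal 𝔸 E) (ssvmdJ E (M * q)))) [h𝔫 : 𝔫₁.IsPrime]
    (hϖ𝔫 : sskPi ϖ (ssvmdJ E (M * q)) ∈ 𝔫₁)
    (hj0 : sqgkJ 𝔸 E M q ∉ 𝔫₁)
    (hj1 : sqgkJ 𝔸 E M q -
      ((1728 : ℕ) : ↥(s18tInt ↥(s18dVal 𝔸 E) (ssvmdJ E (M * q)))) ∉ 𝔫₁) :
    SqgkHor E (ssvmdJ E (M * q)) 𝔫₁ (sqgvG E M q) := by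
  obtain ⟨Φ₀, -, -, -, hroot, hY, -⟩ := sqgv_modular 𝔸 E hA hϖ
  set Φ : (↥E)[X][X] := Φ₀.map (mapRingHom (algebraMap ↥(s18dVal 𝔸 E) ↥E)) with hΦdef
  have hΦ : Φ.eval₂ ((aeval (ssvmdJ E (M * q)) :
      (↥E)[X] →ₐ[E] modularFunctionFieldFullC E (M * q)) :
      (↥E)[X] →+* modularFunctionFieldFullC E (M * q)) (ssvmmY E M q) = 0 := by
    apply Subtype.ext
    rw [sqgk_coe_eval₂ (↥E) M q Φ]
    exact hroot
  have hPY : sqgkPY E M q Φ ≠ 0 := by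
    intro h0
    apply hY
    rw [← sqgk_coe_eval₂ (↥E) M q (derivative Φ)]
    have : sqgkPY E M q Φ = (derivative Φ).eval₂ ((aeval (ssvmdJ E (M * q)) :
      (↥E)[X] →ₐ[E] modularFunctionFieldFullC E (M * q)) :
      (↥E)[X] →+* modularFunctionFieldFullC E (M * q)) (ssvmmY E M q) := rfl
    rw [← this, h0]
    rfl
  exact sqgk_hor 𝔸 E M hA hqM hϖ ht h2 Φ hΦ hPY (sqgvG E M q) (sqgvG_ne_zero (↥E) M q)
    (sqgk_G_formula (↥E) M q Φ hΦ) 𝔫₁ hϖ𝔫 hj0 hj1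

/-- `V₂(ϖ² g) = 1` from `V₂(q² g) = 1` when `q` is a uniformiser of `A₀` -/
theorem sqgk_val₂_unif {ϖ : ↥(s18dVal 𝔸 E)} (hϖ : Irreducible ϖ)
    (hqϖ : Associated ((q : ℕ) : ↥(s18dVal 𝔸 E)) ϖ)
    {V₂ : ValuationSubring (modularFunctionFieldFullC E (M * q))}
    (hA₂ : ∀ a : ↥(s18dVal 𝔸 E),
      algebraMap ↥(s18dVal 𝔸 E) (modularFunctionFieldFullC E (M * q)) a ∈ V₂)
    {g : modularFunctionFieldFullC E (M * q)}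
    (hg : V₂.valuation (((q : ℕ) : modularFunctionFieldFullC E (M * q)) ^ 2 * g) = 1) :
    V₂.valuation (algebraMap ↥(s18dVal 𝔸 E) (modularFunctionFieldFullC E (M * q)) ϖ ^ 2 * g)
      = 1 := by
  obtain ⟨u, hu⟩ := hqϖ
  -- `algebraMap u` is a unit of `V₂`
  have hu1 : V₂.valuation (algebraMap ↥(s18dVal 𝔸 E)
      (modularFunctionFieldFullC E (M * q)) (u : ↥(s18dVal 𝔸 E))) = 1 := by
    have h1 := (V₂.valuation_le_one_iff _).mpr (hA₂ (u : ↥(s18dVal 𝔸 E)))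
    have h2 := (V₂.valuation_le_one_iff _).mpr (hA₂ ((u⁻¹ : (↥(s18dVal 𝔸 E))ˣ) : ↥(s18dVal 𝔸 E)))
    have h3 : V₂.valuation (algebraMap ↥(s18dVal 𝔸 E)
        (modularFunctionFieldFullC E (M * q)) (u : ↥(s18dVal 𝔸 E))) *
        V₂.valuation (algebraMap ↥(s18dVal 𝔸 E)
          (modularFunctionFieldFullC E (M * q)) ((u⁻¹ : (↥(s18dVal 𝔸 E))ˣ) : ↥(s18dVal 𝔸 E)))
        = 1 := by
      rw [← map_mul, ← map_mul, ← Units.val_mul, mul_inv_cancel, Units.val_one, map_one, map_one]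
    refine le_antisymm h1 ?_
    calc (1 : _) = _ := h3.symm
      _ ≤ V₂.valuation (algebraMap ↥(s18dVal 𝔸 E)
          (modularFunctionFieldFullC E (M * q)) (u : ↥(s18dVal 𝔸 E))) * 1 :=
        mul_le_mul_right h2 _
      _ = _ := mul_one _
  have e : ((q : ℕ) : modularFunctionFieldFullC E (M * q)) *
      algebraMap ↥(s18dVal 𝔸 E) (modularFunctionFieldFullC E (M * q)) (u : ↥(s18dVal 𝔸 E)) =
      algebraMap ↥(s18dVal 𝔸 E) (modularFunctionFieldFullC E (M * q)) ϖ := by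
    rw [← hu, map_mul, map_natCast]
  rw [← e, mul_pow, mul_assoc, map_mul, map_pow, map_mul, map_pow, hu1, one_pow, one_mul,
    ← map_pow, ← map_mul]
  exact hg

set_option maxHeartbeats 1600000 in
/-- **(T2')** : at a closed point of level `q M` over a non-elliptic `j`-value which does NOT lie on
the second component, `g = g_j` is a unit of `(P₁)_{𝔫₁}`. -/
theorem sqgk_G_inLoc (hA : 𝔸.LiesOverPrime q) (hqM : ¬ q ∣ M) {ϖ : ↥(s18dVal 𝔸 E)}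
    (hϖ : Irreducible ϖ) (ht : Transcendental E (ssvmdJ E (M * q)))
    [FiniteDimensional E⟮ssvmdJ E (M * q)⟯ (modularFunctionFieldFullC E (M * q))]
    (hqϖ : Associated ((q : ℕ) : ↥(s18dVal 𝔸 E)) ϖ)
    (Ξ G : (↥(ssvmmR 𝔸 E M q))[X])
    (h : SsvAmb (ssvmmR 𝔸 E M q) (ssvmgRUnif (ssvmm_le E M q) ϖ) (ssvmmY E M q) Ξ
      (X - C (ssvmmJ 𝔸 E M q ^ q)) (X ^ q - C (ssvmmJ 𝔸 E M q)) G)
    (h2 : SsvTwo hϖ (ssvmdJ E (M * q)) (ssvmmY E M q - ssvmdJ E (M * q) ^ q)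
      (ssvmmY E M q ^ q - ssvmdJ E (M * q)) h.V₁ h.V₂)
    (𝔫₁ : Ideal ↥(s18tInt ↥(s18dVal 𝔸 E) (ssvmdJ E (M * q)))) (hmax : 𝔫₁.IsMaximal)
    (hϖ𝔫 : sskPi ϖ (ssvmdJ E (M * q)) ∈ 𝔫₁)
    (hj0 : sqgkJ 𝔸 E M q ∉ 𝔫₁)
    (hj1 : sqgkJ 𝔸 E M q -
      ((1728 : ℕ) : ↥(s18tInt ↥(s18dVal 𝔸 E) (ssvmdJ E (M * q)))) ∉ 𝔫₁)
    (s₀ : ↥(s18tInt ↥(s18dVal 𝔸 E) (ssvmdJ E (M * q))))
    (hs₀ : (s₀ : modularFunctionFieldFullC E (M * q)) ∈ h.V₂.nonunits) (hs₀𝔫 : s₀ ∉ 𝔫₁) :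
    SsnfInLoc (ssvmdJ E (M * q)) 𝔫₁ (sqgvG E M q) ∧
      SsnfInLoc (ssvmdJ E (M * q)) 𝔫₁ (sqgvG E M q)⁻¹ := by
  haveI : 𝔫₁.IsPrime := hmax.isPrime
  have hH := sqgk_G_hor 𝔸 E M hA hqM hϖ ht h2 𝔫₁ hϖ𝔫 hj0 hj1
  have hg₁ := sqgvG_val₁ 𝔸 E M hA hϖ Ξ G h
  have hg₂ := sqgk_val₂_unif 𝔸 E M hϖ hqϖ
    (fun a => (sqgk_int_le hϖ h2).2 (s18tc_algebraMap_mem_int _ a))
    (sqgvG_val₂ 𝔸 E M hA hqM hϖ Ξ G h)
  exact ⟨sqgk_inLoc_of_only hϖ ht hmax h2 hg₁ hg₂ hH s₀ hs₀ hs₀𝔫,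
    sqgk_inLoc_inv hϖ ht hmax h2 hg₁ hg₂ hH⟩

set_option maxHeartbeats 1600000 in
/-- **(T1')** : at a closed point of level `q M` over a non-elliptic `j`-value, `γ := g⁻¹` has
divisor `2·C₂` : `γ ∈ V₁ˣ`, `γ = ϖ² ε` with `ε ∈ V₂ˣ`, `γ ∈ (P₁)_{𝔫₁}`, `γ ∈ 𝔪_{V₂}`, and `γ` is a
unit at every place of `F_E(M q) / E` centred in `𝔫₁`. -/
theorem sqgk_G_cross (hA : 𝔸.LiesOverPrime q) (hqM : ¬ q ∣ M) {ϖ : ↥(s18dVal 𝔸 E)}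
    (hϖ : Irreducible ϖ) (ht : Transcendental E (ssvmdJ E (M * q)))
    [FiniteDimensional E⟮ssvmdJ E (M * q)⟯ (modularFunctionFieldFullC E (M * q))]
    (hqϖ : Associated ((q : ℕ) : ↥(s18dVal 𝔸 E)) ϖ)
    (Ξ G : (↥(ssvmmR 𝔸 E M q))[X])
    (h : SsvAmb (ssvmmR 𝔸 E M q) (ssvmgRUnif (ssvmm_le E M q) ϖ) (ssvmmY E M q) Ξ
      (X - C (ssvmmJ 𝔸 E M q ^ q)) (X ^ q - C (ssvmmJ 𝔸 E M q)) G)
    (h2 : SsvTwo hϖ (ssvmdJ E (M * q)) (ssvmmY E M q - ssvmdJ E (M * q) ^ q)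
      (ssvmmY E M q ^ q - ssvmdJ E (M * q)) h.V₁ h.V₂)
    (𝔫₁ : Ideal ↥(s18tInt ↥(s18dVal 𝔸 E) (ssvmdJ E (M * q)))) (hmax : 𝔫₁.IsMaximal)
    (hϖ𝔫 : sskPi ϖ (ssvmdJ E (M * q)) ∈ 𝔫₁)
    (hj0 : sqgkJ 𝔸 E M q ∉ 𝔫₁)
    (hj1 : sqgkJ 𝔸 E M q -
      ((1728 : ℕ) : ↥(s18tInt ↥(s18dVal 𝔸 E) (ssvmdJ E (M * q)))) ∉ 𝔫₁) :
    (sqgvG E M q)⁻¹ ≠ 0 ∧ (sqgvG E M q)⁻¹ ∈ h.V₁ ∧ ((sqgvG E M q)⁻¹)⁻¹ ∈ h.V₁ ∧
      (∃ ε : modularFunctionFieldFullC E (M * q), ε ∈ h.V₂ ∧ ε⁻¹ ∈ h.V₂ ∧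
        (sqgvG E M q)⁻¹ = algebraMap ↥(s18dVal 𝔸 E) (modularFunctionFieldFullC E (M * q)) ϖ ^ 2
          * ε) ∧
      SsnfInLoc (ssvmdJ E (M * q)) 𝔫₁ (sqgvG E M q)⁻¹ ∧
      (sqgvG E M q)⁻¹ ∈ h.V₂.nonunits ∧
      SqgkHor E (ssvmdJ E (M * q)) 𝔫₁ (sqgvG E M q)⁻¹ := by
  haveI : 𝔫₁.IsPrime := hmax.isPrime
  have hH := sqgk_G_hor 𝔸 E M hA hqM hϖ ht h2 𝔫₁ hϖ𝔫 hj0 hj1
  have hg₁ := sqgvG_val₁ 𝔸 E M hA hϖ Ξ G h
  have hg₂ := sqgk_val₂_unif 𝔸 E M hϖ hqϖ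
    (fun a => (sqgk_int_le hϖ h2).2 (s18tc_algebraMap_mem_int _ a))
    (sqgvG_val₂ 𝔸 E M hA hqM hϖ Ξ G h)
  exact sqgk_cross_abs hϖ ht hmax h2 hg₁ hg₂ hH

end Main

end Fermat.Agent.SQ
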