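import Mathlib
import Fermat.Agent.SQ.Germ.Wire
import Fermat.Agent.SQ.Germ.OfVal
import Fermat.Agent.SQ.Germ.Comp

/-!
# Program Q (S36), package SQ/Germ : `SqgHyp` IN THE CHART AT INFINITY (prefix `sqgwi`)

Setting of `SQ/Germ/Wire.lean` : `H : SqgwHyp hϖ₀ j α₁ φ₁ α φ ϖ t₀ t₁ t e₂ W₁ W₂ V₁ V₂ V₃ q`, the
valuation-level input in the AFFINE chart `t₀ ↦ t₁ ↦ t`.  The chart at infinity is `t₀⁻¹ ↦ t₁⁻¹ ↦ t⁻¹`;
there `φ` does not map the chart ring into itself (`chart₂` fails), so `surj₃` cannot come from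
`sqgs_surj`; it comes from `sqgcp_surj` and the congruence `t⁻¹ ≡ (β₂ t₀⁻¹)^{q²}` modulo `𝔪_{V₃}`.

* `sqgwi_three_inv` : `SqvThree` does not depend on the chart (`t ↦ t⁻¹`);
* `sqgwi_intLoc_inv` : the Gauss ring `s18tIntLoc A t (C ϖ)` does not depend on the chart;
* `SqgwHyp.cong₃` : `t - (β₂ t₀)^(q*q) ∈ 𝔪_{V₃}` from the level-`q` congruence
  `(φ₁ t₀)^q - α₁ t₀ ∈ 𝔪_{W₂}` and the two positions of `V₃`;
* `SqgwHyp.sqgHyp_inv` : **`SqgHyp hϖ₀ j (α ∘ α₁) (φ ∘ φ₁) ϖ t₀⁻¹ t⁻¹ e₂ V₁ V₂ V₃`** = the input `H` of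
  `sqgm_germ_simple` for the cusps; `SqgwHyp.sqgHyp_inv_of_three` : the same with `three'` derived from
  `SqvThree hϖ t …` in the affine chart.
-/

set_option autoImplicit false
set_option linter.unusedSectionVars false
set_option linter.unusedVariables false

noncomputable section

namespace Fermat.Agent.SQ

open Polynomial IntermediateField AlgebraicCurve Fermat.Agent.S18 Fermat.Agent.SS Fermat.Agent.G
  IsLocalRing

universe u u₀ u₁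

variable {A : Type*} [CommRing A] [IsDomain A] [IsDiscreteValuationRing A] [CharZero A]
variable {L : Type*} [Field L] [Algebra A L] [IsFractionRing A L]
variable {F : Type u} [Field F] [Algebra A F] [Algebra L F] [IsScalarTower A L F]
variable {A₀ : Type*} [CommRing A₀] [IsDomain A₀] [IsDiscreteValuationRing A₀] [CharZero A₀]
variable {L₀ : Type*} [Field L₀] [Algebra A₀ L₀] [IsFractionRing A₀ L₀]
variable {F₀ : Type u₀} [Field F₀] [Algebra A₀ F₀] [Algebra L₀ F₀] [IsScalarTower A₀ L₀ F₀]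
variable {F₁ : Type u₁} [Field F₁] [Algebra A F₁] [Algebra L F₁] [IsScalarTower A L F₁]
variable {ϖ : A} {t : F} {ϖ₀ : A₀} {t₀ : F₀} {t₁ : F₁}
variable {j : A₀ →+* A}
variable {α₁ φ₁ : F₀ →+* F₁} {α φ : F₁ →+* F} {e₂ q : ℕ} {V₁ V₂ V₃ : ValuationSubring F}
variable {W₁ W₂ : ValuationSubring F₁} {hϖ₀ : Irreducible ϖ₀}

include L in
/-- the Gauss ring does not depend on the chart -/
theorem sqgwi_intLoc_inv (hϖ : Irreducible ϖ) (t : F) (ht : Transcendental L t) :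
    s18tIntLoc A t⁻¹ (C ϖ) (s18t_prime_C hϖ) = s18tIntLoc A t (C ϖ) (s18t_prime_C hϖ) := by
  unfold s18tIntLoc
  rw [s18t_loc_inv (L := L) hϖ t ht]

include L in
/-- (VAL²) does not depend on the chart -/
theorem sqgwi_three_inv (hϖ : Irreducible ϖ) (t : F) (ht : Transcendental L t) {π₂ : F}
    (h : SqvThree hϖ t e₂ π₂ V₁ V₂ V₃) : SqvThree hϖ t⁻¹ e₂ π₂ V₁ V₂ V₃ :=
  { mem_iff := fun x => by
      rw [sqgwi_intLoc_inv (L := L) hϖ t ht]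
      exact h.mem_iff x
    unif₁ := h.unif₁
    unif₂ := h.unif₂
    unif₃ := h.unif₃
    e₂_ne := h.e₂_ne
    pow₂ := h.pow₂
    sep₁₂ := h.sep₁₂
    sep₂₁ := h.sep₂₁
    sep₁₃ := h.sep₁₃
    sep₃₁ := h.sep₃₁
    sep₂₃ := h.sep₂₃
    sep₃₂ := h.sep₃₂ }

namespace SqgwHyp

variable (H : SqgwHyp hϖ₀ j α₁ φ₁ α φ ϖ t₀ t₁ t e₂ W₁ W₂ V₁ V₂ V₃ q)
include H

include L in
/-- **`t ≡ (β₂ t₀)^{q²}` modulo `𝔪_{V₃}`** from the level-`q` congruence `α₁ t₀ ≡ (φ₁ t₀)^q` modulo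
`𝔪_{W₂}` : push it by `α` (`V₃ | W₂` along `α`) and by `φ` (`V₃ | W₂` along `φ`), `α ∘ φ₁ = φ ∘ α₁`. -/
theorem cong₃ (hϖ : Irreducible ϖ) (hcong : (φ₁ t₀) ^ q - α₁ t₀ ∈ W₂.nonunits) :
    t - ((φ.comp φ₁) t₀) ^ (q * q) ∈ V₃.nonunits := by
  have hφ₁t : φ₁ t₀ ∈ W₂ := by
    have h1 : φ₁ t₀ ∈ s18tInt A t₁ := by
      rw [← H.chartW]
      exact s18tc_self_mem_int _
    exact H.le₂ _ h1
  have hα₁t : α₁ t₀ ∈ W₂ := by
    rw [H.coord₁]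
    exact H.le₂ _ (s18tc_self_mem_int _)
  -- push by `α`
  have h1 : α ((φ₁ t₀) ^ q - α₁ t₀) ∈ V₃.nonunits := H.posα.nu_c _ hcong
  -- push by `φ`
  have h2 : φ ((φ₁ t₀) ^ q - α₁ t₀) ∈ V₃.nonunits := H.φ_nu₃ (L := L) hϖ hcong
  have hx : φ (φ₁ t₀) ^ q ∈ V₃ := V₃.pow_mem (H.posφ.mem_a _ hφ₁t) q
  have hy : φ (α₁ t₀) ∈ V₃ := H.posφ.mem_a _ hα₁t
  have h3 : (φ (φ₁ t₀) ^ q) ^ q - φ (α₁ t₀) ^ q ∈ V₃.nonunits := by
    refine ssgr_pow_sub_pow V₃ hx hy ?_ q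
    rw [map_sub, map_pow] at h2
    exact h2
  have e : t - ((φ.comp φ₁) t₀) ^ (q * q) =
      -(α ((φ₁ t₀) ^ q - α₁ t₀)) - ((φ (φ₁ t₀) ^ q) ^ q - φ (α₁ t₀) ^ q) := by
    rw [RingHom.comp_apply, map_sub, map_pow, H.comm, ← H.coord, ← H.coord₁, pow_mul]
    ring
  rw [e]
  exact ssgr_nu_sub V₃ (ssgr_nu_neg V₃ h1) h3

include L in
/-- **`SqgHyp` IN THE CHART AT INFINITY.** -/
theorem sqgHyp_inv (hϖ : Irreducible ϖ) (ht₀ : Transcendental L₀ t₀)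
    (three' : SqgaThree ϖ t⁻¹ e₂ V₁ V₂ V₃) (good' : GrdfbHyp hϖ₀ t₀⁻¹)
    (hcong : (φ₁ t₀) ^ q - α₁ t₀ ∈ W₂.nonunits) :
    SqgHyp hϖ₀ j (α.comp α₁) (φ.comp φ₁) ϖ t₀⁻¹ t⁻¹ e₂ V₁ V₂ V₃ := by
  have hO : s18tIntLoc A₀ t₀⁻¹ (C ϖ₀) (s18t_prime_C hϖ₀) =
      s18tIntLoc A₀ t₀ (C ϖ₀) (s18t_prime_C hϖ₀) := sqgwi_intLoc_inv (L := L₀) hϖ₀ t₀ ht₀
  have level' : SsgaLevel j (α.comp α₁) ϖ₀ ϖ t₀⁻¹ t⁻¹ :=
    ⟨H.level₀.compat, by rw [map_inv₀, H.level₀.coord], H.unif⟩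
  -- `t₀⁻¹ ∈ O₀`
  have ht₀O : t₀⁻¹ ∈ s18tIntLoc A₀ t₀ (C ϖ₀) (s18t_prime_C hϖ₀) := by
    rw [← hO]
    exact ssga_int_le_intLoc hϖ₀ t₀⁻¹ (s18tc_self_mem_int _)
  have ht₀O' : t₀ ∈ s18tIntLoc A₀ t₀ (C ϖ₀) (s18t_prime_C hϖ₀) :=
    ssga_int_le_intLoc hϖ₀ t₀ (s18tc_self_mem_int _)
  -- the congruence on the third component, in the chart at infinity
  have hcong₃ : t⁻¹ - (φ.comp φ₁) (aeval t₀⁻¹ (X ^ (q * q) : A₀[X])) ∈ V₃.nonunits := by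
    have h0 := H.cong₃ (L := L) hϖ hcong
    have htV : t ∈ V₃ := H.three.le₃ _ (s18tc_self_mem_int _)
    have htV' : t⁻¹ ∈ V₃ := three'.le₃ _ (s18tc_self_mem_int _)
    have hb : (φ.comp φ₁) t₀⁻¹ ∈ V₃ := H.posφ.mem_a _ (H.gaussφ₂ _ ht₀O)
    have ht0 : t ≠ 0 := by
      intro h
      -- `t = 0` : then `t₀ = 0`, impossible for a transcendental element
      have : t₀ = 0 := by
        have h1 := H.level₀.coord
        rw [h] at h1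
        exact (map_eq_zero _).mp h1
      exact ht₀ (this ▸ isAlgebraic_zero)
    have hb0 : (φ.comp φ₁) t₀ ≠ 0 := by
      rw [Ne, map_eq_zero]
      intro h
      exact ht₀ (h ▸ isAlgebraic_zero)
    rw [aeval_X_pow, map_pow, map_inv₀]
    have k1 : t⁻¹ * t = 1 := inv_mul_cancel₀ ht0
    have k2 : ((φ.comp φ₁) t₀)⁻¹ ^ (q * q) * ((φ.comp φ₁) t₀) ^ (q * q) = 1 := by
      rw [← mul_pow, inv_mul_cancel₀ hb0, one_pow]
    have e : t⁻¹ - ((φ.comp φ₁) t₀)⁻¹ ^ (q * q) =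
        -(t⁻¹ * ((φ.comp φ₁) t₀)⁻¹ ^ (q * q) * (t - ((φ.comp φ₁) t₀) ^ (q * q))) := by
      linear_combination (-t⁻¹) * k2 + ((φ.comp φ₁) t₀)⁻¹ ^ (q * q) * k1
    rw [e]
    refine ssgr_nu_neg V₃ (ssgr_nu_mul_right V₃ (V₃.mul_mem _ _ htV' ?_) h0)
    rw [← map_inv₀]
    exact V₃.pow_mem hb _
  refine
    { level := level'
      compat₂ := H.level₂.compat
      three := three'
      good := good'
      surj₁ := sqgs_surj hϖ₀ level' good' H.hres V₁ three'.le₁ three'.unif₁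
        (fun x hx => H.posα.mem_a _ (H.gaussα₁ x (hO ▸ hx))) (fun x hx => ?_)
      surj₂ := sqgs_surj hϖ₀ level' good' H.hres V₂ three'.le₂ three'.unif₂
        (fun x hx => H.posα.mem_b _ (H.gaussα₁ x (hO ▸ hx))) (fun x hx => ?_)
      surj₃ := sqgcp_surj hϖ₀ H.level₂.compat H.unif good' H.hres V₃ three'.le₃ three'.unif₃
        (fun x hx => H.posφ.mem_a _ (H.gaussφ₂ x (hO ▸ hx))) (fun x hx => ?_)
        (X ^ (q * q)) hcong₃ }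
  · obtain ⟨r, hr, hxr⟩ := H.vres₁ (L := L) hϖ x hx
    exact ⟨r, hO ▸ hr, hxr⟩
  · obtain ⟨r, hr, hxr⟩ := H.vres₂ (L := L) hϖ x hx
    exact ⟨r, hO ▸ hr, hxr⟩
  · obtain ⟨r, hr, hxr⟩ := H.vres₃ (L := L) hϖ x hx
    exact ⟨r, hO ▸ hr, hxr⟩

end SqgwHyp

/-! ### transcendence and finiteness for `t⁻¹` (copies of `ssgtop_transc_inv`, `ssgtop_fin_inv`) -/

section Inv

variable {K E : Type*} [Field K] [Field E] [Algebra K E]

theorem sqgwi_transc_inv {t : E} (h : Transcendental K t) : Transcendental K t⁻¹ := by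
  intro h'
  apply h
  have := h'.inv
  rwa [inv_inv] at this

theorem sqgwi_adjoin_inv (t : E) : K⟮t⁻¹⟯ = K⟮t⟯ := by
  apply le_antisymm
  · rw [IntermediateField.adjoin_simple_le_iff]
    exact inv_mem (IntermediateField.mem_adjoin_simple_self K t)
  · rw [IntermediateField.adjoin_simple_le_iff]
    have := inv_mem (IntermediateField.mem_adjoin_simple_self K t⁻¹)
    rwa [inv_inv] at this

theorem sqgwi_fin_inv (t : E) [h : FiniteDimensional K⟮t⟯ E] : FiniteDimensional K⟮t⁻¹⟯ E := by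
  rw [sqgwi_adjoin_inv]
  exact h

end Inv

include L in
/-- **`SqgHyp` IN THE CHART AT INFINITY, from (VAL²) in the affine chart** : `three'` is derived from
`SqvThree hϖ t …` (chart independence + `sqgv_three`). -/
theorem SqgwHyp.sqgHyp_inv_of_three
    (H : SqgwHyp hϖ₀ j α₁ φ₁ α φ ϖ t₀ t₁ t e₂ W₁ W₂ V₁ V₂ V₃ q) (hϖ : Irreducible ϖ)
    (ht₀ : Transcendental L₀ t₀) (ht : Transcendental L t) [FiniteDimensional L⟮t⟯ F] {π₂ : F}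
    (three : SqvThree hϖ t e₂ π₂ V₁ V₂ V₃) (good' : GrdfbHyp hϖ₀ t₀⁻¹)
    (hcong : (φ₁ t₀) ^ q - α₁ t₀ ∈ W₂.nonunits) :
    SqgHyp hϖ₀ j (α.comp α₁) (φ.comp φ₁) ϖ t₀⁻¹ t⁻¹ e₂ V₁ V₂ V₃ := by
  have := sqgwi_fin_inv (K := L) t
  exact H.sqgHyp_inv (L := L) hϖ ht₀
    (sqgv_three hϖ t⁻¹ (sqgwi_transc_inv ht) (sqgwi_three_inv (L := L) hϖ t ht three)) good' hcong

end Fermat.Agent.SQ
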