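import Mathlib
import Fermat.Agent.SQ.Germ.CrossConc
import Fermat.Agent.SQ.Germ.DerivUnitXOrd
import Fermat.Agent.SQ.Conc.AmbTwo
import Fermat.Agent.SS.Geo.NewtonPhi
import Fermat.Agent.SS.Germ.Close
import Fermat.Agent.SS.Germ.Base

/-!
# Program Q, R1 (thickness one) : (T1) AT LEVEL `M q`, FINAL FORM (prefix `sqgtf`)

`CrossConc.lean` (`sqgtc_hT1`, horizontal part of (K) as a hypothesis) with the horizontal part
discharged by helper15's `sqgkx_sqgkHor_of_mem` ((K-x), `E` a number field, auxiliary primes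
`r ≡ 2 (3)`, `r' ≡ 3 (4)` dividing `M`).

* `sqgtf_perfect` : the residue field of `A₀ = 𝔸 ∩ E` is perfect;
* `sqgtf_hor` : the horizontal part of (K) at a closed point on both components, from the
  non-cuspidality `j, j_q ∈ (P₁)_𝔫₁`;
* `sqgtf_T1` : **(T1), chart-generic** (`S18Coord`, `GrdfbHyp`, `SsvTwo`, `θ s̄ ≠ 0`, non-cuspidality
  `hnc` as a named hypothesis);
* `sqgtf_T1_j` : **(T1) for the chart `j`** (`q ≥ 5`, `ζ_{6M} ∈ E`), literally helper14's slot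
  `SqccT1 𝔸 E M q (ssdJ E M)` unfolded.
-/

set_option autoImplicit false
set_option linter.unusedSectionVars false
set_option linter.unusedVariables false
set_option linter.style.haveILetI false
set_option synthInstance.maxHeartbeats 400000

noncomputable section

namespace Fermat.Agent.SQ

open Polynomial ModularCurve AlgebraicCurve IntermediateField IsLocalRing Fermat.Agent.S18
  Fermat.Agent.SS Fermat.Agent.G

local notation "Qb" => AlgebraicClosure ℚ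

/-! ### `θ h̄_a ≠ 0` -/

section ThetaH

variable {A₀ : Type*} [CommRing A₀] [IsDomain A₀] [IsDiscreteValuationRing A₀] [CharZero A₀]
variable {L₀ : Type*} [Field L₀] [Algebra A₀ L₀] [IsFractionRing A₀ L₀]

/-- the reduction of the Hauptmodul `h_a = 𝐪⁻¹ + …` has `θ h̄_a ≠ 0` (coefficient of `𝐪⁻¹`). -/
theorem sqgtf_theta_h_ne_zero (F : IntermediateField L₀ (LaurentSeries L₀)) (a : ℕ) [NeZero a]
    (e : ℕ) (hmem : s18hq a e L₀ ∈ F)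
    (hO : (⟨s18hq a e L₀, hmem⟩ : ↥F) ∈ s18vO A₀ F) :
    sqvtTheta (ResidueField A₀) (s18vcRed F ⟨⟨s18hq a e L₀, hmem⟩, hO⟩) ≠ 0 := by
  have hred : s18vcRed F ⟨⟨s18hq a e L₀, hmem⟩, hO⟩ = s18hq a e (ResidueField A₀) := by
    rw [s18vcRed_incl F _ (s18hq a e A₀) (s18hk_coeffMap_hq _ a e).symm]
    exact s18hk_coeffMap_hq _ a e
  rw [hred]
  intro h0
  have h1 := congrArg (fun f : LaurentSeries (ResidueField A₀) => f.coeff (-1 : ℤ)) h0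
  simp only [sqvtTheta_coeff, s18hk_coeff_hq_neg_one, HahnSeries.coeff_zero, mul_one] at h1
  have h2 : ((-1 : ℤ) : ResidueField A₀) = -1 := by push_cast; ring
  rw [h2, neg_eq_zero] at h1
  exact one_ne_zero h1

end ThetaH

section Fin

variable {q : ℕ} [Fact q.Prime] [NeZero q] (𝔸 : ValuationSubring Qb) (E : IntermediateField ℚ Qb)
  [FiniteDimensional ℚ E]
  [IsDiscreteValuationRing ↥(s18dVal 𝔸 E)] [CharZero ↥(s18dVal 𝔸 E)] (M : ℕ) [NeZero M]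
variable {ϖ : ↥(s18dVal 𝔸 E)} {Ξ G : (↥(ssvmmR 𝔸 E M q))[X]}
  (h : SsvAmb (ssvmmR 𝔸 E M q) (ssvmgRUnif (ssvmm_le E M q) ϖ) (ssvmmY E M q) Ξ
    (X - C (ssvmmJ 𝔸 E M q ^ q)) (X ^ q - C (ssvmmJ 𝔸 E M q)) G)

set_option quotPrecheck false in
local notation "R₀" => ↥(s18dVal 𝔸 E)
set_option quotPrecheck false in
local notation "F₀" => ↥(modularFunctionFieldFullC E M)
set_option quotPrecheck false in
local notation "F₁" => ↥(modularFunctionFieldFullC E (M * q))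
set_option quotPrecheck false in
local notation "α₁" => ((ssvmdIncl E M q : modularFunctionFieldFullC E M →ₐ[E]
  modularFunctionFieldFullC E (M * q)) : modularFunctionFieldFullC E M →+*
  modularFunctionFieldFullC E (M * q))
set_option quotPrecheck false in
local notation "φ₁" => ssvmfPhi E M q

/-- the residue field of `A₀ = 𝔸 ∩ E` is perfect -/
theorem sqgtf_perfect (hA : 𝔸.LiesOverPrime q) (hϖ : Irreducible ϖ) :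
    PerfectField (ResidueField R₀) := by
  haveI : CharP (ResidueField R₀) q := s18v_charP hϖ (s18d_natCast_mem 𝔸 E hA)
  haveI : ExpChar (ResidueField R₀) q := ExpChar.prime Fact.out
  haveI : PerfectRing (ResidueField R₀) q :=
    PerfectRing.ofSurjective _ q (ssgfl_frobenius_surjective_dVal 𝔸 E q)
  exact PerfectRing.toPerfectField _ q

set_option maxHeartbeats 2000000 in
/-- **the horizontal part of (K)** at a closed point `𝔫₁` on both components (helper15's (K-x)). -/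
theorem sqgtf_hor (hqM : ¬ q ∣ M) (hϖ : Irreducible ϖ) [PerfectField (ResidueField R₀)]
    (r : ℕ) (hr : r.Prime) (hrM : r ∣ M) (hr3 : r % 3 = 2)
    (r' : ℕ) (hr' : r'.Prime) (hr'M : r' ∣ M) (hr4 : r' % 4 = 3)
    (s : F₀) (ht₀ : Transcendental E s)
    [FiniteDimensional E⟮s⟯ (modularFunctionFieldFullC E M)]
    (H : SsgiHyp hϖ (RingHom.id R₀) α₁ φ₁ ϖ s (ssvmdIncl E M q s) h.V₁ h.V₂ q)
    (hαP : ∀ b ∈ s18tInt R₀ s, α₁ b ∈ s18tInt R₀ (ssvmdIncl E M q s))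
    (hφP : ∀ b ∈ s18tInt R₀ s, φ₁ b ∈ s18tInt R₀ (ssvmdIncl E M q s))
    {𝔫₁ : Ideal ↥(s18tInt R₀ (ssvmdIncl E M q s))} (hmax : 𝔫₁.IsMaximal)
    (hon₁ : SqgaOn (ssvmdIncl E M q s) 𝔫₁ h.V₁) (hon₂ : SqgaOn (ssvmdIncl E M q s) 𝔫₁ h.V₂)
    (hj𝔫 : SsnfInLoc (ssvmdIncl E M q s) 𝔫₁ (ssdJ E (M * q)))
    (hy𝔫 : SsnfInLoc (ssvmdIncl E M q s) 𝔫₁ (ssvmfPhi E M q (ssdJ E M)))
    {p π' a : ↥(s18tInt R₀ s)}
    (P : SqgtpParams ϖ s (ssvmdIncl E M q s) α₁ φ₁ h.V₁ q 𝔫₁ hαP hφP p π' a) :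
    SqgciHor E (ssvmdIncl E M q s) 𝔫₁ (sqgvGxy E M q (p : F₀) (π' : F₀)) ∧
      SqgciHor E (ssvmdIncl E M q s) 𝔫₁ (sqgvGxy E M q (p : F₀) (π' : F₀))⁻¹ := by
  haveI h𝔫₁ : 𝔫₁.IsPrime := hmax.isPrime
  have hpts := sqgtc_points H hαP hφP hmax hon₁ hon₂
  have hϖ𝔫 : sskPi ϖ (ssvmdIncl E M q s) ∈ 𝔫₁ := hon₁ _ H.two.unif₁
  have h1α : (1 : ↥(s18tInt R₀ s)) ∉ 𝔫₁.comap (sqgtpMap α₁ hαP) := fun h1 =>
    hpts.1.ne_top ((Ideal.eq_top_iff_one _).mpr h1)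
  have h1φ : (1 : ↥(s18tInt R₀ s)) ∉ 𝔫₁.comap (sqgtpMap φ₁ hφP) := fun h1 =>
    hpts.2.1.ne_top ((Ideal.eq_top_iff_one _).mpr h1)
  have hgen : ∀ y ∈ 𝔫₁.comap (sqgtpMap α₁ hαP), ∃ s' : ↥(s18tInt R₀ s),
      s' ∉ 𝔫₁.comap (sqgtpMap α₁ hαP) ∧ ∃ a b : ↥(s18tInt R₀ s),
        (s' : F₀) * (y : F₀) = (a : F₀) * algebraMap R₀ F₀ ϖ + (b : F₀) * (p : F₀) := by
    intro y hy
    obtain ⟨s', hs', a', b', e⟩ := P.p_gen y hy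
    exact ⟨s', hs', a', b', congrArg Subtype.val e⟩
  have hgen' : ∀ y ∈ 𝔫₁.comap (sqgtpMap φ₁ hφP), ∃ s' : ↥(s18tInt R₀ s),
      s' ∉ 𝔫₁.comap (sqgtpMap φ₁ hφP) ∧ ∃ a b : ↥(s18tInt R₀ s),
        (s' : F₀) * (y : F₀) = (a : F₀) * algebraMap R₀ F₀ ϖ + (b : F₀) * (π' : F₀) := by
    intro y hy
    obtain ⟨s', hs', a', b', e⟩ := P.π_gen y hy
    exact ⟨s', hs', a', b', congrArg Subtype.val e⟩
  have hpx : SsnfInMax s (𝔫₁.comap (sqgtpMap α₁ hαP)) (p : F₀) :=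
    ⟨1, h1α, p, P.p_mem, by rw [OneMemClass.coe_one, one_mul]⟩
  have hpx' : SsnfInMax s (𝔫₁.comap (sqgtpMap φ₁ hφP)) (π' : F₀) :=
    ⟨1, h1φ, π', P.π_mem, by rw [OneMemClass.coe_one, one_mul]⟩
  have hH := sqgkx_sqgkHor_of_mem 𝔸 E M hϖ hqM r hr hrM hr3 r' hr' hr'M hr4 ht₀
    (fun x hx => hαP x hx) hφP 𝔫₁ hj𝔫 hy𝔫 hϖ𝔫
    (𝔫₁.comap (sqgtpMap α₁ hαP)) (𝔫₁.comap (sqgtpMap φ₁ hφP)) (fun x => Iff.rfl)
    (fun x => Iff.rfl) hpts.1 hpts.2.1 (p : F₀) (π' : F₀) p.2 π'.2 hgen hpx hgen' hpx'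
  exact ⟨fun V h1 h2 h3 => (hH V h1 h2 h3).1, fun V h1 h2 h3 => (hH V h1 h2 h3).2⟩

set_option maxHeartbeats 2000000 in
/-- **(T1) AT LEVEL `M q`, chart-generic** : every prime of `P₁ = s18tInt A₀ (α₁ s)` lying on both
components `W₁ = h.V₁`, `W₂ = h.V₂` is a node of thickness one.  `hnc` : the points on both
components are non-cuspidal (`j, j_q ∈ (P₁)_𝔫₁`). -/
theorem sqgtf_T1 (hA : 𝔸.LiesOverPrime q) (hqM : ¬ q ∣ M) (hϖ : Irreducible ϖ)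
    (c₀ : R₀) (hc₀ : ((q : ℕ) : R₀) * c₀ = ϖ)
    (r : ℕ) (hr : r.Prime) (hrM : r ∣ M) (hr3 : r % 3 = 2)
    (r' : ℕ) (hr' : r'.Prime) (hr'M : r' ∣ M) (hr4 : r' % 4 = 3)
    (s : F₀) (hc : S18Coord hϖ (modularFunctionFieldFullC E M) s) (hgood : GrdfbHyp hϖ s)
    (hsO : s ∈ s18vO R₀ (modularFunctionFieldFullC E M))
    (hθs : sqvtTheta (ResidueField R₀)
      (s18vcRed (modularFunctionFieldFullC E M) ⟨s, hsO⟩) ≠ 0)
    (ht₁ : Transcendental E (ssvmdIncl E M q s))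
    [FiniteDimensional E⟮ssvmdIncl E M q s⟯ (modularFunctionFieldFullC E (M * q))]
    (υ : LaurentSeries ℤ) (hυ : ((s : modularFunctionFieldFullC E M) : LaurentSeries E) = grdSer υ E)
    {u₁ u₂ : F₁} (hTwo : SsvTwo hϖ (ssvmdIncl E M q s) u₁ u₂ h.V₁ h.V₂)
    (hφP : ∀ b ∈ s18tInt R₀ s, φ₁ b ∈ s18tInt R₀ (ssvmdIncl E M q s))
    (hnc : ∀ 𝔫₁ : Ideal ↥(s18tInt R₀ (ssvmdIncl E M q s)), 𝔫₁.IsMaximal →
      SqgaOn (ssvmdIncl E M q s) 𝔫₁ h.V₁ → SqgaOn (ssvmdIncl E M q s) 𝔫₁ h.V₂ →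
      SsnfInLoc (ssvmdIncl E M q s) 𝔫₁ (ssdJ E (M * q)) ∧
        SsnfInLoc (ssvmdIncl E M q s) 𝔫₁ (ssvmfPhi E M q (ssdJ E M))) :
    ∀ 𝔫₁ : Ideal ↥(s18tInt R₀ (ssvmdIncl E M q s)), 𝔫₁.IsPrime →
      SqgaOn (ssvmdIncl E M q s) 𝔫₁ h.V₁ → SqgaOn (ssvmdIncl E M q s) 𝔫₁ h.V₂ →
      SqgaNode ϖ (ssvmdIncl E M q s) h.V₁ h.V₂ 𝔫₁ := by
  haveI := hc.fin
  haveI := sqgtf_perfect 𝔸 E hA hϖ
  have H := sqgtc_hyp 𝔸 E M h hA hqM hϖ s ht₁ υ hυ hc hgood hTwo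
  have hαP : ∀ b ∈ s18tInt R₀ s, α₁ b ∈ s18tInt R₀ (ssvmdIncl E M q s) := fun b hb =>
    ssgq_map_mem_int α₁ (fun a => H.level.compat a) s (ssvmdIncl E M q s)
      (s18tc_self_mem_int _) hb
  exact sqgtc_hT1 𝔸 E M h hA hqM hϖ c₀ hc₀ s hc hgood hsO hθs ht₁ H hTwo hαP hφP
    (fun 𝔫₁ hmax hon₁ hon₂ p π' a P =>
      sqgtf_hor 𝔸 E M h hqM hϖ r hr hrM hr3 r' hr' hr'M hr4 s hc.transc H hαP hφP hmax hon₁ hon₂
        (hnc 𝔫₁ hmax hon₁ hon₂).1 (hnc 𝔫₁ hmax hon₁ hon₂).2 P)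

set_option maxHeartbeats 2000000 in
/-- **(T1) AT LEVEL `M q`, chart `j`** (`q ≥ 5`, `ζ_{6M} ∈ E`, auxiliary primes `r`, `r'`). -/
theorem sqgtf_T1_j (hA : 𝔸.LiesOverPrime q) (hqM : ¬ q ∣ M) (h5 : 5 ≤ q)
    (ζ : E) (hζ : IsPrimitiveRoot ζ (6 * M)) (hϖ : Irreducible ϖ)
    (c₀ : R₀) (hc₀ : ((q : ℕ) : R₀) * c₀ = ϖ)
    (r : ℕ) (hr : r.Prime) (hrM : r ∣ M) (hr3 : r % 3 = 2)
    (r' : ℕ) (hr' : r'.Prime) (hr'M : r' ∣ M) (hr4 : r' % 4 = 3) :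
    ∀ 𝔫₁ : Ideal ↥(s18tInt R₀ (ssvmdIncl E M q (ssdJ E M))), 𝔫₁.IsPrime →
      SqgaOn (ssvmdIncl E M q (ssdJ E M)) 𝔫₁ h.V₁ → SqgaOn (ssvmdIncl E M q (ssdJ E M)) 𝔫₁ h.V₂ →
      SqgaNode ϖ (ssvmdIncl E M q (ssdJ E M)) h.V₁ h.V₂ 𝔫₁ := by
  have hc : S18Coord hϖ (modularFunctionFieldFullC E M) (ssdJ E M) :=
    s18v_coord_j' hϖ (s18d_natCast_mem 𝔸 E hA) M hqM
  have hgood : GrdfbHyp hϖ (ssdJ E M) := (ssgb_hyp_j M 𝔸 E hqM hA h5 _ hϖ ζ hζ).1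
  have e₁ : ssvmdIncl E M q (ssdJ E M) = ssdJ E (M * q) := ssgms_incl_j E M
  have hTwo := sqcau_two_j 𝔸 E M hA hqM hϖ h
  rw [← e₁] at hTwo
  obtain ⟨Φ, MP⟩ := ssgcl_modPoly_over q 𝔸 hA E
  have hφP : ∀ b ∈ s18tInt R₀ (ssdJ E M),
      φ₁ b ∈ s18tInt R₀ (ssvmdIncl E M q (ssdJ E M)) := by
    intro b hb
    rw [e₁]
    exact ssgnp_phi_int_j 𝔸 E M q MP b hb
  have ht₁ : Transcendental E (ssvmdIncl E M q (ssdJ E M)) := by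
    rw [e₁]
    exact ssd_transcendental_j _ _
  haveI : FiniteDimensional E⟮ssvmdIncl E M q (ssdJ E M)⟯
      (modularFunctionFieldFullC E (M * q)) := by
    rw [e₁]
    exact ssd_finiteDimensional_j _ _
  have hsO : ssdJ E M ∈ s18vO R₀ (modularFunctionFieldFullC E M) :=
    ssgfl_int_le_vO _ hϖ (ssdJ E M) hc (s18tc_self_mem_int _)
  have hθs : sqvtTheta (ResidueField R₀)
      (s18vcRed (modularFunctionFieldFullC E M) ⟨ssdJ E M, hsO⟩) ≠ 0 := by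
    obtain ⟨hD, hred⟩ := sqgvDer_gauss M hϖ (ssdJ E M) hsO
    rw [← hred]
    have e : (⟨sqgvDer E M (ssdJ E M), hD⟩ : ↥(s18vO R₀ (modularFunctionFieldFullC E M))) = 1 :=
      Subtype.ext (sqgvDer_j (↥E) M)
    rw [e, map_one, one_mul]
    exact sqgvThJ_ne_zero _
  refine sqgtf_T1 𝔸 E M h hA hqM hϖ c₀ hc₀ r hr hrM hr3 r' hr' hr'M hr4 (ssdJ E M) hc hgood hsO hθs
    ht₁ (jqModC ℤ) (grdi_grdSer_j E).symm hTwo hφP ?_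
  intro 𝔫₁ hmax hon₁ hon₂
  refine ⟨sqgkx_inLoc_of_int hmax.ne_top ?_,
    sqgkx_inLoc_of_int hmax.ne_top (hφP _ (s18tc_self_mem_int _))⟩
  rw [← e₁]
  exact s18tc_self_mem_int _

set_option maxHeartbeats 2000000 in
/-- **(T1) AT LEVEL `M q`, chart `h_a`** (`q ∈ {2,3}`, `a = 5 - q ∣ M`, `ζ_M ∈ E`); `hnc` : the
points on both components are not cusps of the chart (`j, j_q ∈ (P₁)_𝔫₁`). -/
theorem sqgtf_T1_h (a : ℕ) [NeZero a] (ha : a = 2 ∨ a = 3) (haM : a ∣ M)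
    (hqa : (q = 2 ∧ a = 3) ∨ (q = 3 ∧ a = 2)) (hA : 𝔸.LiesOverPrime q) (hqM : ¬ q ∣ M)
    (ζ : E) (hζ : IsPrimitiveRoot ζ M) (hϖ : Irreducible ϖ)
    (c₀ : R₀) (hc₀ : ((q : ℕ) : R₀) * c₀ = ϖ)
    (r : ℕ) (hr : r.Prime) (hrM : r ∣ M) (hr3 : r % 3 = 2)
    (r' : ℕ) (hr' : r'.Prime) (hr'M : r' ∣ M) (hr4 : r' % 4 = 3)
    (hnc : ∀ 𝔫₁ : Ideal ↥(s18tInt R₀ (ssvmdIncl E M q (ssgH E M a ha haM))), 𝔫₁.IsMaximal →
      SqgaOn (ssvmdIncl E M q (ssgH E M a ha haM)) 𝔫₁ h.V₁ →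
      SqgaOn (ssvmdIncl E M q (ssgH E M a ha haM)) 𝔫₁ h.V₂ →
      SsnfInLoc (ssvmdIncl E M q (ssgH E M a ha haM)) 𝔫₁ (ssdJ E (M * q)) ∧
        SsnfInLoc (ssvmdIncl E M q (ssgH E M a ha haM)) 𝔫₁ (ssvmfPhi E M q (ssdJ E M))) :
    ∀ 𝔫₁ : Ideal ↥(s18tInt R₀ (ssvmdIncl E M q (ssgH E M a ha haM))), 𝔫₁.IsPrime →
      SqgaOn (ssvmdIncl E M q (ssgH E M a ha haM)) 𝔫₁ h.V₁ →
      SqgaOn (ssvmdIncl E M q (ssgH E M a ha haM)) 𝔫₁ h.V₂ →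
      SqgaNode ϖ (ssvmdIncl E M q (ssgH E M a ha haM)) h.V₁ h.V₂ 𝔫₁ := by
  have hc : S18Coord hϖ (modularFunctionFieldFullC E M) (ssgH E M a ha haM) :=
    ssgms_coord_h 𝔸 E M a ha haM hA hqM _ hϖ
  have hgood : GrdfbHyp hϖ (ssgH E M a ha haM) :=
    (ssgb_hyp_h' M 𝔸 E a hqM hA hqa haM _ hϖ ζ hζ (ssgH E M a ha haM).2).1
  have e₁ : ssvmdIncl E M q (ssgH E M a ha haM) =
      ssgH E (M * q) a ha (Dvd.dvd.mul_right haM q) := ssgms_incl_h E M a ha haM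
  have hTwo := sqcau_two_h 𝔸 E M a ha haM hA hqM hϖ h
  rw [← e₁] at hTwo
  have hφP : ∀ b ∈ s18tInt R₀ (ssgH E M a ha haM),
      φ₁ b ∈ s18tInt R₀ (ssvmdIncl E M q (ssgH E M a ha haM)) := by
    intro b hb
    rw [e₁]
    exact (ssgnp_hInt 𝔸 hA E M a ha haM hqa (ssgcl_modPoly_over q 𝔸 hA E)).1 b hb
  have ht₁ : Transcendental E (ssvmdIncl E M q (ssgH E M a ha haM)) := by
    rw [e₁]
    exact ssg_transcendental_h _ _ a ha _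
  haveI : FiniteDimensional E⟮ssvmdIncl E M q (ssgH E M a ha haM)⟯
      (modularFunctionFieldFullC E (M * q)) := by
    rw [e₁]
    exact ssg_finiteDimensional_h _ _ a ha _
  have hsO : ssgH E M a ha haM ∈ s18vO R₀ (modularFunctionFieldFullC E M) :=
    ssgfl_int_le_vO _ hϖ (ssgH E M a ha haM) hc (s18tc_self_mem_int _)
  have hθs : sqvtTheta (ResidueField R₀)
      (s18vcRed (modularFunctionFieldFullC E M) ⟨ssgH E M a ha haM, hsO⟩) ≠ 0 :=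
    sqgtf_theta_h_ne_zero (A₀ := R₀) (modularFunctionFieldFullC E M) a (s18hExp a)
      (ssgH E M a ha haM).2 hsO
  exact sqgtf_T1 𝔸 E M h hA hqM hϖ c₀ hc₀ r hr hrM hr3 r' hr' hr'M hr4 (ssgH E M a ha haM) hc hgood
    hsO hθs ht₁ (s18hq a (s18hExp a) ℤ) (grdis_grdSer_hq a (s18hExp a) E).symm hTwo hφP hnc

end Fin

end Fermat.Agent.SQ
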