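import Mathlib
import Fermat.Agent.SQ.Germ.CrossFin
import Fermat.Agent.SQ.Conc.HCusp

/-!
# Program Q, R1 (thickness one) : (T1) AT LEVEL `M q` FOR THE CHART `h_a`, no open hypothesis
(prefix `sqgtf`)

`sqgtf_T1_h` (`CrossFin.lean`) with its non-cuspidality hypothesis `hnc` discharged by helper2's
`sqcch2_nc_node` (`SQ/Conc/HCusp.lean` : no point of level `M q` on both components lies over the cusp
`h_a = 0`).  The statement is literally helper14's slot `SqccT1 𝔸 E M q (ssgH E M a ha haM)` unfolded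
(general uniformiser `ϖ` with `(q : A₀) c₀ = ϖ`).
-/

set_option autoImplicit false
set_option linter.unusedSectionVars false
set_option linter.unusedVariables false
set_option linter.style.haveILetI false
set_option synthInstance.maxHeartbeats 400000

noncomputable section

namespace Fermat.Agent.SQ

open Polynomial ModularCurve AlgebraicCurve IntermediateField IsLocalRing Fermat.Agent.S18
  Fermat.Agent.SS Fermat.Agent.G

local notation "Qb" => AlgebraicClosure ℚ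

variable {q : ℕ} [Fact q.Prime] [NeZero q] (𝔸 : ValuationSubring Qb) (E : IntermediateField ℚ Qb)
  [FiniteDimensional ℚ E]
  [IsDiscreteValuationRing ↥(s18dVal 𝔸 E)] [CharZero ↥(s18dVal 𝔸 E)] (M : ℕ) [NeZero M]
variable {ϖ : ↥(s18dVal 𝔸 E)} {Ξ G : (↥(ssvmmR 𝔸 E M q))[X]}
  (h : SsvAmb (ssvmmR 𝔸 E M q) (ssvmgRUnif (ssvmm_le E M q) ϖ) (ssvmmY E M q) Ξ
    (X - C (ssvmmJ 𝔸 E M q ^ q)) (X ^ q - C (ssvmmJ 𝔸 E M q)) G)

set_option maxHeartbeats 2000000 in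
/-- **(T1) AT LEVEL `M q`, chart `h_a`** (`q ∈ {2,3}`, `a = 5 - q ∣ M`, `ζ_M ∈ E`, auxiliary primes
`r`, `r'`), no open hypothesis. -/
theorem sqgtf_T1_h_full (a : ℕ) [NeZero a] (ha : a = 2 ∨ a = 3) (haM : a ∣ M)
    (hqa : (q = 2 ∧ a = 3) ∨ (q = 3 ∧ a = 2)) (hA : 𝔸.LiesOverPrime q) (hqM : ¬ q ∣ M)
    (ζ : E) (hζ : IsPrimitiveRoot ζ M) (hϖ : Irreducible ϖ)
    (c₀ : ↥(s18dVal 𝔸 E)) (hc₀ : ((q : ℕ) : ↥(s18dVal 𝔸 E)) * c₀ = ϖ)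
    (r : ℕ) (hr : r.Prime) (hrM : r ∣ M) (hr3 : r % 3 = 2)
    (r' : ℕ) (hr' : r'.Prime) (hr'M : r' ∣ M) (hr4 : r' % 4 = 3) :
    ∀ 𝔫₁ : Ideal ↥(s18tInt ↥(s18dVal 𝔸 E) (ssvmdIncl E M q (ssgH E M a ha haM))), 𝔫₁.IsPrime →
      SqgaOn (ssvmdIncl E M q (ssgH E M a ha haM)) 𝔫₁ h.V₁ →
      SqgaOn (ssvmdIncl E M q (ssgH E M a ha haM)) 𝔫₁ h.V₂ →
      SqgaNode ϖ (ssvmdIncl E M q (ssgH E M a ha haM)) h.V₁ h.V₂ 𝔫₁ := by
  have haq : a ≠ q := by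
    rcases hqa with ⟨h1, h2⟩ | ⟨h1, h2⟩ <;> omega
  exact sqgtf_T1_h 𝔸 E M h a ha haM hqa hA hqM ζ hζ hϖ c₀ hc₀ r hr hrM hr3 r' hr' hr'M hr4
    (fun 𝔫₁ hmax ho₁ ho₂ =>
      haveI := hmax.isPrime
      sqcch2_nc_node 𝔸 E M hA hqM hϖ h a ha haM haq 𝔫₁ ho₁ ho₂)

end Fermat.Agent.SQ
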