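import Mathlib
import Fermat.Agent.SQ.Germ.CuspH
import Fermat.Agent.SQ.Germ.WireInv
import Fermat.Agent.SQ.Germ.Adapt
import Fermat.Agent.SS.Geo.NewtonPhi
import Fermat.Agent.SS.Germ.Base

/-!
# Program Q (S36), package SQ/Germ : THE CUSP POINTS OF THE CHART `h_a⁻¹` ARE SIMPLE (prefix `sqgch`)

The slot (INF) of the `H`-branch (`q ∈ {2, 3}`, chart `h_a`, `a = 5 - q`) with NO (R1) input :

* `sqgch_simple_of_one` (abstract) : helper9's `sqgm_germ_simple` repackaged as `SqSimpleAt`;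
* `sqgch_inf_h` : every closed point `𝔫 ∋ ϖ, t⁻¹` of the chart `t⁻¹`, `t = h_a ∈ F_E(M q q)`, is a
  SIMPLE point, from the slot (WIRE) `SqgwHyp` of the affine chart, `SqvThree` and ONE named hypothesis
  `hT2cusp` (the literal `hT2` of `sqgm_germ_simple` at the cusp points lying on `V₂` only);
* `sqgch_inf_h_two` : for `q = 2` (`e₂ = 1`) the hypothesis `hT2cusp` is void.
-/

set_option autoImplicit false
set_option linter.unusedSectionVars false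
set_option linter.unusedVariables false
set_option linter.style.haveILetI false

noncomputable section

namespace Fermat.Agent.SQ

open Polynomial IntermediateField AlgebraicCurve ModularCurve Fermat.Agent.S18 Fermat.Agent.SS
  Fermat.Agent.G IsLocalRing

local notation "Qb" => AlgebraicClosure ℚ

/-! ### abstract : `sqgm_germ_simple` as `SqSimpleAt` -/

section Abs

universe u u₀

variable {A : Type*} [CommRing A] [IsDomain A] [IsDiscreteValuationRing A] [CharZero A]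
variable {L : Type*} [Field L] [Algebra A L] [IsFractionRing A L]
variable {F : Type u} [Field F] [Algebra A F] [Algebra L F] [IsScalarTower A L F]
variable {A₀ : Type*} [CommRing A₀] [IsDomain A₀] [IsDiscreteValuationRing A₀] [CharZero A₀]
variable {L₀ : Type*} [Field L₀] [Algebra A₀ L₀] [IsFractionRing A₀ L₀]
variable {F₀ : Type u₀} [Field F₀] [Algebra A₀ F₀] [Algebra L₀ F₀] [IsScalarTower A₀ L₀ F₀]
variable {ϖ : A} {t : F} {ϖ₀ : A₀} {t₀ : F₀}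
variable {j : A₀ →+* A} {β₀ β₂ : F₀ →+* F} {e₂ : ℕ} {V₁ V₂ V₃ : ValuationSubring F}
variable {hϖ₀ : Irreducible ϖ₀}

include L in
/-- **A POINT OF THE SPECIAL FIBRE LYING ON AT MOST ONE COMPONENT IS SIMPLE** (given (T2) at the points
of `V₂` only). -/
theorem sqgch_simple_of_one (H : SqgHyp hϖ₀ j β₀ β₂ ϖ t₀ t e₂ V₁ V₂ V₃) (hϖ : Irreducible ϖ)
    (ht₀ : Transcendental L₀ t₀) [FiniteDimensional L₀⟮t₀⟯ F₀]
    (𝔫 : Ideal ↥(s18tInt A t)) (hmax : 𝔫.IsMaximal) (hϖ𝔫 : sskPi ϖ t ∈ 𝔫)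
    (hloc₂ : ∀ b ∈ s18tInt A₀ t₀, β₂ b ∈ ssLocRing (h𝔫 := hmax.isPrime) t 𝔫)
    (h12 : ¬ (SqgaOn t 𝔫 V₁ ∧ SqgaOn t 𝔫 V₂)) (h13 : ¬ (SqgaOn t 𝔫 V₁ ∧ SqgaOn t 𝔫 V₃))
    (h23 : ¬ (SqgaOn t 𝔫 V₂ ∧ SqgaOn t 𝔫 V₃))
    (hT2 : SqgaOn t 𝔫 V₂ → ¬ SqgaOn t 𝔫 V₁ → ¬ SqgaOn t 𝔫 V₃ →
      ∃ π w : F, SsnfInLoc t 𝔫 π ∧ π ∈ V₂.nonunits ∧ SsnfInLoc t 𝔫 w ∧
        algebraMap A F ϖ = π ^ e₂ * w) :
    SqSimpleAt t V₁ V₂ V₃ 𝔫 := by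
  haveI h𝔫p : 𝔫.IsPrime := hmax.isPrime
  obtain ⟨hreg, hb1, hb2, hb3⟩ :=
    sqgm_germ_simple (L := L) H hϖ ht₀ 𝔫 hmax hϖ𝔫 hloc₂ h12 h13 h23 hT2
  by_cases ho1 : SqgaOn t 𝔫 V₁
  · exact SqgpSimple.simpleAt₁ ⟨hreg, ho1, sqgp_branch_of H.three.le₁ (hb1 ho1),
      fun h => h12 ⟨ho1, h⟩, fun h => h13 ⟨ho1, h⟩⟩
  by_cases ho2 : SqgaOn t 𝔫 V₂
  · exact SqgpSimple.simpleAt₂ ⟨hreg, ho2, sqgp_branch_of H.three.le₂ (hb2 ho2),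
      fun h => h12 ⟨h, ho2⟩, fun h => h23 ⟨ho2, h⟩⟩
  by_cases ho3 : SqgaOn t 𝔫 V₃
  · exact SqgpSimple.simpleAt₃ ⟨hreg, ho3, sqgp_branch_of H.three.le₃ (hb3 ho3),
      fun h => h13 ⟨h, ho3⟩, fun h => h23 ⟨h, ho3⟩⟩
  exact (sqgm_on_some H.three 𝔫 hϖ𝔫 ho1 ho2 ho3).elim

end Abs

/-! ### the chart `h_a⁻¹` of level `M q q` -/

section Mod

variable {q : ℕ} [Fact q.Prime] [NeZero q] (A : ValuationSubring Qb) (E : IntermediateField ℚ Qb)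
  [FiniteDimensional ℚ E]
  [IsDiscreteValuationRing ↥(s18dVal A E)] [CharZero ↥(s18dVal A E)] (M : ℕ) [NeZero M]

set_option maxHeartbeats 2000000 in
/-- **THE SLOT (INF) OF THE `H`-BRANCH, POINTWISE, in the coordinates `h_a`** : a closed point
`𝔫 ∋ ϖ, t⁻¹` of the chart `t⁻¹`, `t = h_a ∈ F_E(M q q)`, is SIMPLE, given the slot (WIRE) of the affine
chart, (VAL²) and (T2) at `𝔫` if `𝔫` lies on `V₂` only. -/
theorem sqgch_inf_h_core (hA : A.LiesOverPrime q) (hqM : ¬ q ∣ M)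
    (hϖ : Irreducible ((q : ℕ) : ↥(s18dVal A E))) (Ξ G : (↥(ssvmmR A E M q))[X])
    (h : SsvAmb (ssvmmR A E M q) (ssvmgRUnif (ssvmm_le E M q) ((q : ℕ) : ↥(s18dVal A E)))
      (ssvmmY E M q) Ξ (X - C (ssvmmJ A E M q ^ q)) (X ^ q - C (ssvmmJ A E M q)) G)
    (a : ℕ) [NeZero a] (ha : a = 2 ∨ a = 3) (haM : a ∣ M)
    (hqa : (q = 2 ∧ a = 3) ∨ (q = 3 ∧ a = 2)) (ζ : E) (hζ : IsPrimitiveRoot ζ M)
    {e₂ : ℕ} {π₂ : modularFunctionFieldFullC E (M * q * q)}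
    {V₁ V₂ V₃ : ValuationSubring (modularFunctionFieldFullC E (M * q * q))}
    (three : SqvThree hϖ (ssgH E (M * q * q) a ha ((haM.mul_right q).mul_right q)) e₂ π₂ V₁ V₂ V₃)
    (H : SqgwHyp hϖ (RingHom.id ↥(s18dVal A E)) (ssvmdIncl E M q).toRingHom (ssvmfPhi E M q)
      (ssvmdIncl E (M * q) q).toRingHom (ssvmfPhi E (M * q) q) ((q : ℕ) : ↥(s18dVal A E))
      (ssgH E M a ha haM) (ssgH E (M * q) a ha (haM.mul_right q))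
      (ssgH E (M * q * q) a ha ((haM.mul_right q).mul_right q)) e₂ h.V₁ h.V₂ V₁ V₂ V₃ q)
    (𝔫 : Ideal ↥(s18tInt ↥(s18dVal A E)
      (ssgH E (M * q * q) a ha ((haM.mul_right q).mul_right q))⁻¹))
    (hmax : 𝔫.IsMaximal)
    (hϖ𝔫 : sskPi ((q : ℕ) : ↥(s18dVal A E))
      (ssgH E (M * q * q) a ha ((haM.mul_right q).mul_right q))⁻¹ ∈ 𝔫)
    (hu : ssglTinv (A := ↥(s18dVal A E))
      (ssgH E (M * q * q) a ha ((haM.mul_right q).mul_right q)) ∈ 𝔫)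
    (hT2cusp : SqgaOn (ssgH E (M * q * q) a ha ((haM.mul_right q).mul_right q))⁻¹ 𝔫 V₂ →
      ¬ SqgaOn (ssgH E (M * q * q) a ha ((haM.mul_right q).mul_right q))⁻¹ 𝔫 V₁ →
      ¬ SqgaOn (ssgH E (M * q * q) a ha ((haM.mul_right q).mul_right q))⁻¹ 𝔫 V₃ →
      ∃ π w : modularFunctionFieldFullC E (M * q * q),
        SsnfInLoc (ssgH E (M * q * q) a ha ((haM.mul_right q).mul_right q))⁻¹ 𝔫 π ∧
        π ∈ V₂.nonunits ∧
        SsnfInLoc (ssgH E (M * q * q) a ha ((haM.mul_right q).mul_right q))⁻¹ 𝔫 w ∧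
        algebraMap ↥(s18dVal A E) (modularFunctionFieldFullC E (M * q * q))
          ((q : ℕ) : ↥(s18dVal A E)) = π ^ e₂ * w) :
    SqSimpleAt (ssgH E (M * q * q) a ha ((haM.mul_right q).mul_right q))⁻¹ V₁ V₂ V₃ 𝔫 := by
  haveI h𝔫p : 𝔫.IsPrime := hmax.isPrime
  have hqp : q.Prime := Fact.out
  have hq2 : 2 ≤ q := hqp.two_le
  have haq : a ≠ q := by
    rcases hqa with ⟨h1, h2⟩ | ⟨h1, h2⟩ <;> omega
  have hndvd : ¬ q ∣ a := by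
    intro hdvd
    have hap : a.Prime := by rcases ha with rfl | rfl <;> norm_num
    exact haq ((Nat.prime_dvd_prime_iff_eq hqp hap).mp hdvd).symm
  have hun : IsUnit ((a : ℕ) : ↥(s18dVal A E)) := s18r_isUnit_natCast A E hA a hndvd
  obtain ⟨Φ, MP⟩ := ssgcl_modPoly_over q A hA E
  have ht₀ : Transcendental ↥E (ssgH E M a ha haM) := ssg_transcendental_h E M a ha haM
  have ht : Transcendental ↥E (ssgH E (M * q * q) a ha ((haM.mul_right q).mul_right q)) :=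
    ssg_transcendental_h E (M * q * q) a ha _
  haveI hfd₀ := ssg_finiteDimensional_h E M a ha haM
  haveI hfd := ssg_finiteDimensional_h E (M * q * q) a ha ((haM.mul_right q).mul_right q)
  haveI hfd₀' : FiniteDimensional (↥E)⟮(ssgH E M a ha haM)⁻¹⟯ (modularFunctionFieldFullC E M) :=
    sqgwi_fin_inv (K := ↥E) (ssgH E M a ha haM)
  have good' : GrdfbHyp hϖ (ssgH E M a ha haM)⁻¹ :=
    (ssgb_hyp_h' M A E a hqM hA hqa haM _ hϖ ζ hζ (ssgH E M a ha haM).2).2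
  obtain ⟨hc₁, hc₂⟩ := sqgch_cong_h A E M hA hqM hϖ Ξ G h a ha haM
  have Hinv := H.sqgHyp_inv_of_three (L := ↥E) hϖ ht₀ ht three good' hc₂
  -- the inclusions `Q ⊆ V_i`
  have hQ₁ := Hinv.three.le₁
  have hQ₂ := Hinv.three.le₂
  have hQ₃ := Hinv.three.le₃
  -- the weak positions
  have hα₁ : ∀ x ∈ h.V₁.nonunits, ssvmdIncl E (M * q) q x ∈ V₁.nonunits :=
    fun x hx => H.α_nu₁ (L := ↥E) hϖ hx
  have hα₂ : ∀ x ∈ h.V₁.nonunits, ssvmdIncl E (M * q) q x ∈ V₂.nonunits :=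
    fun x hx => H.α_nu₂ (L := ↥E) hϖ hx
  have hα₃ : ∀ x ∈ h.V₂.nonunits, ssvmdIncl E (M * q) q x ∈ V₃.nonunits :=
    fun x hx => H.posα.nu_c x hx
  have hφ₁ : ∀ x ∈ h.V₁.nonunits, ssvmfPhi E (M * q) q x ∈ V₁.nonunits :=
    fun x hx => H.posφ.nu_c x hx
  have hφ₂ : ∀ x ∈ h.V₂.nonunits, ssvmfPhi E (M * q) q x ∈ V₂.nonunits :=
    fun x hx => H.φ_nu₂ (L := ↥E) hϖ hx
  have h12 := sqgch_not_cross₁₂ A E M hA a ha haM haq hQ₁ hQ₂ hφ₁ hφ₂ hc₁ hc₂ 𝔫 hu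
  have h13 := sqgch_not_triple A E M hA a ha haM haq hQ₁ hQ₃ hα₁ hα₃ hc₁ hc₂ 𝔫 hu
  have h23 := sqgch_not_triple A E M hA a ha haM haq hQ₂ hQ₃ hα₂ hα₃ hc₁ hc₂ 𝔫 hu
  -- `β₂ P₀ ⊆ Q_𝔫`
  have hloc₂ : ∀ b ∈ s18tInt ↥(s18dVal A E) (ssgH E M a ha haM)⁻¹,
      ((ssvmfPhi E (M * q) q).comp (ssvmfPhi E M q)) b ∈
        ssLocRing (ssgH E (M * q * q) a ha ((haM.mul_right q).mul_right q))⁻¹ 𝔫 := by
    intro b hb
    have h1 := ssgnp_phi_int_h_inv A E M q a ha haM hq2 haq hun MP b hb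
    have h2 := ssgnp_phi_int_h_inv A E (M * q) q a ha (haM.mul_right q) hq2 haq hun MP _ h1
    exact ssl_int_le_locRing _ 𝔫 h2
  exact sqgch_simple_of_one (L := ↥E) Hinv hϖ (sqgwi_transc_inv ht₀) 𝔫 hmax hϖ𝔫 hloc₂ h12 h13 h23
    hT2cusp

set_option maxHeartbeats 2000000 in
/-- the same for coordinates `t₁`, `t` EQUAL to `h_a` (so that the consumer chooses the literal). -/
theorem sqgch_inf_h_gen (hA : A.LiesOverPrime q) (hqM : ¬ q ∣ M)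
    (hϖ : Irreducible ((q : ℕ) : ↥(s18dVal A E))) (Ξ G : (↥(ssvmmR A E M q))[X])
    (h : SsvAmb (ssvmmR A E M q) (ssvmgRUnif (ssvmm_le E M q) ((q : ℕ) : ↥(s18dVal A E)))
      (ssvmmY E M q) Ξ (X - C (ssvmmJ A E M q ^ q)) (X ^ q - C (ssvmmJ A E M q)) G)
    (a : ℕ) [NeZero a] (ha : a = 2 ∨ a = 3) (haM : a ∣ M)
    (hqa : (q = 2 ∧ a = 3) ∨ (q = 3 ∧ a = 2)) (ζ : E) (hζ : IsPrimitiveRoot ζ M)
    {e₂ : ℕ} {π₂ : modularFunctionFieldFullC E (M * q * q)}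
    {V₁ V₂ V₃ : ValuationSubring (modularFunctionFieldFullC E (M * q * q))}
    (t₁ : modularFunctionFieldFullC E (M * q)) (t : modularFunctionFieldFullC E (M * q * q))
    (e₁ : t₁ = ssgH E (M * q) a ha (haM.mul_right q))
    (e : t = ssgH E (M * q * q) a ha ((haM.mul_right q).mul_right q))
    (three : SqvThree hϖ t e₂ π₂ V₁ V₂ V₃)
    (H : SqgwHyp hϖ (RingHom.id ↥(s18dVal A E)) (ssvmdIncl E M q).toRingHom (ssvmfPhi E M q)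
      (ssvmdIncl E (M * q) q).toRingHom (ssvmfPhi E (M * q) q) ((q : ℕ) : ↥(s18dVal A E))
      (ssgH E M a ha haM) t₁ t e₂ h.V₁ h.V₂ V₁ V₂ V₃ q)
    (𝔫 : Ideal ↥(s18tInt ↥(s18dVal A E) t⁻¹)) (hmax : 𝔫.IsMaximal)
    (hϖ𝔫 : sskPi ((q : ℕ) : ↥(s18dVal A E)) t⁻¹ ∈ 𝔫)
    (hu : ssglTinv (A := ↥(s18dVal A E)) t ∈ 𝔫)
    (hT2cusp : SqgaOn t⁻¹ 𝔫 V₂ → ¬ SqgaOn t⁻¹ 𝔫 V₁ → ¬ SqgaOn t⁻¹ 𝔫 V₃ →
      ∃ π w : modularFunctionFieldFullC E (M * q * q), SsnfInLoc t⁻¹ 𝔫 π ∧ π ∈ V₂.nonunits ∧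
        SsnfInLoc t⁻¹ 𝔫 w ∧
        algebraMap ↥(s18dVal A E) (modularFunctionFieldFullC E (M * q * q))
          ((q : ℕ) : ↥(s18dVal A E)) = π ^ e₂ * w) :
    SqSimpleAt t⁻¹ V₁ V₂ V₃ 𝔫 := by
  subst e₁ e
  exact sqgch_inf_h_core A E M hA hqM hϖ Ξ G h a ha haM hqa ζ hζ three H 𝔫 hmax hϖ𝔫 hu hT2cusp

set_option maxHeartbeats 2000000 in
/-- **THE SLOT (INF) OF THE `H`-BRANCH, POINTWISE, in the coordinates of the tower**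
`t₁ = α₁ h_a`, `t = α (α₁ h_a)` (the literal `sqccT E M q (ssgH E M a ha haM)` of `SQ/Conc/Geo.lean`). -/
theorem sqgch_inf_h (hA : A.LiesOverPrime q) (hqM : ¬ q ∣ M)
    (hϖ : Irreducible ((q : ℕ) : ↥(s18dVal A E))) (Ξ G : (↥(ssvmmR A E M q))[X])
    (h : SsvAmb (ssvmmR A E M q) (ssvmgRUnif (ssvmm_le E M q) ((q : ℕ) : ↥(s18dVal A E)))
      (ssvmmY E M q) Ξ (X - C (ssvmmJ A E M q ^ q)) (X ^ q - C (ssvmmJ A E M q)) G)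
    (a : ℕ) [NeZero a] (ha : a = 2 ∨ a = 3) (haM : a ∣ M)
    (hqa : (q = 2 ∧ a = 3) ∨ (q = 3 ∧ a = 2)) (ζ : E) (hζ : IsPrimitiveRoot ζ M)
    {e₂ : ℕ} {π₂ : modularFunctionFieldFullC E (M * q * q)}
    {V₁ V₂ V₃ : ValuationSubring (modularFunctionFieldFullC E (M * q * q))}
    (three : SqvThree hϖ (ssvmdIncl E (M * q) q (ssvmdIncl E M q (ssgH E M a ha haM))) e₂ π₂
      V₁ V₂ V₃)
    (H : SqgwHyp hϖ (RingHom.id ↥(s18dVal A E)) (ssvmdIncl E M q).toRingHom (ssvmfPhi E M q)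
      (ssvmdIncl E (M * q) q).toRingHom (ssvmfPhi E (M * q) q) ((q : ℕ) : ↥(s18dVal A E))
      (ssgH E M a ha haM) (ssvmdIncl E M q (ssgH E M a ha haM))
      (ssvmdIncl E (M * q) q (ssvmdIncl E M q (ssgH E M a ha haM))) e₂ h.V₁ h.V₂ V₁ V₂ V₃ q)
    (𝔫 : Ideal ↥(s18tInt ↥(s18dVal A E)
      (ssvmdIncl E (M * q) q (ssvmdIncl E M q (ssgH E M a ha haM)))⁻¹)) (hmax : 𝔫.IsMaximal)
    (hϖ𝔫 : sskPi ((q : ℕ) : ↥(s18dVal A E))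
      (ssvmdIncl E (M * q) q (ssvmdIncl E M q (ssgH E M a ha haM)))⁻¹ ∈ 𝔫)
    (hu : ssglTinv (A := ↥(s18dVal A E))
      (ssvmdIncl E (M * q) q (ssvmdIncl E M q (ssgH E M a ha haM))) ∈ 𝔫)
    (hT2cusp : SqgaOn (ssvmdIncl E (M * q) q (ssvmdIncl E M q (ssgH E M a ha haM)))⁻¹ 𝔫 V₂ →
      ¬ SqgaOn (ssvmdIncl E (M * q) q (ssvmdIncl E M q (ssgH E M a ha haM)))⁻¹ 𝔫 V₁ →
      ¬ SqgaOn (ssvmdIncl E (M * q) q (ssvmdIncl E M q (ssgH E M a ha haM)))⁻¹ 𝔫 V₃ →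
      ∃ π w : modularFunctionFieldFullC E (M * q * q),
        SsnfInLoc (ssvmdIncl E (M * q) q (ssvmdIncl E M q (ssgH E M a ha haM)))⁻¹ 𝔫 π ∧
        π ∈ V₂.nonunits ∧
        SsnfInLoc (ssvmdIncl E (M * q) q (ssvmdIncl E M q (ssgH E M a ha haM)))⁻¹ 𝔫 w ∧
        algebraMap ↥(s18dVal A E) (modularFunctionFieldFullC E (M * q * q))
          ((q : ℕ) : ↥(s18dVal A E)) = π ^ e₂ * w) :
    SqSimpleAt (ssvmdIncl E (M * q) q (ssvmdIncl E M q (ssgH E M a ha haM)))⁻¹ V₁ V₂ V₃ 𝔫 :=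
  sqgch_inf_h_gen A E M hA hqM hϖ Ξ G h a ha haM hqa ζ hζ _ _ (sqcch_incl_h E M q a ha haM)
    (by rw [sqcch_incl_h, sqcch_incl_h]) three H 𝔫 hmax hϖ𝔫 hu hT2cusp

/-! ### `e₂ = 1` : (T2) is void -/

section One

variable {A₀ : Type*} [CommRing A₀] [IsDomain A₀] [IsDiscreteValuationRing A₀] [CharZero A₀]
variable {F : Type*} [Field F] [Algebra A₀ F]

/-- (T2) for `e₂ = 1` : `π := ϖ`, `w := 1`. -/
theorem sqgch_T2_one (ϖ : A₀) (t : F) (𝔫 : Ideal ↥(s18tInt A₀ t)) (h𝔫 : 𝔫 ≠ ⊤)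
    (V₂ : ValuationSubring F) (hunif : algebraMap A₀ F ϖ ∈ V₂.nonunits) :
    ∃ π w : F, SsnfInLoc t 𝔫 π ∧ π ∈ V₂.nonunits ∧ SsnfInLoc t 𝔫 w ∧
      algebraMap A₀ F ϖ = π ^ 1 * w := by
  have h1 : (1 : ↥(s18tInt A₀ t)) ∉ 𝔫 := fun h => h𝔫 ((Ideal.eq_top_iff_one _).mpr h)
  refine ⟨algebraMap A₀ F ϖ, 1, ⟨1, h1, ?_⟩, hunif, ⟨1, h1, ?_⟩, by rw [pow_one, mul_one]⟩
  · rw [OneMemClass.coe_one, one_mul]
    exact s18tc_algebraMap_mem_int t ϖ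
  · rw [OneMemClass.coe_one, one_mul]
    exact (s18tInt A₀ t).one_mem

end One

set_option maxHeartbeats 2000000 in
/-- **THE SLOT (INF) OF THE `H`-BRANCH FOR `q = 2`** (`e₂ = q - 1 = 1`), pointwise, NO further input. -/
theorem sqgch_inf_h_two (hA : A.LiesOverPrime q) (hqM : ¬ q ∣ M) (hq : q = 2)
    (hϖ : Irreducible ((q : ℕ) : ↥(s18dVal A E))) (Ξ G : (↥(ssvmmR A E M q))[X])
    (h : SsvAmb (ssvmmR A E M q) (ssvmgRUnif (ssvmm_le E M q) ((q : ℕ) : ↥(s18dVal A E)))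
      (ssvmmY E M q) Ξ (X - C (ssvmmJ A E M q ^ q)) (X ^ q - C (ssvmmJ A E M q)) G)
    (a : ℕ) [NeZero a] (ha : a = 2 ∨ a = 3) (haM : a ∣ M)
    (hqa : (q = 2 ∧ a = 3) ∨ (q = 3 ∧ a = 2)) (ζ : E) (hζ : IsPrimitiveRoot ζ M)
    {π₂ : modularFunctionFieldFullC E (M * q * q)}
    {V₁ V₂ V₃ : ValuationSubring (modularFunctionFieldFullC E (M * q * q))}
    (three : SqvThree hϖ (ssvmdIncl E (M * q) q (ssvmdIncl E M q (ssgH E M a ha haM))) (q - 1) π₂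
      V₁ V₂ V₃)
    (H : SqgwHyp hϖ (RingHom.id ↥(s18dVal A E)) (ssvmdIncl E M q).toRingHom (ssvmfPhi E M q)
      (ssvmdIncl E (M * q) q).toRingHom (ssvmfPhi E (M * q) q) ((q : ℕ) : ↥(s18dVal A E))
      (ssgH E M a ha haM) (ssvmdIncl E M q (ssgH E M a ha haM))
      (ssvmdIncl E (M * q) q (ssvmdIncl E M q (ssgH E M a ha haM))) (q - 1) h.V₁ h.V₂ V₁ V₂ V₃ q)
    (𝔫 : Ideal ↥(s18tInt ↥(s18dVal A E)
      (ssvmdIncl E (M * q) q (ssvmdIncl E M q (ssgH E M a ha haM)))⁻¹)) (hmax : 𝔫.IsMaximal)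
    (hϖ𝔫 : sskPi ((q : ℕ) : ↥(s18dVal A E))
      (ssvmdIncl E (M * q) q (ssvmdIncl E M q (ssgH E M a ha haM)))⁻¹ ∈ 𝔫)
    (hu : ssglTinv (A := ↥(s18dVal A E))
      (ssvmdIncl E (M * q) q (ssvmdIncl E M q (ssgH E M a ha haM))) ∈ 𝔫) :
    SqSimpleAt (ssvmdIncl E (M * q) q (ssvmdIncl E M q (ssgH E M a ha haM)))⁻¹ V₁ V₂ V₃ 𝔫 := by
  refine sqgch_inf_h A E M hA hqM hϖ Ξ G h a ha haM hqa ζ hζ three H 𝔫 hmax hϖ𝔫 hu
    (fun _ _ _ => ?_)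
  have e : q - 1 = 1 := by omega
  rw [e]
  exact sqgch_T2_one _ _ 𝔫 hmax.ne_top V₂ H.three.unif₂

end Mod

end Fermat.Agent.SQ
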