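/-
Program Q (S36), risk R1, leaf (PB) of (T2-x) (helper13) : the `p`-BASIS `{1, j, …, j^(q-1)}` of the
Gauss ring `O = s18tIntLoc A t (C ϖ)` modulo `ϖ`.

`κ = O / ϖ O` is a function field of one variable over the perfect field `k = A / ϖ` (finite over
`k(t̄)`), so `[κ : κ^q] = q` (helper16's `sqgc_finrank_Kp`, `SQ/Germ/CartierOrd.lean`); an element `j`
which is not a `q`-th power modulo `ϖ` (e.g. `D j = 1` for a derivation `D` with `D O ⊆ O`) gives

  `sqgpb_pbasis` : `∀ x ∈ O, ∃ a : Fin q → F, (∀ i, a i ∈ O) ∧ ∃ z ∈ O,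
                      x = ∑ i, a i ^ q * j ^ (i : ℕ) + ϖ * z`

(helper22's (DIFF) hypothesis, literally).
-/
import Mathlib
import Fermat.Agent.G.Red.Fibre
import Fermat.Agent.SQ.Germ.CartierOrd

set_option autoImplicit false
set_option linter.unusedSectionVars false
set_option linter.unusedVariables false
set_option linter.style.haveILetI false

noncomputable section

namespace Fermat.Agent.SQ

open Polynomial IntermediateField Fermat.Agent.S18 Fermat.Agent.G IsLocalRing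

universe u

variable {A : Type*} [CommRing A] [IsDomain A] [IsDiscreteValuationRing A] [CharZero A]
variable {L : Type*} [Field L] [Algebra A L] [IsFractionRing A L]
variable {F : Type u} [Field F] [Algebra A F] [Algebra L F] [IsScalarTower A L F]
variable {ϖ : A}

/-- `a(t) ∈ ϖ O ⟹ ϖ ∣ a`. -/
theorem sqgpb_dvd_of_dvdGauss (hϖ : Irreducible ϖ) (t : F) (ht : Transcendental L t)
    (H : GrdfbHyp hϖ t) (c : A[X]) (hc : S18DvdGauss hϖ t (aeval t c)) : C ϖ ∣ c := by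
  by_contra hndvd
  have htA : Transcendental A t := s18tb_transcendental ht
  have hc0 : aeval t c ≠ 0 := s18tlg_aeval_ne_zero htA (fun h => hndvd (h ▸ dvd_zero _))
  have hinv : (aeval t c)⁻¹ ∈ s18tIntLoc A t (C ϖ) (s18t_prime_C hϖ) :=
    s18tlg_loc_le_intLoc t (C ϖ) (s18t_prime_C hϖ)
      ⟨1, c, hndvd, by rw [inv_mul_cancel₀ hc0, map_one]⟩
  obtain ⟨y, hy, hcy⟩ := hc
  apply H.nu
  have hy0 : y ≠ 0 := by
    rintro rfl
    rw [mul_zero] at hcy
    exact hc0 hcy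
  have e : (algebraMap A F ϖ)⁻¹ = y * (aeval t c)⁻¹ := by
    rw [hcy]
    have hϖF := grdfb_algebraMap_ne_zero hϖ t H
    field_simp
  rw [e]
  exact Subring.mul_mem _ hy hinv

/-- **(PB)** : the `p`-basis `1, j, …, j^(q-1)` of the Gauss ring modulo `ϖ`. -/
theorem sqgpb_pbasis (hϖ : Irreducible ϖ) (t : F) (ht : Transcendental L t)
    [FiniteDimensional L⟮t⟯ F] (H : GrdfbHyp hϖ t)
    [PerfectField (IsLocalRing.ResidueField A)]
    (q : ℕ) [hq : Fact q.Prime] (hqϖ : ϖ ∣ (q : A))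
    (j : F) (hjO : j ∈ s18tIntLoc A t (C ϖ) (s18t_prime_C hϖ))
    (hj : ∀ a ∈ s18tIntLoc A t (C ϖ) (s18t_prime_C hϖ), ¬ S18DvdGauss hϖ t (j - a ^ q)) :
    ∀ x ∈ s18tIntLoc A t (C ϖ) (s18t_prime_C hϖ), ∃ a : Fin q → F,
      (∀ i, a i ∈ s18tIntLoc A t (C ϖ) (s18t_prime_C hϖ)) ∧
      ∃ z ∈ s18tIntLoc A t (C ϖ) (s18t_prime_C hϖ),
        x = ∑ i : Fin q, a i ^ q * j ^ (i : ℕ) + algebraMap A F ϖ * z := by
  classical
  have htA : Transcendental A t := s18tb_transcendental ht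
  set O := s18tIntLoc A t (C ϖ) (s18t_prime_C hϖ) with hO
  set I : Ideal ↥O := Ideal.span {grdfbPiO hϖ t} with hI
  haveI hImax : I.IsMaximal := grdfb_isMaximal hϖ t H
  letI : Field (↥O ⧸ I) := Ideal.Quotient.field I
  set mk : ↥O →+* ↥O ⧸ I := Ideal.Quotient.mk I with hmk
  have hPO : ∀ z ∈ s18tInt A t, z ∈ O := fun z hz => s18tInt_le_intLoc hϖ t hz
  have hmk0 : ∀ z : ↥O, mk z = 0 ↔ S18DvdGauss hϖ t (z : F) := fun z => by
    rw [hmk, Ideal.Quotient.eq_zero_iff_mem, hI, grdfb_mem_spanO]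
  -- `ρ : A[X] → κ`
  let ev : A[X] →+* ↥O := RingHom.codRestrict ((aeval t : A[X] →ₐ[A] F) : A[X] →+* F) O
    (fun c => hPO _ (s18tlg_aeval_mem_int t c))
  have hev : ∀ c : A[X], ((ev c : ↥O) : F) = aeval t c := fun c => rfl
  let ρ : A[X] →+* ↥O ⧸ I := mk.comp ev
  have hρ0 : ∀ c : A[X], ρ c = 0 → C ϖ ∣ c := fun c hc =>
    sqgpb_dvd_of_dvdGauss (L := L) hϖ t ht H c ((hmk0 (ev c)).mp hc)
  have hρϖ : ρ (C ϖ) = 0 := by
    show mk (ev (C ϖ)) = 0
    rw [hmk0]
    exact ⟨1, Subring.one_mem _, by rw [hev, aeval_C, mul_one]⟩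
  -- `ι : k → κ`
  let ι : IsLocalRing.ResidueField A →+* ↥O ⧸ I :=
    Ideal.Quotient.lift (maximalIdeal A) (ρ.comp C) (fun a ha => by
      rw [hϖ.maximalIdeal_eq, Ideal.mem_span_singleton] at ha
      obtain ⟨a', rfl⟩ := ha
      rw [RingHom.comp_apply, C_mul, map_mul, hρϖ, zero_mul])
  letI : Algebra (IsLocalRing.ResidueField A) (↥O ⧸ I) := ι.toAlgebra
  have hι : ∀ a : A, algebraMap (IsLocalRing.ResidueField A) (↥O ⧸ I) (residue A a) = ρ (C a) :=
    fun a => rfl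
  set tb : ↥O ⧸ I := ρ X with htb
  have haev : ∀ c : A[X], aeval tb (c.map (residue A)) = ρ c := by
    intro c
    have h1 : ((aeval tb : (IsLocalRing.ResidueField A)[X] →ₐ[_] ↥O ⧸ I) :
        (IsLocalRing.ResidueField A)[X] →+* ↥O ⧸ I).comp (mapRingHom (residue A)) = ρ := by
      apply Polynomial.ringHom_ext
      · intro a
        simp only [RingHom.comp_apply, coe_mapRingHom, map_C, RingHom.coe_coe, aeval_C]
        exact hι a
      · simp only [RingHom.comp_apply, coe_mapRingHom, map_X, RingHom.coe_coe, aeval_X]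
        rfl
    exact congrFun (congrArg DFunLike.coe h1) c
  -- `t̄` is transcendental over `k`
  have htr : Transcendental (IsLocalRing.ResidueField A) tb := by
    rw [transcendental_iff]
    intro c hc
    obtain ⟨c', rfl⟩ := map_surjective (residue A) IsLocalRing.residue_surjective c
    rw [haev] at hc
    obtain ⟨d, rfl⟩ := hρ0 c' hc
    rw [Polynomial.map_mul, map_C]
    have : residue A ϖ = 0 := by
      rw [IsLocalRing.residue_eq_zero_iff, hϖ.maximalIdeal_eq]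
      exact Ideal.subset_span rfl
    rw [this, map_zero, zero_mul]
  -- `κ` is finite over `k(t̄)`
  have hfin : FiniteDimensional (IsLocalRing.ResidueField A)⟮tb⟯ (↥O ⧸ I) := by
    have hfinP := s18tc_int_finite (A := A) (L := L) t ht
    obtain ⟨S, hS⟩ := hfinP.fg_top
    -- the images of the generators
    let gb : ↥(integralClosure ↥(s18tChart A t) F) → ↥O ⧸ I := fun g => mk ⟨(g : F), hPO _ g.2⟩
    refine Module.finite_def.mpr ⟨S.image gb, ?_⟩
    rw [eq_top_iff]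
    rintro xb -
    obtain ⟨x, rfl⟩ := Ideal.Quotient.mk_surjective xb
    obtain ⟨b, hb, hbx⟩ := (s18t_intLoc_iff hϖ t (x : F)).mp x.2
    -- `b(t) x = ∑ c_g(t) g`
    have hmem : (⟨aeval t b * (x : F), hbx⟩ : ↥(integralClosure ↥(s18tChart A t) F)) ∈
        Submodule.span ↥(s18tChart A t) (S : Set ↥(integralClosure ↥(s18tChart A t) F)) := by
      rw [hS]; exact Submodule.mem_top
    obtain ⟨f, -, hf⟩ := Submodule.mem_span_finset.mp hmem
    have hfF : aeval t b * (x : F) = ∑ g ∈ S, ((f g : ↥(s18tChart A t)) : F) * (g : F) := by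
      have h := congrArg (fun z : ↥(integralClosure ↥(s18tChart A t) F) => (z : F)) hf
      simp only [AddSubmonoidClass.coe_finsetSum] at h
      rw [← h]
      rfl
    -- polynomials for the coefficients
    have hcoef : ∀ g, ∃ c : A[X], ((f g : ↥(s18tChart A t)) : F) = aeval t c := by
      intro g
      have h1 : ((f g : ↥(s18tChart A t)) : F) ∈ Algebra.adjoin A {t} := (f g).2
      rw [Algebra.adjoin_singleton_eq_range_aeval] at h1
      obtain ⟨c, hc⟩ := h1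
      exact ⟨c, hc.symm⟩
    choose cf hcf using hcoef
    -- the relation in `κ`
    have hrel : ρ b * mk x = ∑ g ∈ S, ρ (cf g) * gb g := by
      have h1 : ev b * x = ∑ g ∈ S, ev (cf g) * ⟨(g : F), hPO _ g.2⟩ := by
        apply Subtype.ext
        rw [AddSubmonoidClass.coe_finsetSum]
        show aeval t b * (x : F) = ∑ g ∈ S, aeval t (cf g) * (g : F)
        rw [hfF]
        exact Finset.sum_congr rfl fun g _ => by rw [hcf g]
      have h2 := congrArg mk h1
      rw [map_mul, map_sum] at h2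
      rw [show ρ b = mk (ev b) from rfl, h2]
      exact Finset.sum_congr rfl fun g _ => by rw [map_mul]; rfl
    have hρb : ρ b ≠ 0 := fun h => hb (hρ0 b h)
    have hadj : ∀ c : A[X], ρ c ∈ (IsLocalRing.ResidueField A)⟮tb⟯ := by
      intro c
      rw [← haev]
      exact IntermediateField.algebra_adjoin_le_adjoin _ _
        (Polynomial.aeval_mem_adjoin_singleton _ _)
    have hx : mk x = ∑ g ∈ S, ((ρ b)⁻¹ * ρ (cf g)) * gb g := by
      rw [← mul_right_inj' hρb, hrel, Finset.mul_sum]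
      exact Finset.sum_congr rfl fun g _ => by
        rw [← mul_assoc, ← mul_assoc, mul_inv_cancel₀ hρb, one_mul]
    rw [hx]
    refine Submodule.sum_mem _ fun g hg => ?_
    have hcoeff : (ρ b)⁻¹ * ρ (cf g) ∈ (IsLocalRing.ResidueField A)⟮tb⟯ :=
      mul_mem (inv_mem (hadj b)) (hadj (cf g))
    have : ((ρ b)⁻¹ * ρ (cf g)) * gb g
        = (⟨(ρ b)⁻¹ * ρ (cf g), hcoeff⟩ : (IsLocalRing.ResidueField A)⟮tb⟯) • gb g := rfl
    rw [this]
    exact Submodule.smul_mem _ _ (Submodule.subset_span (Finset.mem_image_of_mem gb hg))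
  -- characteristic `q`
  haveI hchar : CharP (↥O ⧸ I) q := by
    rw [CharP.charP_iff_prime_eq_zero hq.out]
    obtain ⟨a, ha⟩ := hqϖ
    have h1 : ((q : ℕ) : ↥O ⧸ I) = ρ (C ϖ) * ρ (C a) := by
      rw [← map_mul, ← C_mul, ← ha]
      simp
    rw [h1, hρϖ, zero_mul]
  -- `j̄` is not a `q`-th power
  have hjb : ∀ ab : ↥O ⧸ I, ab ^ q ≠ mk ⟨j, hjO⟩ := by
    intro ab hab
    obtain ⟨a, rfl⟩ := Ideal.Quotient.mk_surjective ab
    have h1 : mk (⟨j, hjO⟩ - a ^ q) = 0 := by rw [map_sub, map_pow, hab, sub_self]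
    rw [hmk0] at h1
    exact hj (a : F) a.2 h1
  -- the `p`-basis in `κ`
  intro x hx
  obtain ⟨ab, hab⟩ := sqgc_span_of_transcendental (IsLocalRing.ResidueField A) q htr hjb
    (mk ⟨x, hx⟩)
  choose a ha using fun i : ℕ => Ideal.Quotient.mk_surjective (ab i)
  have h1 : mk (⟨x, hx⟩ - ∑ i ∈ Finset.range q, a i ^ q * ⟨j, hjO⟩ ^ i) = 0 := by
    rw [map_sub, map_sum, hab, sub_eq_zero]
    exact Finset.sum_congr rfl fun i _ => by rw [map_mul, map_pow, map_pow, ha i]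
  rw [hmk0] at h1
  obtain ⟨z, hz, hxz⟩ := h1
  refine ⟨fun i => (a i : F), fun i => (a i).2, z, hz, ?_⟩
  have h2 : ((⟨x, hx⟩ - ∑ i ∈ Finset.range q, a i ^ q * ⟨j, hjO⟩ ^ i : ↥O) : F)
      = x - ∑ i ∈ Finset.range q, (a i : F) ^ q * j ^ i := by
    push_cast
    rfl
  rw [h2] at hxz
  rw [Fin.sum_univ_eq_sum_range (fun i => (a i : F) ^ q * j ^ i) q]
  linear_combination hxz

/-- `j` with `D j = 1` for a derivation preserving the Gauss ring is not a `q`-th power modulo `ϖ`. -/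
theorem sqgpb_not_pow_of_deriv (hϖ : Irreducible ϖ) (t : F) (H : GrdfbHyp hϖ t)
    (q : ℕ) (hq0 : q ≠ 0) (hqϖ : ϖ ∣ (q : A))
    (D : Derivation A F F)
    (hDO : ∀ x ∈ s18tIntLoc A t (C ϖ) (s18t_prime_C hϖ),
      D x ∈ s18tIntLoc A t (C ϖ) (s18t_prime_C hϖ))
    (j : F) (hDj : D j = 1) :
    ∀ a ∈ s18tIntLoc A t (C ϖ) (s18t_prime_C hϖ), ¬ S18DvdGauss hϖ t (j - a ^ q) := by
  rintro a ha ⟨y, hy, hjy⟩
  apply H.nu
  obtain ⟨c, hc⟩ := hqϖ
  have hqF : ((q : ℕ) : F) = algebraMap A F ϖ * algebraMap A F c := by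
    rw [← map_mul, ← hc, map_natCast]
  have h1 : D (j - a ^ q) = algebraMap A F ϖ * D y := by
    rw [hjy, D.leibniz, D.map_algebraMap, smul_zero, add_zero, smul_eq_mul]
  rw [map_sub, hDj, Derivation.leibniz_pow, smul_eq_mul, nsmul_eq_mul, hqF] at h1
  have h2 : (1 : F) = algebraMap A F ϖ * (D y + algebraMap A F c * (a ^ (q - 1) * D a)) := by
    linear_combination h1
  have hmem : D y + algebraMap A F c * (a ^ (q - 1) * D a) ∈
      s18tIntLoc A t (C ϖ) (s18t_prime_C hϖ) :=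
    Subring.add_mem _ (hDO y hy) (Subring.mul_mem _
      (s18tInt_le_intLoc hϖ t (s18tc_algebraMap_mem_int t c))
      (Subring.mul_mem _ (Subring.pow_mem _ ha _) (hDO a ha)))
  have : (algebraMap A F ϖ)⁻¹ = D y + algebraMap A F c * (a ^ (q - 1) * D a) :=
    inv_eq_of_mul_eq_one_right h2.symm
  rw [this]; exact hmem

/-- **(PB) from a derivation** : `D O ⊆ O`, `D j = 1`. -/
theorem sqgpb_pbasis_of_deriv (hϖ : Irreducible ϖ) (t : F) (ht : Transcendental L t)
    [FiniteDimensional L⟮t⟯ F] (H : GrdfbHyp hϖ t)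
    [PerfectField (IsLocalRing.ResidueField A)]
    (q : ℕ) [hq : Fact q.Prime] (hqϖ : ϖ ∣ (q : A))
    (D : Derivation A F F)
    (hDO : ∀ x ∈ s18tIntLoc A t (C ϖ) (s18t_prime_C hϖ),
      D x ∈ s18tIntLoc A t (C ϖ) (s18t_prime_C hϖ))
    (j : F) (hjO : j ∈ s18tIntLoc A t (C ϖ) (s18t_prime_C hϖ)) (hDj : D j = 1) :
    ∀ x ∈ s18tIntLoc A t (C ϖ) (s18t_prime_C hϖ), ∃ a : Fin q → F,
      (∀ i, a i ∈ s18tIntLoc A t (C ϖ) (s18t_prime_C hϖ)) ∧
      ∃ z ∈ s18tIntLoc A t (C ϖ) (s18t_prime_C hϖ),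
        x = ∑ i : Fin q, a i ^ q * j ^ (i : ℕ) + algebraMap A F ϖ * z :=
  sqgpb_pbasis (L := L) hϖ t ht H q hqϖ j hjO
    (sqgpb_not_pow_of_deriv hϖ t H q hq.out.ne_zero hqϖ D hDO j hDj)

end Fermat.Agent.SQ
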