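/-
Program Q (S36), risk R1, (T2-x) : THE CONCRETE DERIVATION HALF of helper22's `SqgtdHyp`
(`SQ/Germ/T2Diff.lean`) at a level `F_{L₀}(N)` (helper13).

`A₀` a DVR of characteristic `0`, `L₀ = Frac A₀`, `F = F_{L₀}(N) ⊂ L₀((𝐪))`, `O₀ = s18vO A₀ F` its
Gauss ring, `D = d/dj = sqgvDer L₀ N` (helper3, `SQ/Germ/DerivVert.lean`), `j = ssvmdJ L₀ N`,
`ϖ = algebraMap A₀ F ϖ`.  The six derivation fields of `SqgtdHyp V β₀ β₂ O₀ D π₂ j ϖ q` :

* `sqgpc_d_add`, `sqgpc_d_mul`, `sqgpc_d_j`, `sqgpc_d_O`, `sqgpc_d_unif` ;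
* `sqgpc_pb` : the `p`-basis `1, j, …, j^(q-1)` of `O₀` modulo `ϖ`, for ANY good chart coordinate `s`
  of `F` (`S18Coord`, `GrdfbHyp`) — from `sqgpb_pbasis_of_deriv` (`SQ/Germ/PBasis.lean`) ;
* `sqgpc_pb_dVal`, `sqgpc_perfectField_dVal`, `sqgpc_unif_dvd_dVal` : the instance `A₀ = 𝔸 ∩ E`,
  `𝔸 | q` (residue field perfect, `ϖ ∣ q`).

Prefix `sqgpc`.
-/
import Mathlib
import Fermat.Agent.SQ.Germ.PBasis
import Fermat.Agent.SQ.Germ.DerivVert
import Fermat.Agent.SQ.Germ.Deriv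
import Fermat.Agent.SS.Germ.FrobLift

set_option autoImplicit false
set_option linter.unusedSectionVars false
set_option linter.unusedVariables false
set_option linter.style.haveILetI false
set_option synthInstance.maxHeartbeats 400000

noncomputable section

namespace Fermat.Agent.SQ

open Polynomial ModularCurve AlgebraicCurve IsLocalRing IntermediateField Fermat.Agent.S24
  Fermat.Agent.G Fermat.Agent.S18 Fermat.Agent.SS

local notation "Qb" => AlgebraicClosure ℚ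

section Gauss

variable {A₀ : Type*} [CommRing A₀] [IsDomain A₀] [IsDiscreteValuationRing A₀] [CharZero A₀]
variable {L₀ : Type*} [Field L₀] [Algebra A₀ L₀] [IsFractionRing A₀ L₀] [CharZero L₀]
variable {ϖ : A₀} (N : ℕ) [NeZero N]

/-- `d/dj` kills the constants of `A₀`. -/
theorem sqgpc_der_algebraMap (a : A₀) :
    sqgvDer L₀ N (algebraMap A₀ (modularFunctionFieldFullC L₀ N) a) = 0 := by
  rw [IsScalarTower.algebraMap_apply A₀ L₀ (modularFunctionFieldFullC L₀ N)]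
  exact sqgvDer_algebraMap L₀ N _

/-- `d/dj` on `F_{L₀}(N)` as an `A₀`-derivation. -/
def sqgpcDer : Derivation A₀ (modularFunctionFieldFullC L₀ N) (modularFunctionFieldFullC L₀ N) :=
  sqgdeDer (sqgvDer L₀ N) (sqgvDer_mul L₀ N) (sqgpc_der_algebraMap N)

theorem sqgpcDer_apply (x : modularFunctionFieldFullC L₀ N) :
    sqgpcDer (A₀ := A₀) N x = sqgvDer L₀ N x := rfl

/-- `d_add` -/
theorem sqgpc_d_add (x y : modularFunctionFieldFullC L₀ N) :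
    sqgvDer L₀ N (x + y) = sqgvDer L₀ N x + sqgvDer L₀ N y := map_add _ x y

/-- `d_mul` -/
theorem sqgpc_d_mul (x y : modularFunctionFieldFullC L₀ N) :
    sqgvDer L₀ N (x * y) = sqgvDer L₀ N x * y + x * sqgvDer L₀ N y := sqgvDer_mul L₀ N x y

/-- `d_j` -/
theorem sqgpc_d_j : sqgvDer L₀ N (ssvmdJ L₀ N) = 1 := sqgvDer_j L₀ N

/-- `d_O` : `d/dj` preserves the Gauss ring. -/
theorem sqgpc_d_O (hϖ : Irreducible ϖ) :
    ∀ x ∈ s18vO A₀ (modularFunctionFieldFullC L₀ N),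
      sqgvDer L₀ N x ∈ s18vO A₀ (modularFunctionFieldFullC L₀ N) :=
  fun x hx => (sqgvDer_gauss N hϖ x hx).1

/-- `d_unif` : `D (ϖ z) = ϖ D z`. -/
theorem sqgpc_d_unif (hϖ : Irreducible ϖ) :
    ∀ z ∈ s18vO A₀ (modularFunctionFieldFullC L₀ N),
      ∃ z' ∈ s18vO A₀ (modularFunctionFieldFullC L₀ N),
        sqgvDer L₀ N (algebraMap A₀ (modularFunctionFieldFullC L₀ N) ϖ * z) =
          algebraMap A₀ (modularFunctionFieldFullC L₀ N) ϖ * z' := by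
  intro z hz
  refine ⟨sqgvDer L₀ N z, sqgpc_d_O N hϖ z hz, ?_⟩
  rw [sqgvDer_mul, sqgpc_der_algebraMap, zero_mul, zero_add]

/-- `j` lies in the Gauss ring. -/
theorem sqgpc_j_mem : ssvmdJ L₀ N ∈ s18vO A₀ (modularFunctionFieldFullC L₀ N) := by
  refine ⟨jqModC A₀, 1, ?_, by rw [map_one]; exact one_mem _,
    by rw [map_one]; exact one_ne_zero, ?_⟩
  · rw [coeffMap_jqModC]
    exact jqModC_mem_full L₀ N
  · rw [map_one, mul_one, coeffMap_jqModC]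
    rfl

/-- **`pb`** : the `p`-basis `1, j, …, j^(q-1)` of the Gauss ring of `F_{L₀}(N)` modulo `ϖ`, in the
literal shape of the field `pb` of helper22's `SqgtdHyp`.  `s` is ANY good chart coordinate. -/
theorem sqgpc_pb (hϖ : Irreducible ϖ) (s : modularFunctionFieldFullC L₀ N)
    (hc : S18Coord hϖ (modularFunctionFieldFullC L₀ N) s) (H : GrdfbHyp hϖ s)
    [PerfectField (ResidueField A₀)] (q : ℕ) [Fact q.Prime] (hqϖ : ϖ ∣ (q : A₀)) :
    ∀ x ∈ s18vO A₀ (modularFunctionFieldFullC L₀ N),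
      ∃ a : Fin q → modularFunctionFieldFullC L₀ N,
        (∀ i, a i ∈ s18vO A₀ (modularFunctionFieldFullC L₀ N)) ∧
        ∃ z ∈ s18vO A₀ (modularFunctionFieldFullC L₀ N),
          x = ∑ i : Fin q, a i ^ q * ssvmdJ L₀ N ^ (i : ℕ) +
            algebraMap A₀ (modularFunctionFieldFullC L₀ N) ϖ * z := by
  haveI := hc.fin
  have h := sqgpb_pbasis_of_deriv (L := L₀) hϖ s hc.transc H q hqϖ (sqgpcDer (A₀ := A₀) N)
    (by
      intro x hx
      rw [hc.intLoc_eq] at hx ⊢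
      exact sqgpc_d_O N hϖ x hx)
    (ssvmdJ L₀ N) (by rw [hc.intLoc_eq]; exact sqgpc_j_mem N) (sqgpc_d_j N)
  intro x hx
  rw [← hc.intLoc_eq] at hx
  obtain ⟨a, ha, z, hz, hxz⟩ := h x hx
  refine ⟨a, fun i => ?_, z, ?_, hxz⟩
  · rw [← hc.intLoc_eq]; exact ha i
  · rw [← hc.intLoc_eq]; exact hz

end Gauss

/-! ### The instance `A₀ = 𝔸 ∩ E`, `𝔸 | q` -/

section DVal

variable {q : ℕ} [Fact q.Prime] (𝔸 : ValuationSubring Qb) (E : IntermediateField ℚ Qb)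
  [IsDiscreteValuationRing ↥(s18dVal 𝔸 E)] [CharZero ↥(s18dVal 𝔸 E)]

/-- the residue field of `𝔸 ∩ E` is perfect -/
theorem sqgpc_perfectField_dVal (hA : 𝔸.LiesOverPrime q) {ϖ : ↥(s18dVal 𝔸 E)}
    (hϖ : Irreducible ϖ) : PerfectField (ResidueField ↥(s18dVal 𝔸 E)) := by
  haveI : CharP (ResidueField ↥(s18dVal 𝔸 E)) q := s18v_charP hϖ (s18d_natCast_mem 𝔸 E hA)
  haveI : PerfectRing (ResidueField ↥(s18dVal 𝔸 E)) q :=
    PerfectRing.ofSurjective _ q (ssgfl_frobenius_surjective_dVal 𝔸 E q)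
  exact PerfectRing.toPerfectField _ q

/-- `ϖ ∣ q` in `𝔸 ∩ E` -/
theorem sqgpc_unif_dvd_dVal (hA : 𝔸.LiesOverPrime q) {ϖ : ↥(s18dVal 𝔸 E)}
    (hϖ : Irreducible ϖ) : ϖ ∣ ((q : ℕ) : ↥(s18dVal 𝔸 E)) := by
  have h := s18d_natCast_mem 𝔸 E hA
  rw [hϖ.maximalIdeal_eq, Ideal.mem_span_singleton] at h
  exact h

variable (M : ℕ) [NeZero M]

/-- **`pb` at `(𝔸, E, M, q)`** : for ANY good chart coordinate `s` of `F_E(M)`. -/
theorem sqgpc_pb_dVal (hA : 𝔸.LiesOverPrime q) {ϖ : ↥(s18dVal 𝔸 E)} (hϖ : Irreducible ϖ)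
    (s : modularFunctionFieldFullC E M)
    (hc : S18Coord hϖ (modularFunctionFieldFullC E M) s) (H : GrdfbHyp hϖ s) :
    ∀ x ∈ s18vO ↥(s18dVal 𝔸 E) (modularFunctionFieldFullC E M),
      ∃ a : Fin q → modularFunctionFieldFullC E M,
        (∀ i, a i ∈ s18vO ↥(s18dVal 𝔸 E) (modularFunctionFieldFullC E M)) ∧
        ∃ z ∈ s18vO ↥(s18dVal 𝔸 E) (modularFunctionFieldFullC E M),
          x = ∑ i : Fin q, a i ^ q * ssvmdJ E M ^ (i : ℕ) +
            algebraMap ↥(s18dVal 𝔸 E) (modularFunctionFieldFullC E M) ϖ * z := by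
  haveI := sqgpc_perfectField_dVal 𝔸 E hA hϖ
  exact sqgpc_pb M hϖ s hc H q (sqgpc_unif_dvd_dVal 𝔸 E hA hϖ)

end DVal

end Fermat.Agent.SQ
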