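/-
Program Q (S36), risk R1, (T2-x), leaf (DIFF) (abstract, Mathlib only); written by helper22.

`V` a valuation subring of `F` with `𝔪_V = π₂ V`; `β₀ β₂ : F₀ →+* F`; `O₀ ⊆ F₀` a subring with
`β_i O₀ ⊆ V` and `β₂ x ≡ β₀ x mod 𝔪_V` on `O₀` (B02); `j ∈ O₀` with `β₂ j - β₀ j = π₂`;
`ϖ` with `β₂ ϖ = β₀ ϖ ∈ 𝔪_V`; `q ∈ 𝔪_V`; `D` an additive Leibniz map of `F₀` with `D j = 1`,
`D O₀ ⊆ O₀`, `D (ϖ O₀) ⊆ ϖ O₀`; and a `q`-basis (PB) : `O₀ = ∑_{i<q} O₀^q j^i + ϖ O₀`.  Then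

  `β₂ x - β₀ x = π₂ (β₀ (D x) + m)`,  `m ∈ 𝔪_V`,   for every `x ∈ O₀`

(`sqgtd_diff`) : the difference `δ = β₂ - β₀` is `π₂ · β₀ ∘ D` to first order.
-/
import Mathlib

set_option autoImplicit false
set_option linter.unusedSectionVars false
set_option linter.unusedVariables false

namespace Fermat.Agent.SQ

variable {F₀ F : Type*} [CommRing F₀] [Field F]

/-- the first-order property of `x` : `β₂ x - β₀ x = π₂ (β₀ (D x) + m)` with `m ∈ 𝔪_V` -/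
def SqgtdGood (V : ValuationSubring F) (β₀ β₂ : F₀ →+* F) (D : F₀ → F₀) (π₂ : F) (x : F₀) : Prop :=
  ∃ m : F, m ∈ V.nonunits ∧ β₂ x - β₀ x = π₂ * (β₀ (D x) + m)

section Val

variable (V : ValuationSubring F)

theorem sqgtd_add_mem {a b : F} (ha : a ∈ V.nonunits) (hb : b ∈ V.nonunits) :
    a + b ∈ V.nonunits := by
  rw [ValuationSubring.mem_nonunits_iff] at ha hb ⊢
  exact V.valuation.map_add_lt ha hb

theorem sqgtd_sub_mem {a b : F} (ha : a ∈ V.nonunits) (hb : b ∈ V.nonunits) :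
    a - b ∈ V.nonunits := by
  rw [ValuationSubring.mem_nonunits_iff] at ha hb ⊢
  exact V.valuation.map_sub_lt ha hb

theorem sqgtd_mul_mem_left {a b : F} (ha : a ∈ V.nonunits) (hb : b ∈ V) : a * b ∈ V.nonunits := by
  rw [ValuationSubring.mem_nonunits_iff] at ha ⊢
  rw [← ValuationSubring.valuation_le_one_iff] at hb
  rw [map_mul]
  exact mul_lt_one_of_lt_of_le ha hb

theorem sqgtd_mul_mem_right {a b : F} (ha : a ∈ V) (hb : b ∈ V.nonunits) : a * b ∈ V.nonunits := by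
  rw [mul_comm]
  exact sqgtd_mul_mem_left V hb ha

theorem sqgtd_mem_of_nonunits {a : F} (ha : a ∈ V.nonunits) : a ∈ V := by
  rw [ValuationSubring.mem_nonunits_iff] at ha
  rw [← ValuationSubring.valuation_le_one_iff]
  exact ha.le

theorem sqgtd_sum_mem {ι : Type*} (s : Finset ι) (f : ι → F) (h : ∀ i ∈ s, f i ∈ V.nonunits) :
    ∑ i ∈ s, f i ∈ V.nonunits := by
  rw [ValuationSubring.mem_nonunits_iff]
  refine V.valuation.map_sum_lt one_ne_zero fun i hi => ?_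
  exact (ValuationSubring.mem_nonunits_iff V).mp (h i hi)

/-- `(u + h)^n - u^n ∈ 𝔪_V` for `u ∈ V`, `h ∈ 𝔪_V` -/
theorem sqgtd_pow_sub_mem {u h : F} (hu : u ∈ V) (hh : h ∈ V.nonunits) (n : ℕ) :
    (u + h) ^ n - u ^ n ∈ V.nonunits := by
  have huh : u + h ∈ V := add_mem hu (sqgtd_mem_of_nonunits V hh)
  have e : (u + h) ^ n - u ^ n = (∑ i ∈ Finset.range n, (u + h) ^ i * u ^ (n - 1 - i)) * h := by
    have := Commute.geom_sum₂_mul (Commute.all (u + h) u) n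
    rw [← this]
    ring
  rw [e]
  refine sqgtd_mul_mem_right V ?_ hh
  exact sum_mem fun i _ => mul_mem (pow_mem huh i) (pow_mem hu _)

/-- `(u + h)^q - u^q ∈ h 𝔪_V` for `u ∈ V`, `h ∈ 𝔪_V`, `q ∈ 𝔪_V` -/
theorem sqgtd_pow_q_sub {u h : F} (hu : u ∈ V) (hh : h ∈ V.nonunits) (q : ℕ)
    (hq : (q : F) ∈ V.nonunits) : ∃ m ∈ V.nonunits, (u + h) ^ q - u ^ q = h * m := by
  refine ⟨∑ i ∈ Finset.range q, (u + h) ^ i * u ^ (q - 1 - i), ?_, ?_⟩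
  · -- the sum is `q u^(q-1)` modulo `𝔪_V`
    have e : ∑ i ∈ Finset.range q, (u + h) ^ i * u ^ (q - 1 - i) =
        ∑ i ∈ Finset.range q, ((u + h) ^ i - u ^ i) * u ^ (q - 1 - i) +
          ∑ i ∈ Finset.range q, u ^ i * u ^ (q - 1 - i) := by
      rw [← Finset.sum_add_distrib]
      refine Finset.sum_congr rfl fun i _ => ?_
      ring
    rw [e]
    refine sqgtd_add_mem V (sqgtd_sum_mem V _ _ fun i _ =>
      sqgtd_mul_mem_left V (sqgtd_pow_sub_mem V hu hh i) (pow_mem hu _)) ?_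
    have e2 : ∑ i ∈ Finset.range q, u ^ i * u ^ (q - 1 - i) = (q : F) * u ^ (q - 1) := by
      rw [Finset.sum_congr rfl (g := fun _ => u ^ (q - 1)) fun i hi => by
        rw [Finset.mem_range] at hi
        rw [← pow_add]
        congr 1
        omega]
      rw [Finset.sum_const, Finset.card_range, nsmul_eq_mul]
    rw [e2]
    exact sqgtd_mul_mem_left V hq (pow_mem hu _)
  · have := Commute.geom_sum₂_mul (Commute.all (u + h) u) q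
    rw [← this]
    ring

end Val

/-- the hypotheses of (DIFF) -/
structure SqgtdHyp (V : ValuationSubring F) (β₀ β₂ : F₀ →+* F) (O₀ : Subring F₀) (D : F₀ → F₀)
    (π₂ : F) (j ϖ : F₀) (q : ℕ) : Prop where
  /-- `β₀ O₀ ⊆ V` -/
  mem₀ : ∀ x ∈ O₀, β₀ x ∈ V
  /-- `β₂ O₀ ⊆ V` -/
  mem₂ : ∀ x ∈ O₀, β₂ x ∈ V
  /-- (B02) : `β₂ ≡ β₀` on `O₀` modulo `𝔪_V` -/
  b02 : ∀ x ∈ O₀, β₂ x - β₀ x ∈ V.nonunits
  /-- `𝔪_V = π₂ V` -/
  gen : ∀ m ∈ V.nonunits, ∃ c ∈ V, m = π₂ * c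
  j_mem : j ∈ O₀
  /-- `β₂ j - β₀ j = π₂` -/
  j_diff : β₂ j - β₀ j = π₂
  /-- `ϖ` is a constant -/
  unif_eq : β₂ ϖ = β₀ ϖ
  unif_mem : β₀ ϖ ∈ V.nonunits
  q_mem : (q : F) ∈ V.nonunits
  d_add : ∀ x y, D (x + y) = D x + D y
  d_mul : ∀ x y, D (x * y) = D x * y + x * D y
  d_j : D j = 1
  d_O : ∀ x ∈ O₀, D x ∈ O₀
  /-- `D (ϖ O₀) ⊆ ϖ O₀` -/
  d_unif : ∀ z ∈ O₀, ∃ z' ∈ O₀, D (ϖ * z) = ϖ * z'
  /-- (PB) : the `q`-basis `1, j, …, j^(q-1)` modulo `ϖ` -/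
  pb : ∀ x ∈ O₀, ∃ a : Fin q → F₀, (∀ i, a i ∈ O₀) ∧ ∃ z ∈ O₀,
    x = ∑ i, a i ^ q * j ^ (i : ℕ) + ϖ * z

namespace SqgtdHyp

variable {V : ValuationSubring F} {β₀ β₂ : F₀ →+* F} {O₀ : Subring F₀} {D : F₀ → F₀} {π₂ : F}
  {j ϖ : F₀} {q : ℕ}

theorem d_zero (H : SqgtdHyp V β₀ β₂ O₀ D π₂ j ϖ q) : D 0 = 0 := by
  have h := H.d_add 0 0
  rw [add_zero] at h
  exact left_eq_add.mp h

theorem d_one (H : SqgtdHyp V β₀ β₂ O₀ D π₂ j ϖ q) : D 1 = 0 := by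
  have h := H.d_mul 1 1
  rw [mul_one, mul_one, one_mul] at h
  exact left_eq_add.mp h

theorem d_pow (H : SqgtdHyp V β₀ β₂ O₀ D π₂ j ϖ q) (a : F₀) (n : ℕ) :
    D (a ^ n) = (n : F₀) * a ^ (n - 1) * D a := by
  induction n with
  | zero => rw [pow_zero, H.d_one, Nat.cast_zero, zero_mul, zero_mul]
  | succ n ih =>
    rw [pow_succ, H.d_mul, ih, Nat.add_sub_cancel]
    rcases Nat.eq_zero_or_pos n with rfl | hn
    · simp
    · have h2 : a ^ n = a ^ (n - 1) * a := by rw [← pow_succ, Nat.sub_add_cancel hn]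
      rw [h2]
      push_cast
      ring

theorem zero_mem_nonunits (V : ValuationSubring F) : (0 : F) ∈ V.nonunits := by
  rw [ValuationSubring.mem_nonunits_iff, map_zero]
  exact zero_lt_one

theorem good_zero (H : SqgtdHyp V β₀ β₂ O₀ D π₂ j ϖ q) : SqgtdGood V β₀ β₂ D π₂ 0 :=
  ⟨0, zero_mem_nonunits V, by rw [map_zero, map_zero, H.d_zero, map_zero, add_zero, mul_zero,
    sub_zero]⟩

theorem good_one (H : SqgtdHyp V β₀ β₂ O₀ D π₂ j ϖ q) : SqgtdGood V β₀ β₂ D π₂ 1 :=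
  ⟨0, zero_mem_nonunits V, by rw [map_one, map_one, H.d_one, map_zero, add_zero, mul_zero,
    sub_self]⟩

theorem good_j (H : SqgtdHyp V β₀ β₂ O₀ D π₂ j ϖ q) : SqgtdGood V β₀ β₂ D π₂ j :=
  ⟨0, zero_mem_nonunits V, by rw [H.j_diff, H.d_j, map_one, add_zero, mul_one]⟩

theorem good_add (H : SqgtdHyp V β₀ β₂ O₀ D π₂ j ϖ q) {x y : F₀}
    (gx : SqgtdGood V β₀ β₂ D π₂ x) (gy : SqgtdGood V β₀ β₂ D π₂ y) :
    SqgtdGood V β₀ β₂ D π₂ (x + y) := by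
  obtain ⟨m, hm, ex⟩ := gx
  obtain ⟨n, hn, ey⟩ := gy
  refine ⟨m + n, sqgtd_add_mem V hm hn, ?_⟩
  rw [map_add, map_add, H.d_add, map_add]
  linear_combination ex + ey

theorem good_mul (H : SqgtdHyp V β₀ β₂ O₀ D π₂ j ϖ q) {x y : F₀} (hx : x ∈ O₀) (hy : y ∈ O₀)
    (gx : SqgtdGood V β₀ β₂ D π₂ x) (gy : SqgtdGood V β₀ β₂ D π₂ y) :
    SqgtdGood V β₀ β₂ D π₂ (x * y) := by
  obtain ⟨m, hm, ex⟩ := gx
  obtain ⟨n, hn, ey⟩ := gy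
  refine ⟨β₀ (D x) * (β₂ y - β₀ y) + m * β₂ y + β₀ x * n, ?_, ?_⟩
  · refine sqgtd_add_mem V (sqgtd_add_mem V ?_ ?_) ?_
    · exact sqgtd_mul_mem_right V (H.mem₀ _ (H.d_O x hx)) (H.b02 y hy)
    · exact sqgtd_mul_mem_left V hm (H.mem₂ y hy)
    · exact sqgtd_mul_mem_right V (H.mem₀ x hx) hn
  · rw [map_mul, map_mul, H.d_mul, map_add, map_mul, map_mul]
    linear_combination (β₂ y) * ex + (β₀ x) * ey

theorem good_pow_j (H : SqgtdHyp V β₀ β₂ O₀ D π₂ j ϖ q) (i : ℕ) :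
    SqgtdGood V β₀ β₂ D π₂ (j ^ i) := by
  induction i with
  | zero => rw [pow_zero]; exact H.good_one
  | succ i ih => rw [pow_succ]; exact H.good_mul (pow_mem H.j_mem i) H.j_mem ih H.good_j

theorem good_pow_q (H : SqgtdHyp V β₀ β₂ O₀ D π₂ j ϖ q) {a : F₀} (ha : a ∈ O₀) :
    SqgtdGood V β₀ β₂ D π₂ (a ^ q) := by
  obtain ⟨m₁, hm₁, e₁⟩ := sqgtd_pow_q_sub V (H.mem₀ a ha) (H.b02 a ha) q H.q_mem
  obtain ⟨c, hc, ec⟩ := H.gen _ (H.b02 a ha)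
  have hD : β₀ (D (a ^ q)) ∈ V.nonunits := by
    rw [H.d_pow, mul_assoc, map_mul, map_natCast]
    exact sqgtd_mul_mem_left V H.q_mem
      (H.mem₀ _ (mul_mem (pow_mem ha _) (H.d_O a ha)))
  refine ⟨c * m₁ - β₀ (D (a ^ q)), sqgtd_sub_mem V (sqgtd_mul_mem_right V hc hm₁) hD, ?_⟩
  have e₂ : β₂ (a ^ q) - β₀ (a ^ q) = (β₀ a + (β₂ a - β₀ a)) ^ q - β₀ a ^ q := by
    rw [map_pow, map_pow]
    ring
  rw [e₂, e₁, ec]
  ring

theorem good_unif (H : SqgtdHyp V β₀ β₂ O₀ D π₂ j ϖ q) {z : F₀} (hz : z ∈ O₀) :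
    SqgtdGood V β₀ β₂ D π₂ (ϖ * z) := by
  obtain ⟨c, hc, ec⟩ := H.gen _ (H.b02 z hz)
  obtain ⟨z', hz', ez'⟩ := H.d_unif z hz
  refine ⟨β₀ ϖ * c - β₀ ϖ * β₀ z', sqgtd_sub_mem V (sqgtd_mul_mem_left V H.unif_mem hc)
    (sqgtd_mul_mem_left V H.unif_mem (H.mem₀ z' hz')), ?_⟩
  rw [ez', map_mul, map_mul, map_mul, H.unif_eq]
  linear_combination (β₀ ϖ) * ec

/-- **(DIFF)** : `β₂ x - β₀ x = π₂ (β₀ (D x) + m)`, `m ∈ 𝔪_V`, for every `x ∈ O₀`. -/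
theorem diff (H : SqgtdHyp V β₀ β₂ O₀ D π₂ j ϖ q) {x : F₀} (hx : x ∈ O₀) :
    ∃ m : F, m ∈ V.nonunits ∧ β₂ x - β₀ x = π₂ * (β₀ (D x) + m) := by
  obtain ⟨a, ha, z, hz, rfl⟩ := H.pb x hx
  refine H.good_add ?_ (H.good_unif hz)
  refine Finset.sum_induction _ (SqgtdGood V β₀ β₂ D π₂) (fun _ _ => H.good_add) H.good_zero
    fun i _ => ?_
  exact H.good_mul (pow_mem (ha i) q) (pow_mem H.j_mem _) (H.good_pow_q (ha i)) (H.good_pow_j _)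

end SqgtdHyp

/-- **(DIFF)**, unbundled conclusion -/
theorem sqgtd_diff {V : ValuationSubring F} {β₀ β₂ : F₀ →+* F} {O₀ : Subring F₀} {D : F₀ → F₀}
    {π₂ : F} {j ϖ : F₀} {q : ℕ} (H : SqgtdHyp V β₀ β₂ O₀ D π₂ j ϖ q) :
    ∀ x ∈ O₀, ∃ m : F, m ∈ V.nonunits ∧ β₂ x - β₀ x = π₂ * (β₀ (D x) + m) :=
  fun _ hx => H.diff hx

/-! ### Consequences : `π_x = β₂ x - β₀ x` is a uniformiser when `D x` is a unit, and `U_x ≡ U_j β₀(D x)^n` -/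

section Consequences

variable {V : ValuationSubring F} {β₀ β₂ : F₀ →+* F} {O₀ : Subring F₀} {D : F₀ → F₀} {π₂ : F}
  {j ϖ : F₀} {q : ℕ}

/-- if `β₀ (D x)` is a `V`-unit then `π_x = β₂ x - β₀ x` has the valuation of `π₂` -/
theorem sqgtd_unif (H : SqgtdHyp V β₀ β₂ O₀ D π₂ j ϖ q) {x : F₀} (hx : x ∈ O₀)
    (hu : V.valuation (β₀ (D x)) = 1) :
    V.valuation (β₂ x - β₀ x) = V.valuation π₂ := by
  obtain ⟨m, hm, e⟩ := H.diff hx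
  rw [ValuationSubring.mem_nonunits_iff] at hm
  rw [e, map_mul]
  have h1 : V.valuation (β₀ (D x) + m) = 1 := by
    rw [← hu] at hm
    rw [V.valuation.map_add_eq_of_lt_left hm, hu]
  rw [h1, mul_one]

/-- `π_x^n · c ≡ π₂^n · c · β₀(D x)^n mod 𝔪_V` whenever `π₂^n · c ∈ V` (e.g. `c = ϖ⁻¹`, `n = q - 1` :
`U_x ≡ U_j · β₀(D x)^(q-1)`) -/
theorem sqgtd_U_cong (H : SqgtdHyp V β₀ β₂ O₀ D π₂ j ϖ q) {x : F₀} (hx : x ∈ O₀) (n : ℕ) (c : F)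
    (hc : π₂ ^ n * c ∈ V) :
    (β₂ x - β₀ x) ^ n * c - π₂ ^ n * c * β₀ (D x) ^ n ∈ V.nonunits := by
  obtain ⟨m, hm, e⟩ := H.diff hx
  have h1 := sqgtd_pow_sub_mem V (H.mem₀ _ (H.d_O x hx)) hm n
  have e2 : (β₂ x - β₀ x) ^ n * c - π₂ ^ n * c * β₀ (D x) ^ n =
      π₂ ^ n * c * ((β₀ (D x) + m) ^ n - β₀ (D x) ^ n) := by
    rw [e, mul_pow]
    ring
  rw [e2]
  exact sqgtd_mul_mem_right V hc h1

end Consequences

end Fermat.Agent.SQ
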