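/-
Program Q (S36), risk R1, (T2-x) : helper22's `SqgtdHyp` (`SQ/Germ/T2Diff.lean`) at `(𝔸, E, M, q)` FROM
ITS VALUATION HALF (helper13) : the derivation half (`d_add d_mul d_j d_O d_unif pb`, `j_mem`) is
filled in from `SQ/Germ/PBasisConc.lean`; the valuation half (`mem₀ mem₂ b02 gen j_diff unif_eq
unif_mem q_mem`) is taken as named hypotheses, for an ARBITRARY field `F`, valuation subring `V`, ring
homs `β₀ β₂ : F_E(M) →+* F` and `π₂ : F`.
-/
import Mathlib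
import Fermat.Agent.SQ.Germ.PBasisConc
import Fermat.Agent.SQ.Germ.T2Diff

set_option autoImplicit false
set_option linter.unusedSectionVars false
set_option linter.unusedVariables false
set_option synthInstance.maxHeartbeats 400000

noncomputable section

namespace Fermat.Agent.SQ

open ModularCurve IsLocalRing Fermat.Agent.S18 Fermat.Agent.SS Fermat.Agent.G

local notation "Qb" => AlgebraicClosure ℚ

/-- **`SqgtdHyp` at `(𝔸, E, M, q)` from its valuation half.**  `s` is ANY good chart coordinate of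
`F_E(M)` (`S18Coord`, `GrdfbHyp`). -/
theorem sqgpc_hyp {q : ℕ} [Fact q.Prime] (𝔸 : ValuationSubring Qb) (E : IntermediateField ℚ Qb)
    [IsDiscreteValuationRing ↥(s18dVal 𝔸 E)] [CharZero ↥(s18dVal 𝔸 E)] (M : ℕ) [NeZero M]
    (hA : 𝔸.LiesOverPrime q) {ϖ : ↥(s18dVal 𝔸 E)} (hϖ : Irreducible ϖ)
    (s : modularFunctionFieldFullC E M)
    (hc : S18Coord hϖ (modularFunctionFieldFullC E M) s) (H : GrdfbHyp hϖ s)
    {F : Type*} [Field F] (V : ValuationSubring F)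
    (β₀ β₂ : ↥(modularFunctionFieldFullC E M) →+* F) (π₂ : F)
    (mem₀ : ∀ x ∈ s18vO ↥(s18dVal 𝔸 E) (modularFunctionFieldFullC E M), β₀ x ∈ V)
    (mem₂ : ∀ x ∈ s18vO ↥(s18dVal 𝔸 E) (modularFunctionFieldFullC E M), β₂ x ∈ V)
    (b02 : ∀ x ∈ s18vO ↥(s18dVal 𝔸 E) (modularFunctionFieldFullC E M),
      β₂ x - β₀ x ∈ V.nonunits)
    (gen : ∀ m ∈ V.nonunits, ∃ c ∈ V, m = π₂ * c)
    (j_diff : β₂ (ssvmdJ E M) - β₀ (ssvmdJ E M) = π₂)
    (unif_eq : β₂ (algebraMap ↥(s18dVal 𝔸 E) (modularFunctionFieldFullC E M) ϖ) =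
      β₀ (algebraMap ↥(s18dVal 𝔸 E) (modularFunctionFieldFullC E M) ϖ))
    (unif_mem : β₀ (algebraMap ↥(s18dVal 𝔸 E) (modularFunctionFieldFullC E M) ϖ) ∈ V.nonunits)
    (q_mem : (q : F) ∈ V.nonunits) :
    SqgtdHyp V β₀ β₂ (s18vO ↥(s18dVal 𝔸 E) (modularFunctionFieldFullC E M)) (⇑(sqgvDer E M)) π₂
      (ssvmdJ E M) (algebraMap ↥(s18dVal 𝔸 E) (modularFunctionFieldFullC E M) ϖ) q :=
  { mem₀ := mem₀, mem₂ := mem₂, b02 := b02, gen := gen, j_mem := sqgpc_j_mem M, j_diff := j_diff,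
    unif_eq := unif_eq, unif_mem := unif_mem, q_mem := q_mem,
    d_add := sqgpc_d_add M, d_mul := sqgpc_d_mul M, d_j := sqgpc_d_j M, d_O := sqgpc_d_O M hϖ,
    d_unif := sqgpc_d_unif M hϖ, pb := sqgpc_pb_dVal 𝔸 E M hA hϖ s hc H }

end Fermat.Agent.SQ
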