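import Mathlib
import Fermat.Agent.SQ.Three
import Fermat.Agent.SQ.ThreeLoc
import Fermat.Agent.SS.K.Krull
import Fermat.Agent.SQ.Germ.DerivNode

/-!
# Program Q (S36), risk R1, (T2-x) : ASSEMBLY (prefix `sqgt`)

`𝔫` a closed point of level `M q q` lying on the component `V₂` (multiplicity `e₂ = q - 1`) only.

* `sqgt_uy_core` (Mathlib only) : **(UY)**.  From the chart-`j` congruence
  `π₂^n / ϖ + c · α g ∈ 𝔪_V` (`n = q - 1`), the first-order formula `π_x = π₂ (α d + m)`, `m ∈ 𝔪_V`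
  (`d = α₁ (dx/dj)`, leaf (DIFF)) and the twisted Frobenius congruence `d^(n+1) - d' ∈ 𝔪_{W₁}`
  (`d' = φ₁ (dx'/dj)`) :  `π_x^n / ϖ + c · α (g d' / d) ∈ 𝔪_V`, i.e. the congruence for the mixed
  function `g_{x,x'} = g · φ₁(dx'/dj) / α₁(dx/dj)`.
* `sqgt_unif_core` : `π_x` has the same value as `π₂`.
* `sqgt_gk` : (GK) generalised Krull in `ValuationSubring` form (for a finite family `SqvFam`).
* `sqgt_hT2_fam`, `sqgt_hT2_three` : **the hypothesis `hT2`** of the germ theorem at a closed point on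
  `V₂` only, from `π ∈ P_𝔫 ∩ 𝔪_{V₂}`, `π^{e₂}/ϖ ≡ G₀ mod 𝔪_{V₂}`, `G₀` a `V₂`-unit without zero or pole
  at the horizontal places through `𝔫` : `ϖ = π^{e₂} w`, `w ∈ P_𝔫`.
-/

set_option autoImplicit false
set_option linter.unusedSectionVars false
set_option linter.unusedVariables false
set_option linter.style.haveILetI false

noncomputable section

namespace Fermat.Agent.SQ

open Polynomial IntermediateField Fermat.Agent.S18 Fermat.Agent.SS IsLocalRing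

/-! ### Part A : the abstract congruences (Mathlib only) -/

section Core

variable {F₁ F : Type*} [Field F₁] [Field F]

theorem sqgt_mem_of_nonunits (V : ValuationSubring F) {a : F} (ha : a ∈ V.nonunits) : a ∈ V :=
  V.nonunits_subset ha

theorem sqgt_mul_nonunits_left (V : ValuationSubring F) {a b : F} (ha : a ∈ V.nonunits)
    (hb : b ∈ V) : a * b ∈ V.nonunits := by
  rw [ValuationSubring.mem_nonunits_iff] at ha ⊢
  rw [← ValuationSubring.valuation_le_one_iff] at hb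
  rw [map_mul]
  exact mul_lt_one_of_lt_of_le ha hb

theorem sqgt_mul_nonunits_right (V : ValuationSubring F) {a b : F} (ha : a ∈ V)
    (hb : b ∈ V.nonunits) : a * b ∈ V.nonunits := by
  rw [mul_comm]
  exact sqgt_mul_nonunits_left V hb ha

theorem sqgt_add_nonunits (V : ValuationSubring F) {a b : F} (ha : a ∈ V.nonunits)
    (hb : b ∈ V.nonunits) : a + b ∈ V.nonunits := by
  rw [ValuationSubring.mem_nonunits_iff] at ha hb ⊢
  exact V.valuation.map_add_lt ha hb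

theorem sqgt_sub_nonunits (V : ValuationSubring F) {a b : F} (ha : a ∈ V.nonunits)
    (hb : b ∈ V.nonunits) : a - b ∈ V.nonunits := by
  rw [ValuationSubring.mem_nonunits_iff] at ha hb ⊢
  exact V.valuation.map_sub_lt ha hb

theorem sqgt_neg_nonunits (V : ValuationSubring F) {a : F} (ha : a ∈ V.nonunits) :
    -a ∈ V.nonunits := by
  rw [ValuationSubring.mem_nonunits_iff] at ha ⊢
  rwa [Valuation.map_neg]

/-- `(u + m)^n - u^n ∈ 𝔪_V` for `u ∈ V`, `m ∈ 𝔪_V` -/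
theorem sqgt_pow_sub_nonunits (V : ValuationSubring F) {u m : F} (hu : u ∈ V)
    (hm : m ∈ V.nonunits) (n : ℕ) : (u + m) ^ n - u ^ n ∈ V.nonunits := by
  have hum : u + m ∈ V := V.add_mem _ _ hu (V.nonunits_subset hm)
  have e : (u + m) ^ n - u ^ n = (∑ i ∈ Finset.range n, (u + m) ^ i * u ^ (n - 1 - i)) * m := by
    have := Commute.geom_sum₂_mul (Commute.all (u + m) u) n
    rw [← this]
    ring
  rw [e]
  refine sqgt_mul_nonunits_right V ?_ hm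
  exact sum_mem fun i _ => V.mul_mem _ _ (V.pow_mem hum i) (V.pow_mem hu _)

/-- **(UY), abstract.**  `U_j := π₂^n/ϖ ≡ -c·α(g)`, `π_x = π₂ (α d + m)`, `d^(n+1) ≡ d'` on `W₁`
⟹ `U_x := π_x^n/ϖ ≡ -c·α(g d'/d)` on `V`. -/
theorem sqgt_uy_core (α : F₁ →+* F) (W₁ : ValuationSubring F₁) (V : ValuationSubring F)
    (hαW : ∀ y ∈ W₁, α y ∈ V) (hαm : ∀ y ∈ W₁.nonunits, α y ∈ V.nonunits) (n : ℕ)
    {π₂ πx ϖ c m : F} {g d d' : F₁} (hc : c ∈ V)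
    (hT2j : π₂ ^ n * ϖ⁻¹ + c * α g ∈ V.nonunits)
    (hm : m ∈ V.nonunits) (hdiff : πx = π₂ * (α d + m))
    (hg : g ∈ W₁) (hd : d ∈ W₁) (hdi : d⁻¹ ∈ W₁) (hd0 : d ≠ 0)
    (hF : d ^ (n + 1) - d' ∈ W₁.nonunits) :
    πx ^ n * ϖ⁻¹ + c * α (g * d' / d) ∈ V.nonunits := by
  have hαd : α d ∈ V := hαW d hd
  have hαg : α g ∈ V := hαW g hg
  -- `U_j ∈ V`
  have hU : π₂ ^ n * ϖ⁻¹ ∈ V := by
    have e : π₂ ^ n * ϖ⁻¹ = (π₂ ^ n * ϖ⁻¹ + c * α g) - c * α g := by ring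
    rw [e]
    exact sub_mem (V.nonunits_subset hT2j) (V.mul_mem _ _ hc hαg)
  -- the `W₁`-congruence `g d^n ≡ g d'/d`
  have hW : g * d ^ n - g * d' / d ∈ W₁.nonunits := by
    have e : g * d ^ n - g * d' / d = g * d⁻¹ * (d ^ (n + 1) - d') := by
      field_simp
      ring
    rw [e]
    exact sqgt_mul_nonunits_right W₁ (W₁.mul_mem _ _ hg hdi) hF
  have hV := hαm _ hW
  rw [map_sub, map_mul, map_pow] at hV
  -- assemble
  have e : πx ^ n * ϖ⁻¹ + c * α (g * d' / d) =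
      π₂ ^ n * ϖ⁻¹ * ((α d + m) ^ n - α d ^ n) + (π₂ ^ n * ϖ⁻¹ + c * α g) * α d ^ n -
        c * (α g * α d ^ n - α (g * d' / d)) := by
    rw [hdiff, mul_pow]
    ring
  rw [e]
  refine sqgt_sub_nonunits V (sqgt_add_nonunits V ?_ ?_) ?_
  · exact sqgt_mul_nonunits_right V hU (sqgt_pow_sub_nonunits V hαd hm n)
  · exact sqgt_mul_nonunits_left V hT2j (V.pow_mem hαd n)
  · exact sqgt_mul_nonunits_right V hc hV

/-- `π_x = π₂ (α d + m)` with `α d` a unit of `V`, `m ∈ 𝔪_V` : same value as `π₂`. -/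
theorem sqgt_unif_core (V : ValuationSubring F) {π₂ πx u m : F} (hu : V.valuation u = 1)
    (hm : m ∈ V.nonunits) (hdiff : πx = π₂ * (u + m)) : V.valuation πx = V.valuation π₂ := by
  have h1 : V.valuation (u + m) = 1 := by
    rw [add_comm, Valuation.map_add_eq_of_lt_right _ (by
      rw [hu]; exact (V.mem_nonunits_iff).mp hm), hu]
  rw [hdiff, map_mul, h1, mul_one]

end Core

/-! ### Part B : the abstract assembly (S18-T setting) -/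

section Assembly

universe u

variable {A : Type*} [CommRing A] [IsDomain A] [IsDiscreteValuationRing A] [CharZero A]
variable {L : Type*} [Field L] [Algebra A L] [IsFractionRing A L]
variable {F : Type u} [Field F] [Algebra A F] [Algebra L F] [IsScalarTower A L F]
variable {ϖ : A}
variable {hϖ : Irreducible ϖ} {t : F} {ι : Type*} {V : ι → ValuationSubring F} {π : ι → F}
  {e : ι → ℕ}

/-- **(GK)** generalised Krull : `x ∈ V i` for the components THROUGH `𝔫` and no pole at the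
horizontal places through `𝔫` ⟹ `x ∈ P_𝔫`. -/
theorem sqgt_gk [Fintype ι] (h : SqvFam hϖ t V π e) (ht : Transcendental L t)
    [FiniteDimensional L⟮t⟯ F] (𝔫 : Ideal ↥(s18tInt A t)) (h𝔫 : 𝔫.IsMaximal) {x : F}
    (hv : ∀ i, SqtOn (V i) t 𝔫 → x ∈ V i)
    (hpl : ∀ W : ValuationSubring F, S18IsPlace L W → s18tInt A t ≤ W.toSubring →
      sskCentre t W ⊆ (𝔫 : Set ↥(s18tInt A t)) → x ∈ W) : SsnfInLoc t 𝔫 x := by
  classical
  haveI h𝔫p : 𝔫.IsPrime := h𝔫.isPrime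
  obtain ⟨b, hb, hbv⟩ := h.exists_clear 𝔫
  obtain ⟨K, hK⟩ := h.arch ht x
  have hy : (b : F) ^ K * x ∈ s18tIntLoc A t (C ϖ) (s18t_prime_C hϖ) := by
    refine (h.mem_iff _).mpr fun i => ?_
    by_cases hon : SqtOn (V i) t 𝔫
    · exact (V i).mul_mem _ _ ((V i).pow_mem (h.int_mem i b.2) K) (hv i hon)
    · rw [← (V i).valuation_le_one_iff, map_mul, map_pow]
      calc (V i).valuation (b : F) ^ K * (V i).valuation x
          ≤ (V i).valuation (algebraMap A F ϖ) ^ K * (V i).valuation x :=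
            mul_le_mul_left (pow_le_pow_left₀ zero_le (hbv i hon) K) _
        _ = (V i).valuation (algebraMap A F ϖ ^ K * x) := by rw [map_mul, map_pow]
        _ ≤ 1 := hK i
  obtain ⟨s, hs, hsy⟩ := ssk_krull hϖ t ht 𝔫 h𝔫 _ hy (by
    intro W hW hPW hcentre
    exact W.mul_mem _ _ (W.pow_mem (hPW b.2) K) (hpl W hW hPW hcentre))
  refine ⟨s * b ^ K, fun hmem => ?_, ?_⟩
  · rcases h𝔫p.mem_or_mem hmem with h1 | h1
    · exact hs h1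
    · exact hb (h𝔫p.mem_of_pow_mem K h1)
  · have : ((s * b ^ K : ↥(s18tInt A t)) : F) * x = (s : F) * ((b : F) ^ K * x) := by
      push_cast; ring
    rw [this]; exact hsy

/-- an element of `P_𝔫 ∩ 𝔪_V` lies in `𝔫 P_𝔫` when `𝔫` lies on `V` -/
theorem sqgt_inMax_of_nonunits {W : ValuationSubring F} (hle : s18tInt A t ≤ W.toSubring)
    {𝔫 : Ideal ↥(s18tInt A t)} (hon : SqtOn W t 𝔫) {x : F} (hx : SsnfInLoc t 𝔫 x)
    (hxW : x ∈ W.nonunits) : SsnfInMax t 𝔫 x := by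
  obtain ⟨s, hs, hsx⟩ := hx
  refine ⟨s, hs, ⟨(s : F) * x, hsx⟩, hon _ ?_, rfl⟩
  exact sqgt_mul_nonunits_right W (hle s.2) hxW

/-- a unit plus an element of the maximal ideal is a unit of `P_𝔫` -/
theorem sqgt_inv_inLoc (𝔫 : Ideal ↥(s18tInt A t)) [h𝔫 : 𝔫.IsPrime] {U G₀ : F}
    (hU : SsnfInLoc t 𝔫 U) (hG : SsnfInLoc t 𝔫 G₀) (hGi : SsnfInLoc t 𝔫 G₀⁻¹) (hG0 : G₀ ≠ 0)
    (hd : SsnfInMax t 𝔫 (U - G₀)) : SsnfInLoc t 𝔫 U⁻¹ := by
  let U' : ↥(ssLocRing t 𝔫) := ⟨U, hU⟩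
  let G' : ↥(ssLocRing t 𝔫) := ⟨G₀, hG⟩
  let Gi' : ↥(ssLocRing t 𝔫) := ⟨G₀⁻¹, hGi⟩
  have hGu : IsUnit G' := by
    refine isUnit_iff_exists_inv.mpr ⟨Gi', Subtype.ext ?_⟩
    show G₀ * G₀⁻¹ = 1
    exact mul_inv_cancel₀ hG0
  have hdm : U' - G' ∈ maximalIdeal ↥(ssLocRing t 𝔫) :=
    (ssl_mem_maximalIdeal t 𝔫 (U' - G')).mpr hd
  have hUu : IsUnit U' := by
    by_contra hnu
    have h1 : U' ∈ maximalIdeal ↥(ssLocRing t 𝔫) := (mem_maximalIdeal _).mpr hnu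
    have h2 : G' ∈ maximalIdeal ↥(ssLocRing t 𝔫) := by
      have e : G' = U' - (U' - G') := by ring
      rw [e]
      exact Ideal.sub_mem _ h1 hdm
    exact (mem_maximalIdeal _).mp h2 hGu
  obtain ⟨y, hy⟩ := isUnit_iff_exists_inv.mp hUu
  have h3 : U * (y : F) = 1 := congrArg (fun z : ↥(ssLocRing t 𝔫) => (z : F)) hy
  have h4 : U⁻¹ = (y : F) := by
    have hU0 : U ≠ 0 := fun h0 => by rw [h0, zero_mul] at h3; exact zero_ne_one h3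
    exact inv_eq_of_mul_eq_one_right h3
  rw [h4]
  exact y.2

/-- **`hT2`, family form, `G₀` given as a unit of `P_𝔫`.**  `𝔫` a closed point lying on the
component `V i₂` only; `p ∈ P_𝔫`; `G₀, G₀⁻¹ ∈ P_𝔫` with `p^n / ϖ ≡ G₀` modulo `𝔪_{V i₂}`.  Then
`ϖ = p^n · w` with `w ∈ P_𝔫`. -/
theorem sqgt_hT2_fam_loc [Fintype ι] (h : SqvFam hϖ t V π e) (ht : Transcendental L t)
    [FiniteDimensional L⟮t⟯ F] (i₂ : ι) (𝔫 : Ideal ↥(s18tInt A t)) (h𝔫 : 𝔫.IsMaximal)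
    (hon : SqtOn (V i₂) t 𝔫) (hoff : ∀ i, i ≠ i₂ → ¬ SqtOn (V i) t 𝔫)
    {n : ℕ} {p G₀ : F} (hp : SsnfInLoc t 𝔫 p) (hG0 : G₀ ≠ 0)
    (hGloc : SsnfInLoc t 𝔫 G₀) (hGiloc : SsnfInLoc t 𝔫 G₀⁻¹)
    (hcong : p ^ n * (algebraMap A F ϖ)⁻¹ - G₀ ∈ (V i₂).nonunits) :
    ∃ w : F, SsnfInLoc t 𝔫 w ∧ algebraMap A F ϖ = p ^ n * w := by
  classical
  haveI h𝔫p : 𝔫.IsPrime := h𝔫.isPrime
  have hϖ0 : algebraMap A F ϖ ≠ 0 := sqt_unif_ne_zero L hϖ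
  have hG₂m : G₀ ∈ V i₂ := h.on_loc_mem hon hGloc
  have hG₂i : G₀⁻¹ ∈ V i₂ := h.on_loc_mem hon hGiloc
  have hG₂ : (V i₂).valuation G₀ = 1 := by
    have h1 := ((V i₂).valuation_le_one_iff _).mpr hG₂m
    have h2 := ((V i₂).valuation_le_one_iff _).mpr hG₂i
    rw [map_inv₀, inv_le_one₀ (zero_lt_iff.mpr ((Valuation.ne_zero_iff _).mpr hG0))] at h2
    exact le_antisymm h1 h2
  set U : F := p ^ n * (algebraMap A F ϖ)⁻¹ with hUdef
  have hU₂ : U ∈ V i₂ := by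
    have e : U = (U - G₀) + G₀ := by ring
    rw [e]
    exact (V i₂).add_mem _ _ ((V i₂).nonunits_subset hcong) hG₂m
  -- horizontal places
  have hUW : ∀ W : ValuationSubring F, S18IsPlace L W → s18tInt A t ≤ W.toSubring →
      sskCentre t W ⊆ (𝔫 : Set ↥(s18tInt A t)) → U ∈ W := by
    intro W hW hPW hc
    have hpW : p ∈ W := sqgk_inLoc_mem W hPW (fun x hx => hc hx) hp
    have hϖW : (algebraMap A F ϖ)⁻¹ ∈ W := by
      have e : (algebraMap A F ϖ)⁻¹ = algebraMap L F (algebraMap A L ϖ)⁻¹ := by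
        rw [map_inv₀, ← IsScalarTower.algebraMap_apply]
      rw [e]
      exact hW.2 _
    exact W.mul_mem _ _ (W.pow_mem hpW n) hϖW
  have hsel : ∀ {x : F}, x ∈ V i₂ → ∀ i, SqtOn (V i) t 𝔫 → x ∈ V i := by
    intro x hx i hi
    by_cases hii : i = i₂
    · rw [hii]; exact hx
    · exact absurd hi (hoff i hii)
  have hUloc : SsnfInLoc t 𝔫 U := sqgt_gk h ht 𝔫 h𝔫 (hsel hU₂) hUW
  have hdloc : SsnfInLoc t 𝔫 (U - G₀) := (ssLocRing t 𝔫).sub_mem hUloc hGloc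
  have hdmax : SsnfInMax t 𝔫 (U - G₀) :=
    sqgt_inMax_of_nonunits (fun x hx => h.int_mem i₂ hx) hon hdloc hcong
  have hUi : SsnfInLoc t 𝔫 U⁻¹ := sqgt_inv_inLoc 𝔫 hUloc hGloc hGiloc hG0 hdmax
  refine ⟨U⁻¹, hUi, ?_⟩
  -- `U ≠ 0`
  have hU0 : U ≠ 0 := by
    intro h0
    have h1 : (V i₂).valuation (U - G₀) = 1 := by
      rw [h0, zero_sub, Valuation.map_neg, hG₂]
    exact absurd ((V i₂).mem_nonunits_iff.mp hcong) (by rw [h1]; exact lt_irrefl _)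
  have hpn0 : p ^ n ≠ 0 := fun h0 => hU0 (by rw [hUdef, h0, zero_mul])
  rw [hUdef, mul_inv, inv_inv, ← mul_assoc, mul_inv_cancel₀ hpn0, one_mul]

/-- **`hT2`, family form.**  `𝔫` a closed point lying on the component `V i₂` only; `p ∈ P_𝔫`;
`G₀` a `V i₂`-unit, without zero or pole at the horizontal places through `𝔫`, with
`p^n / ϖ ≡ G₀` modulo `𝔪_{V i₂}`.  Then `ϖ = p^n · w` with `w ∈ P_𝔫`. -/
theorem sqgt_hT2_fam [Fintype ι] (h : SqvFam hϖ t V π e) (ht : Transcendental L t)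
    [FiniteDimensional L⟮t⟯ F] (i₂ : ι) (𝔫 : Ideal ↥(s18tInt A t)) (h𝔫 : 𝔫.IsMaximal)
    (hon : SqtOn (V i₂) t 𝔫) (hoff : ∀ i, i ≠ i₂ → ¬ SqtOn (V i) t 𝔫)
    {n : ℕ} {p G₀ : F} (hp : SsnfInLoc t 𝔫 p)
    (hG₂ : (V i₂).valuation G₀ = 1)
    (hcong : p ^ n * (algebraMap A F ϖ)⁻¹ - G₀ ∈ (V i₂).nonunits)
    (hhor : SqgkHor L t 𝔫 G₀) :
    ∃ w : F, SsnfInLoc t 𝔫 w ∧ algebraMap A F ϖ = p ^ n * w := by
  classical
  have hG0 : G₀ ≠ 0 := fun h0 => by rw [h0, map_zero] at hG₂; exact zero_ne_one hG₂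
  have hG₂m : G₀ ∈ V i₂ := ((V i₂).valuation_le_one_iff _).mp hG₂.le
  have hG₂i : G₀⁻¹ ∈ V i₂ := by
    rw [← (V i₂).valuation_le_one_iff, map_inv₀, hG₂, inv_one]
  have hsel : ∀ {x : F}, x ∈ V i₂ → ∀ i, SqtOn (V i) t 𝔫 → x ∈ V i := by
    intro x hx i hi
    by_cases hii : i = i₂
    · rw [hii]; exact hx
    · exact absurd hi (hoff i hii)
  have hGloc : SsnfInLoc t 𝔫 G₀ :=
    sqgt_gk h ht 𝔫 h𝔫 (hsel hG₂m) (fun W hW hPW hc => (hhor W hW hPW hc).1)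
  have hGiloc : SsnfInLoc t 𝔫 G₀⁻¹ :=
    sqgt_gk h ht 𝔫 h𝔫 (hsel hG₂i) (fun W hW hPW hc => (hhor W hW hPW hc).2)
  exact sqgt_hT2_fam_loc h ht i₂ 𝔫 h𝔫 hon hoff hp hG0 hGloc hGiloc hcong

/-- **`hT2`, three-component form, `G₀` given as a unit of `P_𝔫`.** -/
theorem sqgt_hT2_three_loc {e₂ : ℕ} {π₂ : F} {V₁ V₂ V₃ : ValuationSubring F}
    (h3 : SqvThree hϖ t e₂ π₂ V₁ V₂ V₃) (ht : Transcendental L t) [FiniteDimensional L⟮t⟯ F]
    (𝔫 : Ideal ↥(s18tInt A t)) (h𝔫 : 𝔫.IsMaximal)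
    (hon : SqtOn V₂ t 𝔫) (hoff₁ : ¬ SqtOn V₁ t 𝔫) (hoff₃ : ¬ SqtOn V₃ t 𝔫)
    {p G₀ : F} (hp : SsnfInLoc t 𝔫 p) (hp₂ : p ∈ V₂.nonunits) (hG0 : G₀ ≠ 0)
    (hGloc : SsnfInLoc t 𝔫 G₀) (hGiloc : SsnfInLoc t 𝔫 G₀⁻¹)
    (hcong : p ^ e₂ * (algebraMap A F ϖ)⁻¹ - G₀ ∈ V₂.nonunits) :
    ∃ π' w : F, SsnfInLoc t 𝔫 π' ∧ π' ∈ V₂.nonunits ∧ SsnfInLoc t 𝔫 w ∧
      algebraMap A F ϖ = π' ^ e₂ * w := by
  obtain ⟨w, hw, hϖw⟩ := sqgt_hT2_fam_loc (n := e₂) h3.fam ht (1 : Fin 3) 𝔫 h𝔫 hon (by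
      intro i hi
      fin_cases i
      · exact hoff₁
      · exact absurd rfl hi
      · exact hoff₃) hp hG0 hGloc hGiloc hcong
  exact ⟨p, w, hp, hp₂, hw, hϖw⟩

/-- **`hT2`, three-component form** (the literal hypothesis of the germ theorem). -/
theorem sqgt_hT2_three {e₂ : ℕ} {π₂ : F} {V₁ V₂ V₃ : ValuationSubring F}
    (h3 : SqvThree hϖ t e₂ π₂ V₁ V₂ V₃) (ht : Transcendental L t) [FiniteDimensional L⟮t⟯ F]
    (𝔫 : Ideal ↥(s18tInt A t)) (h𝔫 : 𝔫.IsMaximal)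
    (hon : SqtOn V₂ t 𝔫) (hoff₁ : ¬ SqtOn V₁ t 𝔫) (hoff₃ : ¬ SqtOn V₃ t 𝔫)
    {p G₀ : F} (hp : SsnfInLoc t 𝔫 p) (hp₂ : p ∈ V₂.nonunits)
    (hG₂ : V₂.valuation G₀ = 1)
    (hcong : p ^ e₂ * (algebraMap A F ϖ)⁻¹ - G₀ ∈ V₂.nonunits)
    (hhor : SqgkHor L t 𝔫 G₀) :
    ∃ π' w : F, SsnfInLoc t 𝔫 π' ∧ π' ∈ V₂.nonunits ∧ SsnfInLoc t 𝔫 w ∧
      algebraMap A F ϖ = π' ^ e₂ * w := by
  obtain ⟨w, hw, hϖw⟩ := sqgt_hT2_fam (n := e₂) h3.fam ht (1 : Fin 3) 𝔫 h𝔫 hon (by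
      intro i hi
      fin_cases i
      · exact hoff₁
      · exact absurd rfl hi
      · exact hoff₃) hp hG₂ hcong hhor
  exact ⟨p, w, hp, hp₂, hw, hϖw⟩

end Assembly

end Fermat.Agent.SQ
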