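import Mathlib
import Fermat.Agent.SQ.Germ.T2Deriv
import Fermat.Agent.SQ.Germ.DerivVert
import Fermat.Agent.SS.Val.ModALRes

/-!
# Program Q (S36), risk R1, (T2-x), leaf (UY), concrete form (prefix `sqgt`)

Levels `M`, `M q`, `M q q` (`q ∤ M`), `α₁ = ssvmdIncl E M q`, `φ₁ = ssvmfPhi E M q`,
`α = ssvmdIncl E (M q) q`, `D = d/dj = sqgvDer E M`, `Fr` the coefficientwise Frobenius.

* `sqgt_der_twist` : `red x' = Fr (red x)` ⟹ `red (D x') = Fr (red (D x))` (`θ` commutes with `Fr`,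
  `Fr j̄ = j̄`);
* `sqgt_frobD` : then `(α₁ (D x))^q - φ₁ (D x') ∈ 𝔪_{W₁}`;
* `sqgt_uy` : **(UY)** : from the chart-`j` congruence (T2-cong), the first-order formula (DIFF) for
  `x` and `red x' = Fr (red x)`, `θ x̄ ≠ 0` :
  `(β₂ x - β₀ x)^(q-1) / ϖ + (q/ϖ) · α (g_{x,x'}) ∈ 𝔪_{V₂}`.
-/

set_option autoImplicit false
set_option linter.unusedSectionVars false
set_option linter.unusedVariables false
set_option linter.style.haveILetI false
set_option synthInstance.maxHeartbeats 400000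

noncomputable section

namespace Fermat.Agent.SQ

open Fermat.Agent.S24 Fermat.Agent.S18 Fermat.Agent.G Fermat.Agent.SS AlgebraicCurve ModularCurve
  Polynomial IntermediateField IsLocalRing

local notation "Qb" => AlgebraicClosure ℚ

section Const

/-- the constant `q/ϖ` lies in every valuation ring containing the constants -/
theorem sqgt_const_mem {A F : Type*} [CommRing A] [Field F] [Algebra A F] (V : ValuationSubring F)
    (hA : ∀ a : A, algebraMap A F a ∈ V) {ϖ : A} (hϖ0 : algebraMap A F ϖ ≠ 0) {q : ℕ}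
    (hq : ϖ ∣ ((q : ℕ) : A)) : ((q : ℕ) : F) * (algebraMap A F ϖ)⁻¹ ∈ V := by
  obtain ⟨c, hc⟩ := hq
  have h1 : ((q : ℕ) : F) = algebraMap A F ϖ * algebraMap A F c := by
    rw [← map_mul, ← hc, map_natCast]
  rw [h1, mul_comm (algebraMap A F ϖ), mul_assoc, mul_inv_cancel₀ hϖ0, mul_one]
  exact hA c

end Const

section Twist

variable {A₀ : Type*} [CommRing A₀] [IsDomain A₀] [IsDiscreteValuationRing A₀] [CharZero A₀]
variable {L₀ : Type*} [Field L₀] [Algebra A₀ L₀] [IsFractionRing A₀ L₀] [CharZero L₀]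
variable {ϖ : A₀} (N : ℕ) [NeZero N]

/-- **`D = d/dj` commutes with the coefficient twist** : if `red x' = Fr (red x)` then
`red (D x') = Fr (red (D x))`, for any ring endomorphism `φ` of the residue field
(`Fr = coeffMap φ`). -/
theorem sqgt_der_twist (hϖ : Irreducible ϖ) (φ : ResidueField A₀ →+* ResidueField A₀)
    (x x' : modularFunctionFieldFullC L₀ N)
    (hx : x ∈ s18vO A₀ (modularFunctionFieldFullC L₀ N))
    (hx' : x' ∈ s18vO A₀ (modularFunctionFieldFullC L₀ N))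
    (hfr : coeffMap φ (s18vcRed (modularFunctionFieldFullC L₀ N) ⟨x, hx⟩) =
      s18vcRed (modularFunctionFieldFullC L₀ N) ⟨x', hx'⟩)
    (hD : sqgvDer L₀ N x ∈ s18vO A₀ (modularFunctionFieldFullC L₀ N))
    (hD' : sqgvDer L₀ N x' ∈ s18vO A₀ (modularFunctionFieldFullC L₀ N)) :
    coeffMap φ (s18vcRed (modularFunctionFieldFullC L₀ N) ⟨sqgvDer L₀ N x, hD⟩) =
      s18vcRed (modularFunctionFieldFullC L₀ N) ⟨sqgvDer L₀ N x', hD'⟩ := by
  obtain ⟨hD₁, e₁⟩ := sqgvDer_gauss N hϖ x hx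
  obtain ⟨hD₂, e₂⟩ := sqgvDer_gauss N hϖ x' hx'
  have hj0 : sqvtTheta (ResidueField A₀) (jqModC (ResidueField A₀)) ≠ 0 := sqgvThJ_ne_zero _
  apply mul_right_cancel₀ hj0
  have e₃ : coeffMap φ (sqvtTheta (ResidueField A₀) (jqModC (ResidueField A₀))) =
      sqvtTheta (ResidueField A₀) (jqModC (ResidueField A₀)) := by
    rw [← sqvtTheta_coeffMap, coeffMap_jqModC]
  calc coeffMap φ (s18vcRed (modularFunctionFieldFullC L₀ N) ⟨sqgvDer L₀ N x, hD⟩) *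
        sqvtTheta (ResidueField A₀) (jqModC (ResidueField A₀))
      = coeffMap φ (s18vcRed (modularFunctionFieldFullC L₀ N) ⟨sqgvDer L₀ N x, hD₁⟩ *
          sqvtTheta (ResidueField A₀) (jqModC (ResidueField A₀))) := by
        rw [map_mul, e₃]
    _ = coeffMap φ (sqvtTheta (ResidueField A₀)
          (s18vcRed (modularFunctionFieldFullC L₀ N) ⟨x, hx⟩)) := by rw [e₁]
    _ = sqvtTheta (ResidueField A₀) (s18vcRed (modularFunctionFieldFullC L₀ N) ⟨x', hx'⟩) := by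
        rw [← sqvtTheta_coeffMap, hfr]
    _ = s18vcRed (modularFunctionFieldFullC L₀ N) ⟨sqgvDer L₀ N x', hD'⟩ *
        sqvtTheta (ResidueField A₀) (jqModC (ResidueField A₀)) := e₂.symm

end Twist

section Main

variable {q : ℕ} [Fact q.Prime] [NeZero q] (𝔸 : ValuationSubring Qb) (E : IntermediateField ℚ Qb)
  [IsDiscreteValuationRing ↥(s18dVal 𝔸 E)] [CharZero ↥(s18dVal 𝔸 E)]
variable (M : ℕ) [NeZero M]

set_option maxHeartbeats 1000000 in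
/-- the twisted Frobenius congruence for the derivatives :
`(α₁ (D x))^q - φ₁ (D x') ∈ 𝔪_{W₁}` when `red x' = Fr (red x)`. -/
theorem sqgt_frobD (hA : 𝔸.LiesOverPrime q) (hqM : ¬ q ∣ M) {ϖ : ↥(s18dVal 𝔸 E)}
    (hϖ : Irreducible ϖ) (Ξ G : (↥(ssvmmR 𝔸 E M q))[X])
    (h : SsvAmb (ssvmmR 𝔸 E M q) (ssvmgRUnif (ssvmm_le E M q) ϖ) (ssvmmY E M q) Ξ
      (X - C (ssvmmJ 𝔸 E M q ^ q)) (X ^ q - C (ssvmmJ 𝔸 E M q)) G)
    [CharP (ResidueField ↥(s18dVal 𝔸 E)) q]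
    (x x' : modularFunctionFieldFullC E M)
    (hx : x ∈ s18vO ↥(s18dVal 𝔸 E) (modularFunctionFieldFullC E M))
    (hx' : x' ∈ s18vO ↥(s18dVal 𝔸 E) (modularFunctionFieldFullC E M))
    (hfr : coeffMap (frobenius (ResidueField ↥(s18dVal 𝔸 E)) q)
        (s18vcRed (modularFunctionFieldFullC E M) ⟨x, hx⟩) =
      s18vcRed (modularFunctionFieldFullC E M) ⟨x', hx'⟩) :
    ssvmdIncl E M q (sqgvDer E M x) ^ q - ssvmfPhi E M q (sqgvDer E M x') ∈ h.V₁.nonunits := by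
  have hh := sqgvDer_gauss (A₀ := ↥(s18dVal 𝔸 E)) (L₀ := ↥E) M hϖ x hx
  obtain ⟨hD, e₁⟩ := hh
  have hh' := sqgvDer_gauss (A₀ := ↥(s18dVal 𝔸 E)) (L₀ := ↥E) M hϖ x' hx'
  obtain ⟨hD', e₂⟩ := hh'
  exact ssvmar_frob₁ 𝔸 E M hA hqM hϖ Ξ G h (sqgvDer E M x') (sqgvDer E M x) hD' hD
    (sqgt_der_twist (A₀ := ↥(s18dVal 𝔸 E)) (L₀ := ↥E) M hϖ _ x x' hx hx' hfr hD hD')

set_option maxHeartbeats 1600000 in
/-- **(UY), concrete.**  `V₂` a valuation ring of `F_E(M q q)` with `V₂.comap α = W₁`;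
`x, x'` in the Gauss ring of `F_E(M)` with `θ x̄ ≠ 0` and `red x' = Fr (red x)`; the chart-`j`
congruence (T2-cong) `hT2j` and the first-order formula (DIFF) `hdiff` for `x`.  Then
`(β₂ x - β₀ x)^(q-1) / ϖ + (q/ϖ) · α (g_{x,x'}) ∈ 𝔪_{V₂}`. -/
theorem sqgt_uy (hA : 𝔸.LiesOverPrime q) (hqM : ¬ q ∣ M) {ϖ : ↥(s18dVal 𝔸 E)}
    (hϖ : Irreducible ϖ) (Ξ G : (↥(ssvmmR 𝔸 E M q))[X])
    (h : SsvAmb (ssvmmR 𝔸 E M q) (ssvmgRUnif (ssvmm_le E M q) ϖ) (ssvmmY E M q) Ξ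
      (X - C (ssvmmJ 𝔸 E M q ^ q)) (X ^ q - C (ssvmmJ 𝔸 E M q)) G)
    [CharP (ResidueField ↥(s18dVal 𝔸 E)) q]
    (V₂ : ValuationSubring ↥(modularFunctionFieldFullC E (M * q * q)))
    (hposα : V₂.comap (ssvmdIncl E (M * q) q).toRingHom = h.V₁)
    (x x' : modularFunctionFieldFullC E M)
    (hx : x ∈ s18vO ↥(s18dVal 𝔸 E) (modularFunctionFieldFullC E M))
    (hx' : x' ∈ s18vO ↥(s18dVal 𝔸 E) (modularFunctionFieldFullC E M))
    (hθ : sqvtTheta (ResidueField ↥(s18dVal 𝔸 E))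
      (s18vcRed (modularFunctionFieldFullC E M) ⟨x, hx⟩) ≠ 0)
    (hfr : coeffMap (frobenius (ResidueField ↥(s18dVal 𝔸 E)) q)
        (s18vcRed (modularFunctionFieldFullC E M) ⟨x, hx⟩) =
      s18vcRed (modularFunctionFieldFullC E M) ⟨x', hx'⟩)
    {π₂ πx m : ↥(modularFunctionFieldFullC E (M * q * q))}
    (hT2j : π₂ ^ (q - 1) *
        (algebraMap ↥(s18dVal 𝔸 E) ↥(modularFunctionFieldFullC E (M * q * q)) ϖ)⁻¹ +
      ((q : ℕ) : ↥(modularFunctionFieldFullC E (M * q * q))) *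
        (algebraMap ↥(s18dVal 𝔸 E) ↥(modularFunctionFieldFullC E (M * q * q)) ϖ)⁻¹ *
        ssvmdIncl E (M * q) q (sqgvG E M q) ∈ V₂.nonunits)
    (hm : m ∈ V₂.nonunits)
    (hdiff : πx = π₂ * (ssvmdIncl E (M * q) q (ssvmdIncl E M q (sqgvDer E M x)) + m)) :
    πx ^ (q - 1) *
        (algebraMap ↥(s18dVal 𝔸 E) ↥(modularFunctionFieldFullC E (M * q * q)) ϖ)⁻¹ +
      ((q : ℕ) : ↥(modularFunctionFieldFullC E (M * q * q))) *
        (algebraMap ↥(s18dVal 𝔸 E) ↥(modularFunctionFieldFullC E (M * q * q)) ϖ)⁻¹ *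
        ssvmdIncl E (M * q) q (sqgvGxy E M q x x') ∈ V₂.nonunits := by
  have hq : q.Prime := Fact.out
  -- `α W₁ ⊆ V₂`, `α 𝔪_{W₁} ⊆ 𝔪_{V₂}`
  have hαW : ∀ y ∈ h.V₁, (ssvmdIncl E (M * q) q).toRingHom y ∈ V₂ := by
    intro y hy
    rw [← hposα] at hy
    exact hy
  have hαm : ∀ y ∈ h.V₁.nonunits, (ssvmdIncl E (M * q) q).toRingHom y ∈ V₂.nonunits := by
    intro y hy
    rw [← hposα] at hy
    exact (ssvma_nonunits_comap V₂ (ssvmdIncl E (M * q) q).toRingHom y).mp hy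
  -- the Gauss data of `D x`
  have hh := sqgvDer_gauss (A₀ := ↥(s18dVal 𝔸 E)) (L₀ := ↥E) M hϖ x hx
  obtain ⟨hD, e₁⟩ := hh
  have hDi := sqgvDer_inv_gauss (A₀ := ↥(s18dVal 𝔸 E)) (L₀ := ↥E) M hϖ x hx hθ
  have hD0 : sqgvDer E M x ≠ 0 := by
    intro h0
    apply hθ
    rw [← e₁]
    have : (⟨sqgvDer E M x, hD⟩ : ↥(s18vO ↥(s18dVal 𝔸 E) (modularFunctionFieldFullC E M))) = 0 :=
      Subtype.ext h0
    rw [this, map_zero, zero_mul]
  have hg1 := ssvmar_gauss₁ 𝔸 E M hA hqM hϖ Ξ G h (sqgvDer E M x) hD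
  have hd : ssvmdIncl E M q (sqgvDer E M x) ∈ h.V₁ := hg1.1
  have hg2 := ssvmar_gauss₁ 𝔸 E M hA hqM hϖ Ξ G h (sqgvDer E M x)⁻¹ hDi
  have hdi : (ssvmdIncl E M q (sqgvDer E M x))⁻¹ ∈ h.V₁ := by
    rw [← map_inv₀]
    exact hg2.1
  have hd0 : ssvmdIncl E M q (sqgvDer E M x) ≠ 0 := (_root_.map_ne_zero _).mpr hD0
  -- `g ∈ W₁`
  have hgv := sqgvG_val₁ 𝔸 E M hA hϖ Ξ G h
  have hg : sqgvG E M q ∈ h.V₁ := (h.V₁.valuation_le_one_iff _).mp hgv.le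
  -- the constant `q/ϖ`
  have hAV : ∀ c : ↥(s18dVal 𝔸 E),
      algebraMap ↥(s18dVal 𝔸 E) ↥(modularFunctionFieldFullC E (M * q * q)) c ∈ V₂ := by
    intro c
    have h1 : algebraMap ↥(s18dVal 𝔸 E) ↥(modularFunctionFieldFullC E (M * q)) c ∈ h.V₁ :=
      ((ssvma_mem₁_iff 𝔸 E M hA hϖ Ξ G h _).1).mpr (s18vg_algebraMap_mem _ c)
    have h2 := hαW _ h1
    have e2 : (ssvmdIncl E (M * q) q).toRingHom
        (algebraMap ↥(s18dVal 𝔸 E) ↥(modularFunctionFieldFullC E (M * q)) c) =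
        algebraMap ↥(s18dVal 𝔸 E) ↥(modularFunctionFieldFullC E (M * q * q)) c := by
      rw [IsScalarTower.algebraMap_apply ↥(s18dVal 𝔸 E) ↥E ↥(modularFunctionFieldFullC E (M * q)),
        IsScalarTower.algebraMap_apply ↥(s18dVal 𝔸 E) ↥E
          ↥(modularFunctionFieldFullC E (M * q * q))]
      exact (ssvmdIncl E (M * q) q).commutes _
    rw [e2] at h2
    exact h2
  have hc : ((q : ℕ) : ↥(modularFunctionFieldFullC E (M * q * q))) *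
      (algebraMap ↥(s18dVal 𝔸 E) ↥(modularFunctionFieldFullC E (M * q * q)) ϖ)⁻¹ ∈ V₂ := by
    have hq' := s18d_natCast_mem 𝔸 E hA (ℓ := q)
    rw [hϖ.maximalIdeal_eq, Ideal.mem_span_singleton] at hq'
    exact sqgt_const_mem V₂ hAV (sqt_unif_ne_zero (↥E) hϖ) hq'
  have hF := sqgt_frobD 𝔸 E M hA hqM hϖ Ξ G h x x' hx hx' hfr
  have hF' : ssvmdIncl E M q (sqgvDer E M x) ^ (q - 1 + 1) - ssvmfPhi E M q (sqgvDer E M x') ∈
      h.V₁.nonunits := by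
    rw [Nat.sub_add_cancel hq.one_lt.le]
    exact hF
  exact sqgt_uy_core (ssvmdIncl E (M * q) q).toRingHom h.V₁ V₂ hαW hαm (q - 1) hc hT2j hm hdiff
    hg hd hdi hd0 hF'

end Main

end Fermat.Agent.SQ
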