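import Mathlib
import Fermat.Agent.SQ.Germ.T2Uy

/-!
# Program Q (S36), risk R1, (T2-x) : `hT2` AT ONE CLOSED POINT (prefix `sqgt`)

Levels `M`, `M q`, `M q q` (`q ∤ M`); `𝔫` a closed point of the chart `t` of level `M q q` lying on
`V₂` only; `y, y'` in the Gauss ring of `F_E(M)` with `θ ȳ ≠ 0` and `red y' = Fr (red y)`;
`p := β₂ y - β₀ y ∈ P_𝔫`.  From (T2-cong) for `j`, (DIFF) for `y` and the horizontal unit property
of `α (g_{y,y'})` at `𝔫` :  `ϖ = p^(q-1) · w`, `w ∈ P_𝔫`  (`sqgt_hT2_point`).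
-/

set_option autoImplicit false
set_option linter.unusedSectionVars false
set_option linter.unusedVariables false
set_option linter.style.haveILetI false
set_option synthInstance.maxHeartbeats 400000

noncomputable section

namespace Fermat.Agent.SQ

open Fermat.Agent.S24 Fermat.Agent.S18 Fermat.Agent.G Fermat.Agent.SS AlgebraicCurve ModularCurve
  Polynomial IntermediateField IsLocalRing

local notation "Qb" => AlgebraicClosure ℚ

section Abs

universe u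

variable {A : Type*} [CommRing A] [IsDomain A] [IsDiscreteValuationRing A] [CharZero A]
variable {L : Type*} [Field L] [Algebra A L] [IsFractionRing A L]
variable {F : Type u} [Field F] [Algebra A F] [Algebra L F] [IsScalarTower A L F]
variable {t : F} {𝔫 : Ideal ↥(s18tInt A t)}

/-- the horizontal unit property is stable under multiplication by a nonzero constant -/
theorem sqgt_hor_const_mul {g : F} (hg : SqgkHor L t 𝔫 g) {c : L} (hc : c ≠ 0) :
    SqgkHor L t 𝔫 (algebraMap L F c * g) := by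
  intro V hV hle hcen
  obtain ⟨h1, h2⟩ := hg V hV hle hcen
  refine ⟨V.mul_mem _ _ (hV.2 c) h1, ?_⟩
  rw [mul_inv, ← map_inv₀]
  exact V.mul_mem _ _ (hV.2 c⁻¹) h2

/-- the horizontal unit property is stable under `g ↦ -g` -/
theorem sqgt_hor_neg {g : F} (hg : SqgkHor L t 𝔫 g) : SqgkHor L t 𝔫 (-g) := by
  intro V hV hle hcen
  obtain ⟨h1, h2⟩ := hg V hV hle hcen
  refine ⟨V.neg_mem _ h1, ?_⟩
  rw [inv_neg]
  exact V.neg_mem _ h2

end Abs

section Const

/-- for `q` associated to `ϖ`, the constant `q/ϖ` is a unit of every valuation ring containing the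
constants -/
theorem sqgt_const_val {A F : Type*} [CommRing A] [Field F] [Algebra A F] (V : ValuationSubring F)
    (hA : ∀ a : A, algebraMap A F a ∈ V) {ϖ : A} (hϖ0 : algebraMap A F ϖ ≠ 0) {q : ℕ}
    (hq : Associated ((q : ℕ) : A) ϖ) :
    V.valuation (((q : ℕ) : F) * (algebraMap A F ϖ)⁻¹) = 1 := by
  obtain ⟨u, hu⟩ := hq
  have h1 : algebraMap A F ϖ = ((q : ℕ) : F) * algebraMap A F (u : A) := by
    rw [← hu, map_mul, map_natCast]
  have hq0 : ((q : ℕ) : F) ≠ 0 := fun h0 => hϖ0 (by rw [h1, h0, zero_mul])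
  have hu0 : algebraMap A F (u : A) ≠ 0 := fun h0 => hϖ0 (by rw [h1, h0, mul_zero])
  have e : ((q : ℕ) : F) * (algebraMap A F ϖ)⁻¹ = algebraMap A F ((u⁻¹ : Aˣ) : A) := by
    have h2 : algebraMap A F (u : A) * algebraMap A F ((u⁻¹ : Aˣ) : A) = 1 := by
      rw [← map_mul, ← Units.val_mul, mul_inv_cancel, Units.val_one, map_one]
    rw [h1, mul_inv, ← mul_assoc, mul_inv_cancel₀ hq0, one_mul]
    exact inv_eq_of_mul_eq_one_right h2
  rw [e]
  have h3 : V.valuation (algebraMap A F (u : A)) * V.valuation (algebraMap A F ((u⁻¹ : Aˣ) : A))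
      = 1 := by
    rw [← map_mul, ← map_mul, ← Units.val_mul, mul_inv_cancel, Units.val_one, map_one, map_one]
  have h4 := (V.valuation_le_one_iff _).mpr (hA (u : A))
  have h5 := (V.valuation_le_one_iff _).mpr (hA ((u⁻¹ : Aˣ) : A))
  refine le_antisymm h5 ?_
  calc (1 : _) = _ := h3.symm
    _ ≤ 1 * V.valuation (algebraMap A F ((u⁻¹ : Aˣ) : A)) := mul_le_mul_left h4 _
    _ = _ := one_mul _

/-- `q/ϖ` as the image of a constant of `L` -/
theorem sqgt_const_eq {A L F : Type*} [CommRing A] [Field L] [Field F] [Algebra A L] [Algebra L F]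
    [Algebra A F] [IsScalarTower A L F] (ϖ : A) (q : ℕ) :
    algebraMap L F (((q : ℕ) : L) * (algebraMap A L ϖ)⁻¹) =
      ((q : ℕ) : F) * (algebraMap A F ϖ)⁻¹ := by
  rw [map_mul, map_natCast, map_inv₀, ← IsScalarTower.algebraMap_apply]

/-- value one ⟹ nonzero, integral, with integral inverse -/
theorem sqgt_of_val_one {F : Type*} [Field F] (V : ValuationSubring F) {x : F}
    (h : V.valuation x = 1) : x ≠ 0 ∧ x ∈ V ∧ x⁻¹ ∈ V := by
  refine ⟨fun h0 => ?_, (V.valuation_le_one_iff _).mp h.le, ?_⟩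
  · rw [h0, map_zero] at h
    exact zero_ne_one h
  · rw [← V.valuation_le_one_iff, map_inv₀, h, inv_one]

/-- integral with integral inverse ⟹ value one -/
theorem sqgt_val_one {F : Type*} [Field F] (V : ValuationSubring F) {x : F} (h0 : x ≠ 0)
    (h1 : x ∈ V) (h2 : x⁻¹ ∈ V) : V.valuation x = 1 := by
  have h3 := (V.valuation_le_one_iff _).mpr h1
  have h4 := (V.valuation_le_one_iff _).mpr h2
  rw [map_inv₀, inv_le_one₀ (zero_lt_iff.mpr ((Valuation.ne_zero_iff _).mpr h0))] at h4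
  exact le_antisymm h3 h4

/-- the vertical value of `G₀ = -(c · α g)` -/
theorem sqgt_G₀_val {F₁ F : Type*} [Field F₁] [Field F] (α : F₁ →+* F) (W₁ : ValuationSubring F₁)
    (V : ValuationSubring F) (hαW : ∀ z ∈ W₁, α z ∈ V) {g : F₁} (hg : W₁.valuation g = 1)
    {c : F} (hc : V.valuation c = 1) : V.valuation (-(c * α g)) = 1 := by
  obtain ⟨hg0, hg1, hg2⟩ := sqgt_of_val_one W₁ hg
  have h1 : V.valuation (α g) = 1 := by
    refine sqgt_val_one V ((_root_.map_ne_zero α).mpr hg0) (hαW g hg1) ?_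
    rw [← map_inv₀]
    exact hαW _ hg2
  rw [Valuation.map_neg, map_mul, hc, h1, one_mul]

/-- coefficientwise maps along injective ring homs are injective -/
theorem sqgt_coeffMap_injective {R S : Type*} [CommRing R] [CommRing S] (f : R →+* S)
    (hf : Function.Injective f) : Function.Injective (ModularCurve.coeffMap f) := by
  intro a b hab
  ext n
  have := congrArg (fun x => HahnSeries.coeff x n) hab
  simp only [ModularCurve.coeffMap_coeff] at this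
  exact hf this

end Const

section Main

variable {q : ℕ} [Fact q.Prime] [NeZero q] (𝔸 : ValuationSubring Qb) (E : IntermediateField ℚ Qb)
  [IsDiscreteValuationRing ↥(s18dVal 𝔸 E)] [CharZero ↥(s18dVal 𝔸 E)]
variable (M : ℕ) [NeZero M]

set_option maxHeartbeats 1600000 in
/-- **`hT2` AT ONE CLOSED POINT.** -/
theorem sqgt_hT2_point (hA : 𝔸.LiesOverPrime q) (hqM : ¬ q ∣ M) {ϖ : ↥(s18dVal 𝔸 E)}
    (hϖ : Irreducible ϖ) (hqϖ : Associated ((q : ℕ) : ↥(s18dVal 𝔸 E)) ϖ)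
    (Ξ G : (↥(ssvmmR 𝔸 E M q))[X])
    (h : SsvAmb (ssvmmR 𝔸 E M q) (ssvmgRUnif (ssvmm_le E M q) ϖ) (ssvmmY E M q) Ξ
      (X - C (ssvmmJ 𝔸 E M q ^ q)) (X ^ q - C (ssvmmJ 𝔸 E M q)) G)
    [CharP (ResidueField ↥(s18dVal 𝔸 E)) q]
    {t : ↥(modularFunctionFieldFullC E (M * q * q))}
    {π₂' : ↥(modularFunctionFieldFullC E (M * q * q))}
    {V₁ V₂ V₃ : ValuationSubring ↥(modularFunctionFieldFullC E (M * q * q))}
    (three : SqvThree hϖ t (q - 1) π₂' V₁ V₂ V₃)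
    (ht : Transcendental E t) [FiniteDimensional E⟮t⟯ ↥(modularFunctionFieldFullC E (M * q * q))]
    (hposα : V₂.comap (ssvmdIncl E (M * q) q).toRingHom = h.V₁)
    (𝔫 : Ideal ↥(s18tInt ↥(s18dVal 𝔸 E) t)) (h𝔫 : 𝔫.IsMaximal)
    (hon : SqtOn V₂ t 𝔫) (hoff₁ : ¬ SqtOn V₁ t 𝔫) (hoff₃ : ¬ SqtOn V₃ t 𝔫)
    (y y' : modularFunctionFieldFullC E M)
    (hy : y ∈ s18vO ↥(s18dVal 𝔸 E) (modularFunctionFieldFullC E M))
    (hy' : y' ∈ s18vO ↥(s18dVal 𝔸 E) (modularFunctionFieldFullC E M))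
    (hθ : sqvtTheta (ResidueField ↥(s18dVal 𝔸 E))
      (s18vcRed (modularFunctionFieldFullC E M) ⟨y, hy⟩) ≠ 0)
    (hfr : coeffMap (frobenius (ResidueField ↥(s18dVal 𝔸 E)) q)
        (s18vcRed (modularFunctionFieldFullC E M) ⟨y, hy⟩) =
      s18vcRed (modularFunctionFieldFullC E M) ⟨y', hy'⟩)
    {π₂ : ↥(modularFunctionFieldFullC E (M * q * q))}
    (hT2j : π₂ ^ (q - 1) *
        (algebraMap ↥(s18dVal 𝔸 E) ↥(modularFunctionFieldFullC E (M * q * q)) ϖ)⁻¹ +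
      ((q : ℕ) : ↥(modularFunctionFieldFullC E (M * q * q))) *
        (algebraMap ↥(s18dVal 𝔸 E) ↥(modularFunctionFieldFullC E (M * q * q)) ϖ)⁻¹ *
        ssvmdIncl E (M * q) q (sqgvG E M q) ∈ V₂.nonunits)
    (hdiff : ∃ m : ↥(modularFunctionFieldFullC E (M * q * q)), m ∈ V₂.nonunits ∧
      ssvmfPhi E (M * q) q (ssvmfPhi E M q y) - ssvmdIncl E (M * q) q (ssvmdIncl E M q y) =
        π₂ * (ssvmdIncl E (M * q) q (ssvmdIncl E M q (sqgvDer E M y)) + m))
    (hpP : SsnfInLoc t 𝔫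
      (ssvmfPhi E (M * q) q (ssvmfPhi E M q y) - ssvmdIncl E (M * q) q (ssvmdIncl E M q y)))
    (hp₂ : ssvmfPhi E (M * q) q (ssvmfPhi E M q y) - ssvmdIncl E (M * q) q (ssvmdIncl E M q y) ∈
      V₂.nonunits)
    (hhor : SqgkHor E t 𝔫 (ssvmdIncl E (M * q) q (sqgvGxy E M q y y'))) :
    ∃ π w : ↥(modularFunctionFieldFullC E (M * q * q)),
      SsnfInLoc t 𝔫 π ∧ π ∈ V₂.nonunits ∧ SsnfInLoc t 𝔫 w ∧
      algebraMap ↥(s18dVal 𝔸 E) ↥(modularFunctionFieldFullC E (M * q * q)) ϖ = π ^ (q - 1) * w := by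
  have hq : q.Prime := Fact.out
  obtain ⟨m, hm, hd⟩ := hdiff
  -- the congruence (UY)
  have hcong := sqgt_uy 𝔸 E M hA hqM hϖ Ξ G h V₂ hposα y y' hy hy' hθ hfr hT2j hm hd
  -- `θ ȳ' ≠ 0`
  have hθ' : sqvtTheta (ResidueField ↥(s18dVal 𝔸 E))
      (s18vcRed (modularFunctionFieldFullC E M) ⟨y', hy'⟩) ≠ 0 := by
    rw [← hfr, sqvtTheta_coeffMap]
    intro h0
    exact hθ (sqgt_coeffMap_injective _ (frobenius (ResidueField ↥(s18dVal 𝔸 E)) q).injective
      (h0.trans (map_zero _).symm))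
  -- vertical value of `α g`
  have hgv := (sqgvGxy_val 𝔸 E M hA hqM hϖ Ξ G h y y' hy hy' hθ hθ').1
  have hαW : ∀ z ∈ h.V₁, (ssvmdIncl E (M * q) q).toRingHom z ∈ V₂ := by
    intro z hz
    rw [← hposα] at hz
    exact hz
  -- the constant
  have hϖ0 : algebraMap ↥(s18dVal 𝔸 E) ↥(modularFunctionFieldFullC E (M * q * q)) ϖ ≠ 0 :=
    sqt_unif_ne_zero (↥E) hϖ
  have hAV : ∀ c : ↥(s18dVal 𝔸 E),
      algebraMap ↥(s18dVal 𝔸 E) ↥(modularFunctionFieldFullC E (M * q * q)) c ∈ V₂ := fun c =>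
    ((three.mem_iff _).mp (ssga_int_le_intLoc hϖ t (s18tc_algebraMap_mem_int t c))).2.1
  have hcv := sqgt_const_val V₂ hAV hϖ0 hqϖ
  have hG₂ := sqgt_G₀_val (ssvmdIncl E (M * q) q).toRingHom h.V₁ V₂ hαW hgv hcv
  -- horizontal part
  have hc0 : ((q : ℕ) : ↥E) * (algebraMap ↥(s18dVal 𝔸 E) ↥E ϖ)⁻¹ ≠ 0 := by
    refine mul_ne_zero (Nat.cast_ne_zero.mpr hq.ne_zero) (inv_ne_zero ?_)
    rw [Ne, map_eq_zero_iff _ (IsFractionRing.injective ↥(s18dVal 𝔸 E) ↥E)]
    exact hϖ.ne_zero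
  have hhor' := sqgt_hor_neg (sqgt_hor_const_mul hhor hc0)
  rw [sqgt_const_eq (A := ↥(s18dVal 𝔸 E)) (L := ↥E)
    (F := ↥(modularFunctionFieldFullC E (M * q * q))) ϖ q] at hhor'
  refine sqgt_hT2_three three ht 𝔫 h𝔫 hon hoff₁ hoff₃ hpP hp₂ hG₂ ?_ hhor'
  rw [sub_neg_eq_add]
  exact hcong

end Main

end Fermat.Agent.SQ
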