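import Mathlib
import Fermat.Agent.SQ.Val.CongAll
import Fermat.Agent.SQ.Germ.T2Diff
import Fermat.Agent.SQ.Germ.CongT2

/-!
# Program Q (S36), risk R1, (T2-x), slice [B] : the VALUATION half of `SqgtdHyp` on the modular tower

Levels `F₀ = F_E(M) ⊂ F₁ = F_E(M q) ⊂ F = F_E(M q q)`, `α₁ = ssvmdIncl E M q`, `φ₁ = ssvmfPhi E M q`,
`α = ssvmdIncl E (M q) q`, `φ = ssvmfPhi E (M q) q`, `β₀ = α ∘ α₁`, `β₂ = φ ∘ φ₁`.  `V₂` is ANY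
valuation ring of `F` with `V₂.comap α = h.V₁`, `V₂.comap φ = h.V₂` (`h` a witness of the
level-one two-factor package), with a uniformiser `π₂` such that `v₂(π₂)^(q-1) = v₂(ϖ)`, and
`q = ϖ · unit` in `A₀`.  Then `π₂' := j_qq - j = β₂ j - β₀ j` is a uniformiser of `V₂` too, and all
the valuation fields of helper22's `SqgtdHyp` (`SQ/Germ/T2Diff.lean`) hold for
`(V₂, β₀, β₂, O₀ = Gauss ring of F₀, π₂', j, ϖ, q)`; the derivation fields (`d_*`, `pb`) are named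
hypotheses (`sqgtv_hyp`), or only `pb` for `D = d/dj = sqgvDer E M` (`sqgtv_hyp_der`).

Consequences : `sqgtv_unif_pow` (`v₂(β₂ y - β₀ y)^(q-1) = v₂ ϖ` when `β₀ (D y)` is a `V₂`-unit),
`sqgtv_U_cong` (`U_y ≡ U_j · β₀(D y)^(q-1) mod 𝔪_{V₂}`).

Prefix `sqgtv`.
-/

set_option autoImplicit false
set_option linter.unusedSectionVars false
set_option linter.unusedVariables false
set_option linter.style.haveILetI false
set_option synthInstance.maxHeartbeats 400000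

noncomputable section

namespace Fermat.Agent.SQ

open Polynomial ModularCurve AlgebraicCurve IsLocalRing IntermediateField Fermat.Agent.S24
  Fermat.Agent.G Fermat.Agent.S18 Fermat.Agent.SS

local notation "Qb" => AlgebraicClosure ℚ

/-! ### Abstract valuation lemmas (Mathlib + `S18IsUnif`) -/

section Abs

variable {F : Type*} [Field F]

/-- an element with the valuation of a uniformiser generates the maximal ideal -/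
theorem sqgtv_gen_of_unif (V : ValuationSubring F) {π π' : F} (hu : S18IsUnif V π)
    (hv : V.valuation π' = V.valuation π) : ∀ m ∈ V.nonunits, ∃ c ∈ V, m = π' * c := by
  intro m hm
  rw [ValuationSubring.mem_nonunits_iff] at hm
  have hle := hu.2 m hm
  by_cases h0 : π' = 0
  · have h1 : V.valuation π = 0 := by rw [← hv, h0, map_zero]
    rw [h1] at hle
    have hm0 : m = 0 := (Valuation.zero_iff _).mp (le_zero_iff.mp hle)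
    exact ⟨0, zero_mem _, by rw [hm0, mul_zero]⟩
  · refine ⟨m / π', ?_, by field_simp⟩
    rw [← ValuationSubring.valuation_le_one_iff, map_div₀, hv]
    exact div_le_one_of_le₀ hle zero_le

/-- `v(a)^n = v(b)^n ⟹ v(a) = v(b)` for `n ≠ 0` -/
theorem sqgtv_val_eq_of_pow (V : ValuationSubring F) {a b : F} {n : ℕ} (hn : n ≠ 0)
    (h : V.valuation a ^ n = V.valuation b ^ n) : V.valuation a = V.valuation b :=
  (pow_left_inj₀ zero_le zero_le hn).mp h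

/-- an element with the valuation of a uniformiser is a uniformiser -/
theorem sqgtv_isUnif_of_val (V : ValuationSubring F) {π π' : F} (hu : S18IsUnif V π)
    (hv : V.valuation π' = V.valuation π) : S18IsUnif V π' := by
  refine ⟨by rw [hv]; exact hu.1, fun x hx => ?_⟩
  rw [hv]
  exact hu.2 x hx

/-- `v(u) = 1` for `u, u⁻¹ ∈ V`, `u ≠ 0` -/
theorem sqgtv_val_one (V : ValuationSubring F) {u : F} (h0 : u ≠ 0) (hu : u ∈ V)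
    (hui : u⁻¹ ∈ V) : V.valuation u = 1 := by
  rw [← ValuationSubring.valuation_le_one_iff] at hu hui
  rw [map_inv₀] at hui
  refine le_antisymm hu ?_
  have h1 : V.valuation u ≠ 0 := (Valuation.ne_zero_iff _).mpr h0
  exact (inv_le_one₀ (zero_lt_iff.mpr h1)).mp hui

end Abs

/-! ### The elements `β₀ j`, `β₂ j` and the constants -/

section Elements

variable (K : Type*) [Field K] (M q : ℕ) [NeZero M] [NeZero q]

/-- `β₀ j = j` -/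
theorem sqgtv_b0_j :
    ssvmdIncl K (M * q) q (ssvmdIncl K M q (ssvmdJ K M)) = ssvmdJ K (M * q * q) := by
  apply Subtype.ext
  rw [ssvmdIncl_coe, ssvmdIncl_coe]
  rfl

/-- `β₂ j = j_qq` -/
theorem sqgtv_b2_j :
    ssvmfPhi K (M * q) q (ssvmfPhi K M q (ssvmdJ K M)) = sqvmY K M q := by
  apply Subtype.ext
  rw [ssvmfPhi_coe, ssvmfPhi_coe, qExpand_qExpand]
  rfl

/-- `β₂ j - β₀ j = j_qq - j` -/
theorem sqgtv_pi_eq :
    ((ssvmfPhi K (M * q) q).comp (ssvmfPhi K M q)) (ssvmdJ K M) -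
      ((ssvmdIncl K (M * q) q).toRingHom.comp (ssvmdIncl K M q).toRingHom) (ssvmdJ K M) =
      sqvmY K M q - ssvmdJ K (M * q * q) := by
  show ssvmfPhi K (M * q) q (ssvmfPhi K M q (ssvmdJ K M)) -
    ssvmdIncl K (M * q) q (ssvmdIncl K M q (ssvmdJ K M)) = _
  rw [sqgtv_b2_j, sqgtv_b0_j]

end Elements

section Const

variable (𝔸 : ValuationSubring Qb) (E : IntermediateField ℚ Qb) (N ℓ : ℕ) [NeZero N] [NeZero ℓ]

/-- `α` fixes the constants of `A₀` -/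
theorem sqgtv_incl_const (a : ↥(s18dVal 𝔸 E)) :
    ssvmdIncl E N ℓ (algebraMap ↥(s18dVal 𝔸 E) ↥(modularFunctionFieldFullC E N) a) =
      algebraMap ↥(s18dVal 𝔸 E) ↥(modularFunctionFieldFullC E (N * ℓ)) a := by
  apply Subtype.ext
  rw [ssvmdIncl_coe, s18v_coe_algebraMap, s18v_coe_algebraMap]

/-- `φ` fixes the constants of `A₀` -/
theorem sqgtv_phi_const (a : ↥(s18dVal 𝔸 E)) :
    ssvmfPhi E N ℓ (algebraMap ↥(s18dVal 𝔸 E) ↥(modularFunctionFieldFullC E N) a) =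
      algebraMap ↥(s18dVal 𝔸 E) ↥(modularFunctionFieldFullC E (N * ℓ)) a := by
  apply Subtype.ext
  rw [ssvmfPhi_coe, s18v_coe_algebraMap, s18v_coe_algebraMap, algebraMap_laurentSeries_eq_single,
    qExpand_single, mul_zero]

end Const

/-! ### The valuation fields on the tower -/

section Modular

attribute [local instance] sqvm_neZero

variable {q : ℕ} [Fact q.Prime] (𝔸 : ValuationSubring Qb) (E : IntermediateField ℚ Qb)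
  [IsDiscreteValuationRing ↥(s18dVal 𝔸 E)] [CharZero ↥(s18dVal 𝔸 E)]
variable (M : ℕ) [NeZero M]

set_option maxHeartbeats 1000000 in
/-- `α (Gauss ring of F₁) ⊆ V₂` -/
theorem sqgtv_gauss₁_mem (hA : 𝔸.LiesOverPrime q) {ϖ : ↥(s18dVal 𝔸 E)} (hϖ : Irreducible ϖ)
    (Ξ G : (↥(ssvmmR 𝔸 E M q))[X])
    (h : SsvAmb (ssvmmR 𝔸 E M q) (ssvmgRUnif (ssvmm_le E M q) ϖ) (ssvmmY E M q) Ξ
        (X - C (ssvmmJ 𝔸 E M q ^ q)) (X ^ q - C (ssvmmJ 𝔸 E M q)) G)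
    (V₂ : ValuationSubring ↥(modularFunctionFieldFullC E (M * q * q)))
    (hposα : V₂.comap (ssvmdIncl E (M * q) q).toRingHom = h.V₁) :
    ∀ x ∈ s18vO ↥(s18dVal 𝔸 E) (modularFunctionFieldFullC E (M * q)),
      ssvmdIncl E (M * q) q x ∈ V₂ := by
  intro x hx
  have h1 : x ∈ h.V₁ := ((ssvma_mem₁_iff 𝔸 E M hA hϖ Ξ G h x).1).mpr hx
  rw [← hposα, ValuationSubring.mem_comap] at h1
  exact h1

set_option maxHeartbeats 1000000 in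
/-- `β₀ O₀ ⊆ V₂` -/
theorem sqgtv_mem₀ (hA : 𝔸.LiesOverPrime q) (hqM : ¬ q ∣ M) {ϖ : ↥(s18dVal 𝔸 E)}
    (hϖ : Irreducible ϖ) (Ξ G : (↥(ssvmmR 𝔸 E M q))[X])
    (h : SsvAmb (ssvmmR 𝔸 E M q) (ssvmgRUnif (ssvmm_le E M q) ϖ) (ssvmmY E M q) Ξ
        (X - C (ssvmmJ 𝔸 E M q ^ q)) (X ^ q - C (ssvmmJ 𝔸 E M q)) G)
    (V₂ : ValuationSubring ↥(modularFunctionFieldFullC E (M * q * q)))
    (hposα : V₂.comap (ssvmdIncl E (M * q) q).toRingHom = h.V₁)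
    (x : ↥(modularFunctionFieldFullC E M))
    (hx : x ∈ s18vO ↥(s18dVal 𝔸 E) (modularFunctionFieldFullC E M)) :
    ssvmdIncl E (M * q) q (ssvmdIncl E M q x) ∈ V₂ := by
  obtain ⟨h1, -, -, -⟩ := ssvmar_gauss₁ 𝔸 E M hA hqM hϖ Ξ G h x hx
  rw [← hposα, ValuationSubring.mem_comap] at h1
  exact h1

set_option maxHeartbeats 1000000 in
/-- `β₂ O₀ ⊆ V₂` -/
theorem sqgtv_mem₂ (hA : 𝔸.LiesOverPrime q) (hqM : ¬ q ∣ M) {ϖ : ↥(s18dVal 𝔸 E)}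
    (hϖ : Irreducible ϖ) (Ξ G : (↥(ssvmmR 𝔸 E M q))[X])
    (h : SsvAmb (ssvmmR 𝔸 E M q) (ssvmgRUnif (ssvmm_le E M q) ϖ) (ssvmmY E M q) Ξ
        (X - C (ssvmmJ 𝔸 E M q ^ q)) (X ^ q - C (ssvmmJ 𝔸 E M q)) G)
    (V₂ : ValuationSubring ↥(modularFunctionFieldFullC E (M * q * q)))
    (hposφ : V₂.comap (ssvmfPhi E (M * q) q) = h.V₂)
    (x : ↥(modularFunctionFieldFullC E M))
    (hx : x ∈ s18vO ↥(s18dVal 𝔸 E) (modularFunctionFieldFullC E M)) :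
    ssvmfPhi E (M * q) q (ssvmfPhi E M q x) ∈ V₂ := by
  have h1 := ssvmf_phi_mem₂ 𝔸 E M hA hqM hϖ Ξ G h x hx
  rw [← hposφ, ValuationSubring.mem_comap] at h1
  exact h1

set_option maxHeartbeats 1000000 in
/-- `ϖ ∈ 𝔪_{V₂}` -/
theorem sqgtv_unif_mem (hA : 𝔸.LiesOverPrime q) (hqM : ¬ q ∣ M) {ϖ : ↥(s18dVal 𝔸 E)}
    (hϖ : Irreducible ϖ) (Ξ G : (↥(ssvmmR 𝔸 E M q))[X])
    (h : SsvAmb (ssvmmR 𝔸 E M q) (ssvmgRUnif (ssvmm_le E M q) ϖ) (ssvmmY E M q) Ξ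
        (X - C (ssvmmJ 𝔸 E M q ^ q)) (X ^ q - C (ssvmmJ 𝔸 E M q)) G)
    (V₂ : ValuationSubring ↥(modularFunctionFieldFullC E (M * q * q)))
    (hposα : V₂.comap (ssvmdIncl E (M * q) q).toRingHom = h.V₁) :
    algebraMap ↥(s18dVal 𝔸 E) ↥(modularFunctionFieldFullC E (M * q * q)) ϖ ∈ V₂.nonunits := by
  have hmem : algebraMap ↥(s18dVal 𝔸 E) ↥(modularFunctionFieldFullC E M) ϖ ∈
      s18vO ↥(s18dVal 𝔸 E) (modularFunctionFieldFullC E M) := s18vg_algebraMap_mem _ ϖ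
  obtain ⟨-, -, hiff, -⟩ := ssvmar_gauss₁ 𝔸 E M hA hqM hϖ Ξ G h _ hmem
  have h1 : ssvmdIncl E M q (algebraMap ↥(s18dVal 𝔸 E) ↥(modularFunctionFieldFullC E M) ϖ) ∈
      h.V₁.nonunits := hiff.mpr ⟨1, one_mem _, (mul_one _).symm⟩
  rw [← hposα, sqvca_nonunits_comap, sqgtv_incl_const] at h1
  have e := sqgtv_incl_const 𝔸 E (M * q) q ϖ
  rw [← e]
  exact h1

set_option maxHeartbeats 1000000 in
/-- `j_qq ≡ j mod 𝔪_{V₂}` (= (B02) at `j`) -/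
theorem sqgtv_cong_j (hA : 𝔸.LiesOverPrime q) (hqM : ¬ q ∣ M) {ϖ : ↥(s18dVal 𝔸 E)}
    (hϖ : Irreducible ϖ) (Ξ G : (↥(ssvmmR 𝔸 E M q))[X])
    (h : SsvAmb (ssvmmR 𝔸 E M q) (ssvmgRUnif (ssvmm_le E M q) ϖ) (ssvmmY E M q) Ξ
        (X - C (ssvmmJ 𝔸 E M q ^ q)) (X ^ q - C (ssvmmJ 𝔸 E M q)) G)
    (V₂ : ValuationSubring ↥(modularFunctionFieldFullC E (M * q * q)))
    (hposα : V₂.comap (ssvmdIncl E (M * q) q).toRingHom = h.V₁)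
    (hposφ : V₂.comap (ssvmfPhi E (M * q) q) = h.V₂) :
    sqvmY E M q - ssvmdJ E (M * q * q) ∈ V₂.nonunits := by
  obtain ⟨hj, -⟩ := ssvma_j_mem 𝔸 E M
  have h1 := sqvca_cong₂ 𝔸 E M hA hqM hϖ Ξ G h V₂ hposα hposφ (ssvmdJ E M) hj
  rw [sqgtv_b2_j, sqgtv_b0_j] at h1
  exact h1

set_option maxHeartbeats 1000000 in
/-- `v₂(j_qq - j) = v₂(π₂)` : `j_qq - j` is a uniformiser of `V₂` -/
theorem sqgtv_val_j (hA : 𝔸.LiesOverPrime q) (hqM : ¬ q ∣ M) {ϖ : ↥(s18dVal 𝔸 E)}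
    (hϖ : Irreducible ϖ) (c₀ c₁ : ↥(s18dVal 𝔸 E))
    (hc₀ : ((q : ℕ) : ↥(s18dVal 𝔸 E)) = ϖ * c₀) (hc₁ : c₀ * c₁ = 1)
    (Ξ G : (↥(ssvmmR 𝔸 E M q))[X])
    (h : SsvAmb (ssvmmR 𝔸 E M q) (ssvmgRUnif (ssvmm_le E M q) ϖ) (ssvmmY E M q) Ξ
        (X - C (ssvmmJ 𝔸 E M q ^ q)) (X ^ q - C (ssvmmJ 𝔸 E M q)) G)
    (V₂ : ValuationSubring ↥(modularFunctionFieldFullC E (M * q * q)))
    (hposα : V₂.comap (ssvmdIncl E (M * q) q).toRingHom = h.V₁)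
    (hposφ : V₂.comap (ssvmfPhi E (M * q) q) = h.V₂)
    (π₂ : ↥(modularFunctionFieldFullC E (M * q * q)))
    (hpow₂ : V₂.valuation π₂ ^ (q - 1) = V₂.valuation
      (algebraMap ↥(s18dVal 𝔸 E) ↥(modularFunctionFieldFullC E (M * q * q)) ϖ)) :
    V₂.valuation (sqvmY E M q - ssvmdJ E (M * q * q)) = V₂.valuation π₂ := by
  have hq : q.Prime := Fact.out
  have hq1 : q - 1 ≠ 0 := by
    have := hq.two_le
    omega
  have hU := sqgct_val_U 𝔸 E M hA hϖ c₀ c₁ hc₀ hc₁ V₂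
    (sqgtv_gauss₁_mem 𝔸 E M hA hϖ Ξ G h V₂ hposα)
    (sqgtv_unif_mem 𝔸 E M hA hqM hϖ Ξ G h V₂ hposα)
    (sqgtv_cong_j 𝔸 E M hA hqM hϖ Ξ G h V₂ hposα hposφ)
  have hϖ0 : algebraMap ↥(s18dVal 𝔸 E) ↥(modularFunctionFieldFullC E (M * q * q)) ϖ ≠ 0 := by
    intro h0
    exact hϖ.ne_zero (s18vg_algebraMap_injective (modularFunctionFieldFullC E (M * q * q))
      (by rw [h0, map_zero]))
  have hv0 : V₂.valuation
      (algebraMap ↥(s18dVal 𝔸 E) ↥(modularFunctionFieldFullC E (M * q * q)) ϖ) ≠ 0 :=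
    (Valuation.ne_zero_iff _).mpr hϖ0
  refine sqgtv_val_eq_of_pow V₂ hq1 ?_
  rw [hpow₂, ← map_pow]
  rw [map_mul, map_inv₀] at hU
  exact (mul_inv_eq_one₀ hv0).mp hU

set_option maxHeartbeats 1000000 in
/-- **[B] : `SqgtdHyp` at `(𝔸, E, M, q)`, `V := V₂`, `π₂' := j_qq - j`**; the derivation half
(`d_*`, `pb`) is a list of named hypotheses. -/
theorem sqgtv_hyp (hA : 𝔸.LiesOverPrime q) (hqM : ¬ q ∣ M) {ϖ : ↥(s18dVal 𝔸 E)}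
    (hϖ : Irreducible ϖ) (c₀ c₁ : ↥(s18dVal 𝔸 E))
    (hc₀ : ((q : ℕ) : ↥(s18dVal 𝔸 E)) = ϖ * c₀) (hc₁ : c₀ * c₁ = 1)
    (Ξ G : (↥(ssvmmR 𝔸 E M q))[X])
    (h : SsvAmb (ssvmmR 𝔸 E M q) (ssvmgRUnif (ssvmm_le E M q) ϖ) (ssvmmY E M q) Ξ
        (X - C (ssvmmJ 𝔸 E M q ^ q)) (X ^ q - C (ssvmmJ 𝔸 E M q)) G)
    (V₂ : ValuationSubring ↥(modularFunctionFieldFullC E (M * q * q)))
    (hposα : V₂.comap (ssvmdIncl E (M * q) q).toRingHom = h.V₁)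
    (hposφ : V₂.comap (ssvmfPhi E (M * q) q) = h.V₂)
    (π₂ : ↥(modularFunctionFieldFullC E (M * q * q))) (hunif₂ : S18IsUnif V₂ π₂)
    (hpow₂ : V₂.valuation π₂ ^ (q - 1) = V₂.valuation
      (algebraMap ↥(s18dVal 𝔸 E) ↥(modularFunctionFieldFullC E (M * q * q)) ϖ))
    (D : ↥(modularFunctionFieldFullC E M) → ↥(modularFunctionFieldFullC E M))
    (d_add : ∀ x y, D (x + y) = D x + D y)
    (d_mul : ∀ x y, D (x * y) = D x * y + x * D y)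
    (d_j : D (ssvmdJ E M) = 1)
    (d_O : ∀ x ∈ s18vO ↥(s18dVal 𝔸 E) (modularFunctionFieldFullC E M),
      D x ∈ s18vO ↥(s18dVal 𝔸 E) (modularFunctionFieldFullC E M))
    (d_unif : ∀ z ∈ s18vO ↥(s18dVal 𝔸 E) (modularFunctionFieldFullC E M),
      ∃ z' ∈ s18vO ↥(s18dVal 𝔸 E) (modularFunctionFieldFullC E M),
        D (algebraMap ↥(s18dVal 𝔸 E) ↥(modularFunctionFieldFullC E M) ϖ * z) =
          algebraMap ↥(s18dVal 𝔸 E) ↥(modularFunctionFieldFullC E M) ϖ * z')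
    (pb : ∀ x ∈ s18vO ↥(s18dVal 𝔸 E) (modularFunctionFieldFullC E M),
      ∃ a : Fin q → ↥(modularFunctionFieldFullC E M),
        (∀ i, a i ∈ s18vO ↥(s18dVal 𝔸 E) (modularFunctionFieldFullC E M)) ∧
        ∃ z ∈ s18vO ↥(s18dVal 𝔸 E) (modularFunctionFieldFullC E M),
          x = ∑ i, a i ^ q * ssvmdJ E M ^ (i : ℕ) +
            algebraMap ↥(s18dVal 𝔸 E) ↥(modularFunctionFieldFullC E M) ϖ * z) :
    SqgtdHyp V₂ ((ssvmdIncl E (M * q) q).toRingHom.comp (ssvmdIncl E M q).toRingHom)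
      ((ssvmfPhi E (M * q) q).comp (ssvmfPhi E M q))
      (s18vO ↥(s18dVal 𝔸 E) (modularFunctionFieldFullC E M)) D
      (sqvmY E M q - ssvmdJ E (M * q * q)) (ssvmdJ E M)
      (algebraMap ↥(s18dVal 𝔸 E) ↥(modularFunctionFieldFullC E M) ϖ) q where
  mem₀ := fun x hx => sqgtv_mem₀ 𝔸 E M hA hqM hϖ Ξ G h V₂ hposα x hx
  mem₂ := fun x hx => sqgtv_mem₂ 𝔸 E M hA hqM hϖ Ξ G h V₂ hposφ x hx
  b02 := fun x hx => sqvca_cong₂ 𝔸 E M hA hqM hϖ Ξ G h V₂ hposα hposφ x hx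
  gen := sqgtv_gen_of_unif V₂ hunif₂
    (sqgtv_val_j 𝔸 E M hA hqM hϖ c₀ c₁ hc₀ hc₁ Ξ G h V₂ hposα hposφ π₂ hpow₂)
  j_mem := (ssvma_j_mem 𝔸 E M).1
  j_diff := by
    show ssvmfPhi E (M * q) q (ssvmfPhi E M q (ssvmdJ E M)) -
      ssvmdIncl E (M * q) q (ssvmdIncl E M q (ssvmdJ E M)) = _
    rw [sqgtv_b2_j, sqgtv_b0_j]
  unif_eq := by
    show ssvmfPhi E (M * q) q (ssvmfPhi E M q _) = ssvmdIncl E (M * q) q (ssvmdIncl E M q _)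
    rw [sqgtv_phi_const, sqgtv_phi_const, sqgtv_incl_const, sqgtv_incl_const]
  unif_mem := by
    show ssvmdIncl E (M * q) q (ssvmdIncl E M q _) ∈ V₂.nonunits
    rw [sqgtv_incl_const, sqgtv_incl_const]
    exact sqgtv_unif_mem 𝔸 E M hA hqM hϖ Ξ G h V₂ hposα
  q_mem := by
    have h3 := sqvca_q_mem₁ 𝔸 E M hA hqM hϖ Ξ G h
    rw [← hposα, sqvca_nonunits_comap, map_natCast] at h3
    exact h3
  d_add := d_add
  d_mul := d_mul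
  d_j := d_j
  d_O := d_O
  d_unif := d_unif
  pb := pb

/-- the derivation fields for `D = d/dj` : `D (ϖ z) = ϖ D z` -/
theorem sqgtv_der_unif {ϖ : ↥(s18dVal 𝔸 E)} (z : ↥(modularFunctionFieldFullC E M)) :
    sqgvDer E M (algebraMap ↥(s18dVal 𝔸 E) ↥(modularFunctionFieldFullC E M) ϖ * z) =
      algebraMap ↥(s18dVal 𝔸 E) ↥(modularFunctionFieldFullC E M) ϖ * sqgvDer E M z := by
  rw [sqgvDer_mul,
    IsScalarTower.algebraMap_apply ↥(s18dVal 𝔸 E) ↥E ↥(modularFunctionFieldFullC E M),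
    sqgvDer_algebraMap, zero_mul, zero_add]

set_option maxHeartbeats 1000000 in
/-- **[B] with `D = d/dj = sqgvDer E M`** : only the `q`-basis (PB) remains a hypothesis. -/
theorem sqgtv_hyp_der (hA : 𝔸.LiesOverPrime q) (hqM : ¬ q ∣ M) {ϖ : ↥(s18dVal 𝔸 E)}
    (hϖ : Irreducible ϖ) (c₀ c₁ : ↥(s18dVal 𝔸 E))
    (hc₀ : ((q : ℕ) : ↥(s18dVal 𝔸 E)) = ϖ * c₀) (hc₁ : c₀ * c₁ = 1)
    (Ξ G : (↥(ssvmmR 𝔸 E M q))[X])
    (h : SsvAmb (ssvmmR 𝔸 E M q) (ssvmgRUnif (ssvmm_le E M q) ϖ) (ssvmmY E M q) Ξ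
        (X - C (ssvmmJ 𝔸 E M q ^ q)) (X ^ q - C (ssvmmJ 𝔸 E M q)) G)
    (V₂ : ValuationSubring ↥(modularFunctionFieldFullC E (M * q * q)))
    (hposα : V₂.comap (ssvmdIncl E (M * q) q).toRingHom = h.V₁)
    (hposφ : V₂.comap (ssvmfPhi E (M * q) q) = h.V₂)
    (π₂ : ↥(modularFunctionFieldFullC E (M * q * q))) (hunif₂ : S18IsUnif V₂ π₂)
    (hpow₂ : V₂.valuation π₂ ^ (q - 1) = V₂.valuation
      (algebraMap ↥(s18dVal 𝔸 E) ↥(modularFunctionFieldFullC E (M * q * q)) ϖ))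
    (pb : ∀ x ∈ s18vO ↥(s18dVal 𝔸 E) (modularFunctionFieldFullC E M),
      ∃ a : Fin q → ↥(modularFunctionFieldFullC E M),
        (∀ i, a i ∈ s18vO ↥(s18dVal 𝔸 E) (modularFunctionFieldFullC E M)) ∧
        ∃ z ∈ s18vO ↥(s18dVal 𝔸 E) (modularFunctionFieldFullC E M),
          x = ∑ i, a i ^ q * ssvmdJ E M ^ (i : ℕ) +
            algebraMap ↥(s18dVal 𝔸 E) ↥(modularFunctionFieldFullC E M) ϖ * z) :
    SqgtdHyp V₂ ((ssvmdIncl E (M * q) q).toRingHom.comp (ssvmdIncl E M q).toRingHom)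
      ((ssvmfPhi E (M * q) q).comp (ssvmfPhi E M q))
      (s18vO ↥(s18dVal 𝔸 E) (modularFunctionFieldFullC E M)) (⇑(sqgvDer E M))
      (sqvmY E M q - ssvmdJ E (M * q * q)) (ssvmdJ E M)
      (algebraMap ↥(s18dVal 𝔸 E) ↥(modularFunctionFieldFullC E M) ϖ) q :=
  sqgtv_hyp 𝔸 E M hA hqM hϖ c₀ c₁ hc₀ hc₁ Ξ G h V₂ hposα hposφ π₂ hunif₂ hpow₂ (⇑(sqgvDer E M))
    (fun x y => map_add (sqgvDer E M) x y) (fun x y => sqgvDer_mul E M x y) (sqgvDer_j E M)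
    (fun x hx => (sqgvDer_gauss M hϖ x hx).1)
    (fun z hz => ⟨sqgvDer E M z, (sqgvDer_gauss M hϖ z hz).1, sqgtv_der_unif 𝔸 E M z⟩) pb

set_option maxHeartbeats 1000000 in
/-- `v₂(β₀ u) = 1` for a unit `u` of the Gauss ring `O₀` of `F₀` -/
theorem sqgtv_val_b0_unit (hA : 𝔸.LiesOverPrime q) (hqM : ¬ q ∣ M) {ϖ : ↥(s18dVal 𝔸 E)}
    (hϖ : Irreducible ϖ) (Ξ G : (↥(ssvmmR 𝔸 E M q))[X])
    (h : SsvAmb (ssvmmR 𝔸 E M q) (ssvmgRUnif (ssvmm_le E M q) ϖ) (ssvmmY E M q) Ξ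
        (X - C (ssvmmJ 𝔸 E M q ^ q)) (X ^ q - C (ssvmmJ 𝔸 E M q)) G)
    (V₂ : ValuationSubring ↥(modularFunctionFieldFullC E (M * q * q)))
    (hposα : V₂.comap (ssvmdIncl E (M * q) q).toRingHom = h.V₁)
    (u : ↥(modularFunctionFieldFullC E M)) (hu0 : u ≠ 0)
    (hu : u ∈ s18vO ↥(s18dVal 𝔸 E) (modularFunctionFieldFullC E M))
    (hui : u⁻¹ ∈ s18vO ↥(s18dVal 𝔸 E) (modularFunctionFieldFullC E M)) :
    V₂.valuation (ssvmdIncl E (M * q) q (ssvmdIncl E M q u)) = 1 := by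
  refine sqgtv_val_one V₂ ((_root_.map_ne_zero _).mpr ((_root_.map_ne_zero _).mpr hu0))
    (sqgtv_mem₀ 𝔸 E M hA hqM hϖ Ξ G h V₂ hposα u hu) ?_
  rw [← map_inv₀, ← map_inv₀]
  exact sqgtv_mem₀ 𝔸 E M hA hqM hϖ Ξ G h V₂ hposα u⁻¹ hui

set_option maxHeartbeats 1000000 in
/-- `v₂(j_qq - j)^(q-1) = v₂(ϖ)` -/
theorem sqgtv_pow_j (hA : 𝔸.LiesOverPrime q) (hqM : ¬ q ∣ M) {ϖ : ↥(s18dVal 𝔸 E)}
    (hϖ : Irreducible ϖ) (c₀ c₁ : ↥(s18dVal 𝔸 E))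
    (hc₀ : ((q : ℕ) : ↥(s18dVal 𝔸 E)) = ϖ * c₀) (hc₁ : c₀ * c₁ = 1)
    (Ξ G : (↥(ssvmmR 𝔸 E M q))[X])
    (h : SsvAmb (ssvmmR 𝔸 E M q) (ssvmgRUnif (ssvmm_le E M q) ϖ) (ssvmmY E M q) Ξ
        (X - C (ssvmmJ 𝔸 E M q ^ q)) (X ^ q - C (ssvmmJ 𝔸 E M q)) G)
    (V₂ : ValuationSubring ↥(modularFunctionFieldFullC E (M * q * q)))
    (hposα : V₂.comap (ssvmdIncl E (M * q) q).toRingHom = h.V₁)
    (hposφ : V₂.comap (ssvmfPhi E (M * q) q) = h.V₂) :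
    V₂.valuation (sqvmY E M q - ssvmdJ E (M * q * q)) ^ (q - 1) = V₂.valuation
      (algebraMap ↥(s18dVal 𝔸 E) ↥(modularFunctionFieldFullC E (M * q * q)) ϖ) := by
  have hU := sqgct_val_U 𝔸 E M hA hϖ c₀ c₁ hc₀ hc₁ V₂
    (sqgtv_gauss₁_mem 𝔸 E M hA hϖ Ξ G h V₂ hposα)
    (sqgtv_unif_mem 𝔸 E M hA hqM hϖ Ξ G h V₂ hposα)
    (sqgtv_cong_j 𝔸 E M hA hqM hϖ Ξ G h V₂ hposα hposφ)
  have hϖ0 : algebraMap ↥(s18dVal 𝔸 E) ↥(modularFunctionFieldFullC E (M * q * q)) ϖ ≠ 0 := by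
    intro h0
    exact hϖ.ne_zero (s18vg_algebraMap_injective (modularFunctionFieldFullC E (M * q * q))
      (by rw [h0, map_zero]))
  have hv0 : V₂.valuation
      (algebraMap ↥(s18dVal 𝔸 E) ↥(modularFunctionFieldFullC E (M * q * q)) ϖ) ≠ 0 :=
    (Valuation.ne_zero_iff _).mpr hϖ0
  rw [← map_pow]
  rw [map_mul, map_inv₀] at hU
  exact (mul_inv_eq_one₀ hv0).mp hU

/-- **(ii)** : `v₂(β₂ y - β₀ y)^(q-1) = v₂(ϖ)` when `β₀ (D y)` is a `V₂`-unit; abstract form on top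
of any `SqgtdHyp` whose `π₂` satisfies `v₂(π₂)^(q-1) = v₂(ϖ_F)`. -/
theorem sqgtv_unif_pow_abs {F₀ F : Type*} [CommRing F₀] [Field F] {V : ValuationSubring F}
    {β₀ β₂ : F₀ →+* F} {O₀ : Subring F₀} {D : F₀ → F₀} {π₂ : F} {j ϖ₀ : F₀} {q : ℕ}
    (H : SqgtdHyp V β₀ β₂ O₀ D π₂ j ϖ₀ q) {ϖF : F} {n : ℕ}
    (hpow : V.valuation π₂ ^ n = V.valuation ϖF) {y : F₀} (hy : y ∈ O₀)
    (hu : V.valuation (β₀ (D y)) = 1) :
    V.valuation (β₂ y - β₀ y) ^ n = V.valuation ϖF := by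
  rw [sqgtd_unif H hy hu]
  exact hpow

set_option maxHeartbeats 1000000 in
/-- **(ii)** : `v₂(β₂ y - β₀ y)^(q-1) = v₂(ϖ)` for `y ∈ O₀` with `D y` a unit of the Gauss ring -/
theorem sqgtv_unif_pow (hA : 𝔸.LiesOverPrime q) (hqM : ¬ q ∣ M) {ϖ : ↥(s18dVal 𝔸 E)}
    (hϖ : Irreducible ϖ) (c₀ c₁ : ↥(s18dVal 𝔸 E))
    (hc₀ : ((q : ℕ) : ↥(s18dVal 𝔸 E)) = ϖ * c₀) (hc₁ : c₀ * c₁ = 1)
    (Ξ G : (↥(ssvmmR 𝔸 E M q))[X])
    (h : SsvAmb (ssvmmR 𝔸 E M q) (ssvmgRUnif (ssvmm_le E M q) ϖ) (ssvmmY E M q) Ξ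
        (X - C (ssvmmJ 𝔸 E M q ^ q)) (X ^ q - C (ssvmmJ 𝔸 E M q)) G)
    (V₂ : ValuationSubring ↥(modularFunctionFieldFullC E (M * q * q)))
    (hposα : V₂.comap (ssvmdIncl E (M * q) q).toRingHom = h.V₁)
    (hposφ : V₂.comap (ssvmfPhi E (M * q) q) = h.V₂)
    (D : ↥(modularFunctionFieldFullC E M) → ↥(modularFunctionFieldFullC E M))
    (H : SqgtdHyp V₂ ((ssvmdIncl E (M * q) q).toRingHom.comp (ssvmdIncl E M q).toRingHom)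
      ((ssvmfPhi E (M * q) q).comp (ssvmfPhi E M q))
      (s18vO ↥(s18dVal 𝔸 E) (modularFunctionFieldFullC E M)) D
      (sqvmY E M q - ssvmdJ E (M * q * q)) (ssvmdJ E M)
      (algebraMap ↥(s18dVal 𝔸 E) ↥(modularFunctionFieldFullC E M) ϖ) q)
    (y : ↥(modularFunctionFieldFullC E M))
    (hy : y ∈ s18vO ↥(s18dVal 𝔸 E) (modularFunctionFieldFullC E M)) (hDy0 : D y ≠ 0)
    (hDyi : (D y)⁻¹ ∈ s18vO ↥(s18dVal 𝔸 E) (modularFunctionFieldFullC E M)) :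
    V₂.valuation (ssvmfPhi E (M * q) q (ssvmfPhi E M q y) -
        ssvmdIncl E (M * q) q (ssvmdIncl E M q y)) ^ (q - 1) = V₂.valuation
      (algebraMap ↥(s18dVal 𝔸 E) ↥(modularFunctionFieldFullC E (M * q * q)) ϖ) :=
  sqgtv_unif_pow_abs H (sqgtv_pow_j 𝔸 E M hA hqM hϖ c₀ c₁ hc₀ hc₁ Ξ G h V₂ hposα hposφ) hy
    (sqgtv_val_b0_unit 𝔸 E M hA hqM hϖ Ξ G h V₂ hposα (D y) hDy0 (H.d_O y hy) hDyi)

set_option maxHeartbeats 1000000 in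
/-- **(hUy)** : `U_y ≡ U_j · β₀(D y)^(q-1) mod 𝔪_{V₂}`, where `U_x = (β₂ x - β₀ x)^(q-1) / ϖ`,
`U_j = (j_qq - j)^(q-1) / ϖ` -/
theorem sqgtv_U_cong (hA : 𝔸.LiesOverPrime q) (hqM : ¬ q ∣ M) {ϖ : ↥(s18dVal 𝔸 E)}
    (hϖ : Irreducible ϖ) (c₀ c₁ : ↥(s18dVal 𝔸 E))
    (hc₀ : ((q : ℕ) : ↥(s18dVal 𝔸 E)) = ϖ * c₀) (hc₁ : c₀ * c₁ = 1)
    (Ξ G : (↥(ssvmmR 𝔸 E M q))[X])
    (h : SsvAmb (ssvmmR 𝔸 E M q) (ssvmgRUnif (ssvmm_le E M q) ϖ) (ssvmmY E M q) Ξ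
        (X - C (ssvmmJ 𝔸 E M q ^ q)) (X ^ q - C (ssvmmJ 𝔸 E M q)) G)
    (V₂ : ValuationSubring ↥(modularFunctionFieldFullC E (M * q * q)))
    (hposα : V₂.comap (ssvmdIncl E (M * q) q).toRingHom = h.V₁)
    (hposφ : V₂.comap (ssvmfPhi E (M * q) q) = h.V₂)
    (D : ↥(modularFunctionFieldFullC E M) → ↥(modularFunctionFieldFullC E M))
    (H : SqgtdHyp V₂ ((ssvmdIncl E (M * q) q).toRingHom.comp (ssvmdIncl E M q).toRingHom)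
      ((ssvmfPhi E (M * q) q).comp (ssvmfPhi E M q))
      (s18vO ↥(s18dVal 𝔸 E) (modularFunctionFieldFullC E M)) D
      (sqvmY E M q - ssvmdJ E (M * q * q)) (ssvmdJ E M)
      (algebraMap ↥(s18dVal 𝔸 E) ↥(modularFunctionFieldFullC E M) ϖ) q)
    (y : ↥(modularFunctionFieldFullC E M))
    (hy : y ∈ s18vO ↥(s18dVal 𝔸 E) (modularFunctionFieldFullC E M)) :
    (ssvmfPhi E (M * q) q (ssvmfPhi E M q y) -
        ssvmdIncl E (M * q) q (ssvmdIncl E M q y)) ^ (q - 1) *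
        (algebraMap ↥(s18dVal 𝔸 E) ↥(modularFunctionFieldFullC E (M * q * q)) ϖ)⁻¹ -
      (sqvmY E M q - ssvmdJ E (M * q * q)) ^ (q - 1) *
        (algebraMap ↥(s18dVal 𝔸 E) ↥(modularFunctionFieldFullC E (M * q * q)) ϖ)⁻¹ *
        ssvmdIncl E (M * q) q (ssvmdIncl E M q (D y)) ^ (q - 1) ∈ V₂.nonunits := by
  have hU := sqgct_val_U 𝔸 E M hA hϖ c₀ c₁ hc₀ hc₁ V₂
    (sqgtv_gauss₁_mem 𝔸 E M hA hϖ Ξ G h V₂ hposα)
    (sqgtv_unif_mem 𝔸 E M hA hqM hϖ Ξ G h V₂ hposα)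
    (sqgtv_cong_j 𝔸 E M hA hqM hϖ Ξ G h V₂ hposα hposφ)
  exact sqgtd_U_cong H hy (q - 1) _ ((V₂.valuation_le_one_iff _).mp hU.le)

end Modular

end Fermat.Agent.SQ
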