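import Mathlib
import Fermat.Agent.SQ.Germ.T2Val
import Fermat.Agent.SQ.Germ.PBasisConc

/-!
# Program Q (S36), risk R1, (T2-x) : slices [A] + [B] plugged together

`SqgtdHyp` (helper22, `SQ/Germ/T2Diff.lean`) at `(𝔸, E, M, q)`, `V := V₂`, `D := d/dj`,
`π₂' := j_qq - j`, with NO derivation hypothesis left : [B] `sqgtv_hyp_der` (`SQ/Germ/T2Val.lean`)
fed with helper13's [A] `sqgpc_pb_dVal` (`SQ/Germ/PBasisConc.lean`), for ANY good chart coordinate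
`s` of `F_E(M)`.  Then the first-order formula (DIFF), (ii) and (hUy) for this `H`.

Prefix `sqgtv`.
-/

set_option autoImplicit false
set_option linter.unusedSectionVars false
set_option linter.unusedVariables false
set_option linter.style.haveILetI false
set_option synthInstance.maxHeartbeats 400000

noncomputable section

namespace Fermat.Agent.SQ

open Polynomial ModularCurve AlgebraicCurve IsLocalRing IntermediateField Fermat.Agent.S24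
  Fermat.Agent.G Fermat.Agent.S18 Fermat.Agent.SS

local notation "Qb" => AlgebraicClosure ℚ

section Modular

attribute [local instance] sqvm_neZero

variable {q : ℕ} [Fact q.Prime] (𝔸 : ValuationSubring Qb) (E : IntermediateField ℚ Qb)
  [IsDiscreteValuationRing ↥(s18dVal 𝔸 E)] [CharZero ↥(s18dVal 𝔸 E)]
variable (M : ℕ) [NeZero M]

set_option maxHeartbeats 1000000 in
/-- **[A] + [B] : the whole `SqgtdHyp` at `(𝔸, E, M, q)`**, `V := V₂` any valuation ring of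
`F_E(M q q)` over `h.V₁` along `α` and over `h.V₂` along `φ`, with a uniformiser `π₂` such that
`v₂(π₂)^(q-1) = v₂(ϖ)`; `s` any good chart coordinate of `F_E(M)`. -/
theorem sqgtv_hyp_full (hA : 𝔸.LiesOverPrime q) (hqM : ¬ q ∣ M) {ϖ : ↥(s18dVal 𝔸 E)}
    (hϖ : Irreducible ϖ) (c₀ c₁ : ↥(s18dVal 𝔸 E))
    (hc₀ : ((q : ℕ) : ↥(s18dVal 𝔸 E)) = ϖ * c₀) (hc₁ : c₀ * c₁ = 1)
    (Ξ G : (↥(ssvmmR 𝔸 E M q))[X])
    (h : SsvAmb (ssvmmR 𝔸 E M q) (ssvmgRUnif (ssvmm_le E M q) ϖ) (ssvmmY E M q) Ξ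
        (X - C (ssvmmJ 𝔸 E M q ^ q)) (X ^ q - C (ssvmmJ 𝔸 E M q)) G)
    (V₂ : ValuationSubring ↥(modularFunctionFieldFullC E (M * q * q)))
    (hposα : V₂.comap (ssvmdIncl E (M * q) q).toRingHom = h.V₁)
    (hposφ : V₂.comap (ssvmfPhi E (M * q) q) = h.V₂)
    (π₂ : ↥(modularFunctionFieldFullC E (M * q * q))) (hunif₂ : S18IsUnif V₂ π₂)
    (hpow₂ : V₂.valuation π₂ ^ (q - 1) = V₂.valuation
      (algebraMap ↥(s18dVal 𝔸 E) ↥(modularFunctionFieldFullC E (M * q * q)) ϖ))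
    (s : modularFunctionFieldFullC E M)
    (hc : S18Coord hϖ (modularFunctionFieldFullC E M) s) (Hgood : GrdfbHyp hϖ s) :
    SqgtdHyp V₂ ((ssvmdIncl E (M * q) q).toRingHom.comp (ssvmdIncl E M q).toRingHom)
      ((ssvmfPhi E (M * q) q).comp (ssvmfPhi E M q))
      (s18vO ↥(s18dVal 𝔸 E) (modularFunctionFieldFullC E M)) (⇑(sqgvDer E M))
      (sqvmY E M q - ssvmdJ E (M * q * q)) (ssvmdJ E M)
      (algebraMap ↥(s18dVal 𝔸 E) ↥(modularFunctionFieldFullC E M) ϖ) q :=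
  sqgtv_hyp_der 𝔸 E M hA hqM hϖ c₀ c₁ hc₀ hc₁ Ξ G h V₂ hposα hposφ π₂ hunif₂ hpow₂
    (sqgpc_pb_dVal 𝔸 E M hA hϖ s hc Hgood)

set_option maxHeartbeats 1000000 in
/-- **(DIFF) at `(𝔸, E, M, q)`** : `β₂ y - β₀ y = (j_qq - j) · (β₀ (dy/dj) + m)`, `m ∈ 𝔪_{V₂}`,
for every `y` in the Gauss ring of `F_E(M)`. -/
theorem sqgtv_diff_full (hA : 𝔸.LiesOverPrime q) (hqM : ¬ q ∣ M) {ϖ : ↥(s18dVal 𝔸 E)}
    (hϖ : Irreducible ϖ) (c₀ c₁ : ↥(s18dVal 𝔸 E))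
    (hc₀ : ((q : ℕ) : ↥(s18dVal 𝔸 E)) = ϖ * c₀) (hc₁ : c₀ * c₁ = 1)
    (Ξ G : (↥(ssvmmR 𝔸 E M q))[X])
    (h : SsvAmb (ssvmmR 𝔸 E M q) (ssvmgRUnif (ssvmm_le E M q) ϖ) (ssvmmY E M q) Ξ
        (X - C (ssvmmJ 𝔸 E M q ^ q)) (X ^ q - C (ssvmmJ 𝔸 E M q)) G)
    (V₂ : ValuationSubring ↥(modularFunctionFieldFullC E (M * q * q)))
    (hposα : V₂.comap (ssvmdIncl E (M * q) q).toRingHom = h.V₁)
    (hposφ : V₂.comap (ssvmfPhi E (M * q) q) = h.V₂)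
    (π₂ : ↥(modularFunctionFieldFullC E (M * q * q))) (hunif₂ : S18IsUnif V₂ π₂)
    (hpow₂ : V₂.valuation π₂ ^ (q - 1) = V₂.valuation
      (algebraMap ↥(s18dVal 𝔸 E) ↥(modularFunctionFieldFullC E (M * q * q)) ϖ))
    (s : modularFunctionFieldFullC E M)
    (hc : S18Coord hϖ (modularFunctionFieldFullC E M) s) (Hgood : GrdfbHyp hϖ s)
    (y : ↥(modularFunctionFieldFullC E M))
    (hy : y ∈ s18vO ↥(s18dVal 𝔸 E) (modularFunctionFieldFullC E M)) :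
    ∃ m : ↥(modularFunctionFieldFullC E (M * q * q)), m ∈ V₂.nonunits ∧
      ssvmfPhi E (M * q) q (ssvmfPhi E M q y) - ssvmdIncl E (M * q) q (ssvmdIncl E M q y) =
        (sqvmY E M q - ssvmdJ E (M * q * q)) *
          (ssvmdIncl E (M * q) q (ssvmdIncl E M q (sqgvDer E M y)) + m) :=
  sqgtd_diff (sqgtv_hyp_full 𝔸 E M hA hqM hϖ c₀ c₁ hc₀ hc₁ Ξ G h V₂ hposα hposφ π₂ hunif₂ hpow₂
    s hc Hgood) y hy

set_option maxHeartbeats 1000000 in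
/-- **(ii) at `(𝔸, E, M, q)`** : `v₂(β₂ y - β₀ y)^(q-1) = v₂(ϖ)` when `dy/dj` is a Gauss unit -/
theorem sqgtv_unif_pow_full (hA : 𝔸.LiesOverPrime q) (hqM : ¬ q ∣ M) {ϖ : ↥(s18dVal 𝔸 E)}
    (hϖ : Irreducible ϖ) (c₀ c₁ : ↥(s18dVal 𝔸 E))
    (hc₀ : ((q : ℕ) : ↥(s18dVal 𝔸 E)) = ϖ * c₀) (hc₁ : c₀ * c₁ = 1)
    (Ξ G : (↥(ssvmmR 𝔸 E M q))[X])
    (h : SsvAmb (ssvmmR 𝔸 E M q) (ssvmgRUnif (ssvmm_le E M q) ϖ) (ssvmmY E M q) Ξ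
        (X - C (ssvmmJ 𝔸 E M q ^ q)) (X ^ q - C (ssvmmJ 𝔸 E M q)) G)
    (V₂ : ValuationSubring ↥(modularFunctionFieldFullC E (M * q * q)))
    (hposα : V₂.comap (ssvmdIncl E (M * q) q).toRingHom = h.V₁)
    (hposφ : V₂.comap (ssvmfPhi E (M * q) q) = h.V₂)
    (π₂ : ↥(modularFunctionFieldFullC E (M * q * q))) (hunif₂ : S18IsUnif V₂ π₂)
    (hpow₂ : V₂.valuation π₂ ^ (q - 1) = V₂.valuation
      (algebraMap ↥(s18dVal 𝔸 E) ↥(modularFunctionFieldFullC E (M * q * q)) ϖ))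
    (s : modularFunctionFieldFullC E M)
    (hc : S18Coord hϖ (modularFunctionFieldFullC E M) s) (Hgood : GrdfbHyp hϖ s)
    (y : ↥(modularFunctionFieldFullC E M))
    (hy : y ∈ s18vO ↥(s18dVal 𝔸 E) (modularFunctionFieldFullC E M))
    (hDy0 : sqgvDer E M y ≠ 0)
    (hDyi : (sqgvDer E M y)⁻¹ ∈ s18vO ↥(s18dVal 𝔸 E) (modularFunctionFieldFullC E M)) :
    V₂.valuation (ssvmfPhi E (M * q) q (ssvmfPhi E M q y) -
        ssvmdIncl E (M * q) q (ssvmdIncl E M q y)) ^ (q - 1) = V₂.valuation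
      (algebraMap ↥(s18dVal 𝔸 E) ↥(modularFunctionFieldFullC E (M * q * q)) ϖ) :=
  sqgtv_unif_pow 𝔸 E M hA hqM hϖ c₀ c₁ hc₀ hc₁ Ξ G h V₂ hposα hposφ (⇑(sqgvDer E M))
    (sqgtv_hyp_full 𝔸 E M hA hqM hϖ c₀ c₁ hc₀ hc₁ Ξ G h V₂ hposα hposφ π₂ hunif₂ hpow₂
      s hc Hgood) y hy hDy0 hDyi

set_option maxHeartbeats 1000000 in
/-- **(hUy) at `(𝔸, E, M, q)`** : `U_y ≡ U_j · β₀(dy/dj)^(q-1) mod 𝔪_{V₂}` -/
theorem sqgtv_U_cong_full (hA : 𝔸.LiesOverPrime q) (hqM : ¬ q ∣ M) {ϖ : ↥(s18dVal 𝔸 E)}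
    (hϖ : Irreducible ϖ) (c₀ c₁ : ↥(s18dVal 𝔸 E))
    (hc₀ : ((q : ℕ) : ↥(s18dVal 𝔸 E)) = ϖ * c₀) (hc₁ : c₀ * c₁ = 1)
    (Ξ G : (↥(ssvmmR 𝔸 E M q))[X])
    (h : SsvAmb (ssvmmR 𝔸 E M q) (ssvmgRUnif (ssvmm_le E M q) ϖ) (ssvmmY E M q) Ξ
        (X - C (ssvmmJ 𝔸 E M q ^ q)) (X ^ q - C (ssvmmJ 𝔸 E M q)) G)
    (V₂ : ValuationSubring ↥(modularFunctionFieldFullC E (M * q * q)))
    (hposα : V₂.comap (ssvmdIncl E (M * q) q).toRingHom = h.V₁)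
    (hposφ : V₂.comap (ssvmfPhi E (M * q) q) = h.V₂)
    (π₂ : ↥(modularFunctionFieldFullC E (M * q * q))) (hunif₂ : S18IsUnif V₂ π₂)
    (hpow₂ : V₂.valuation π₂ ^ (q - 1) = V₂.valuation
      (algebraMap ↥(s18dVal 𝔸 E) ↥(modularFunctionFieldFullC E (M * q * q)) ϖ))
    (s : modularFunctionFieldFullC E M)
    (hc : S18Coord hϖ (modularFunctionFieldFullC E M) s) (Hgood : GrdfbHyp hϖ s)
    (y : ↥(modularFunctionFieldFullC E M))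
    (hy : y ∈ s18vO ↥(s18dVal 𝔸 E) (modularFunctionFieldFullC E M)) :
    (ssvmfPhi E (M * q) q (ssvmfPhi E M q y) -
        ssvmdIncl E (M * q) q (ssvmdIncl E M q y)) ^ (q - 1) *
        (algebraMap ↥(s18dVal 𝔸 E) ↥(modularFunctionFieldFullC E (M * q * q)) ϖ)⁻¹ -
      (sqvmY E M q - ssvmdJ E (M * q * q)) ^ (q - 1) *
        (algebraMap ↥(s18dVal 𝔸 E) ↥(modularFunctionFieldFullC E (M * q * q)) ϖ)⁻¹ *
        ssvmdIncl E (M * q) q (ssvmdIncl E M q (sqgvDer E M y)) ^ (q - 1) ∈ V₂.nonunits :=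
  sqgtv_U_cong 𝔸 E M hA hqM hϖ c₀ c₁ hc₀ hc₁ Ξ G h V₂ hposα hposφ (⇑(sqgvDer E M))
    (sqgtv_hyp_full 𝔸 E M hA hqM hϖ c₀ c₁ hc₀ hc₁ Ξ G h V₂ hposα hposφ π₂ hunif₂ hpow₂
      s hc Hgood) y hy

set_option maxHeartbeats 1000000 in
/-- `sqgtv_hyp_full` with the unramifiedness of `A₀` in the form `Associated (q : A₀) ϖ`
(helper10's `sqgt_hT2_point` shape) -/
theorem sqgtv_hyp_assoc (hA : 𝔸.LiesOverPrime q) (hqM : ¬ q ∣ M) {ϖ : ↥(s18dVal 𝔸 E)}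
    (hϖ : Irreducible ϖ) (hqϖ : Associated (((q : ℕ) : ↥(s18dVal 𝔸 E))) ϖ)
    (Ξ G : (↥(ssvmmR 𝔸 E M q))[X])
    (h : SsvAmb (ssvmmR 𝔸 E M q) (ssvmgRUnif (ssvmm_le E M q) ϖ) (ssvmmY E M q) Ξ
        (X - C (ssvmmJ 𝔸 E M q ^ q)) (X ^ q - C (ssvmmJ 𝔸 E M q)) G)
    (V₂ : ValuationSubring ↥(modularFunctionFieldFullC E (M * q * q)))
    (hposα : V₂.comap (ssvmdIncl E (M * q) q).toRingHom = h.V₁)
    (hposφ : V₂.comap (ssvmfPhi E (M * q) q) = h.V₂)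
    (π₂ : ↥(modularFunctionFieldFullC E (M * q * q))) (hunif₂ : S18IsUnif V₂ π₂)
    (hpow₂ : V₂.valuation π₂ ^ (q - 1) = V₂.valuation
      (algebraMap ↥(s18dVal 𝔸 E) ↥(modularFunctionFieldFullC E (M * q * q)) ϖ))
    (s : modularFunctionFieldFullC E M)
    (hc : S18Coord hϖ (modularFunctionFieldFullC E M) s) (Hgood : GrdfbHyp hϖ s) :
    SqgtdHyp V₂ ((ssvmdIncl E (M * q) q).toRingHom.comp (ssvmdIncl E M q).toRingHom)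
      ((ssvmfPhi E (M * q) q).comp (ssvmfPhi E M q))
      (s18vO ↥(s18dVal 𝔸 E) (modularFunctionFieldFullC E M)) (⇑(sqgvDer E M))
      (sqvmY E M q - ssvmdJ E (M * q * q)) (ssvmdJ E M)
      (algebraMap ↥(s18dVal 𝔸 E) ↥(modularFunctionFieldFullC E M) ϖ) q := by
  obtain ⟨u, hu⟩ := hqϖ
  refine sqgtv_hyp_full 𝔸 E M hA hqM hϖ (↑u⁻¹) (↑u) ?_ (by rw [Units.inv_mul]) Ξ G h V₂ hposα
    hposφ π₂ hunif₂ hpow₂ s hc Hgood
  rw [← hu, mul_assoc, Units.mul_inv, mul_one]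

end Modular

end Fermat.Agent.SQ
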