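import Mathlib
import Fermat.Agent.SQ.Germ.T2Point
import Fermat.Agent.SQ.Germ.Over
import Fermat.Agent.SQ.Germ.CongT2
import Fermat.Agent.SQ.Val.CongAll
import Fermat.Agent.SQ.Germ.T2Diff
import Fermat.Agent.SQ.Germ.PlaceDown
import Fermat.Agent.SQ.Germ.DerivComap
import Fermat.Agent.SQ.Germ.PBasisHyp
import Fermat.Agent.SQ.Germ.T2ValFull
import Fermat.Agent.SQ.Germ.DerivUnitXOrd
import Fermat.Agent.SS.Germ.Levels
import Fermat.Agent.SQ.Germ.T2PointMq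

/-!
# Program Q (S36), risk R1, (T2-x) : `hT2` AT THE CONCRETE TOWER (prefix `sqgt`)

Levels `M`, `M q`, `M q q`; `𝔫` a closed point of the chart `t = α (α₁ t₀)` of level `M q q` lying
on `V₂` only.  This file does the plumbing `𝔫 ↦ 𝔫₁ = 𝔫 ∩ P₁ ↦ 𝔰 = 𝔫₁ ∩ P₀` and assembles
`sqgt_hT2_point` from the producers.
-/

set_option autoImplicit false
set_option linter.unusedSectionVars false
set_option linter.unusedVariables false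
set_option linter.style.haveILetI false
set_option synthInstance.maxHeartbeats 400000

noncomputable section

namespace Fermat.Agent.SQ

open Fermat.Agent.S24 Fermat.Agent.S18 Fermat.Agent.G Fermat.Agent.SS AlgebraicCurve ModularCurve
  Polynomial IntermediateField IsLocalRing

local notation "Qb" => AlgebraicClosure ℚ

/-! ### abstract plumbing : pull-back of closed points along a level map -/

section Plumb

variable {A : Type*} [CommRing A] [IsDomain A] [IsDiscreteValuationRing A] [CharZero A]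
variable {F₀ : Type*} [Field F₀] [Algebra A F₀] {F : Type*} [Field F] [Algebra A F]
variable {t₀ : F₀} {t : F} (ι : F₀ →+* F)
  (f : ↥(s18tInt A t₀) →+* ↥(s18tInt A t))
  (hf : ∀ p : ↥(s18tInt A t₀), ((f p : ↥(s18tInt A t)) : F) = ι (p : F₀))

include hf in
/-- `P` is integral over the image of `P₀` as soon as the constants and a chart coordinate `t'` of
`P` come from `P₀`. -/
theorem sqgt_res_isIntegral (hιA : ∀ a : A, ι (algebraMap A F₀ a) = algebraMap A F a)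
    (t' : F) (hchart : s18tInt A t' = s18tInt A t)
    (ht : ∃ x : ↥(s18tInt A t₀), ι (x : F₀) = t') : f.IsIntegral := by
  intro p
  have key : ((s18tInt A t).subtype.comp f).IsIntegralElem (p : F) := by
    have hp' : (p : F) ∈ s18tInt A t' := by rw [hchart]; exact p.2
    refine sqgo_isIntegralElem (t := t') _ (fun a => ?_) ?_ hp'
    · have e : algebraMap A F a = ((s18tInt A t).subtype.comp f)
          ⟨algebraMap A F₀ a, s18tc_algebraMap_mem_int t₀ a⟩ := by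
        rw [RingHom.comp_apply, Subring.coe_subtype, hf, hιA]
      have h1 := RingHom.isIntegralElem_map (f := (s18tInt A t).subtype.comp f)
        (x := ⟨algebraMap A F₀ a, s18tc_algebraMap_mem_int t₀ a⟩)
      rwa [← e] at h1
    · obtain ⟨x, hx⟩ := ht
      have e : t' = ((s18tInt A t).subtype.comp f) x := by
        rw [RingHom.comp_apply, Subring.coe_subtype, hf, hx]
      have h1 := RingHom.isIntegralElem_map (f := (s18tInt A t).subtype.comp f) (x := x)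
      rwa [← e] at h1
  obtain ⟨P, hP, hPx⟩ := key
  refine ⟨P, hP, ?_⟩
  apply Subtype.ext
  have := Polynomial.hom_eval₂ P f (s18tInt A t).subtype p
  rw [Subring.coe_subtype] at this
  rw [this]
  exact hPx

include hf in
/-- the pull-back of a closed point is a closed point -/
theorem sqgt_comap_isMaximal (hιA : ∀ a : A, ι (algebraMap A F₀ a) = algebraMap A F a)
    (t' : F) (hchart : s18tInt A t' = s18tInt A t)
    (ht : ∃ x : ↥(s18tInt A t₀), ι (x : F₀) = t') (𝔫 : Ideal ↥(s18tInt A t))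
    (h𝔫 : 𝔫.IsMaximal) : (𝔫.comap f).IsMaximal :=
  haveI := h𝔫
  Ideal.isMaximal_comap_of_isIntegral_of_isMaximal' f
    (sqgt_res_isIntegral ι f hf hιA t' hchart ht) 𝔫

include hf in
/-- `ϖ` lies in the pull-back -/
theorem sqgt_pi_comap (hιA : ∀ a : A, ι (algebraMap A F₀ a) = algebraMap A F a) {ϖ : A}
    (𝔫 : Ideal ↥(s18tInt A t)) (hϖ𝔫 : sskPi ϖ t ∈ 𝔫) : sskPi ϖ t₀ ∈ 𝔫.comap f := by
  rw [Ideal.mem_comap]
  have e : f (sskPi ϖ t₀) = sskPi ϖ t := Subtype.ext (by rw [hf]; exact hιA ϖ)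
  rw [e]
  exact hϖ𝔫

include hf in
/-- a point on `V` pulls back to a point on `V ∩ F₀` -/
theorem sqgt_on_comap (V : ValuationSubring F) (𝔫 : Ideal ↥(s18tInt A t)) (hon : SqtOn V t 𝔫) :
    SqtOn (V.comap ι) t₀ (𝔫.comap f) := by
  intro p hp
  rw [Ideal.mem_comap]
  refine hon (f p) ?_
  rw [hf]
  exact (sqgk_comap_nonunits ι V _).mp hp

/-- elements of `P` lie in `P_𝔫` -/
theorem sqgt_inLoc_of_mem (𝔫 : Ideal ↥(s18tInt A t)) (h𝔫 : 𝔫 ≠ ⊤) {x : F}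
    (hx : x ∈ s18tInt A t) : SsnfInLoc t 𝔫 x :=
  ⟨1, fun h1 => h𝔫 ((Ideal.eq_top_iff_one 𝔫).mpr h1), by
    rw [OneMemClass.coe_one, one_mul]; exact hx⟩

end Plumb

/-! ### the concrete tower -/

section Conc

variable {q : ℕ} [Fact q.Prime] [NeZero q] (𝔸 : ValuationSubring Qb) (E : IntermediateField ℚ Qb)
  [IsDiscreteValuationRing ↥(s18dVal 𝔸 E)] [CharZero ↥(s18dVal 𝔸 E)]
variable (M : ℕ) [NeZero M]

/-- `β₂ j = j_qq` -/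
theorem sqgt_beta₂_j :
    ssvmfPhi E (M * q) q (ssvmfPhi E M q (ssvmdJ E M)) = sqvmY E M q := by
  apply Subtype.ext
  rw [ssvmfPhi_coe, ssvmfPhi_coe, sqvmY_coe, qExpand_qExpand]
  rfl

/-- `β₀ j = j` -/
theorem sqgt_beta₀_j :
    ssvmdIncl E (M * q) q (ssvmdIncl E M q (ssvmdJ E M)) = ssvmdJ E (M * q * q) := by
  apply Subtype.ext
  rw [ssvmdIncl_coe, ssvmdIncl_coe]
  rfl

/-- `ϖ ∈ 𝔪_{V₂}` -/
theorem sqgt_unif_mem {ϖ : ↥(s18dVal 𝔸 E)} {hϖ : Irreducible ϖ}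
    {t π₂ : ↥(modularFunctionFieldFullC E (M * q * q))} {e₂ : ℕ}
    {V₁ V₂ V₃ : ValuationSubring ↥(modularFunctionFieldFullC E (M * q * q))}
    (three : SqvThree hϖ t e₂ π₂ V₁ V₂ V₃) :
    algebraMap ↥(s18dVal 𝔸 E) ↥(modularFunctionFieldFullC E (M * q * q)) ϖ ∈ V₂.nonunits := by
  rw [ValuationSubring.mem_nonunits_iff]
  have h1 := three.fam.pow 1
  have h2 : V₂.valuation π₂ ^ e₂ = V₂.valuation
      (algebraMap ↥(s18dVal 𝔸 E) ↥(modularFunctionFieldFullC E (M * q * q)) ϖ) := h1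
  rw [← h2]
  exact pow_lt_one₀ zero_le three.unif₂.1 three.e₂_ne

set_option maxHeartbeats 1600000 in
/-- **(T2-cong) for `j` at `V₂`** : helper3's `sqgct_main` with its hypotheses discharged from the
positions of `V₂`. -/
theorem sqgt_hT2j (hA : 𝔸.LiesOverPrime q) (hqM : ¬ q ∣ M) {ϖ : ↥(s18dVal 𝔸 E)}
    (hϖ : Irreducible ϖ) (Ξ G : (↥(ssvmmR 𝔸 E M q))[X])
    (h : SsvAmb (ssvmmR 𝔸 E M q) (ssvmgRUnif (ssvmm_le E M q) ϖ) (ssvmmY E M q) Ξ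
      (X - C (ssvmmJ 𝔸 E M q ^ q)) (X ^ q - C (ssvmmJ 𝔸 E M q)) G)
    (V₂ : ValuationSubring ↥(modularFunctionFieldFullC E (M * q * q)))
    (hposα : V₂.comap (ssvmdIncl E (M * q) q).toRingHom = h.V₁)
    (hposφ : V₂.comap (ssvmfPhi E (M * q) q) = h.V₂)
    (hϖV : algebraMap ↥(s18dVal 𝔸 E) ↥(modularFunctionFieldFullC E (M * q * q)) ϖ ∈
      V₂.nonunits) :
    (sqvmY E M q - ssvmdJ E (M * q * q)) ^ (q - 1) *
        (algebraMap ↥(s18dVal 𝔸 E) ↥(modularFunctionFieldFullC E (M * q * q)) ϖ)⁻¹ +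
      ((q : ℕ) : ↥(modularFunctionFieldFullC E (M * q * q))) *
        (algebraMap ↥(s18dVal 𝔸 E) ↥(modularFunctionFieldFullC E (M * q * q)) ϖ)⁻¹ *
          ssvmdIncl E (M * q) q (sqgvG E M q) ∈ V₂.nonunits := by
  refine sqgct_main 𝔸 E M hA hϖ V₂ (fun x hx => ?_) hϖV ?_
  · have h1 : x ∈ h.V₁ := ((ssvma_mem₁_iff 𝔸 E M hA hϖ Ξ G h x).1).mpr hx
    rw [← hposα] at h1
    exact h1
  · have h1 := sqvca_cong₂ 𝔸 E M hA hqM hϖ Ξ G h V₂ hposα hposφ (ssvmdJ E M) (sqgpc_j_mem M)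
    rw [sqgt_beta₂_j, sqgt_beta₀_j] at h1
    exact h1

/-- the constants of `A₀` under `α` (any level) -/
theorem sqgt_incl_algebraMap (N ℓ : ℕ) [NeZero N] [NeZero ℓ] (a : ↥(s18dVal 𝔸 E)) :
    (ssvmdIncl E N ℓ).toRingHom
        (algebraMap ↥(s18dVal 𝔸 E) ↥(modularFunctionFieldFullC E N) a) =
      algebraMap ↥(s18dVal 𝔸 E) ↥(modularFunctionFieldFullC E (N * ℓ)) a := by
  rw [IsScalarTower.algebraMap_apply ↥(s18dVal 𝔸 E) ↥E ↥(modularFunctionFieldFullC E N),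
    IsScalarTower.algebraMap_apply ↥(s18dVal 𝔸 E) ↥E ↥(modularFunctionFieldFullC E (N * ℓ))]
  exact (ssvmdIncl E N ℓ).commutes _

/-- the constants of `A₀` under `φ` (any level) -/
theorem sqgt_phi_algebraMap (N ℓ : ℕ) [NeZero N] [NeZero ℓ] (a : ↥(s18dVal 𝔸 E)) :
    ssvmfPhi E N ℓ (algebraMap ↥(s18dVal 𝔸 E) ↥(modularFunctionFieldFullC E N) a) =
      algebraMap ↥(s18dVal 𝔸 E) ↥(modularFunctionFieldFullC E (N * ℓ)) a := by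
  rw [IsScalarTower.algebraMap_apply ↥(s18dVal 𝔸 E) ↥E ↥(modularFunctionFieldFullC E N),
    IsScalarTower.algebraMap_apply ↥(s18dVal 𝔸 E) ↥E ↥(modularFunctionFieldFullC E (N * ℓ))]
  exact sqgkx_phi_algebraMap E N ℓ _

/-- `α` maps chart rings to chart rings (any level) -/
theorem sqgt_incl_int (N ℓ : ℕ) [NeZero N] [NeZero ℓ] (t₀ : modularFunctionFieldFullC E N) :
    ∀ x ∈ s18tInt ↥(s18dVal 𝔸 E) t₀,
      (ssvmdIncl E N ℓ).toRingHom x ∈ s18tInt ↥(s18dVal 𝔸 E) (ssvmdIncl E N ℓ t₀) := by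
  intro x hx
  have hlev : SsgaLevel (RingHom.id ↥(s18dVal 𝔸 E)) (ssvmdIncl E N ℓ).toRingHom
      (1 : ↥(s18dVal 𝔸 E)) (1 : ↥(s18dVal 𝔸 E)) t₀ (ssvmdIncl E N ℓ t₀) :=
    ⟨fun a => sqgt_incl_algebraMap 𝔸 E N ℓ a, rfl, ⟨1, by rw [RingHom.id_apply, mul_one]⟩⟩
  exact ssga_map_int hlev hx

/-- `φ` maps the chart ring of `t₀` to the chart ring of `φ t₀` (any level) -/
theorem sqgt_phi_int (N ℓ : ℕ) [NeZero N] [NeZero ℓ] (t₀ : modularFunctionFieldFullC E N) :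
    ∀ x ∈ s18tInt ↥(s18dVal 𝔸 E) t₀,
      ssvmfPhi E N ℓ x ∈ s18tInt ↥(s18dVal 𝔸 E) (ssvmfPhi E N ℓ t₀) := by
  intro x hx
  have hlev : SsgaLevel (RingHom.id ↥(s18dVal 𝔸 E)) (ssvmfPhi E N ℓ)
      (1 : ↥(s18dVal 𝔸 E)) (1 : ↥(s18dVal 𝔸 E)) t₀ (ssvmfPhi E N ℓ t₀) :=
    ⟨fun a => sqgt_phi_algebraMap 𝔸 E N ℓ a, rfl, ⟨1, by rw [RingHom.id_apply, mul_one]⟩⟩
  exact ssga_map_int hlev hx

/-- a field homomorphism with algebraic target is integral -/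
theorem sqgt_isIntegral_of_halg {K₀ K : Type*} [Field K₀] [Field K] (ι : K₀ →+* K)
    (halg : ∀ y : K, ∃ g : K₀[X], g ≠ 0 ∧ g.eval₂ ι y = 0) : ι.IsIntegral := by
  intro y
  obtain ⟨g, hg0, hgy⟩ := halg y
  refine ⟨g * C g.leadingCoeff⁻¹, Polynomial.monic_mul_leadingCoeff_inv hg0, ?_⟩
  rw [eval₂_mul, hgy, zero_mul]

set_option maxHeartbeats 1600000 in
/-- **`hT2` AT ONE CLOSED POINT FROM THE LEVEL-`M q` PACKAGE.**  `t₀` any good chart coordinate of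
level `M`, `t = α (α₁ t₀)`; `𝔫` a closed point of `t` on `V₂` only; `𝔫₁ = 𝔫 ∩ P₁`; `(y, y')` the
parameters of the level-`M q` package at `𝔫₁`. -/
theorem sqgt_hT2_of_pkg (hA : 𝔸.LiesOverPrime q) (hqM : ¬ q ∣ M) {ϖ : ↥(s18dVal 𝔸 E)}
    (hϖ : Irreducible ϖ) (hqϖ : Associated ((q : ℕ) : ↥(s18dVal 𝔸 E)) ϖ)
    (Ξ G : (↥(ssvmmR 𝔸 E M q))[X])
    (h : SsvAmb (ssvmmR 𝔸 E M q) (ssvmgRUnif (ssvmm_le E M q) ϖ) (ssvmmY E M q) Ξ
      (X - C (ssvmmJ 𝔸 E M q ^ q)) (X ^ q - C (ssvmmJ 𝔸 E M q)) G)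
    [CharP (ResidueField ↥(s18dVal 𝔸 E)) q]
    (t₀ : modularFunctionFieldFullC E M)
    (hcoord : S18Coord hϖ (modularFunctionFieldFullC E M) t₀) (H : GrdfbHyp hϖ t₀)
    (ht : Transcendental E (ssvmdIncl E (M * q) q (ssvmdIncl E M q t₀)))
    [FiniteDimensional E⟮ssvmdIncl E (M * q) q (ssvmdIncl E M q t₀)⟯
      ↥(modularFunctionFieldFullC E (M * q * q))]
    (hchart₂ : s18tInt ↥(s18dVal 𝔸 E) (ssvmfPhi E (M * q) q (ssvmfPhi E M q t₀)) =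
      s18tInt ↥(s18dVal 𝔸 E) (ssvmdIncl E (M * q) q (ssvmdIncl E M q t₀)))
    {π₂' : ↥(modularFunctionFieldFullC E (M * q * q))}
    {V₁ V₂ V₃ : ValuationSubring ↥(modularFunctionFieldFullC E (M * q * q))}
    (three : SqvThree hϖ (ssvmdIncl E (M * q) q (ssvmdIncl E M q t₀)) (q - 1) π₂' V₁ V₂ V₃)
    (hposα : V₂.comap (ssvmdIncl E (M * q) q).toRingHom = h.V₁)
    (hposφ : V₂.comap (ssvmfPhi E (M * q) q) = h.V₂)
    (𝔫 : Ideal ↥(s18tInt ↥(s18dVal 𝔸 E) (ssvmdIncl E (M * q) q (ssvmdIncl E M q t₀))))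
    (h𝔫 : 𝔫.IsMaximal)
    (hon : SqtOn V₂ (ssvmdIncl E (M * q) q (ssvmdIncl E M q t₀)) 𝔫)
    (hoff₁ : ¬ SqtOn V₁ (ssvmdIncl E (M * q) q (ssvmdIncl E M q t₀)) 𝔫)
    (hoff₃ : ¬ SqtOn V₃ (ssvmdIncl E (M * q) q (ssvmdIncl E M q t₀)) 𝔫)
    (y y' : modularFunctionFieldFullC E M)
    (hy : y ∈ s18vO ↥(s18dVal 𝔸 E) (modularFunctionFieldFullC E M))
    (hy' : y' ∈ s18vO ↥(s18dVal 𝔸 E) (modularFunctionFieldFullC E M))
    (hyP : y ∈ s18tInt ↥(s18dVal 𝔸 E) t₀)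
    (hθ : sqvtTheta (ResidueField ↥(s18dVal 𝔸 E))
      (s18vcRed (modularFunctionFieldFullC E M) ⟨y, hy⟩) ≠ 0)
    (hfr : coeffMap (frobenius (ResidueField ↥(s18dVal 𝔸 E)) q)
        (s18vcRed (modularFunctionFieldFullC E M) ⟨y, hy⟩) =
      s18vcRed (modularFunctionFieldFullC E M) ⟨y', hy'⟩)
    (hhor₁ : SqgkHor ↥E (ssvmdIncl E M q t₀)
      (𝔫.comap (sqgpdRes (ssvmdIncl E (M * q) q).toRingHom
        (sqgt_incl_int 𝔸 E (M * q) q (ssvmdIncl E M q t₀))))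
      (sqgvGxy E M q y y')) :
    ∃ π w : ↥(modularFunctionFieldFullC E (M * q * q)),
      SsnfInLoc (ssvmdIncl E (M * q) q (ssvmdIncl E M q t₀)) 𝔫 π ∧ π ∈ V₂.nonunits ∧
      SsnfInLoc (ssvmdIncl E (M * q) q (ssvmdIncl E M q t₀)) 𝔫 w ∧
      algebraMap ↥(s18dVal 𝔸 E) ↥(modularFunctionFieldFullC E (M * q * q)) ϖ =
        π ^ (q - 1) * w := by
  have hq : q.Prime := Fact.out
  have hϖV := sqgt_unif_mem 𝔸 E M three
  have hpow₂ : V₂.valuation π₂' ^ (q - 1) = V₂.valuation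
      (algebraMap ↥(s18dVal 𝔸 E) ↥(modularFunctionFieldFullC E (M * q * q)) ϖ) :=
    three.fam.pow 1
  -- (T2-cong) for `j`
  have hT2j := sqgt_hT2j 𝔸 E M hA hqM hϖ Ξ G h V₂ hposα hposφ hϖV
  -- (DIFF) for `y`
  have hdiff := sqgtd_diff (sqgtv_hyp_assoc 𝔸 E M hA hqM hϖ hqϖ Ξ G h V₂ hposα hposφ π₂'
    three.unif₂ hpow₂ t₀ hcoord H) y hy
  -- (B02) for `y`
  have hp₂ := sqvca_cong₂ 𝔸 E M hA hqM hϖ Ξ G h V₂ hposα hposφ y hy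
  -- `β₀ y`, `β₂ y ∈ P`
  have h0P : ssvmdIncl E (M * q) q (ssvmdIncl E M q y) ∈
      s18tInt ↥(s18dVal 𝔸 E) (ssvmdIncl E (M * q) q (ssvmdIncl E M q t₀)) :=
    sqgt_incl_int 𝔸 E (M * q) q _ _ (sqgt_incl_int 𝔸 E M q t₀ y hyP)
  have h2P : ssvmfPhi E (M * q) q (ssvmfPhi E M q y) ∈
      s18tInt ↥(s18dVal 𝔸 E) (ssvmdIncl E (M * q) q (ssvmdIncl E M q t₀)) := by
    rw [← hchart₂]
    exact sqgt_phi_int 𝔸 E (M * q) q _ _ (sqgt_phi_int 𝔸 E M q t₀ y hyP)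
  have hpP : SsnfInLoc (ssvmdIncl E (M * q) q (ssvmdIncl E M q t₀)) 𝔫
      (ssvmfPhi E (M * q) q (ssvmfPhi E M q y) - ssvmdIncl E (M * q) q (ssvmdIncl E M q y)) :=
    sqgt_inLoc_of_mem 𝔫 h𝔫.ne_top (sub_mem h2P h0P)
  -- the horizontal unit property, transported along `α`
  have hint : (ssvmdIncl E (M * q) q).toRingHom.IsIntegral :=
    sqgt_isIntegral_of_halg _ (fun z => sqgkx_halg_alpha (q := q) E (M * q) z)
  have hhor := sqgk_hor_comap (L := ↥E) (ssvmdIncl E (M * q) q).toRingHom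
    (fun c => (ssvmdIncl E (M * q) q).commutes c) hint
    (sqgpdRes (ssvmdIncl E (M * q) q).toRingHom
      (sqgt_incl_int 𝔸 E (M * q) q (ssvmdIncl E M q t₀)))
    (fun p => sqgpdRes_coe _ _ p) 𝔫 hhor₁
  exact sqgt_hT2_point 𝔸 E M hA hqM hϖ hqϖ Ξ G h three ht hposα 𝔫 h𝔫 hon hoff₁ hoff₃ y y' hy hy'
    hθ hfr hT2j hdiff hpP hp₂ hhor

set_option maxHeartbeats 1600000 in
/-- **`hT2` AT ONE NON-CUSPIDAL CLOSED POINT OF THE CONCRETE TOWER.**  `t₀` any good chart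
coordinate of level `M` (`j` or `h_a`), `t₁ = α₁ t₀`, `t = α t₁`; `𝔫` a closed point of `t` on `V₂`
only; non-cuspidality enters pointwise (`hj𝔰`, `hj𝔫`, `hy𝔫`) at `𝔫₁ = 𝔫 ∩ P₁`, `𝔰 = 𝔫₁ ∩ P₀`. -/
theorem sqgt_hT2_conc [FiniteDimensional ℚ E] (hA : 𝔸.LiesOverPrime q) (hqM : ¬ q ∣ M)
    {ϖ : ↥(s18dVal 𝔸 E)} (hϖ : Irreducible ϖ)
    (hqϖ : Associated ((q : ℕ) : ↥(s18dVal 𝔸 E)) ϖ)
    (Ξ G : (↥(ssvmmR 𝔸 E M q))[X])
    (h : SsvAmb (ssvmmR 𝔸 E M q) (ssvmgRUnif (ssvmm_le E M q) ϖ) (ssvmmY E M q) Ξ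
      (X - C (ssvmmJ 𝔸 E M q ^ q)) (X ^ q - C (ssvmmJ 𝔸 E M q)) G)
    (r : ℕ) (hr : r.Prime) (hrM : r ∣ M) (hr3 : r % 3 = 2)
    (r' : ℕ) (hr' : r'.Prime) (hr'M : r' ∣ M) (hr4 : r' % 4 = 3)
    (υ : LaurentSeries ℤ) (t₀ : ↥(modularFunctionFieldFullC E M))
    (ht₀ : (t₀ : LaurentSeries ↥E) = grdSer υ ↥E)
    (hcoord : S18Coord hϖ (modularFunctionFieldFullC E M) t₀) (H : GrdfbHyp hϖ t₀)
    (htr : Transcendental ↥E t₀) [FiniteDimensional ↥E⟮t₀⟯ ↥(modularFunctionFieldFullC E M)]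
    (ht : Transcendental E (ssvmdIncl E (M * q) q (ssvmdIncl E M q t₀)))
    [FiniteDimensional E⟮ssvmdIncl E (M * q) q (ssvmdIncl E M q t₀)⟯
      ↥(modularFunctionFieldFullC E (M * q * q))]
    (hchartW : s18tInt ↥(s18dVal 𝔸 E) (ssvmfPhi E M q t₀) =
      s18tInt ↥(s18dVal 𝔸 E) (ssvmdIncl E M q t₀))
    (hchart₂ : s18tInt ↥(s18dVal 𝔸 E) (ssvmfPhi E (M * q) q (ssvmfPhi E M q t₀)) =
      s18tInt ↥(s18dVal 𝔸 E) (ssvmdIncl E (M * q) q (ssvmdIncl E M q t₀)))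
    {π₂' : ↥(modularFunctionFieldFullC E (M * q * q))}
    {V₁ V₂ V₃ : ValuationSubring ↥(modularFunctionFieldFullC E (M * q * q))}
    (three : SqvThree hϖ (ssvmdIncl E (M * q) q (ssvmdIncl E M q t₀)) (q - 1) π₂' V₁ V₂ V₃)
    (hposα : V₂.comap (ssvmdIncl E (M * q) q).toRingHom = h.V₁)
    (hposφ : V₂.comap (ssvmfPhi E (M * q) q) = h.V₂)
    (𝔫 : Ideal ↥(s18tInt ↥(s18dVal 𝔸 E) (ssvmdIncl E (M * q) q (ssvmdIncl E M q t₀))))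
    (h𝔫 : 𝔫.IsMaximal)
    (hϖ𝔫 : sskPi ϖ (ssvmdIncl E (M * q) q (ssvmdIncl E M q t₀)) ∈ 𝔫)
    (hon : SqtOn V₂ (ssvmdIncl E (M * q) q (ssvmdIncl E M q t₀)) 𝔫)
    (hoff₁ : ¬ SqtOn V₁ (ssvmdIncl E (M * q) q (ssvmdIncl E M q t₀)) 𝔫)
    (hoff₃ : ¬ SqtOn V₃ (ssvmdIncl E (M * q) q (ssvmdIncl E M q t₀)) 𝔫)
    (hj𝔰 : SsnfInLoc t₀
      ((𝔫.comap (sqgpdRes (ssvmdIncl E (M * q) q).toRingHom
          (sqgt_incl_int 𝔸 E (M * q) q (ssvmdIncl E M q t₀)))).comap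
        (sqgpdRes (ssvmdIncl E M q).toRingHom (sqgt_incl_int 𝔸 E M q t₀))) (ssvmdJ E M))
    (hj𝔫 : SsnfInLoc (ssvmdIncl E M q t₀)
      (𝔫.comap (sqgpdRes (ssvmdIncl E (M * q) q).toRingHom
        (sqgt_incl_int 𝔸 E (M * q) q (ssvmdIncl E M q t₀)))) (ssdJ E (M * q)))
    (hy𝔫 : SsnfInLoc (ssvmdIncl E M q t₀)
      (𝔫.comap (sqgpdRes (ssvmdIncl E (M * q) q).toRingHom
        (sqgt_incl_int 𝔸 E (M * q) q (ssvmdIncl E M q t₀)))) (ssvmfPhi E M q (ssdJ E M))) :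
    ∃ π w : ↥(modularFunctionFieldFullC E (M * q * q)),
      SsnfInLoc (ssvmdIncl E (M * q) q (ssvmdIncl E M q t₀)) 𝔫 π ∧ π ∈ V₂.nonunits ∧
      SsnfInLoc (ssvmdIncl E (M * q) q (ssvmdIncl E M q t₀)) 𝔫 w ∧
      algebraMap ↥(s18dVal 𝔸 E) ↥(modularFunctionFieldFullC E (M * q * q)) ϖ =
        π ^ (q - 1) * w := by
  haveI : CharP (ResidueField ↥(s18dVal 𝔸 E)) q := s18v_charP hϖ (s18d_natCast_mem 𝔸 E hA)
  -- the two restriction maps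
  have hres₁ : ∀ p : ↥(s18tInt ↥(s18dVal 𝔸 E) (ssvmdIncl E M q t₀)),
      ((sqgpdRes (ssvmdIncl E (M * q) q).toRingHom
        (sqgt_incl_int 𝔸 E (M * q) q (ssvmdIncl E M q t₀)) p :
          ↥(s18tInt ↥(s18dVal 𝔸 E) (ssvmdIncl E (M * q) q (ssvmdIncl E M q t₀)))) :
        ↥(modularFunctionFieldFullC E (M * q * q))) =
      (ssvmdIncl E (M * q) q).toRingHom (p : ↥(modularFunctionFieldFullC E (M * q))) :=
    fun p => sqgpdRes_coe _ _ p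
  have hres₀ : ∀ p : ↥(s18tInt ↥(s18dVal 𝔸 E) t₀),
      ((sqgpdRes (ssvmdIncl E M q).toRingHom (sqgt_incl_int 𝔸 E M q t₀) p :
          ↥(s18tInt ↥(s18dVal 𝔸 E) (ssvmdIncl E M q t₀))) :
        ↥(modularFunctionFieldFullC E (M * q))) =
      (ssvmdIncl E M q).toRingHom (p : ↥(modularFunctionFieldFullC E M)) :=
    fun p => sqgpdRes_coe _ _ p
  -- `𝔫₁` is a closed point through `ϖ`, on `W₁`
  have h𝔫₁ := sqgt_comap_isMaximal (ssvmdIncl E (M * q) q).toRingHom _ hres₁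
    (sqgt_incl_algebraMap 𝔸 E (M * q) q) _ rfl
    ⟨⟨ssvmdIncl E M q t₀, s18tc_self_mem_int _⟩, rfl⟩ 𝔫 h𝔫
  have hϖ𝔫₁ := sqgt_pi_comap (ssvmdIncl E (M * q) q).toRingHom _ hres₁
    (sqgt_incl_algebraMap 𝔸 E (M * q) q) 𝔫 hϖ𝔫
  have hon₁ := sqgt_on_comap (ssvmdIncl E (M * q) q).toRingHom _ hres₁ V₂ 𝔫 hon
  rw [hposα] at hon₁
  -- `𝔰` is a closed point
  have h𝔰 := sqgt_comap_isMaximal (ssvmdIncl E M q).toRingHom _ hres₀
    (sqgt_incl_algebraMap 𝔸 E M q) _ rfl ⟨⟨t₀, s18tc_self_mem_int _⟩, rfl⟩ _ h𝔫₁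
  -- `φ₁ P₀ ⊆ P₁`, integrally
  have hφP : ∀ x ∈ s18tInt ↥(s18dVal 𝔸 E) t₀,
      ssvmfPhi E M q x ∈ s18tInt ↥(s18dVal 𝔸 E) (ssvmdIncl E M q t₀) := by
    intro x hx
    rw [← hchartW]
    exact sqgt_phi_int 𝔸 E M q t₀ x hx
  have hφint : (sqgpdRes (ssvmfPhi E M q) hφP).IsIntegral :=
    sqgt_res_isIntegral (ssvmfPhi E M q) _ (fun p => sqgpdRes_coe _ _ p)
      (sqgt_phi_algebraMap 𝔸 E M q) _ hchartW ⟨⟨t₀, s18tc_self_mem_int _⟩, rfl⟩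
  -- the level-`M q` package
  obtain ⟨y, y', hy, hy', hyP, -, hθ, hfr, hhor₁⟩ :=
    sqgtq_point 𝔸 E M hA hqM hϖ Ξ G h r hr hrM hr3 r' hr' hr'M hr4 υ t₀ ht₀ hcoord H htr
      (sqgt_incl_int 𝔸 E M q t₀) hφP hφint _ h𝔫₁ hϖ𝔫₁ hon₁ h𝔰 hj𝔰 hj𝔫 hy𝔫
  exact sqgt_hT2_of_pkg 𝔸 E M hA hqM hϖ hqϖ Ξ G h t₀ hcoord H ht hchart₂ three hposα hposφ 𝔫 h𝔫
    hon hoff₁ hoff₃ y y' hy hy' hyP hθ hfr hhor₁

set_option maxHeartbeats 1600000 in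
/-- **`hT2` FOR THE CHART `j`** (`q ≥ 5`) : every closed point of the chart `j` of level `M q q`
lying on `V₂` only. -/
theorem sqgt_hT2_j [FiniteDimensional ℚ E] (hA : 𝔸.LiesOverPrime q) (hqM : ¬ q ∣ M) (h5 : 5 ≤ q)
    (ζ : E) (hζ : IsPrimitiveRoot ζ (6 * M))
    {ϖ : ↥(s18dVal 𝔸 E)} (hϖ : Irreducible ϖ)
    (hqϖ : Associated ((q : ℕ) : ↥(s18dVal 𝔸 E)) ϖ)
    (Ξ G : (↥(ssvmmR 𝔸 E M q))[X])
    (h : SsvAmb (ssvmmR 𝔸 E M q) (ssvmgRUnif (ssvmm_le E M q) ϖ) (ssvmmY E M q) Ξ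
      (X - C (ssvmmJ 𝔸 E M q ^ q)) (X ^ q - C (ssvmmJ 𝔸 E M q)) G)
    (r : ℕ) (hr : r.Prime) (hrM : r ∣ M) (hr3 : r % 3 = 2)
    (r' : ℕ) (hr' : r'.Prime) (hr'M : r' ∣ M) (hr4 : r' % 4 = 3)
    (ht : Transcendental E (ssvmdIncl E (M * q) q (ssvmdIncl E M q (ssdJ E M))))
    [FiniteDimensional E⟮ssvmdIncl E (M * q) q (ssvmdIncl E M q (ssdJ E M))⟯
      ↥(modularFunctionFieldFullC E (M * q * q))]
    (hchartW : s18tInt ↥(s18dVal 𝔸 E) (ssvmfPhi E M q (ssdJ E M)) =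
      s18tInt ↥(s18dVal 𝔸 E) (ssvmdIncl E M q (ssdJ E M)))
    (hchart₂ : s18tInt ↥(s18dVal 𝔸 E) (ssvmfPhi E (M * q) q (ssvmfPhi E M q (ssdJ E M))) =
      s18tInt ↥(s18dVal 𝔸 E) (ssvmdIncl E (M * q) q (ssvmdIncl E M q (ssdJ E M))))
    {π₂' : ↥(modularFunctionFieldFullC E (M * q * q))}
    {V₁ V₂ V₃ : ValuationSubring ↥(modularFunctionFieldFullC E (M * q * q))}
    (three : SqvThree hϖ (ssvmdIncl E (M * q) q (ssvmdIncl E M q (ssdJ E M))) (q - 1) π₂'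
      V₁ V₂ V₃)
    (hposα : V₂.comap (ssvmdIncl E (M * q) q).toRingHom = h.V₁)
    (hposφ : V₂.comap (ssvmfPhi E (M * q) q) = h.V₂)
    (𝔫 : Ideal ↥(s18tInt ↥(s18dVal 𝔸 E)
      (ssvmdIncl E (M * q) q (ssvmdIncl E M q (ssdJ E M)))))
    (h𝔫 : 𝔫.IsMaximal)
    (hϖ𝔫 : sskPi ϖ (ssvmdIncl E (M * q) q (ssvmdIncl E M q (ssdJ E M))) ∈ 𝔫)
    (hon : SqtOn V₂ (ssvmdIncl E (M * q) q (ssvmdIncl E M q (ssdJ E M))) 𝔫)
    (hoff₁ : ¬ SqtOn V₁ (ssvmdIncl E (M * q) q (ssvmdIncl E M q (ssdJ E M))) 𝔫)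
    (hoff₃ : ¬ SqtOn V₃ (ssvmdIncl E (M * q) q (ssvmdIncl E M q (ssdJ E M))) 𝔫) :
    ∃ π w : ↥(modularFunctionFieldFullC E (M * q * q)),
      SsnfInLoc (ssvmdIncl E (M * q) q (ssvmdIncl E M q (ssdJ E M))) 𝔫 π ∧ π ∈ V₂.nonunits ∧
      SsnfInLoc (ssvmdIncl E (M * q) q (ssvmdIncl E M q (ssdJ E M))) 𝔫 w ∧
      algebraMap ↥(s18dVal 𝔸 E) ↥(modularFunctionFieldFullC E (M * q * q)) ϖ =
        π ^ (q - 1) * w := by
  haveI := ssd_finiteDimensional_j E M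
  have hn₁ : 𝔫.comap (sqgpdRes (ssvmdIncl E (M * q) q).toRingHom
      (sqgt_incl_int 𝔸 E (M * q) q (ssvmdIncl E M q (ssdJ E M)))) ≠ ⊤ :=
    Ideal.comap_ne_top _ h𝔫.ne_top
  have hn₀ : (𝔫.comap (sqgpdRes (ssvmdIncl E (M * q) q).toRingHom
      (sqgt_incl_int 𝔸 E (M * q) q (ssvmdIncl E M q (ssdJ E M))))).comap
        (sqgpdRes (ssvmdIncl E M q).toRingHom (sqgt_incl_int 𝔸 E M q (ssdJ E M))) ≠ ⊤ :=
    Ideal.comap_ne_top _ hn₁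
  have e₁ : ssvmdIncl E M q (ssdJ E M) = ssdJ E (M * q) :=
    Subtype.ext (ssvmdIncl_coe E M q (ssdJ E M))
  refine sqgt_hT2_conc 𝔸 E M hA hqM hϖ hqϖ Ξ G h r hr hrM hr3 r' hr' hr'M hr4 (jqModC ℤ)
    (ssdJ E M) (grdi_grdSer_j E).symm (s18v_coord_j' hϖ (s18d_natCast_mem 𝔸 E hA) M hqM)
    (ssgb_hyp_j M 𝔸 E hqM hA h5 ϖ hϖ ζ hζ).1 (ssd_transcendental_j E M) ht hchartW hchart₂ three
    hposα hposφ 𝔫 h𝔫 hϖ𝔫 hon hoff₁ hoff₃ ?_ ?_ ?_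
  · exact sqgt_inLoc_of_mem _ hn₀ (s18tc_self_mem_int _)
  · refine sqgt_inLoc_of_mem _ hn₁ ?_
    rw [← e₁]
    exact s18tc_self_mem_int _
  · refine sqgt_inLoc_of_mem _ hn₁ ?_
    rw [← hchartW]
    exact s18tc_self_mem_int _

end Conc

end Fermat.Agent.SQ
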