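/-
Program Q (S36), risk R1, piece (DER) (helper13).  File DerivNak: the abstract core, Mathlib only.

`sqgde_core` : a derivation of a field `F` which is "`d/dπ`" for a local Noetherian subring `B ⊂ F`
with `𝔪_B = (ϖ, π)`, `∂ϖ = 0`, `∂π = 1`, constants modulo `𝔪_B`, and BOUNDED DENOMINATORS on `B`
(`b · ∂B ⊆ B` for some `b ≠ 0`) PRESERVES `B`.  (Nakayama on `M := B + B·∂B ⊆ b⁻¹B`:
`f = c + ϖ f₁ + π f₂ ⟹ ∂f = f₂ + ϖ ∂f₁ + π ∂f₂ ∈ B + 𝔪_B M`.)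

`sqgde_bdd_gens` : bounded denominators on a subring `P` which is a finite module over a subring
`R₀` with `∂R₀ ⊆ R₀ τ`; `sqgde_bdd_loc` : they pass to a localisation-type subring `B ⊇ P`
(`∀ f ∈ B, ∃ s ∈ P, s⁻¹ ∈ B, s f ∈ P`).
-/
import Mathlib

set_option autoImplicit false

namespace Fermat.Agent.SQ

open IsLocalRing

/-- **(DER), abstract core, master form** : `∂ϖ, ∂π ∈ B`, and `B = C + 𝔪_B` where every `c ∈ C` has
`∂c ∈ B + 𝔪_B · ∂B` (`∂c = b₀ + k ∂e`, `k ∈ 𝔪_B`). -/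
theorem sqgde_core_master {F : Type*} [Field F] (B : Subring F) [IsLocalRing ↥B]
    [IsNoetherianRing ↥B]
    (d : F →+ F) (hL : ∀ u v : F, d (u * v) = d u * v + u * d v)
    (ϖ π : ↥B) (hϖm : ϖ ∈ maximalIdeal ↥B) (hπm : π ∈ maximalIdeal ↥B)
    (hϖ : d (ϖ : F) ∈ B) (hπ : d (π : F) ∈ B)
    (hdec : ∀ f : ↥B, ∃ c f₁ f₂ k e : ↥B, k ∈ maximalIdeal ↥B ∧
      d (c : F) - (k : F) * d (e : F) ∈ B ∧ f = c + ϖ * f₁ + π * f₂)
    (hbdd : ∃ b : ↥B, b ≠ 0 ∧ ∀ f : ↥B, (b : F) * d (f : F) ∈ B) :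
    ∀ f : ↥B, d (f : F) ∈ B := by
  obtain ⟨b, hb0, hb⟩ := hbdd
  have hbF : (b : F) ≠ 0 := fun h => hb0 (Subtype.ext h)
  -- the modules
  set N : Submodule ↥B F := Submodule.span ↥B {(1 : F)} with hN
  set Md : Submodule ↥B F := Submodule.span ↥B (Set.range fun f : ↥B => d (f : F)) with hMd
  set M : Submodule ↥B F := N ⊔ Md with hM
  have hsmul : ∀ (r : ↥B) (x : F), r • x = (r : F) * x := fun r x => rfl
  have hBN : ∀ x ∈ B, x ∈ N := fun x hx =>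
    Submodule.mem_span_singleton.mpr ⟨⟨x, hx⟩, by rw [hsmul, mul_one]⟩
  -- `M` is finitely generated
  have hMle : M ≤ Submodule.span ↥B {(b : F)⁻¹} := by
    refine sup_le ?_ ?_
    · rw [hN, Submodule.span_le, Set.singleton_subset_iff]
      refine Submodule.mem_span_singleton.mpr ⟨b, ?_⟩
      rw [hsmul, mul_inv_cancel₀ hbF]
    · rw [hMd, Submodule.span_le]
      rintro _ ⟨f, rfl⟩
      refine Submodule.mem_span_singleton.mpr ⟨⟨_, hb f⟩, ?_⟩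
      rw [hsmul]
      show (b : F) * d (f : F) * (b : F)⁻¹ = d (f : F)
      field_simp
  have hMfg : M.FG := Submodule.FG.of_le (Submodule.fg_span_singleton _) hMle
  -- Nakayama
  have hjac : maximalIdeal ↥B ≤ Ideal.jacobson (⊥ : Ideal ↥B) := by
    rw [IsLocalRing.jacobson_eq_maximalIdeal ⊥ bot_ne_top]
  have hdM : ∀ f : ↥B, d (f : F) ∈ M := fun f =>
    (le_sup_right : Md ≤ M) (Submodule.subset_span ⟨f, rfl⟩)
  have hNN : M ≤ N ⊔ maximalIdeal ↥B • M := by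
    refine sup_le le_sup_left ?_
    rw [hMd, Submodule.span_le]
    rintro _ ⟨f, rfl⟩
    obtain ⟨c, f₁, f₂, k, e', hk, hc, hf⟩ := hdec f
    have e : d (f : F) = ((d (c : F) - (k : F) * d (e' : F)) + d (ϖ : F) * (f₁ : F)
          + d (π : F) * (f₂ : F))
        + ((k : F) * d (e' : F) + ((ϖ : F) * d (f₁ : F) + (π : F) * d (f₂ : F))) := by
      rw [hf]
      push_cast
      rw [map_add, map_add, hL, hL]
      ring
    show d (f : F) ∈ N ⊔ maximalIdeal ↥B • M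
    rw [e]
    refine Submodule.add_mem _ (le_sup_left (a := N) ?_) (le_sup_right (b := maximalIdeal ↥B • M) ?_)
    · exact hBN _ (B.add_mem (B.add_mem hc (B.mul_mem hϖ f₁.2)) (B.mul_mem hπ f₂.2))
    · refine Submodule.add_mem _ ?_ (Submodule.add_mem _ ?_ ?_)
      · rw [← hsmul]
        exact Submodule.smul_mem_smul hk (hdM e')
      · rw [← hsmul]
        exact Submodule.smul_mem_smul hϖm (hdM f₁)
      · rw [← hsmul]
        exact Submodule.smul_mem_smul hπm (hdM f₂)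
  have hMN : M ≤ N := Submodule.le_of_le_smul_of_le_jacobson_bot hMfg hjac hNN
  intro f
  obtain ⟨r, hr⟩ := Submodule.mem_span_singleton.mp (hMN (hdM f))
  rw [hsmul, mul_one] at hr
  rw [← hr]
  exact r.2

/-- **(DER), abstract core, general form** : `∂ϖ, ∂π ∈ B`, and `B = C + 𝔪_B` with `∂C ⊆ B`. -/
theorem sqgde_core_gen {F : Type*} [Field F] (B : Subring F) [IsLocalRing ↥B] [IsNoetherianRing ↥B]
    (d : F →+ F) (hL : ∀ u v : F, d (u * v) = d u * v + u * d v)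
    (ϖ π : ↥B) (hϖm : ϖ ∈ maximalIdeal ↥B) (hπm : π ∈ maximalIdeal ↥B)
    (hϖ : d (ϖ : F) ∈ B) (hπ : d (π : F) ∈ B)
    (hdec : ∀ f : ↥B, ∃ c f₁ f₂ : ↥B, d (c : F) ∈ B ∧ f = c + ϖ * f₁ + π * f₂)
    (hbdd : ∃ b : ↥B, b ≠ 0 ∧ ∀ f : ↥B, (b : F) * d (f : F) ∈ B) :
    ∀ f : ↥B, d (f : F) ∈ B :=
  sqgde_core_master B d hL ϖ π hϖm hπm hϖ hπ
    (fun f => by
      obtain ⟨c, f₁, f₂, hc, hf⟩ := hdec f
      refine ⟨c, f₁, f₂, 0, 0, Submodule.zero_mem _, ?_, hf⟩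
      rw [ZeroMemClass.coe_zero, zero_mul, sub_zero]; exact hc) hbdd

/-- the power rule for an additive Leibniz map. -/
theorem sqgde_d_pow {F : Type*} [Field F] (d : F →+ F)
    (hL : ∀ u v : F, d (u * v) = d u * v + u * d v) (x : F) (n : ℕ) :
    d (x ^ (n + 1)) = ((n : F) + 1) * x ^ n * d x := by
  induction n with
  | zero => simp
  | succ n ih =>
    rw [pow_succ, hL, ih]
    push_cast
    ring

/-- **(DER), abstract core, perfect residue field** : `q ∈ 𝔪_B` and every `f ∈ B` is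
`e ^ q + ϖ f₁ + π f₂` (the `q`-power map is onto the residue field). -/
theorem sqgde_core_perf {F : Type*} [Field F] (B : Subring F) [IsLocalRing ↥B] [IsNoetherianRing ↥B]
    (d : F →+ F) (hL : ∀ u v : F, d (u * v) = d u * v + u * d v)
    (ϖ π : ↥B) (hϖm : ϖ ∈ maximalIdeal ↥B) (hπm : π ∈ maximalIdeal ↥B)
    (hϖ : d (ϖ : F) ∈ B) (hπ : d (π : F) ∈ B)
    (q : ℕ) (hq0 : q ≠ 0) (hq : ((q : ℕ) : ↥B) ∈ maximalIdeal ↥B)
    (hdec : ∀ f : ↥B, ∃ e f₁ f₂ : ↥B, f = e ^ q + ϖ * f₁ + π * f₂)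
    (hbdd : ∃ b : ↥B, b ≠ 0 ∧ ∀ f : ↥B, (b : F) * d (f : F) ∈ B) :
    ∀ f : ↥B, d (f : F) ∈ B :=
  sqgde_core_master B d hL ϖ π hϖm hπm hϖ hπ
    (fun f => by
      obtain ⟨e, f₁, f₂, hf⟩ := hdec f
      obtain ⟨n, rfl⟩ := Nat.exists_eq_succ_of_ne_zero hq0
      refine ⟨e ^ (n + 1), f₁, f₂, ((n + 1 : ℕ) : ↥B) * e ^ n, e,
        Ideal.mul_mem_right _ _ hq, ?_, hf⟩
      have h1 := sqgde_d_pow d hL (e : F) n
      have h2 : ((e ^ (n + 1) : ↥B) : F) = (e : F) ^ (n + 1) := by push_cast; rfl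
      have h3 : ((((n + 1 : ℕ) : ↥B) * e ^ n : ↥B) : F) = ((n : F) + 1) * (e : F) ^ n := by
        push_cast; rfl
      rw [h2, h3, h1, sub_self]
      exact B.zero_mem) hbdd

/-- **(DER), abstract core.** -/
theorem sqgde_core {F : Type*} [Field F] (B : Subring F) [IsLocalRing ↥B] [IsNoetherianRing ↥B]
    (d : F →+ F) (hL : ∀ u v : F, d (u * v) = d u * v + u * d v)
    (ϖ π : ↥B) (hϖm : ϖ ∈ maximalIdeal ↥B) (hπm : π ∈ maximalIdeal ↥B)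
    (hϖ : d (ϖ : F) = 0) (hπ : d (π : F) = 1)
    (hdec : ∀ f : ↥B, ∃ c f₁ f₂ : ↥B, d (c : F) = 0 ∧ f = c + ϖ * f₁ + π * f₂)
    (hbdd : ∃ b : ↥B, b ≠ 0 ∧ ∀ f : ↥B, (b : F) * d (f : F) ∈ B) :
    ∀ f : ↥B, d (f : F) ∈ B :=
  sqgde_core_gen B d hL ϖ π hϖm hπm (hϖ ▸ B.zero_mem) (hπ ▸ B.one_mem)
    (fun f => by
      obtain ⟨c, f₁, f₂, hc, hf⟩ := hdec f
      exact ⟨c, f₁, f₂, hc ▸ B.zero_mem, hf⟩) hbdd

/-- **vanishing** : an additive Leibniz map with `∂ϖ = ∂π = 0` (and bounded denominators, perfect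
residue field, `q ∈ 𝔪_B`) vanishes on `B`.  (Nakayama on `B · ∂B ⊆ 𝔪_B · (B · ∂B)`.) -/
theorem sqgde_core_zero {F : Type*} [Field F] (B : Subring F) [IsLocalRing ↥B] [IsNoetherianRing ↥B]
    (d : F →+ F) (hL : ∀ u v : F, d (u * v) = d u * v + u * d v)
    (ϖ π : ↥B) (hϖm : ϖ ∈ maximalIdeal ↥B) (hπm : π ∈ maximalIdeal ↥B)
    (hϖ : d (ϖ : F) = 0) (hπ : d (π : F) = 0)
    (q : ℕ) (hq0 : q ≠ 0) (hq : ((q : ℕ) : ↥B) ∈ maximalIdeal ↥B)
    (hdec : ∀ f : ↥B, ∃ e f₁ f₂ : ↥B, f = e ^ q + ϖ * f₁ + π * f₂)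
    (hbdd : ∃ b : ↥B, b ≠ 0 ∧ ∀ f : ↥B, (b : F) * d (f : F) ∈ B) :
    ∀ f : ↥B, d (f : F) = 0 := by
  obtain ⟨b, hb0, hb⟩ := hbdd
  have hbF : (b : F) ≠ 0 := fun h => hb0 (Subtype.ext h)
  set Md : Submodule ↥B F := Submodule.span ↥B (Set.range fun f : ↥B => d (f : F)) with hMd
  have hsmul : ∀ (r : ↥B) (x : F), r • x = (r : F) * x := fun r x => rfl
  have hMle : Md ≤ Submodule.span ↥B {(b : F)⁻¹} := by
    rw [hMd, Submodule.span_le]
    rintro _ ⟨f, rfl⟩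
    refine Submodule.mem_span_singleton.mpr ⟨⟨_, hb f⟩, ?_⟩
    rw [hsmul]
    show (b : F) * d (f : F) * (b : F)⁻¹ = d (f : F)
    field_simp
  have hMfg : Md.FG := Submodule.FG.of_le (Submodule.fg_span_singleton _) hMle
  have hjac : maximalIdeal ↥B ≤ Ideal.jacobson (⊥ : Ideal ↥B) := by
    rw [IsLocalRing.jacobson_eq_maximalIdeal ⊥ bot_ne_top]
  have hdM : ∀ f : ↥B, d (f : F) ∈ Md := fun f => Submodule.subset_span ⟨f, rfl⟩
  have hNN : Md ≤ maximalIdeal ↥B • Md := by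
    rw [hMd, Submodule.span_le]
    rintro _ ⟨f, rfl⟩
    obtain ⟨e, f₁, f₂, hf⟩ := hdec f
    obtain ⟨n, rfl⟩ := Nat.exists_eq_succ_of_ne_zero hq0
    have h1 := sqgde_d_pow d hL (e : F) n
    have e1 : d (f : F) = ((((n + 1 : ℕ) : ↥B) * e ^ n : ↥B) : F) * d (e : F)
        + ((ϖ : F) * d (f₁ : F) + (π : F) * d (f₂ : F)) := by
      rw [hf]
      push_cast
      rw [map_add, map_add, hL, hL, hϖ, hπ, h1]
      ring
    show d (f : F) ∈ maximalIdeal ↥B • Md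
    rw [e1]
    refine Submodule.add_mem _ ?_ (Submodule.add_mem _ ?_ ?_)
    · rw [← hsmul]
      exact Submodule.smul_mem_smul (Ideal.mul_mem_right _ _ hq) (hdM e)
    · rw [← hsmul]
      exact Submodule.smul_mem_smul hϖm (hdM f₁)
    · rw [← hsmul]
      exact Submodule.smul_mem_smul hπm (hdM f₂)
  have hbot : Md = ⊥ :=
    Submodule.eq_bot_of_le_smul_of_le_jacobson_bot (maximalIdeal ↥B) Md hMfg hNN hjac
  intro f
  have := hdM f
  rw [hbot, Submodule.mem_bot] at this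
  exact this

/-! ### bounded denominators -/

/-- a common denominator for finitely many elements. -/
theorem sqgde_common_den {F : Type*} [Field F] (P : Subring F)
    (hden : ∀ x : F, ∃ s ∈ P, s ≠ 0 ∧ s * x ∈ P) {ι : Type*} (S : Finset ι) (x : ι → F) :
    ∃ s ∈ P, s ≠ 0 ∧ ∀ i ∈ S, s * x i ∈ P := by
  classical
  induction S using Finset.induction_on with
  | empty => exact ⟨1, P.one_mem, one_ne_zero, by simp⟩
  | insert a S ha ih =>
    obtain ⟨s, hs, hs0, hsx⟩ := ih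
    obtain ⟨u, hu, hu0, hux⟩ := hden (x a)
    refine ⟨s * u, P.mul_mem hs hu, mul_ne_zero hs0 hu0, ?_⟩
    intro i hi
    rcases Finset.mem_insert.mp hi with rfl | hi
    · have : s * u * x i = s * (u * x i) := by ring
      rw [this]
      exact P.mul_mem hs hux
    · have : s * u * x i = u * (s * x i) := by ring
      rw [this]
      exact P.mul_mem hu (hsx i hi)

/-- **bounded denominators on a finite module**: if `P = ∑_{i ∈ S} R₀ g_i` (`S` finite), `∂` maps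
`R₀` into `R₀ τ`, and every element of `F` has a denominator in `P`, then `b · ∂P ⊆ P` for some
`b ≠ 0` in `P`. -/
theorem sqgde_bdd_gens {F : Type*} [Field F] (R₀ P : Subring F) (hR₀P : R₀ ≤ P)
    (d : F →+ F) (hL : ∀ u v : F, d (u * v) = d u * v + u * d v)
    (τ : F) (hR₀ : ∀ r ∈ R₀, ∃ r' ∈ R₀, d r = r' * τ)
    {ι : Type*} (S : Finset ι) (g : ι → F)
    (hspan : ∀ p ∈ P, ∃ c : ι → F, (∀ i, c i ∈ R₀) ∧ p = ∑ i ∈ S, c i * g i)
    (hden : ∀ x : F, ∃ s ∈ P, s ≠ 0 ∧ s * x ∈ P) :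
    ∃ b ∈ P, b ≠ 0 ∧ ∀ p ∈ P, b * d p ∈ P := by
  obtain ⟨b₁, hb₁, hb₁0, h₁⟩ := sqgde_common_den P hden S (fun i => τ * g i)
  obtain ⟨b₂, hb₂, hb₂0, h₂⟩ := sqgde_common_den P hden S (fun i => d (g i))
  refine ⟨b₁ * b₂, P.mul_mem hb₁ hb₂, mul_ne_zero hb₁0 hb₂0, ?_⟩
  intro p hp
  obtain ⟨c, hc, rfl⟩ := hspan p hp
  rw [map_sum, Finset.mul_sum]
  refine Subring.sum_mem _ fun i hi => ?_
  obtain ⟨r', hr', hdr⟩ := hR₀ (c i) (hc i)
  rw [hL, hdr]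
  have e : b₁ * b₂ * (r' * τ * g i + c i * d (g i))
      = b₂ * r' * (b₁ * (τ * g i)) + b₁ * c i * (b₂ * d (g i)) := by ring
  rw [e]
  exact P.add_mem (P.mul_mem (P.mul_mem hb₂ (hR₀P hr')) (h₁ i hi))
    (P.mul_mem (P.mul_mem hb₁ (hR₀P (hc i))) (h₂ i hi))

/-- **bounded denominators pass to a localisation**: `B ⊇ P`, every `f ∈ B` is `p / s` with
`p, s ∈ P`, `s⁻¹ ∈ B`. -/
theorem sqgde_bdd_loc {F : Type*} [Field F] (P B : Subring F)
    (d : F →+ F) (hL : ∀ u v : F, d (u * v) = d u * v + u * d v)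
    (hloc : ∀ f ∈ B, ∃ s ∈ P, s ≠ 0 ∧ s⁻¹ ∈ B ∧ s * f ∈ P)
    (b : F) (hP : ∀ p ∈ P, b * d p ∈ B) :
    ∀ f ∈ B, b * d f ∈ B := by
  intro f hf
  obtain ⟨s, hs, hs0, hsinv, hsf⟩ := hloc f hf
  have h1 : d (s * f) = d s * f + s * d f := hL s f
  have e : b * d f = (b * d (s * f) - b * d s * f) * s⁻¹ := by
    rw [h1]
    field_simp
    ring
  rw [e]
  exact B.mul_mem (B.sub_mem (hP _ hsf) (B.mul_mem (hP s hs) hf)) hsinv

end Fermat.Agent.SQ
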