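/-
Program Q (S36), risk R1, piece (DER) (helper13), the instance on main's S18/T + SS/Loc.

Setting of S18 package T : `A` a DVR of characteristic `0`, `L = Frac A`, `F / L(t)` finite,
`P = s18tInt A t`, `𝔰` a prime of `P` with `𝔰 P_𝔰 = (ϖ, π)` (shape of `ssgb_exists_local_gen`) and
residue field `A / ϖ` (`hk`).  For an `A`-derivation `∂` of `F` with `∂π = 1` :

* `sqgde_loc_stable`   : `∂ (P_𝔰) ⊆ P_𝔰`  (`SsnfInLoc t 𝔰 x → SsnfInLoc t 𝔰 (∂ x)`).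
* `sqgde_bdd_int`, `sqgde_bdd_locRing` : bounded denominators of ANY `A`-derivation on `P`, `P_𝔰`.
-/
import Mathlib
import Fermat.Agent.S18.T.Spec
import Fermat.Agent.S18.T.LocalGood
import Fermat.Agent.SS.Loc.Ring
import Fermat.Agent.SS.NF.Defs
import Fermat.Agent.SS.K.Krull
import Fermat.Agent.SS.Germ.Base
import Fermat.Agent.SQ.Germ.DerivNak

set_option autoImplicit false
set_option linter.unusedSectionVars false
set_option linter.unusedVariables false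

noncomputable section

namespace Fermat.Agent.SQ

open Polynomial IntermediateField Fermat.Agent.S18 Fermat.Agent.SS IsLocalRing

universe u

variable {A : Type*} [CommRing A] [IsDomain A] [IsDiscreteValuationRing A] [CharZero A]
variable {L : Type*} [Field L] [Algebra A L] [IsFractionRing A L]
variable {F : Type u} [Field F] [Algebra A F] [Algebra L F] [IsScalarTower A L F]
variable {ϖ : A}

/-- an additive Leibniz map of `F` killing `A` is an `A`-derivation. -/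
def sqgdeDer (d : F →+ F) (hL : ∀ u v : F, d (u * v) = d u * v + u * d v)
    (hA : ∀ a : A, d (algebraMap A F a) = 0) : Derivation A F F :=
  Derivation.mk'
    { toFun := d
      map_add' := d.map_add
      map_smul' := fun a x => by
        rw [Algebra.smul_def, hL, hA, zero_mul, zero_add, RingHom.id_apply, Algebra.smul_def] }
    (fun a b => by
      show d (a * b) = a • d b + b • d a
      rw [hL, smul_eq_mul, smul_eq_mul]; ring)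

@[simp] theorem sqgdeDer_apply (d : F →+ F) (hL : ∀ u v : F, d (u * v) = d u * v + u * d v)
    (hA : ∀ a : A, d (algebraMap A F a) = 0) (x : F) : sqgdeDer d hL hA x = d x := rfl

/-- the additive map underlying a derivation -/
def sqgdeAdd (D : Derivation A F F) : F →+ F := (D : F →ₗ[A] F).toAddMonoidHom

@[simp] theorem sqgdeAdd_apply (D : Derivation A F F) (x : F) : sqgdeAdd D x = D x := rfl

theorem sqgdeAdd_leibniz (D : Derivation A F F) (u v : F) :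
    sqgdeAdd D (u * v) = sqgdeAdd D u * v + u * sqgdeAdd D v := by
  simp only [sqgdeAdd_apply, Derivation.leibniz, smul_eq_mul]; ring

/-- `∂ (A[t]) ⊆ A[t] · ∂t`. -/
theorem sqgde_chart (t : F) (D : Derivation A F F) :
    ∀ r ∈ (s18tChart A t).toSubring, ∃ r' ∈ (s18tChart A t).toSubring, D r = r' * D t := by
  intro r hr
  have hr' : r ∈ Algebra.adjoin A {t} := hr
  rw [Algebra.adjoin_singleton_eq_range_aeval] at hr'
  obtain ⟨p, rfl⟩ := hr'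
  refine ⟨aeval t (derivative p), ?_, ?_⟩
  · show aeval t (derivative p) ∈ Algebra.adjoin A {t}
    rw [Algebra.adjoin_singleton_eq_range_aeval]; exact ⟨_, rfl⟩
  · show D (aeval t p) = _
    rw [Derivation.map_aeval, smul_eq_mul]

/-- every element of `F` has a nonzero denominator in `P`. -/
theorem sqgde_den (t : F) (ht : Transcendental L t) [FiniteDimensional L⟮t⟯ F] (x : F) :
    ∃ s ∈ s18tInt A t, s ≠ 0 ∧ s * x ∈ s18tInt A t := by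
  have htA : Transcendental A t := s18tb_transcendental ht
  obtain ⟨r, hr0, hr⟩ := s18tlg_exists_multiple_mem_int (A := A) ht x
  exact ⟨aeval t r, s18tc_chart_le_int t (s18tb_aeval_mem_chart t r),
    s18tlg_aeval_ne_zero htA hr0, hr⟩

/-- **bounded denominators on `P`** for any `A`-derivation of `F`. -/
theorem sqgde_bdd_int (t : F) (ht : Transcendental L t) [FiniteDimensional L⟮t⟯ F]
    (D : Derivation A F F) :
    ∃ b ∈ s18tInt A t, b ≠ 0 ∧ ∀ p ∈ s18tInt A t, b * D p ∈ s18tInt A t := by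
  classical
  have hfin := s18tc_int_finite (A := A) (L := L) t ht
  obtain ⟨S, hS⟩ := hfin.fg_top
  refine sqgde_bdd_gens (s18tChart A t).toSubring (s18tInt A t)
    (fun x hx => s18tc_chart_le_int t hx) (sqgdeAdd D) (sqgdeAdd_leibniz D) (D t)
    (sqgde_chart t D) S (fun g => (g : F)) ?_ (sqgde_den (A := A) t ht)
  intro p hp
  have hmem : (⟨p, hp⟩ : ↥(integralClosure ↥(s18tChart A t) F)) ∈
      Submodule.span ↥(s18tChart A t) (S : Set ↥(integralClosure ↥(s18tChart A t) F)) := by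
    rw [hS]; exact Submodule.mem_top
  obtain ⟨f, -, hf⟩ := Submodule.mem_span_finset.mp hmem
  refine ⟨fun g => ((f g : ↥(s18tChart A t)) : F), fun g => (f g).2, ?_⟩
  have h := congrArg (fun z : ↥(integralClosure ↥(s18tChart A t) F) => (z : F)) hf
  simp only [AddSubmonoidClass.coe_finsetSum] at h
  rw [← h]
  rfl

/-- **bounded denominators on `P_𝔰`** for any `A`-derivation of `F`. -/
theorem sqgde_bdd_locRing (t : F) (ht : Transcendental L t) [FiniteDimensional L⟮t⟯ F]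
    (𝔰 : Ideal ↥(s18tInt A t)) [h𝔰 : 𝔰.IsPrime] (D : Derivation A F F) :
    ∃ b ∈ ssLocRing t 𝔰, b ≠ 0 ∧ ∀ f ∈ ssLocRing t 𝔰, b * D f ∈ ssLocRing t 𝔰 := by
  obtain ⟨b, hb, hb0, hP⟩ := sqgde_bdd_int (A := A) (L := L) t ht D
  refine ⟨b, ssl_int_le_locRing t 𝔰 hb, hb0, ?_⟩
  refine sqgde_bdd_loc (s18tInt A t) (ssLocRing t 𝔰) (sqgdeAdd D) (sqgdeAdd_leibniz D) ?_ b
    (fun p hp => ssl_int_le_locRing t 𝔰 (hP p hp))
  rintro f ⟨s, hs, hsf⟩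
  have hs0 : (s : F) ≠ 0 := fun h => hs (by
    have : s = 0 := Subtype.ext h
    rw [this]; exact 𝔰.zero_mem)
  exact ⟨s, s.2, hs0, ⟨s, hs, by rw [mul_inv_cancel₀ hs0]; exact Subring.one_mem _⟩, hsf⟩

/-- a derivation kills the inverse of a constant. -/
theorem sqgde_inv_const (D : Derivation A F F) {x : F} (hx : D x = 0) : D x⁻¹ = 0 := by
  by_cases hx0 : x = 0
  · rw [hx0, inv_zero, map_zero]
  · have h1 : D (x * x⁻¹) = 0 := by rw [mul_inv_cancel₀ hx0]; exact D.map_one_eq_zero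
    rw [D.leibniz, hx, smul_zero, add_zero, smul_eq_mul] at h1
    exact (mul_eq_zero.mp h1).resolve_left hx0

/-- elements of `𝔰 P_𝔰` are `ϖ f₁ + π f₂` with `f₁, f₂ ∈ P_𝔰`. -/
theorem sqgde_max_decomp (t : F) (𝔰 : Ideal ↥(s18tInt A t)) [h𝔰 : 𝔰.IsPrime]
    (π : ↥(s18tInt A t))
    (hgen : ∀ x ∈ 𝔰, ∃ s : ↥(s18tInt A t), s ∉ 𝔰 ∧ ∃ a b : ↥(s18tInt A t),
      s * x = a * sskPi ϖ t + b * π)
    {y : F} (hy : SsInMax t 𝔰 y) :
    ∃ f₁ f₂ : F, SsInLoc t 𝔰 f₁ ∧ SsInLoc t 𝔰 f₂ ∧ y = algebraMap A F ϖ * f₁ + (π : F) * f₂ := by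
  obtain ⟨s, hs, p, hp, hsy⟩ := hy
  obtain ⟨s', hs', a, b, hab⟩ := hgen p hp
  have hab' : (s' : F) * (p : F) = (a : F) * algebraMap A F ϖ + (b : F) * (π : F) := by
    have := congrArg (fun z : ↥(s18tInt A t) => (z : F)) hab
    simpa [sskPi] using this
  have hne : ∀ u : ↥(s18tInt A t), u ∉ 𝔰 → (u : F) ≠ 0 := fun u hu h => hu (by
    have : u = 0 := Subtype.ext h
    rw [this]; exact 𝔰.zero_mem)
  have hs0 := hne s hs
  have hs'0 := hne s' hs'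
  have hss' : s' * s ∉ 𝔰 := fun h => (h𝔰.mem_or_mem h).elim hs' hs
  refine ⟨(a : F) * ((s' : F) * (s : F))⁻¹, (b : F) * ((s' : F) * (s : F))⁻¹,
    ⟨s' * s, hss', ?_⟩, ⟨s' * s, hss', ?_⟩, ?_⟩
  · have e : ((s' * s : ↥(s18tInt A t)) : F) * ((a : F) * ((s' : F) * (s : F))⁻¹) = (a : F) := by
      push_cast; field_simp
    rw [e]; exact a.2
  · have e : ((s' * s : ↥(s18tInt A t)) : F) * ((b : F) * ((s' : F) * (s : F))⁻¹) = (b : F) := by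
      push_cast; field_simp
    rw [e]; exact b.2
  · have e : y = ((s' : F) * (p : F)) * ((s' : F) * (s : F))⁻¹ := by
      rw [← hsy]; field_simp
    rw [e, hab']
    ring

/-- **(DER)** : `∂ (P_𝔰) ⊆ P_𝔰` for an `A`-derivation `∂` of `F` with `∂π = 1`, at a prime `𝔰` of
`P` with `𝔰 P_𝔰 = (ϖ, π)` and residue field `A / ϖ`. -/
theorem sqgde_loc_stable (t : F) (ht : Transcendental L t) [FiniteDimensional L⟮t⟯ F]
    (𝔰 : Ideal ↥(s18tInt A t)) [h𝔰 : 𝔰.IsPrime] (hϖ𝔰 : sskPi ϖ t ∈ 𝔰)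
    (π : ↥(s18tInt A t)) (hπ𝔰 : π ∈ 𝔰)
    (hgen : ∀ x ∈ 𝔰, ∃ s : ↥(s18tInt A t), s ∉ 𝔰 ∧ ∃ a b : ↥(s18tInt A t),
      s * x = a * sskPi ϖ t + b * π)
    (hk : ∀ p : ↥(s18tInt A t), ∃ a : A,
      p - ⟨algebraMap A F a, s18tc_algebraMap_mem_int t a⟩ ∈ 𝔰)
    (D : Derivation A F F) (hDπ : D (π : F) = 1) {x : F} (hx : SsnfInLoc t 𝔰 x) :
    SsnfInLoc t 𝔰 (D x) := by
  have : IsNoetherianRing ↥(s18tInt A t) := sskr_isNoetherianRing (A := A) (L := L) t ht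
  have : IsNoetherianRing ↥(ssLocRing t 𝔰) :=
    IsLocalization.isNoetherianRing 𝔰.primeCompl ↥(ssLocRing t 𝔰) inferInstance
  have h1𝔰 : (1 : ↥(s18tInt A t)) ∉ 𝔰 := fun h => h𝔰.ne_top ((Ideal.eq_top_iff_one _).mpr h)
  have hne : ∀ u : ↥(s18tInt A t), u ∉ 𝔰 → (u : F) ≠ 0 := fun u hu h => hu (by
    have : u = 0 := Subtype.ext h
    rw [this]; exact 𝔰.zero_mem)
  -- the two generators in `P_𝔰`
  set ϖB : ↥(ssLocRing t 𝔰) := ⟨algebraMap A F ϖ, ssl_int_le_locRing t 𝔰 (sskPi ϖ t).2⟩ with hϖB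
  set πB : ↥(ssLocRing t 𝔰) := ⟨(π : F), ssl_int_le_locRing t 𝔰 π.2⟩ with hπB
  have hϖm : ϖB ∈ maximalIdeal ↥(ssLocRing t 𝔰) :=
    (ssl_mem_maximalIdeal t 𝔰 ϖB).mpr ⟨1, h1𝔰, sskPi ϖ t, hϖ𝔰, by
      rw [OneMemClass.coe_one, one_mul]; rfl⟩
  have hπm : πB ∈ maximalIdeal ↥(ssLocRing t 𝔰) :=
    (ssl_mem_maximalIdeal t 𝔰 πB).mpr ⟨1, h1𝔰, π, hπ𝔰, by
      rw [OneMemClass.coe_one, one_mul]⟩
  have hcore := sqgde_core (ssLocRing t 𝔰) (sqgdeAdd D) (sqgdeAdd_leibniz D) ϖB πB hϖm hπm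
    (D.map_algebraMap ϖ) hDπ ?_ ?_
  · exact hcore ⟨x, hx⟩
  · -- decomposition `f = c + ϖ f₁ + π f₂`
    rintro ⟨f, s, hs, hsf⟩
    obtain ⟨ap, hap⟩ := hk ⟨(s : F) * f, hsf⟩
    obtain ⟨as, has⟩ := hk s
    have has' : (⟨algebraMap A F as, s18tc_algebraMap_mem_int t as⟩ : ↥(s18tInt A t)) ∉ 𝔰 :=
      fun h => hs (by
        have := 𝔰.add_mem has h
        rwa [sub_add_cancel] at this)
    have has0 : algebraMap A F as ≠ 0 := hne _ has'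
    have hs0 := hne s hs
    set c : F := algebraMap A F ap * (algebraMap A F as)⁻¹ with hc
    have hcB : SsInLoc t 𝔰 c :=
      ⟨⟨algebraMap A F as, s18tc_algebraMap_mem_int t as⟩, has', by
        show algebraMap A F as * (algebraMap A F ap * (algebraMap A F as)⁻¹) ∈ s18tInt A t
        have e : algebraMap A F as * (algebraMap A F ap * (algebraMap A F as)⁻¹)
            = algebraMap A F ap := by field_simp
        rw [e]; exact s18tc_algebraMap_mem_int t ap⟩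
    have hDc : D c = 0 := by
      rw [hc, D.leibniz, D.map_algebraMap, smul_zero, add_zero,
        sqgde_inv_const D (D.map_algebraMap as), smul_zero]
    -- `f - c ∈ 𝔰 P_𝔰`
    have hmax : SsInMax t 𝔰 (f - c) := by
      set mp : ↥(s18tInt A t) :=
        ⟨(s : F) * f, hsf⟩ - ⟨algebraMap A F ap, s18tc_algebraMap_mem_int t ap⟩ with hmp
      set ms : ↥(s18tInt A t) := s - ⟨algebraMap A F as, s18tc_algebraMap_mem_int t as⟩ with hms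
      set asP : ↥(s18tInt A t) := ⟨algebraMap A F as, s18tc_algebraMap_mem_int t as⟩ with hasP
      set apP : ↥(s18tInt A t) := ⟨algebraMap A F ap, s18tc_algebraMap_mem_int t ap⟩ with hapP
      refine ⟨s * asP, fun h => (h𝔰.mem_or_mem h).elim hs has', mp * asP - apP * ms,
        𝔰.sub_mem (𝔰.mul_mem_right _ hap) (𝔰.mul_mem_left _ has), ?_⟩
      have e1 : ((mp * asP - apP * ms : ↥(s18tInt A t)) : F)
          = ((s : F) * f - algebraMap A F ap) * algebraMap A F as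
            - algebraMap A F ap * ((s : F) - algebraMap A F as) := by
        rw [hmp, hms]; push_cast; rfl
      rw [e1, hc]
      push_cast
      show (s : F) * algebraMap A F as * (f - algebraMap A F ap * (algebraMap A F as)⁻¹) = _
      field_simp
      ring
    obtain ⟨f₁, f₂, hf₁, hf₂, hdec⟩ := sqgde_max_decomp t 𝔰 π hgen hmax
    refine ⟨⟨c, hcB⟩, ⟨f₁, hf₁⟩, ⟨f₂, hf₂⟩, hDc, Subtype.ext ?_⟩
    show f = c + algebraMap A F ϖ * f₁ + (π : F) * f₂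
    rw [add_assoc, ← hdec]; ring
  · -- bounded denominators
    obtain ⟨b, hb, hb0, hbB⟩ := sqgde_bdd_locRing (A := A) (L := L) t ht 𝔰 D
    exact ⟨⟨b, hb⟩, fun h => hb0 (congrArg Subtype.val h), fun f => hbB f f.2⟩

/-- polynomials in an element of a subring containing `A` -/
theorem sqgde_aeval_mem (S : Subring F) (hA : ∀ a : A, algebraMap A F a ∈ S) {x : F} (hx : x ∈ S)
    (c : A[X]) : aeval x c ∈ S := by
  induction c using Polynomial.induction_on' with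
  | add p q hp hq => rw [map_add]; exact S.add_mem hp hq
  | monomial n a =>
    rw [aeval_monomial]
    exact S.mul_mem (hA a) (S.pow_mem hx n)

/-- **(DER), rationality-free form** : the residue field of `𝔰` is generated over `A / ϖ` by the class
of `x ∈ P` (`hkx`; `x = 0` for a rational point), `∂x ∈ P_𝔰` and `∂π ∈ P_𝔰` (e.g. `∂x = 1`,
`π = m(x)`).  Then `∂ (P_𝔰) ⊆ P_𝔰`. -/
theorem sqgde_loc_stable_gen (t : F) (ht : Transcendental L t) [FiniteDimensional L⟮t⟯ F]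
    (𝔰 : Ideal ↥(s18tInt A t)) [h𝔰 : 𝔰.IsPrime] (hϖ𝔰 : sskPi ϖ t ∈ 𝔰)
    (π : ↥(s18tInt A t)) (hπ𝔰 : π ∈ 𝔰)
    (hgen : ∀ x ∈ 𝔰, ∃ s : ↥(s18tInt A t), s ∉ 𝔰 ∧ ∃ a b : ↥(s18tInt A t),
      s * x = a * sskPi ϖ t + b * π)
    (x : F) (hxP : x ∈ s18tInt A t)
    (hkx : ∀ p : ↥(s18tInt A t), ∃ c : A[X], ∃ r ∈ 𝔰, (p : F) = aeval x c + (r : F))
    (D : Derivation A F F) (hDx : SsnfInLoc t 𝔰 (D x)) (hDπ : SsnfInLoc t 𝔰 (D (π : F)))
    {y : F} (hy : SsnfInLoc t 𝔰 y) : SsnfInLoc t 𝔰 (D y) := by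
  have : IsNoetherianRing ↥(s18tInt A t) := sskr_isNoetherianRing (A := A) (L := L) t ht
  have : IsNoetherianRing ↥(ssLocRing t 𝔰) :=
    IsLocalization.isNoetherianRing 𝔰.primeCompl ↥(ssLocRing t 𝔰) inferInstance
  have h1𝔰 : (1 : ↥(s18tInt A t)) ∉ 𝔰 := fun h => h𝔰.ne_top ((Ideal.eq_top_iff_one _).mpr h)
  have hne : ∀ u : ↥(s18tInt A t), u ∉ 𝔰 → (u : F) ≠ 0 := fun u hu h => hu (by
    have : u = 0 := Subtype.ext h
    rw [this]; exact 𝔰.zero_mem)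
  have hPx : ∀ c : A[X], aeval x c ∈ s18tInt A t := fun c =>
    sqgde_aeval_mem (s18tInt A t) (s18tc_algebraMap_mem_int t) hxP c
  have hPB : ∀ z ∈ s18tInt A t, z ∈ ssLocRing t 𝔰 := fun z hz => ssl_int_le_locRing t 𝔰 hz
  -- `∂ (c(x)) ∈ P_𝔰`
  have hDpoly : ∀ c : A[X], D (aeval x c) ∈ ssLocRing t 𝔰 := by
    intro c
    rw [Derivation.map_aeval, smul_eq_mul]
    exact (ssLocRing t 𝔰).mul_mem (hPB _ (hPx _)) hDx
  -- the two generators in `P_𝔰`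
  set ϖB : ↥(ssLocRing t 𝔰) := ⟨algebraMap A F ϖ, ssl_int_le_locRing t 𝔰 (sskPi ϖ t).2⟩ with hϖB
  set πB : ↥(ssLocRing t 𝔰) := ⟨(π : F), ssl_int_le_locRing t 𝔰 π.2⟩ with hπB
  have hϖm : ϖB ∈ maximalIdeal ↥(ssLocRing t 𝔰) :=
    (ssl_mem_maximalIdeal t 𝔰 ϖB).mpr ⟨1, h1𝔰, sskPi ϖ t, hϖ𝔰, by
      rw [OneMemClass.coe_one, one_mul]; rfl⟩
  have hπm : πB ∈ maximalIdeal ↥(ssLocRing t 𝔰) :=
    (ssl_mem_maximalIdeal t 𝔰 πB).mpr ⟨1, h1𝔰, π, hπ𝔰, by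
      rw [OneMemClass.coe_one, one_mul]⟩
  have hcore := sqgde_core_gen (ssLocRing t 𝔰) (sqgdeAdd D) (sqgdeAdd_leibniz D) ϖB πB hϖm hπm
    (by
      show D (algebraMap A F ϖ) ∈ ssLocRing t 𝔰
      rw [D.map_algebraMap]; exact Subring.zero_mem _) hDπ ?_ ?_
  · exact hcore ⟨y, hy⟩
  · -- decomposition `f = c + ϖ f₁ + π f₂`
    rintro ⟨f, s, hs, hsf⟩
    obtain ⟨cp, rp, hrp, hp⟩ := hkx ⟨(s : F) * f, hsf⟩
    obtain ⟨cs, rs, hrs, hs'⟩ := hkx s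
    have hp' : (s : F) * f = aeval x cp + (rp : F) := hp
    set asP : ↥(s18tInt A t) := ⟨aeval x cs, hPx cs⟩ with hasP
    set apP : ↥(s18tInt A t) := ⟨aeval x cp, hPx cp⟩ with hapP
    have has' : asP ∉ 𝔰 := fun h => hs (by
      have e : s = asP + rs := Subtype.ext hs'
      rw [e]; exact 𝔰.add_mem h hrs)
    have has0 : aeval x cs ≠ 0 := hne _ has'
    have hs0 := hne s hs
    set c : F := aeval x cp * (aeval x cs)⁻¹ with hc
    have hinvB : (aeval x cs)⁻¹ ∈ ssLocRing t 𝔰 :=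
      ⟨asP, has', by
        show aeval x cs * (aeval x cs)⁻¹ ∈ s18tInt A t
        rw [mul_inv_cancel₀ has0]; exact Subring.one_mem _⟩
    have hcB : SsInLoc t 𝔰 c := (ssLocRing t 𝔰).mul_mem (hPB _ (hPx cp)) hinvB
    have hDc : D c ∈ ssLocRing t 𝔰 := by
      rw [hc, D.leibniz, D.leibniz_inv, smul_eq_mul, smul_eq_mul, smul_eq_mul]
      refine (ssLocRing t 𝔰).add_mem ((ssLocRing t 𝔰).mul_mem (hPB _ (hPx cp))
        ((ssLocRing t 𝔰).mul_mem ((ssLocRing t 𝔰).neg_mem ((ssLocRing t 𝔰).pow_mem hinvB 2))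
          (hDpoly cs))) ((ssLocRing t 𝔰).mul_mem hinvB (hDpoly cp))
    -- `f - c ∈ 𝔰 P_𝔰`
    have hmax : SsInMax t 𝔰 (f - c) := by
      refine ⟨s * asP, fun h => (h𝔰.mem_or_mem h).elim hs has', rp * asP - apP * rs,
        𝔰.sub_mem (𝔰.mul_mem_right _ hrp) (𝔰.mul_mem_left _ hrs), ?_⟩
      have e1 : ((rp * asP - apP * rs : ↥(s18tInt A t)) : F)
          = (rp : F) * aeval x cs - aeval x cp * (rs : F) := by
        push_cast; rfl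
      have e2 : (rp : F) = (s : F) * f - aeval x cp := by rw [hp']; ring
      have e3 : (rs : F) = (s : F) - aeval x cs := by rw [hs']; ring
      rw [e1, e2, e3, hc]
      push_cast
      show (s : F) * aeval x cs * (f - aeval x cp * (aeval x cs)⁻¹) = _
      field_simp
      ring
    obtain ⟨f₁, f₂, hf₁, hf₂, hdec⟩ := sqgde_max_decomp t 𝔰 π hgen hmax
    refine ⟨⟨c, hcB⟩, ⟨f₁, hf₁⟩, ⟨f₂, hf₂⟩, hDc, Subtype.ext ?_⟩
    show f = c + algebraMap A F ϖ * f₁ + (π : F) * f₂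
    rw [add_assoc, ← hdec]; ring
  · -- bounded denominators
    obtain ⟨b, hb, hb0, hbB⟩ := sqgde_bdd_locRing (A := A) (L := L) t ht 𝔰 D
    exact ⟨⟨b, hb⟩, fun h => hb0 (congrArg Subtype.val h), fun f => hbB f f.2⟩

/-- the `q`-power decomposition `f = e ^ q + ϖ f₁ + π f₂` in `P_𝔰` (perfect residue field). -/
theorem sqgde_perf_decomp (t : F) (𝔰 : Ideal ↥(s18tInt A t)) [h𝔰 : 𝔰.IsPrime]
    (π : ↥(s18tInt A t))
    (hgen : ∀ x ∈ 𝔰, ∃ s : ↥(s18tInt A t), s ∉ 𝔰 ∧ ∃ a b : ↥(s18tInt A t),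
      s * x = a * sskPi ϖ t + b * π)
    (q : ℕ) (hq0 : q ≠ 0)
    (hperf : ∀ p : ↥(s18tInt A t), ∃ e : ↥(s18tInt A t), p - e ^ q ∈ 𝔰)
    (f : ↥(ssLocRing t 𝔰)) :
    ∃ e f₁ f₂ : ↥(ssLocRing t 𝔰), f = e ^ q
      + (⟨algebraMap A F ϖ, ssl_int_le_locRing t 𝔰 (sskPi ϖ t).2⟩ : ↥(ssLocRing t 𝔰)) * f₁
      + (⟨(π : F), ssl_int_le_locRing t 𝔰 π.2⟩ : ↥(ssLocRing t 𝔰)) * f₂ := by
  have hne : ∀ u : ↥(s18tInt A t), u ∉ 𝔰 → (u : F) ≠ 0 := fun u hu h => hu (by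
    have : u = 0 := Subtype.ext h
    rw [this]; exact 𝔰.zero_mem)
  have hPB : ∀ z ∈ s18tInt A t, z ∈ ssLocRing t 𝔰 := fun z hz => ssl_int_le_locRing t 𝔰 hz
  obtain ⟨f, s, hs, hsf⟩ := f
  obtain ⟨ep, hep⟩ := hperf ⟨(s : F) * f, hsf⟩
  obtain ⟨es, hes⟩ := hperf s
  have hes' : es ∉ 𝔰 := fun h => hs (by
    have := 𝔰.add_mem hes (𝔰.pow_mem_of_mem h q (Nat.pos_of_ne_zero hq0))
    rwa [sub_add_cancel] at this)
  have hes0 : (es : F) ≠ 0 := hne es hes'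
  have hs0 := hne s hs
  have hinvB : (es : F)⁻¹ ∈ ssLocRing t 𝔰 :=
    ⟨es, hes', by rw [mul_inv_cancel₀ hes0]; exact Subring.one_mem _⟩
  set e : F := (ep : F) * (es : F)⁻¹ with he
  have heB : SsInLoc t 𝔰 e := (ssLocRing t 𝔰).mul_mem (hPB _ ep.2) hinvB
  -- `f - e ^ q ∈ 𝔰 P_𝔰`
  have hmax : SsInMax t 𝔰 (f - e ^ q) := by
    refine ⟨s * es ^ q, fun h => (h𝔰.mem_or_mem h).elim hs
        (fun h' => hes' (h𝔰.mem_of_pow_mem q h')),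
      (⟨(s : F) * f, hsf⟩ - ep ^ q) * es ^ q - ep ^ q * (s - es ^ q),
      𝔰.sub_mem (𝔰.mul_mem_right _ hep) (𝔰.mul_mem_left _ hes), ?_⟩
    push_cast
    show (s : F) * (es : F) ^ q * (f - ((ep : F) * (es : F)⁻¹) ^ q)
      = ((s : F) * f - (ep : F) ^ q) * (es : F) ^ q - (ep : F) ^ q * ((s : F) - (es : F) ^ q)
    rw [mul_pow, inv_pow]
    have hesq : (es : F) ^ q ≠ 0 := pow_ne_zero _ hes0
    field_simp
    ring
  obtain ⟨f₁, f₂, hf₁, hf₂, hdec⟩ := sqgde_max_decomp t 𝔰 π hgen hmax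
  refine ⟨⟨e, heB⟩, ⟨f₁, hf₁⟩, ⟨f₂, hf₂⟩, Subtype.ext ?_⟩
  show f = e ^ q + algebraMap A F ϖ * f₁ + (π : F) * f₂
  rw [add_assoc, ← hdec]; ring

/-- `q ∈ 𝔰 P_𝔰` when `ϖ ∣ q`. -/
theorem sqgde_natCast_mem_max (t : F) (𝔰 : Ideal ↥(s18tInt A t)) [h𝔰 : 𝔰.IsPrime]
    (hϖ𝔰 : sskPi ϖ t ∈ 𝔰) (q : ℕ) (hqϖ : ϖ ∣ (q : A)) :
    ((q : ℕ) : ↥(ssLocRing t 𝔰)) ∈ maximalIdeal ↥(ssLocRing t 𝔰) := by
  have h1𝔰 : (1 : ↥(s18tInt A t)) ∉ 𝔰 := fun h => h𝔰.ne_top ((Ideal.eq_top_iff_one _).mpr h)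
  obtain ⟨a, ha⟩ := hqϖ
  refine (ssl_mem_maximalIdeal t 𝔰 _).mpr ⟨1, h1𝔰,
    sskPi ϖ t * ⟨algebraMap A F a, s18tc_algebraMap_mem_int t a⟩, 𝔰.mul_mem_right _ hϖ𝔰, ?_⟩
  rw [OneMemClass.coe_one, one_mul]
  push_cast
  show ((q : ℕ) : F) = algebraMap A F ϖ * algebraMap A F a
  rw [← map_mul, ← ha, map_natCast]

/-- **(DER), perfect residue field (no rationality)** : `ϖ ∣ q`, the `q`-power map is onto `P / 𝔰`
(`hperf`), `∂π ∈ P_𝔰`.  Then `∂ (P_𝔰) ⊆ P_𝔰`. -/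
theorem sqgde_loc_stable_perf (t : F) (ht : Transcendental L t) [FiniteDimensional L⟮t⟯ F]
    (𝔰 : Ideal ↥(s18tInt A t)) [h𝔰 : 𝔰.IsPrime] (hϖ𝔰 : sskPi ϖ t ∈ 𝔰)
    (π : ↥(s18tInt A t)) (hπ𝔰 : π ∈ 𝔰)
    (hgen : ∀ x ∈ 𝔰, ∃ s : ↥(s18tInt A t), s ∉ 𝔰 ∧ ∃ a b : ↥(s18tInt A t),
      s * x = a * sskPi ϖ t + b * π)
    (q : ℕ) (hq0 : q ≠ 0) (hqϖ : ϖ ∣ (q : A))
    (hperf : ∀ p : ↥(s18tInt A t), ∃ e : ↥(s18tInt A t), p - e ^ q ∈ 𝔰)
    (D : Derivation A F F) (hDπ : SsnfInLoc t 𝔰 (D (π : F)))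
    {y : F} (hy : SsnfInLoc t 𝔰 y) : SsnfInLoc t 𝔰 (D y) := by
  have : IsNoetherianRing ↥(s18tInt A t) := sskr_isNoetherianRing (A := A) (L := L) t ht
  have : IsNoetherianRing ↥(ssLocRing t 𝔰) :=
    IsLocalization.isNoetherianRing 𝔰.primeCompl ↥(ssLocRing t 𝔰) inferInstance
  have h1𝔰 : (1 : ↥(s18tInt A t)) ∉ 𝔰 := fun h => h𝔰.ne_top ((Ideal.eq_top_iff_one _).mpr h)
  have hϖm : (⟨algebraMap A F ϖ, ssl_int_le_locRing t 𝔰 (sskPi ϖ t).2⟩ : ↥(ssLocRing t 𝔰))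
      ∈ maximalIdeal ↥(ssLocRing t 𝔰) :=
    (ssl_mem_maximalIdeal t 𝔰 _).mpr ⟨1, h1𝔰, sskPi ϖ t, hϖ𝔰, by
      rw [OneMemClass.coe_one, one_mul]; rfl⟩
  have hπm : (⟨(π : F), ssl_int_le_locRing t 𝔰 π.2⟩ : ↥(ssLocRing t 𝔰))
      ∈ maximalIdeal ↥(ssLocRing t 𝔰) :=
    (ssl_mem_maximalIdeal t 𝔰 _).mpr ⟨1, h1𝔰, π, hπ𝔰, by
      rw [OneMemClass.coe_one, one_mul]⟩
  have hcore := sqgde_core_perf (ssLocRing t 𝔰) (sqgdeAdd D) (sqgdeAdd_leibniz D) _ _ hϖm hπm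
    (by
      show D (algebraMap A F ϖ) ∈ ssLocRing t 𝔰
      rw [D.map_algebraMap]; exact Subring.zero_mem _) hDπ q hq0
    (sqgde_natCast_mem_max t 𝔰 hϖ𝔰 q hqϖ) (sqgde_perf_decomp t 𝔰 π hgen q hq0 hperf) ?_
  · exact hcore ⟨y, hy⟩
  · -- bounded denominators
    obtain ⟨b, hb, hb0, hbB⟩ := sqgde_bdd_locRing (A := A) (L := L) t ht 𝔰 D
    exact ⟨⟨b, hb⟩, fun h => hb0 (congrArg Subtype.val h), fun f => hbB f f.2⟩

/-- **vanishing** : an `A`-derivation of `F` killing the local parameter `π` vanishes on `P_𝔰`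
(perfect residue field). -/
theorem sqgde_zero_perf (t : F) (ht : Transcendental L t) [FiniteDimensional L⟮t⟯ F]
    (𝔰 : Ideal ↥(s18tInt A t)) [h𝔰 : 𝔰.IsPrime] (hϖ𝔰 : sskPi ϖ t ∈ 𝔰)
    (π : ↥(s18tInt A t)) (hπ𝔰 : π ∈ 𝔰)
    (hgen : ∀ x ∈ 𝔰, ∃ s : ↥(s18tInt A t), s ∉ 𝔰 ∧ ∃ a b : ↥(s18tInt A t),
      s * x = a * sskPi ϖ t + b * π)
    (q : ℕ) (hq0 : q ≠ 0) (hqϖ : ϖ ∣ (q : A))
    (hperf : ∀ p : ↥(s18tInt A t), ∃ e : ↥(s18tInt A t), p - e ^ q ∈ 𝔰)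
    (D : Derivation A F F) (hDπ : D (π : F) = 0)
    {y : F} (hy : SsnfInLoc t 𝔰 y) : D y = 0 := by
  have : IsNoetherianRing ↥(s18tInt A t) := sskr_isNoetherianRing (A := A) (L := L) t ht
  have : IsNoetherianRing ↥(ssLocRing t 𝔰) :=
    IsLocalization.isNoetherianRing 𝔰.primeCompl ↥(ssLocRing t 𝔰) inferInstance
  have h1𝔰 : (1 : ↥(s18tInt A t)) ∉ 𝔰 := fun h => h𝔰.ne_top ((Ideal.eq_top_iff_one _).mpr h)
  have hϖm : (⟨algebraMap A F ϖ, ssl_int_le_locRing t 𝔰 (sskPi ϖ t).2⟩ : ↥(ssLocRing t 𝔰))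
      ∈ maximalIdeal ↥(ssLocRing t 𝔰) :=
    (ssl_mem_maximalIdeal t 𝔰 _).mpr ⟨1, h1𝔰, sskPi ϖ t, hϖ𝔰, by
      rw [OneMemClass.coe_one, one_mul]; rfl⟩
  have hπm : (⟨(π : F), ssl_int_le_locRing t 𝔰 π.2⟩ : ↥(ssLocRing t 𝔰))
      ∈ maximalIdeal ↥(ssLocRing t 𝔰) :=
    (ssl_mem_maximalIdeal t 𝔰 _).mpr ⟨1, h1𝔰, π, hπ𝔰, by
      rw [OneMemClass.coe_one, one_mul]⟩
  have hcore := sqgde_core_zero (ssLocRing t 𝔰) (sqgdeAdd D) (sqgdeAdd_leibniz D) _ _ hϖm hπm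
    (D.map_algebraMap ϖ) hDπ q hq0
    (sqgde_natCast_mem_max t 𝔰 hϖ𝔰 q hqϖ) (sqgde_perf_decomp t 𝔰 π hgen q hq0 hperf) ?_
  · exact hcore ⟨y, hy⟩
  · obtain ⟨b, hb, hb0, hbB⟩ := sqgde_bdd_locRing (A := A) (L := L) t ht 𝔰 D
    exact ⟨⟨b, hb⟩, fun h => hb0 (congrArg Subtype.val h), fun f => hbB f f.2⟩

/-- variant for an additive Leibniz map killing `A` -/
theorem sqgde_loc_stable' (t : F) (ht : Transcendental L t) [FiniteDimensional L⟮t⟯ F]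
    (𝔰 : Ideal ↥(s18tInt A t)) [h𝔰 : 𝔰.IsPrime] (hϖ𝔰 : sskPi ϖ t ∈ 𝔰)
    (π : ↥(s18tInt A t)) (hπ𝔰 : π ∈ 𝔰)
    (hgen : ∀ x ∈ 𝔰, ∃ s : ↥(s18tInt A t), s ∉ 𝔰 ∧ ∃ a b : ↥(s18tInt A t),
      s * x = a * sskPi ϖ t + b * π)
    (hk : ∀ p : ↥(s18tInt A t), ∃ a : A,
      p - ⟨algebraMap A F a, s18tc_algebraMap_mem_int t a⟩ ∈ 𝔰)
    (d : F →+ F) (hL : ∀ u v : F, d (u * v) = d u * v + u * d v)
    (hA : ∀ a : A, d (algebraMap A F a) = 0) (hdπ : d (π : F) = 1)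
    {x : F} (hx : SsnfInLoc t 𝔰 x) : SsnfInLoc t 𝔰 (d x) :=
  sqgde_loc_stable (L := L) t ht 𝔰 hϖ𝔰 π hπ𝔰 hgen hk (sqgdeDer d hL hA) hdπ hx

end Fermat.Agent.SQ
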