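/-
Program Q (S36), risk R1 : THE CONCRETE (DER) PACKAGE AT A CLOSED POINT of a chart of `F_{L₀}(N)`
(helper13) = `SQ/Germ/DerivTheta.lean` instantiated at `D₀ := d/dj = sqgvDer L₀ N` (helper3).

`A₀` a DVR of characteristic `0`, `L₀ = Frac A₀`, `F = F_{L₀}(N)`, `s` a good chart coordinate of `F`
(`S18Coord`, `GrdfbHyp`), `P₀ = s18tInt A₀ s`, `𝔰` a prime of `P₀` containing `ϖ` with
`𝔰 (P₀)_𝔰 = (ϖ, p)` (`hgen`), residue field perfect (`hperf`), NON-CUSPIDAL (`hj : j ∈ (P₀)_𝔰`).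
Then, for `D = d/dj`, `∂_p = d/dp = sqgvDx L₀ N p` :

* `sqgpc_der_ne_zero`   : `D p ≠ 0` ;
* `sqgpc_der_inv_mem`   : `(D p)⁻¹` lies in the Gauss ring (`D p` is a Gauss unit) ;
* `sqgpc_theta_ne_zero` : `θ (red p) ≠ 0` (the hypothesis `hθ` of helper3's `sqgvGxy_gauss/_val/_congr`,
  `sqgvDx_gauss`) ;
* `sqgpc_dx_stable`     : `∂_p ((P₀)_𝔰) ⊆ (P₀)_𝔰` ;
* `sqgpc_dx_gauss`      : `∂_p O ⊆ O` ;
* `sqgpc_cartierHyp`    : helper1's `SqgcaHyp O (P₀)_𝔰 ϖ p q ∂_p` (the field `cart` of helper29's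
  `SqgtpKD`) ;
* `sqgpc_unram`         : `p` is an unramified coordinate at every horizontal place through `𝔰`;
* `…_dVal`              : the instance `A₀ = 𝔸 ∩ E`, `𝔸 | q`, `𝔰` MAXIMAL (no `hperf`, `hqϖ` left).

Prefix `sqgpc`.
-/
import Mathlib
import Fermat.Agent.SQ.Germ.PBasisConc
import Fermat.Agent.SQ.Germ.DerivTheta
import Fermat.Agent.SQ.Germ.Perfect

set_option autoImplicit false
set_option linter.unusedSectionVars false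
set_option linter.unusedVariables false
set_option linter.style.haveILetI false
set_option synthInstance.maxHeartbeats 400000

noncomputable section

namespace Fermat.Agent.SQ

open Polynomial ModularCurve AlgebraicCurve IsLocalRing IntermediateField Fermat.Agent.S24
  Fermat.Agent.G Fermat.Agent.S18 Fermat.Agent.SS

local notation "Qb" => AlgebraicClosure ℚ

section Point

variable {A₀ : Type*} [CommRing A₀] [IsDomain A₀] [IsDiscreteValuationRing A₀] [CharZero A₀]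
variable {L₀ : Type*} [Field L₀] [Algebra A₀ L₀] [IsFractionRing A₀ L₀] [CharZero L₀]
variable {ϖ : A₀} (N : ℕ) [NeZero N]

variable (hϖ : Irreducible ϖ) (s : modularFunctionFieldFullC L₀ N)
  (hc : S18Coord hϖ (modularFunctionFieldFullC L₀ N) s) (H : GrdfbHyp hϖ s)
  (𝔰 : Ideal ↥(s18tInt A₀ s)) [h𝔰 : 𝔰.IsPrime] (hϖ𝔰 : sskPi ϖ s ∈ 𝔰)
  (p : ↥(s18tInt A₀ s)) (hp𝔰 : p ∈ 𝔰)
  (hgen : ∀ x ∈ 𝔰, ∃ c : ↥(s18tInt A₀ s), c ∉ 𝔰 ∧ ∃ a b : ↥(s18tInt A₀ s),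
    c * x = a * sskPi ϖ s + b * p)
  (q : ℕ) (hq0 : q ≠ 0) (hqϖ : ϖ ∣ (q : A₀))
  (hperf : ∀ x : ↥(s18tInt A₀ s), ∃ e : ↥(s18tInt A₀ s), x - e ^ q ∈ 𝔰)
  (hj : SsnfInLoc s 𝔰 (ssvmdJ L₀ N))

/-- `∂_p = (D p)⁻¹ • D` is helper3's `sqgvDx`. -/
theorem sqgpc_dp_eq (p x : modularFunctionFieldFullC L₀ N) :
    sqgdeDp (sqgpcDer (A₀ := A₀) N) p x = sqgvDx L₀ N p x := rfl

include hc hϖ𝔰 hp𝔰 hgen hq0 hqϖ hperf hj in
/-- `D p ≠ 0`. -/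
theorem sqgpc_der_ne_zero : sqgvDer L₀ N (p : modularFunctionFieldFullC L₀ N) ≠ 0 := by
  haveI := hc.fin
  exact sqgde_theta_ne_zero (L := L₀) s hc.transc 𝔰 hϖ𝔰 p hp𝔰 hgen q hq0 hqϖ hperf
    (sqgpcDer (A₀ := A₀) N) (ssvmdJ L₀ N) hj
    (by rw [sqgpcDer_apply, sqgvDer_j]; exact one_ne_zero)

include hc H hϖ𝔰 hp𝔰 hgen hq0 hqϖ hperf hj in
/-- `D p` is a unit of the Gauss ring. -/
theorem sqgpc_der_inv_mem :
    (sqgvDer L₀ N (p : modularFunctionFieldFullC L₀ N))⁻¹ ∈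
      s18vO A₀ (modularFunctionFieldFullC L₀ N) := by
  haveI := hc.fin
  have h := sqgde_theta_unit (L := L₀) hϖ s hc.transc H 𝔰 hϖ𝔰 p hp𝔰 hgen q hq0 hqϖ hperf
    (sqgpcDer (A₀ := A₀) N) (ssvmdJ L₀ N) hj
    (by rw [sqgpcDer_apply, sqgvDer_j, inv_one]; exact Subring.one_mem _)
    (by rw [sqgpcDer_apply, sqgvDer_j]; exact one_ne_zero)
  rw [hc.intLoc_eq] at h
  exact h

include hc H hϖ𝔰 hp𝔰 hgen hq0 hqϖ hperf hj in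
/-- `θ (red p) ≠ 0`. -/
theorem sqgpc_theta_ne_zero :
    sqvtTheta (ResidueField A₀) (s18vcRed (modularFunctionFieldFullC L₀ N)
      ⟨(p : modularFunctionFieldFullC L₀ N), ssgfl_int_le_vO _ hϖ s hc p.2⟩) ≠ 0 := by
  intro h0
  obtain ⟨hD, hred⟩ := sqgvDer_gauss N hϖ (p : modularFunctionFieldFullC L₀ N)
    (ssgfl_int_le_vO _ hϖ s hc p.2)
  rw [h0] at hred
  have hinv := sqgpc_der_inv_mem N hϖ s hc H 𝔰 hϖ𝔰 p hp𝔰 hgen q hq0 hqϖ hperf hj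
  have hne := sqgpc_der_ne_zero N hϖ s hc 𝔰 hϖ𝔰 p hp𝔰 hgen q hq0 hqϖ hperf hj
  -- `red (D p)` is a unit
  have hu : (⟨sqgvDer L₀ N (p : modularFunctionFieldFullC L₀ N), hD⟩ :
      ↥(s18vO A₀ (modularFunctionFieldFullC L₀ N))) * ⟨_, hinv⟩ = 1 :=
    Subtype.ext (mul_inv_cancel₀ hne)
  have h1 := congrArg (s18vcRed (modularFunctionFieldFullC L₀ N)) hu
  rw [map_mul, map_one] at h1
  rcases mul_eq_zero.mp hred with h2 | h2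
  · rw [h2, zero_mul] at h1
    exact zero_ne_one h1
  · exact sqgvThJ_ne_zero _ h2

include hc hϖ𝔰 hp𝔰 hgen hq0 hqϖ hperf hj in
/-- `∂_p ((P₀)_𝔰) ⊆ (P₀)_𝔰`. -/
theorem sqgpc_dx_stable {y : modularFunctionFieldFullC L₀ N} (hy : SsnfInLoc s 𝔰 y) :
    SsnfInLoc s 𝔰 (sqgvDx L₀ N (p : modularFunctionFieldFullC L₀ N) y) := by
  haveI := hc.fin
  exact sqgde_theta_stable (L := L₀) s hc.transc 𝔰 hϖ𝔰 p hp𝔰 hgen q hq0 hqϖ hperf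
    (sqgpcDer (A₀ := A₀) N) (ssvmdJ L₀ N) hj
    (by rw [sqgpcDer_apply, sqgvDer_j]; exact one_ne_zero) hy

include hc H hϖ𝔰 hp𝔰 hgen hq0 hqϖ hperf hj in
/-- `∂_p O ⊆ O`. -/
theorem sqgpc_dx_gauss (x : modularFunctionFieldFullC L₀ N)
    (hx : x ∈ s18vO A₀ (modularFunctionFieldFullC L₀ N)) :
    sqgvDx L₀ N (p : modularFunctionFieldFullC L₀ N) x ∈
      s18vO A₀ (modularFunctionFieldFullC L₀ N) := by
  rw [sqgvDx_apply]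
  exact Subring.mul_mem _
    (sqgpc_der_inv_mem N hϖ s hc H 𝔰 hϖ𝔰 p hp𝔰 hgen q hq0 hqϖ hperf hj) (sqgpc_d_O N hϖ x hx)

include hc H hϖ𝔰 hp𝔰 hgen hq0 hqϖ hperf hj in
/-- **helper1's `SqgcaHyp` for `∂_p = sqgvDx L₀ N p`** at a non-cuspidal closed point `𝔰` with
`𝔰 (P₀)_𝔰 = (ϖ, p)`. -/
theorem sqgpc_cartierHyp :
    SqgcaHyp (s18tIntLoc A₀ s (C ϖ) (s18t_prime_C hϖ)) (ssLocRing s 𝔰)
      (algebraMap A₀ (modularFunctionFieldFullC L₀ N) ϖ) (p : modularFunctionFieldFullC L₀ N) q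
      (⇑(sqgvDx L₀ N (p : modularFunctionFieldFullC L₀ N))) := by
  haveI := hc.fin
  exact sqgde_theta_cartierHyp (L := L₀) hϖ s hc.transc H 𝔰 hϖ𝔰 p hp𝔰 hgen q hq0 hqϖ hperf
    (sqgpcDer (A₀ := A₀) N)
    (by
      intro x hx
      rw [hc.intLoc_eq] at hx ⊢
      exact sqgpc_d_O N hϖ x hx)
    (ssvmdJ L₀ N) hj
    (by rw [sqgpcDer_apply, sqgvDer_j, inv_one]; exact Subring.one_mem _)
    (by rw [sqgpcDer_apply, sqgvDer_j]; exact one_ne_zero)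

include hc hϖ𝔰 hp𝔰 hgen hq0 hqϖ hperf hj in
/-- **`p` is an unramified coordinate** at every valuation ring `V ⊇ P₀` of `F / L₀` centred in `𝔰`,
and `∂_p V ⊆ V`. -/
theorem sqgpc_unram (V : ValuationSubring (modularFunctionFieldFullC L₀ N))
    (hV : S18IsPlace L₀ V) (hPV : s18tInt A₀ s ≤ V.toSubring)
    (hcV : sskCentre s V ⊆ (𝔰 : Set ↥(s18tInt A₀ s))) :
    (∀ x ∈ V, sqgvDx L₀ N (p : modularFunctionFieldFullC L₀ N) x ∈ V) ∧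
    ∃ m : L₀[X], m.Monic ∧ Irreducible m ∧
      S18IsUnif V (aeval (p : modularFunctionFieldFullC L₀ N) m) ∧
      V.valuation (sqgvDx L₀ N (p : modularFunctionFieldFullC L₀ N)
        (aeval (p : modularFunctionFieldFullC L₀ N) m)) = 1 ∧
      ∀ g : L₀[X], V.valuation (aeval (p : modularFunctionFieldFullC L₀ N) g) < 1 ↔ m ∣ g := by
  haveI := hc.fin
  exact sqgde_theta_unram (L := L₀) s hc.transc 𝔰 hϖ𝔰 p hp𝔰 hgen q hq0 hqϖ hperf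
    (sqgpcDer (A₀ := A₀) N) (ssvmdJ L₀ N) hj
    (by rw [sqgpcDer_apply, sqgvDer_j]; exact one_ne_zero) hϖ.ne_zero V hV hPV hcV

end Point

/-! ### The instance `A₀ = 𝔸 ∩ E`, `𝔸 | q`, `𝔰` maximal -/

section DVal

variable {q : ℕ} [Fact q.Prime] (𝔸 : ValuationSubring Qb) (E : IntermediateField ℚ Qb)
  [IsDiscreteValuationRing ↥(s18dVal 𝔸 E)] [CharZero ↥(s18dVal 𝔸 E)] (M : ℕ) [NeZero M]

variable (hA : 𝔸.LiesOverPrime q) {ϖ : ↥(s18dVal 𝔸 E)} (hϖ : Irreducible ϖ)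
  (s : modularFunctionFieldFullC E M)
  (hc : S18Coord hϖ (modularFunctionFieldFullC E M) s) (H : GrdfbHyp hϖ s)
  (𝔰 : Ideal ↥(s18tInt ↥(s18dVal 𝔸 E) s)) [h𝔰 : 𝔰.IsMaximal] (hϖ𝔰 : sskPi ϖ s ∈ 𝔰)
  (p : ↥(s18tInt ↥(s18dVal 𝔸 E) s)) (hp𝔰 : p ∈ 𝔰)
  (hgen : ∀ x ∈ 𝔰, ∃ c : ↥(s18tInt ↥(s18dVal 𝔸 E) s), c ∉ 𝔰 ∧
    ∃ a b : ↥(s18tInt ↥(s18dVal 𝔸 E) s), c * x = a * sskPi ϖ s + b * p)
  (hj : SsnfInLoc s 𝔰 (ssvmdJ E M))

include hA hc H hϖ𝔰 hp𝔰 hgen hj in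
/-- `D p` is a unit of the Gauss ring, `θ (red p) ≠ 0`. -/
theorem sqgpc_der_unit_dVal :
    sqgvDer E M (p : modularFunctionFieldFullC E M) ≠ 0 ∧
    (sqgvDer E M (p : modularFunctionFieldFullC E M))⁻¹ ∈
      s18vO ↥(s18dVal 𝔸 E) (modularFunctionFieldFullC E M) ∧
    sqvtTheta (ResidueField ↥(s18dVal 𝔸 E)) (s18vcRed (modularFunctionFieldFullC E M)
      ⟨(p : modularFunctionFieldFullC E M), ssgfl_int_le_vO _ hϖ s hc p.2⟩) ≠ 0 := by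
  have hq0 : q ≠ 0 := (Fact.out : q.Prime).ne_zero
  have hqϖ := sqgpc_unif_dvd_dVal 𝔸 E hA hϖ
  have hperf := sqgpf_exists_pow_dVal 𝔸 E hA hϖ s 𝔰 hϖ𝔰
  exact ⟨sqgpc_der_ne_zero M hϖ s hc 𝔰 hϖ𝔰 p hp𝔰 hgen q hq0 hqϖ hperf hj,
    sqgpc_der_inv_mem M hϖ s hc H 𝔰 hϖ𝔰 p hp𝔰 hgen q hq0 hqϖ hperf hj,
    sqgpc_theta_ne_zero M hϖ s hc H 𝔰 hϖ𝔰 p hp𝔰 hgen q hq0 hqϖ hperf hj⟩

include hA hc H hϖ𝔰 hp𝔰 hgen hj in
/-- **`SqgcaHyp` at `(𝔸, E, M, q)`** : the field `cart` of helper29's `SqgtpKD`, with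
`d := ⇑(sqgvDx E M p)`. -/
theorem sqgpc_cartierHyp_dVal :
    SqgcaHyp (s18tIntLoc ↥(s18dVal 𝔸 E) s (C ϖ) (s18t_prime_C hϖ)) (ssLocRing s 𝔰)
      (algebraMap ↥(s18dVal 𝔸 E) (modularFunctionFieldFullC E M) ϖ)
      (p : modularFunctionFieldFullC E M) q
      (⇑(sqgvDx E M (p : modularFunctionFieldFullC E M))) :=
  sqgpc_cartierHyp M hϖ s hc H 𝔰 hϖ𝔰 p hp𝔰 hgen q (Fact.out : q.Prime).ne_zero
    (sqgpc_unif_dvd_dVal 𝔸 E hA hϖ) (sqgpf_exists_pow_dVal 𝔸 E hA hϖ s 𝔰 hϖ𝔰) hj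

include hA hc hϖ𝔰 hp𝔰 hgen hj in
/-- **(ET)+(DER)(ii) at `(𝔸, E, M, q)`** : `p` is an unramified coordinate at every horizontal place
through `𝔰`, and `∂_p V ⊆ V`. -/
theorem sqgpc_unram_dVal (V : ValuationSubring (modularFunctionFieldFullC E M))
    (hV : S18IsPlace ↥E V) (hPV : s18tInt ↥(s18dVal 𝔸 E) s ≤ V.toSubring)
    (hcV : sskCentre s V ⊆ (𝔰 : Set ↥(s18tInt ↥(s18dVal 𝔸 E) s))) :
    (∀ x ∈ V, sqgvDx E M (p : modularFunctionFieldFullC E M) x ∈ V) ∧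
    ∃ m : (↥E)[X], m.Monic ∧ Irreducible m ∧
      S18IsUnif V (aeval (p : modularFunctionFieldFullC E M) m) ∧
      V.valuation (sqgvDx E M (p : modularFunctionFieldFullC E M)
        (aeval (p : modularFunctionFieldFullC E M) m)) = 1 ∧
      ∀ g : (↥E)[X], V.valuation (aeval (p : modularFunctionFieldFullC E M) g) < 1 ↔ m ∣ g :=
  sqgpc_unram M hϖ s hc 𝔰 hϖ𝔰 p hp𝔰 hgen q (Fact.out : q.Prime).ne_zero
    (sqgpc_unif_dvd_dVal 𝔸 E hA hϖ) (sqgpf_exists_pow_dVal 𝔸 E hA hϖ s 𝔰 hϖ𝔰) hj V hV hPV hcV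

end DVal

end Fermat.Agent.SQ
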