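/-
Program Q (S36), risk R1, piece (DER) (helper13).  File DerivVal: abstract commutative algebra for
the corollaries, Mathlib only.

`B` a Noetherian local ring with `𝔪_B = (ϖ, π)` (a regular local ring of dimension `≤ 2`).
* `sqgde_unit_pow`        : `s ∉ ϖ B ⟹ s = u πⁿ + ϖ e`, `u` a unit (`B / ϖ B` is a DVR or a field);
* `sqgde_prime_principal` : a nonzero prime `𝔭 ∌ ϖ` is principal;
* `sqgde_factor`          : `a ≠ 0 ⟹ a = gⁱ a'`, `a' ∉ g B` (`B` a domain, `g ∈ 𝔪_B`).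
-/
import Mathlib

set_option autoImplicit false

namespace Fermat.Agent.SQ

open IsLocalRing

/-- `B / ϖ B` is a DVR (or a field) with uniformiser `π̄` : every `s ∉ ϖ B` is `u πⁿ + ϖ e`. -/
theorem sqgde_unit_pow {B : Type*} [CommRing B] [IsLocalRing B] [IsNoetherianRing B]
    (ϖ π : B) (hϖ : ϖ ∈ maximalIdeal B) (hmax : maximalIdeal B = Ideal.span {ϖ, π})
    (s : B) (hs : s ∉ Ideal.span {ϖ}) :
    ∃ (n : ℕ) (u e : B), IsUnit u ∧ s = u * π ^ n + ϖ * e := by
  classical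
  set I : Ideal B := Ideal.span {ϖ} with hI
  have hIm : I ≤ maximalIdeal B := by
    rw [hI, Ideal.span_le, Set.singleton_subset_iff]; exact hϖ
  have hItop : I ≠ ⊤ := fun h => (maximalIdeal.isMaximal B).ne_top (top_le_iff.mp (h ▸ hIm))
  have : Nontrivial (B ⧸ I) := Ideal.Quotient.nontrivial_iff.mpr hItop
  have : IsLocalRing (B ⧸ I) :=
    IsLocalRing.of_surjective' (Ideal.Quotient.mk I) Ideal.Quotient.mk_surjective
  set mk := Ideal.Quotient.mk I with hmk
  -- `mk x ∈ 𝔪' ↔ x ∈ 𝔪`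
  have hmem : ∀ x : B, mk x ∈ maximalIdeal (B ⧸ I) ↔ x ∈ maximalIdeal B := by
    intro x
    rw [mem_maximalIdeal, mem_maximalIdeal, mem_nonunits_iff, mem_nonunits_iff, not_iff_not]
    constructor
    · intro hu
      by_contra hx
      obtain ⟨y', hy'⟩ := hu.exists_right_inv
      obtain ⟨y, rfl⟩ := Ideal.Quotient.mk_surjective y'
      have h1 : x * y - 1 ∈ I := by
        rw [← Ideal.Quotient.eq, map_mul, map_one]; exact hy'
      have hxm : x ∈ maximalIdeal B := (mem_maximalIdeal x).mpr hx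
      have h2 : (1 : B) ∈ maximalIdeal B := by
        have h3 := (maximalIdeal B).sub_mem ((maximalIdeal B).mul_mem_right y hxm) (hIm h1)
        have e3 : x * y - (x * y - 1) = 1 := by ring
        rwa [e3] at h3
      exact (maximalIdeal.isMaximal B).ne_top ((Ideal.eq_top_iff_one _).mpr h2)
    · exact fun hu => hu.map mk
  have h𝔪' : maximalIdeal (B ⧸ I) = Ideal.span {mk π} := by
    apply le_antisymm
    · intro x' hx'
      obtain ⟨x, rfl⟩ := Ideal.Quotient.mk_surjective x'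
      have hx : x ∈ Ideal.span {ϖ, π} := hmax ▸ (hmem x).mp hx'
      obtain ⟨a, b, rfl⟩ := Ideal.mem_span_pair.mp hx
      rw [Ideal.mem_span_singleton']
      refine ⟨mk b, ?_⟩
      have hϖ0 : mk ϖ = 0 := Ideal.Quotient.eq_zero_iff_mem.mpr (Ideal.subset_span rfl)
      rw [map_add, map_mul, map_mul, hϖ0, mul_zero, zero_add]
    · rw [Ideal.span_le, Set.singleton_subset_iff]
      refine (hmem π).mpr ?_
      rw [hmax]; exact Ideal.subset_span (by simp)
  -- Krull intersection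
  have hs0 : mk s ≠ 0 := fun h => hs (Ideal.Quotient.eq_zero_iff_mem.mp h)
  have hex : ∃ n : ℕ, mk s ∉ maximalIdeal (B ⧸ I) ^ n := by
    by_contra hcon
    push Not at hcon
    have h1 : mk s ∈ ⨅ i : ℕ, maximalIdeal (B ⧸ I) ^ i := Ideal.mem_iInf.mpr hcon
    rw [Ideal.iInf_pow_eq_bot_of_isLocalRing _ (maximalIdeal.isMaximal (B ⧸ I)).ne_top] at h1
    exact hs0 h1
  set n := Nat.find hex with hn
  have hn_spec : mk s ∉ maximalIdeal (B ⧸ I) ^ n := Nat.find_spec hex
  have hn0 : n ≠ 0 := by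
    intro h0
    rw [h0, pow_zero, Ideal.one_eq_top] at hn_spec
    exact hn_spec Submodule.mem_top
  obtain ⟨k, hk⟩ := Nat.exists_eq_succ_of_ne_zero hn0
  have hk_mem : mk s ∈ maximalIdeal (B ⧸ I) ^ k := by
    by_contra h
    have := Nat.find_min' hex h
    omega
  rw [h𝔪', Ideal.span_singleton_pow, Ideal.mem_span_singleton'] at hk_mem
  obtain ⟨c', hc'⟩ := hk_mem
  obtain ⟨c, rfl⟩ := Ideal.Quotient.mk_surjective c'
  have hcu : IsUnit c := by
    by_contra hc
    have hcm : mk c ∈ maximalIdeal (B ⧸ I) := (hmem c).mpr ((mem_maximalIdeal c).mpr hc)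
    apply hn_spec
    rw [hk, pow_succ', ← hc']
    refine Ideal.mul_mem_mul hcm ?_
    rw [h𝔪', Ideal.span_singleton_pow]
    exact Ideal.subset_span rfl
  have h1 : s - c * π ^ k ∈ I := by
    rw [← Ideal.Quotient.eq, map_mul, map_pow]; exact hc'.symm
  obtain ⟨e, he⟩ := Ideal.mem_span_singleton'.mp h1
  exact ⟨k, c, e, hcu, by linear_combination -he⟩

/-- a nonzero prime `𝔭 ∌ ϖ` of a Noetherian local ring with `𝔪 = (ϖ, π)` is principal. -/
theorem sqgde_prime_principal {B : Type*} [CommRing B] [IsLocalRing B] [IsNoetherianRing B]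
    (ϖ π : B) (hϖ : ϖ ∈ maximalIdeal B) (hmax : maximalIdeal B = Ideal.span {ϖ, π})
    (𝔭 : Ideal B) [h𝔭 : 𝔭.IsPrime] (hϖ𝔭 : ϖ ∉ 𝔭) (h𝔭0 : 𝔭 ≠ ⊥) :
    ∃ g : B, 𝔭 = Ideal.span {g} := by
  classical
  have hjac : maximalIdeal B ≤ Ideal.jacobson (⊥ : Ideal B) := by
    rw [IsLocalRing.jacobson_eq_maximalIdeal ⊥ bot_ne_top]
  have hfg : (𝔭 : Submodule B B).FG := IsNoetherian.noetherian 𝔭
  -- `x ∈ 𝔭 ∩ ϖ B ⟹ x ∈ 𝔪 𝔭`
  have hsat : ∀ x ∈ 𝔭, x ∈ Ideal.span {ϖ} → x ∈ maximalIdeal B • 𝔭 := by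
    intro x hx hxϖ
    obtain ⟨y, rfl⟩ := Ideal.mem_span_singleton'.mp hxϖ
    have hy : y ∈ 𝔭 := (h𝔭.mem_or_mem hx).resolve_right hϖ𝔭
    rw [mul_comm, ← smul_eq_mul]
    exact Submodule.smul_mem_smul hϖ hy
  -- `𝔭 ⊄ ϖ B`
  have hex : ∃ n : ℕ, ∃ g ∈ 𝔭, ∃ u e : B, IsUnit u ∧ g = u * π ^ n + ϖ * e := by
    by_contra hcon
    push Not at hcon
    apply h𝔭0
    refine Submodule.eq_bot_of_le_smul_of_le_jacobson_bot (maximalIdeal B) 𝔭 hfg ?_ hjac
    intro x hx
    by_cases hxϖ : x ∈ Ideal.span {ϖ}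
    · exact hsat x hx hxϖ
    · obtain ⟨n, u, e, hu, hxe⟩ := sqgde_unit_pow ϖ π hϖ hmax x hxϖ
      exact absurd hxe (hcon n x hx u e hu)
  set n := Nat.find hex with hn
  obtain ⟨g, hg, u, e, hu, hge⟩ := Nat.find_spec hex
  refine ⟨g, le_antisymm ?_ ((Ideal.span_singleton_le_iff_mem 𝔭).mpr hg)⟩
  refine Submodule.le_of_le_smul_of_le_jacobson_bot (I := maximalIdeal B) hfg hjac ?_
  intro x hx
  by_cases hxϖ : x ∈ Ideal.span {ϖ}
  · exact (le_sup_right : maximalIdeal B • 𝔭 ≤ _) (hsat x hx hxϖ)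
  · obtain ⟨n', u', e', hu', hxe'⟩ := sqgde_unit_pow ϖ π hϖ hmax x hxϖ
    have hnn' : n ≤ n' := Nat.find_min' hex ⟨x, hx, u', e', hu', hxe'⟩
    obtain ⟨v, hv⟩ := hu.exists_left_inv
    -- `x - u' v π^(n'-n) g ∈ ϖ B ∩ 𝔭`
    set c := u' * v * π ^ (n' - n) with hc
    have hpow : π ^ n' = π ^ (n' - n) * π ^ n := by rw [← pow_add, Nat.sub_add_cancel hnn']
    have e1 : x - c * g = ϖ * (e' - c * e) := by
      rw [hxe', hge, hc, hpow]
      linear_combination (-(u' * π ^ (n' - n) * π ^ n)) * hv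
    have h1 : x - c * g ∈ 𝔭 := 𝔭.sub_mem hx (𝔭.mul_mem_left _ hg)
    have h2 : x - c * g ∈ maximalIdeal B • 𝔭 :=
      hsat _ h1 (by rw [e1]; exact Ideal.mul_mem_right _ _ (Ideal.subset_span rfl))
    have e2 : x = c * g + (x - c * g) := by ring
    rw [e2]
    refine Submodule.add_mem _ ((le_sup_left : (Ideal.span {g} : Submodule B B) ≤ _) ?_)
      ((le_sup_right : maximalIdeal B • 𝔭 ≤ _) h2)
    exact Ideal.mul_mem_left _ _ (Ideal.subset_span rfl)

/-- factorisation by powers of a non-unit in a Noetherian local domain. -/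
theorem sqgde_factor {B : Type*} [CommRing B] [IsLocalRing B] [IsNoetherianRing B]
    (g : B) (hg : g ∈ maximalIdeal B) (a : B) (ha : a ≠ 0) :
    ∃ (i : ℕ) (a' : B), a = g ^ i * a' ∧ a' ∉ Ideal.span {g} := by
  classical
  have hgtop : Ideal.span {g} ≠ ⊤ := by
    intro h
    have hle : Ideal.span {g} ≤ maximalIdeal B := by
      rw [Ideal.span_le, Set.singleton_subset_iff]; exact hg
    exact (maximalIdeal.isMaximal B).ne_top (top_le_iff.mp (h ▸ hle))
  have hex : ∃ n : ℕ, a ∉ Ideal.span {g} ^ n := by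
    by_contra hcon
    push Not at hcon
    have h1 : a ∈ ⨅ i : ℕ, Ideal.span {g} ^ i := Ideal.mem_iInf.mpr hcon
    rw [Ideal.iInf_pow_eq_bot_of_isLocalRing _ hgtop] at h1
    exact ha h1
  set n := Nat.find hex with hn
  have hn_spec : a ∉ Ideal.span {g} ^ n := Nat.find_spec hex
  have hn0 : n ≠ 0 := by
    intro h0
    rw [h0, pow_zero, Ideal.one_eq_top] at hn_spec
    exact hn_spec Submodule.mem_top
  obtain ⟨k, hk⟩ := Nat.exists_eq_succ_of_ne_zero hn0
  have hk_mem : a ∈ Ideal.span {g} ^ k := by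
    by_contra h
    have := Nat.find_min' hex h
    omega
  rw [Ideal.span_singleton_pow, Ideal.mem_span_singleton'] at hk_mem
  obtain ⟨a', ha'⟩ := hk_mem
  refine ⟨k, a', by rw [← ha', mul_comm], ?_⟩
  intro h
  apply hn_spec
  obtain ⟨b, rfl⟩ := Ideal.mem_span_singleton'.mp h
  rw [hk, Ideal.span_singleton_pow, Ideal.mem_span_singleton']
  exact ⟨b, by rw [← ha', pow_succ]; ring⟩

/-! ### valuation rings dominating a localisation of `B` -/

section Val

variable {F : Type*} [Field F]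

/-- the centre on `B` of a valuation subring `V ⊇ B` -/
def sqgdeCentre (B : Subring F) (V : ValuationSubring F) (hBV : B ≤ V.toSubring) : Ideal ↥B where
  carrier := {x | V.valuation (x : F) < 1}
  add_mem' := by
    intro x y hx hy
    show V.valuation ((x : F) + (y : F)) < 1
    exact lt_of_le_of_lt (V.valuation.map_add _ _) (max_lt hx hy)
  zero_mem' := by
    show V.valuation ((0 : ↥B) : F) < 1
    rw [ZeroMemClass.coe_zero, map_zero]; exact zero_lt_one
  smul_mem' := by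
    intro c x hx
    show V.valuation ((c : F) * (x : F)) < 1
    rw [map_mul]
    have hc : V.valuation (c : F) ≤ 1 := (V.valuation_le_one_iff _).mpr (hBV c.2)
    exact lt_of_le_of_lt (mul_le_of_le_one_left' hc) hx

theorem mem_sqgdeCentre (B : Subring F) (V : ValuationSubring F) (hBV : B ≤ V.toSubring)
    (x : ↥B) : x ∈ sqgdeCentre B V hBV ↔ V.valuation (x : F) < 1 := Iff.rfl

instance sqgdeCentre_isPrime (B : Subring F) (V : ValuationSubring F) (hBV : B ≤ V.toSubring) :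
    (sqgdeCentre B V hBV).IsPrime := by
  refine ⟨fun h => ?_, fun {x y} hxy => ?_⟩
  · have h1 : (1 : ↥B) ∈ sqgdeCentre B V hBV := h ▸ Submodule.mem_top
    rw [mem_sqgdeCentre, OneMemClass.coe_one, map_one] at h1
    exact lt_irrefl _ h1
  · rw [mem_sqgdeCentre] at hxy ⊢
    rw [mem_sqgdeCentre]
    by_contra hcon
    push Not at hcon
    have hx : V.valuation (x : F) = 1 :=
      le_antisymm ((V.valuation_le_one_iff _).mpr (hBV x.2)) hcon.1
    have hy : V.valuation (y : F) = 1 :=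
      le_antisymm ((V.valuation_le_one_iff _).mpr (hBV y.2)) hcon.2
    have : V.valuation (((x * y : ↥B)) : F) = 1 := by
      push_cast; rw [map_mul, hx, hy, one_mul]
    rw [this] at hxy
    exact lt_irrefl _ hxy

/-- **structure of a valuation ring `V ⊇ B` in which `ϖ` is a unit** (`B` Noetherian local with
`𝔪_B = (ϖ, π)`, `F = Frac B`, `V ≠ F`) : `V` is the localisation of `B` at a principal prime `g B`. -/
theorem sqgde_val_struct (B : Subring F) [IsLocalRing ↥B] [IsNoetherianRing ↥B]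
    (ϖ π : ↥B) (hϖm : ϖ ∈ maximalIdeal ↥B) (hmax : maximalIdeal ↥B = Ideal.span {ϖ, π})
    (hfrac : ∀ x : F, ∃ s ∈ B, s ≠ 0 ∧ s * x ∈ B)
    (V : ValuationSubring F) (hBV : B ≤ V.toSubring) (hϖV : V.valuation (ϖ : F) = 1)
    (hVtop : V ≠ ⊤) :
    ∃ g ∈ B, g ≠ 0 ∧ V.valuation g < 1 ∧
      ∀ x : F, x ≠ 0 → ∃ (i j : ℕ) (a b : F), a ∈ B ∧ b ∈ B ∧ V.valuation a = 1 ∧
        V.valuation b = 1 ∧ x * (g ^ j * b) = g ^ i * a := by
  set 𝔭 := sqgdeCentre B V hBV with h𝔭
  have hle1 : ∀ x : ↥B, V.valuation (x : F) ≤ 1 := fun x => (V.valuation_le_one_iff _).mpr (hBV x.2)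
  have hϖ𝔭 : ϖ ∉ 𝔭 := by
    rw [h𝔭, mem_sqgdeCentre, hϖV]; exact lt_irrefl _
  -- `𝔭 ≠ ⊥`
  have h𝔭0 : 𝔭 ≠ ⊥ := by
    intro h0
    apply hVtop
    rw [eq_top_iff]
    intro x _
    by_contra hx
    obtain ⟨s, hs, hs0, hsx⟩ := hfrac x
    have hx1 : 1 < V.valuation x := by
      rw [← not_le, V.valuation_le_one_iff]; exact hx
    have hs1 : V.valuation s < 1 := by
      have h1 : V.valuation (s * x) ≤ 1 := (V.valuation_le_one_iff _).mpr (hBV hsx)
      rw [map_mul] at h1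
      by_contra hcon
      push Not at hcon
      have hs1 : V.valuation s = 1 := le_antisymm ((V.valuation_le_one_iff _).mpr (hBV hs)) hcon
      rw [hs1, one_mul] at h1
      exact not_le.mpr hx1 h1
    have : (⟨s, hs⟩ : ↥B) ∈ 𝔭 := hs1
    rw [h0, Ideal.mem_bot] at this
    exact hs0 (congrArg Subtype.val this)
  obtain ⟨g, hg⟩ := sqgde_prime_principal ϖ π hϖm hmax 𝔭 hϖ𝔭 h𝔭0
  have hg𝔭 : g ∈ 𝔭 := by rw [hg]; exact Ideal.subset_span rfl
  have hg0 : g ≠ 0 := by
    rintro rfl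
    apply h𝔭0
    rw [hg]; simp
  have hgm : g ∈ maximalIdeal ↥B :=
    IsLocalRing.le_maximalIdeal (sqgdeCentre_isPrime B V hBV).ne_top hg𝔭
  have hunit : ∀ a : ↥B, a ∉ Ideal.span {g} → V.valuation (a : F) = 1 := by
    intro a ha
    rw [← hg] at ha
    exact le_antisymm (hle1 a) (not_lt.mp ha)
  refine ⟨g, g.2, fun h => hg0 (Subtype.ext h), hg𝔭, ?_⟩
  intro x hx0
  obtain ⟨s, hs, hs0, hsx⟩ := hfrac x
  have hs0' : (⟨s, hs⟩ : ↥B) ≠ 0 := fun h => hs0 (congrArg Subtype.val h)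
  have hp0' : (⟨s * x, hsx⟩ : ↥B) ≠ 0 := fun h => mul_ne_zero hs0 hx0 (congrArg Subtype.val h)
  obtain ⟨i, a, hia, ha⟩ := sqgde_factor g hgm _ hp0'
  obtain ⟨j, b, hjb, hb⟩ := sqgde_factor g hgm _ hs0'
  refine ⟨i, j, a, b, a.2, b.2, hunit a ha, hunit b hb, ?_⟩
  have e1 : s * x = (g : F) ^ i * (a : F) := by
    have := congrArg (fun z : ↥B => (z : F)) hia
    simpa using this
  have e2 : s = (g : F) ^ j * (b : F) := by
    have := congrArg (fun z : ↥B => (z : F)) hjb
    simpa using this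
  rw [← e2, ← e1]; ring

/-- quotient rule inside a valuation ring. -/
theorem sqgde_quot_mem (V : ValuationSubring F) (d : F →+ F)
    (hL : ∀ u v : F, d (u * v) = d u * v + u * d v) {p b : F} (hp : p ∈ V) (hdp : d p ∈ V)
    (hdb : d b ∈ V) (hb : V.valuation b = 1) : d (p * b⁻¹) ∈ V := by
  have hb0 : b ≠ 0 := by
    rintro rfl
    rw [map_zero] at hb
    exact zero_ne_one hb
  have hbinv : b⁻¹ ∈ V := by
    rw [← V.valuation_le_one_iff, map_inv₀, hb, inv_one]
  have h1 : d p = d (p * b⁻¹) * b + p * b⁻¹ * d b := by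
    rw [← hL, mul_assoc, inv_mul_cancel₀ hb0, mul_one]
  have h2 : d (p * b⁻¹) = (d p - p * b⁻¹ * d b) * b⁻¹ := by
    rw [h1]; field_simp; ring
  rw [h2]
  exact mul_mem (sub_mem hdp (mul_mem (mul_mem hp hbinv) hdb)) hbinv

/-- **a derivation preserving `B` preserves every valuation ring `V ⊇ B` in which `ϖ` is a unit, and
an element `h ∈ 𝔪_V` whose derivative is a unit of `V` is a uniformiser of `V`.** -/
theorem sqgde_val_stable (B : Subring F) [IsLocalRing ↥B] [IsNoetherianRing ↥B]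
    (ϖ π : ↥B) (hϖm : ϖ ∈ maximalIdeal ↥B) (hmax : maximalIdeal ↥B = Ideal.span {ϖ, π})
    (hfrac : ∀ x : F, ∃ s ∈ B, s ≠ 0 ∧ s * x ∈ B)
    (V : ValuationSubring F) (hBV : B ≤ V.toSubring) (hϖV : V.valuation (ϖ : F) = 1)
    (hVtop : V ≠ ⊤)
    (d : F →+ F) (hL : ∀ u v : F, d (u * v) = d u * v + u * d v) (hdB : ∀ x ∈ B, d x ∈ B) :
    (∀ x ∈ V, d x ∈ V) ∧
    (∀ h : F, V.valuation h < 1 → V.valuation (d h) = 1 →
       ∀ x : F, V.valuation x < 1 → V.valuation x ≤ V.valuation h) := by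
  obtain ⟨g, hgB, hg0, hg1, hstr⟩ := sqgde_val_struct B ϖ π hϖm hmax hfrac V hBV hϖV hVtop
  have hvg0 : V.valuation g ≠ 0 := (Valuation.ne_zero_iff _).mpr hg0
  have hvgpos : 0 < V.valuation g := zero_lt_iff.mpr hvg0
  have hBV' : ∀ x ∈ B, x ∈ V := fun x hx => hBV hx
  -- the exponent comparison
  have hexp : ∀ (x : F) (i j : ℕ) (a b : F), V.valuation a = 1 → V.valuation b = 1 →
      x * (g ^ j * b) = g ^ i * a → V.valuation x * V.valuation g ^ j = V.valuation g ^ i := by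
    intro x i j a b ha hb hx
    have := congrArg V.valuation hx
    rwa [map_mul, map_mul, map_mul, map_pow, map_pow, ha, hb, mul_one, mul_one] at this
  -- every `x ∈ V` is `p / b`
  have hloc : ∀ x ∈ V, ∃ p b : F, p ∈ B ∧ b ∈ B ∧ V.valuation b = 1 ∧ x = p * b⁻¹ := by
    intro x hx
    by_cases hx0 : x = 0
    · exact ⟨0, 1, B.zero_mem, B.one_mem, map_one _, by rw [hx0, zero_mul]⟩
    obtain ⟨i, j, a, b, ha, hb, hva, hvb, hxe⟩ := hstr x hx0
    have hb0 : b ≠ 0 := by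
      rintro rfl
      rw [map_zero] at hvb
      exact zero_ne_one hvb
    have hij : j ≤ i := by
      have h1 := hexp x i j a b hva hvb hxe
      have h2 : V.valuation g ^ i ≤ V.valuation g ^ j := by
        rw [← h1]
        exact mul_le_of_le_one_left' ((V.valuation_le_one_iff _).mpr hx)
      exact (pow_le_pow_iff_right_of_lt_one₀ hvgpos hg1).mp h2
    refine ⟨g ^ (i - j) * a, b, B.mul_mem (B.pow_mem hgB _) ha, hb, hvb, ?_⟩
    have hgj : g ^ j ≠ 0 := pow_ne_zero _ hg0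
    have e : g ^ i = g ^ (i - j) * g ^ j := by rw [← pow_add, Nat.sub_add_cancel hij]
    rw [e] at hxe
    have h3 : x * b = g ^ (i - j) * a := by
      apply mul_right_cancel₀ hgj
      linear_combination hxe
    rw [eq_mul_inv_iff_mul_eq₀ hb0]; exact h3
  have hstab : ∀ x ∈ V, d x ∈ V := by
    intro x hx
    obtain ⟨p, b, hp, hb, hvb, rfl⟩ := hloc x hx
    exact sqgde_quot_mem V d hL (hBV' p hp) (hBV' _ (hdB p hp)) (hBV' _ (hdB b hb)) hvb
  refine ⟨hstab, ?_⟩
  -- `𝔪_V = g V`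
  have hmax : ∀ x : F, V.valuation x < 1 → V.valuation x ≤ V.valuation g ∧
      (V.valuation x < V.valuation g → ∃ y ∈ V, x = g * (g * y)) := by
    intro x hx
    by_cases hx0 : x = 0
    · rw [hx0, map_zero]
      exact ⟨zero_le, fun _ => ⟨0, V.zero_mem, by ring⟩⟩
    obtain ⟨i, j, a, b, ha, hb, hva, hvb, hxe⟩ := hstr x hx0
    have h1 := hexp x i j a b hva hvb hxe
    have hb0 : b ≠ 0 := by
      rintro rfl
      rw [map_zero] at hvb
      exact zero_ne_one hvb
    have hji : j < i := by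
      have h2 : V.valuation g ^ i < V.valuation g ^ j := by
        rw [← h1]
        exact mul_lt_of_lt_one_left (pow_pos hvgpos j) hx
      exact (pow_lt_pow_iff_right_of_lt_one₀ hvgpos hg1).mp h2
    have hvx : V.valuation x = V.valuation g ^ (i - j) := by
      have e : V.valuation g ^ i = V.valuation g ^ (i - j) * V.valuation g ^ j := by
        rw [← pow_add, Nat.sub_add_cancel hji.le]
      rw [e] at h1
      exact mul_right_cancel₀ (pow_ne_zero _ hvg0) h1
    refine ⟨?_, ?_⟩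
    · rw [hvx]
      calc V.valuation g ^ (i - j) ≤ V.valuation g ^ 1 :=
            (pow_le_pow_iff_right_of_lt_one₀ hvgpos hg1).mpr (by omega)
        _ = V.valuation g := pow_one _
    · intro hlt
      have h2 : 2 ≤ i - j := by
        by_contra hcon
        have : i - j = 1 := by omega
        rw [hvx, this, pow_one] at hlt
        exact lt_irrefl _ hlt
      refine ⟨g ^ (i - j - 2) * a * b⁻¹, ?_, ?_⟩
      · have hbinv : b⁻¹ ∈ V := by
          rw [← V.valuation_le_one_iff, map_inv₀, hvb, inv_one]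
        exact V.mul_mem _ _ (V.mul_mem _ _ (V.pow_mem (hBV' g hgB) _) (hBV' a ha)) hbinv
      · have hgj : g ^ j ≠ 0 := pow_ne_zero _ hg0
        have e : g ^ i = g * (g * g ^ (i - j - 2)) * g ^ j := by
          rw [← pow_succ', ← pow_succ', ← pow_add]
          congr 1; omega
        rw [e] at hxe
        have h3 : x * b = g * (g * g ^ (i - j - 2)) * a := by
          apply mul_right_cancel₀ hgj
          linear_combination hxe
        have h4 : g * (g * (g ^ (i - j - 2) * a * b⁻¹)) = (g * (g * g ^ (i - j - 2)) * a) * b⁻¹ := by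
          ring
        rw [h4, eq_mul_inv_iff_mul_eq₀ hb0]; exact h3
  intro h hh hdh x hx
  have hhg : V.valuation h = V.valuation g := by
    refine le_antisymm (hmax h hh).1 ?_
    by_contra hcon
    push Not at hcon
    obtain ⟨y, hy, rfl⟩ := (hmax h hh).2 hcon
    have hgV : g ∈ V := hBV' g hgB
    have hdg : d g ∈ V := hBV' _ (hdB g hgB)
    have e : d (g * (g * y)) = g * (d g * y + (d g * y + g * d y)) := by
      rw [hL, hL]; ring
    have h1 : V.valuation (d (g * (g * y))) ≤ V.valuation g := by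
      rw [e, map_mul]
      refine mul_le_of_le_one_right' ((V.valuation_le_one_iff _).mpr ?_)
      exact add_mem (mul_mem hdg hy) (add_mem (mul_mem hdg hy) (mul_mem hgV (hstab y hy)))
    rw [hdh] at h1
    exact not_le.mpr hg1 h1
  rw [hhg]
  exact (hmax x hx).1

end Val

end Fermat.Agent.SQ
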