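/-
Program Q (S36), risk R1, piece (DER) (helper13) : corollaries (i), (ii) of `sqgde_loc_stable`.

Setting of `SQ/Germ/Deriv.lean` : `𝔰` a prime of `P = s18tInt A t` with `𝔰 P_𝔰 = (ϖ, π)`, residue
field `A / ϖ`, `∂` an `A`-derivation of `F` with `∂π = 1`.  For every valuation ring `V ⊇ P` of
`F / L` centred in `𝔰` (a "horizontal place through `𝔰`") :

* `sqgde_place_stable` : (i)  `∂ V ⊆ V`;
* `sqgde_unram`        : (ii) `π` is an UNRAMIFIED COORDINATE at `V` : the monic irreducible `m ∈ L[X]`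
  with `m(π) ∈ 𝔪_V` (minimal polynomial of the residue value of `π`) has `m(π)` a uniformiser of `V`
  (helper19's literal (ET) shape);
* `sqgde_unram_ord`    : the same for `R : Place L F`, `SsCentredAt t 𝔰 R` :
  `R.ord (m(π)) = 1 ∧ R.ord (∂ (m(π))) = 0`.
-/
import Mathlib
import Fermat.Agent.SS.Loc.Unif
import Fermat.Agent.S24.PlacesPrincipal
import Fermat.Agent.SQ.Germ.Deriv
import Fermat.Agent.SQ.Germ.DerivVal

set_option autoImplicit false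
set_option linter.unusedSectionVars false
set_option linter.unusedVariables false

noncomputable section

namespace Fermat.Agent.SQ

open Polynomial IntermediateField Fermat.Agent.S18 Fermat.Agent.SS IsLocalRing AlgebraicCurve

universe u

variable {A : Type*} [CommRing A] [IsDomain A] [IsDiscreteValuationRing A] [CharZero A]
variable {L : Type*} [Field L] [Algebra A L] [IsFractionRing A L]
variable {F : Type u} [Field F] [Algebra A F] [Algebra L F] [IsScalarTower A L F]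
variable {ϖ : A}

/-- an `A`-derivation of `F` kills `L = Frac A`. -/
theorem sqgde_map_algebraMapL (D : Derivation A F F) (c : L) : D (algebraMap L F c) = 0 := by
  obtain ⟨a, b, hb, rfl⟩ := IsFractionRing.div_surjective (A := A) c
  rw [map_div₀, div_eq_mul_inv, D.leibniz, ← IsScalarTower.algebraMap_apply A L F,
    ← IsScalarTower.algebraMap_apply A L F, D.map_algebraMap,
    sqgde_inv_const D (D.map_algebraMap b), smul_zero, smul_zero, add_zero]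

/-- an `A`-derivation of `F` as an `L`-derivation. -/
def sqgdeDerL (D : Derivation A F F) : Derivation L F F :=
  Derivation.mk'
    { toFun := D
      map_add' := D.map_add
      map_smul' := fun c x => by
        rw [Algebra.smul_def, D.leibniz, sqgde_map_algebraMapL (L := L) D c, smul_zero, add_zero,
          RingHom.id_apply, smul_eq_mul, Algebra.smul_def] }
    (fun a b => D.leibniz a b)

@[simp] theorem sqgdeDerL_apply (D : Derivation A F F) (x : F) : sqgdeDerL (L := L) D x = D x := rfl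

/-- an element `y` with `∂y ≠ 0` is transcendental over `L`. -/
theorem sqgde_transcendental (D : Derivation A F F) {y : F} (hy : D y ≠ 0) :
    Transcendental L y := by
  have : CharZero L := charZero_of_injective_algebraMap (IsFractionRing.injective A L)
  intro halg
  have hint : IsIntegral L y := halg.isIntegral
  have hirr := minpoly.irreducible hint
  have h0 : D (aeval y (minpoly L y)) = 0 := by rw [minpoly.aeval, map_zero]
  have h1 := (sqgdeDerL (L := L) D).map_aeval (minpoly L y) y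
  rw [sqgdeDerL_apply, sqgdeDerL_apply, smul_eq_mul, h0] at h1
  have h3 : aeval y (derivative (minpoly L y)) = 0 :=
    (mul_eq_zero.mp h1.symm).resolve_right hy
  have h2 : minpoly L y ∣ derivative (minpoly L y) := minpoly.dvd L y h3
  exact hirr.not_isUnit (hirr.separable.isUnit_of_dvd' dvd_rfl h2)

/-- the maximal ideal of `P_𝔰` is `(ϖ, π)`. -/
theorem sqgde_maximalIdeal_eq (t : F) (𝔰 : Ideal ↥(s18tInt A t)) [h𝔰 : 𝔰.IsPrime]
    (hϖ𝔰 : sskPi ϖ t ∈ 𝔰) (π : ↥(s18tInt A t)) (hπ𝔰 : π ∈ 𝔰)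
    (hgen : ∀ x ∈ 𝔰, ∃ s : ↥(s18tInt A t), s ∉ 𝔰 ∧ ∃ a b : ↥(s18tInt A t),
      s * x = a * sskPi ϖ t + b * π) :
    maximalIdeal ↥(ssLocRing t 𝔰) =
      Ideal.span {(⟨algebraMap A F ϖ, ssl_int_le_locRing t 𝔰 (sskPi ϖ t).2⟩ : ↥(ssLocRing t 𝔰)),
        (⟨(π : F), ssl_int_le_locRing t 𝔰 π.2⟩ : ↥(ssLocRing t 𝔰))} := by
  have h1𝔰 : (1 : ↥(s18tInt A t)) ∉ 𝔰 := fun h => h𝔰.ne_top ((Ideal.eq_top_iff_one _).mpr h)
  apply le_antisymm
  · intro y hy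
    obtain ⟨f₁, f₂, hf₁, hf₂, hdec⟩ :=
      sqgde_max_decomp t 𝔰 π hgen ((ssl_mem_maximalIdeal t 𝔰 y).mp hy)
    rw [Ideal.mem_span_pair]
    refine ⟨⟨f₁, hf₁⟩, ⟨f₂, hf₂⟩, Subtype.ext ?_⟩
    show f₁ * algebraMap A F ϖ + f₂ * (π : F) = (y : F)
    rw [hdec]; ring
  · rw [Ideal.span_le]
    rintro x (rfl | rfl)
    · exact (ssl_mem_maximalIdeal t 𝔰 _).mpr ⟨1, h1𝔰, sskPi ϖ t, hϖ𝔰, by
        rw [OneMemClass.coe_one, one_mul]; rfl⟩
    · exact (ssl_mem_maximalIdeal t 𝔰 _).mpr ⟨1, h1𝔰, π, hπ𝔰, by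
        rw [OneMemClass.coe_one, one_mul]⟩

/-- **(DER)(i) + uniformiser criterion, general form** (`∂ (P_𝔰) ⊆ P_𝔰` as a hypothesis) : `∂`
preserves every valuation ring `V ⊇ P` of `F / L` centred in `𝔰`, and an element of `𝔪_V` whose
derivative is a unit of `V` is a uniformiser. -/
theorem sqgde_place_stable_gen (hϖ0 : ϖ ≠ 0) (t : F) (ht : Transcendental L t)
    [FiniteDimensional L⟮t⟯ F]
    (𝔰 : Ideal ↥(s18tInt A t)) [h𝔰 : 𝔰.IsPrime] (hϖ𝔰 : sskPi ϖ t ∈ 𝔰)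
    (π : ↥(s18tInt A t)) (hπ𝔰 : π ∈ 𝔰)
    (hgen : ∀ x ∈ 𝔰, ∃ s : ↥(s18tInt A t), s ∉ 𝔰 ∧ ∃ a b : ↥(s18tInt A t),
      s * x = a * sskPi ϖ t + b * π)
    (D : Derivation A F F) (hdB : ∀ y : F, SsnfInLoc t 𝔰 y → SsnfInLoc t 𝔰 (D y))
    (V : ValuationSubring F) (hV : S18IsPlace L V) (hPV : s18tInt A t ≤ V.toSubring)
    (hc : sskCentre t V ⊆ (𝔰 : Set ↥(s18tInt A t))) :
    (∀ x ∈ V, D x ∈ V) ∧
    (∀ h : F, V.valuation h < 1 → V.valuation (D h) = 1 → S18IsUnif V h) := by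
  have : IsNoetherianRing ↥(s18tInt A t) := sskr_isNoetherianRing (A := A) (L := L) t ht
  have : IsNoetherianRing ↥(ssLocRing t 𝔰) :=
    IsLocalization.isNoetherianRing 𝔰.primeCompl ↥(ssLocRing t 𝔰) inferInstance
  have hcen : SsCentred t 𝔰 V :=
    ⟨hPV, fun p hp => hc ((ValuationSubring.mem_nonunits_iff_exists_mem_maximalIdeal).mpr
      ⟨hPV p.2, (V.valuation_lt_one_iff _).mpr hp⟩)⟩
  have hBV : ssLocRing t 𝔰 ≤ V.toSubring := ssl_locRing_le t 𝔰 hcen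
  have hfrac : ∀ x : F, ∃ s ∈ ssLocRing t 𝔰, s ≠ 0 ∧ s * x ∈ ssLocRing t 𝔰 := by
    intro x
    obtain ⟨s, hs, hs0, hsx⟩ := sqgde_den (A := A) (L := L) t ht x
    exact ⟨s, ssl_int_le_locRing t 𝔰 hs, hs0, ssl_int_le_locRing t 𝔰 hsx⟩
  have hmain := sqgde_val_stable (ssLocRing t 𝔰) _ _
    ((ssl_mem_maximalIdeal t 𝔰 _).mpr ⟨1,
      fun h => h𝔰.ne_top ((Ideal.eq_top_iff_one _).mpr h), sskPi ϖ t, hϖ𝔰, by
        rw [OneMemClass.coe_one, one_mul]; rfl⟩)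
    (sqgde_maximalIdeal_eq t 𝔰 hϖ𝔰 π hπ𝔰 hgen) hfrac V hBV (ssl_val_constA hV hϖ0) hV.1
    (sqgdeAdd D) (sqgdeAdd_leibniz D) (fun x hx => hdB x hx)
  exact ⟨hmain.1, fun h hh hdh => ⟨hh, fun x hx => hmain.2 h hh hdh x hx⟩⟩

/-- **(DER)(i) + uniformiser criterion** at a residue-rational `𝔰` with `∂π = 1`. -/
theorem sqgde_place_stable (hϖ0 : ϖ ≠ 0) (t : F) (ht : Transcendental L t)
    [FiniteDimensional L⟮t⟯ F]
    (𝔰 : Ideal ↥(s18tInt A t)) [h𝔰 : 𝔰.IsPrime] (hϖ𝔰 : sskPi ϖ t ∈ 𝔰)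
    (π : ↥(s18tInt A t)) (hπ𝔰 : π ∈ 𝔰)
    (hgen : ∀ x ∈ 𝔰, ∃ s : ↥(s18tInt A t), s ∉ 𝔰 ∧ ∃ a b : ↥(s18tInt A t),
      s * x = a * sskPi ϖ t + b * π)
    (hk : ∀ p : ↥(s18tInt A t), ∃ a : A,
      p - ⟨algebraMap A F a, s18tc_algebraMap_mem_int t a⟩ ∈ 𝔰)
    (D : Derivation A F F) (hDπ : D (π : F) = 1)
    (V : ValuationSubring F) (hV : S18IsPlace L V) (hPV : s18tInt A t ≤ V.toSubring)
    (hc : sskCentre t V ⊆ (𝔰 : Set ↥(s18tInt A t))) :
    (∀ x ∈ V, D x ∈ V) ∧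
    (∀ h : F, V.valuation h < 1 → V.valuation (D h) = 1 → S18IsUnif V h) :=
  sqgde_place_stable_gen (L := L) hϖ0 t ht 𝔰 hϖ𝔰 π hπ𝔰 hgen D
    (fun y hy => sqgde_loc_stable (L := L) t ht 𝔰 hϖ𝔰 π hπ𝔰 hgen hk D hDπ hy) V hV hPV hc

/-- the residue value of an element `y ∈ V` at a place `V` of `F / L` is algebraic over `L` :
some nonzero polynomial over `L` maps `y` into `𝔪_V`. -/
theorem sqgde_exists_poly (t : F) (ht : Transcendental L t) [FiniteDimensional L⟮t⟯ F]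
    (V : ValuationSubring F) (hV : S18IsPlace L V) (y : F) (hy : y ∈ V) :
    ∃ g : L[X], g ≠ 0 ∧ V.valuation (aeval y g) < 1 := by
  by_cases halg : IsAlgebraic L y
  · obtain ⟨g, hg0, hg⟩ := halg
    exact ⟨g, hg0, by rw [hg, map_zero]; exact zero_lt_one⟩
  by_contra hcon
  push Not at hcon
  apply hV.1
  -- `L(y) ⊆ V`
  have hpoly : ∀ g : L[X], aeval y g ∈ V := by
    intro g
    induction g using Polynomial.induction_on' with
    | add p q hp hq => rw [map_add]; exact add_mem hp hq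
    | monomial n a =>
      rw [aeval_monomial]
      exact mul_mem (hV.2 a) (pow_mem hy n)
  have hunit : ∀ g : L[X], g ≠ 0 → (aeval y g)⁻¹ ∈ V := by
    intro g hg
    have h1 : V.valuation (aeval y g) = 1 :=
      le_antisymm ((V.valuation_le_one_iff _).mpr (hpoly g)) (hcon g hg)
    rw [← V.valuation_le_one_iff, map_inv₀, h1, inv_one]
  have hadj : ∀ z ∈ L⟮y⟯, z ∈ V := by
    intro z hz
    obtain ⟨r, s, rfl⟩ := (IntermediateField.mem_adjoin_simple_iff L z).mp hz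
    by_cases hs : s = 0
    · rw [hs, map_zero, div_zero]; exact V.zero_mem
    · rw [div_eq_mul_inv]
      exact mul_mem (hpoly r) (hunit s hs)
  have : Algebra.IsAlgebraic L⟮t⟯ F := Algebra.IsAlgebraic.of_finite _ _
  have : Algebra.IsAlgebraic L⟮y⟯ F :=
    Fermat.Agent.S24.pp_isAlgebraic_of_transcendental t halg
  rw [eq_top_iff]
  intro x _
  have hint : IsIntegral L⟮y⟯ x := (Algebra.IsAlgebraic.isAlgebraic (R := L⟮y⟯) x).isIntegral
  obtain ⟨p, hp, hpx⟩ := hint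
  -- `x` is integral over `V`
  have hxV : IsIntegral V x := by
    let φ : L⟮y⟯ →+* V := (algebraMap L⟮y⟯ F).codRestrict V.toSubring (fun z => hadj z z.2)
    refine ⟨p.map φ, hp.map φ, ?_⟩
    rw [eval₂_map]
    have : (algebraMap V F).comp φ = algebraMap L⟮y⟯ F := by
      ext z; rfl
    rw [this]; exact hpx
  have := (isIntegrallyClosed_iff F).mp (inferInstance : IsIntegrallyClosed V) hxV
  obtain ⟨z, rfl⟩ := this
  exact z.2

/-- **(DER)(ii), general form** : if `∂ (P_𝔰) ⊆ P_𝔰` and `∂π` is a unit of `V`, then `π` is an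
unramified coordinate at the valuation ring `V ⊇ P` of `F / L` centred in `𝔰`. -/
theorem sqgde_unram_gen (hϖ0 : ϖ ≠ 0) (t : F) (ht : Transcendental L t)
    [FiniteDimensional L⟮t⟯ F]
    (𝔰 : Ideal ↥(s18tInt A t)) [h𝔰 : 𝔰.IsPrime] (hϖ𝔰 : sskPi ϖ t ∈ 𝔰)
    (π : ↥(s18tInt A t)) (hπ𝔰 : π ∈ 𝔰)
    (hgen : ∀ x ∈ 𝔰, ∃ s : ↥(s18tInt A t), s ∉ 𝔰 ∧ ∃ a b : ↥(s18tInt A t),
      s * x = a * sskPi ϖ t + b * π)
    (D : Derivation A F F) (hdB : ∀ y : F, SsnfInLoc t 𝔰 y → SsnfInLoc t 𝔰 (D y))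
    (V : ValuationSubring F) (hV : S18IsPlace L V) (hPV : s18tInt A t ≤ V.toSubring)
    (hc : sskCentre t V ⊆ (𝔰 : Set ↥(s18tInt A t)))
    (y : F) (hyV : y ∈ V) (hDy : V.valuation (D y) = 1) :
    ∃ m : L[X], m.Monic ∧ Irreducible m ∧ S18IsUnif V (aeval y m) ∧
      V.valuation (D (aeval y m)) = 1 ∧
      ∀ g : L[X], V.valuation (aeval y g) < 1 ↔ m ∣ g := by
  classical
  have : CharZero L := charZero_of_injective_algebraMap (IsFractionRing.injective A L)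
  obtain ⟨hstab, hunif⟩ := sqgde_place_stable_gen (L := L) hϖ0 t ht 𝔰 hϖ𝔰 π hπ𝔰 hgen D hdB V hV
    hPV hc
  have hpoly : ∀ g : L[X], aeval y g ∈ V := by
    intro g
    induction g using Polynomial.induction_on' with
    | add p q hp hq => rw [map_add]; exact add_mem hp hq
    | monomial n a =>
      rw [aeval_monomial]
      exact mul_mem (hV.2 a) (pow_mem hyV n)
  have hle1 : ∀ g : L[X], V.valuation (aeval y g) ≤ 1 := fun g =>
    (V.valuation_le_one_iff _).mpr (hpoly g)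
  -- the ideal of polynomials vanishing at the residue value of `y`
  let I : Ideal L[X] :=
    { carrier := {g | V.valuation (aeval y g) < 1}
      add_mem' := by
        intro a b ha hb
        show V.valuation (aeval y (a + b)) < 1
        rw [map_add]
        exact lt_of_le_of_lt (V.valuation.map_add _ _) (max_lt ha hb)
      zero_mem' := by
        show V.valuation (aeval y (0 : L[X])) < 1
        rw [map_zero, map_zero]; exact zero_lt_one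
      smul_mem' := by
        intro c a ha
        show V.valuation (aeval y (c * a)) < 1
        rw [map_mul, map_mul]
        exact lt_of_le_of_lt (mul_le_of_le_one_left' (hle1 c)) ha }
  have hImem : ∀ g : L[X], g ∈ I ↔ V.valuation (aeval y g) < 1 := fun g => Iff.rfl
  have hIprime : I.IsPrime := by
    refine ⟨fun h => ?_, fun {a b} hab => ?_⟩
    · have h1 : (1 : L[X]) ∈ I := h ▸ Submodule.mem_top
      rw [hImem, map_one, map_one] at h1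
      exact lt_irrefl _ h1
    · rw [hImem, map_mul, map_mul] at hab
      rw [hImem, hImem]
      by_contra hcon
      push Not at hcon
      rw [le_antisymm (hle1 a) hcon.1, le_antisymm (hle1 b) hcon.2, one_mul] at hab
      exact lt_irrefl _ hab
  obtain ⟨g₀, hg₀0, hg₀⟩ := sqgde_exists_poly t ht V hV y hyV
  have hI0 : I ≠ ⊥ := fun h => hg₀0 (by
    have : g₀ ∈ I := hg₀
    rwa [h, Ideal.mem_bot] at this)
  obtain ⟨m₀, hm₀⟩ := (IsPrincipalIdealRing.principal I).principal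
  have hIspan : I = Ideal.span {m₀} := hm₀
  have hm₀0 : m₀ ≠ 0 := by
    rintro rfl
    apply hI0
    rw [hIspan]; simp
  -- normalise to a monic generator
  set m : L[X] := m₀ * C (m₀.leadingCoeff)⁻¹ with hm
  have hmmonic : m.Monic := monic_mul_leadingCoeff_inv hm₀0
  have hlc : m₀.leadingCoeff ≠ 0 := leadingCoeff_ne_zero.mpr hm₀0
  have hassoc : Associated m₀ m :=
    ⟨⟨C (m₀.leadingCoeff)⁻¹, C m₀.leadingCoeff, by
        rw [← C_mul, inv_mul_cancel₀ hlc, C_1], by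
        rw [← C_mul, mul_inv_cancel₀ hlc, C_1]⟩, rfl⟩
  have hIspan' : I = Ideal.span {m} := by
    rw [hIspan]; exact Ideal.span_singleton_eq_span_singleton.mpr hassoc
  have hmprime : Prime m := by
    rw [← Ideal.span_singleton_prime hmmonic.ne_zero, ← hIspan']; exact hIprime
  have hmirr : Irreducible m := hmprime.irreducible
  have hdvd : ∀ g : L[X], V.valuation (aeval y g) < 1 ↔ m ∣ g := by
    intro g
    rw [← hImem, hIspan', Ideal.mem_span_singleton]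
  have hm1 : V.valuation (aeval y m) < 1 := (hdvd m).mpr dvd_rfl
  -- the derivative of `m(y)` is a unit of `V`
  have hDm : D (aeval y m) = aeval y (derivative m) * D y := by
    have := (sqgdeDerL (L := L) D).map_aeval m y
    rw [sqgdeDerL_apply, sqgdeDerL_apply, smul_eq_mul] at this
    exact this
  have hDm1 : V.valuation (D (aeval y m)) = 1 := by
    rw [hDm, map_mul, hDy, mul_one]
    refine le_antisymm (hle1 _) (not_lt.mp fun hlt => ?_)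
    have h1 : m ∣ derivative m := (hdvd _).mp hlt
    have hsep : m.Separable := hmirr.separable
    exact hmirr.not_isUnit (hsep.isUnit_of_dvd' dvd_rfl h1)
  exact ⟨m, hmmonic, hmirr, hunif _ hm1 hDm1, hDm1, hdvd⟩

/-- **(DER)(ii), helper19's (ET) shape** : `π` is an unramified coordinate at every valuation ring
`V ⊇ P` of `F / L` centred in `𝔰` (`𝔰` residue-rational, `∂π = 1`). -/
theorem sqgde_unram (hϖ0 : ϖ ≠ 0) (t : F) (ht : Transcendental L t)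
    [FiniteDimensional L⟮t⟯ F]
    (𝔰 : Ideal ↥(s18tInt A t)) [h𝔰 : 𝔰.IsPrime] (hϖ𝔰 : sskPi ϖ t ∈ 𝔰)
    (π : ↥(s18tInt A t)) (hπ𝔰 : π ∈ 𝔰)
    (hgen : ∀ x ∈ 𝔰, ∃ s : ↥(s18tInt A t), s ∉ 𝔰 ∧ ∃ a b : ↥(s18tInt A t),
      s * x = a * sskPi ϖ t + b * π)
    (hk : ∀ p : ↥(s18tInt A t), ∃ a : A,
      p - ⟨algebraMap A F a, s18tc_algebraMap_mem_int t a⟩ ∈ 𝔰)
    (D : Derivation A F F) (hDπ : D (π : F) = 1)
    (V : ValuationSubring F) (hV : S18IsPlace L V) (hPV : s18tInt A t ≤ V.toSubring)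
    (hc : sskCentre t V ⊆ (𝔰 : Set ↥(s18tInt A t))) :
    ∃ m : L[X], m.Monic ∧ Irreducible m ∧ S18IsUnif V (aeval (π : F) m) ∧
      V.valuation (D (aeval (π : F) m)) = 1 ∧
      ∀ g : L[X], V.valuation (aeval (π : F) g) < 1 ↔ m ∣ g :=
  sqgde_unram_gen (L := L) hϖ0 t ht 𝔰 hϖ𝔰 π hπ𝔰 hgen D
    (fun y hy => sqgde_loc_stable (L := L) t ht 𝔰 hϖ𝔰 π hπ𝔰 hgen hk D hDπ hy) V hV hPV hc
    (π : F) (hPV π.2) (by rw [hDπ, map_one])

/-- a uniformiser (in the sense of `S18IsUnif`) of a place has order one. -/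
theorem sqgde_ord_of_isUnif (R : Place L F) {h : F} (hh0 : h ≠ 0)
    (hunif : S18IsUnif R.toValuationSubring h) : R.ord h = 1 := by
  obtain ⟨τ, hdisc, hordτ, hval⟩ := s18r_place_disc R
  have hτ0 : τ ≠ 0 := hdisc.1
  have hvτ0 : R.toValuationSubring.valuation τ ≠ 0 := (Valuation.ne_zero_iff _).mpr hτ0
  have h1 : R.toValuationSubring.valuation h = R.toValuationSubring.valuation τ :=
    le_antisymm (hdisc.2.1.2 _ hunif.1) (hunif.2 _ hdisc.2.1.1)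
  have h2 := hval _ hh0
  rw [h1] at h2
  have h3 : R.toValuationSubring.valuation τ ^ (1 : ℤ)
      = R.toValuationSubring.valuation τ ^ R.ord h := by
    rw [zpow_one]; exact h2
  exact (zpow_right_injective₀ (zero_lt_iff.mpr hvτ0) (ne_of_lt hdisc.2.1.1) h3).symm

/-- **(DER)(i),(ii) for `R : Place L F` centred at `𝔰`, general form.** -/
theorem sqgde_unram_ord_gen (hϖ0 : ϖ ≠ 0) (t : F) (ht : Transcendental L t)
    [FiniteDimensional L⟮t⟯ F]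
    (𝔰 : Ideal ↥(s18tInt A t)) [h𝔰 : 𝔰.IsPrime] (hϖ𝔰 : sskPi ϖ t ∈ 𝔰)
    (π : ↥(s18tInt A t)) (hπ𝔰 : π ∈ 𝔰)
    (hgen : ∀ x ∈ 𝔰, ∃ s : ↥(s18tInt A t), s ∉ 𝔰 ∧ ∃ a b : ↥(s18tInt A t),
      s * x = a * sskPi ϖ t + b * π)
    (D : Derivation A F F) (hdB : ∀ y : F, SsnfInLoc t 𝔰 y → SsnfInLoc t 𝔰 (D y))
    (R : Place L F) (hR : SsCentredAt t 𝔰 R)
    (y : F) (hyV : y ∈ R.toValuationSubring)
    (hDy : R.toValuationSubring.valuation (D y) = 1) :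
    (∀ x ∈ R.toValuationSubring, D x ∈ R.toValuationSubring) ∧
    ∃ m : L[X], m.Monic ∧ Irreducible m ∧ R.ord (aeval y m) = 1 ∧
      R.ord (D (aeval y m)) = 0 ∧
      ∀ g : L[X], g ≠ 0 → (0 < R.ord (aeval y g) ↔ m ∣ g) := by
  have hV : S18IsPlace L R.toValuationSubring := ⟨R.ne_top', R.algebraMap_mem'⟩
  obtain ⟨hstab, -⟩ := sqgde_place_stable_gen (L := L) hϖ0 t ht 𝔰 hϖ𝔰 π hπ𝔰 hgen D hdB
    R.toValuationSubring hV hR.1 hR.2
  obtain ⟨m, hmm, hmi, hunif, hDm, hdvd⟩ := sqgde_unram_gen (L := L) hϖ0 t ht 𝔰 hϖ𝔰 π hπ𝔰 hgen D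
    hdB R.toValuationSubring hV hR.1 hR.2 y hyV hDy
  have hDy0 : D y ≠ 0 := by
    intro h0
    rw [h0, map_zero] at hDy
    exact zero_ne_one hDy
  refine ⟨hstab, m, hmm, hmi, ?_, ssl_ord_of_val_one R hDm, ?_⟩
  · refine sqgde_ord_of_isUnif R ?_ hunif
    intro h0
    rw [h0, map_zero, map_zero] at hDm
    exact zero_ne_one hDm
  · intro g hg
    have hg0 : aeval y g ≠ 0 := fun h =>
      sqgde_transcendental (L := L) D hDy0 ⟨g, hg, h⟩
    rw [s18r_ord_pos_iff R _ hg0]; exact hdvd g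

/-- **(DER)(i),(ii) for `R : Place L F` centred at a residue-rational `𝔰`, `∂π = 1`** :
`R.ord (m(π)) = 1`, `R.ord (∂ (m(π))) = 0`. -/
theorem sqgde_unram_ord (hϖ0 : ϖ ≠ 0) (t : F) (ht : Transcendental L t)
    [FiniteDimensional L⟮t⟯ F]
    (𝔰 : Ideal ↥(s18tInt A t)) [h𝔰 : 𝔰.IsPrime] (hϖ𝔰 : sskPi ϖ t ∈ 𝔰)
    (π : ↥(s18tInt A t)) (hπ𝔰 : π ∈ 𝔰)
    (hgen : ∀ x ∈ 𝔰, ∃ s : ↥(s18tInt A t), s ∉ 𝔰 ∧ ∃ a b : ↥(s18tInt A t),
      s * x = a * sskPi ϖ t + b * π)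
    (hk : ∀ p : ↥(s18tInt A t), ∃ a : A,
      p - ⟨algebraMap A F a, s18tc_algebraMap_mem_int t a⟩ ∈ 𝔰)
    (D : Derivation A F F) (hDπ : D (π : F) = 1)
    (R : Place L F) (hR : SsCentredAt t 𝔰 R) :
    (∀ x ∈ R.toValuationSubring, D x ∈ R.toValuationSubring) ∧
    ∃ m : L[X], m.Monic ∧ Irreducible m ∧ R.ord (aeval (π : F) m) = 1 ∧
      R.ord (D (aeval (π : F) m)) = 0 ∧
      ∀ g : L[X], g ≠ 0 → (0 < R.ord (aeval (π : F) g) ↔ m ∣ g) :=
  sqgde_unram_ord_gen (L := L) hϖ0 t ht 𝔰 hϖ𝔰 π hπ𝔰 hgen D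
    (fun y hy => sqgde_loc_stable (L := L) t ht 𝔰 hϖ𝔰 π hπ𝔰 hgen hk D hDπ hy) R hR
    (π : F) (hR.1 π.2) (by rw [hDπ, map_one])

/-- **(DER)(i),(ii), hk-free (perfect residue field), valuation-ring form.** -/
theorem sqgde_unram_perf (hϖ0 : ϖ ≠ 0) (t : F) (ht : Transcendental L t)
    [FiniteDimensional L⟮t⟯ F]
    (𝔰 : Ideal ↥(s18tInt A t)) [h𝔰 : 𝔰.IsPrime] (hϖ𝔰 : sskPi ϖ t ∈ 𝔰)
    (π : ↥(s18tInt A t)) (hπ𝔰 : π ∈ 𝔰)
    (hgen : ∀ x ∈ 𝔰, ∃ s : ↥(s18tInt A t), s ∉ 𝔰 ∧ ∃ a b : ↥(s18tInt A t),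
      s * x = a * sskPi ϖ t + b * π)
    (q : ℕ) (hq0 : q ≠ 0) (hqϖ : ϖ ∣ (q : A))
    (hperf : ∀ p : ↥(s18tInt A t), ∃ e : ↥(s18tInt A t), p - e ^ q ∈ 𝔰)
    (D : Derivation A F F) (hDπ : D (π : F) = 1)
    (V : ValuationSubring F) (hV : S18IsPlace L V) (hPV : s18tInt A t ≤ V.toSubring)
    (hc : sskCentre t V ⊆ (𝔰 : Set ↥(s18tInt A t))) :
    (∀ x ∈ V, D x ∈ V) ∧
    ∃ m : L[X], m.Monic ∧ Irreducible m ∧ S18IsUnif V (aeval (π : F) m) ∧
      V.valuation (D (aeval (π : F) m)) = 1 ∧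
      ∀ g : L[X], V.valuation (aeval (π : F) g) < 1 ↔ m ∣ g := by
  have hdB : ∀ y : F, SsnfInLoc t 𝔰 y → SsnfInLoc t 𝔰 (D y) := fun y hy =>
    sqgde_loc_stable_perf (L := L) t ht 𝔰 hϖ𝔰 π hπ𝔰 hgen q hq0 hqϖ hperf D
      (by rw [hDπ]; exact (ssLocRing t 𝔰).one_mem) hy
  exact ⟨(sqgde_place_stable_gen (L := L) hϖ0 t ht 𝔰 hϖ𝔰 π hπ𝔰 hgen D hdB V hV hPV hc).1,
    sqgde_unram_gen (L := L) hϖ0 t ht 𝔰 hϖ𝔰 π hπ𝔰 hgen D hdB V hV hPV hc
      (π : F) (hPV π.2) (by rw [hDπ, map_one])⟩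

/-- **(DER)(i),(ii), hk-free (perfect residue field), `Place`/`ord` form.** -/
theorem sqgde_unram_ord_perf (hϖ0 : ϖ ≠ 0) (t : F) (ht : Transcendental L t)
    [FiniteDimensional L⟮t⟯ F]
    (𝔰 : Ideal ↥(s18tInt A t)) [h𝔰 : 𝔰.IsPrime] (hϖ𝔰 : sskPi ϖ t ∈ 𝔰)
    (π : ↥(s18tInt A t)) (hπ𝔰 : π ∈ 𝔰)
    (hgen : ∀ x ∈ 𝔰, ∃ s : ↥(s18tInt A t), s ∉ 𝔰 ∧ ∃ a b : ↥(s18tInt A t),
      s * x = a * sskPi ϖ t + b * π)
    (q : ℕ) (hq0 : q ≠ 0) (hqϖ : ϖ ∣ (q : A))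
    (hperf : ∀ p : ↥(s18tInt A t), ∃ e : ↥(s18tInt A t), p - e ^ q ∈ 𝔰)
    (D : Derivation A F F) (hDπ : D (π : F) = 1)
    (R : Place L F) (hR : SsCentredAt t 𝔰 R) :
    (∀ x ∈ R.toValuationSubring, D x ∈ R.toValuationSubring) ∧
    ∃ m : L[X], m.Monic ∧ Irreducible m ∧ R.ord (aeval (π : F) m) = 1 ∧
      R.ord (D (aeval (π : F) m)) = 0 ∧
      ∀ g : L[X], g ≠ 0 → (0 < R.ord (aeval (π : F) g) ↔ m ∣ g) :=
  sqgde_unram_ord_gen (L := L) hϖ0 t ht 𝔰 hϖ𝔰 π hπ𝔰 hgen D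
    (fun y hy => sqgde_loc_stable_perf (L := L) t ht 𝔰 hϖ𝔰 π hπ𝔰 hgen q hq0 hqϖ hperf D
      (by rw [hDπ]; exact (ssLocRing t 𝔰).one_mem) hy) R hR
    (π : F) (hR.1 π.2) (by rw [hDπ, map_one])

end Fermat.Agent.SQ
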