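import Mathlib
import Fermat.Agent.SS.Germ.FrobLift
import Fermat.Agent.SS.Germ.Base
import Fermat.Agent.SS.Val.ModALRes

/-!
# Program Q, R1 (T2-x), leaf (PAR⁺) : THE FROBENIUS TWIST OF A LOCAL PARAMETER

`P = s18tInt A₀ t` a chart ring of a good coordinate `t` (`S18Coord`), `red` the reduction of the
Gauss ring restricted to `P`, `Fr` an injective ring endomorphism of `k₀((q))` (the coefficientwise
Frobenius).  Let `𝔰, 𝔰'` be ideals of `P` (`𝔰 ≠ ⊤`, `𝔰'` maximal) with the TWIST relation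

  (TW)  `z ∈ 𝔰'`, `z⁻ ∈ P`, `Fr (red z⁻) = red z`  ⟹  `z⁻ ∈ 𝔰`

(`𝔰'` is the coefficient twist of `𝔰`).  If `y ∈ 𝔰` is a local parameter at `𝔰` in the
`hgen`-shape of `ssgb_exists_local_gen` and `y⁺ ∈ P` has `red y⁺ = Fr (red y)`, then `y⁺ ∈ 𝔰'` is a
local parameter at `𝔰'` in the same shape.

* `sqgppRed` : the reduction `P → k₀((q))` as a ring hom;
* `sqgpp_mem_of_red_eq_zero` : `red w = 0` ⟹ `w ∈ ϖ P` (Gauss kernel + saturation);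
* `sqgpp_plus_mem` : `y ∈ 𝔰` ⟹ `y⁺ ∈ 𝔰'`;
* `sqgpp_abs` : the statement above.
-/

set_option autoImplicit false
set_option linter.unusedSectionVars false
set_option linter.unusedVariables false
set_option linter.style.haveILetI false
set_option synthInstance.maxHeartbeats 400000

noncomputable section

namespace Fermat.Agent.SQ

open Polynomial IntermediateField ModularCurve IsLocalRing Fermat.Agent.S18 Fermat.Agent.G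
  Fermat.Agent.SS

section Abs

variable {A₀ : Type*} [CommRing A₀] [IsDomain A₀] [IsDiscreteValuationRing A₀] [CharZero A₀]
variable {L₀ : Type*} [Field L₀] [Algebra A₀ L₀] [IsFractionRing A₀ L₀]
variable {ϖ : A₀}

variable (F : IntermediateField L₀ (LaurentSeries L₀))

/-- the reduction of the Gauss ring, restricted to the chart ring `P = s18tInt A₀ t`. -/
def sqgppRed (hϖ : Irreducible ϖ) (t : F) (hcoord : S18Coord hϖ F t) :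
    ↥(s18tInt A₀ t) →+* LaurentSeries (ResidueField A₀) :=
  (ssgflRho F hϖ t hcoord).comp (grdfbIncl hϖ t)

theorem sqgppRed_apply (hϖ : Irreducible ϖ) (t : F) (hcoord : S18Coord hϖ F t)
    (b : ↥(s18tInt A₀ t)) :
    sqgppRed F hϖ t hcoord b = s18vcRed F ⟨b, ssgfl_int_le_vO F hϖ t hcoord b.2⟩ := rfl

/-- `red w = 0` for `w ∈ P` ⟹ `w = ϖ · a` with `a ∈ P` (kernel of the Gauss reduction and
saturation `P ∩ ϖ P_(ϖ) = ϖ P`). -/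
theorem sqgpp_mem_of_red_eq_zero (hϖ : Irreducible ϖ) (t : F) (hcoord : S18Coord hϖ F t)
    (ht : Transcendental L₀ t) [FiniteDimensional L₀⟮t⟯ F]
    (w : ↥(s18tInt A₀ t)) (hw : sqgppRed F hϖ t hcoord w = 0) :
    ∃ a : ↥(s18tInt A₀ t), w = a * sskPi ϖ t := by
  obtain ⟨y₀, hy₀, hwy⟩ := ssgflRho_ker F hϖ t hcoord (grdfbIncl hϖ t w) hw
  have hw' : (w : F) = algebraMap A₀ F ϖ * y₀ := hwy
  have hy₀P : y₀ ∈ s18tInt A₀ t :=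
    s18t_saturated (L := L₀) hϖ t ht y₀ hy₀ (by rw [← hw']; exact w.2)
  refine ⟨⟨y₀, hy₀P⟩, Subtype.ext ?_⟩
  show (w : F) = y₀ * algebraMap A₀ F ϖ
  rw [hw', mul_comm]

variable {F}

/-- under (TW): `y ∈ 𝔰` and `red y⁺ = Fr (red y)` ⟹ `y⁺ ∈ 𝔰'`. -/
theorem sqgpp_plus_mem (hϖ : Irreducible ϖ) (t : F) (hcoord : S18Coord hϖ F t)
    (Fr : LaurentSeries (ResidueField A₀) →+* LaurentSeries (ResidueField A₀))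
    (hminus : ∀ b : ↥(s18tInt A₀ t), ∃ b' : ↥(s18tInt A₀ t),
      Fr (sqgppRed F hϖ t hcoord b') = sqgppRed F hϖ t hcoord b)
    (𝔰 𝔰' : Ideal ↥(s18tInt A₀ t)) (h𝔰 : 𝔰 ≠ ⊤) (h𝔰' : 𝔰'.IsMaximal)
    (hTW : ∀ z ∈ 𝔰', ∀ z' : ↥(s18tInt A₀ t),
      Fr (sqgppRed F hϖ t hcoord z') = sqgppRed F hϖ t hcoord z → z' ∈ 𝔰)
    (y : ↥(s18tInt A₀ t)) (hy : y ∈ 𝔰)
    (y' : ↥(s18tInt A₀ t)) (hy' : sqgppRed F hϖ t hcoord y' = Fr (sqgppRed F hϖ t hcoord y)) :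
    y' ∈ 𝔰' := by
  by_contra hnot
  obtain ⟨c, i, hi, hc⟩ := h𝔰'.exists_inv hnot
  obtain ⟨c', hc'⟩ := hminus c
  have hc2 : c * y' - 1 ∈ 𝔰' := by
    have : c * y' - 1 = -i := by rw [← hc]; ring
    rw [this]
    exact 𝔰'.neg_mem hi
  have h1 : c' * y - 1 ∈ 𝔰 := by
    refine hTW (c * y' - 1) hc2 (c' * y - 1) ?_
    rw [map_sub, map_sub, map_mul, map_mul, map_one, map_one, map_sub, map_mul, map_one, hc', hy']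
  apply h𝔰
  rw [Ideal.eq_top_iff_one]
  have h2 : c' * y ∈ 𝔰 := 𝔰.mul_mem_left c' hy
  have h3 := 𝔰.sub_mem h2 h1
  rwa [sub_sub_cancel] at h3

/-- **(PAR⁺), ABSTRACT** : the Frobenius twist `y⁺` of a local parameter `y` at `𝔰` is a local
parameter at the twisted point `𝔰'`. -/
theorem sqgpp_abs (hϖ : Irreducible ϖ) (t : F) (hcoord : S18Coord hϖ F t)
    (ht : Transcendental L₀ t) [FiniteDimensional L₀⟮t⟯ F]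
    (Fr : LaurentSeries (ResidueField A₀) →+* LaurentSeries (ResidueField A₀))
    (hplus : ∀ b : ↥(s18tInt A₀ t), ∃ b' : ↥(s18tInt A₀ t),
      sqgppRed F hϖ t hcoord b' = Fr (sqgppRed F hϖ t hcoord b))
    (hminus : ∀ b : ↥(s18tInt A₀ t), ∃ b' : ↥(s18tInt A₀ t),
      Fr (sqgppRed F hϖ t hcoord b') = sqgppRed F hϖ t hcoord b)
    (𝔰 𝔰' : Ideal ↥(s18tInt A₀ t)) (h𝔰 : 𝔰 ≠ ⊤) (h𝔰' : 𝔰'.IsMaximal)
    (hTW : ∀ z ∈ 𝔰', ∀ z' : ↥(s18tInt A₀ t),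
      Fr (sqgppRed F hϖ t hcoord z') = sqgppRed F hϖ t hcoord z → z' ∈ 𝔰)
    (y : ↥(s18tInt A₀ t)) (hy : y ∈ 𝔰)
    (hgen : ∀ x ∈ 𝔰, ∃ s : ↥(s18tInt A₀ t), s ∉ 𝔰 ∧ ∃ a b : ↥(s18tInt A₀ t),
      s * x = a * sskPi ϖ t + b * y)
    (y' : ↥(s18tInt A₀ t)) (hy' : sqgppRed F hϖ t hcoord y' = Fr (sqgppRed F hϖ t hcoord y)) :
    y' ∈ 𝔰' ∧ ∀ x ∈ 𝔰', ∃ s : ↥(s18tInt A₀ t), s ∉ 𝔰' ∧ ∃ a b : ↥(s18tInt A₀ t),
      s * x = a * sskPi ϖ t + b * y' := by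
  refine ⟨sqgpp_plus_mem hϖ t hcoord Fr hminus 𝔰 𝔰' h𝔰 h𝔰' hTW y hy y' hy', fun z hz => ?_⟩
  obtain ⟨z', hz'⟩ := hminus z
  have hz'𝔰 : z' ∈ 𝔰 := hTW z hz z' hz'
  obtain ⟨s, hs, a, b, hsab⟩ := hgen z' hz'𝔰
  obtain ⟨s', hs'⟩ := hplus s
  obtain ⟨b', hb'⟩ := hplus b
  have hs'𝔰' : s' ∉ 𝔰' := fun h => hs (hTW s' h s hs'.symm)
  have hπ : sqgppRed F hϖ t hcoord (sskPi ϖ t) = 0 := ssgflRho_unif F hϖ t hcoord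
  have hred : sqgppRed F hϖ t hcoord (s' * z - b' * y') = 0 := by
    rw [map_sub, map_mul, map_mul, hs', hb', hy', ← hz', ← map_mul, ← map_mul, ← map_mul,
      ← map_mul, hsab, map_add, map_mul, map_mul, hπ, mul_zero, zero_add, map_mul, sub_self]
  obtain ⟨a', ha'⟩ := sqgpp_mem_of_red_eq_zero F hϖ t hcoord ht _ hred
  refine ⟨s', hs'𝔰', a', b', ?_⟩
  rw [← ha']
  ring

end Abs

/-! ### The twist relation (TW) on the modular tower, at a point of `W₁` -/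

section Modular

local notation "Qb" => AlgebraicClosure ℚ

/-- a prime is nonzero (local instance, proof-irrelevant) -/
theorem sqgpp_neZero (q : ℕ) [Fact q.Prime] : NeZero q := ⟨(Fact.out : q.Prime).ne_zero⟩

attribute [local instance] sqgpp_neZero

variable {q : ℕ} [Fact q.Prime] (𝔸 : ValuationSubring Qb) (E : IntermediateField ℚ Qb)
  [IsDiscreteValuationRing ↥(s18dVal 𝔸 E)] [CharZero ↥(s18dVal 𝔸 E)]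
variable (M : ℕ) [NeZero M]

set_option maxHeartbeats 1000000 in
/-- **(TW) at a point of `W₁`** : `𝔫₁` a prime of the level-`Mq` chart ring `P₁` lying on
`W₁ = h.V₁` (`P₁ ∩ 𝔪_{W₁} ⊆ 𝔫₁`); `a, f : P₀ → P₁` the restrictions of `α₁ = ssvmdIncl`,
`φ₁ = ssvmfPhi`.  If `φ₁ z ∈ 𝔫₁` and `Fr (red z⁻) = red z` then `α₁ z⁻ ∈ 𝔫₁`
(`(α₁ z⁻)^q ≡ φ₁ z mod 𝔪_{W₁}`, `ssvmar_frob₁`). -/
theorem sqgpp_tw [CharP (ResidueField ↥(s18dVal 𝔸 E)) q] (hA : 𝔸.LiesOverPrime q) (hqM : ¬ q ∣ M) {ϖ : ↥(s18dVal 𝔸 E)}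
    (hϖ : Irreducible ϖ) (Ξ G : (↥(ssvmmR 𝔸 E M q))[X])
    (h : SsvAmb (ssvmmR 𝔸 E M q) (ssvmgRUnif (ssvmm_le E M q) ϖ) (ssvmmY E M q) Ξ
        (X - C (ssvmmJ 𝔸 E M q ^ q)) (X ^ q - C (ssvmmJ 𝔸 E M q)) G)
    (t₀ : ↥(modularFunctionFieldFullC E M))
    (hcoord : S18Coord hϖ (modularFunctionFieldFullC E M) t₀)
    (t₁ : ↥(modularFunctionFieldFullC E (M * q)))
    (a f : ↥(s18tInt ↥(s18dVal 𝔸 E) t₀) →+* ↥(s18tInt ↥(s18dVal 𝔸 E) t₁))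
    (ha : ∀ x : ↥(s18tInt ↥(s18dVal 𝔸 E) t₀),
      ((a x : ↥(s18tInt ↥(s18dVal 𝔸 E) t₁)) : ↥(modularFunctionFieldFullC E (M * q))) =
        ssvmdIncl E M q (x : ↥(modularFunctionFieldFullC E M)))
    (hf : ∀ x : ↥(s18tInt ↥(s18dVal 𝔸 E) t₀),
      ((f x : ↥(s18tInt ↥(s18dVal 𝔸 E) t₁)) : ↥(modularFunctionFieldFullC E (M * q))) =
        ssvmfPhi E M q (x : ↥(modularFunctionFieldFullC E M)))
    (𝔫₁ : Ideal ↥(s18tInt ↥(s18dVal 𝔸 E) t₁)) (h𝔫₁ : 𝔫₁.IsPrime)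
    (hon : ∀ p : ↥(s18tInt ↥(s18dVal 𝔸 E) t₁),
      (p : ↥(modularFunctionFieldFullC E (M * q))) ∈ h.V₁.nonunits → p ∈ 𝔫₁) :
    ∀ z ∈ 𝔫₁.comap f, ∀ z' : ↥(s18tInt ↥(s18dVal 𝔸 E) t₀),
      coeffMap (frobenius (ResidueField ↥(s18dVal 𝔸 E)) q)
          (sqgppRed (modularFunctionFieldFullC E M) hϖ t₀ hcoord z') =
        sqgppRed (modularFunctionFieldFullC E M) hϖ t₀ hcoord z → z' ∈ 𝔫₁.comap a := by
  intro z hz z' hzz'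
  have hq : q.Prime := Fact.out
  have h₁ := ssvmar_frob₁ 𝔸 E M hA hqM hϖ Ξ G h (z : ↥(modularFunctionFieldFullC E M))
    (z' : ↥(modularFunctionFieldFullC E M))
    (ssgfl_int_le_vO (modularFunctionFieldFullC E M) hϖ t₀ hcoord z.2)
    (ssgfl_int_le_vO (modularFunctionFieldFullC E M) hϖ t₀ hcoord z'.2) hzz'
  have h2 : a z' ^ q - f z ∈ 𝔫₁ := by
    apply hon
    show ((a z' : ↥(s18tInt ↥(s18dVal 𝔸 E) t₁)) : ↥(modularFunctionFieldFullC E (M * q))) ^ q -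
      ((f z : ↥(s18tInt ↥(s18dVal 𝔸 E) t₁)) : ↥(modularFunctionFieldFullC E (M * q))) ∈
        h.V₁.nonunits
    rw [ha, hf]
    exact h₁
  have h3 : a z' ^ q ∈ 𝔫₁ := by
    have := 𝔫₁.add_mem h2 (Ideal.mem_comap.mp hz)
    rwa [sub_add_cancel] at this
  exact Ideal.mem_comap.mpr (h𝔫₁.mem_of_pow_mem q h3)

set_option maxHeartbeats 1000000 in
/-- **(PAR⁺) on the modular tower** : `t₀` a chart coordinate of `F_E(M)` given by an integer series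
(`j`, `j⁻¹`, `h_a`, `h_a⁻¹`), `𝔫₁` a point of `W₁` of the level-`Mq` chart `t₁`, `𝔰 = 𝔫₁ ∩ α₁ P₀`,
`𝔰' = 𝔫₁ ∩ φ₁ P₀` (maximal).  If `y` is a local parameter at `𝔰` (`hgen`-shape of
`ssgb_exists_local_gen`) and `red y⁺ = Fr (red y)`, then `y⁺` is a local parameter at `𝔰'`. -/
theorem sqgpp_conc [CharP (ResidueField ↥(s18dVal 𝔸 E)) q] (hA : 𝔸.LiesOverPrime q) (hqM : ¬ q ∣ M) {ϖ : ↥(s18dVal 𝔸 E)}
    (hϖ : Irreducible ϖ) (Ξ G : (↥(ssvmmR 𝔸 E M q))[X])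
    (h : SsvAmb (ssvmmR 𝔸 E M q) (ssvmgRUnif (ssvmm_le E M q) ϖ) (ssvmmY E M q) Ξ
        (X - C (ssvmmJ 𝔸 E M q ^ q)) (X ^ q - C (ssvmmJ 𝔸 E M q)) G)
    (υ : LaurentSeries ℤ) (t₀ : ↥(modularFunctionFieldFullC E M))
    (ht₀ : (t₀ : LaurentSeries ↥E) = grdSer υ ↥E)
    (hcoord : S18Coord hϖ (modularFunctionFieldFullC E M) t₀) (H : GrdfbHyp hϖ t₀)
    (htr : Transcendental ↥E t₀) [FiniteDimensional ↥E⟮t₀⟯ ↥(modularFunctionFieldFullC E M)]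
    (t₁ : ↥(modularFunctionFieldFullC E (M * q)))
    (a f : ↥(s18tInt ↥(s18dVal 𝔸 E) t₀) →+* ↥(s18tInt ↥(s18dVal 𝔸 E) t₁))
    (ha : ∀ x : ↥(s18tInt ↥(s18dVal 𝔸 E) t₀),
      ((a x : ↥(s18tInt ↥(s18dVal 𝔸 E) t₁)) : ↥(modularFunctionFieldFullC E (M * q))) =
        ssvmdIncl E M q (x : ↥(modularFunctionFieldFullC E M)))
    (hf : ∀ x : ↥(s18tInt ↥(s18dVal 𝔸 E) t₀),
      ((f x : ↥(s18tInt ↥(s18dVal 𝔸 E) t₁)) : ↥(modularFunctionFieldFullC E (M * q))) =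
        ssvmfPhi E M q (x : ↥(modularFunctionFieldFullC E M)))
    (𝔫₁ : Ideal ↥(s18tInt ↥(s18dVal 𝔸 E) t₁)) (h𝔫₁ : 𝔫₁.IsPrime)
    (hon : ∀ p : ↥(s18tInt ↥(s18dVal 𝔸 E) t₁),
      (p : ↥(modularFunctionFieldFullC E (M * q))) ∈ h.V₁.nonunits → p ∈ 𝔫₁)
    (h𝔰' : (𝔫₁.comap f).IsMaximal)
    (y : ↥(s18tInt ↥(s18dVal 𝔸 E) t₀)) (hy : y ∈ 𝔫₁.comap a)
    (hgen : ∀ x ∈ 𝔫₁.comap a, ∃ s : ↥(s18tInt ↥(s18dVal 𝔸 E) t₀), s ∉ 𝔫₁.comap a ∧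
      ∃ c b : ↥(s18tInt ↥(s18dVal 𝔸 E) t₀), s * x = c * sskPi ϖ t₀ + b * y)
    (y' : ↥(s18tInt ↥(s18dVal 𝔸 E) t₀))
    (hy' : sqgppRed (modularFunctionFieldFullC E M) hϖ t₀ hcoord y' =
      coeffMap (frobenius (ResidueField ↥(s18dVal 𝔸 E)) q)
        (sqgppRed (modularFunctionFieldFullC E M) hϖ t₀ hcoord y)) :
    y' ∈ 𝔫₁.comap f ∧ ∀ x ∈ 𝔫₁.comap f, ∃ s : ↥(s18tInt ↥(s18dVal 𝔸 E) t₀), s ∉ 𝔫₁.comap f ∧
      ∃ c b : ↥(s18tInt ↥(s18dVal 𝔸 E) t₀), s * x = c * sskPi ϖ t₀ + b * y' := by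
  have hq : q.Prime := Fact.out
  have hsurj := ssgfl_frobenius_surjective_dVal 𝔸 E q
  have hlift := fun b : ↥(s18tInt ↥(s18dVal 𝔸 E) t₀) =>
    ssgfl_frob_lift_int hϖ (s18d_natCast_mem 𝔸 E hA) M hqM υ t₀ ht₀ hcoord H
      (frobenius (ResidueField ↥(s18dVal 𝔸 E)) q) hsurj b.2
  haveI : (𝔫₁.comap a).IsPrime := Ideal.comap_isPrime a 𝔫₁
  refine sqgpp_abs hϖ t₀ hcoord htr (coeffMap (frobenius (ResidueField ↥(s18dVal 𝔸 E)) q))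
    (fun b => ?_) (fun b => ?_) (𝔫₁.comap a) (𝔫₁.comap f) (Ideal.IsPrime.ne_top inferInstance) h𝔰'
    (sqgpp_tw 𝔸 E M hA hqM hϖ Ξ G h t₀ hcoord t₁ a f ha hf 𝔫₁ h𝔫₁ hon) y hy hgen y' hy'
  · obtain ⟨b', hb', hbb'⟩ := (hlift b).1
    exact ⟨⟨b', hb'⟩, hbb'⟩
  · obtain ⟨b', hb', hbb'⟩ := (hlift b).2
    exact ⟨⟨b', hb'⟩, hbb'⟩

set_option maxHeartbeats 1000000 in
/-- **(PAR⁺), existence form** : for `𝔫₁` MAXIMAL on `W₁` and `f = φ₁|P₀` integral: every local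
parameter `y` at `𝔰 = 𝔫₁ ∩ α₁ P₀` has a Frobenius twist `y⁺ ∈ P₀` (`red y⁺ = Fr (red y)`) which is a
local parameter at `𝔰' = 𝔫₁ ∩ φ₁ P₀`. -/
theorem sqgpp_exists [CharP (ResidueField ↥(s18dVal 𝔸 E)) q] (hA : 𝔸.LiesOverPrime q)
    (hqM : ¬ q ∣ M) {ϖ : ↥(s18dVal 𝔸 E)}
    (hϖ : Irreducible ϖ) (Ξ G : (↥(ssvmmR 𝔸 E M q))[X])
    (h : SsvAmb (ssvmmR 𝔸 E M q) (ssvmgRUnif (ssvmm_le E M q) ϖ) (ssvmmY E M q) Ξ
        (X - C (ssvmmJ 𝔸 E M q ^ q)) (X ^ q - C (ssvmmJ 𝔸 E M q)) G)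
    (υ : LaurentSeries ℤ) (t₀ : ↥(modularFunctionFieldFullC E M))
    (ht₀ : (t₀ : LaurentSeries ↥E) = grdSer υ ↥E)
    (hcoord : S18Coord hϖ (modularFunctionFieldFullC E M) t₀) (H : GrdfbHyp hϖ t₀)
    (htr : Transcendental ↥E t₀) [FiniteDimensional ↥E⟮t₀⟯ ↥(modularFunctionFieldFullC E M)]
    (t₁ : ↥(modularFunctionFieldFullC E (M * q)))
    (a f : ↥(s18tInt ↥(s18dVal 𝔸 E) t₀) →+* ↥(s18tInt ↥(s18dVal 𝔸 E) t₁))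
    (ha : ∀ x : ↥(s18tInt ↥(s18dVal 𝔸 E) t₀),
      ((a x : ↥(s18tInt ↥(s18dVal 𝔸 E) t₁)) : ↥(modularFunctionFieldFullC E (M * q))) =
        ssvmdIncl E M q (x : ↥(modularFunctionFieldFullC E M)))
    (hf : ∀ x : ↥(s18tInt ↥(s18dVal 𝔸 E) t₀),
      ((f x : ↥(s18tInt ↥(s18dVal 𝔸 E) t₁)) : ↥(modularFunctionFieldFullC E (M * q))) =
        ssvmfPhi E M q (x : ↥(modularFunctionFieldFullC E M)))
    (hfint : f.IsIntegral)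
    (𝔫₁ : Ideal ↥(s18tInt ↥(s18dVal 𝔸 E) t₁)) (h𝔫₁ : 𝔫₁.IsMaximal)
    (hon : ∀ p : ↥(s18tInt ↥(s18dVal 𝔸 E) t₁),
      (p : ↥(modularFunctionFieldFullC E (M * q))) ∈ h.V₁.nonunits → p ∈ 𝔫₁)
    (y : ↥(s18tInt ↥(s18dVal 𝔸 E) t₀)) (hy : y ∈ 𝔫₁.comap a)
    (hgen : ∀ x ∈ 𝔫₁.comap a, ∃ s : ↥(s18tInt ↥(s18dVal 𝔸 E) t₀), s ∉ 𝔫₁.comap a ∧
      ∃ c b : ↥(s18tInt ↥(s18dVal 𝔸 E) t₀), s * x = c * sskPi ϖ t₀ + b * y) :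
    (𝔫₁.comap f).IsMaximal ∧ ∃ y' : ↥(s18tInt ↥(s18dVal 𝔸 E) t₀),
      sqgppRed (modularFunctionFieldFullC E M) hϖ t₀ hcoord y' =
        coeffMap (frobenius (ResidueField ↥(s18dVal 𝔸 E)) q)
          (sqgppRed (modularFunctionFieldFullC E M) hϖ t₀ hcoord y) ∧
      y' ∈ 𝔫₁.comap f ∧ ∀ x ∈ 𝔫₁.comap f, ∃ s : ↥(s18tInt ↥(s18dVal 𝔸 E) t₀), s ∉ 𝔫₁.comap f ∧
        ∃ c b : ↥(s18tInt ↥(s18dVal 𝔸 E) t₀), s * x = c * sskPi ϖ t₀ + b * y' := by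
  have h𝔰' : (𝔫₁.comap f).IsMaximal :=
    Ideal.isMaximal_comap_of_isIntegral_of_isMaximal' f hfint 𝔫₁
  refine ⟨h𝔰', ?_⟩
  obtain ⟨y', hy', hyy'⟩ := (ssgfl_frob_lift_int hϖ (s18d_natCast_mem 𝔸 E hA) M hqM υ t₀ ht₀ hcoord H
      (frobenius (ResidueField ↥(s18dVal 𝔸 E)) q) (ssgfl_frobenius_surjective_dVal 𝔸 E q) y.2).1
  exact ⟨⟨y', hy'⟩, hyy', sqgpp_conc 𝔸 E M hA hqM hϖ Ξ G h υ t₀ ht₀ hcoord H htr t₁ a f ha hf 𝔫₁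
    h𝔫₁.isPrime hon h𝔰' y hy hgen ⟨y', hy'⟩ hyy'⟩

end Modular

end Fermat.Agent.SQ
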