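/-
Program Q (S36), risk R1, (T2-x) : THE LEVEL-`M q` POINT PACKAGE (helper13, literal of helper10's
board message 2841(2)).

`𝔸 | q`, `E` a number field, `A₀ = 𝔸 ∩ E`, `q ∤ M`, `F₀ = F_E(M)`, `F₁ = F_E(M q)`, `α₁ = ssvmdIncl`,
`φ₁ = ssvmfPhi`, `t₀` a good chart coordinate of `F₀` given by an integer series, `P₀ = s18tInt A₀ t₀`,
`P₁ = s18tInt A₀ t₁ ⊇ α₁ P₀, φ₁ P₀`, `𝔫₁` a NON-CUSPIDAL closed point of `P₁` on `W₁ = h.V₁`,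
`𝔰 = α₁⁻¹ 𝔫₁`, `𝔰' = φ₁⁻¹ 𝔫₁`.  Then there are

* `y ∈ P₀` a local parameter at `𝔰` (main's `ssgb_exists_local_gen`),
* `y' = y⁺ ∈ P₀` with `red y' = Fr (red y)`, a local parameter at `𝔰'` (helper18's (PAR⁺) `sqgpp_exists`),
* `θ (red y) ≠ 0`, `D y` a Gauss unit (`sqgpc_der_unit_dVal`, `SQ/Germ/DerivConc.lean`),
* `SqgkHor ↥E t₁ 𝔫₁ (sqgvGxy E M q y y')` (helper15's (K-x) `sqgkx_sqgkHor`).

`sqgtq_point_full` keeps all the by-products; `sqgtq_point` is helper10's literal.  Prefix `sqgtq`.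
-/
import Mathlib
import Fermat.Agent.SQ.Germ.DerivConc
import Fermat.Agent.SQ.Germ.DerivUnitXOrd
import Fermat.Agent.SQ.Germ.ParPlus
import Fermat.Agent.SS.Germ.Base

set_option autoImplicit false
set_option linter.unusedSectionVars false
set_option linter.unusedVariables false
set_option linter.style.haveILetI false
set_option synthInstance.maxHeartbeats 400000

noncomputable section

namespace Fermat.Agent.SQ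

open Polynomial IntermediateField AlgebraicCurve Fermat.Agent.S24 Fermat.Agent.S18
  Fermat.Agent.SS Fermat.Agent.G ModularCurve IsLocalRing

local notation "Qb" => AlgebraicClosure ℚ

variable {q : ℕ} [Fact q.Prime] [NeZero q] (𝔸 : ValuationSubring Qb) (E : IntermediateField ℚ Qb)
  [FiniteDimensional ℚ E]
  [IsDiscreteValuationRing ↥(s18dVal 𝔸 E)] [CharZero ↥(s18dVal 𝔸 E)] (M : ℕ) [NeZero M]

/-- `α₁` maps the constant `ϖ` of `P₀` to the constant `ϖ` of `P₁`. -/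
theorem sqgtq_res_pi {ϖ : ↥(s18dVal 𝔸 E)}
    {t₀ : modularFunctionFieldFullC E M} {t₁ : modularFunctionFieldFullC E (M * q)}
    (hαP : ∀ x ∈ s18tInt ↥(s18dVal 𝔸 E) t₀,
      (ssvmdIncl E M q).toRingHom x ∈ s18tInt ↥(s18dVal 𝔸 E) t₁) :
    sqgpdRes (ssvmdIncl E M q).toRingHom hαP (sskPi ϖ t₀) = sskPi ϖ t₁ := by
  apply Subtype.ext
  show (ssvmdIncl E M q) (algebraMap ↥(s18dVal 𝔸 E) (modularFunctionFieldFullC E M) ϖ) =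
    algebraMap ↥(s18dVal 𝔸 E) (modularFunctionFieldFullC E (M * q)) ϖ
  rw [IsScalarTower.algebraMap_apply ↥(s18dVal 𝔸 E) ↥E (modularFunctionFieldFullC E M),
    IsScalarTower.algebraMap_apply ↥(s18dVal 𝔸 E) ↥E (modularFunctionFieldFullC E (M * q)),
    AlgHom.commutes]

set_option maxHeartbeats 6400000 in
/-- **THE LEVEL-`M q` POINT PACKAGE, with all by-products.** -/
theorem sqgtq_point_full [CharP (ResidueField ↥(s18dVal 𝔸 E)) q] (hA : 𝔸.LiesOverPrime q)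
    (hqM : ¬ q ∣ M) {ϖ : ↥(s18dVal 𝔸 E)} (hϖ : Irreducible ϖ)
    (Ξ G : (↥(ssvmmR 𝔸 E M q))[X])
    (h : SsvAmb (ssvmmR 𝔸 E M q) (ssvmgRUnif (ssvmm_le E M q) ϖ) (ssvmmY E M q) Ξ
        (X - C (ssvmmJ 𝔸 E M q ^ q)) (X ^ q - C (ssvmmJ 𝔸 E M q)) G)
    (r : ℕ) (hr : r.Prime) (hrM : r ∣ M) (hr3 : r % 3 = 2)
    (r' : ℕ) (hr' : r'.Prime) (hr'M : r' ∣ M) (hr4 : r' % 4 = 3)
    (υ : LaurentSeries ℤ) (t₀ : ↥(modularFunctionFieldFullC E M))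
    (ht₀ : (t₀ : LaurentSeries ↥E) = grdSer υ ↥E)
    (hcoord : S18Coord hϖ (modularFunctionFieldFullC E M) t₀) (H : GrdfbHyp hϖ t₀)
    (htr : Transcendental ↥E t₀) [FiniteDimensional ↥E⟮t₀⟯ ↥(modularFunctionFieldFullC E M)]
    {t₁ : ↥(modularFunctionFieldFullC E (M * q))}
    (hαP : ∀ x ∈ s18tInt ↥(s18dVal 𝔸 E) t₀,
      (ssvmdIncl E M q).toRingHom x ∈ s18tInt ↥(s18dVal 𝔸 E) t₁)
    (hφP : ∀ x ∈ s18tInt ↥(s18dVal 𝔸 E) t₀, ssvmfPhi E M q x ∈ s18tInt ↥(s18dVal 𝔸 E) t₁)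
    (hφint : (sqgpdRes (ssvmfPhi E M q) hφP).IsIntegral)
    (𝔫₁ : Ideal ↥(s18tInt ↥(s18dVal 𝔸 E) t₁)) (h𝔫₁ : 𝔫₁.IsMaximal)
    (hϖ𝔫₁ : sskPi ϖ t₁ ∈ 𝔫₁)
    (hon : ∀ p : ↥(s18tInt ↥(s18dVal 𝔸 E) t₁),
      (p : ↥(modularFunctionFieldFullC E (M * q))) ∈ h.V₁.nonunits → p ∈ 𝔫₁)
    (h𝔰 : (𝔫₁.comap (sqgpdRes (ssvmdIncl E M q).toRingHom hαP)).IsMaximal)
    (hj𝔰 : SsnfInLoc t₀ (𝔫₁.comap (sqgpdRes (ssvmdIncl E M q).toRingHom hαP)) (ssvmdJ E M))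
    (hj𝔫 : SsnfInLoc t₁ 𝔫₁ (ssdJ E (M * q)))
    (hy𝔫 : SsnfInLoc t₁ 𝔫₁ (ssvmfPhi E M q (ssdJ E M))) :
    (𝔫₁.comap (sqgpdRes (ssvmfPhi E M q) hφP)).IsMaximal ∧
    ∃ y y' : ↥(s18tInt ↥(s18dVal 𝔸 E) t₀),
      y ∈ 𝔫₁.comap (sqgpdRes (ssvmdIncl E M q).toRingHom hαP) ∧
      (∀ x ∈ 𝔫₁.comap (sqgpdRes (ssvmdIncl E M q).toRingHom hαP),
        ∃ s : ↥(s18tInt ↥(s18dVal 𝔸 E) t₀),
          s ∉ 𝔫₁.comap (sqgpdRes (ssvmdIncl E M q).toRingHom hαP) ∧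
          ∃ c b : ↥(s18tInt ↥(s18dVal 𝔸 E) t₀), s * x = c * sskPi ϖ t₀ + b * y) ∧
      y' ∈ 𝔫₁.comap (sqgpdRes (ssvmfPhi E M q) hφP) ∧
      (∀ x ∈ 𝔫₁.comap (sqgpdRes (ssvmfPhi E M q) hφP),
        ∃ s : ↥(s18tInt ↥(s18dVal 𝔸 E) t₀), s ∉ 𝔫₁.comap (sqgpdRes (ssvmfPhi E M q) hφP) ∧
          ∃ c b : ↥(s18tInt ↥(s18dVal 𝔸 E) t₀), s * x = c * sskPi ϖ t₀ + b * y') ∧
      sqgvDer E M (y : modularFunctionFieldFullC E M) ≠ 0 ∧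
      (sqgvDer E M (y : modularFunctionFieldFullC E M))⁻¹ ∈
        s18vO ↥(s18dVal 𝔸 E) (modularFunctionFieldFullC E M) ∧
      sqvtTheta (ResidueField ↥(s18dVal 𝔸 E)) (s18vcRed (modularFunctionFieldFullC E M)
        ⟨(y : modularFunctionFieldFullC E M), ssgfl_int_le_vO _ hϖ t₀ hcoord y.2⟩) ≠ 0 ∧
      coeffMap (frobenius (ResidueField ↥(s18dVal 𝔸 E)) q)
          (s18vcRed (modularFunctionFieldFullC E M)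
            ⟨(y : modularFunctionFieldFullC E M), ssgfl_int_le_vO _ hϖ t₀ hcoord y.2⟩) =
        s18vcRed (modularFunctionFieldFullC E M)
          ⟨(y' : modularFunctionFieldFullC E M), ssgfl_int_le_vO _ hϖ t₀ hcoord y'.2⟩ ∧
      SqgkHor ↥E t₁ 𝔫₁ (sqgvGxy E M q (y : modularFunctionFieldFullC E M)
        (y' : modularFunctionFieldFullC E M)) := by
  haveI hperfF : PerfectField (ResidueField ↥(s18dVal 𝔸 E)) :=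
    sqgpc_perfectField_dVal 𝔸 E hA hϖ
  haveI := h𝔰
  -- `ϖ ∈ 𝔰`
  have hϖ𝔰 : sskPi ϖ t₀ ∈ 𝔫₁.comap (sqgpdRes (ssvmdIncl E M q).toRingHom hαP) := by
    rw [Ideal.mem_comap, sqgtq_res_pi 𝔸 E M hαP]
    exact hϖ𝔫₁
  -- the local parameter `y` at `𝔰`
  obtain ⟨y, hy𝔰, hgen⟩ := ssgb_exists_local_gen (L := ↥E) hϖ t₀ htr H
    (𝔫₁.comap (sqgpdRes (ssvmdIncl E M q).toRingHom hαP)) h𝔰 hϖ𝔰
  -- (PAR⁺)
  obtain ⟨h𝔰', y', hfr, hy'𝔰', hgen'⟩ := sqgpp_exists 𝔸 E M hA hqM hϖ Ξ G h υ t₀ ht₀ hcoord H htr t₁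
    (sqgpdRes (ssvmdIncl E M q).toRingHom hαP) (sqgpdRes (ssvmfPhi E M q) hφP)
    (fun x => rfl) (fun x => rfl) hφint 𝔫₁ h𝔫₁ hon y hy𝔰 hgen
  -- (DER)
  obtain ⟨hD0, hDinv, hθ⟩ := sqgpc_der_unit_dVal 𝔸 E M hA hϖ t₀ hcoord H
    (𝔫₁.comap (sqgpdRes (ssvmdIncl E M q).toRingHom hαP)) hϖ𝔰 y hy𝔰 hgen hj𝔰
  refine ⟨h𝔰', y, y', hy𝔰, hgen, hy'𝔰', hgen', hD0, hDinv, hθ, ?_, ?_⟩
  · rw [sqgppRed_apply, sqgppRed_apply] at hfr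
    exact hfr.symm
  · -- (K-x)
    have one_not : ∀ (𝔞 : Ideal ↥(s18tInt ↥(s18dVal 𝔸 E) t₀)), 𝔞.IsMaximal →
        (1 : ↥(s18tInt ↥(s18dVal 𝔸 E) t₀)) ∉ 𝔞 := fun 𝔞 h𝔞 h1 =>
      h𝔞.ne_top ((Ideal.eq_top_iff_one _).mpr h1)
    refine sqgkx_sqgkHor 𝔸 E M hϖ hqM r hr hrM hr3 r' hr' hr'M hr4 htr hαP hφP 𝔫₁ hj𝔫 hy𝔫 hϖ𝔫₁
      h𝔰 h𝔰' (y : modularFunctionFieldFullC E M) (y' : modularFunctionFieldFullC E M) y.2 y'.2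
      ?_ ⟨1, one_not _ h𝔰, y, hy𝔰, by rw [OneMemClass.coe_one, one_mul]⟩
      ?_ ⟨1, one_not _ h𝔰', y', hy'𝔰', by rw [OneMemClass.coe_one, one_mul]⟩
    · intro x hx
      obtain ⟨s, hs, c, b, hscb⟩ := hgen x hx
      refine ⟨s, hs, c, b, ?_⟩
      have := congrArg (Subtype.val : ↥(s18tInt ↥(s18dVal 𝔸 E) t₀) → _) hscb
      simp only [Subring.coe_mul, Subring.coe_add] at this
      exact this
    · intro x hx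
      obtain ⟨s, hs, c, b, hscb⟩ := hgen' x hx
      refine ⟨s, hs, c, b, ?_⟩
      have := congrArg (Subtype.val : ↥(s18tInt ↥(s18dVal 𝔸 E) t₀) → _) hscb
      simp only [Subring.coe_mul, Subring.coe_add] at this
      exact this

/-- **THE LEVEL-`M q` POINT PACKAGE** (helper10's literal 2841(2)). -/
theorem sqgtq_point [CharP (ResidueField ↥(s18dVal 𝔸 E)) q] (hA : 𝔸.LiesOverPrime q)
    (hqM : ¬ q ∣ M) {ϖ : ↥(s18dVal 𝔸 E)} (hϖ : Irreducible ϖ)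
    (Ξ G : (↥(ssvmmR 𝔸 E M q))[X])
    (h : SsvAmb (ssvmmR 𝔸 E M q) (ssvmgRUnif (ssvmm_le E M q) ϖ) (ssvmmY E M q) Ξ
        (X - C (ssvmmJ 𝔸 E M q ^ q)) (X ^ q - C (ssvmmJ 𝔸 E M q)) G)
    (r : ℕ) (hr : r.Prime) (hrM : r ∣ M) (hr3 : r % 3 = 2)
    (r' : ℕ) (hr' : r'.Prime) (hr'M : r' ∣ M) (hr4 : r' % 4 = 3)
    (υ : LaurentSeries ℤ) (t₀ : ↥(modularFunctionFieldFullC E M))
    (ht₀ : (t₀ : LaurentSeries ↥E) = grdSer υ ↥E)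
    (hcoord : S18Coord hϖ (modularFunctionFieldFullC E M) t₀) (H : GrdfbHyp hϖ t₀)
    (htr : Transcendental ↥E t₀) [FiniteDimensional ↥E⟮t₀⟯ ↥(modularFunctionFieldFullC E M)]
    {t₁ : ↥(modularFunctionFieldFullC E (M * q))}
    (hαP : ∀ x ∈ s18tInt ↥(s18dVal 𝔸 E) t₀,
      (ssvmdIncl E M q).toRingHom x ∈ s18tInt ↥(s18dVal 𝔸 E) t₁)
    (hφP : ∀ x ∈ s18tInt ↥(s18dVal 𝔸 E) t₀, ssvmfPhi E M q x ∈ s18tInt ↥(s18dVal 𝔸 E) t₁)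
    (hφint : (sqgpdRes (ssvmfPhi E M q) hφP).IsIntegral)
    (𝔫₁ : Ideal ↥(s18tInt ↥(s18dVal 𝔸 E) t₁)) (h𝔫₁ : 𝔫₁.IsMaximal)
    (hϖ𝔫₁ : sskPi ϖ t₁ ∈ 𝔫₁)
    (hon : ∀ p : ↥(s18tInt ↥(s18dVal 𝔸 E) t₁),
      (p : ↥(modularFunctionFieldFullC E (M * q))) ∈ h.V₁.nonunits → p ∈ 𝔫₁)
    (h𝔰 : (𝔫₁.comap (sqgpdRes (ssvmdIncl E M q).toRingHom hαP)).IsMaximal)
    (hj𝔰 : SsnfInLoc t₀ (𝔫₁.comap (sqgpdRes (ssvmdIncl E M q).toRingHom hαP)) (ssvmdJ E M))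
    (hj𝔫 : SsnfInLoc t₁ 𝔫₁ (ssdJ E (M * q)))
    (hy𝔫 : SsnfInLoc t₁ 𝔫₁ (ssvmfPhi E M q (ssdJ E M))) :
    ∃ (y y' : ↥(modularFunctionFieldFullC E M))
      (hy : y ∈ s18vO ↥(s18dVal 𝔸 E) (modularFunctionFieldFullC E M))
      (hy' : y' ∈ s18vO ↥(s18dVal 𝔸 E) (modularFunctionFieldFullC E M)),
      y ∈ s18tInt ↥(s18dVal 𝔸 E) t₀ ∧ y' ∈ s18tInt ↥(s18dVal 𝔸 E) t₀ ∧
      sqvtTheta (ResidueField ↥(s18dVal 𝔸 E))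
        (s18vcRed (modularFunctionFieldFullC E M) ⟨y, hy⟩) ≠ 0 ∧
      coeffMap (frobenius (ResidueField ↥(s18dVal 𝔸 E)) q)
          (s18vcRed (modularFunctionFieldFullC E M) ⟨y, hy⟩) =
        s18vcRed (modularFunctionFieldFullC E M) ⟨y', hy'⟩ ∧
      SqgkHor ↥E t₁ 𝔫₁ (sqgvGxy E M q y y') := by
  obtain ⟨-, y, y', -, -, -, -, -, -, hθ, hfr, hhor⟩ := sqgtq_point_full 𝔸 E M hA hqM hϖ Ξ G h
    r hr hrM hr3 r' hr' hr'M hr4 υ t₀ ht₀ hcoord H htr hαP hφP hφint 𝔫₁ h𝔫₁ hϖ𝔫₁ hon h𝔰 hj𝔰 hj𝔫 hy𝔫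
  exact ⟨y, y', ssgfl_int_le_vO _ hϖ t₀ hcoord y.2, ssgfl_int_le_vO _ hϖ t₀ hcoord y'.2,
    y.2, y'.2, hθ, hfr, hhor⟩

end Fermat.Agent.SQ
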